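/-
S29-KUM (helper8217): Kummer classes in the Prelude vocabulary.

For a function field `F/K` in the sense of `AlgebraicCurve` (places = discrete valuation
subrings containing `K`, `Pic0 K F` = degree-zero divisors modulo principal ones) this file
provides the dictionary

  `n`-torsion classes of `Pic0 K F`   <->   functions `u` with `n ∣ ord_v u` at every place,

together with its compatibility with automorphisms (semilinear ones included), pull-back,
push-forward (norm), correspondences, and the Hecke operators of the Prelude on `JZero N`.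
-/
import Fermat.Prelude.Def_ModularCurve_HeckeModule

set_option autoImplicit false

noncomputable section

namespace Fermat.Agent.S29.helper8217

open AlgebraicCurve

/-! ### Generalities on `Pic0.mk` -/

section PicBasics

variable {K F : Type*} [Field K] [Field F] [Algebra K F]

theorem mk_eq_zero_iff (D : Divisor.degZero (K := K) (F := F)) :
    Pic0.mk D = 0 ↔ (D : Divisor K F) ∈ Divisor.principal (K := K) (F := F) := by
  unfold Pic0.mk
  rw [QuotientAddGroup.eq_zero_iff, AddSubgroup.mem_addSubgroupOf]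

theorem mk_eq_mk_of_coe_eq {D E : Divisor.degZero (K := K) (F := F)}
    (h : (D : Divisor K F) = (E : Divisor K F)) : Pic0.mk D = Pic0.mk E :=
  congrArg Pic0.mk (Subtype.ext h)

theorem zsmul_mk (m : ℤ) (D : Divisor.degZero (K := K) (F := F)) :
    m • Pic0.mk D = Pic0.mk (m • D) := rfl

end PicBasics

/-! ### The divisor of a function and the Kummer divisor -/

section Divisors

variable (K : Type*) {F : Type*} [Field K] [Field F] [Algebra K F]

/-- `u` is an `n`-Kummer element: nonzero, and every order of `u` is divisible by `n`. -/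
def IsKummer (n : ℕ) (u : F) : Prop :=
  u ≠ 0 ∧ ∀ v : Place K F, (n : ℤ) ∣ v.ord u

variable [HasPrincipalDivisors K F]

theorem finite_support_ord (u : F) :
    (Function.support fun v : Place K F => v.ord u).Finite := by
  rcases eq_or_ne u 0 with rfl | hu
  · have : (Function.support fun v : Place K F => v.ord (0 : F)) = ∅ := by
      ext v
      simp
    rw [this]
    exact Set.finite_empty
  · obtain ⟨D, hD, -⟩ := HasPrincipalDivisors.exists_divisor (K := K) u hu
    refine D.support.finite_toSet.subset ?_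
    intro v hv
    simp only [Finset.mem_coe, Finsupp.mem_support_iff, hD v]
    exact hv

/-- The divisor of a function (zero for `u = 0`). -/
def divOf (u : F) : Divisor K F :=
  Finsupp.ofSupportFinite (fun v => v.ord u) (finite_support_ord K u)

@[simp]
theorem divOf_apply (u : F) (v : Place K F) : divOf K u v = v.ord u := rfl

theorem degree_divOf {u : F} (hu : u ≠ 0) : Divisor.degree (divOf K u) = 0 := by
  obtain ⟨D, hD, hdeg⟩ := HasPrincipalDivisors.exists_divisor (K := K) u hu
  have : divOf K u = D := Finsupp.ext fun v => (hD v).symm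
  rw [this, hdeg]

theorem divOf_mem_principal {u : F} (hu : u ≠ 0) :
    divOf K u ∈ Divisor.principal (K := K) (F := F) :=
  ⟨u, hu, fun _ => rfl⟩

theorem eq_divOf_of_forall {D : Divisor K F} {u : F} (h : ∀ v : Place K F, D v = v.ord u) :
    D = divOf K u :=
  Finsupp.ext h

theorem divOf_mul {u u' : F} (hu : u ≠ 0) (hu' : u' ≠ 0) :
    divOf K (u * u') = divOf K u + divOf K u' :=
  Finsupp.ext fun v => v.ord_mul hu hu'

theorem divOf_inv (u : F) : divOf K u⁻¹ = -divOf K u :=
  Finsupp.ext fun v => v.ord_inv u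

theorem divOf_pow (u : F) (n : ℕ) : divOf K (u ^ n) = (n : ℤ) • divOf K u :=
  Finsupp.ext fun v => by
    rw [Finsupp.smul_apply, divOf_apply, divOf_apply, ← zpow_natCast, v.ord_zpow, smul_eq_mul]

/-- The divisor `v ↦ ord_v u / n`. -/
def kummerDivisor (n : ℕ) (u : F) : Divisor K F :=
  (divOf K u).mapRange (fun a : ℤ => a / (n : ℤ)) (Int.zero_ediv _)

@[simp]
theorem kummerDivisor_apply (n : ℕ) (u : F) (v : Place K F) :
    kummerDivisor K n u v = v.ord u / (n : ℤ) := rfl

variable {K}

omit [HasPrincipalDivisors K F] in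
theorem IsKummer.ne_zero {n : ℕ} {u : F} (h : IsKummer K n u) : u ≠ 0 := h.1

omit [HasPrincipalDivisors K F] in
theorem IsKummer.mul_ediv_cancel {n : ℕ} {u : F} (h : IsKummer K n u) (v : Place K F) :
    (n : ℤ) * (v.ord u / (n : ℤ)) = v.ord u :=
  Int.mul_ediv_cancel' (h.2 v)

theorem zsmul_kummerDivisor {n : ℕ} {u : F} (h : IsKummer K n u) :
    (n : ℤ) • kummerDivisor K n u = divOf K u :=
  Finsupp.ext fun v => by
    rw [Finsupp.smul_apply, kummerDivisor_apply, divOf_apply, smul_eq_mul, h.mul_ediv_cancel v]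

theorem degree_kummerDivisor {n : ℕ} {u : F} (h : IsKummer K n u) :
    Divisor.degree (kummerDivisor K n u) = 0 := by
  rcases Nat.eq_zero_or_pos n with rfl | hn
  · have : kummerDivisor K 0 u = 0 := Finsupp.ext fun v => by
      simp [kummerDivisor_apply]
    rw [this, map_zero]
  · have h1 : (n : ℤ) • Divisor.degree (kummerDivisor K n u) = 0 := by
      rw [← map_zsmul, zsmul_kummerDivisor h, degree_divOf K h.ne_zero]
    rw [smul_eq_mul] at h1
    rcases mul_eq_zero.mp h1 with h2 | h2
    · omega
    · exact h2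

theorem kummerDivisor_mem_degZero {n : ℕ} {u : F} (h : IsKummer K n u) :
    kummerDivisor K n u ∈ Divisor.degZero (K := K) (F := F) :=
  Divisor.mem_degZero.mpr (degree_kummerDivisor h)

/-- If `n • D = div u` with `n ≠ 0` then `u` is Kummer and `D` is its Kummer divisor. -/
theorem isKummer_of_zsmul_eq {n : ℕ} (hn : n ≠ 0) {u : F} (hu : u ≠ 0) {D : Divisor K F}
    (h : ∀ v : Place K F, (n : ℤ) * D v = v.ord u) :
    IsKummer K n u ∧ kummerDivisor K n u = D := by
  refine ⟨⟨hu, fun v => ⟨D v, (h v).symm⟩⟩, Finsupp.ext fun v => ?_⟩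
  rw [kummerDivisor_apply, ← h v]
  exact Int.mul_ediv_cancel_left _ (by exact_mod_cast hn)

omit [HasPrincipalDivisors K F] in
theorem isKummer_one (n : ℕ) : IsKummer K n (1 : F) :=
  ⟨one_ne_zero, fun v => by simp⟩

omit [HasPrincipalDivisors K F] in
theorem IsKummer.mul {n : ℕ} {u u' : F} (h : IsKummer K n u) (h' : IsKummer K n u') :
    IsKummer K n (u * u') :=
  ⟨mul_ne_zero h.1 h'.1, fun v => by
    rw [v.ord_mul h.1 h'.1]
    exact dvd_add (h.2 v) (h'.2 v)⟩

omit [HasPrincipalDivisors K F] in
theorem IsKummer.inv {n : ℕ} {u : F} (h : IsKummer K n u) : IsKummer K n u⁻¹ :=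
  ⟨inv_ne_zero h.1, fun v => by
    rw [v.ord_inv]
    exact (dvd_neg).mpr (h.2 v)⟩

omit [HasPrincipalDivisors K F] in
theorem IsKummer.div {n : ℕ} {u u' : F} (h : IsKummer K n u) (h' : IsKummer K n u') :
    IsKummer K n (u / u') := by
  rw [div_eq_mul_inv]
  exact h.mul h'.inv

omit [HasPrincipalDivisors K F] in
theorem IsKummer.pow {n : ℕ} {u : F} (h : IsKummer K n u) (m : ℕ) : IsKummer K n (u ^ m) :=
  ⟨pow_ne_zero m h.1, fun v => by
    rw [← zpow_natCast, v.ord_zpow]
    exact Dvd.dvd.mul_left (h.2 v) _⟩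

omit [HasPrincipalDivisors K F] in
theorem IsKummer.zpow {n : ℕ} {u : F} (h : IsKummer K n u) (m : ℤ) : IsKummer K n (u ^ m) :=
  ⟨zpow_ne_zero m h.1, fun v => by
    rw [v.ord_zpow]
    exact Dvd.dvd.mul_left (h.2 v) _⟩

omit [HasPrincipalDivisors K F] in
theorem isKummer_pow_self (n : ℕ) {w : F} (hw : w ≠ 0) : IsKummer K n (w ^ n) :=
  ⟨pow_ne_zero n hw, fun v => by
    rw [← zpow_natCast, v.ord_zpow]
    exact dvd_mul_right _ _⟩

omit [HasPrincipalDivisors K F] in
theorem isKummer_of_ord_eq_zero (n : ℕ) {c : F} (hc : c ≠ 0)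
    (h : ∀ v : Place K F, v.ord c = 0) : IsKummer K n c :=
  ⟨hc, fun v => by rw [h v]; exact dvd_zero _⟩

theorem kummerDivisor_mul {n : ℕ} {u u' : F} (h : IsKummer K n u) (h' : IsKummer K n u') :
    kummerDivisor K n (u * u') = kummerDivisor K n u + kummerDivisor K n u' :=
  Finsupp.ext fun v => by
    rw [Finsupp.add_apply, kummerDivisor_apply, kummerDivisor_apply, kummerDivisor_apply,
      v.ord_mul h.1 h'.1]
    exact Int.add_ediv_of_dvd_left (h.2 v)

theorem kummerDivisor_inv {n : ℕ} {u : F} (h : IsKummer K n u) :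
    kummerDivisor K n u⁻¹ = -kummerDivisor K n u :=
  Finsupp.ext fun v => by
    rw [Finsupp.neg_apply, kummerDivisor_apply, kummerDivisor_apply, v.ord_inv]
    exact Int.neg_ediv_of_dvd (h.2 v)

theorem kummerDivisor_pow_self {n : ℕ} (hn : n ≠ 0) (w : F) :
    kummerDivisor K n (w ^ n) = divOf K w :=
  Finsupp.ext fun v => by
    rw [kummerDivisor_apply, divOf_apply, ← zpow_natCast, v.ord_zpow]
    exact Int.mul_ediv_cancel_left _ (by exact_mod_cast hn)

theorem kummerDivisor_of_ord_eq_zero (n : ℕ) {c : F} (h : ∀ v : Place K F, v.ord c = 0) :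
    kummerDivisor K n c = 0 :=
  Finsupp.ext fun v => by
    rw [kummerDivisor_apply, h v]
    simp

end Divisors

/-! ### The Kummer class -/

section KummerClass

variable (K : Type*) {F : Type*} [Field K] [Field F] [Algebra K F] [HasPrincipalDivisors K F]

open Classical in
/-- The class of `div(u)/n` in `Pic0 K F` (zero when `u` is not an `n`-Kummer element). -/
def kummerClass (n : ℕ) (u : F) : Pic0 K F :=
  if h : IsKummer K n u then Pic0.mk ⟨kummerDivisor K n u, kummerDivisor_mem_degZero h⟩ else 0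

variable {K}

theorem kummerClass_eq_mk {n : ℕ} {u : F} (h : IsKummer K n u) :
    kummerClass K n u = Pic0.mk ⟨kummerDivisor K n u, kummerDivisor_mem_degZero h⟩ :=
  dif_pos h

theorem kummerClass_of_not {n : ℕ} {u : F} (h : ¬ IsKummer K n u) : kummerClass K n u = 0 :=
  dif_neg h

/-- Characterisation of the Kummer class through any degree-zero divisor `D` with `n • D = div u`. -/
theorem kummerClass_eq_mk_of_eq {n : ℕ} {u : F} (h : IsKummer K n u)
    (D : Divisor.degZero (K := K) (F := F)) (hD : (D : Divisor K F) = kummerDivisor K n u) :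
    kummerClass K n u = Pic0.mk D := by
  rw [kummerClass_eq_mk h]
  exact mk_eq_mk_of_coe_eq hD.symm

theorem zsmul_kummerClass (n : ℕ) (u : F) : (n : ℤ) • kummerClass K n u = 0 := by
  by_cases h : IsKummer K n u
  · rw [kummerClass_eq_mk h, zsmul_mk, mk_eq_zero_iff]
    show (n : ℤ) • kummerDivisor K n u ∈ _
    rw [zsmul_kummerDivisor h]
    exact divOf_mem_principal K h.ne_zero
  · rw [kummerClass_of_not h, smul_zero]

theorem kummerClass_mem_torsion (n : ℕ) (u : F) : kummerClass K n u ∈ Pic0.torsion K F n :=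
  Pic0.mem_torsion.mpr (zsmul_kummerClass n u)

theorem kummerClass_mul {n : ℕ} {u u' : F} (h : IsKummer K n u) (h' : IsKummer K n u') :
    kummerClass K n (u * u') = kummerClass K n u + kummerClass K n u' := by
  rw [kummerClass_eq_mk h, kummerClass_eq_mk h', kummerClass_eq_mk (h.mul h'), ← Pic0.mk_add]
  exact mk_eq_mk_of_coe_eq (kummerDivisor_mul h h')

theorem kummerClass_one (n : ℕ) : kummerClass K n (1 : F) = 0 := by
  have h := kummerClass_mul (isKummer_one (K := K) (F := F) n) (isKummer_one n)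
  rw [mul_one] at h
  exact left_eq_add.mp h

theorem kummerClass_inv {n : ℕ} {u : F} (h : IsKummer K n u) :
    kummerClass K n u⁻¹ = -kummerClass K n u := by
  have h1 := kummerClass_mul h h.inv
  rw [mul_inv_cancel₀ h.ne_zero, kummerClass_one] at h1
  exact (neg_eq_of_add_eq_zero_right h1.symm).symm

theorem kummerClass_div {n : ℕ} {u u' : F} (h : IsKummer K n u) (h' : IsKummer K n u') :
    kummerClass K n (u / u') = kummerClass K n u - kummerClass K n u' := by
  rw [div_eq_mul_inv, kummerClass_mul h h'.inv, kummerClass_inv h', sub_eq_add_neg]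

theorem kummerClass_pow {n : ℕ} {u : F} (h : IsKummer K n u) (m : ℕ) :
    kummerClass K n (u ^ m) = m • kummerClass K n u := by
  induction m with
  | zero => rw [pow_zero, kummerClass_one, zero_nsmul]
  | succ m ih => rw [pow_succ, kummerClass_mul (h.pow m) h, ih, succ_nsmul]

theorem kummerClass_zpow {n : ℕ} {u : F} (h : IsKummer K n u) (m : ℤ) :
    kummerClass K n (u ^ m) = m • kummerClass K n u := by
  cases m with
  | ofNat m => rw [Int.ofNat_eq_natCast, zpow_natCast, kummerClass_pow h, natCast_zsmul]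
  | negSucc m =>
    rw [zpow_negSucc, kummerClass_inv (h.pow _), kummerClass_pow h, negSucc_zsmul]

theorem kummerClass_pow_self {n : ℕ} (hn : n ≠ 0) {w : F} (hw : w ≠ 0) :
    kummerClass K n (w ^ n) = 0 := by
  rw [kummerClass_eq_mk (isKummer_pow_self n hw), mk_eq_zero_iff]
  show kummerDivisor K n (w ^ n) ∈ _
  rw [kummerDivisor_pow_self hn]
  exact divOf_mem_principal K hw

theorem kummerClass_of_ord_eq_zero (n : ℕ) {c : F} (h : ∀ v : Place K F, v.ord c = 0) :
    kummerClass K n c = 0 := by
  by_cases hk : IsKummer K n c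
  · rw [kummerClass_eq_mk hk, mk_eq_zero_iff]
    show kummerDivisor K n c ∈ _
    rw [kummerDivisor_of_ord_eq_zero n h]
    exact zero_mem _
  · exact kummerClass_of_not hk

/-- The kernel of the Kummer class map: `n`-th powers times divisor-free elements. -/
theorem kummerClass_eq_zero_iff {n : ℕ} (hn : n ≠ 0) {u : F} (h : IsKummer K n u) :
    kummerClass K n u = 0 ↔
      ∃ w c : F, w ≠ 0 ∧ c ≠ 0 ∧ (∀ v : Place K F, v.ord c = 0) ∧ u = c * w ^ n := by
  constructor
  · intro h0
    rw [kummerClass_eq_mk h, mk_eq_zero_iff] at h0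
    obtain ⟨w, hw, hD⟩ := h0
    have hD' : ∀ v : Place K F, v.ord u / (n : ℤ) = v.ord w := hD
    refine ⟨w, u * (w ^ n)⁻¹, hw, mul_ne_zero h.ne_zero (inv_ne_zero (pow_ne_zero n hw)),
      fun v => ?_, ?_⟩
    · rw [v.ord_mul h.ne_zero (inv_ne_zero (pow_ne_zero n hw)), v.ord_inv, ← zpow_natCast,
        v.ord_zpow, ← hD' v, h.mul_ediv_cancel v, add_neg_cancel]
    · rw [inv_mul_cancel_right₀ (pow_ne_zero n hw)]
  · rintro ⟨w, c, hw, hc, hcv, rfl⟩
    rw [kummerClass_mul (isKummer_of_ord_eq_zero n hc hcv) (isKummer_pow_self n hw),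
      kummerClass_of_ord_eq_zero n hcv, kummerClass_pow_self hn hw, add_zero]

theorem kummerClass_eq_iff {n : ℕ} (hn : n ≠ 0) {u u' : F} (h : IsKummer K n u)
    (h' : IsKummer K n u') :
    kummerClass K n u = kummerClass K n u' ↔
      ∃ w c : F, w ≠ 0 ∧ c ≠ 0 ∧ (∀ v : Place K F, v.ord c = 0) ∧ u = u' * (c * w ^ n) := by
  rw [← sub_eq_zero, ← kummerClass_div h h', kummerClass_eq_zero_iff hn (h.div h')]
  refine exists₂_congr fun w c => and_congr_right fun _ => and_congr_right fun _ =>
    and_congr_right fun _ => ?_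
  rw [div_eq_iff h'.ne_zero, mul_comm]

omit [HasPrincipalDivisors K F] in
/-- Constants have trivial divisor. -/
theorem ord_algebraMap (v : Place K F) (a : K) : v.ord (algebraMap K F a) = 0 := by
  rcases eq_or_ne a 0 with rfl | ha
  · simp
  · have hu : IsUnit (algebraMap K v.toValuationSubring a) :=
      (IsUnit.mk0 a ha).map (algebraMap K v.toValuationSubring)
    have h := v.ord_coe_unit hu.unit
    rwa [IsUnit.unit_spec, Place.coe_algebraMap] at h

theorem kummerClass_algebraMap (n : ℕ) (a : K) : kummerClass K n (algebraMap K F a) = 0 :=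
  kummerClass_of_ord_eq_zero n fun v => ord_algebraMap v a

theorem kummerClass_mul_of_ord_eq_zero {n : ℕ} {c u : F} (hc : c ≠ 0)
    (hcv : ∀ v : Place K F, v.ord c = 0) (h : IsKummer K n u) :
    kummerClass K n (c * u) = kummerClass K n u := by
  rw [kummerClass_mul (isKummer_of_ord_eq_zero n hc hcv) h, kummerClass_of_ord_eq_zero n hcv,
    zero_add]

theorem kummerClass_mul_pow_self {n : ℕ} (hn : n ≠ 0) {u w : F} (hw : w ≠ 0)
    (h : IsKummer K n u) : kummerClass K n (u * w ^ n) = kummerClass K n u := by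
  rw [kummerClass_mul h (isKummer_pow_self n hw), kummerClass_pow_self hn hw, add_zero]

/-- Every `n`-torsion class is a Kummer class. -/
theorem exists_kummerClass_eq {n : ℕ} (hn : n ≠ 0) {x : Pic0 K F}
    (hx : x ∈ Pic0.torsion K F n) : ∃ u : F, IsKummer K n u ∧ kummerClass K n u = x := by
  obtain ⟨D, rfl⟩ := Pic0.mk_surjective x
  rw [Pic0.mem_torsion, zsmul_mk, mk_eq_zero_iff] at hx
  obtain ⟨u, hu, hD⟩ := hx
  have hD' : ∀ v : Place K F, (n : ℤ) * (D : Divisor K F) v = v.ord u := fun v => by
    rw [← hD v]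
    rfl
  obtain ⟨hk, hdiv⟩ := isKummer_of_zsmul_eq hn hu hD'
  exact ⟨u, hk, kummerClass_eq_mk_of_eq hk D hdiv.symm⟩

/-- The Kummer class as an element of the torsion subgroup. -/
def kummerTorsion (n : ℕ) (u : F) : Pic0.torsion K F n :=
  ⟨kummerClass K n u, kummerClass_mem_torsion n u⟩

@[simp]
theorem coe_kummerTorsion (n : ℕ) (u : F) :
    ((kummerTorsion (K := K) n u : Pic0.torsion K F n) : Pic0 K F) = kummerClass K n u := rfl

theorem exists_kummerTorsion_eq {n : ℕ} (hn : n ≠ 0) (x : Pic0.torsion K F n) :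
    ∃ u : F, IsKummer K n u ∧ kummerTorsion (K := K) n u = x := by
  obtain ⟨u, hu, h⟩ := exists_kummerClass_eq hn x.2
  exact ⟨u, hu, Subtype.ext h⟩

end KummerClass

/-! ### Equivariance under (semilinear) automorphisms -/

section Equivariance

variable {K : Type*} {F : Type*} [Field K] [Field F] [Algebra K F]

theorem isKummer_smul_iff (g : SemilinearAut K F) {n : ℕ} {u : F} :
    IsKummer K n (g • u) ↔ IsKummer K n u := by
  have key : ∀ (g : SemilinearAut K F) (u : F), IsKummer K n u → IsKummer K n (g • u) := by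
    intro g u h
    refine ⟨by simpa using h.1, fun v => ?_⟩
    have h1 := SemilinearAut.ord_smul g (g⁻¹ • v) u
    rw [smul_inv_smul] at h1
    rw [h1]
    exact h.2 _
  refine ⟨fun h => ?_, key g u⟩
  have h1 := key g⁻¹ _ h
  rwa [inv_smul_smul] at h1

variable [HasPrincipalDivisors K F]

theorem smul_kummerDivisor (g : SemilinearAut K F) (n : ℕ) (u : F) :
    g • kummerDivisor K n u = kummerDivisor K n (g • u) :=
  Finsupp.ext fun w => by
    rw [SemilinearAut.divisor_smul_apply, kummerDivisor_apply, kummerDivisor_apply]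
    have h := SemilinearAut.ord_smul g (g⁻¹ • w) u
    rw [smul_inv_smul] at h
    rw [h]

/-- Semilinear automorphisms act on Kummer classes through the function. -/
theorem smul_kummerClass (g : SemilinearAut K F) (n : ℕ) (u : F) :
    g • kummerClass K n u = kummerClass K n (g • u) := by
  by_cases h : IsKummer K n u
  · rw [kummerClass_eq_mk h, kummerClass_eq_mk ((isKummer_smul_iff g).mpr h),
      SemilinearAut.pic0_smul_mk]
    exact mk_eq_mk_of_coe_eq (smul_kummerDivisor g n u)
  · rw [kummerClass_of_not h, kummerClass_of_not (fun h' => h ((isKummer_smul_iff g).mp h'))]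
    exact smul_zero (A := Pic0 K F) g

/-- `K`-algebra automorphisms act on Kummer classes through the function. -/
theorem algEquiv_smul_kummerClass (σ : F ≃ₐ[K] F) (n : ℕ) (u : F) :
    σ • kummerClass K n u = kummerClass K n (σ u) := by
  have hk : ∀ (τ : F ≃ₐ[K] F) (w : F), IsKummer K n w → IsKummer K n (τ w) := by
    intro τ w h
    refine ⟨by simpa using h.1, fun v => ?_⟩
    have h1 := Place.ord_smul τ (τ⁻¹ • v) w
    rw [smul_inv_smul] at h1
    rw [h1]
    exact h.2 _
  by_cases h : IsKummer K n u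
  · rw [kummerClass_eq_mk h, kummerClass_eq_mk (hk σ u h), Pic0.smul_mk]
    refine mk_eq_mk_of_coe_eq (Finsupp.ext fun w => ?_)
    rw [Pic0.coe_degZeroSMulHom]
    show (σ • kummerDivisor K n u) w = _
    rw [Divisor.smul_apply, kummerDivisor_apply, kummerDivisor_apply]
    have h1 := Place.ord_smul σ (σ⁻¹ • w) u
    rw [smul_inv_smul] at h1
    rw [h1]
  · have h' : ¬ IsKummer K n (σ u) := fun h' => h (by
      have h2 := hk σ⁻¹ _ h'
      rwa [AlgEquiv.aut_inv, AlgEquiv.symm_apply_apply] at h2)
    rw [kummerClass_of_not h, kummerClass_of_not h']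
    exact smul_zero (A := Pic0 K F) σ

end Equivariance

/-! ### Pull-back and push-forward -/

section PushPull

variable {K F F' : Type*} [Field K] [Field F] [Field F']
  [Algebra K F] [Algebra K F'] [Algebra F F'] [IsScalarTower K F F']
  [Algebra.IsIntegral F F']

theorem IsKummer.algebraMap {n : ℕ} {u : F} (h : IsKummer K n u) :
    IsKummer K n (algebraMap F F' u) :=
  ⟨by simpa using h.1, fun w => by
    rw [w.ord_restrict u]
    exact Dvd.dvd.mul_left (h.2 _) _⟩

variable [HasPrincipalDivisors K F'] [HasPrincipalDivisors K F]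

theorem pullback_kummerDivisor {n : ℕ} {u : F} (h : IsKummer K n u) :
    Divisor.pullback F' (kummerDivisor K n u) = kummerDivisor K n (algebraMap F F' u) :=
  Finsupp.ext fun w => by
    rw [Divisor.pullback_apply, kummerDivisor_apply, kummerDivisor_apply, w.ord_restrict u]
    exact (Int.mul_ediv_assoc _ (h.2 _)).symm

theorem pullbackHom_kummerClass [FundamentalIdentity K F F'] {n : ℕ} {u : F}
    (h : IsKummer K n u) :
    Pic0.pullbackHom F' (kummerClass K n u) = kummerClass K n (algebraMap F F' u) := by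
  rw [kummerClass_eq_mk h, Pic0.pullbackHom_mk, kummerClass_eq_mk h.algebraMap]
  exact mk_eq_mk_of_coe_eq (pullback_kummerDivisor h)

theorem IsKummer.norm_and_pushforward [Module.Finite F F']
    (H : Divisor.PushforwardNormFormula K F F') {n : ℕ} (hn : n ≠ 0) {u : F'}
    (h : IsKummer K n u) :
    IsKummer K n (Algebra.norm F u) ∧
      Divisor.pushforward F (kummerDivisor K n u) = kummerDivisor K n (Algebra.norm F u) := by
  have hnorm : Algebra.norm F u ≠ 0 := Algebra.norm_ne_zero_iff.mpr h.ne_zero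
  have key : ∀ v : Place K F,
      (n : ℤ) * Divisor.pushforward F (kummerDivisor K n u) v = v.ord (Algebra.norm F u) := by
    intro v
    have h1 := H u h.ne_zero (divOf K u) (fun w => rfl) v
    rw [← zsmul_kummerDivisor h, map_zsmul, Finsupp.smul_apply, smul_eq_mul] at h1
    exact h1
  obtain ⟨hk, hd⟩ := isKummer_of_zsmul_eq hn hnorm key
  exact ⟨hk, hd.symm⟩

theorem pushforwardHom_kummerClass [Module.Finite F F']
    (H : Divisor.PushforwardNormFormula K F F') {n : ℕ} (hn : n ≠ 0) {u : F'}
    (h : IsKummer K n u) :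
    Pic0.pushforwardHom K F F' H (kummerClass K n u) = kummerClass K n (Algebra.norm F u) := by
  obtain ⟨hk, hd⟩ := h.norm_and_pushforward H hn
  rw [kummerClass_eq_mk h, Pic0.pushforwardHom_mk, kummerClass_eq_mk hk]
  exact mk_eq_mk_of_coe_eq hd

end PushPull

/-! ### Correspondences -/

section Along

variable {K F F' : Type*} [Field K] [Field F] [Field F'] [Algebra K F] [Algebra K F']

/-- The norm of the field extension defined by a `K`-algebra homomorphism. -/
def normAlong (ψ : F →ₐ[K] F') (x : F') : F :=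
  letI := algebraAlong ψ
  Algebra.norm F x

theorem isKummer_map (φ : F →ₐ[K] F') (hφ : φ.toRingHom.IsIntegral) {n : ℕ} {u : F}
    (h : IsKummer K n u) : IsKummer K n (φ u) := by
  letI := algebraAlong φ
  haveI := isScalarTower_along φ
  haveI := isIntegral_along φ hφ
  exact h.algebraMap (F' := F')

variable [HasPrincipalDivisors K F] [HasPrincipalDivisors K F']

theorem pullbackAlong_kummerDivisor (φ : F →ₐ[K] F') (hφ : φ.toRingHom.IsIntegral) {n : ℕ}
    {u : F} (h : IsKummer K n u) :
    Divisor.pullbackAlong φ hφ (kummerDivisor K n u) = kummerDivisor K n (φ u) := by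
  letI := algebraAlong φ
  haveI := isScalarTower_along φ
  haveI := isIntegral_along φ hφ
  exact pullback_kummerDivisor h

theorem pushforwardAlong_kummerDivisor (ψ : F →ₐ[K] F') (hψ : ψ.toRingHom.IsIntegral)
    (hfin : FiniteAlong K ψ) (hN : NormFormulaAlong K ψ hfin) {n : ℕ} (hn : n ≠ 0) {u : F'}
    (h : IsKummer K n u) :
    IsKummer K n (normAlong ψ u) ∧
      Divisor.pushforwardAlong ψ hψ (kummerDivisor K n u) = kummerDivisor K n (normAlong ψ u) := by
  letI := algebraAlong ψ
  haveI := isScalarTower_along ψ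
  haveI := isIntegral_along ψ hψ
  haveI : Module.Finite F F' := hfin
  exact IsKummer.norm_and_pushforward hN hn h

/-- **Correspondence formula**: a correspondence `ψ_* ∘ φ^*` acts on Kummer classes by
`u ↦ Norm_ψ (φ u)`. -/
theorem correspondence_kummerClass (φ ψ : F →ₐ[K] F') (hφ : φ.toRingHom.IsIntegral)
    (hψ : ψ.toRingHom.IsIntegral) (hFI : FundamentalIdentityAlong K φ hφ)
    (hfin : FiniteAlong K ψ) (hN : NormFormulaAlong K ψ hfin) {n : ℕ} (hn : n ≠ 0) {u : F}
    (h : IsKummer K n u) :
    IsKummer K n (normAlong ψ (φ u)) ∧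
      Pic0.correspondence φ ψ hφ hψ hFI hfin hN (kummerClass K n u) =
        kummerClass K n (normAlong ψ (φ u)) := by
  have h1 := isKummer_map φ hφ h
  obtain ⟨h2, h3⟩ := pushforwardAlong_kummerDivisor ψ hψ hfin hN hn h1
  refine ⟨h2, ?_⟩
  rw [kummerClass_eq_mk h, Pic0.correspondence_mk, kummerClass_eq_mk h2]
  refine mk_eq_mk_of_coe_eq ?_
  rw [Pic0.coe_degZeroCorrespondence, Divisor.correspondence_apply,
    pullbackAlong_kummerDivisor φ hφ h, h3]

end Along

/-! ### The Hecke operators of the Prelude on Kummer classes of `JZero N` -/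

section Hecke

open ModularCurve

variable {L : Type*} [Field L] [Algebra ℚ L] (N ℓ : ℕ) [NeZero N] [NeZero ℓ]

/-- The multiplicative Hecke operator on functions: `u ↦ Norm_{F_{Nℓ}/F_N} (u(q^ℓ))`. -/
def heckeFun (u : laurentBaseChange L (modularFunctionFieldFull N)) :
    laurentBaseChange L (modularFunctionFieldFull N) :=
  normAlong (heckeAlphaBar L N ℓ) (heckeBetaBar L N ℓ u)

variable {N ℓ}

theorem heckeOperatorAlong_kummerClass
    [HasPrincipalDivisors L (laurentBaseChange L (modularFunctionFieldFull N))]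
    (hI : HeckeInputsAlong L N ℓ) {n : ℕ} (hn : n ≠ 0)
    {u : laurentBaseChange L (modularFunctionFieldFull N)} (h : IsKummer L n u) :
    IsKummer L n (heckeFun (L := L) N ℓ u) ∧
      heckeOperatorAlong L N ℓ (kummerClass L n u) = kummerClass L n (heckeFun (L := L) N ℓ u) := by
  obtain ⟨hα, hβ, hP, hfin, hFI, hN⟩ := hI
  haveI := hP
  rw [heckeOperatorAlong_eq hα hβ hFI hfin hN]
  exact correspondence_kummerClass (heckeBetaBar L N ℓ) (heckeAlphaBar L N ℓ) hβ hα hFI hfin hN
    hn h

end Hecke

section HeckeBar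

open ModularCurve

variable {N : ℕ} [NeZero N]

/-- The Prelude Hecke operator `T_ℓ` on `JZero N` acts on Kummer classes by
`u ↦ Norm_{F_{Nℓ}/F_N} (u(q^ℓ))`. -/
theorem heckeOperatorBar_kummerClass
    [HasPrincipalDivisors (AlgebraicClosure ℚ) (modularFunctionFieldBar N)] (ℓ : Nat.Primes)
    (hI : haveI : NeZero (ℓ : ℕ) := ⟨ℓ.2.ne_zero⟩; HeckeInputsAlong (AlgebraicClosure ℚ) N ℓ)
    {n : ℕ} (hn : n ≠ 0) {u : modularFunctionFieldBar N}
    (h : IsKummer (AlgebraicClosure ℚ) n u) :
    haveI : NeZero (ℓ : ℕ) := ⟨ℓ.2.ne_zero⟩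
    IsKummer (AlgebraicClosure ℚ) n (heckeFun (L := AlgebraicClosure ℚ) N ℓ u) ∧
      heckeOperatorBar N ℓ (kummerClass (AlgebraicClosure ℚ) n u) =
        kummerClass (AlgebraicClosure ℚ) n (heckeFun (L := AlgebraicClosure ℚ) N ℓ u) := by
  haveI : NeZero (ℓ : ℕ) := ⟨ℓ.2.ne_zero⟩
  rw [heckeOperatorBar_apply]
  exact heckeOperatorAlong_kummerClass hI hn h

omit [NeZero N] in
/-- The arithmetic Galois action on `JZero N` acts on Kummer classes coefficientwise. -/
theorem galois_smul_kummerClass
    [HasPrincipalDivisors (AlgebraicClosure ℚ) (modularFunctionFieldBar N)]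
    (σ : AlgebraicClosure ℚ ≃ₐ[ℚ] AlgebraicClosure ℚ) (n : ℕ) (u : modularFunctionFieldBar N) :
    σ • kummerClass (AlgebraicClosure ℚ) n u =
      kummerClass (AlgebraicClosure ℚ) n (arithmeticGalois (modularFunctionFieldFull N) σ • u) := by
  rw [galois_smul_pic0_def]
  exact smul_kummerClass _ n u

end HeckeBar

end Fermat.Agent.S29.helper8217
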