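import Fermat.Agent.S29.helper9726_GenChebBridge

/-!
# Generator-Chebotarev: adapters (helper9726)

* `Stmt_FrobGenQ` : the number-field core in the shape fixed by helper2247 (S29 chat #74):
  for a finite Galois number field `K/ℚ`, `g ∈ Gal(K/ℚ)` and a finite set `T` of primes there are
  `ℓ ∉ T` and a prime `P ∋ ℓ` of `𝓞 K` such that every Frobenius at `P` generates `⟨g⟩`.
* `genCheb_of_frobGenQ` : `Stmt_FrobGenQ` implies the Prelude-shape statement (zpowers form).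
* `cycFrob_of_core`, `cycFrob_of_frobGenQ` : either core implies the statement `Stmt_CycFrob`
  consumed by the S29 endgame (`helper6752_Endgame`), spelled out verbatim: the finite level `L`
  there need not be Galois over `ℚ` (we pass to its normal closure).
-/

set_option autoImplicit false

namespace Fermat.Agent.S29.helper9726

open NumberField

local notation "Qb" => AlgebraicClosure ℚ
local notation "GQ" => (AlgebraicClosure ℚ ≃ₐ[ℚ] AlgebraicClosure ℚ)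

/-- **Generator-Chebotarev, number-field core over `ℚ`** (shape of helper2247): every Frobenius
element at the prime `P` generates the cyclic group `⟨g⟩`. -/
def Stmt_FrobGenQ : Prop :=
  ∀ (K : Type) [Field K] [NumberField K] [IsGalois ℚ K] (g : K ≃ₐ[ℚ] K) (T : Finset ℕ),
    ∃ (ℓ : ℕ) (P : Ideal (𝓞 K)), ℓ.Prime ∧ ℓ ∉ T ∧ P.IsPrime ∧ (ℓ : 𝓞 K) ∈ P ∧
      ∀ τ : K ≃ₐ[ℚ] K, (∀ x : 𝓞 K, τ • x - x ^ ℓ ∈ P) → Subgroup.zpowers τ = Subgroup.zpowers g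

/-- The Prelude-shape statement (zpowers form) as a `Prop`. -/
def Stmt_GenCheb : Prop :=
  ∀ (K : IntermediateField ℚ Qb) [FiniteDimensional ℚ K] [IsGalois ℚ K] (σ : GQ) (T : Finset ℕ),
    ∃ (ℓ : ℕ) (A : ValuationSubring Qb) (τ : GQ), ℓ.Prime ∧ ℓ ∉ T ∧ A.LiesOverPrime ℓ ∧
      A.IsFrobeniusAt τ ℓ ∧
      Subgroup.zpowers (τ.restrictNormal K) = Subgroup.zpowers (σ.restrictNormal K)

theorem stmt_GenCheb_of_core (hcore : Stmt_GenChebCore) : Stmt_GenCheb :=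
  fun K _ _ σ T => genCheb_of_core hcore K σ T

/-- `Stmt_FrobGenQ` implies the Prelude-shape statement. -/
theorem genCheb_of_frobGenQ (hcore : Stmt_FrobGenQ) (K : IntermediateField ℚ Qb)
    [FiniteDimensional ℚ K] [IsGalois ℚ K] (σ : GQ) (T : Finset ℕ) :
    ∃ (ℓ : ℕ) (A : ValuationSubring Qb) (τ : GQ), ℓ.Prime ∧ ℓ ∉ T ∧ A.LiesOverPrime ℓ ∧
      A.IsFrobeniusAt τ ℓ ∧
      Subgroup.zpowers (τ.restrictNormal K) = Subgroup.zpowers (σ.restrictNormal K) := by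
  classical
  have : NumberField K := ⟨⟩
  obtain ⟨ℓ, 𝔓, hℓ, hℓT, h𝔓, hℓ𝔓, hgen⟩ := hcore K (σ.restrictNormal K) T
  have h𝔓0 : 𝔓 ≠ ⊥ := by
    rintro rfl
    have h0 : (ℓ : 𝓞 K) = 0 := by simpa using hℓ𝔓
    exact hℓ.ne_zero (by exact_mod_cast h0)
  have : 𝔓.IsMaximal := h𝔓.isMaximal h𝔓0
  obtain ⟨B, hB⟩ := exists_valuationSubring_of_ideal K 𝔓 h𝔓.ne_top
  have hBℓ : B.LiesOverPrime ℓ := by
    have := hB (ℓ : 𝓞 K) hℓ𝔓
    simpa [ValuationSubring.LiesOverPrime, toQb_apply] using this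
  obtain ⟨τ, hτ⟩ := Fermat.Agent.Lib.helper54.exists_isFrobeniusAt hℓ B hBℓ
  exact ⟨ℓ, B, τ, hℓ, hℓT, hBℓ, hτ, hgen _ (restrictNormal_frob K 𝔓 B hB hτ)⟩

theorem stmt_GenCheb_of_frobGenQ (hcore : Stmt_FrobGenQ) : Stmt_GenCheb :=
  fun K _ _ σ T => genCheb_of_frobGenQ hcore K σ T

/-- If `τ|K` and `σ|K` generate the same subgroup, some power of `τ` agrees with `σ` on `K`. -/
theorem exists_pow_eq_on (K : IntermediateField ℚ Qb) [FiniteDimensional ℚ K] [IsGalois ℚ K]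
    {σ τ : GQ}
    (hz : Subgroup.zpowers (τ.restrictNormal K) = Subgroup.zpowers (σ.restrictNormal K)) :
    ∃ n : ℕ, ∀ x ∈ K, (τ ^ n) x = σ x := by
  obtain ⟨n, -, hpow⟩ := exists_coprime_pow_of_zpowers_eq hz.symm
  refine ⟨n, fun x hx => ?_⟩
  have h1 : (τ ^ n).restrictNormal K = σ.restrictNormal K := by
    have h2 : (τ ^ n).restrictNormal K = (τ.restrictNormal K) ^ n :=
      map_pow (AlgEquiv.restrictNormalHom (F := ℚ) (K₁ := Qb) K) τ n
    rw [h2, hpow]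
  have h3 := AlgEquiv.restrictNormal_commutes (τ ^ n) K ⟨x, hx⟩
  have h4 := AlgEquiv.restrictNormal_commutes σ K ⟨x, hx⟩
  rw [h1] at h3
  exact h3.symm.trans h4

/-- **The statement `Stmt_CycFrob` of the S29 endgame** (verbatim, `L` any finite level, not
necessarily Galois), from the Prelude-shape generator-Chebotarev statement. -/
theorem cycFrob_of_genCheb (h : Stmt_GenCheb) :
    ∀ (L : IntermediateField ℚ Qb), FiniteDimensional ℚ L → ∀ (τ : GQ) (B : Finset ℕ),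
      ∃ ℓ : ℕ, ℓ.Prime ∧ ℓ ∉ B ∧ ∃ A : ValuationSubring Qb, A.LiesOverPrime ℓ ∧
        ∃ s : GQ, A.IsFrobeniusAt s ℓ ∧ ∃ n : ℕ, ∀ x ∈ L, (s ^ n) x = τ x := by
  intro L hL τ B
  let K : IntermediateField ℚ Qb := IntermediateField.normalClosure ℚ ↥L Qb
  have : Normal ℚ Qb := Fermat.Agent.Lib.helper54.isGalois_Qbar.to_normal
  have : FiniteDimensional ℚ ↥K := normalClosure.is_finiteDimensional _ _ _
  have : Normal ℚ ↥K := normalClosure.normal _ _ _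
  have : IsGalois ℚ ↥K := ⟨⟩
  have hle : L ≤ K := IntermediateField.le_normalClosure L
  obtain ⟨ℓ, A, s, hℓ, hℓB, hA, hs, hz⟩ := h K τ B
  obtain ⟨n, hn⟩ := exists_pow_eq_on K hz
  exact ⟨ℓ, hℓ, hℓB, A, hA, s, hs, n, fun x hx => hn x (hle hx)⟩

theorem cycFrob_of_core (hcore : Stmt_GenChebCore) :
    ∀ (L : IntermediateField ℚ Qb), FiniteDimensional ℚ L → ∀ (τ : GQ) (B : Finset ℕ),
      ∃ ℓ : ℕ, ℓ.Prime ∧ ℓ ∉ B ∧ ∃ A : ValuationSubring Qb, A.LiesOverPrime ℓ ∧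
        ∃ s : GQ, A.IsFrobeniusAt s ℓ ∧ ∃ n : ℕ, ∀ x ∈ L, (s ^ n) x = τ x :=
  cycFrob_of_genCheb (stmt_GenCheb_of_core hcore)

theorem cycFrob_of_frobGenQ (hcore : Stmt_FrobGenQ) :
    ∀ (L : IntermediateField ℚ Qb), FiniteDimensional ℚ L → ∀ (τ : GQ) (B : Finset ℕ),
      ∃ ℓ : ℕ, ℓ.Prime ∧ ℓ ∉ B ∧ ∃ A : ValuationSubring Qb, A.LiesOverPrime ℓ ∧
        ∃ s : GQ, A.IsFrobeniusAt s ℓ ∧ ∃ n : ℕ, ∀ x ∈ L, (s ^ n) x = τ x :=
  cycFrob_of_genCheb (stmt_GenCheb_of_frobGenQ hcore)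

end Fermat.Agent.S29.helper9726
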