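import Mathlib
import Fermat.Prelude.Def_ModularCurve_ArithmeticGalois
import Fermat.Prelude.Def_GaloisRep_Residual
import Fermat.Agent.S24.helper1200_Final

/-!
# S29-FINLEVEL (helper8527): open stabilisers on `JZero N`

The absolute Galois group `Gal = Aut(ℚ̄/ℚ)` acts on the Prelude Jacobian
`JZero N = Pic0 ℚ̄ (ℚ̄(X₀(N)))` through the coefficientwise action on Laurent series.  We show
that every point has an *open* stabiliser: there is a finite extension `L/ℚ` inside `ℚ̄` such that
every `σ` fixing `L` pointwise fixes the point.  This is the input for the clause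
`GaloisFactorsThroughFiniteLevel` of every Galois module cut out of `JZero N`.

Main results (`Gal := AlgebraicClosure ℚ ≃ₐ[ℚ] AlgebraicClosure ℚ`):

* `HasFiniteLevel P` : `∃ L` finite over `ℚ`, every `σ` fixing `L` pointwise satisfies `P σ`
  (calculus: `mono`, `and`, `finset`, `of_forall`);
* `hasFiniteLevel_coeffMap` : every element of a `laurentBaseChange` is fixed by an open subgroup;
* `hasFiniteLevel_place` : every place of `ℚ̄(X₀(N))` is fixed by an open subgroup;
* `hasFiniteLevel_point` : every point of `JZero N` is fixed by an open subgroup;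
* `factorsThroughFiniteLevel_of_pointwise`, `factorsThroughFiniteLevel_of_span` : consumer forms
  producing `GaloisFactorsThroughFiniteLevel ρ` for finite-dimensional representations.
-/

set_option autoImplicit false

open ModularCurve AlgebraicCurve IntermediateField

namespace Fermat.Agent.S29.helper8527

/-- The absolute Galois group of `ℚ`. -/
abbrev Gal : Type := AlgebraicClosure ℚ ≃ₐ[ℚ] AlgebraicClosure ℚ

/-- `ℚ̄`. -/
abbrev Qbar : Type := AlgebraicClosure ℚ

/-! ## Calculus of "holds on an open subgroup" -/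

/-- `P σ` holds for all `σ` fixing pointwise some finite extension of `ℚ` inside `ℚ̄`. -/
def HasFiniteLevel (P : Gal → Prop) : Prop :=
  ∃ L : IntermediateField ℚ Qbar, FiniteDimensional ℚ L ∧
    ∀ σ : Gal, (∀ y ∈ L, σ y = y) → P σ

theorem HasFiniteLevel.mono {P Q : Gal → Prop} (h : HasFiniteLevel P) (hPQ : ∀ σ, P σ → Q σ) :
    HasFiniteLevel Q := by
  obtain ⟨L, hL, hP⟩ := h
  exact ⟨L, hL, fun σ hσ => hPQ σ (hP σ hσ)⟩

theorem HasFiniteLevel.of_forall {P : Gal → Prop} (h : ∀ σ, P σ) : HasFiniteLevel P :=
  ⟨⊥, inferInstance, fun σ _ => h σ⟩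

theorem HasFiniteLevel.and {P Q : Gal → Prop} (hP : HasFiniteLevel P) (hQ : HasFiniteLevel Q) :
    HasFiniteLevel (fun σ => P σ ∧ Q σ) := by
  obtain ⟨L₁, hL₁, h₁⟩ := hP
  obtain ⟨L₂, hL₂, h₂⟩ := hQ
  refine ⟨L₁ ⊔ L₂, IntermediateField.finiteDimensional_sup L₁ L₂, fun σ hσ => ⟨?_, ?_⟩⟩
  · exact h₁ σ fun y hy => hσ y ((le_sup_left : L₁ ≤ L₁ ⊔ L₂) hy)
  · exact h₂ σ fun y hy => hσ y ((le_sup_right : L₂ ≤ L₁ ⊔ L₂) hy)

theorem HasFiniteLevel.finset {ι : Type*} (s : Finset ι) {P : ι → Gal → Prop}
    (h : ∀ i ∈ s, HasFiniteLevel (P i)) : HasFiniteLevel (fun σ => ∀ i ∈ s, P i σ) := by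
  classical
  induction s using Finset.induction_on with
  | empty => exact HasFiniteLevel.of_forall fun σ i hi => absurd hi (Finset.notMem_empty i)
  | insert a s ha ih =>
    have h1 : HasFiniteLevel (P a) := h a (Finset.mem_insert_self a s)
    have h2 : HasFiniteLevel (fun σ => ∀ i ∈ s, P i σ) :=
      ih fun i hi => h i (Finset.mem_insert_of_mem hi)
    refine (h1.and h2).mono fun σ hσ i hi => ?_
    rcases Finset.mem_insert.mp hi with rfl | hi
    · exact hσ.1
    · exact hσ.2 i hi

theorem HasFiniteLevel.fintype {ι : Type*} [Finite ι] {P : ι → Gal → Prop}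
    (h : ∀ i, HasFiniteLevel (P i)) : HasFiniteLevel (fun σ => ∀ i, P i σ) := by
  classical
  have := Fintype.ofFinite ι
  exact (HasFiniteLevel.finset Finset.univ fun i _ => h i).mono
    fun σ hσ i => hσ i (Finset.mem_univ i)

/-- An algebraic number is fixed by an open subgroup. -/
theorem hasFiniteLevel_fix (a : Qbar) : HasFiniteLevel (fun σ => σ a = a) := by
  have ha : IsIntegral ℚ a := ((AlgebraicClosure.isAlgebraic ℚ).isAlgebraic a).isIntegral
  exact ⟨ℚ⟮a⟯, IntermediateField.adjoin.finiteDimensional ha,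
    fun σ hσ => hσ a (IntermediateField.mem_adjoin_simple_self ℚ a)⟩

/-- `GaloisFactorsThroughFiniteLevel` in the vocabulary of this file. -/
theorem galoisFactorsThroughFiniteLevel_iff {M : Type} [MulOneClass M] (ρ : Gal →* M) :
    GaloisFactorsThroughFiniteLevel ρ ↔ HasFiniteLevel (fun σ => ρ σ = 1) :=
  Iff.rfl

/-! ## Elements of the base-changed function field -/

/-- Every element of `laurentBaseChange ℚ̄ F₀` has coefficients in a finite extension of `ℚ`. -/
theorem hasFiniteLevel_coeffMap (F₀ : IntermediateField ℚ (LaurentSeries ℚ))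
    {x : LaurentSeries Qbar} (hx : x ∈ laurentBaseChange Qbar F₀) :
    HasFiniteLevel (fun σ => coeffMap ((σ : Gal) : Qbar →+* Qbar) x = x) := by
  rw [mem_laurentBaseChange_iff] at hx
  induction hx using Subfield.closure_induction with
  | mem y hy =>
      rcases hy with ⟨a, rfl⟩ | ⟨z, _, rfl⟩
      · refine (hasFiniteLevel_fix a).mono fun σ hσ => ?_
        rw [coeffMap_algebraMap]
        exact congrArg _ hσ
      · exact HasFiniteLevel.of_forall fun σ => coeffMap_coeffEmb σ z
  | one => exact HasFiniteLevel.of_forall fun σ => map_one _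
  | add x y _ _ hx hy =>
      exact (hx.and hy).mono fun σ h => by rw [map_add, h.1, h.2]
  | neg x _ hx => exact hx.mono fun σ h => by rw [map_neg, h]
  | inv x _ hx => exact hx.mono fun σ h => by rw [map_inv₀, h]
  | mul x y _ _ hx hy =>
      exact (hx.and hy).mono fun σ h => by rw [map_mul, h.1, h.2]

/-- Every element of the base-changed function field is fixed by an open subgroup. -/
theorem hasFiniteLevel_smul_elt (F₀ : IntermediateField ℚ (LaurentSeries ℚ))
    (x : laurentBaseChange Qbar F₀) :
    HasFiniteLevel (fun σ => arithmeticGalois F₀ σ • x = x) :=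
  (hasFiniteLevel_coeffMap F₀ x.2).mono fun _ h => Subtype.ext h

/-! ## Generic function-field lemmas -/

section Generic

variable {K F : Type} [Field K] [Field F] [Algebra K F]

/-- Elements of non-negative order lie in the valuation ring of the place. -/
theorem mem_of_ord_nonneg (v : Place K F) {x : F} (hx : 0 ≤ v.ord x) :
    x ∈ v.toValuationSubring := by
  rcases eq_or_ne x 0 with rfl | hx0
  · exact v.toValuationSubring.zero_mem
  obtain ⟨π, hπ⟩ := IsDiscreteValuationRing.exists_irreducible v.toValuationSubring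
  obtain ⟨u, hu⟩ := v.exists_unit_mul_zpow hx0 hπ
  obtain ⟨m, hm⟩ := Int.eq_ofNat_of_zero_le hx
  rw [hu, hm, zpow_natCast]
  exact mul_mem (u : v.toValuationSubring).2 (pow_mem π.2 m)

/-- Two distinct places are separated by an element. -/
theorem exists_mem_not_mem {v w : Place K F} (h : v ≠ w) :
    ∃ f : F, f ∈ v.toValuationSubring ∧ f ∉ w.toValuationSubring := by
  by_contra hcon
  push Not at hcon
  apply h
  apply Place.ext
  refine le_antisymm (fun f hf => hcon f hf) ?_
  intro x hx
  by_contra hxv
  have hord : v.ord x < 0 := by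
    by_contra hge
    exact hxv (mem_of_ord_nonneg v (not_lt.mp hge))
  have hx0 : x ≠ 0 := fun h0 => hxv (h0 ▸ v.toValuationSubring.zero_mem)
  apply w.ne_top'
  refine SetLike.ext fun z => ⟨fun _ => ValuationSubring.mem_top z, fun _ => ?_⟩
  rcases eq_or_ne z 0 with rfl | hz0
  · exact w.toValuationSubring.zero_mem
  -- `z = (z * x⁻¹ ^ k) * x ^ k` with `k` large
  set k : ℕ := (v.ord z).natAbs with hk
  have hxk : x ^ k ≠ 0 := pow_ne_zero k hx0
  have hy : z * (x ^ k)⁻¹ ∈ v.toValuationSubring := by
    apply mem_of_ord_nonneg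
    rw [v.ord_mul hz0 (inv_ne_zero hxk), v.ord_inv, ← zpow_natCast, v.ord_zpow]
    have h1 : -(v.ord z) ≤ (k : ℤ) := by
      rw [hk, ← Int.natAbs_neg]; exact Int.le_natAbs
    have h2 : (k : ℤ) * v.ord x ≤ (k : ℤ) * (-1) :=
      mul_le_mul_of_nonneg_left (by omega) (Int.natCast_nonneg k)
    linarith
  have hz : z = z * (x ^ k)⁻¹ * x ^ k := by
    rw [mul_assoc, inv_mul_cancel₀ hxk, mul_one]
  rw [hz]
  exact mul_mem (hcon _ hy) (pow_mem hx k)

/-- Every place lies in a finite fibre: it is a zero of some `y`, and `y` has finitely many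
zeros (fundamental identity + centre, from the landed S24 closure). -/
theorem exists_finite_fibre [IsAlgClosed K] [CharZero K] (x : F) (hx : Transcendental K x)
    [FiniteDimensional K⟮x⟯ F] (v : Place K F) :
    ∃ (y : F) (s : Finset (Place K F)), (∀ w : Place K F, w ∈ s ↔ 0 < w.ord y) ∧ v ∈ s := by
  rcases Fermat.Agent.S24.helper24.leaf_Center K F x hx v with h | ⟨c, hc⟩
  · have hy : Transcendental K x⁻¹ := Fermat.Agent.S24.helper1635.transcendental_inv hx
    have : FiniteDimensional K⟮x⁻¹⟯ F :=
      Fermat.Agent.S24.helper1635.finiteDimensional_of_eq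
        (Fermat.Agent.S24.helper1635.adjoin_inv (K := K) x).symm
    obtain ⟨s, hs, -⟩ := Fermat.Agent.S24.helper24.leaf_FundId K F x⁻¹ hy
    exact ⟨x⁻¹, s, hs, (hs v).mpr (by rw [v.ord_inv]; omega)⟩
  · have hy : Transcendental K (x - algebraMap K F c) :=
      Fermat.Agent.S24.helper1635.transcendental_sub_algebraMap hx c
    have : FiniteDimensional K⟮x - algebraMap K F c⟯ F :=
      Fermat.Agent.S24.helper1635.finiteDimensional_of_eq
        (Fermat.Agent.S24.helper1635.adjoin_sub_algebraMap (K := K) x c).symm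
    obtain ⟨s, hs, -⟩ := Fermat.Agent.S24.helper24.leaf_FundId K F (x - algebraMap K F c) hy
    exact ⟨x - algebraMap K F c, s, hs, (hs v).mpr hc⟩

end Generic

/-! ## Places of the modular function field -/

/-- `[ℚ̄(X₀(N)) : ℚ̄(j)] < ∞` (landed S24 closure). -/
theorem stmt_JFinrank : Fermat.Agent.S24.helper24.Stmt_JFinrank :=
  Fermat.Agent.S24.helper167.stmt_JFinrank_of
    (fun N _ => Fermat.Agent.S24.helper6180.evDatum N) Fermat.Agent.S24.helper1200.stmt_LocalInf

/-- **Open stabilisers of places.** Every place of `ℚ̄(X₀(N))` is fixed by all `σ` fixing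
pointwise a suitable finite extension of `ℚ`. -/
theorem hasFiniteLevel_place (N : ℕ) [NeZero N]
    (v : Place Qbar ↥(modularFunctionFieldBar N)) :
    HasFiniteLevel (fun σ => arithmeticGalois (modularFunctionFieldFull N) σ • v = v) := by
  classical
  have hJT := Fermat.Agent.S24.helper24.leaf_JTranscendental N
  obtain ⟨hfd, -⟩ := stmt_JFinrank N
  have := hfd
  obtain ⟨y, s, hs, hvs⟩ := exists_finite_fibre (Fermat.Agent.S24.helper24.jBar N) hJT v
  have hylev : HasFiniteLevel
      (fun σ => arithmeticGalois (modularFunctionFieldFull N) σ • y = y) :=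
    hasFiniteLevel_smul_elt _ y
  have hsep : ∀ w ∈ s.erase v, ∃ f : ↥(modularFunctionFieldBar N),
      f ∈ v.toValuationSubring ∧ f ∉ w.toValuationSubring :=
    fun w hw => exists_mem_not_mem (Finset.ne_of_mem_erase hw).symm
  choose! f hfv hfw using hsep
  have hflev : HasFiniteLevel (fun σ => ∀ w ∈ s.erase v,
      arithmeticGalois (modularFunctionFieldFull N) σ • f w = f w) :=
    HasFiniteLevel.finset _ fun w _ => hasFiniteLevel_smul_elt _ (f w)
  refine (hylev.and hflev).mono fun σ hσ => ?_
  obtain ⟨hy', hf'⟩ := hσ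
  set g := arithmeticGalois (modularFunctionFieldFull N) σ with hg
  by_contra hne
  have hgs : g • v ∈ s := by
    rw [hs]
    have h1 := SemilinearAut.ord_smul g v y
    rw [hy'] at h1
    rw [h1]
    exact (hs v).mp hvs
  have hmem : g • v ∈ s.erase v := Finset.mem_erase.mpr ⟨hne, hgs⟩
  apply hfw (g • v) hmem
  have h1 : g • f (g • v) ∈ (g • v).toValuationSubring :=
    ValuationSubring.smul_mem_pointwise_smul g _ _ (hfv _ hmem)
  rwa [hf' _ hmem] at h1

/-! ## Points of `JZero N` -/

/-- **Open stabilisers on `JZero N`.** Every point of `JZero N` is fixed by all `σ` fixing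
pointwise a suitable finite extension of `ℚ`. -/
theorem hasFiniteLevel_point (N : ℕ) [NeZero N] (x : JZero N) :
    HasFiniteLevel (fun σ : Gal => σ • x = x) := by
  classical
  obtain ⟨D, rfl⟩ := Pic0.mk_surjective x
  have h := HasFiniteLevel.finset (D : Divisor Qbar ↥(modularFunctionFieldBar N)).support
    (P := fun v σ => arithmeticGalois (modularFunctionFieldFull N) σ • v = v)
    (fun v _ => hasFiniteLevel_place N v)
  refine h.mono fun σ hσ => ?_
  rw [galois_smul_pic0_def, SemilinearAut.pic0_smul_mk]
  congr 1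
  apply Subtype.ext
  rw [SemilinearAut.coe_degZeroSMulHom, SemilinearAut.divisor_smul_def]
  conv_rhs => rw [← Finsupp.mapDomain_id (v := (D : Divisor Qbar ↥(modularFunctionFieldBar N)))]
  exact Finsupp.mapDomain_congr fun v hv => hσ v hv

/-- The explicit form of `hasFiniteLevel_point`. -/
theorem exists_finiteLevel_point (N : ℕ) [NeZero N] (x : JZero N) :
    ∃ L : IntermediateField ℚ (AlgebraicClosure ℚ), FiniteDimensional ℚ L ∧
      ∀ σ : AlgebraicClosure ℚ ≃ₐ[ℚ] AlgebraicClosure ℚ, (∀ y ∈ L, σ y = y) → σ • x = x :=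
  hasFiniteLevel_point N x

/-- Finitely many points of `JZero N` are fixed by a common open subgroup. -/
theorem exists_finiteLevel_of_finite (N : ℕ) [NeZero N] {S : Set (JZero N)} (hS : S.Finite) :
    ∃ L : IntermediateField ℚ (AlgebraicClosure ℚ), FiniteDimensional ℚ L ∧
      ∀ σ : AlgebraicClosure ℚ ≃ₐ[ℚ] AlgebraicClosure ℚ, (∀ y ∈ L, σ y = y) →
        ∀ x ∈ S, σ • x = x := by
  have h := HasFiniteLevel.finset hS.toFinset (P := fun x σ => σ • x = x)
    (fun x _ => hasFiniteLevel_point N x)
  obtain ⟨L, hL, hσ⟩ := h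
  exact ⟨L, hL, fun σ h x hx => hσ σ h x (hS.mem_toFinset.mpr hx)⟩

/-- Torsion points: the torsion Galois representation fixes each point on an open subgroup. -/
theorem hasFiniteLevel_torsionGaloisRep (N : ℕ) [NeZero N] (n : ℕ)
    (x : Pic0.torsion Qbar ↥(modularFunctionFieldBar N) n) :
    HasFiniteLevel (fun σ => JZero.torsionGaloisRep N n σ x = x) :=
  (hasFiniteLevel_point N (x : JZero N)).mono fun σ h =>
    Subtype.ext ((JZero.coe_torsionGaloisRep_apply N σ x).trans h)

/-! ## Consumer forms: finite-dimensional representations -/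

section Rep

variable {κ : Type*} {E : Type} [Field κ] [AddCommGroup E] [Module κ E]

/-- The vectors fixed by an open subgroup form a subspace. -/
def finiteLevelSubmodule (ρ : Gal →* Module.End κ E) : Submodule κ E where
  carrier := {e | HasFiniteLevel (fun σ => ρ σ e = e)}
  zero_mem' := HasFiniteLevel.of_forall fun σ => map_zero _
  add_mem' := fun ha hb => (ha.and hb).mono fun σ h => by rw [map_add, h.1, h.2]
  smul_mem' := fun c e he => he.mono fun σ h => by rw [map_smul, h]

theorem mem_finiteLevelSubmodule (ρ : Gal →* Module.End κ E) (e : E) :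
    e ∈ finiteLevelSubmodule ρ ↔ HasFiniteLevel (fun σ => ρ σ e = e) :=
  Iff.rfl

/-- A finite-dimensional representation in which every vector is fixed by an open subgroup
factors through a finite level. -/
theorem factorsThroughFiniteLevel_of_pointwise [FiniteDimensional κ E]
    (ρ : Gal →* Module.End κ E) (h : ∀ e : E, HasFiniteLevel (fun σ => ρ σ e = e)) :
    GaloisFactorsThroughFiniteLevel ρ := by
  let b := Module.finBasis κ E
  have h1 := HasFiniteLevel.fintype (P := fun i σ => ρ σ (b i) = b i) fun i => h (b i)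
  exact h1.mono fun σ hσ => b.ext fun i => by rw [hσ i, Module.End.one_apply]

/-- A finite-dimensional representation spanned by vectors fixed by open subgroups factors
through a finite level. -/
theorem factorsThroughFiniteLevel_of_span [FiniteDimensional κ E]
    (ρ : Gal →* Module.End κ E) {ι : Type*} (e : ι → E)
    (he : ∀ i, HasFiniteLevel (fun σ => ρ σ (e i) = e i))
    (hspan : Submodule.span κ (Set.range e) = ⊤) :
    GaloisFactorsThroughFiniteLevel ρ :=
  factorsThroughFiniteLevel_of_pointwise ρ fun x => by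
    have hle : Submodule.span κ (Set.range e) ≤ finiteLevelSubmodule ρ :=
      Submodule.span_le.mpr (by rintro _ ⟨i, rfl⟩; exact he i)
    exact hle (hspan ▸ Submodule.mem_top)

/-- A finite-dimensional representation receiving a Galois-equivariant map from `JZero N`
(or from any part of it, e.g. the `p`-torsion) whose image spans, factors through a finite
level. -/
theorem factorsThroughFiniteLevel_of_JZero (N : ℕ) [NeZero N] [FiniteDimensional κ E]
    (ρ : Gal →* Module.End κ E) {ι : Type*} (pt : ι → JZero N) (e : ι → E)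
    (act : Gal → ι → ι) (hpt : ∀ σ i, pt (act σ i) = σ • pt i)
    (hinj : Function.Injective pt) (he : ∀ σ i, ρ σ (e i) = e (act σ i))
    (hspan : Submodule.span κ (Set.range e) = ⊤) :
    GaloisFactorsThroughFiniteLevel ρ :=
  factorsThroughFiniteLevel_of_span ρ e
    (fun i => (hasFiniteLevel_point N (pt i)).mono fun σ h => by
      rw [he σ i]
      exact congrArg e (hinj ((hpt σ i).trans h)))
    hspan

end Rep

end Fermat.Agent.S29.helper8527
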