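/-
S29-VALPLACE (board row 1069, helper265): the order half of (TH1) of the THETA hub.

(A) `IsIntOrder.exists_place`: an integer valued order function `w` on a field `F` which is
    trivial on the constants `K` and not identically zero on `Fˣ` is a positive multiple of
    the order function of a place of `F / K` (Prelude `AlgebraicCurve.Place`).
(B) `IsIntOrder.dvd_of_forall_place_dvd`: if all place orders of `u` are divisible by `p`,
    then `p ∣ w u` for every such order function `w`.
(C) `isIntOrder_anOrd`, `dvd_anOrd_of_forall_place_dvd`,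
    `exists_meromorphicOrderAt_eq_mul_of_forall_place_dvd`: the analytic order at a point of an
    "evaluation" of `F` into meromorphic germs is such an order function; hence place orders
    divisible by `p` force analytic orders divisible by `p` at every point (no point/place
    dictionary is needed: a point with transcendental coordinates gives the trivial branch).
-/
import Mathlib
import Fermat.Prelude.Def_AlgebraicCurve_DivisorClassGroup

set_option autoImplicit false

namespace Fermat.Agent.S29.helper265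

open AlgebraicCurve

section Abstract

/-- `w : F → ℤ` is an integer valued order function on the field `F`, trivial on the
constants `K`: additive on products, ultrametric on sums, zero on `Kˣ`.
(The value at `0` is irrelevant.) -/
def IsIntOrder (K : Type*) {F : Type*} [Field K] [Field F] [Algebra K F] (w : F → ℤ) : Prop :=
  (∀ f g : F, f ≠ 0 → g ≠ 0 → w (f * g) = w f + w g) ∧
  (∀ f g : F, f ≠ 0 → g ≠ 0 → f + g ≠ 0 → min (w f) (w g) ≤ w (f + g)) ∧
  (∀ a : K, a ≠ 0 → w (algebraMap K F a) = 0)

variable {K F : Type*} [Field K] [Field F] [Algebra K F]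

namespace IsIntOrder

variable {w : F → ℤ}

theorem map_mul (hw : IsIntOrder K w) {f g : F} (hf : f ≠ 0) (hg : g ≠ 0) :
    w (f * g) = w f + w g := by
  obtain ⟨h1, -, -⟩ := hw
  exact h1 f g hf hg

theorem map_add (hw : IsIntOrder K w) {f g : F} (hf : f ≠ 0) (hg : g ≠ 0) (hfg : f + g ≠ 0) :
    min (w f) (w g) ≤ w (f + g) := by
  obtain ⟨-, h2, -⟩ := hw
  exact h2 f g hf hg hfg

theorem map_const (hw : IsIntOrder K w) {a : K} (ha : a ≠ 0) : w (algebraMap K F a) = 0 := by
  obtain ⟨-, -, h3⟩ := hw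
  exact h3 a ha

theorem map_one (hw : IsIntOrder K w) : w 1 = 0 := by
  have h := hw.map_mul (one_ne_zero (α := F)) (one_ne_zero (α := F))
  rw [mul_one] at h
  linarith

theorem map_neg_one (hw : IsIntOrder K w) : w (-1) = 0 := by
  have hne : (-1 : F) ≠ 0 := neg_ne_zero.mpr one_ne_zero
  have h := hw.map_mul hne hne
  rw [neg_mul_neg, mul_one, hw.map_one] at h
  linarith

theorem map_neg (hw : IsIntOrder K w) {f : F} (hf : f ≠ 0) : w (-f) = w f := by
  have hne : (-1 : F) ≠ 0 := neg_ne_zero.mpr one_ne_zero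
  have h := hw.map_mul hne hf
  rw [neg_one_mul, hw.map_neg_one, zero_add] at h
  exact h

theorem map_inv (hw : IsIntOrder K w) {f : F} (hf : f ≠ 0) : w f⁻¹ = -w f := by
  have h := hw.map_mul hf (inv_ne_zero hf)
  rw [mul_inv_cancel₀ hf, hw.map_one] at h
  linarith

theorem map_zpow (hw : IsIntOrder K w) {f : F} (hf : f ≠ 0) (n : ℤ) : w (f ^ n) = n * w f := by
  induction n using Int.induction_on with
  | zero => simp [hw.map_one]
  | succ n ih =>
    rw [zpow_add_one₀ hf, hw.map_mul (zpow_ne_zero _ hf) hf, ih]; ring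
  | pred n ih =>
    rw [zpow_sub_one₀ hf, hw.map_mul (zpow_ne_zero _ hf) (inv_ne_zero hf), ih, hw.map_inv hf]
    ring

/-- The valuation subring `{f | f = 0 ∨ 0 ≤ w f}` of an integer order function. -/
def valuationSubring (hw : IsIntOrder K w) : ValuationSubring F where
  carrier := {f | f = 0 ∨ 0 ≤ w f}
  mul_mem' := by
    intro a b ha hb
    by_cases ha0 : a = 0
    · left; rw [ha0, zero_mul]
    by_cases hb0 : b = 0
    · left; rw [hb0, mul_zero]
    right
    have ha' : 0 ≤ w a := ha.resolve_left ha0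
    have hb' : 0 ≤ w b := hb.resolve_left hb0
    rw [hw.map_mul ha0 hb0]; omega
  one_mem' := Or.inr (by rw [hw.map_one])
  add_mem' := by
    intro a b ha hb
    by_cases ha0 : a = 0
    · rw [ha0, zero_add]; exact hb
    by_cases hb0 : b = 0
    · rw [hb0, add_zero]; exact ha
    by_cases hab : a + b = 0
    · left; exact hab
    right
    have ha' : 0 ≤ w a := ha.resolve_left ha0
    have hb' : 0 ≤ w b := hb.resolve_left hb0
    exact le_trans (le_min ha' hb') (hw.map_add ha0 hb0 hab)
  zero_mem' := Or.inl rfl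
  neg_mem' := by
    intro a ha
    by_cases ha0 : a = 0
    · left; rw [ha0, neg_zero]
    right; rw [hw.map_neg ha0]; exact ha.resolve_left ha0
  mem_or_inv_mem' := by
    intro a
    by_cases ha0 : a = 0
    · left; left; exact ha0
    rcases le_total 0 (w a) with h | h
    · left; right; exact h
    · right; right; rw [hw.map_inv ha0]; omega

theorem mem_valuationSubring_iff (hw : IsIntOrder K w) (f : F) :
    f ∈ hw.valuationSubring ↔ f = 0 ∨ 0 ≤ w f := Iff.rfl

theorem algebraMap_mem_valuationSubring (hw : IsIntOrder K w) (a : K) :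
    algebraMap K F a ∈ hw.valuationSubring := by
  rw [mem_valuationSubring_iff]
  by_cases ha : a = 0
  · left; rw [ha, map_zero]
  · right; rw [hw.map_const ha]

/-- A nonzero element of the valuation subring with order zero is a unit. -/
theorem isUnit_of_map_eq_zero (hw : IsIntOrder K w) (a : hw.valuationSubring)
    (ha0 : (a : F) ≠ 0) (ha : w (a : F) = 0) : IsUnit a := by
  have hinv : (a : F)⁻¹ ∈ hw.valuationSubring := by
    rw [mem_valuationSubring_iff]; right; rw [hw.map_inv ha0, ha, neg_zero]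
  refine ⟨⟨a, ⟨(a : F)⁻¹, hinv⟩, ?_, ?_⟩, rfl⟩
  · apply Subtype.ext
    show (a : F) * (a : F)⁻¹ = 1
    exact mul_inv_cancel₀ ha0
  · apply Subtype.ext
    show (a : F)⁻¹ * (a : F) = 1
    exact inv_mul_cancel₀ ha0

/-- **Main abstract statement.** A nontrivial integer order function on `F`, trivial on `K`, is
a positive multiple of the order function of a place of `F / K`. -/
theorem exists_place (hw : IsIntOrder K w) (hnt : ∃ f : F, f ≠ 0 ∧ w f ≠ 0) :
    ∃ (v : Place K F) (e : ℕ), 0 < e ∧ ∀ f : F, f ≠ 0 → w f = (e : ℤ) * v.ord f := by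
  classical
  -- a positive value exists
  have hpos : ∃ n : ℕ, 0 < n ∧ ∃ f : F, f ≠ 0 ∧ w f = (n : ℤ) := by
    obtain ⟨f, hf0, hf⟩ := hnt
    rcases lt_or_gt_of_ne hf with h | h
    · refine ⟨(-w f).toNat, by omega, f⁻¹, inv_ne_zero hf0, ?_⟩
      rw [hw.map_inv hf0]; omega
    · exact ⟨(w f).toNat, by omega, f, hf0, by omega⟩
  obtain ⟨he, π, hπ0, hπ⟩ := Nat.find_spec hpos
  generalize hedef : Nat.find hpos = e at he hπ
  have hmin : ∀ f : F, f ≠ 0 → 0 < w f → (e : ℤ) ≤ w f := by
    intro f hf0 hf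
    have h1 : Nat.find hpos ≤ (w f).toNat :=
      Nat.find_min' hpos ⟨by omega, f, hf0, by omega⟩
    rw [hedef] at h1
    omega
  have heZ : (0 : ℤ) < (e : ℤ) := by exact_mod_cast he
  -- every value is a multiple of `e`
  have hdvd : ∀ f : F, f ≠ 0 → (e : ℤ) ∣ w f := by
    intro f hf0
    have hr0 : 0 ≤ w f % (e : ℤ) := Int.emod_nonneg _ heZ.ne'
    have hr1 : w f % (e : ℤ) < (e : ℤ) := Int.emod_lt_of_pos _ heZ
    have hg0 : f * π ^ (-(w f / (e : ℤ))) ≠ 0 := mul_ne_zero hf0 (zpow_ne_zero _ hπ0)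
    have hg : w (f * π ^ (-(w f / (e : ℤ)))) = w f % (e : ℤ) := by
      rw [hw.map_mul hf0 (zpow_ne_zero _ hπ0), hw.map_zpow hπ0, hπ]
      have h2 := Int.emod_add_mul_ediv (w f) (e : ℤ)
      linarith
    by_contra hnd
    have hrpos : 0 < w f % (e : ℤ) := by
      rcases hr0.lt_or_eq with h | h
      · exact h
      · exact absurd (Int.dvd_of_emod_eq_zero h.symm) hnd
    have h3 := hmin _ hg0 (by rw [hg]; exact hrpos)
    rw [hg] at h3
    omega
  -- the uniformiser as an element of the valuation subring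
  have hπmem : π ∈ hw.valuationSubring := by
    rw [mem_valuationSubring_iff]; right; rw [hπ]; exact heZ.le
  have hnonneg : ∀ a : hw.valuationSubring, (a : F) ≠ 0 → 0 ≤ w (a : F) := by
    intro a ha0
    exact ((hw.mem_valuationSubring_iff _).mp a.2).resolve_left ha0
  have hπirr : Irreducible (⟨π, hπmem⟩ : hw.valuationSubring) := by
    rw [irreducible_iff]
    constructor
    · intro hu
      obtain ⟨b, hb⟩ := hu.exists_right_inv
      have hb' : π * (b : F) = 1 := congrArg Subtype.val hb
      have hb0 : (b : F) ≠ 0 := by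
        intro h0; rw [h0, mul_zero] at hb'; exact zero_ne_one hb'
      have h4 := hw.map_mul hπ0 hb0
      rw [hb', hw.map_one, hπ] at h4
      have h5 := hnonneg b hb0
      omega
    · intro a b hab
      have hab' : π = (a : F) * (b : F) := congrArg Subtype.val hab
      have ha0 : (a : F) ≠ 0 := by
        intro h0; rw [h0, zero_mul] at hab'; exact hπ0 hab'
      have hb0 : (b : F) ≠ 0 := by
        intro h0; rw [h0, mul_zero] at hab'; exact hπ0 hab'
      have h4 := hw.map_mul ha0 hb0
      rw [← hab', hπ] at h4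
      have h5 := hnonneg a ha0
      have h6 := hnonneg b hb0
      by_cases ha : w (a : F) = 0
      · exact Or.inl (hw.isUnit_of_map_eq_zero a ha0 ha)
      · by_cases hb : w (b : F) = 0
        · exact Or.inr (hw.isUnit_of_map_eq_zero b hb0 hb)
        · exfalso
          have h7 := hmin _ ha0 (by omega)
          have h8 := hmin _ hb0 (by omega)
          omega
  -- unit times power of the uniformiser
  have hfac : ∀ f : F, f ≠ 0 → ∀ n : ℤ, w f = (e : ℤ) * n →
      ∃ u : hw.valuationSubring, IsUnit u ∧ f = (u : F) * π ^ n := by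
    intro f hf0 n hn
    have hu0 : f * π ^ (-n) ≠ 0 := mul_ne_zero hf0 (zpow_ne_zero _ hπ0)
    have hu : w (f * π ^ (-n)) = 0 := by
      rw [hw.map_mul hf0 (zpow_ne_zero _ hπ0), hw.map_zpow hπ0, hπ, hn]; ring
    have humem : f * π ^ (-n) ∈ hw.valuationSubring := by
      rw [mem_valuationSubring_iff]; right; rw [hu]
    refine ⟨⟨f * π ^ (-n), humem⟩, hw.isUnit_of_map_eq_zero ⟨_, humem⟩ hu0 hu, ?_⟩
    show f = f * π ^ (-n) * π ^ n
    rw [mul_assoc, ← zpow_add₀ hπ0, neg_add_cancel, zpow_zero, mul_one]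
  have hDVR : IsDiscreteValuationRing hw.valuationSubring := by
    apply IsDiscreteValuationRing.ofHasUnitMulPowIrreducibleFactorization
    refine ⟨⟨π, hπmem⟩, hπirr, ?_⟩
    intro x hx
    have hx0 : (x : F) ≠ 0 := fun h0 => hx (Subtype.ext h0)
    obtain ⟨n, hn⟩ := hdvd (x : F) hx0
    have hn0 : 0 ≤ n := by
      have h5 := hnonneg x hx0
      rw [hn] at h5
      exact nonneg_of_mul_nonneg_right h5 heZ
    obtain ⟨u, hu, hxu⟩ := hfac (x : F) hx0 n hn
    refine ⟨n.toNat, ?_⟩
    refine ⟨hu.unit, ?_⟩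
    apply Subtype.ext
    show π ^ n.toNat * (u : F) = (x : F)
    rw [hxu, mul_comm, ← zpow_natCast, Int.toNat_of_nonneg hn0]
  have hnetop : hw.valuationSubring ≠ ⊤ := by
    intro htop
    have h5 : π⁻¹ ∈ hw.valuationSubring := by rw [htop]; exact ValuationSubring.mem_top _
    rw [mem_valuationSubring_iff] at h5
    rcases h5 with h5 | h5
    · exact inv_ne_zero hπ0 h5
    · rw [hw.map_inv hπ0, hπ] at h5; omega
  refine ⟨⟨hw.valuationSubring, hw.algebraMap_mem_valuationSubring, hnetop,
    hDVR.toIsPrincipalIdealRing⟩, e, he, ?_⟩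
  intro f hf0
  obtain ⟨n, hn⟩ := hdvd f hf0
  obtain ⟨u, hu, hfu⟩ := hfac f hf0 n hn
  have hord := Place.ord_unit_smul_zpow
    (⟨hw.valuationSubring, hw.algebraMap_mem_valuationSubring, hnetop,
      hDVR.toIsPrincipalIdealRing⟩ : Place K F) hu.unit hπirr n
  have hfu' : f = ((hu.unit : hw.valuationSubring) : F) * ((⟨π, hπmem⟩ : hw.valuationSubring) : F) ^ n :=
    hfu
  rw [hn, hfu', hord]

/-- **(B)** If every place order of `u` is divisible by `p`, then so is `w u` for every integer
order function `w` on `F` which is trivial on `K`. -/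
theorem dvd_of_forall_place_dvd (hw : IsIntOrder K w) {u : F} (hu : u ≠ 0) {p : ℤ}
    (h : ∀ v : Place K F, p ∣ v.ord u) : p ∣ w u := by
  by_cases hnt : ∃ f : F, f ≠ 0 ∧ w f ≠ 0
  · obtain ⟨v, e, -, hv⟩ := hw.exists_place hnt
    rw [hv u hu]
    exact Dvd.dvd.mul_left (h v) _
  · have h0 : w u = 0 := by
      by_contra hne
      exact hnt ⟨u, hu, hne⟩
    rw [h0]
    exact dvd_zero p

end IsIntOrder

end Abstract

section Analytic

open Filter Topology

/-- The integer analytic order at `x` of the evaluation `ev f` of an element `f : F`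
(junk value `0` when the germ is identically zero or not meromorphic). -/
noncomputable def anOrd {F : Type*} (ev : F → ℂ → ℂ) (x : ℂ) (f : F) : ℤ :=
  (meromorphicOrderAt (ev f) x).untopD 0

theorem coe_anOrd {F : Type*} {ev : F → ℂ → ℂ} {x : ℂ} {f : F}
    (h : meromorphicOrderAt (ev f) x ≠ ⊤) :
    ((anOrd ev x f : ℤ) : WithTop ℤ) = meromorphicOrderAt (ev f) x := by
  obtain ⟨n, hn⟩ := WithTop.ne_top_iff_exists.mp h
  rw [anOrd, ← hn]
  rfl

variable {K F : Type*} [Field K] [Field F] [Algebra K F]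

/-- **(C)** The analytic order at a point of an evaluation of `F` into meromorphic germs
(multiplicative and additive up to equality on a punctured neighbourhood, nonzero elements
having nonzero germs, nonzero constants having order zero) is an integer order function. -/
theorem isIntOrder_anOrd (ev : F → ℂ → ℂ) (x : ℂ)
    (hmer : ∀ f : F, MeromorphicAt (ev f) x)
    (hmul : ∀ f g : F, ev (f * g) =ᶠ[𝓝[≠] x] ev f * ev g)
    (hadd : ∀ f g : F, ev (f + g) =ᶠ[𝓝[≠] x] ev f + ev g)
    (hne : ∀ f : F, f ≠ 0 → meromorphicOrderAt (ev f) x ≠ ⊤)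
    (hconst : ∀ a : K, a ≠ 0 → meromorphicOrderAt (ev (algebraMap K F a)) x = 0) :
    IsIntOrder K (anOrd ev x) := by
  refine ⟨?_, ?_, ?_⟩
  · intro f g hf hg
    have h1 : meromorphicOrderAt (ev (f * g)) x
        = meromorphicOrderAt (ev f) x + meromorphicOrderAt (ev g) x := by
      rw [meromorphicOrderAt_congr (hmul f g), meromorphicOrderAt_mul (hmer f) (hmer g)]
    rw [← coe_anOrd (hne f hf), ← coe_anOrd (hne g hg),
      ← coe_anOrd (hne (f * g) (mul_ne_zero hf hg)), ← WithTop.coe_add] at h1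
    exact WithTop.coe_injective h1
  · intro f g hf hg hfg
    have h1 : min (meromorphicOrderAt (ev f) x) (meromorphicOrderAt (ev g) x)
        ≤ meromorphicOrderAt (ev (f + g)) x := by
      rw [meromorphicOrderAt_congr (hadd f g)]
      exact meromorphicOrderAt_add (hmer f) (hmer g)
    rw [← coe_anOrd (hne f hf), ← coe_anOrd (hne g hg), ← coe_anOrd (hne (f + g) hfg),
      ← WithTop.coe_min] at h1
    exact WithTop.coe_le_coe.mp h1
  · intro a ha
    have h1 := hconst a ha
    rw [← coe_anOrd (hne _ ((map_ne_zero (algebraMap K F)).mpr ha))] at h1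
    exact WithTop.coe_injective h1

/-- Place orders divisible by `p` force the analytic order at `x` to be divisible by `p`. -/
theorem dvd_anOrd_of_forall_place_dvd (ev : F → ℂ → ℂ) (x : ℂ)
    (hmer : ∀ f : F, MeromorphicAt (ev f) x)
    (hmul : ∀ f g : F, ev (f * g) =ᶠ[𝓝[≠] x] ev f * ev g)
    (hadd : ∀ f g : F, ev (f + g) =ᶠ[𝓝[≠] x] ev f + ev g)
    (hne : ∀ f : F, f ≠ 0 → meromorphicOrderAt (ev f) x ≠ ⊤)
    (hconst : ∀ a : K, a ≠ 0 → meromorphicOrderAt (ev (algebraMap K F a)) x = 0)
    {u : F} (hu : u ≠ 0) {p : ℤ} (h : ∀ v : Place K F, p ∣ v.ord u) :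
    p ∣ anOrd ev x u :=
  (isIntOrder_anOrd ev x hmer hmul hadd hne hconst).dvd_of_forall_place_dvd hu h

/-- The same, as a statement about `meromorphicOrderAt`. -/
theorem exists_meromorphicOrderAt_eq_mul_of_forall_place_dvd (ev : F → ℂ → ℂ) (x : ℂ)
    (hmer : ∀ f : F, MeromorphicAt (ev f) x)
    (hmul : ∀ f g : F, ev (f * g) =ᶠ[𝓝[≠] x] ev f * ev g)
    (hadd : ∀ f g : F, ev (f + g) =ᶠ[𝓝[≠] x] ev f + ev g)
    (hne : ∀ f : F, f ≠ 0 → meromorphicOrderAt (ev f) x ≠ ⊤)
    (hconst : ∀ a : K, a ≠ 0 → meromorphicOrderAt (ev (algebraMap K F a)) x = 0)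
    {u : F} (hu : u ≠ 0) {p : ℤ} (h : ∀ v : Place K F, p ∣ v.ord u) :
    ∃ n : ℤ, meromorphicOrderAt (ev u) x = ((p * n : ℤ) : WithTop ℤ) := by
  obtain ⟨n, hn⟩ := dvd_anOrd_of_forall_place_dvd ev x hmer hmul hadd hne hconst hu h
  exact ⟨n, by rw [← hn, coe_anOrd (hne u hu)]⟩

end Analytic

end Fermat.Agent.S29.helper265
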