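/-
S29-VALPLACE, instance part (board row 1069, helper265).

The landed S24 evaluation `helper6180.ev N : AN N → (ℍ → ℂ)` (`AN N = ℚ̄[j(q^d) : d ∣ N]`,
`FN N = Frac (AN N)` the function field of `X₀(N)` over `ℚ̄`) is extended to the function field:
`evF N u` is the meromorphic function `ev a / ev b` (as a function on `ℂ`, through
`UpperHalfPlane.ofComplex`) for a chosen representation `u = a / b`.

Main results:
* `isIntOrder_evF` : for every `x` in the upper half plane, `u ↦ ord_x (evF N u)` is an integer
  order function on `FN N`, trivial on `ℚ̄`;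
* `exists_meromorphicOrderAt_div_eq` : if every place order of `u` is divisible by `p`, then for
  EVERY representation `u = a / b` and EVERY `τ : ℍ` the order of `ev a / ev b` at `τ` is
  divisible by `p` (the hypothesis of the `p`-th root lemmas);
* `dvd_analyticOrderNatAt_sub` : the same, as `p ∣ ord_τ (ev a) - ord_τ (ev b)`;
* `isIntOrder_order`, `dvd_order_of_forall_place_dvd` : the `q`-order of a Laurent series is an
  integer order function on any function field inside `L((q))`; hence place orders divisible by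
  `p` force the `q`-order (order at the cusp `∞`) to be divisible by `p`.
-/
import Fermat.Agent.S24.helper6180_Ev
import Fermat.Agent.S29.helper265_ValPlace

set_option autoImplicit false

open ModularCurve UpperHalfPlane Filter AlgebraicCurve
open scoped Manifold Topology

noncomputable section

namespace Fermat.Agent.S29.helper265

open Fermat.Agent.S24 Fermat.Agent.S24.helper24

/-! ## The `q`-order on a function field of Laurent series -/

section QOrder

variable {L : Type*} [Field L]

/-- The `q`-order is an integer order function on any intermediate field of `L((q)) / L`. -/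
theorem isIntOrder_order (F : IntermediateField L (LaurentSeries L)) :
    IsIntOrder L (fun f : F => (f : LaurentSeries L).order) := by
  refine ⟨?_, ?_, ?_⟩
  · intro f g hf hg
    have hf' : (f : LaurentSeries L) ≠ 0 := fun h => hf (Subtype.ext h)
    have hg' : (g : LaurentSeries L) ≠ 0 := fun h => hg (Subtype.ext h)
    show ((f : LaurentSeries L) * (g : LaurentSeries L)).order = _
    exact HahnSeries.order_mul hf' hg'
  · intro f g _ _ hfg
    have hfg' : (f : LaurentSeries L) + (g : LaurentSeries L) ≠ 0 := fun h => hfg (Subtype.ext h)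
    show min _ _ ≤ ((f : LaurentSeries L) + (g : LaurentSeries L)).order
    exact HahnSeries.min_order_le_order_add hfg'
  · intro a _
    show (algebraMap L (LaurentSeries L) a).order = 0
    rw [HahnSeries.algebraMap_apply', PowerSeries.algebraMap_apply, Algebra.algebraMap_self,
      RingHom.id_apply, HahnSeries.ofPowerSeries_C]
    exact HahnSeries.order_C

/-- Place orders divisible by `p` force the `q`-order to be divisible by `p`. -/
theorem dvd_order_of_forall_place_dvd (F : IntermediateField L (LaurentSeries L)) {u : F}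
    (hu : u ≠ 0) {p : ℤ} (h : ∀ v : Place L F, p ∣ v.ord u) :
    p ∣ (u : LaurentSeries L).order :=
  (isIntOrder_order F).dvd_of_forall_place_dvd hu h

end QOrder

/-! ## The analytic realisation of the function field of `X₀(N)` -/

variable (N : ℕ)

/-- `ev a`, transported to a function on `ℂ` through `UpperHalfPlane.ofComplex`. -/
def evC (a : helper3176.AN N) : ℂ → ℂ := fun z => helper6180.ev N a (ofComplex z)

theorem evC_apply (a : helper3176.AN N) (z : ℂ) :
    evC N a z = helper6180.ev N a (ofComplex z) := rfl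

theorem evC_coe (a : helper3176.AN N) (τ : ℍ) : evC N a (τ : ℂ) = helper6180.ev N a τ := by
  rw [evC_apply, ofComplex_apply]

theorem evC_mul (a b : helper3176.AN N) : evC N (a * b) = evC N a * evC N b := by
  funext z
  simp only [evC_apply, helper6180.ev_mul, Pi.mul_apply]

theorem evC_add (a b : helper3176.AN N) : evC N (a + b) = evC N a + evC N b := by
  funext z
  simp only [evC_apply, helper6180.ev_add, Pi.add_apply]

theorem analyticAt_evC (a : helper3176.AN N) {x : ℂ} (hx : 0 < x.im) :
    AnalyticAt ℂ (evC N a) x := by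
  have h : DifferentiableOn ℂ (helper6180.ev N a ∘ ofComplex) {z | 0 < z.im} :=
    UpperHalfPlane.mdifferentiable_iff.mp (helper6180.mdiff_ev N a)
  exact h.analyticAt (isOpen_upperHalfPlaneSet.mem_nhds hx)

theorem analyticOnNhd_evC (a : helper3176.AN N) :
    AnalyticOnNhd ℂ (evC N a) {z | 0 < z.im} := fun _ hx => analyticAt_evC N a hx

/-- A nonzero element of `AN N` has an evaluation with isolated zeros. -/
theorem eventually_evC_ne_zero {a : helper3176.AN N} (ha : a ≠ 0) {x : ℂ} (hx : 0 < x.im) :
    ∀ᶠ z in 𝓝[≠] x, evC N a z ≠ 0 := by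
  rcases (analyticAt_evC N a hx).eventually_eq_zero_or_eventually_ne_zero with h | h
  · exfalso
    have hpre : IsPreconnected {z : ℂ | 0 < z.im} := (convex_halfSpace_im_gt 0).isPreconnected
    have h0 := (analyticOnNhd_evC N a).eqOn_zero_of_preconnected_of_eventuallyEq_zero hpre hx h
    apply ha
    rw [← helper6180.ev_eq_zero_iff]
    funext τ
    have h1 := h0 τ.im_pos
    rw [evC_coe] at h1
    exact h1
  · exact h

/-- A chosen numerator of `u : FN N` in `AN N`. -/
def numAN (u : FN N) : helper3176.AN N := (helper3176.exists_div_AN N u).choose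

/-- A chosen denominator of `u : FN N` in `AN N`. -/
def denAN (u : FN N) : helper3176.AN N := (helper3176.exists_div_AN N u).choose_spec.choose

theorem coe_denAN_ne_zero (u : FN N) : ((denAN N u : helper3176.AN N) : FN N) ≠ 0 :=
  (helper3176.exists_div_AN N u).choose_spec.choose_spec.1

theorem denAN_ne_zero (u : FN N) : denAN N u ≠ 0 := fun h =>
  coe_denAN_ne_zero N u (by rw [h]; rfl)

theorem eq_numAN_div_denAN (u : FN N) :
    u = ((numAN N u : helper3176.AN N) : FN N) / ((denAN N u : helper3176.AN N) : FN N) :=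
  (helper3176.exists_div_AN N u).choose_spec.choose_spec.2

theorem numAN_ne_zero {u : FN N} (hu : u ≠ 0) : numAN N u ≠ 0 := by
  intro h
  apply hu
  rw [eq_numAN_div_denAN N u, h]
  show (0 : FN N) / _ = 0
  exact zero_div _

/-- The analytic realisation of an element of the function field of `X₀(N)`, as a function on
`ℂ` which is meromorphic on the upper half plane. -/
def evF (u : FN N) : ℂ → ℂ := fun z => evC N (numAN N u) z / evC N (denAN N u) z

theorem evF_apply (u : FN N) (z : ℂ) :
    evF N u z = evC N (numAN N u) z / evC N (denAN N u) z := rfl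

/-- `evF u` agrees near every point of the upper half plane with `ev a / ev b` for ANY
representation `u = a / b`. -/
theorem evF_eventuallyEq {u : FN N} {a b : helper3176.AN N} (hb : (b : FN N) ≠ 0)
    (hab : u = (a : FN N) / (b : FN N)) {x : ℂ} (hx : 0 < x.im) :
    evF N u =ᶠ[𝓝[≠] x] fun z => evC N a z / evC N b z := by
  have hb' : b ≠ 0 := fun h => hb (by rw [h]; rfl)
  have hcross : a * denAN N u = numAN N u * b := by
    apply Subtype.ext
    have h1 : (a : FN N) / (b : FN N)
        = ((numAN N u : helper3176.AN N) : FN N) / ((denAN N u : helper3176.AN N) : FN N) :=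
      hab.symm.trans (eq_numAN_div_denAN N u)
    exact (div_eq_div_iff hb (coe_denAN_ne_zero N u)).mp h1
  have hfun : evC N a * evC N (denAN N u) = evC N (numAN N u) * evC N b := by
    rw [← evC_mul, ← evC_mul, hcross]
  filter_upwards [eventually_evC_ne_zero N hb' hx,
    eventually_evC_ne_zero N (denAN_ne_zero N u) hx] with z hz1 hz2
  show evC N (numAN N u) z / evC N (denAN N u) z = evC N a z / evC N b z
  rw [div_eq_div_iff hz2 hz1]
  exact (congrFun hfun z).symm

theorem meromorphicAt_evF (u : FN N) {x : ℂ} (hx : 0 < x.im) : MeromorphicAt (evF N u) x :=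
  ((analyticAt_evC N (numAN N u) hx).meromorphicAt).div
    ((analyticAt_evC N (denAN N u) hx).meromorphicAt)

theorem evF_mul (u u' : FN N) {x : ℂ} (hx : 0 < x.im) :
    evF N (u * u') =ᶠ[𝓝[≠] x] evF N u * evF N u' := by
  have hb : ((denAN N u * denAN N u' : helper3176.AN N) : FN N) ≠ 0 :=
    mul_ne_zero (coe_denAN_ne_zero N u) (coe_denAN_ne_zero N u')
  have hab : u * u' = ((numAN N u * numAN N u' : helper3176.AN N) : FN N)
      / ((denAN N u * denAN N u' : helper3176.AN N) : FN N) := by
    conv_lhs => rw [eq_numAN_div_denAN N u, eq_numAN_div_denAN N u']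
    rw [div_mul_div_comm]
    rfl
  refine (evF_eventuallyEq N hb hab hx).trans (Eventually.of_forall fun z => ?_)
  show evC N (numAN N u * numAN N u') z / evC N (denAN N u * denAN N u') z
    = evF N u z * evF N u' z
  rw [evC_mul, evC_mul, evF_apply, evF_apply, Pi.mul_apply, Pi.mul_apply, div_mul_div_comm]

theorem evF_add (u u' : FN N) {x : ℂ} (hx : 0 < x.im) :
    evF N (u + u') =ᶠ[𝓝[≠] x] evF N u + evF N u' := by
  have hb : ((denAN N u * denAN N u' : helper3176.AN N) : FN N) ≠ 0 :=
    mul_ne_zero (coe_denAN_ne_zero N u) (coe_denAN_ne_zero N u')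
  have hab : u + u'
      = ((numAN N u * denAN N u' + denAN N u * numAN N u' : helper3176.AN N) : FN N)
      / ((denAN N u * denAN N u' : helper3176.AN N) : FN N) := by
    conv_lhs => rw [eq_numAN_div_denAN N u, eq_numAN_div_denAN N u']
    rw [div_add_div _ _ (coe_denAN_ne_zero N u) (coe_denAN_ne_zero N u')]
    rfl
  filter_upwards [evF_eventuallyEq N hb hab hx, eventually_evC_ne_zero N (denAN_ne_zero N u) hx,
    eventually_evC_ne_zero N (denAN_ne_zero N u') hx] with z hz h1 h2
  rw [hz]
  show evC N (numAN N u * denAN N u' + denAN N u * numAN N u') z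
      / evC N (denAN N u * denAN N u') z = evF N u z + evF N u' z
  rw [evC_add, evC_mul, evC_mul, evC_mul, evF_apply, evF_apply, div_add_div _ _ h1 h2]
  rfl

theorem meromorphicOrderAt_evF_ne_top {u : FN N} (hu : u ≠ 0) {x : ℂ} (hx : 0 < x.im) :
    meromorphicOrderAt (evF N u) x ≠ ⊤ := by
  intro htop
  rw [meromorphicOrderAt_eq_top_iff] at htop
  have h2 : ∀ᶠ _ in 𝓝[≠] x, False := by
    filter_upwards [htop, eventually_evC_ne_zero N (numAN_ne_zero N hu) hx,
      eventually_evC_ne_zero N (denAN_ne_zero N u) hx] with z hz h1 h2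
    exact div_ne_zero h1 h2 hz
  exact h2.exists.elim fun _ hF => hF

theorem meromorphicOrderAt_evF_algebraMap {c : Kbar} (hc : c ≠ 0) {x : ℂ} (hx : 0 < x.im) :
    meromorphicOrderAt (evF N (algebraMap Kbar (FN N) c)) x = 0 := by
  classical
  have hb : (((1 : helper3176.AN N)) : FN N) ≠ 0 := one_ne_zero
  have hab : algebraMap Kbar (FN N) c
      = ((algebraMap Kbar (helper3176.AN N) c : helper3176.AN N) : FN N)
        / ((1 : helper3176.AN N) : FN N) := by
    rw [show (((1 : helper3176.AN N)) : FN N) = 1 from rfl, div_one]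
    rfl
  rw [meromorphicOrderAt_congr (evF_eventuallyEq N hb hab hx)]
  have hfun : (fun z => evC N (algebraMap Kbar (helper3176.AN N) c) z / evC N 1 z)
      = fun _ => helper6180.i0 c := by
    funext z
    simp only [evC_apply, helper6180.ev_algebraMap, helper6180.ev_one, Pi.one_apply, div_one]
  rw [hfun, meromorphicOrderAt_const, if_neg ((map_ne_zero helper6180.i0).mpr hc)]

/-- **The analytic order at a point of the upper half plane is an integer order function on
the function field of `X₀(N)`, trivial on `ℚ̄`.** -/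
theorem isIntOrder_evF {x : ℂ} (hx : 0 < x.im) : IsIntOrder Kbar (anOrd (evF N) x) :=
  isIntOrder_anOrd (evF N) x (fun u => meromorphicAt_evF N u hx)
    (fun u u' => evF_mul N u u' hx) (fun u u' => evF_add N u u' hx)
    (fun _ hu => meromorphicOrderAt_evF_ne_top N hu hx)
    (fun _ hc => meromorphicOrderAt_evF_algebraMap N hc hx)

/-- **Place orders divisible by `p` ⟹ analytic orders divisible by `p` at every point of `ℍ`**,
for every representation `u = a / b` with `a, b ∈ AN N`. -/
theorem exists_meromorphicOrderAt_div_eq {u : FN N} (hu : u ≠ 0) {p : ℤ}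
    (h : ∀ v : Place Kbar (FN N), p ∣ v.ord u) {a b : helper3176.AN N}
    (hb : (b : FN N) ≠ 0) (hab : u = (a : FN N) / (b : FN N)) (τ : ℍ) :
    ∃ n : ℤ, meromorphicOrderAt
      (fun z : ℂ => helper6180.ev N a (ofComplex z) / helper6180.ev N b (ofComplex z)) (τ : ℂ)
        = ((p * n : ℤ) : WithTop ℤ) := by
  obtain ⟨n, hn⟩ := (isIntOrder_evF N τ.im_pos).dvd_of_forall_place_dvd hu h
  refine ⟨n, ?_⟩
  have h1 := meromorphicOrderAt_congr (evF_eventuallyEq N hb hab τ.im_pos)
  have h2 := coe_anOrd (meromorphicOrderAt_evF_ne_top N hu τ.im_pos)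
  rw [← hn, h2, h1]
  rfl

/-- The same statement in terms of the vanishing orders of the holomorphic functions `ev a`,
`ev b`: `p ∣ ord_τ (ev a) - ord_τ (ev b)`. -/
theorem dvd_analyticOrderNatAt_sub {u : FN N} (hu : u ≠ 0) {p : ℤ}
    (h : ∀ v : Place Kbar (FN N), p ∣ v.ord u) {a b : helper3176.AN N}
    (hb : (b : FN N) ≠ 0) (hab : u = (a : FN N) / (b : FN N)) (τ : ℍ) :
    p ∣ ((analyticOrderNatAt (evC N a) (τ : ℂ) : ℤ) - (analyticOrderNatAt (evC N b) (τ : ℂ) : ℤ)) := by
  have hb' : b ≠ 0 := fun h0 => hb (by rw [h0]; rfl)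
  have ha' : a ≠ 0 := by
    intro h0
    apply hu
    rw [hab, h0]
    show (0 : FN N) / _ = 0
    exact zero_div _
  obtain ⟨n, hn⟩ := exists_meromorphicOrderAt_div_eq N hu h hb hab τ
  have hAa := analyticAt_evC N a τ.im_pos
  have hAb := analyticAt_evC N b τ.im_pos
  have hfa : analyticOrderAt (evC N a) (τ : ℂ) ≠ ⊤ := by
    rw [Ne, analyticOrderAt_eq_top]
    intro h0
    have h1 := eventually_evC_ne_zero N ha' τ.im_pos
    have h2 : ∀ᶠ _ in 𝓝[≠] (τ : ℂ), False := by
      filter_upwards [h0.filter_mono nhdsWithin_le_nhds, h1] with z hz1 hz2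
      exact hz2 hz1
    exact h2.exists.elim fun _ hF => hF
  have hfb : analyticOrderAt (evC N b) (τ : ℂ) ≠ ⊤ := by
    rw [Ne, analyticOrderAt_eq_top]
    intro h0
    have h1 := eventually_evC_ne_zero N hb' τ.im_pos
    have h2 : ∀ᶠ _ in 𝓝[≠] (τ : ℂ), False := by
      filter_upwards [h0.filter_mono nhdsWithin_le_nhds, h1] with z hz1 hz2
      exact hz2 hz1
    exact h2.exists.elim fun _ hF => hF
  have ha2 : meromorphicOrderAt (evC N a) (τ : ℂ)
      = ((analyticOrderNatAt (evC N a) (τ : ℂ) : ℤ) : WithTop ℤ) := by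
    rw [hAa.meromorphicOrderAt_eq, ← Nat.cast_analyticOrderNatAt hfa]
    rfl
  have hb2 : meromorphicOrderAt (evC N b) (τ : ℂ)
      = ((analyticOrderNatAt (evC N b) (τ : ℂ) : ℤ) : WithTop ℤ) := by
    rw [hAb.meromorphicOrderAt_eq, ← Nat.cast_analyticOrderNatAt hfb]
    rfl
  have hdiv : meromorphicOrderAt
      (fun z : ℂ => helper6180.ev N a (ofComplex z) / helper6180.ev N b (ofComplex z)) (τ : ℂ)
      = meromorphicOrderAt (evC N a) (τ : ℂ) - meromorphicOrderAt (evC N b) (τ : ℂ) :=
    meromorphicOrderAt_div hAa.meromorphicAt hAb.meromorphicAt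
  rw [hdiv, ha2, hb2, ← WithTop.LinearOrderedAddCommGroup.coe_sub] at hn
  exact ⟨n, WithTop.coe_injective hn⟩

end Fermat.Agent.S29.helper265
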