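import Mathlib

/-!
# S29 / M4 core: finite Galois orbits force algebraicity

`Ω` an algebraically closed field, `K` an infinite field with `Algebra K Ω`.
If `x : Ω` has a *finite* orbit under `Aut(Ω/K) = (Ω ≃ₐ[K] Ω)`, then `x` is algebraic over `K`
(`isAlgebraic_of_finite_orbit`); if moreover `K` is algebraically closed, `x` lies in the image
of `K` (`mem_range_of_finite_orbit`).

Proof: if `x` is transcendental, extend `{x}` to a transcendence basis `B` of `Ω/K`; for every
`c : K` the `K`-automorphism `x ↦ x + c` (fixing the other basis elements) of `K[B]` extends to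
the algebraic closure `Ω` of `K[B]`; so the orbit of `x` contains `x + c` for all `c : K`.

Series form (`isAlgebraic_of_mem_finite_stable`, `coeff_mem_range_of_finite_stable`): a finite
set of coefficient families (e.g. Laurent series) stable under the coefficientwise action of
`Aut(Ω/K)` consists of families with coefficients algebraic over `K`.  This is the step "the
canonical representatives of finitely many classes have coefficients in `ℚ̄`" of the descent
`ℂ → ℚ̄`.
-/

set_option autoImplicit false

namespace Fermat.Agent.S29.helper6961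

open MvPolynomial

section Shift

variable {K : Type*} [CommRing K] {ι : Type*}

/-- The translation automorphism `X i ↦ X i + C (c i)` of a polynomial ring. -/
noncomputable def shiftEquiv (c : ι → K) : MvPolynomial ι K ≃ₐ[K] MvPolynomial ι K :=
  AlgEquiv.ofAlgHom (aeval fun i => X i + C (c i)) (aeval fun i => X i - C (c i))
    (by ext i; simp) (by ext i; simp)

@[simp] theorem shiftEquiv_X (c : ι → K) (i : ι) : shiftEquiv c (X i) = X i + C (c i) := by
  simp [shiftEquiv]

end Shift

section Field

variable {K Ω : Type*} [Field K] [Field Ω] [Algebra K Ω]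

/-- Given a transcendence basis `v` of an algebraically closed field `Ω` over `K` and a family
`c : ι → K`, there is a `K`-automorphism of `Ω` with `v i ↦ v i + c i`. -/
theorem exists_algEquiv_basis_add [IsAlgClosed Ω] {ι : Type*} (v : ι → Ω)
    (hv : IsTranscendenceBasis K v) (c : ι → K) :
    ∃ σ : Ω ≃ₐ[K] Ω, ∀ i, σ (v i) = v i + algebraMap K Ω (c i) := by
  classical
  have := IsAlgClosed.isAlgClosure_of_transcendence_basis v hv
  let e : Algebra.adjoin K (Set.range v) ≃ₐ[K] Algebra.adjoin K (Set.range v) :=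
    (hv.1.aevalEquiv.symm.trans (shiftEquiv c)).trans hv.1.aevalEquiv
  let σ₀ : Ω ≃+* Ω := IsAlgClosure.equivOfEquiv Ω Ω e.toRingEquiv
  have hσ₀ : ∀ a : Algebra.adjoin K (Set.range v),
      σ₀ (algebraMap (Algebra.adjoin K (Set.range v)) Ω a)
        = algebraMap (Algebra.adjoin K (Set.range v)) Ω (e a) := fun a =>
    IsAlgClosure.equivOfEquiv_algebraMap Ω Ω e.toRingEquiv a
  have hK : ∀ k : K, σ₀ (algebraMap K Ω k) = algebraMap K Ω k := by
    intro k
    have h1 : algebraMap K Ω k
        = algebraMap (Algebra.adjoin K (Set.range v)) Ω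
            (algebraMap K (Algebra.adjoin K (Set.range v)) k) := rfl
    rw [h1, hσ₀, AlgEquiv.commutes]
  refine ⟨AlgEquiv.ofRingEquiv (f := σ₀) hK, fun i => ?_⟩
  have hvi : v i = algebraMap (Algebra.adjoin K (Set.range v)) Ω (hv.1.aevalEquiv (X i)) := by
    rw [AlgebraicIndependent.algebraMap_aevalEquiv, aeval_X]
  show σ₀ (v i) = _
  rw [hvi, hσ₀]
  have he : e (hv.1.aevalEquiv (X i)) = hv.1.aevalEquiv (X i + C (c i)) := by
    simp [e]
  rw [he, AlgebraicIndependent.algebraMap_aevalEquiv, AlgebraicIndependent.algebraMap_aevalEquiv]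
  simp

/-- For `x : Ω` transcendental over `K` (with `Ω` algebraically closed) and any `c : K`, some
`K`-automorphism of `Ω` sends `x` to `x + c`. -/
theorem exists_algEquiv_apply_eq_add [IsAlgClosed Ω] {x : Ω} (hx : Transcendental K x) (c : K) :
    ∃ σ : Ω ≃ₐ[K] Ω, σ x = x + algebraMap K Ω c := by
  classical
  have hs : AlgebraicIndepOn K id ({x} : Set Ω) :=
    (algebraicIndependent_singleton_iff (⟨x, rfl⟩ : ({x} : Set Ω))).mpr hx
  obtain ⟨t, hst, ht⟩ := exists_isTranscendenceBasis_superset hs
  have hxt : x ∈ t := hst rfl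
  obtain ⟨σ, hσ⟩ := exists_algEquiv_basis_add (K := K) ((↑) : t → Ω) ht
    (fun i => if (i : Ω) = x then c else 0)
  refine ⟨σ, ?_⟩
  have := hσ ⟨x, hxt⟩
  simpa using this

/-- **Finite orbit ⟹ algebraic.** `Ω` algebraically closed, `K` infinite: an element of `Ω`
with finite orbit under `Aut(Ω/K)` is algebraic over `K`. -/
theorem isAlgebraic_of_finite_orbit [IsAlgClosed Ω] [Infinite K] (x : Ω)
    (h : (MulAction.orbit (Ω ≃ₐ[K] Ω) x).Finite) : IsAlgebraic K x := by
  by_contra hx
  have hx' : Transcendental K x := hx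
  have hinj : Function.Injective (fun c : K => x + algebraMap K Ω c) := by
    intro a b hab
    exact (algebraMap K Ω).injective (add_left_cancel hab)
  have hsub : Set.range (fun c : K => x + algebraMap K Ω c) ⊆ MulAction.orbit (Ω ≃ₐ[K] Ω) x := by
    rintro _ ⟨c, rfl⟩
    obtain ⟨σ, hσ⟩ := exists_algEquiv_apply_eq_add hx' c
    exact ⟨σ, hσ⟩
  exact (Set.infinite_range_of_injective hinj) (h.subset hsub)

/-- Variant: it suffices that finitely many values occur as `σ x`. -/
theorem isAlgebraic_of_finite_image [IsAlgClosed Ω] [Infinite K] (x : Ω) (T : Set Ω)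
    (hT : T.Finite) (h : ∀ σ : Ω ≃ₐ[K] Ω, σ x ∈ T) : IsAlgebraic K x := by
  refine isAlgebraic_of_finite_orbit x (hT.subset ?_)
  rintro _ ⟨σ, rfl⟩
  exact h σ

/-- Over an algebraically closed base, an algebraic element lies in the base. -/
theorem mem_range_of_isAlgebraic [IsAlgClosed K] {x : Ω} (hx : IsAlgebraic K x) :
    x ∈ (algebraMap K Ω).range := by
  have hint : IsIntegral K x := hx.isIntegral
  have hdeg : (minpoly K x).degree = 1 :=
    IsAlgClosed.degree_eq_one_of_irreducible K (minpoly.irreducible hint)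
  exact minpoly.mem_range_of_degree_eq_one K x hdeg

/-- **Finite orbit ⟹ rational**, for an algebraically closed base field `K`
(e.g. `K = ℚ̄` inside `Ω = ℂ`). -/
theorem mem_range_of_finite_orbit [IsAlgClosed Ω] [IsAlgClosed K] (x : Ω)
    (h : (MulAction.orbit (Ω ≃ₐ[K] Ω) x).Finite) : x ∈ (algebraMap K Ω).range :=
  mem_range_of_isAlgebraic (isAlgebraic_of_finite_orbit x h)

/-- **Series form.** A finite set `S` of coefficient families `ι → Ω` that is stable under the
coefficientwise action of `Aut(Ω/K)` consists of families with algebraic coefficients. -/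
theorem isAlgebraic_of_mem_finite_stable [IsAlgClosed Ω] [Infinite K] {ι : Type*}
    (S : Set (ι → Ω)) (hS : S.Finite)
    (hstab : ∀ σ : Ω ≃ₐ[K] Ω, ∀ f ∈ S, (fun i => σ (f i)) ∈ S)
    {f : ι → Ω} (hf : f ∈ S) (i : ι) : IsAlgebraic K (f i) := by
  refine isAlgebraic_of_finite_image (f i) ((fun g : ι → Ω => g i) '' S) (hS.image _) ?_
  intro σ
  exact ⟨fun j => σ (f j), hstab σ f hf, rfl⟩

/-- Series form over an algebraically closed base: the coefficients lie in the base. -/
theorem coeff_mem_range_of_finite_stable [IsAlgClosed Ω] [IsAlgClosed K] {ι : Type*}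
    (S : Set (ι → Ω)) (hS : S.Finite)
    (hstab : ∀ σ : Ω ≃ₐ[K] Ω, ∀ f ∈ S, (fun i => σ (f i)) ∈ S)
    {f : ι → Ω} (hf : f ∈ S) (i : ι) : f i ∈ (algebraMap K Ω).range :=
  mem_range_of_isAlgebraic (isAlgebraic_of_mem_finite_stable S hS hstab hf i)

/-- Laurent-series form (`HahnSeries ℤ Ω`), in terms of `HahnSeries.coeff`: a finite set of
Laurent series stable under the coefficientwise action of `Aut(Ω/K)` has all coefficients in
the (algebraically closed) base field. The stability hypothesis is stated for an arbitrary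
"coefficientwise action" `act` satisfying `(act σ u).coeff n = σ (u.coeff n)`. -/
theorem laurent_coeff_mem_range_of_finite_stable [IsAlgClosed Ω] [IsAlgClosed K]
    (act : (Ω ≃ₐ[K] Ω) → HahnSeries ℤ Ω → HahnSeries ℤ Ω)
    (hact : ∀ σ u n, (act σ u).coeff n = σ (u.coeff n))
    (S : Set (HahnSeries ℤ Ω)) (hS : S.Finite) (hstab : ∀ σ, ∀ u ∈ S, act σ u ∈ S)
    {u : HahnSeries ℤ Ω} (hu : u ∈ S) (n : ℤ) : u.coeff n ∈ (algebraMap K Ω).range := by
  refine coeff_mem_range_of_finite_stable (ι := ℤ) ((fun v : HahnSeries ℤ Ω => v.coeff) '' S)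
    (hS.image _) ?_ ⟨u, hu, rfl⟩ n
  rintro σ _ ⟨v, hv, rfl⟩
  exact ⟨act σ v, hstab σ v hv, funext fun n => hact σ v n⟩

end Field

end Fermat.Agent.S29.helper6961
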