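import Fermat.Agent.S24.helper1944_Ev
import Fermat.Agent.S24.helper1019_HolRing
import Fermat.Agent.S28.helper3448_Lagrange
import Fermat.Agent.S29.helper6961_OrbitDescent

/-!
# S29, leaf TH3 (helper3126): an invariant `p`-th root lies in the function field

Let `w` be an element of `A_N = ℚ̄[j(q^d) : d ∣ N]` (so `w` lies in the function field `FN N` of
`X₀(N)` over `ℚ̄`), and let `Hr` be a holomorphic function on the upper half plane with
`Hr ^ p = ev(w)` which is invariant under `Γ₀(N)`.  Then `w` is a `p`-th power in `FN N`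
(`exists_pow_eq_of_invariant_root`).  This is the hard half of the injectivity of the
multiplier map `u ↦ χ_u` on Kummer classes.

Steps:

* **Lagrange** (`exists_lagrange_rep`): a holomorphic `Γ₀(N)`-invariant function `H` of
  exponential growth at all cusps satisfies `G(j, j_N) = H * D(j, j_N)` with `G, D ∈ ℂ[X][Y]`
  and `D(j, j_N) ≠ 0`;
* **dictionary** (`hasSum_biEval`): `G(j, j_N)` is the sum of the formal series
  `G(ĵ, ĵ_N) ∈ ℂ((q))`; the identity theorem turns function identities into series identities;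
* **descent** (`exists_coeffMap_eq_of_pow`, `mem_of_coeffMap_mul_eq`): a `p`-th root in `ℂ((q))`
  of a series with coefficients in `ℚ̄` has coefficients in `ℚ̄` (finite orbit under
  `Aut(ℂ/ℚ̄)`), and a series over `ℚ̄` which is a ratio of `ℂ`-polynomials in `ĵ, ĵ_N` is a
  ratio of `ℚ̄`-polynomials (apply a `ℚ̄`-linear functional `ℂ → ℚ̄` coefficientwise).
-/

set_option autoImplicit false

open ModularCurve UpperHalfPlane CongruenceSubgroup
open scoped MatrixGroups Manifold

namespace Fermat.Agent.S29.helper3126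

open Fermat.Agent.S24 Fermat.Agent.S24.helper24 Fermat.Agent.S28

noncomputable section

/-! ### Generic algebra -/

/-- The derivative of `∏ y, (X - a y)` at the node `a i₀`. -/
theorem eval_derivative_prod_X_sub_C {R : Type*} [CommRing R] {ι : Type*} [Fintype ι]
    [DecidableEq ι] (a : ι → R) (i₀ : ι) :
    (Polynomial.derivative (∏ y : ι, (Polynomial.X - Polynomial.C (a y)))).eval (a i₀) =
      ∏ y ∈ Finset.univ.erase i₀, (a i₀ - a y) := by
  rw [Polynomial.derivative_prod_finset, Polynomial.eval_finsetSum,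
    Finset.sum_eq_single i₀]
  · simp [Polynomial.eval_prod]
  · intro x _ hx
    rw [Polynomial.eval_mul, Polynomial.eval_prod]
    have : ∏ y ∈ Finset.univ.erase x,
        Polynomial.eval (a i₀) (Polynomial.X - Polynomial.C (a y)) = 0 := by
      apply Finset.prod_eq_zero (i := i₀)
      · exact Finset.mem_erase.mpr ⟨fun h => hx h.symm, Finset.mem_univ _⟩
      · simp
    rw [this, zero_mul]
  · intro h
    exact absurd (Finset.mem_univ _) h

/-! ### The Lagrange representation of an invariant holomorphic function -/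

/-- The analytic function `j(Nτ)`. -/
def jN (N : ℕ) (τ : ℍ) : ℂ := jFun (helper1944.mulPt N τ)

/-- Value of a bivariate polynomial at `(j τ, j (N τ))`. -/
def biVal (N : ℕ) (G : Polynomial (Polynomial ℂ)) (τ : ℍ) : ℂ :=
  G.eval₂ (Polynomial.evalRingHom (jFun τ)) (jN N τ)

/-- **Lagrange representation.** A holomorphic `Γ₀(N)`-invariant function `H` all of whose
`SL(2, ℤ)`-translates have at most exponential growth at `i∞` is a ratio of two polynomial
expressions in `j(τ)` and `j(Nτ)`: `G(j, j_N) = H * D(j, j_N)` with `D(j, j_N)` not identically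
zero. -/
theorem exists_lagrange_rep (N : ℕ) [NeZero N] (H : ℍ → ℂ) (hH : MDiff H)
    (hinv : ∀ γ ∈ Gamma0 N, ∀ τ : ℍ, H (γ • τ) = H τ)
    (hgrowth : ∀ g : SL(2, ℤ), helper167.HasExpGrowth (fun τ : ℍ => H (g • τ))) :
    ∃ G D : Polynomial (Polynomial ℂ),
      (∀ τ : ℍ, biVal N G τ = H τ * biVal N D τ) ∧ ∃ τ : ℍ, biVal N D τ ≠ 0 := by
  classical
  have : Finite (XN N) := Subgroup.finite_quotient_of_finiteIndex
  let _ : Fintype (XN N) := Fintype.ofFinite _
  have hNpos : 0 < N := NeZero.pos N
  have hJhol : MDiff (jN N) := helper1944.mdiff_jFun_mulPt hNpos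
  have hJinv : ∀ γ ∈ Gamma0 N, ∀ τ : ℍ, jN N (γ • τ) = jN N τ := fun γ hγ τ =>
    helper1944.jFun_mulPt_smul_of_mem_Gamma0 hNpos dvd_rfl γ hγ τ
  have hJgrowth : ∀ g : SL(2, ℤ), helper167.HasExpGrowth (fun τ : ℍ => jN N (g • τ)) :=
    fun g => helper1944.hasExpGrowth_jFun_mulPt_smul hNpos g
  let φ : XN N → ℍ → ℂ := fun x τ => jN N ((Quotient.out x)⁻¹ • τ)
  let ψ : XN N → ℍ → ℂ := fun x τ => H ((Quotient.out x)⁻¹ • τ)
  have holφ : ∀ x, MDiff (φ x) := fun x =>
    hJhol.comp (helper1019.mdiff_smul_SL (Quotient.out x)⁻¹)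
  have holψ : ∀ x, MDiff (ψ x) := fun x =>
    hH.comp (helper1019.mdiff_smul_SL (Quotient.out x)⁻¹)
  have hgφ : ∀ x, helper167.HasExpGrowth (φ x) := fun x => hJgrowth (Quotient.out x)⁻¹
  have hgψ : ∀ x, helper167.HasExpGrowth (ψ x) := fun x => hgrowth (Quotient.out x)⁻¹
  have hperm : ∀ g : SL(2, ℤ), ∃ s : Equiv.Perm (XN N), ∀ (x : XN N) (τ : ℍ),
      φ x (g • τ) = φ (s x) τ ∧ ψ x (g • τ) = ψ (s x) τ :=
    fun g => helper3448.coset_family_perm (Gamma0 N) (jN N) H hJinv hinv g
  have hperm₁ : ∀ g : SL(2, ℤ), ∃ s : Equiv.Perm (XN N), ∀ (x : XN N) (τ : ℍ),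
      φ x (g • τ) = φ (s x) τ :=
    fun g => helper3448.coset_family_perm₁ (Gamma0 N) (jN N) hJinv g
  obtain ⟨G, hG⟩ := helper3448.exists_lagrange_eval₂ φ ψ holφ holψ hperm hgφ hgψ
  obtain ⟨P, -, -, hP⟩ := helper167.exists_monic_relation φ holφ hperm₁ hgφ
  set x₀ : XN N := ((1 : SL(2, ℤ)) : XN N) with hx₀
  have hφ₀ : ∀ τ, φ x₀ τ = jN N τ := fun τ =>
    helper3448.coset_family_one (Gamma0 N) (jN N) hJinv τ
  have hψ₀ : ∀ τ, ψ x₀ τ = H τ := fun τ =>
    helper3448.coset_family_one (Gamma0 N) H hinv τ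
  refine ⟨G, Polynomial.derivative P, fun τ => ?_, ?_⟩
  · have h := hG P hP x₀ τ
    rw [hφ₀ τ, hψ₀ τ] at h
    exact h
  · -- the discriminant-like factor is not identically zero
    by_contra hcon'
    have hcon : ∀ τ : ℍ, biVal N (Polynomial.derivative P) τ = 0 := fun τ =>
      by_contra fun h => hcon' ⟨τ, h⟩
    have hval : ∀ τ : ℍ, biVal N (Polynomial.derivative P) τ =
        ∏ y ∈ Finset.univ.erase x₀, (φ x₀ τ - φ y τ) := by
      intro τ
      have h1 : biVal N (Polynomial.derivative P) τ =
          (Polynomial.derivative (P.map (Polynomial.evalRingHom (jFun τ)))).eval (φ x₀ τ) := by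
        rw [Polynomial.derivative_map, Polynomial.eval_map, hφ₀ τ]
        rfl
      have hP' : P.map (Polynomial.evalRingHom (jFun τ)) =
          ∏ x, (Polynomial.X - Polynomial.C (φ x τ)) := hP τ
      rw [h1, hP']
      exact eval_derivative_prod_X_sub_C (fun y => φ y τ) x₀
    -- pass to the domain of holomorphic functions
    let f : XN N → helper1019.Hol := fun y =>
      ⟨fun τ => φ x₀ τ - φ y τ, (holφ x₀).sub (holφ y)⟩
    have hprod : ∏ y ∈ Finset.univ.erase x₀, f y = 0 := by
      apply Subtype.ext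
      funext τ
      have h2 : ((∏ y ∈ Finset.univ.erase x₀, f y : helper1019.Hol) : ℍ → ℂ) τ =
          ∏ y ∈ Finset.univ.erase x₀, (φ x₀ τ - φ y τ) := by
        rw [← Subalgebra.coe_val, map_prod, Finset.prod_apply]
        rfl
      rw [h2, ← hval τ, hcon τ]
      rfl
    obtain ⟨y, hy, hfy⟩ := Finset.prod_eq_zero_iff.mp hprod
    have hyne : y ≠ x₀ := (Finset.mem_erase.mp hy).1
    apply hyne
    have hfun : ∀ τ : ℍ, φ x₀ τ = φ y τ := fun τ => by
      have := congrFun (congrArg Subtype.val hfy) τ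
      exact sub_eq_zero.mp this
    have hcos := helper1944.coset_eq_of_evFun_jBarD N (Quotient.out y) (Quotient.out x₀)
      (fun τ => by
        rw [helper1944.evFun_jBarD]
        exact (hfun τ).symm)
    rw [QuotientGroup.out_eq', QuotientGroup.out_eq'] at hcos
    exact hcos

/-! ### The dictionary: bivariate polynomials in the formal series `ĵ`, `ĵ_N` -/

/-- The formal series `j(q^d)` with complex coefficients. -/
def jC (d : ℕ) [NeZero d] : LaurentSeries ℂ := coeffMap helper1944.kappa (jSeries d)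

/-- The series `G(x̂, ŷ)` for a bivariate polynomial `G` over `L` and two series `x, y` over `K`,
pushed to `L` along `κ`. -/
def biEval {K L : Type*} [Field K] [Field L] (κ : K →+* L) (x y : LaurentSeries K)
    (G : Polynomial (Polynomial L)) : LaurentSeries L :=
  G.eval₂ (Polynomial.eval₂RingHom (HahnSeries.C : L →+* LaurentSeries L) (coeffMap κ x))
    (coeffMap κ y)

/-- The series `G(ĵ, ĵ_N)`. -/
def biSeries (N : ℕ) [NeZero N] (G : Polynomial (Polynomial ℂ)) : LaurentSeries ℂ :=
  biEval helper1944.kappa (jSeries 1) (jSeries N) G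

theorem hasSum_lsTerm_pow {E : LaurentSeries ℂ} {z s : ℂ} (hz : z ≠ 0)
    (h : HasSum (helper1944.lsTerm E z) s) (n : ℕ) :
    HasSum (helper1944.lsTerm (E ^ n) z) (s ^ n) := by
  induction n with
  | zero =>
    rw [pow_zero, pow_zero, ← map_one (HahnSeries.C : ℂ →+* LaurentSeries ℂ)]
    exact helper1944.hasSum_lsTerm_C 1 z
  | succ n ih =>
    rw [pow_succ, pow_succ]
    exact helper1944.hasSum_lsTerm_mul hz ih h

theorem hasSum_lsTerm_eval₂ {A : Type*} [CommRing A] (f : A →+* LaurentSeries ℂ) (g : A →+* ℂ)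
    {z : ℂ} (hz : z ≠ 0) (hfg : ∀ a, HasSum (helper1944.lsTerm (f a) z) (g a))
    {E : LaurentSeries ℂ} {s : ℂ} (h : HasSum (helper1944.lsTerm E z) s) (G : Polynomial A) :
    HasSum (helper1944.lsTerm (G.eval₂ f E) z) (G.eval₂ g s) := by
  induction G using Polynomial.induction_on' with
  | add p q hp hq =>
    rw [Polynomial.eval₂_add, Polynomial.eval₂_add]
    exact helper1944.hasSum_lsTerm_add hp hq
  | monomial n a =>
    rw [Polynomial.eval₂_monomial, Polynomial.eval₂_monomial]
    exact helper1944.hasSum_lsTerm_mul hz (hfg a) (hasSum_lsTerm_pow hz h n)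

/-- **Dictionary.** The series `G(ĵ, ĵ_N)` converges on the upper half plane to the function
`G(j(τ), j(Nτ))`. -/
theorem hasSum_biSeries (N : ℕ) [NeZero N] (G : Polynomial (Polynomial ℂ)) (τ : ℍ) :
    HasSum (helper1944.lsTerm (biSeries N G) (helper1944.qq τ)) (biVal N G τ) := by
  have hz := helper1944.qq_ne_zero τ
  have h1 : HasSum (helper1944.lsTerm (coeffMap helper1944.kappa (jSeries 1)) (helper1944.qq τ))
      (jFun τ) := by
    have := helper1944.hasSum_jSeries 1 τ
    rwa [helper1944.mulPt_one] at this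
  have hinner : ∀ p : Polynomial ℂ,
      HasSum (helper1944.lsTerm
        (Polynomial.eval₂RingHom (HahnSeries.C : ℂ →+* LaurentSeries ℂ)
          (coeffMap helper1944.kappa (jSeries 1)) p) (helper1944.qq τ))
        (Polynomial.evalRingHom (jFun τ) p) := by
    intro p
    have := hasSum_lsTerm_eval₂ (HahnSeries.C : ℂ →+* LaurentSeries ℂ) (RingHom.id ℂ) hz
      (fun a => helper1944.hasSum_lsTerm_C a _) h1 p
    rwa [Polynomial.eval₂_id] at this
  exact hasSum_lsTerm_eval₂ _ _ hz hinner (helper1944.hasSum_jSeries N τ) G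

/-! ### Descent of coefficients -/

section Descent

variable {K L : Type*} [Field K] [Field L]

/-- A Laurent series all of whose coefficients lie in the image of `κ` comes from `K`. -/
theorem exists_coeffMap_eq (κ : K →+* L) (t : LaurentSeries L)
    (h : ∀ n : ℤ, t.coeff n ∈ κ.range) : ∃ s : LaurentSeries K, coeffMap κ s = t := by
  classical
  let ρ : ZeroHom L K :=
    { toFun := Function.invFun κ
      map_zero' := by
        have := Function.leftInverse_invFun κ.injective (0 : K)
        rwa [map_zero] at this }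
  refine ⟨t.map ρ, ?_⟩
  ext n
  obtain ⟨a, ha⟩ := h n
  rw [coeffMap_coeff, HahnSeries.map_coeff]
  show κ (Function.invFun κ (t.coeff n)) = t.coeff n
  rw [← ha, Function.leftInverse_invFun κ.injective a]

/-- **Roots descend.** Let `κ : K → L` be an embedding of algebraically closed fields.  A `p`-th
root in `L((q))` of a series with coefficients in `κ(K)` has coefficients in `κ(K)`: its orbit
under the coefficientwise action of `Aut(L/K)` is finite. -/
theorem exists_coeffMap_eq_of_pow [IsAlgClosed K] [IsAlgClosed L] (κ : K →+* L) {p : ℕ}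
    (hp : 0 < p) (w : LaurentSeries K) (t : LaurentSeries L) (ht : t ^ p = coeffMap κ w) :
    ∃ s : LaurentSeries K, coeffMap κ s = t := by
  classical
  let _ : Algebra K L := κ.toAlgebra
  apply exists_coeffMap_eq
  intro n
  have key := helper6961.laurent_coeff_mem_range_of_finite_stable (K := K) (Ω := L)
    (fun σ u => coeffMap (σ : L →+* L) u) (fun σ u n => rfl)
    {u : LaurentSeries L | u ^ p = coeffMap κ w}
    (by
      refine Set.Finite.subset (Polynomial.nthRoots p (coeffMap κ w)).toFinset.finite_toSet ?_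
      intro u hu
      simp only [Finset.mem_coe, Multiset.mem_toFinset, Polynomial.mem_nthRoots hp]
      exact hu)
    (by
      intro σ u hu
      show (coeffMap (σ : L →+* L) u) ^ p = coeffMap κ w
      rw [← map_pow, show u ^ p = coeffMap κ w from hu, coeffMap_coeffMap]
      exact coeffMap_congr (RingHom.ext fun c => σ.commutes c) w)
    (u := t) ht n
  exact key

/-- Coefficientwise application of an additive map. -/
def coeffPr (lam : L →+ K) (Y : LaurentSeries L) : LaurentSeries K := Y.map lam

@[simp]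
theorem coeffPr_coeff (lam : L →+ K) (Y : LaurentSeries L) (n : ℤ) :
    (coeffPr lam Y).coeff n = lam (Y.coeff n) := rfl

theorem coeffPr_add (lam : L →+ K) (Y Z : LaurentSeries L) :
    coeffPr lam (Y + Z) = coeffPr lam Y + coeffPr lam Z := by
  ext n
  simp

theorem coeffPr_C (lam : L →+ K) (c : L) :
    coeffPr lam (HahnSeries.C c) = HahnSeries.C (lam c) := by
  ext n
  simp only [coeffPr_coeff, HahnSeries.C_apply, HahnSeries.coeff_single]
  split_ifs <;> simp

/-- A coefficient functional which is `K`-linear (through `κ`) is linear over `K((q))`. -/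
theorem coeffPr_coeffMap_mul (κ : K →+* L) (lam : L →+ K)
    (hlam : ∀ (a : K) (c : L), lam (κ a * c) = a * lam c) (x : LaurentSeries K)
    (Y : LaurentSeries L) : coeffPr lam (coeffMap κ x * Y) = x * coeffPr lam Y := by
  ext n
  have hsub1 : (coeffMap κ x).support ⊆ x.support := by
    intro m hm
    rw [HahnSeries.mem_support] at hm ⊢
    intro h0
    apply hm
    rw [coeffMap_coeff, h0, map_zero]
  have hsub2 : (coeffPr lam Y).support ⊆ Y.support := by
    intro m hm
    rw [HahnSeries.mem_support] at hm ⊢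
    intro h0
    apply hm
    rw [coeffPr_coeff, h0, map_zero]
  rw [coeffPr_coeff, HahnSeries.coeff_mul_left' x.isPWO_support hsub1,
    HahnSeries.coeff_mul_right' Y.isPWO_support hsub2, map_sum]
  refine Finset.sum_congr rfl fun ij _ => ?_
  rw [coeffMap_coeff, hlam, coeffPr_coeff]

/-- The image under a `K`-linear coefficient functional of a bivariate polynomial expression in
`κ(x), κ(y)` lies in any subring containing the constants, `x` and `y`. -/
theorem coeffPr_biEval_mem (κ : K →+* L) (lam : L →+ K)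
    (hlam : ∀ (a : K) (c : L), lam (κ a * c) = a * lam c) (x y : LaurentSeries K)
    (F : Subring (LaurentSeries K)) (hC : ∀ a : K, HahnSeries.C a ∈ F) (hx : x ∈ F) (hy : y ∈ F)
    (G : Polynomial (Polynomial L)) : coeffPr lam (biEval κ x y G) ∈ F := by
  unfold biEval
  induction G using Polynomial.induction_on' with
  | add p q hp hq =>
    rw [Polynomial.eval₂_add, coeffPr_add]
    exact F.add_mem hp hq
  | monomial n a =>
    rw [Polynomial.eval₂_monomial]
    induction a using Polynomial.induction_on' with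
    | add p q hp hq =>
      rw [map_add, add_mul, coeffPr_add]
      exact F.add_mem hp hq
    | monomial m c =>
      rw [Polynomial.coe_eval₂RingHom, Polynomial.eval₂_monomial]
      have hre : HahnSeries.C c * coeffMap κ x ^ m * coeffMap κ y ^ n =
          coeffMap κ (x ^ m * y ^ n) * HahnSeries.C c := by
        rw [map_mul, map_pow, map_pow]
        ring
      rw [hre, coeffPr_coeffMap_mul κ lam hlam, coeffPr_C]
      exact F.mul_mem (F.mul_mem (F.pow_mem hx m) (F.pow_mem hy n)) (hC _)

/-- **Rationality descends.** If a series `s` over `K` satisfies `κ(s) * D(x̂, ŷ) = G(x̂, ŷ)` for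
bivariate polynomials `G, D` over `L` with `D(x̂, ŷ) ≠ 0`, then `s` lies in every subfield of
`K((q))` containing the constants, `x` and `y`. -/
theorem mem_of_coeffMap_mul_eq (κ : K →+* L) (x y : LaurentSeries K)
    (F : Subfield (LaurentSeries K)) (hC : ∀ a : K, HahnSeries.C a ∈ F) (hx : x ∈ F) (hy : y ∈ F)
    (G D : Polynomial (Polynomial L)) (s : LaurentSeries K) (hD : biEval κ x y D ≠ 0)
    (h : coeffMap κ s * biEval κ x y D = biEval κ x y G) : s ∈ F := by
  classical
  let _ : Algebra K L := κ.toAlgebra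
  -- a nonzero coefficient of the denominator
  obtain ⟨n, hn⟩ : ∃ n : ℤ, (biEval κ x y D).coeff n ≠ 0 := by
    by_contra hcon
    apply hD
    ext n
    by_contra hne
    exact hcon ⟨n, hne⟩
  set c : L := (biEval κ x y D).coeff n with hc
  -- a `K`-linear functional with value `1` at `c`
  have hker : LinearMap.ker (LinearMap.toSpanSingleton K L c) = ⊥ := by
    rw [LinearMap.ker_eq_bot]
    intro a b hab
    simp only [LinearMap.toSpanSingleton_apply] at hab
    by_contra hne
    have h0 : (a - b) • c = 0 := by rw [sub_smul, hab, sub_self]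
    rcases smul_eq_zero.mp h0 with h1 | h1
    · exact hne (sub_eq_zero.mp h1)
    · exact hn h1
  obtain ⟨g, hg⟩ := LinearMap.exists_leftInverse_of_injective (LinearMap.toSpanSingleton K L c) hker
  have hgc : g c = 1 := by
    have := congrArg (fun f : K →ₗ[K] K => f 1) hg
    simpa using this
  let lam : L →+ K := g.toAddMonoidHom
  have hlam : ∀ (a : K) (c' : L), lam (κ a * c') = a * lam c' := by
    intro a c'
    have h1 : κ a * c' = a • c' := by
      rw [Algebra.smul_def]
      rfl
    show g (κ a * c') = a * g c'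
    rw [h1, map_smul, smul_eq_mul]
  have hd : coeffPr lam (biEval κ x y D) ∈ F :=
    coeffPr_biEval_mem κ lam hlam x y F.toSubring hC hx hy D
  have hg' : coeffPr lam (biEval κ x y G) ∈ F :=
    coeffPr_biEval_mem κ lam hlam x y F.toSubring hC hx hy G
  have hd0 : coeffPr lam (biEval κ x y D) ≠ 0 := by
    intro h0
    have := congrArg (fun E : LaurentSeries K => E.coeff n) h0
    simp only [coeffPr_coeff, HahnSeries.coeff_zero] at this
    have hone : lam c = 1 := hgc
    rw [← hc, hone] at this
    exact one_ne_zero this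
  have hmul : s * coeffPr lam (biEval κ x y D) = coeffPr lam (biEval κ x y G) := by
    rw [← coeffPr_coeffMap_mul κ lam hlam, h]
  have hs : s = coeffPr lam (biEval κ x y G) * (coeffPr lam (biEval κ x y D))⁻¹ := by
    rw [← hmul, mul_assoc, mul_inv_cancel₀ hd0, mul_one]
  rw [hs]
  exact F.mul_mem hg' (F.inv_mem hd)

end Descent

/-! ### The main theorem -/

/-- A `p`-th root of a function of exponential growth has exponential growth. -/
theorem hasExpGrowth_of_pow {f h : ℍ → ℂ} {p : ℕ} (hp : 0 < p)
    (hpow : ∀ τ : ℍ, h τ ^ p = f τ) (hf : helper167.HasExpGrowth f) :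
    helper167.HasExpGrowth h := by
  obtain ⟨m, C, hC⟩ := hf
  refine ⟨m, max C 1, fun τ hτ => ?_⟩
  have hE : 1 ≤ Real.exp (2 * Real.pi * m * τ.im) := by
    apply Real.one_le_exp
    have := Real.pi_pos
    positivity
  have hmax : 1 ≤ max C 1 * Real.exp (2 * Real.pi * m * τ.im) :=
    one_le_mul_of_one_le_of_one_le (le_max_right _ _) hE
  rcases le_or_gt ‖h τ‖ 1 with h1 | h1
  · exact h1.trans hmax
  · calc ‖h τ‖ ≤ ‖h τ‖ ^ p := le_self_pow₀ h1.le hp.ne'
      _ = ‖f τ‖ := by rw [← norm_pow, hpow τ]
      _ ≤ C * Real.exp (2 * Real.pi * m * τ.im) := hC τ hτ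
      _ ≤ max C 1 * Real.exp (2 * Real.pi * m * τ.im) :=
          mul_le_mul_of_nonneg_right (le_max_left _ _) (Real.exp_pos _).le

theorem HahnSeries_C_mem_FN (N : ℕ) (a : Kbar) :
    (HahnSeries.C a : LaurentSeries Kbar) ∈ (modularFunctionFieldBar N).toSubfield := by
  have h := (modularFunctionFieldBar N).algebraMap_mem a
  rw [algebraMap_laurentSeries_eq_single] at h
  exact h

/-- **Invariant roots lie in the function field (TH3).**  Let `w ∈ A_N = ℚ̄[j(q^d) : d ∣ N]` and
let `Hr` be a holomorphic function on the upper half plane with `Hr ^ p = ev(w)` which is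
`Γ₀(N)`-invariant.  Then `w` is a `p`-th power in the function field `FN N` of `X₀(N)` over
`ℚ̄`. -/
theorem exists_pow_eq_of_invariant_root (N : ℕ) [NeZero N] {p : ℕ} (hp : 0 < p) (w : FN N)
    (hw : w ∈ helper3176.AN N) (Hr : ℍ → ℂ) (hHr : MDiff Hr)
    (hpow : ∀ τ : ℍ, Hr τ ^ p = helper1944.evFun N w τ)
    (hinv : ∀ γ ∈ Gamma0 N, ∀ τ : ℍ, Hr (γ • τ) = Hr τ) :
    ∃ v : FN N, w = v ^ p := by
  -- growth of the root at all cusps
  have hgrowth : ∀ g : SL(2, ℤ), helper167.HasExpGrowth (fun τ : ℍ => Hr (g • τ)) := fun g =>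
    hasExpGrowth_of_pow hp (fun τ => hpow (g • τ)) ((helper1944.evGood_of_mem_AN N w hw).growth g)
  -- Lagrange representation
  obtain ⟨G, D, hGD, τ₀, hD₀⟩ := exists_lagrange_rep N Hr hHr hinv hgrowth
  have hwconv := helper1944.convS_of_mem_AN N w hw
  -- the series identity `G(ĵ, ĵ_N)^p = κ(w) * D(ĵ, ĵ_N)^p`
  have hser : biSeries N G ^ p =
      coeffMap helper1944.kappa (w : LaurentSeries Kbar) * biSeries N D ^ p := by
    rw [← sub_eq_zero]
    refine helper1944.eq_zero_of_hasSum_lsTerm_zero _ fun z hz hz1 => ?_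
    obtain ⟨τ, rfl⟩ := helper1944.exists_qq_eq hz hz1
    have h1 := hasSum_lsTerm_pow hz (hasSum_biSeries N G τ) p
    have h2 := helper1944.hasSum_lsTerm_neg
      (helper1944.hasSum_lsTerm_mul hz (hwconv.hasSum τ)
        (hasSum_lsTerm_pow hz (hasSum_biSeries N D τ) p))
    have h3 := helper1944.hasSum_lsTerm_add h1 h2
    have hval : biVal N G τ ^ p +
        -(helper1944.evS (w : LaurentSeries Kbar) τ * biVal N D τ ^ p) = 0 := by
      have hw' : helper1944.evS (w : LaurentSeries Kbar) τ = Hr τ ^ p := (hpow τ).symm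
      rw [hGD τ, hw', mul_pow]
      ring
    rw [hval, ← sub_eq_add_neg] at h3
    exact h3
  -- the denominator series is not zero
  have hDne : biSeries N D ≠ 0 := by
    intro h0
    have h1 := hasSum_biSeries N D τ₀
    rw [h0] at h1
    have h2 : helper1944.lsTerm (0 : LaurentSeries ℂ) (helper1944.qq τ₀) = fun _ => 0 := by
      funext n
      simp [helper1944.lsTerm]
    rw [h2] at h1
    exact hD₀ (h1.unique hasSum_zero)
  -- the formal `p`-th root
  set t : LaurentSeries ℂ := biSeries N G / biSeries N D with ht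
  have htp : t ^ p = coeffMap helper1944.kappa (w : LaurentSeries Kbar) := by
    rw [ht, div_pow, div_eq_iff (pow_ne_zero p hDne)]
    exact hser
  obtain ⟨s, hs⟩ := exists_coeffMap_eq_of_pow helper1944.kappa hp (w : LaurentSeries Kbar) t htp
  -- `s` lies in the function field
  have hsmem : s ∈ (modularFunctionFieldBar N).toSubfield := by
    refine mem_of_coeffMap_mul_eq helper1944.kappa (jSeries 1) (jSeries N)
      (modularFunctionFieldBar N).toSubfield (HahnSeries_C_mem_FN N)
      (jSeries_mem N 1 (one_dvd N)) (jSeries_mem N N dvd_rfl) G D s hDne ?_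
    show coeffMap helper1944.kappa s * biSeries N D = biSeries N G
    rw [hs, ht, div_mul_cancel₀ _ hDne]
  refine ⟨⟨s, hsmem⟩, ?_⟩
  apply Subtype.ext
  apply helper1944.coeffMap_kappa_injective
  show coeffMap helper1944.kappa (w : LaurentSeries Kbar) = coeffMap helper1944.kappa (s ^ p)
  rw [map_pow, hs, htp]

/-- Fraction form: `u = a / b` with `a, b ∈ A_N`, and a holomorphic `Γ₀(N)`-invariant `p`-th root
of `ev(a * b^(p-1))` (that is, `ev(b)` times a `p`-th root of `ev(u)`).  Then `u` is a `p`-th
power in the function field. -/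
theorem exists_pow_eq_of_invariant_root_div (N : ℕ) [NeZero N] {p : ℕ} (hp : 0 < p)
    (u a b : FN N) (ha : a ∈ helper3176.AN N) (hb : b ∈ helper3176.AN N) (hb0 : b ≠ 0)
    (hu : u = a / b) (Hr : ℍ → ℂ) (hHr : MDiff Hr)
    (hpow : ∀ τ : ℍ, Hr τ ^ p = helper1944.evFun N (a * b ^ (p - 1)) τ)
    (hinv : ∀ γ ∈ Gamma0 N, ∀ τ : ℍ, Hr (γ • τ) = Hr τ) :
    ∃ v : FN N, u = v ^ p := by
  obtain ⟨v, hv⟩ := exists_pow_eq_of_invariant_root N hp (a * b ^ (p - 1))
    (mul_mem ha (pow_mem hb _)) Hr hHr hpow hinv
  refine ⟨v / b, ?_⟩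
  rw [hu, div_pow, ← hv, eq_div_iff (pow_ne_zero p hb0), div_mul_eq_mul_div,
    div_eq_iff hb0, mul_assoc, pow_sub_one_mul hp.ne']

end

end Fermat.Agent.S29.helper3126
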