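import Mathlib

/-!
# S29-A1: n-th roots of holomorphic functions (helper8319)

Mathlib-only.  Main results (all on open subsets of `ℂ`):

* `exists_root_ball_of_ne_zero`: a nowhere vanishing holomorphic function on a disc has
  holomorphic `n`-th roots.
-/

set_option autoImplicit false

open Complex Metric Set Filter Topology

namespace Fermat.Agent.S29.helper8319

/-- A nowhere vanishing holomorphic function on a disc has a holomorphic logarithm. -/
theorem exists_log_ball {c : ℂ} {r : ℝ} {g : ℂ → ℂ} (hg : DifferentiableOn ℂ g (ball c r))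
    (hg0 : ∀ z ∈ ball c r, g z ≠ 0) :
    ∃ L : ℂ → ℂ, DifferentiableOn ℂ L (ball c r) ∧ ∀ z ∈ ball c r, Complex.exp (L z) = g z := by
  by_cases hr : 0 < r
  swap
  · refine ⟨fun _ => 0, differentiableOn_const _, fun z hz => ?_⟩
    have : ball c r = ∅ := ball_eq_empty.mpr (not_lt.mp hr)
    simp [this] at hz
  have hc : c ∈ ball c r := mem_ball_self hr
  have hopen : IsOpen (ball c r) := isOpen_ball
  -- the logarithmic derivative is holomorphic
  have hdg : DifferentiableOn ℂ (deriv g) (ball c r) := hg.deriv hopen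
  have hq : DifferentiableOn ℂ (fun z => deriv g z / g z) (ball c r) := hdg.div hg hg0
  obtain ⟨L₀, hL₀⟩ := hq.isExactOn_ball
  -- g * exp (-L₀) has zero derivative
  set F : ℂ → ℂ := fun z => g z * Complex.exp (-L₀ z) with hF
  have hFd : ∀ z ∈ ball c r, HasDerivAt F 0 z := by
    intro z hz
    have h1 : HasDerivAt g (deriv g z) z :=
      (hg.differentiableAt (hopen.mem_nhds hz)).hasDerivAt
    have h2 : HasDerivAt (fun z => Complex.exp (-L₀ z))
        (Complex.exp (-L₀ z) * (-(deriv g z / g z))) z := (hL₀ z hz).neg.cexp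
    have h3 : HasDerivAt F (deriv g z * Complex.exp (-L₀ z)
        + g z * (Complex.exp (-L₀ z) * (-(deriv g z / g z)))) z := h1.mul h2
    have hgz := hg0 z hz
    have h4 : deriv g z * Complex.exp (-L₀ z)
        + g z * (Complex.exp (-L₀ z) * (-(deriv g z / g z))) = 0 := by
      field_simp
      ring
    rwa [h4] at h3
  have hFconst : ∀ z ∈ ball c r, F z = F c := by
    intro z hz
    have hdiff : DifferentiableOn ℂ F (ball c r) := fun w hw =>
      (hFd w hw).differentiableAt.differentiableWithinAt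
    have hderiv : EqOn (deriv F) 0 (ball c r) := fun w hw => (hFd w hw).deriv
    exact hopen.is_const_of_deriv_eq_zero (convex_ball c r).isPreconnected hdiff hderiv hz hc
  have hFc : F c ≠ 0 := mul_ne_zero (hg0 c hc) (Complex.exp_ne_zero _)
  refine ⟨fun z => L₀ z + Complex.log (F c), ?_, fun z hz => ?_⟩
  · have hL₀d : DifferentiableOn ℂ L₀ (ball c r) := fun w hw =>
      (hL₀ w hw).differentiableAt.differentiableWithinAt
    exact hL₀d.add (differentiableOn_const _)
  · rw [Complex.exp_add, Complex.exp_log hFc, ← hFconst z hz, hF]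
    simp only
    rw [mul_comm, mul_assoc, ← Complex.exp_add]
    simp

/-- A nowhere vanishing holomorphic function on a disc has holomorphic `n`-th roots. -/
theorem exists_root_ball_of_ne_zero {c : ℂ} {r : ℝ} {g : ℂ → ℂ}
    (hg : DifferentiableOn ℂ g (ball c r)) (hg0 : ∀ z ∈ ball c r, g z ≠ 0) (n : ℕ) (hn : n ≠ 0) :
    ∃ h : ℂ → ℂ, DifferentiableOn ℂ h (ball c r) ∧ ∀ z ∈ ball c r, h z ^ n = g z := by
  obtain ⟨L, hL, hLg⟩ := exists_log_ball hg hg0
  refine ⟨fun z => Complex.exp (L z / n), ?_, fun z hz => ?_⟩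
  · exact (hL.div_const _).cexp
  · rw [← Complex.exp_nat_mul, mul_div_cancel₀ _ (Nat.cast_ne_zero.mpr hn), hLg z hz]

/-! ## Uniqueness of roots up to a root of unity -/

/-- On a disc, a holomorphic function whose `n`-th power is `1` is constant. -/
theorem const_of_pow_eq_one_ball {c : ℂ} {r : ℝ} {q : ℂ → ℂ} {n : ℕ} (hn : n ≠ 0)
    (hq : DifferentiableOn ℂ q (ball c r)) (hqn : ∀ z ∈ ball c r, q z ^ n = 1) :
    ∀ z ∈ ball c r, ∀ z' ∈ ball c r, q z = q z' := by
  have hopen : IsOpen (ball c r) := isOpen_ball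
  have hderiv : EqOn (deriv q) 0 (ball c r) := by
    intro z hz
    have hqz : HasDerivAt q (deriv q z) z :=
      (hq.differentiableAt (hopen.mem_nhds hz)).hasDerivAt
    have h1 : HasDerivAt (fun w => q w ^ n) ((n : ℂ) * q z ^ (n - 1) * deriv q z) z := hqz.pow n
    have h2 : HasDerivAt (fun w => q w ^ n) 0 z := by
      have : (fun w => q w ^ n) =ᶠ[𝓝 z] fun _ => (1 : ℂ) := by
        filter_upwards [hopen.mem_nhds hz] with w hw using hqn w hw
      exact (hasDerivAt_const z (1 : ℂ)).congr_of_eventuallyEq this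
    have h3 := h1.unique h2
    have hqz0 : q z ≠ 0 := by
      intro h0
      have := hqn z hz
      rw [h0, zero_pow hn] at this
      exact zero_ne_one this
    have hn' : (n : ℂ) ≠ 0 := Nat.cast_ne_zero.mpr hn
    simpa [hn', hqz0] using h3
  intro z hz z' hz'
  exact hopen.is_const_of_deriv_eq_zero (convex_ball c r).isPreconnected hq hderiv hz hz'

/-- **Uniqueness of roots**: two holomorphic functions on a preconnected open set with the same
`n`-th power differ by an `n`-th root of unity. -/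
theorem eq_const_mul_of_pow_eq {U : Set ℂ} (hU : IsOpen U) (hUc : IsPreconnected U)
    {X Y : ℂ → ℂ} {n : ℕ} (hn : n ≠ 0)
    (hX : DifferentiableOn ℂ X U) (hY : DifferentiableOn ℂ Y U)
    (hY0 : ∃ z ∈ U, Y z ≠ 0) (hXY : ∀ z ∈ U, X z ^ n = Y z ^ n) :
    ∃ ζ : ℂ, ζ ^ n = 1 ∧ ∀ z ∈ U, X z = ζ * Y z := by
  obtain ⟨z₀, hz₀, hYz₀⟩ := hY0
  -- a small ball around `z₀` on which `Y` does not vanish
  have hYcont : ContinuousAt Y z₀ := (hY.differentiableAt (hU.mem_nhds hz₀)).continuousAt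
  have hnhds : {z | z ∈ U ∧ Y z ≠ 0} ∈ 𝓝 z₀ :=
    Filter.inter_mem (hU.mem_nhds hz₀) (hYcont.eventually_ne hYz₀)
  obtain ⟨r, hr, hball⟩ := Metric.mem_nhds_iff.mp hnhds
  have hballU : ball z₀ r ⊆ U := fun z hz => (hball hz).1
  have hballY : ∀ z ∈ ball z₀ r, Y z ≠ 0 := fun z hz => (hball hz).2
  have hq : DifferentiableOn ℂ (fun z => X z / Y z) (ball z₀ r) :=
    (hX.mono hballU).div (hY.mono hballU) hballY
  have hqn : ∀ z ∈ ball z₀ r, (X z / Y z) ^ n = 1 := by
    intro z hz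
    rw [div_pow, hXY z (hballU hz), div_self (pow_ne_zero n (hballY z hz))]
  have hconst := const_of_pow_eq_one_ball hn hq hqn
  have hz₀b : z₀ ∈ ball z₀ r := mem_ball_self hr
  refine ⟨X z₀ / Y z₀, hqn z₀ hz₀b, ?_⟩
  have hXa : AnalyticOnNhd ℂ X U := hX.analyticOnNhd hU
  have hYa : AnalyticOnNhd ℂ (fun z => X z₀ / Y z₀ * Y z) U :=
    (hY.const_mul _).analyticOnNhd hU
  refine hXa.eqOn_of_preconnected_of_eventuallyEq hYa hUc hz₀ ?_
  filter_upwards [ball_mem_nhds z₀ hr] with z hz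
  have h1 : X z / Y z = X z₀ / Y z₀ := hconst z hz z₀ hz₀b
  rw [← h1, div_mul_cancel₀ _ (hballY z hz)]

/-! ## Roots on a disc whose closure lies in the domain -/

/-- If `h` is holomorphic on the open set `U`, all its zeros in `U` have order divisible by `n`,
and the closed disc `closedBall c r` lies in `U`, then `h` has a holomorphic `n`-th root on the
open disc `ball c r`. -/
theorem exists_root_ball {U : Set ℂ} (hU : IsOpen U) {h : ℂ → ℂ} (hh : DifferentiableOn ℂ h U)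
    {n : ℕ} (hn : n ≠ 0)
    (hord : ∀ z ∈ U, ∃ k : ℕ, analyticOrderAt h z = ((n * k : ℕ) : ℕ∞))
    {c : ℂ} {r : ℝ} (hK : closedBall c r ⊆ U) :
    ∃ w : ℂ → ℂ, DifferentiableOn ℂ w (ball c r) ∧ ∀ z ∈ ball c r, w z ^ n = h z := by
  have hha : AnalyticOnNhd ℂ h U := hh.analyticOnNhd hU
  have hhK : AnalyticOnNhd ℂ h (closedBall c r) := hha.mono hK
  have hmer : MeromorphicOn h (closedBall c r) := hhK.meromorphicOn
  have hordK : ∀ u : closedBall c r, meromorphicOrderAt h u ≠ ⊤ := by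
    rintro ⟨u, hu⟩
    obtain ⟨k, hk⟩ := hord u (hK hu)
    rw [(hhK u hu).meromorphicOrderAt_eq, hk, ENat.map_natCast]
    exact WithTop.coe_ne_top
  have hfin : (MeromorphicOn.divisor h (closedBall c r)).support.Finite :=
    (MeromorphicOn.divisor h (closedBall c r)).finiteSupport (isCompact_closedBall c r)
  obtain ⟨g, hg, hg0, heq⟩ := hmer.extract_zeros_poles hordK hfin
  have hD : ∀ u, ∃ e : ℕ, MeromorphicOn.divisor h (closedBall c r) u = (n : ℤ) * e := by
    intro u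
    by_cases hu : u ∈ closedBall c r
    · obtain ⟨k, hk⟩ := hord u (hK hu)
      refine ⟨k, ?_⟩
      rw [MeromorphicOn.divisor_apply hmer hu, (hhK u hu).meromorphicOrderAt_eq, hk,
        ENat.map_natCast]
      have : (((n * k : ℕ) : ℤ) : WithTop ℤ) = (((n : ℤ) * (k : ℤ) : ℤ) : WithTop ℤ) := by
        push_cast; rfl
      rw [this, WithTop.untop₀_coe]
    · exact ⟨0, by simp [Function.locallyFinsuppWithin.apply_eq_zero_of_notMem _ hu]⟩
  choose e he using hD
  -- the polynomial factor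
  set Q : ℂ → ℂ → ℂ := fun u z => (z - u) ^ e u with hQ
  have hQfin : (Function.mulSupport Q).Finite := by
    refine hfin.subset fun u hu => ?_
    rw [Function.mem_mulSupport] at hu
    rw [Function.mem_support, he u]
    intro h0
    apply hu
    have : e u = 0 := by
      rcases mul_eq_zero.mp h0 with h1 | h1
      · exact absurd (by exact_mod_cast h1) hn
      · exact_mod_cast h1
    funext z
    simp [hQ, this]
  have hQpow : (∏ᶠ u, Q u) ^ n = ∏ᶠ u, (· - u) ^ MeromorphicOn.divisor h (closedBall c r) u := by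
    rw [finprod_pow hQfin]
    refine finprod_congr fun u => ?_
    funext z
    simp only [hQ, Pi.pow_apply, he u]
    rw [zpow_mul, zpow_natCast, zpow_natCast, ← pow_mul, ← pow_mul, mul_comm]
  have hPdiff : Differentiable ℂ (∏ᶠ u, Q u) := by
    rw [finprod_eq_prod _ hQfin]
    refine Differentiable.finsetProd fun u _ => ?_
    exact (differentiable_id.sub_const u).pow _
  -- the root of the unit factor
  have hgd : DifferentiableOn ℂ g (ball c r) := fun z hz =>
    (hg z (ball_subset_closedBall hz)).differentiableAt.differentiableWithinAt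
  have hg0' : ∀ z ∈ ball c r, g z ≠ 0 := fun z hz => hg0 ⟨z, ball_subset_closedBall hz⟩
  obtain ⟨ρ, hρ, hρn⟩ := exists_root_ball_of_ne_zero hgd hg0' n hn
  refine ⟨fun z => (∏ᶠ u, Q u) z * ρ z, hPdiff.differentiableOn.mul hρ, ?_⟩
  intro z hz
  -- equality on a punctured neighbourhood, then by continuity
  have hwn : ∀ x ∈ ball c r, ((∏ᶠ u, Q u) x * ρ x) ^ n
      = ((∏ᶠ u, (· - u) ^ MeromorphicOn.divisor h (closedBall c r) u) • g) x := by
    intro x hx
    rw [mul_pow, hρn x hx, ← hQpow]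
    simp
  have hev : (fun x => ((∏ᶠ u, Q u) x * ρ x) ^ n) =ᶠ[𝓝[≠] z] h := by
    have h1 := (mem_codiscreteWithin_iff_forall_mem_nhdsNE.mp heq) z (ball_subset_closedBall hz)
    have h2 : ball c r ∈ 𝓝[≠] z := mem_nhdsWithin_of_mem_nhds (isOpen_ball.mem_nhds hz)
    filter_upwards [h1, h2] with x hx1 hx2
    rcases hx1 with hx1 | hx1
    · rw [hwn x hx2]
      exact hx1.symm
    · exact absurd (ball_subset_closedBall hx2) hx1
  have hc1 : ContinuousAt (fun x => ((∏ᶠ u, Q u) x * ρ x) ^ n) z :=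
    (((hPdiff.differentiableOn.mul hρ).pow n).differentiableAt
      (isOpen_ball.mem_nhds hz)).continuousAt
  have hc2 : ContinuousAt h z := (hha z (hK (ball_subset_closedBall hz))).continuousAt
  exact ((hc1.eventuallyEq_nhds_iff_eventuallyEq_nhdsNE hc2).mp hev).eq_of_nhds

/-! ## Exhaustion of the upper half plane by discs -/

/-- Centre of the `j`-th exhausting disc. -/
noncomputable def ctr (j : ℕ) : ℂ := (((j : ℝ) + 2 : ℝ) : ℂ) * Complex.I

/-- Radius of the `j`-th exhausting disc. -/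
noncomputable def rad (j : ℕ) : ℝ := ((j : ℝ) + 2) - 1 / ((j : ℝ) + 2)

lemma ctr_re (j : ℕ) : (ctr j).re = 0 := by simp [ctr]

lemma ctr_im (j : ℕ) : (ctr j).im = (j : ℝ) + 2 := by simp [ctr]

lemma rad_pos (j : ℕ) : 0 < rad j := by
  have hj : (0 : ℝ) ≤ j := Nat.cast_nonneg j
  have h2 : (0 : ℝ) < (j : ℝ) + 2 := by linarith
  have h3 : 1 / ((j : ℝ) + 2) < 1 := by
    rw [div_lt_one h2]; linarith
  unfold rad
  linarith

lemma closedBall_subset_uhp (j : ℕ) : closedBall (ctr j) (rad j) ⊆ {z : ℂ | 0 < z.im} := by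
  intro z hz
  rw [mem_closedBall, dist_eq_norm] at hz
  have h1 : |(z - ctr j).im| ≤ ‖z - ctr j‖ := Complex.abs_im_le_norm _
  have h2 : (z - ctr j).im = z.im - ((j : ℝ) + 2) := by rw [Complex.sub_im, ctr_im]
  have hj : (0 : ℝ) ≤ j := Nat.cast_nonneg j
  have h3 : (0 : ℝ) < 1 / ((j : ℝ) + 2) := by positivity
  have h4 := (abs_le.mp (h1.trans hz)).1
  rw [h2] at h4
  show 0 < z.im
  unfold rad at h4
  linarith

lemma ball_subset_ball_succ (j : ℕ) : ball (ctr j) (rad j) ⊆ ball (ctr (j + 1)) (rad (j + 1)) := by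
  intro z hz
  rw [mem_ball] at hz ⊢
  have hd : dist (ctr j) (ctr (j + 1)) = 1 := by
    rw [dist_eq_norm]
    have : ctr j - ctr (j + 1) = -Complex.I := by
      simp only [ctr]; push_cast; ring
    rw [this]; simp
  have hj : (0 : ℝ) ≤ j := Nat.cast_nonneg j
  have h2 : (0 : ℝ) < (j : ℝ) + 2 := by linarith
  have h3 : (0 : ℝ) < (j : ℝ) + 1 + 2 := by linarith
  have hr : rad j + 1 ≤ rad (j + 1) := by
    unfold rad
    push_cast
    have : 1 / ((j : ℝ) + 1 + 2) ≤ 1 / ((j : ℝ) + 2) :=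
      one_div_le_one_div_of_le h2 (by linarith)
    linarith
  calc dist z (ctr (j + 1)) ≤ dist z (ctr j) + dist (ctr j) (ctr (j + 1)) := dist_triangle _ _ _
    _ < rad j + 1 := by rw [hd]; linarith
    _ ≤ rad (j + 1) := hr

lemma ball_subset_ball_of_le {i j : ℕ} (hij : i ≤ j) :
    ball (ctr i) (rad i) ⊆ ball (ctr j) (rad j) := by
  induction j, hij using Nat.le_induction with
  | base => exact subset_rfl
  | succ k _ ih => exact ih.trans (ball_subset_ball_succ k)

lemma exists_mem_ball {z : ℂ} (hz : 0 < z.im) : ∃ j : ℕ, z ∈ ball (ctr j) (rad j) := by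
  obtain ⟨j, hj⟩ := exists_nat_gt ((z.re ^ 2 + z.im ^ 2 + 2) / (2 * z.im))
  refine ⟨j, ?_⟩
  rw [mem_ball, dist_eq_norm]
  have hj0 : (0 : ℝ) ≤ j := Nat.cast_nonneg j
  have hR : (0 : ℝ) < (j : ℝ) + 2 := by linarith
  have hkey : z.re ^ 2 + z.im ^ 2 + 2 < 2 * z.im * ((j : ℝ) + 2) := by
    rw [div_lt_iff₀ (by linarith)] at hj
    nlinarith
  have hsq : ‖z - ctr j‖ ^ 2 < rad j ^ 2 := by
    rw [Complex.sq_norm, Complex.normSq_apply, Complex.sub_re, Complex.sub_im, ctr_re, ctr_im]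
    have h1 : rad j ^ 2 = ((j : ℝ) + 2) ^ 2 - 2 + (1 / ((j : ℝ) + 2)) ^ 2 := by
      unfold rad
      field_simp
      ring
    have h2 : (0 : ℝ) ≤ (1 / ((j : ℝ) + 2)) ^ 2 := by positivity
    rw [h1]
    nlinarith
  exact lt_of_pow_lt_pow_left₀ 2 (rad_pos j).le hsq

/-! ## The main theorem: roots on the upper half plane -/

/-- **Holomorphic `n`-th roots on the upper half plane.**  If `h` is holomorphic on the upper half
plane and the order of vanishing of `h` at every point of the upper half plane is (finite and)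
divisible by `n`, then `h = w ^ n` for a holomorphic function `w` on the upper half plane. -/
theorem exists_root_upperHalfPlane {h : ℂ → ℂ} (hh : DifferentiableOn ℂ h {z : ℂ | 0 < z.im})
    {n : ℕ} (hn : n ≠ 0)
    (hord : ∀ z : ℂ, 0 < z.im → ∃ k : ℕ, analyticOrderAt h z = ((n * k : ℕ) : ℕ∞)) :
    ∃ w : ℂ → ℂ, DifferentiableOn ℂ w {z : ℂ | 0 < z.im} ∧ ∀ z : ℂ, 0 < z.im → w z ^ n = h z := by
  have hUopen : IsOpen {z : ℂ | 0 < z.im} := isOpen_lt continuous_const Complex.continuous_im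
  -- roots on the discs
  have hroot : ∀ j : ℕ, ∃ c : ℂ → ℂ, DifferentiableOn ℂ c (ball (ctr j) (rad j)) ∧
      ∀ z ∈ ball (ctr j) (rad j), c z ^ n = h z := fun j =>
    exists_root_ball hUopen hh hn (fun z hz => hord z hz) (closedBall_subset_uhp j)
  -- `h` does not vanish identically on any of the discs
  have hne : ∀ j : ℕ, ∃ z ∈ ball (ctr j) (rad j), h z ≠ 0 := by
    intro j
    have hcj : 0 < (ctr j).im := by rw [ctr_im]; positivity
    obtain ⟨k, hk⟩ := hord (ctr j) hcj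
    have h1 : analyticOrderAt h (ctr j) ≠ ⊤ := by rw [hk]; exact ENat.natCast_ne_top _
    rw [Ne, analyticOrderAt_eq_top] at h1
    have h2 : ∃ᶠ z in 𝓝 (ctr j), h z ≠ 0 := Filter.not_eventually.mp h1
    obtain ⟨z, hz1, hz2⟩ := (h2.and_eventually (ball_mem_nhds (ctr j) (rad_pos j))).exists
    exact ⟨z, hz2, hz1⟩
  -- extension step
  have hext : ∀ (j : ℕ) (c : ℂ → ℂ), (DifferentiableOn ℂ c (ball (ctr j) (rad j)) ∧
      ∀ z ∈ ball (ctr j) (rad j), c z ^ n = h z) →
      ∃ c' : ℂ → ℂ, (DifferentiableOn ℂ c' (ball (ctr (j + 1)) (rad (j + 1))) ∧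
        ∀ z ∈ ball (ctr (j + 1)) (rad (j + 1)), c' z ^ n = h z) ∧
        EqOn c' c (ball (ctr j) (rad j)) := by
    rintro j c ⟨hc, hcn⟩
    obtain ⟨c₁, hc₁, hc₁n⟩ := hroot (j + 1)
    obtain ⟨z₀, hz₀, hhz₀⟩ := hne j
    have hcz₀ : c z₀ ≠ 0 := by
      intro h0
      apply hhz₀
      rw [← hcn z₀ hz₀, h0, zero_pow hn]
    obtain ⟨ζ, hζ, hζc⟩ := eq_const_mul_of_pow_eq isOpen_ball (convex_ball _ _).isPreconnected hn
      (hc₁.mono (ball_subset_ball_succ j)) hc ⟨z₀, hz₀, hcz₀⟩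
      (fun z hz => by rw [hc₁n z (ball_subset_ball_succ j hz), hcn z hz])
    have hζ0 : ζ ≠ 0 := by
      intro h0
      rw [h0, zero_pow hn] at hζ
      exact zero_ne_one hζ
    refine ⟨fun z => ζ⁻¹ * c₁ z, ⟨hc₁.const_mul _, fun z hz => ?_⟩, fun z hz => ?_⟩
    · rw [mul_pow, inv_pow, hζ, inv_one, one_mul, hc₁n z hz]
    · show ζ⁻¹ * c₁ z = c z
      rw [hζc z hz, ← mul_assoc, inv_mul_cancel₀ hζ0, one_mul]
  -- the compatible sequence of roots
  obtain ⟨c₀, hc₀⟩ := hroot 0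
  let F : ∀ j : ℕ, {c : ℂ → ℂ // DifferentiableOn ℂ c (ball (ctr j) (rad j)) ∧
      ∀ z ∈ ball (ctr j) (rad j), c z ^ n = h z} := fun j =>
    Nat.rec ⟨c₀, hc₀⟩ (fun j p => ⟨Classical.choose (hext j p.1 p.2),
      (Classical.choose_spec (hext j p.1 p.2)).1⟩) j
  have hFsucc : ∀ j, EqOn (F (j + 1)).1 (F j).1 (ball (ctr j) (rad j)) := fun j =>
    (Classical.choose_spec (hext j (F j).1 (F j).2)).2
  have hFle : ∀ i j, i ≤ j → EqOn (F j).1 (F i).1 (ball (ctr i) (rad i)) := by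
    intro i j hij
    induction j, hij using Nat.le_induction with
    | base => exact fun z _ => rfl
    | succ k hik ih =>
      intro z hz
      rw [hFsucc k (ball_subset_ball_of_le hik hz), ih hz]
  -- the glued function
  classical
  let w : ℂ → ℂ := fun z =>
    if hz : ∃ j : ℕ, z ∈ ball (ctr j) (rad j) then (F (Nat.find hz)).1 z else 0
  have hw : ∀ j : ℕ, EqOn w (F j).1 (ball (ctr j) (rad j)) := by
    intro j z hz
    have hex : ∃ j : ℕ, z ∈ ball (ctr j) (rad j) := ⟨j, hz⟩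
    show (if hz : ∃ j : ℕ, z ∈ ball (ctr j) (rad j) then (F (Nat.find hz)).1 z else 0) = _
    rw [dif_pos hex]
    exact (hFle (Nat.find hex) j (Nat.find_min' hex hz) (Nat.find_spec hex)).symm
  refine ⟨w, fun z hz => ?_, fun z hz => ?_⟩
  · obtain ⟨j, hj⟩ := exists_mem_ball hz
    have h1 : DifferentiableAt ℂ (F j).1 z := (F j).2.1.differentiableAt (isOpen_ball.mem_nhds hj)
    have h2 : w =ᶠ[𝓝 z] (F j).1 := by
      filter_upwards [isOpen_ball.mem_nhds hj] with x hx using hw j hx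
    exact (h1.congr_of_eventuallyEq h2).differentiableWithinAt
  · obtain ⟨j, hj⟩ := exists_mem_ball hz
    rw [hw j hj]
    exact (F j).2.2 z hj

/-! ## Versions for functions on the type `ℍ` -/

open UpperHalfPlane ModularForm
open scoped Manifold MatrixGroups

/-- **Holomorphic `n`-th roots on `ℍ`.** -/
theorem exists_root_UHP {h : ℍ → ℂ} (hh : MDifferentiable 𝓘(ℂ) 𝓘(ℂ) h) {n : ℕ} (hn : n ≠ 0)
    (hord : ∀ z : ℍ, ∃ k : ℕ, analyticOrderAt (h ∘ ofComplex) (z : ℂ) = ((n * k : ℕ) : ℕ∞)) :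
    ∃ w : ℍ → ℂ, MDifferentiable 𝓘(ℂ) 𝓘(ℂ) w ∧ ∀ z, w z ^ n = h z := by
  obtain ⟨W, hW, hWn⟩ := exists_root_upperHalfPlane (UpperHalfPlane.mdifferentiable_iff.mp hh) hn
    (fun z hz => hord ⟨z, hz⟩)
  refine ⟨fun z => W z, ?_, fun z => ?_⟩
  · rw [UpperHalfPlane.mdifferentiable_iff]
    refine hW.congr fun z hz => ?_
    simp [Function.comp_apply, ofComplex_apply_of_im_pos hz]
  · have := hWn (z : ℂ) z.im_pos
    simpa [ofComplex_apply] using this

/-- **Uniqueness of roots on `ℍ`**: two holomorphic functions on `ℍ` with the same `n`-th power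
differ by an `n`-th root of unity. -/
theorem eq_const_mul_of_pow_eq_UHP {X Y : ℍ → ℂ} {n : ℕ} (hn : n ≠ 0)
    (hX : MDifferentiable 𝓘(ℂ) 𝓘(ℂ) X) (hY : MDifferentiable 𝓘(ℂ) 𝓘(ℂ) Y)
    (hY0 : ∃ z, Y z ≠ 0) (hXY : ∀ z, X z ^ n = Y z ^ n) :
    ∃ ζ : ℂ, ζ ^ n = 1 ∧ ∀ z, X z = ζ * Y z := by
  have hUopen : IsOpen {z : ℂ | 0 < z.im} := isOpen_lt continuous_const Complex.continuous_im
  obtain ⟨z₀, hz₀⟩ := hY0
  obtain ⟨ζ, hζ, h⟩ := eq_const_mul_of_pow_eq hUopen (convex_halfSpace_im_gt 0).isPreconnected hn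
    (UpperHalfPlane.mdifferentiable_iff.mp hX) (UpperHalfPlane.mdifferentiable_iff.mp hY)
    ⟨(z₀ : ℂ), z₀.im_pos, by simpa [ofComplex_apply] using hz₀⟩
    (fun z hz => by simp only [Function.comp_apply]; exact hXY _)
  refine ⟨ζ, hζ, fun z => ?_⟩
  have := h (z : ℂ) z.im_pos
  simpa [ofComplex_apply] using this

/-- **Roots of ratios.**  If `a`, `b` are holomorphic on `ℍ` and `n` divides
`ord_z a - ord_z b` at every point, then there is a holomorphic `c` with
`(c / b) ^ n = a / b`, in the denominator-free form `c ^ n * b = a * b ^ n`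
(indeed `c ^ n = a * b ^ (n - 1)`). -/
theorem exists_root_ratio_UHP {a b : ℍ → ℂ} (ha : MDifferentiable 𝓘(ℂ) 𝓘(ℂ) a)
    (hb : MDifferentiable 𝓘(ℂ) 𝓘(ℂ) b) {n : ℕ} (hn : n ≠ 0)
    (hord : ∀ z : ℍ, ∃ (ka kb : ℕ) (k : ℤ),
      analyticOrderAt (a ∘ ofComplex) (z : ℂ) = (ka : ℕ∞) ∧
      analyticOrderAt (b ∘ ofComplex) (z : ℂ) = (kb : ℕ∞) ∧ (ka : ℤ) - kb = n * k) :
    ∃ c : ℍ → ℂ, MDifferentiable 𝓘(ℂ) 𝓘(ℂ) c ∧ (∀ z, c z ^ n = a z * b z ^ (n - 1)) ∧
      ∀ z, c z ^ n * b z = a z * b z ^ n := by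
  have hUopen : IsOpen {z : ℂ | 0 < z.im} := isOpen_lt continuous_const Complex.continuous_im
  have hab : MDifferentiable 𝓘(ℂ) 𝓘(ℂ) (fun z => a z * b z ^ (n - 1)) := ha.mul (hb.pow _)
  have hord' : ∀ z : ℍ, ∃ K : ℕ,
      analyticOrderAt ((fun z => a z * b z ^ (n - 1)) ∘ ofComplex) (z : ℂ) = ((n * K : ℕ) : ℕ∞) := by
    intro z
    obtain ⟨ka, kb, k, hka, hkb, hk⟩ := hord z
    have haA : AnalyticAt ℂ (a ∘ ofComplex) (z : ℂ) :=
      (UpperHalfPlane.mdifferentiable_iff.mp ha).analyticOnNhd hUopen _ z.im_pos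
    have hbA : AnalyticAt ℂ (b ∘ ofComplex) (z : ℂ) :=
      (UpperHalfPlane.mdifferentiable_iff.mp hb).analyticOnNhd hUopen _ z.im_pos
    have hfun : ((fun z => a z * b z ^ (n - 1)) ∘ ofComplex)
        = (a ∘ ofComplex) * (b ∘ ofComplex) ^ (n - 1) := by
      funext w; simp
    rw [hfun, analyticOrderAt_mul haA (hbA.pow _), analyticOrderAt_pow hbA, hka, hkb]
    have hnpos : 0 < n := Nat.pos_of_ne_zero hn
    have h1 : (n : ℤ) * (k + kb) = ka + (n - 1 : ℕ) * kb := by
      have : ((n - 1 : ℕ) : ℤ) = (n : ℤ) - 1 := by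
        rw [Nat.cast_sub hnpos]; simp
      rw [this]; linarith
    have h2 : 0 ≤ k + kb := by
      by_contra hneg
      replace hneg := not_le.mp hneg
      have h3 : (n : ℤ) * (k + kb) < 0 := mul_neg_of_pos_of_neg (by exact_mod_cast hnpos) hneg
      have h4 : (0 : ℤ) ≤ ka + (n - 1 : ℕ) * kb := by positivity
      linarith
    refine ⟨(k + kb).toNat, ?_⟩
    have h5 : ka + (n - 1) * kb = n * (k + kb).toNat := by
      have : ((ka + (n - 1) * kb : ℕ) : ℤ) = ((n * (k + kb).toNat : ℕ) : ℤ) := by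
        push_cast
        rw [Int.toNat_of_nonneg h2, h1]
      exact_mod_cast this
    rw [← h5]
    push_cast
    rfl
  obtain ⟨c, hc, hcn⟩ := exists_root_UHP hab hn hord'
  refine ⟨c, hc, hcn, fun z => ?_⟩
  rw [hcn z, mul_assoc, pow_sub_one_mul hn]

/-! ## The multiplier character -/

/-- **The multiplier character of an `n`-th root.**  Let `c` be holomorphic on `ℍ`, not
identically zero, and suppose the `n`-th power of `c` is invariant under the weight `k` slash
action of a subgroup `Γ` of `SL(2, ℤ)` up to the obvious `n`-th power (i.e. `c ^ n` is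
slash-invariant of weight `k * n`).  Then `c ∣[k] γ = χ γ • c` for a character
`χ : Γ →* ℂˣ` with values in the `n`-th roots of unity. -/
theorem exists_character_of_slash_pow_eq (Γ : Subgroup SL(2, ℤ)) (k : ℤ) {n : ℕ} (hn : n ≠ 0)
    {c : ℍ → ℂ} (hc : MDifferentiable 𝓘(ℂ) 𝓘(ℂ) c) (hc0 : ∃ z, c z ≠ 0)
    (hinv : ∀ γ ∈ Γ, ∀ z, (c ∣[k] γ) z ^ n = c z ^ n) :
    ∃ χ : Γ →* ℂˣ, (∀ γ, χ γ ^ n = 1) ∧
      ∀ (γ : Γ) (z : ℍ), (c ∣[k] (γ : SL(2, ℤ))) z = (χ γ : ℂ) * c z := by
  have hex : ∀ γ : Γ, ∃ ζ : ℂ, ζ ^ n = 1 ∧ ∀ z, (c ∣[k] (γ : SL(2, ℤ))) z = ζ * c z := fun γ =>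
    eq_const_mul_of_pow_eq_UHP hn (hc.slash k _) hc hc0 (hinv γ γ.2)
  choose ζ hζ1 hζ2 using hex
  obtain ⟨z₀, hz₀⟩ := hc0
  have hζ0 : ∀ γ, ζ γ ≠ 0 := by
    intro γ h0
    have := hζ1 γ
    rw [h0, zero_pow hn] at this
    exact zero_ne_one this
  have hone : ζ 1 = 1 := by
    have h1 := hζ2 1 z₀
    rw [Subgroup.coe_one, SlashAction.slash_one] at h1
    exact (mul_right_cancel₀ hz₀ (by rw [one_mul]; exact h1)).symm
  have hmul : ∀ γ δ : Γ, ζ (γ * δ) = ζ γ * ζ δ := by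
    intro γ δ
    have h1 := hζ2 (γ * δ) z₀
    rw [Subgroup.coe_mul, SlashAction.slash_mul, SL_slash_apply] at h1
    rw [hζ2 γ (((δ : Γ) : SL(2, ℤ)) • z₀)] at h1
    have h2 := hζ2 δ z₀
    rw [SL_slash_apply] at h2
    rw [mul_assoc, h2, ← mul_assoc] at h1
    exact (mul_right_cancel₀ hz₀ h1).symm
  refine ⟨{ toFun := fun γ => Units.mk0 (ζ γ) (hζ0 γ)
            map_one' := Units.ext hone
            map_mul' := fun γ δ => Units.ext (hmul γ δ) }, fun γ => ?_, fun γ z => ?_⟩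
  · exact Units.ext (by simpa using hζ1 γ)
  · exact hζ2 γ z

/-! ## Triviality of the multiplier at the cusp `∞` -/

/-- If `c` is holomorphic on `ℍ`, `c (z + 1) = ζ * c z` with `ζ ^ n = 1`, and `c ^ n` has a nonzero
limit at `i∞`, then `ζ = 1`. -/
theorem eq_one_of_vadd_of_tendsto {c : ℍ → ℂ} (hc : MDifferentiable 𝓘(ℂ) 𝓘(ℂ) c) {n : ℕ}
    (hn : n ≠ 0) {ζ L : ℂ} (hζ : ζ ^ n = 1) (hL : L ≠ 0)
    (hlim : Tendsto (fun z : ℍ => c z ^ n) atImInfty (𝓝 L))
    (hT : ∀ z : ℍ, c ((1 : ℝ) +ᵥ z) = ζ * c z) : ζ = 1 := by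
  have hUopen : IsOpen {z : ℂ | 0 < z.im} := isOpen_lt continuous_const Complex.continuous_im
  set f : ℂ → ℂ := c ∘ ofComplex with hf
  have hnpos : (0 : ℝ) < n := by exact_mod_cast Nat.pos_of_ne_zero hn
  -- iterate the translation
  have hTm : ∀ (m : ℕ) (z : ℍ), c ((m : ℝ) +ᵥ z) = ζ ^ m * c z := by
    intro m
    induction m with
    | zero => intro z; simp
    | succ m ih =>
      intro z
      have : ((m + 1 : ℕ) : ℝ) +ᵥ z = (1 : ℝ) +ᵥ ((m : ℝ) +ᵥ z) := by
        rw [← add_vadd]; congr 1; push_cast; ring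
      rw [this, hT, ih, pow_succ]; ring
  have hper : Function.Periodic f (n : ℂ) := by
    intro z
    by_cases hz : 0 < z.im
    · have hz' : 0 < (z + n).im := by simpa using hz
      simp only [hf, Function.comp_apply]
      rw [ofComplex_apply_of_im_pos hz', ofComplex_apply_of_im_pos hz]
      have : (⟨z + n, hz'⟩ : ℍ) = (n : ℝ) +ᵥ (⟨z, hz⟩ : ℍ) := by
        apply UpperHalfPlane.ext
        rw [UpperHalfPlane.coe_vadd]
        simp [add_comm]
      rw [this, hTm n, hζ, one_mul]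
    · have hz1 : z.im ≤ 0 := not_lt.mp hz
      have hz' : (z + n).im ≤ 0 := by simpa using hz1
      simp only [hf, Function.comp_apply]
      rw [ofComplex_apply_eq_of_im_nonpos hz' hz1]
  have hmem : {z : ℂ | 0 < z.im} ∈ comap Complex.im atTop :=
    ⟨Set.Ioi 0, Ioi_mem_atTop 0, fun z hz => hz⟩
  have hhol : ∀ᶠ z in comap Complex.im atTop, DifferentiableAt ℂ f z := by
    filter_upwards [hmem] with z hz
    exact (UpperHalfPlane.mdifferentiable_iff.mp hc).differentiableAt (hUopen.mem_nhds hz)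
  have hlim' : Tendsto (fun z : ℂ => f z ^ n) (comap Complex.im atTop) (𝓝 L) :=
    hlim.comp tendsto_comap_im_ofComplex
  have hbd : BoundedAtFilter (comap Complex.im atTop) f := by
    have h1 : ∀ᶠ z in comap Complex.im atTop, ‖f z ^ n‖ < ‖L‖ + 1 :=
      (hlim'.norm).eventually (gt_mem_nhds (by linarith))
    refine Asymptotics.IsBigO.of_bound (‖L‖ + 1 + 1) ?_
    filter_upwards [h1] with z hz
    simp only [Pi.one_apply, norm_one, mul_one]
    rw [norm_pow] at hz
    by_cases h2 : ‖f z‖ ≤ 1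
    · have := norm_nonneg L; linarith
    · have h3 : 1 ≤ ‖f z‖ := (not_le.mp h2).le
      have h4 : ‖f z‖ ≤ ‖f z‖ ^ n := le_self_pow₀ h3 hn
      linarith
  have hℓ := Function.Periodic.tendsto_at_I_inf hnpos hper hhol hbd
  set ℓ := Function.Periodic.cuspFunction (n : ℝ) f 0 with hℓdef
  have : (comap Complex.im atTop).NeBot := by
    refine comap_neBot_iff_frequently.mpr (Eventually.frequently ?_)
    filter_upwards with t using ⟨Complex.I * t, by simp⟩
  -- the limit satisfies `ℓ ^ n = L`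
  have hℓn : ℓ ^ n = L := tendsto_nhds_unique (hℓ.pow n) hlim'
  have hℓ0 : ℓ ≠ 0 := by
    intro h0
    rw [h0, zero_pow hn] at hℓn
    exact hL hℓn.symm
  -- translation by one
  have hshift : Tendsto (fun z : ℂ => z + 1) (comap Complex.im atTop) (comap Complex.im atTop) := by
    rw [tendsto_comap_iff]
    have : (Complex.im ∘ fun z : ℂ => z + 1) = Complex.im := by
      funext z; simp
    rw [this]
    exact tendsto_comap
  have h1 : Tendsto (fun z : ℂ => f (z + 1)) (comap Complex.im atTop) (𝓝 ℓ) := hℓ.comp hshift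
  have h2 : Tendsto (fun z : ℂ => ζ * f z) (comap Complex.im atTop) (𝓝 (ζ * ℓ)) :=
    hℓ.const_mul ζ
  have h3 : (fun z : ℂ => f (z + 1)) =ᶠ[comap Complex.im atTop] fun z => ζ * f z := by
    filter_upwards [hmem] with z hz
    have hz' : 0 < (z + 1).im := by simpa using hz
    simp only [hf, Function.comp_apply]
    rw [ofComplex_apply_of_im_pos hz', ofComplex_apply_of_im_pos hz]
    have : (⟨z + 1, hz'⟩ : ℍ) = (1 : ℝ) +ᵥ (⟨z, hz⟩ : ℍ) := by
      apply UpperHalfPlane.ext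
      rw [UpperHalfPlane.coe_vadd]
      simp [add_comm]
    rw [this, hT]
  have h4 : ℓ = ζ * ℓ := tendsto_nhds_unique h1 (h2.congr' h3.symm)
  have h5 : (1 - ζ) * ℓ = 0 := by linear_combination h4
  rcases mul_eq_zero.mp h5 with h6 | h6
  · exact (sub_eq_zero.mp h6).symm
  · exact absurd h6 hℓ0

end Fermat.Agent.S29.helper8319
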