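import Fermat.Agent.S29.helper587_FinC
import Fermat.Agent.S29.helper8217_KummerClass
import Fermat.Agent.S29.helper265_EvOrder
import Fermat.Agent.S29.helper3126_InvRoot
import Fermat.Agent.S29.helper8319_PthRoot
import Fermat.Agent.S37.helper1478_HeckeWiring

/-!
# S29 / S30 / S31 (helper288): finiteness of the `n`-torsion of `J₀(N)`

`finite_torsion_JZero : Set.Finite {x : JZero N | n • x = 0}` for every level `N ≠ 0` and every
modulus `n ≠ 0` (the fact `finTorsion` of `Fermat.Agent.S30.helper831.MachineFacts`).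

Route: every `n`-torsion class is the Kummer class of a function `u` of the function field of
`X₀(N)` over `ℚ̄` all of whose place orders are divisible by `n` (`helper8217`); such a `u` has a
meromorphic `n`-th root on the upper half plane (`helper265` + `helper8319`); a `Γ₀(N)`-invariant
meromorphic `n`-th root of an element of the function field lies in the function field
(`helper3126`); hence by the abstract multiplier argument `helper587.exists_finset_reps_of_roots`
(`Γ₀(N)` is finitely generated) there are finitely many Kummer functions up to `n`-th powers.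

No surjectivity of the multiplier map, no descent `ℂ → ℚ̄` and no Hecke operator is used.
-/

set_option autoImplicit false

open ModularCurve UpperHalfPlane CongruenceSubgroup AlgebraicCurve Filter
open scoped MatrixGroups Manifold Topology

noncomputable section

namespace Fermat.Agent.S29.helper288

open Fermat.Agent.S24 Fermat.Agent.S24.helper24 Fermat.Agent.S24.helper580

/-! ## (A) Abstract part -/

section Abstract

/-- Roots of unity of a field `M` lie in the image of any algebraically closed subfield. -/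
theorem exists_map_eq_of_pow_eq_one {k M : Type*} [Field k] [IsAlgClosed k] [Field M]
    (φ : k →+* M) {n : ℕ} (hn : n ≠ 0) {q : M} (hq : q ^ n = 1) :
    ∃ ζ : k, ζ ^ n = 1 ∧ q = φ ζ := by
  have hmonic : (Polynomial.X ^ n - Polynomial.C 1 : Polynomial k).Monic :=
    Polynomial.monic_X_pow_sub_C (1 : k) hn
  have hs := (IsAlgClosed.splits (Polynomial.X ^ n - Polynomial.C 1 : Polynomial k)).eq_prod_roots_of_monic
    hmonic
  have h2 := congrArg (Polynomial.eval₂RingHom φ q) hs
  rw [map_sub, map_pow, Polynomial.coe_eval₂RingHom, Polynomial.eval₂_X, Polynomial.eval₂_C,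
    map_one, hq, sub_self, ← Polynomial.coe_eval₂RingHom, map_multiset_prod,
    Multiset.map_map] at h2
  obtain ⟨x, hx, hx0⟩ := Multiset.prod_eq_zero_iff.mp h2.symm |> Multiset.mem_map.mp
  have hroot : x ^ n = 1 := by
    have h3 := (Polynomial.mem_roots hmonic.ne_zero).mp hx
    rw [Polynomial.IsRoot.def, Polynomial.eval_sub, Polynomial.eval_pow, Polynomial.eval_X,
      Polynomial.eval_C] at h3
    exact sub_eq_zero.mp h3
  refine ⟨x, hroot, ?_⟩
  rw [Function.comp_apply, Polynomial.coe_eval₂RingHom, Polynomial.eval₂_sub, Polynomial.eval₂_X,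
    Polynomial.eval₂_C] at hx0
  exact sub_eq_zero.mp hx0

variable {K F : Type*} [Field K] [Field F] [Algebra K F] [HasPrincipalDivisors K F]

/-- If the Kummer functions of modulus `n` have finitely many representatives up to `n`-th
powers, then the `n`-torsion of `Pic0` is finite. -/
theorem finite_torsion_of_finset_reps {n : ℕ} (hn : n ≠ 0)
    (h : ∃ T : Finset F, ∀ u : F, helper8217.IsKummer K n u →
      ∃ s ∈ T, ∃ t : F, t ≠ 0 ∧ u = s * t ^ n) :
    Set.Finite {x : Pic0 K F | n • x = 0} := by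
  obtain ⟨T, hT⟩ := h
  refine Set.Finite.subset ((Finset.finite_toSet T).image (helper8217.kummerClass K n)) ?_
  intro x hx
  have hx' : x ∈ Pic0.torsion K F n := by
    rw [Pic0.mem_torsion, natCast_zsmul]
    exact hx
  obtain ⟨u, hu, rfl⟩ := helper8217.exists_kummerClass_eq hn hx'
  obtain ⟨s, hs, t, ht, hust⟩ := hT u hu
  refine ⟨s, hs, ?_⟩
  have hsk : helper8217.IsKummer K n s := by
    have h1 := hu.div (helper8217.isKummer_pow_self (K := K) n ht)
    rwa [hust, mul_div_cancel_right₀ _ (pow_ne_zero n ht)] at h1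
  show helper8217.kummerClass K n s = helper8217.kummerClass K n u
  rw [hust, helper8217.kummerClass_mul_pow_self hn ht hsk]

end Abstract

/-! ## (B) The modular instance -/

section Modular

variable (N : ℕ)

/-- The two landed analytic evaluations of `A_N = ℚ̄[j(q^d) : d ∣ N]` agree. -/
theorem evFun_eq_ev (a : helper3176.AN N) :
    helper1944.evFun N (a : FN N) = helper6180.ev N a := by
  have key : ∀ x ∈ helper3176.AN N, ∀ hx : x ∈ helper3176.AN N,
      helper1944.evFun N x = helper6180.ev N ⟨x, hx⟩ := by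
    refine helper1944.AN_induction N
      (p := fun x => ∀ hx : x ∈ helper3176.AN N, helper1944.evFun N x = helper6180.ev N ⟨x, hx⟩)
      ?_ ?_ ?_ ?_
    · intro d _ hd hx
      rw [helper1944.evFun_jBarD N d hd]
      have h2 := helper6180.ev_jBarD N d hd
      rw [h2]
      rfl
    · intro c hx
      rw [helper1944.evFun_algebraMap N c]
      have h2 := helper6180.ev_algebraMap N c
      have h3 : (⟨algebraMap Kbar (FN N) c, hx⟩ : helper3176.AN N)
          = algebraMap Kbar (helper3176.AN N) c := rfl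
      rw [h3, h2]
      rfl
    · intro x y hx hy ihx ihy hxy
      rw [helper1944.evFun_add N hx hy, ihx hx, ihy hy, ← helper6180.ev_add]
      rfl
    · intro x y hx hy ihx ihy hxy
      rw [helper1944.evFun_mul N hx hy, ihx hx, ihy hy, ← helper6180.ev_mul]
      rfl
  exact key a.1 a.2 a.2

/-- `ev a` as an element of the ring of holomorphic functions. -/
def holA (a : helper3176.AN N) : Hol := ⟨helper6180.ev N a, helper6180.mdiff_ev N a⟩

theorem holA_apply (a : helper3176.AN N) (τ : ℍ) : (holA N a : ℍ → ℂ) τ = helper6180.ev N a τ :=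
  rfl

/-- `a ↦ ev a`, as a ring homomorphism into the holomorphic functions. -/
def holHom : helper3176.AN N →+* Hol where
  toFun := holA N
  map_one' := Subtype.ext (helper6180.ev_one N)
  map_mul' a b := Subtype.ext (helper6180.ev_mul N a b)
  map_zero' := Subtype.ext (helper6180.ev_zero N)
  map_add' a b := Subtype.ext (helper6180.ev_add N a b)

theorem holHom_apply (a : helper3176.AN N) : holHom N a = holA N a := rfl

theorem holHom_injective : Function.Injective (holHom N) := by
  intro a b h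
  have h1 : helper6180.ev N a = helper6180.ev N b := congrArg (fun f : Hol => (f : ℍ → ℂ)) h
  exact helper6180.ev_injective N h1

/-- The evaluation of `A_N` in the field of meromorphic functions on `ℍ`. -/
def evMerA : helper3176.AN N →+* Mer := (algebraMap Hol Mer).comp (holHom N)

theorem evMerA_injective : Function.Injective (evMerA N) :=
  (IsFractionRing.injective Hol Mer).comp (holHom_injective N)

/-- The evaluation of the function field of `X₀(N)` over `ℚ̄` in the field of meromorphic
functions on `ℍ`. -/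
def evMer : FN N →+* Mer := IsFractionRing.lift (evMerA_injective N)

theorem evMer_coe (a : helper3176.AN N) : evMer N (a : FN N) = algebraMap Hol Mer (holA N a) :=
  IsFractionRing.lift_algebraMap (evMerA_injective N) a

theorem evMer_coe_ne_zero {a : helper3176.AN N} (ha : (a : FN N) ≠ 0) : evMer N (a : FN N) ≠ 0 :=
  (map_ne_zero (evMer N)).mpr ha

/-- The evaluation is invariant under `Γ₀(N)`. -/
theorem pull_evMer (γ : SL(2, ℤ)) (hγ : γ ∈ Gamma0 N) (f : FN N) :
    pull γ (evMer N f) = evMer N f := by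
  have key : ((pull γ : Mer ≃ₐ[ℂ] Mer) : Mer →+* Mer).comp (evMer N) = evMer N := by
    refine helper3176.ringHom_ext_of_AN N fun a => ?_
    show pull γ (evMer N (a : FN N)) = evMer N (a : FN N)
    rw [evMer_coe, pull_algebraMap]
    congr 1
    exact Hol.ext fun τ => helper6180.ev_smul_of_mem_Gamma0 N a γ hγ τ
  exact congrArg (fun φ : FN N →+* Mer => φ f) key

theorem analyticOrderAt_evC_ne_top {a : helper3176.AN N} (ha : a ≠ 0) (τ : ℍ) :
    analyticOrderAt (helper265.evC N a) (τ : ℂ) ≠ ⊤ := by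
  rw [Ne, analyticOrderAt_eq_top]
  intro h0
  have h1 := helper265.eventually_evC_ne_zero N ha τ.im_pos
  have h2 : ∀ᶠ _ in 𝓝[≠] (τ : ℂ), False := by
    filter_upwards [h0.filter_mono nhdsWithin_le_nhds, h1] with z hz1 hz2
    exact hz2 hz1
  exact h2.exists.elim fun _ hF => hF

/-- **Realisation.** A Kummer function of modulus `n` has a meromorphic `n`-th root on `ℍ`. -/
theorem exists_mer_root {n : ℕ} (hn : n ≠ 0) {u : FN N} (hu : helper8217.IsKummer Kbar n u) :
    ∃ h : Mer, h ^ n = evMer N u := by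
  obtain ⟨a, b, hb, hab⟩ := helper3176.exists_div_AN N u
  have hb' : b ≠ 0 := fun h0 => hb (by rw [h0]; rfl)
  have ha' : a ≠ 0 := by
    intro h0
    apply hu.1
    rw [hab, h0]
    show (0 : FN N) / _ = 0
    exact zero_div _
  have hord : ∀ z : ℍ, ∃ (ka kb : ℕ) (k : ℤ),
      analyticOrderAt (helper6180.ev N a ∘ ofComplex) (z : ℂ) = (ka : ℕ∞) ∧
      analyticOrderAt (helper6180.ev N b ∘ ofComplex) (z : ℂ) = (kb : ℕ∞) ∧
      (ka : ℤ) - kb = n * k := by
    intro z
    obtain ⟨k, hk⟩ := helper265.dvd_analyticOrderNatAt_sub N hu.1 (p := (n : ℤ)) hu.2 hb hab z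
    exact ⟨analyticOrderNatAt (helper265.evC N a) (z : ℂ),
      analyticOrderNatAt (helper265.evC N b) (z : ℂ), k,
      (Nat.cast_analyticOrderNatAt (analyticOrderAt_evC_ne_top N ha' z)).symm,
      (Nat.cast_analyticOrderNatAt (analyticOrderAt_evC_ne_top N hb' z)).symm, hk⟩
  obtain ⟨c, hc, -, hcb⟩ := helper8319.exists_root_ratio_UHP (helper6180.mdiff_ev N a)
    (helper6180.mdiff_ev N b) hn hord
  have hbm : evMer N (b : FN N) ≠ 0 := evMer_coe_ne_zero N hb
  refine ⟨algebraMap Hol Mer ⟨c, hc⟩ / evMer N (b : FN N), ?_⟩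
  rw [hab, map_div₀, div_pow, div_eq_div_iff (pow_ne_zero n hbm) hbm, evMer_coe, evMer_coe,
    ← map_pow, ← map_pow, ← map_mul, ← map_mul]
  congr 1
  exact Hol.ext fun τ => hcb τ

/-- **Injectivity.** A `Γ₀(N)`-invariant meromorphic function on `ℍ` whose `n`-th power comes
from the function field of `X₀(N)` over `ℚ̄` comes itself from the function field. -/
theorem exists_evMer_eq_of_invariant [NeZero N] {n : ℕ} (hn : n ≠ 0) (w : Mer)
    (hinv : ∀ γ ∈ Gamma0 N, pull γ w = w) (f : FN N) (hw : w ^ n = evMer N f) :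
    ∃ t : FN N, w = evMer N t := by
  by_cases hf : f = 0
  · subst hf
    rw [map_zero] at hw
    exact ⟨0, by rw [map_zero]; exact (pow_eq_zero_iff hn).mp hw⟩
  obtain ⟨m, rfl⟩ := Nat.exists_eq_succ_of_ne_zero hn
  obtain ⟨a, b, hb, hab⟩ := helper3176.exists_div_AN N f
  have hbm : evMer N (b : FN N) ≠ 0 := evMer_coe_ne_zero N hb
  have hfm : evMer N f ≠ 0 := (map_ne_zero (evMer N)).mpr hf
  have hw0 : w ≠ 0 := by
    rintro rfl
    rw [zero_pow hn] at hw
    exact hfm hw.symm
  -- the holomorphic function `W = w * ev b`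
  set W : Mer := w * evMer N (b : FN N) with hW
  have hW0 : W ≠ 0 := mul_ne_zero hw0 hbm
  have hWn : W ^ (m + 1) = algebraMap Hol Mer (holA N (a * b ^ m)) := by
    have h1 : evMer N (((a * b ^ m : helper3176.AN N)) : FN N)
        = evMer N (a : FN N) * evMer N (b : FN N) ^ m := by
      rw [← map_pow, ← map_mul]
      rfl
    rw [← evMer_coe, h1, hW, mul_pow, hw, hab, map_div₀, pow_succ]
    field_simp
  -- all zero orders of `ev (a * b ^ m)` are divisible by `m + 1`
  have hord : ∀ z : ℍ, ∃ k : ℕ,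
      analyticOrderAt ((holA N (a * b ^ m) : ℍ → ℂ) ∘ ofComplex) (z : ℂ)
        = (((m + 1) * k : ℕ) : ℕ∞) := by
    intro z
    have h1 : ordAt z (W ^ (m + 1)) = (m + 1) • ordAt z W := AddValuation.map_pow _ _ _
    obtain ⟨l, hl⟩ := WithTop.ne_top_iff_exists.mp (ordAt_ne_top z hW0)
    rw [hWn, ordAt_algebraMap_eq_analyticOrderAt, ← hl] at h1
    have hne : analyticOrderAt ((holA N (a * b ^ m) : ℍ → ℂ) ∘ ofComplex) (z : ℂ) ≠ ⊤ := by
      intro htop
      rw [htop] at h1
      exact WithTop.coe_ne_top (a := (m + 1) • l) (by rw [WithTop.coe_nsmul]; exact h1.symm)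
    obtain ⟨k, hk⟩ := ENat.ne_top_iff_exists.mp hne
    rw [← hk] at h1 ⊢
    have h2 : ((k : ℤ) : WithTop ℤ) = (((m + 1) • l : ℤ) : WithTop ℤ) := by
      rw [WithTop.coe_nsmul, ← h1]
      rfl
    have h3 : (k : ℤ) = (m + 1) • l := WithTop.coe_injective h2
    have h4 : (k : ℤ) = ((m : ℤ) + 1) * l := by
      rw [h3, nsmul_eq_mul]
      push_cast
      ring
    have hl0 : 0 ≤ l := by
      by_contra hneg
      have hneg' : l < 0 := not_le.mp hneg
      have : ((m : ℤ) + 1) * l < 0 := mul_neg_of_pos_of_neg (by positivity) hneg'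
      have hk0 : (0 : ℤ) ≤ k := Int.natCast_nonneg k
      omega
    obtain ⟨l', rfl⟩ := Int.eq_ofNat_of_zero_le hl0
    refine ⟨l', ?_⟩
    have : k = (m + 1) * l' := by exact_mod_cast h4
    rw [this]
  obtain ⟨c, hc, hcn⟩ := helper8319.exists_root_UHP (holA N (a * b ^ m)).2 hn hord
  have hcpow : (⟨c, hc⟩ : Hol) ^ (m + 1) = holA N (a * b ^ m) := Hol.ext fun τ => hcn τ
  have hcm : algebraMap Hol Mer ⟨c, hc⟩ ≠ 0 := by
    intro h0
    have h1 : W ^ (m + 1) = 0 := by rw [hWn, ← hcpow, map_pow, h0, zero_pow hn]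
    exact hW0 ((pow_eq_zero_iff hn).mp h1)
  have hq : (W / algebraMap Hol Mer ⟨c, hc⟩) ^ (m + 1) = 1 := by
    rw [div_pow, hWn, ← map_pow, hcpow]
    exact div_self (by rw [← hcpow, map_pow]; exact pow_ne_zero _ hcm)
  obtain ⟨ζ, hζn, hζ⟩ := exists_map_eq_of_pow_eq_one (algebraMap ℂ Mer) hn hq
  -- the holomorphic, invariant root `Hr = ζ * c` of `ev (a * b ^ m)`
  have hHr : MDifferentiable 𝓘(ℂ) 𝓘(ℂ) (fun τ : ℍ => ζ * c τ) := mdifferentiable_const.mul hc
  have hWHr : W = algebraMap Hol Mer ⟨fun τ : ℍ => ζ * c τ, hHr⟩ := by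
    have h1 : W = algebraMap ℂ Mer ζ * algebraMap Hol Mer ⟨c, hc⟩ := by
      rw [← hζ, div_mul_cancel₀ _ hcm]
    rw [h1, IsScalarTower.algebraMap_apply ℂ Hol Mer, ← map_mul]
    rfl
  have hpow : ∀ τ : ℍ, (fun τ : ℍ => ζ * c τ) τ ^ (m + 1)
      = helper1944.evFun N ((a : FN N) * (b : FN N) ^ (m + 1 - 1)) τ := by
    intro τ
    have h1 : ((a : FN N) * (b : FN N) ^ (m + 1 - 1))
        = ((a * b ^ m : helper3176.AN N) : FN N) := by
      rw [Nat.add_sub_cancel]
      rfl
    rw [h1, evFun_eq_ev]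
    show (ζ * c τ) ^ (m + 1) = helper6180.ev N (a * b ^ m) τ
    rw [mul_pow, hζn, one_mul, hcn τ]
    rfl
  have hHinv : ∀ γ ∈ Gamma0 N, ∀ τ : ℍ,
      (fun τ : ℍ => ζ * c τ) (γ • τ) = (fun τ : ℍ => ζ * c τ) τ := by
    intro γ hγ τ
    have h1 : pull γ W = W := by rw [hW, map_mul, hinv γ hγ, pull_evMer N γ hγ]
    rw [hWHr, pull_algebraMap] at h1
    have h2 := IsFractionRing.injective Hol Mer h1
    exact congrFun (congrArg Subtype.val h2) τ
  obtain ⟨v, hv⟩ := helper3126.exists_pow_eq_of_invariant_root_div N (Nat.succ_pos m) f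
    (a : FN N) (b : FN N) a.2 b.2 hb hab (fun τ : ℍ => ζ * c τ) hHr hpow hHinv
  have hv0 : v ≠ 0 := by
    rintro rfl
    rw [zero_pow hn] at hv
    exact hf hv
  have hvm : evMer N v ≠ 0 := (map_ne_zero (evMer N)).mpr hv0
  have hq2 : (w / evMer N v) ^ (m + 1) = 1 := by
    rw [div_pow, hw, hv, map_pow]
    exact div_self (pow_ne_zero _ hvm)
  obtain ⟨ζ0, -, hζ0⟩ := exists_map_eq_of_pow_eq_one
    ((evMer N).comp (algebraMap Kbar (FN N))) hn hq2
  refine ⟨algebraMap Kbar (FN N) ζ0 * v, ?_⟩
  rw [map_mul]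
  have h3 : w / evMer N v = evMer N (algebraMap Kbar (FN N) ζ0) := hζ0
  rw [← h3, div_mul_cancel₀ _ hvm]

/-- **Finitely many Kummer functions up to `n`-th powers**, for every level and every modulus. -/
theorem exists_finset_kummer_reps [NeZero N] {n : ℕ} (hn : n ≠ 0) :
    ∃ T : Finset (FN N), (∀ s ∈ T, helper8217.IsKummer Kbar n s) ∧
      ∀ u : FN N, helper8217.IsKummer Kbar n u →
        ∃ s ∈ T, ∃ t : FN N, t ≠ 0 ∧ u = s * t ^ n := by
  refine helper587.exists_finset_reps_of_roots (evMer N) (Γ := ↥(Gamma0 N))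
    (fun γ => ((pull (γ : SL(2, ℤ)) : Mer ≃ₐ[ℂ] Mer) : Mer →+* Mer)) ?_ ?_ n hn
    (helper8217.IsKummer Kbar n) (fun u hu => hu.1) (fun u hu => exists_mer_root N hn hu) ?_
  · intro w
    refine ⟨{ carrier := {γ | pull (γ : SL(2, ℤ)) w = w}
              mul_mem' := ?_
              one_mem' := ?_
              inv_mem' := ?_ }, fun γ => Iff.rfl⟩
    · intro x y hx hy
      have hx' : pull (x : SL(2, ℤ)) w = w := hx
      have hy' : pull (y : SL(2, ℤ)) w = w := hy
      show pull ((x * y : ↥(Gamma0 N)) : SL(2, ℤ)) w = w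
      rw [Subgroup.coe_mul, ← pull_pull, hx', hy']
    · show pull ((1 : ↥(Gamma0 N)) : SL(2, ℤ)) w = w
      rw [Subgroup.coe_one, pull_one]
    · intro x hx
      have hx' : pull (x : SL(2, ℤ)) w = w := hx
      show pull ((x⁻¹ : ↥(Gamma0 N)) : SL(2, ℤ)) w = w
      conv_lhs => rw [← hx']
      rw [pull_pull, Subgroup.coe_inv, mul_inv_cancel, pull_one]
  · intro γ f
    exact pull_evMer N γ γ.2 f
  · rintro w hw ⟨f, hf⟩
    exact exists_evMer_eq_of_invariant N hn w (fun γ hγ => hw ⟨γ, hγ⟩) f hf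

/-- **The `n`-torsion of `J₀(N)` is finite**, for every level `N ≠ 0` and every modulus
`n ≠ 0`. -/
theorem finite_torsion_JZero [NeZero N] {n : ℕ} (hn : n ≠ 0) :
    Set.Finite {x : JZero N | n • x = 0} := by
  have := Fermat.Agent.S37.helper1478.hasPrincipalDivisors_level N
  obtain ⟨T, -, hrep⟩ := exists_finset_kummer_reps N hn
  exact finite_torsion_of_finset_reps hn ⟨T, hrep⟩

/-- The fact `finTorsion` of `Fermat.Agent.S30.helper831.MachineFacts`, verbatim. -/
theorem finTorsion [NeZero N] {p : ℕ} (hp : p.Prime) :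
    Set.Finite {x : JZero N | p • x = 0} :=
  finite_torsion_JZero N hp.ne_zero

/-- The `n`-torsion of `J₀(N)` in the `ℤ`-smul form `(n : ℤ) • x = 0`. -/
theorem finite_torsion_JZero_int [NeZero N] {n : ℕ} (hn : n ≠ 0) :
    Set.Finite {x : JZero N | (n : ℤ) • x = 0} := by
  refine (finite_torsion_JZero N hn).subset fun x hx => ?_
  have hx' : (n : ℤ) • x = 0 := hx
  show n • x = 0
  rwa [natCast_zsmul] at hx'

/-- The Prelude torsion subgroup `Pic0.torsion` of `J₀(N)` is finite. -/
theorem finite_pic0_torsion [NeZero N] {n : ℕ} (hn : n ≠ 0) :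
    Finite (Pic0.torsion (AlgebraicClosure ℚ) (modularFunctionFieldBar N) n) := by
  have h := finite_torsion_JZero_int N hn
  have h2 : ((Pic0.torsion (AlgebraicClosure ℚ) (modularFunctionFieldBar N) n : AddSubgroup _)
      : Set (JZero N)) = {x : JZero N | (n : ℤ) • x = 0} := by
    ext x
    exact Pic0.mem_torsion
  exact Set.finite_coe_iff.mpr (h2 ▸ h)

/-- The `ℤ`-submodule `Submodule.torsionBy ℤ (JZero N) n` is finite. -/
theorem finite_torsionBy [NeZero N] {n : ℕ} (hn : n ≠ 0) :
    Finite (Submodule.torsionBy ℤ (JZero N) (n : ℤ)) := by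
  have h := finite_torsion_JZero_int N hn
  have h2 : ((Submodule.torsionBy ℤ (JZero N) (n : ℤ) : Submodule ℤ (JZero N))
      : Set (JZero N)) = {x : JZero N | (n : ℤ) • x = 0} := by
    ext x
    exact Submodule.mem_torsionBy_iff _ _
  exact Set.finite_coe_iff.mpr (h2 ▸ h)

end Modular

end Fermat.Agent.S29.helper288
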