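import Mathlib
import Fermat.Prelude.Def_ModularCurve_HeckeModule

/-!
# Kummer classes in the Prelude vocabulary (S29-KUM, backup copy by helper36)

For a function field `F / K` with `HasPrincipalDivisors K F`, a function `u` all of whose
orders are divisible by `n` defines the divisor `kummerDiv K n u : v ↦ v.ord u / n`
and its class `kummerPic K n u : Pic0 K F`, an `n`-torsion class.

Main results (all for the frozen Prelude objects, no extra hypotheses beyond those named):
* `kummerPic_eq_mk_of`      : any degree-zero `E` with `n • E = div u` represents `kummerPic K n u`;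
* `kummerPic_mul`, `kummerPic_pow`, `kummerPic_eq_zero_iff`  (K2);
* `exists_kummerPic_eq`     : every `n`-torsion class is a Kummer class (K3);
* `smul_kummerPic`          : `SemilinearAut` equivariance (K4);
* `correspondence_kummerPic`: `Pic0.correspondence φ ψ (kummerPic u) = kummerPic (N_ψ (φ u))` (K5).
-/

set_option autoImplicit false
set_option linter.style.haveILetI false

noncomputable section

namespace Fermat.Agent.S29.helper36

open AlgebraicCurve

section General

variable (K : Type*) {F : Type*} [Field K] [Field F] [Algebra K F]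

/-- the orders of a function have finite support (`ord 0 = 0` by convention). -/
theorem finite_support_ord [HasPrincipalDivisors K F] (u : F) :
    (Function.support fun v : Place K F => v.ord u).Finite := by
  rcases eq_or_ne u 0 with rfl | hu
  · have : (Function.support fun v : Place K F => v.ord (0 : F)) = ∅ := by
      ext v; simp
    rw [this]; exact Set.finite_empty
  · obtain ⟨D, hD, -⟩ := HasPrincipalDivisors.exists_divisor (K := K) u hu
    refine D.support.finite_toSet.subset ?_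
    intro v hv
    simp only [Finset.mem_coe, Finsupp.mem_support_iff, hD v]
    exact hv

variable [HasPrincipalDivisors K F]

/-- the divisor of a function (`0` for `u = 0`). -/
def ordDiv (u : F) : Divisor K F :=
  Finsupp.ofSupportFinite (fun v : Place K F => v.ord u) (finite_support_ord K u)

@[simp]
theorem ordDiv_apply (u : F) (v : Place K F) : ordDiv K u v = v.ord u := rfl

theorem ordDiv_zero : ordDiv K (0 : F) = 0 := by
  ext v; simp

theorem degree_ordDiv (u : F) : Divisor.degree (ordDiv K u) = 0 := by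
  rcases eq_or_ne u 0 with rfl | hu
  · rw [ordDiv_zero, map_zero]
  · obtain ⟨D, hD, hdeg⟩ := HasPrincipalDivisors.exists_divisor (K := K) u hu
    have : ordDiv K u = D := by
      ext v; rw [ordDiv_apply, hD v]
    rw [this, hdeg]

theorem ordDiv_isPrincipal {u : F} (hu : u ≠ 0) : (ordDiv K u).IsPrincipal :=
  ⟨u, hu, fun _ => rfl⟩

theorem ordDiv_mul {u u' : F} (hu : u ≠ 0) (hu' : u' ≠ 0) :
    ordDiv K (u * u') = ordDiv K u + ordDiv K u' := by
  ext v
  rw [Finsupp.add_apply, ordDiv_apply, ordDiv_apply, ordDiv_apply, v.ord_mul hu hu']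

/-- a divisor is the divisor of `u` iff it is pointwise `ord u`. -/
theorem eq_ordDiv_iff {D : Divisor K F} {u : F} : D = ordDiv K u ↔ ∀ v, D v = v.ord u :=
  ⟨fun h v => by rw [h, ordDiv_apply], fun h => Finsupp.ext fun v => by rw [h v, ordDiv_apply]⟩

/-- the `n`-th part of the divisor of `u` (floor division; only meaningful when `n ∣ ord_v u`
for all places). -/
def kummerDiv (n : ℕ) (u : F) : Divisor K F :=
  Finsupp.ofSupportFinite (fun v : Place K F => v.ord u / (n : ℤ))
    ((finite_support_ord K u).subset fun v hv => by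
      simp only [Function.mem_support, ne_eq] at hv ⊢
      intro h0
      exact hv (by rw [h0, Int.zero_ediv]))

@[simp]
theorem kummerDiv_apply (n : ℕ) (u : F) (v : Place K F) :
    kummerDiv K n u v = v.ord u / (n : ℤ) := rfl

variable {K}

theorem zsmul_kummerDiv {n : ℕ} {u : F} (h : ∀ v : Place K F, (n : ℤ) ∣ v.ord u) :
    (n : ℤ) • kummerDiv K n u = ordDiv K u := by
  ext v
  rw [Finsupp.smul_apply, kummerDiv_apply, ordDiv_apply, smul_eq_mul, Int.mul_ediv_cancel' (h v)]

theorem degree_kummerDiv {n : ℕ} (hn : n ≠ 0) {u : F}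
    (h : ∀ v : Place K F, (n : ℤ) ∣ v.ord u) : Divisor.degree (kummerDiv K n u) = 0 := by
  have h1 : (n : ℤ) • Divisor.degree (kummerDiv K n u) = 0 := by
    rw [← map_zsmul, zsmul_kummerDiv h, degree_ordDiv]
  rw [smul_eq_mul] at h1
  rcases mul_eq_zero.mp h1 with h2 | h2
  · exact absurd (by exact_mod_cast h2) hn
  · exact h2

/-- uniqueness: a divisor `E` with `n * E = div u` is the Kummer divisor (and the divisibility
hypothesis holds). -/
theorem eq_kummerDiv_of_mul_eq {n : ℕ} (hn : n ≠ 0) {u : F} {E : Divisor K F}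
    (hE : ∀ v : Place K F, (n : ℤ) * E v = v.ord u) :
    E = kummerDiv K n u ∧ ∀ v : Place K F, (n : ℤ) ∣ v.ord u := by
  have hn' : (n : ℤ) ≠ 0 := by exact_mod_cast hn
  refine ⟨Finsupp.ext fun v => ?_, fun v => ⟨E v, (hE v).symm⟩⟩
  rw [kummerDiv_apply, ← hE v, Int.mul_ediv_cancel_left _ hn']

variable (K)

/-- the Kummer class of `u` in `Pic0` (junk value `0` unless the degree of `kummerDiv` is `0`,
which holds as soon as `n ≠ 0` and `n ∣ ord_v u` for all `v`). -/
def kummerPic (n : ℕ) (u : F) : Pic0 K F :=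
  if h : Divisor.degree (kummerDiv K n u) = 0 then
    Pic0.mk ⟨kummerDiv K n u, Divisor.mem_degZero.mpr h⟩
  else 0

variable {K}

theorem kummerPic_eq {n : ℕ} (hn : n ≠ 0) {u : F} (h : ∀ v : Place K F, (n : ℤ) ∣ v.ord u) :
    kummerPic K n u =
      Pic0.mk ⟨kummerDiv K n u, Divisor.mem_degZero.mpr (degree_kummerDiv hn h)⟩ := by
  rw [kummerPic, dif_pos (degree_kummerDiv hn h)]

/-- WORKHORSE: any degree-zero divisor `E` with `n * E = div u` represents the Kummer class. -/
theorem kummerPic_eq_mk_of {n : ℕ} (hn : n ≠ 0) {u : F}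
    (E : Divisor.degZero (K := K) (F := F))
    (hE : ∀ v : Place K F, (n : ℤ) * (E : Divisor K F) v = v.ord u) :
    kummerPic K n u = Pic0.mk E := by
  obtain ⟨h1, h2⟩ := eq_kummerDiv_of_mul_eq hn hE
  rw [kummerPic_eq hn h2]
  exact congrArg Pic0.mk (Subtype.ext h1.symm)


/-! ### `Pic0.mk` bookkeeping -/

omit [HasPrincipalDivisors K F] in
theorem mk_eq_zero_iff (D : Divisor.degZero (K := K) (F := F)) :
    Pic0.mk D = 0 ↔ (D : Divisor K F).IsPrincipal := by
  rw [Pic0.mk, QuotientAddGroup.eq_zero_iff, AddSubgroup.mem_addSubgroupOf]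
  rfl

omit [HasPrincipalDivisors K F] in
theorem mk_zsmul (m : ℤ) (D : Divisor.degZero (K := K) (F := F)) :
    Pic0.mk (m • D) = m • Pic0.mk D := rfl

omit [HasPrincipalDivisors K F] in
theorem mk_neg (D : Divisor.degZero (K := K) (F := F)) :
    Pic0.mk (-D) = -Pic0.mk D := rfl

/-! ### torsion -/

theorem zsmul_kummerPic {n : ℕ} (hn : n ≠ 0) {u : F} (h : ∀ v : Place K F, (n : ℤ) ∣ v.ord u) :
    (n : ℤ) • kummerPic K n u = 0 := by
  rw [kummerPic_eq hn h, ← mk_zsmul, mk_eq_zero_iff]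
  show ((n : ℤ) • kummerDiv K n u).IsPrincipal
  rw [zsmul_kummerDiv h]
  rcases eq_or_ne u 0 with rfl | hu
  · rw [ordDiv_zero]
    exact (Divisor.principal (K := K) (F := F)).zero_mem
  · exact ordDiv_isPrincipal K hu

theorem kummerPic_mem_torsion {n : ℕ} (hn : n ≠ 0) {u : F}
    (h : ∀ v : Place K F, (n : ℤ) ∣ v.ord u) : kummerPic K n u ∈ Pic0.torsion K F n :=
  Pic0.mem_torsion.mpr (zsmul_kummerPic hn h)

/-- the Kummer class as an element of the torsion subgroup (the shape (K1) of the board row). -/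
def kummerClass (n : ℕ) (hn : n ≠ 0) (u : F) (h : ∀ v : Place K F, (n : ℤ) ∣ v.ord u) :
    Pic0.torsion K F n :=
  ⟨kummerPic K n u, kummerPic_mem_torsion hn h⟩

@[simp]
theorem coe_kummerClass (n : ℕ) (hn : n ≠ 0) (u : F) (h : ∀ v : Place K F, (n : ℤ) ∣ v.ord u) :
    (kummerClass n hn u h : Pic0 K F) = kummerPic K n u := rfl

/-! ### (K2) multiplicativity, `n`-th powers, divisor-free elements -/

omit [HasPrincipalDivisors K F] in
theorem dvd_ord_mul {n : ℕ} {u u' : F} (hu : u ≠ 0) (hu' : u' ≠ 0)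
    (h : ∀ v : Place K F, (n : ℤ) ∣ v.ord u) (h' : ∀ v : Place K F, (n : ℤ) ∣ v.ord u')
    (v : Place K F) : (n : ℤ) ∣ v.ord (u * u') := by
  rw [v.ord_mul hu hu']
  exact dvd_add (h v) (h' v)

omit [HasPrincipalDivisors K F] in
theorem dvd_ord_inv {n : ℕ} {u : F} (h : ∀ v : Place K F, (n : ℤ) ∣ v.ord u)
    (v : Place K F) : (n : ℤ) ∣ v.ord u⁻¹ := by
  rw [v.ord_inv]
  exact (dvd_neg).mpr (h v)

omit [HasPrincipalDivisors K F] in
theorem ord_pow (v : Place K F) (w : F) (n : ℕ) : v.ord (w ^ n) = (n : ℤ) * v.ord w := by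
  rw [← zpow_natCast, v.ord_zpow]

omit [HasPrincipalDivisors K F] in
theorem dvd_ord_pow (n : ℕ) (w : F) (v : Place K F) : (n : ℤ) ∣ v.ord (w ^ n) := by
  rw [ord_pow]
  exact dvd_mul_right _ _

theorem kummerPic_mul {n : ℕ} (hn : n ≠ 0) {u u' : F} (hu : u ≠ 0) (hu' : u' ≠ 0)
    (h : ∀ v : Place K F, (n : ℤ) ∣ v.ord u) (h' : ∀ v : Place K F, (n : ℤ) ∣ v.ord u') :
    kummerPic K n (u * u') = kummerPic K n u + kummerPic K n u' := by
  rw [kummerPic_eq hn h, kummerPic_eq hn h', ← Pic0.mk_add]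
  refine kummerPic_eq_mk_of hn _ fun v => ?_
  show (n : ℤ) * (kummerDiv K n u v + kummerDiv K n u' v) = v.ord (u * u')
  rw [kummerDiv_apply, kummerDiv_apply, mul_add, Int.mul_ediv_cancel' (h v),
    Int.mul_ediv_cancel' (h' v), v.ord_mul hu hu']

/-- `n`-th powers have trivial Kummer class. -/
theorem kummerPic_pow {n : ℕ} (hn : n ≠ 0) (w : F) : kummerPic K n (w ^ n) = 0 := by
  rw [kummerPic_eq_mk_of hn ⟨ordDiv K w, Divisor.mem_degZero.mpr (degree_ordDiv K w)⟩
    (fun v => by rw [ord_pow]; rfl), mk_eq_zero_iff]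
  show (ordDiv K w).IsPrincipal
  rcases eq_or_ne w 0 with rfl | hw
  · rw [ordDiv_zero]
    exact (Divisor.principal (K := K) (F := F)).zero_mem
  · exact ordDiv_isPrincipal K hw

/-- divisor-free elements (e.g. nonzero constants) have trivial Kummer class. -/
theorem kummerPic_of_ord_eq_zero {n : ℕ} (hn : n ≠ 0) {c : F}
    (hc : ∀ v : Place K F, v.ord c = 0) : kummerPic K n c = 0 := by
  rw [kummerPic_eq_mk_of hn (0 : Divisor.degZero (K := K) (F := F))
    (fun v => by rw [hc v]; simp)]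
  rfl

theorem kummerPic_one {n : ℕ} (hn : n ≠ 0) : kummerPic K n (1 : F) = 0 :=
  kummerPic_of_ord_eq_zero hn fun v => v.ord_one

theorem kummerPic_algebraMap {n : ℕ} (hn : n ≠ 0) (a : K)
    (hconst : ∀ (a : K) (v : Place K F), v.ord (algebraMap K F a) = 0) :
    kummerPic K n (algebraMap K F a) = 0 :=
  kummerPic_of_ord_eq_zero hn (hconst a)

theorem kummerPic_inv {n : ℕ} (hn : n ≠ 0) {u : F}
    (h : ∀ v : Place K F, (n : ℤ) ∣ v.ord u) :
    kummerPic K n u⁻¹ = -kummerPic K n u := by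
  rw [kummerPic_eq hn h, ← mk_neg]
  refine kummerPic_eq_mk_of hn _ fun v => ?_
  show (n : ℤ) * (-(kummerDiv K n u v)) = v.ord u⁻¹
  rw [kummerDiv_apply, mul_neg, Int.mul_ediv_cancel' (h v), v.ord_inv]

/-- (K2), converse: the Kummer class vanishes iff `u = c * w ^ n` with `c` divisor-free. -/
theorem kummerPic_eq_zero_iff {n : ℕ} (hn : n ≠ 0) {u : F} (hu : u ≠ 0)
    (h : ∀ v : Place K F, (n : ℤ) ∣ v.ord u) :
    kummerPic K n u = 0 ↔
      ∃ w c : F, w ≠ 0 ∧ c ≠ 0 ∧ (∀ v : Place K F, v.ord c = 0) ∧ u = c * w ^ n := by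
  constructor
  · intro h0
    rw [kummerPic_eq hn h, mk_eq_zero_iff] at h0
    obtain ⟨w, hw, hE⟩ := h0
    have hwn : w ^ n ≠ 0 := pow_ne_zero n hw
    refine ⟨w, u / w ^ n, hw, div_ne_zero hu hwn, fun v => ?_, by field_simp⟩
    have h1 : v.ord u / (n : ℤ) = v.ord w := hE v
    rw [div_eq_mul_inv, v.ord_mul hu (inv_ne_zero hwn), v.ord_inv, ord_pow, ← h1,
      Int.mul_ediv_cancel' (h v)]
    ring
  · rintro ⟨w, c, hw, hc0, hc, rfl⟩
    rw [kummerPic_mul hn hc0 (pow_ne_zero n hw) (fun v => by rw [hc v]; exact dvd_zero _)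
      (dvd_ord_pow n w), kummerPic_of_ord_eq_zero hn hc, kummerPic_pow hn, add_zero]

/-- two Kummer classes agree iff the functions differ by `c * w ^ n`, `c` divisor-free. -/
theorem kummerPic_eq_iff {n : ℕ} (hn : n ≠ 0) {u u' : F} (hu : u ≠ 0) (hu' : u' ≠ 0)
    (h : ∀ v : Place K F, (n : ℤ) ∣ v.ord u) (h' : ∀ v : Place K F, (n : ℤ) ∣ v.ord u') :
    kummerPic K n u = kummerPic K n u' ↔
      ∃ w c : F, w ≠ 0 ∧ c ≠ 0 ∧ (∀ v : Place K F, v.ord c = 0) ∧ u = c * w ^ n * u' := by
  have key : kummerPic K n (u * u'⁻¹) = kummerPic K n u - kummerPic K n u' := by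
    rw [kummerPic_mul hn hu (inv_ne_zero hu') h (dvd_ord_inv h'), kummerPic_inv hn h',
      sub_eq_add_neg]
  rw [← sub_eq_zero, ← key, kummerPic_eq_zero_iff hn (mul_ne_zero hu (inv_ne_zero hu'))
    (dvd_ord_mul hu (inv_ne_zero hu') h (dvd_ord_inv h'))]
  constructor
  · rintro ⟨w, c, hw, hc0, hc, he⟩
    refine ⟨w, c, hw, hc0, hc, ?_⟩
    rw [← he, mul_assoc, inv_mul_cancel₀ hu', mul_one]
  · rintro ⟨w, c, hw, hc0, hc, he⟩
    refine ⟨w, c, hw, hc0, hc, ?_⟩
    rw [he, mul_assoc, mul_inv_cancel₀ hu', mul_one]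

/-! ### (K3) every `n`-torsion class is a Kummer class -/

theorem exists_kummerPic_eq {n : ℕ} (hn : n ≠ 0) {x : Pic0 K F} (hx : (n : ℤ) • x = 0) :
    ∃ u : F, u ≠ 0 ∧ (∀ v : Place K F, (n : ℤ) ∣ v.ord u) ∧ kummerPic K n u = x := by
  obtain ⟨D, rfl⟩ := Pic0.mk_surjective x
  rw [← mk_zsmul, mk_eq_zero_iff] at hx
  obtain ⟨u, hu, hD⟩ := hx
  have hE : ∀ v : Place K F, (n : ℤ) * (D : Divisor K F) v = v.ord u := fun v => (hD v)
  exact ⟨u, hu, (eq_kummerDiv_of_mul_eq hn hE).2, kummerPic_eq_mk_of hn D hE⟩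

theorem exists_kummerClass_eq {n : ℕ} (hn : n ≠ 0) (x : Pic0.torsion K F n) :
    ∃ (u : F) (_ : u ≠ 0) (h : ∀ v : Place K F, (n : ℤ) ∣ v.ord u), kummerClass n hn u h = x := by
  obtain ⟨u, hu, h, he⟩ := exists_kummerPic_eq hn (Pic0.mem_torsion.mp x.2)
  exact ⟨u, hu, h, Subtype.ext he⟩

/-! ### (K4) semilinear (Galois) equivariance -/

omit [HasPrincipalDivisors K F] in
theorem ord_semilinear_smul (g : SemilinearAut K F) (u : F) (w : Place K F) :
    w.ord (g • u) = (g⁻¹ • w).ord u := by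
  have h := SemilinearAut.ord_smul g (g⁻¹ • w) u
  rwa [smul_inv_smul] at h

omit [HasPrincipalDivisors K F] in
theorem dvd_ord_semilinear_smul (g : SemilinearAut K F) {n : ℕ} {u : F}
    (h : ∀ v : Place K F, (n : ℤ) ∣ v.ord u) (w : Place K F) : (n : ℤ) ∣ w.ord (g • u) := by
  rw [ord_semilinear_smul]
  exact h _

theorem smul_kummerPic (g : SemilinearAut K F) {n : ℕ} (hn : n ≠ 0) {u : F}
    (h : ∀ v : Place K F, (n : ℤ) ∣ v.ord u) :
    g • kummerPic K n u = kummerPic K n (g • u) := by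
  rw [kummerPic_eq hn h, SemilinearAut.pic0_smul_mk]
  refine (kummerPic_eq_mk_of hn _ fun w => ?_).symm
  rw [SemilinearAut.coe_degZeroSMulHom, SemilinearAut.divisor_smul_apply, ord_semilinear_smul]
  show (n : ℤ) * kummerDiv K n u (g⁻¹ • w) = _
  rw [kummerDiv_apply, Int.mul_ediv_cancel' (h _)]

theorem smul_kummerClass (g : SemilinearAut K F) {n : ℕ} (hn : n ≠ 0) {u : F}
    (h : ∀ v : Place K F, (n : ℤ) ∣ v.ord u) :
    g • kummerClass n hn u h = kummerClass n hn (g • u) (dvd_ord_semilinear_smul g h) :=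
  Subtype.ext (smul_kummerPic g hn h)

/-- the `K`-linear automorphism version. -/
theorem algEquiv_smul_kummerPic (σ : F ≃ₐ[K] F) {n : ℕ} (hn : n ≠ 0) {u : F}
    (h : ∀ v : Place K F, (n : ℤ) ∣ v.ord u) :
    σ • kummerPic K n u = kummerPic K n (σ u) := by
  have hord : ∀ w : Place K F, w.ord (σ u) = (σ⁻¹ • w).ord u := fun w => by
    have h1 := Place.ord_smul σ (σ⁻¹ • w) u
    rwa [smul_inv_smul] at h1
  rw [kummerPic_eq hn h, Pic0.smul_mk]
  refine (kummerPic_eq_mk_of hn _ fun w => ?_).symm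
  rw [Pic0.coe_degZeroSMulHom, Divisor.smul_apply, hord]
  show (n : ℤ) * kummerDiv K n u (σ⁻¹ • w) = _
  rw [kummerDiv_apply, Int.mul_ediv_cancel' (h _)]

end General

/-! ### (K5) the correspondence formula -/

section Correspondence

variable {K F F' : Type*} [Field K] [Field F] [Field F'] [Algebra K F] [Algebra K F']

/-- the norm of `F'` over `F` along `ψ` (i.e. for the algebra structure `algebraAlong ψ`). -/
def normAlong (ψ : F →ₐ[K] F') : F' →* F :=
  letI := algebraAlong ψ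
  Algebra.norm F

theorem normAlong_def (ψ : F →ₐ[K] F') (f : F') :
    normAlong ψ f = (letI := algebraAlong ψ; Algebra.norm F f) := rfl

theorem normAlong_zero (ψ : F →ₐ[K] F') (hfin : FiniteAlong K ψ) : normAlong ψ 0 = 0 := by
  letI := algebraAlong ψ
  haveI : Module.Finite F F' := hfin
  exact Algebra.norm_zero

theorem normAlong_ne_zero (ψ : F →ₐ[K] F') (hfin : FiniteAlong K ψ) {f : F'} (hf : f ≠ 0) :
    normAlong ψ f ≠ 0 := by
  letI := algebraAlong ψ
  haveI : Module.Finite F F' := hfin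
  exact Algebra.norm_ne_zero_iff.mpr hf

variable [HasPrincipalDivisors K F] [HasPrincipalDivisors K F']

theorem pullbackAlong_ordDiv (φ : F →ₐ[K] F') (hφ : φ.toRingHom.IsIntegral) (u : F) :
    Divisor.pullbackAlong φ hφ (ordDiv K u) = ordDiv K (φ u) := by
  letI := algebraAlong φ
  haveI := isScalarTower_along φ
  haveI := isIntegral_along φ hφ
  ext w
  exact Divisor.pullback_apply_eq_ord (D := ordDiv K u) (f := u) (fun v => rfl) w

theorem pushforwardAlong_ordDiv (ψ : F →ₐ[K] F') (hψ : ψ.toRingHom.IsIntegral)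
    (hfin : FiniteAlong K ψ) (hN : NormFormulaAlong K ψ hfin) {f : F'} (hf : f ≠ 0) :
    Divisor.pushforwardAlong ψ hψ (ordDiv K f) = ordDiv K (normAlong ψ f) := by
  letI := algebraAlong ψ
  haveI := isScalarTower_along ψ
  haveI := isIntegral_along ψ hψ
  haveI : Module.Finite F F' := hfin
  ext v
  exact hN f hf (ordDiv K f) (fun w => rfl) v

/-- the divisor of `N_ψ (φ u)` is the correspondence applied to the divisor of `u`. -/
theorem correspondence_ordDiv (φ ψ : F →ₐ[K] F') (hφ : φ.toRingHom.IsIntegral)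
    (hψ : ψ.toRingHom.IsIntegral) (hfin : FiniteAlong K ψ) (hN : NormFormulaAlong K ψ hfin)
    {u : F} (hu : u ≠ 0) :
    Divisor.correspondence φ ψ hφ hψ (ordDiv K u) = ordDiv K (normAlong ψ (φ u)) := by
  rw [Divisor.correspondence_apply, pullbackAlong_ordDiv,
    pushforwardAlong_ordDiv ψ hψ hfin hN ((map_ne_zero φ).mpr hu)]

theorem correspondence_kummerDiv (φ ψ : F →ₐ[K] F') (hφ : φ.toRingHom.IsIntegral)
    (hψ : ψ.toRingHom.IsIntegral) (hfin : FiniteAlong K ψ) (hN : NormFormulaAlong K ψ hfin)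
    {n : ℕ} {u : F} (hu : u ≠ 0) (h : ∀ v : Place K F, (n : ℤ) ∣ v.ord u) (v : Place K F) :
    (n : ℤ) * Divisor.correspondence φ ψ hφ hψ (kummerDiv K n u) v
      = v.ord (normAlong ψ (φ u)) := by
  have h1 : (n : ℤ) • Divisor.correspondence φ ψ hφ hψ (kummerDiv K n u)
      = ordDiv K (normAlong ψ (φ u)) := by
    rw [← map_zsmul, zsmul_kummerDiv h, correspondence_ordDiv φ ψ hφ hψ hfin hN hu]
  have h2 := DFunLike.congr_fun h1 v
  rwa [Finsupp.smul_apply, smul_eq_mul, ordDiv_apply] at h2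

/-- the orders of `N_ψ (φ u)` are again divisible by `n`. -/
theorem dvd_ord_normAlong (φ ψ : F →ₐ[K] F') (hφ : φ.toRingHom.IsIntegral)
    (hψ : ψ.toRingHom.IsIntegral) (hfin : FiniteAlong K ψ) (hN : NormFormulaAlong K ψ hfin)
    {n : ℕ} {u : F} (h : ∀ v : Place K F, (n : ℤ) ∣ v.ord u) (v : Place K F) :
    (n : ℤ) ∣ v.ord (normAlong ψ (φ u)) := by
  rcases eq_or_ne u 0 with rfl | hu
  · rw [map_zero, normAlong_zero ψ hfin, v.ord_zero]
    exact dvd_zero _
  · exact ⟨_, (correspondence_kummerDiv φ ψ hφ hψ hfin hN hu h v).symm⟩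

/-- (K5) CORRESPONDENCE FORMULA: the Prelude correspondence `ψ_* ∘ φ^*` on `Pic0` sends the
Kummer class of `u` to the Kummer class of `N_ψ (φ u)`. -/
theorem correspondence_kummerPic (φ ψ : F →ₐ[K] F') (hφ : φ.toRingHom.IsIntegral)
    (hψ : ψ.toRingHom.IsIntegral) (hFI : FundamentalIdentityAlong K φ hφ)
    (hfin : FiniteAlong K ψ) (hN : NormFormulaAlong K ψ hfin)
    {n : ℕ} (hn : n ≠ 0) {u : F} (h : ∀ v : Place K F, (n : ℤ) ∣ v.ord u) :
    Pic0.correspondence φ ψ hφ hψ hFI hfin hN (kummerPic K n u)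
      = kummerPic K n (normAlong ψ (φ u)) := by
  rcases eq_or_ne u 0 with rfl | hu
  · rw [map_zero, normAlong_zero ψ hfin,
      kummerPic_of_ord_eq_zero hn (fun v : Place K F => v.ord_zero), map_zero]
  · rw [kummerPic_eq hn h, Pic0.correspondence_mk]
    exact (kummerPic_eq_mk_of hn _
      (fun v => correspondence_kummerDiv φ ψ hφ hψ hfin hN hu h v)).symm

end Correspondence

/-! ### (K6) the modular instance: Prelude Hecke operators and arithmetic Galois action -/

section Modular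

open ModularCurve

variable {L : Type*} [Field L] [Algebra ℚ L]

section Hecke

variable (N ℓ : ℕ) [NeZero N] [NeZero ℓ]

/-- the multiplicative Hecke operator on functions: `u ↦ N_{F_{Nℓ}/α F_N} (u (q ^ ℓ))`. -/
def heckeNorm :
    laurentBaseChange L (modularFunctionFieldFull N) →*
      laurentBaseChange L (modularFunctionFieldFull N) :=
  (normAlong (heckeAlphaBar L N ℓ)).comp
    ((heckeBetaBar L N ℓ : laurentBaseChange L (modularFunctionFieldFull N) →*
      laurentBaseChange L (modularFunctionFieldFull (N * ℓ))))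

theorem heckeNorm_apply (u : laurentBaseChange L (modularFunctionFieldFull N)) :
    heckeNorm N ℓ u = normAlong (heckeAlphaBar L N ℓ) (heckeBetaBar L N ℓ u) := rfl

variable [HasPrincipalDivisors L (laurentBaseChange L (modularFunctionFieldFull N))]

theorem dvd_ord_heckeNorm (hin : HeckeInputsAlong L N ℓ) {n : ℕ}
    {u : laurentBaseChange L (modularFunctionFieldFull N)}
    (h : ∀ v : Place L (laurentBaseChange L (modularFunctionFieldFull N)), (n : ℤ) ∣ v.ord u)
    (v : Place L (laurentBaseChange L (modularFunctionFieldFull N))) :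
    (n : ℤ) ∣ v.ord (heckeNorm N ℓ u) := by
  obtain ⟨hα, hβ, hP, hfin, hFI, hN⟩ := hin
  haveI := hP
  exact dvd_ord_normAlong (heckeBetaBar L N ℓ) (heckeAlphaBar L N ℓ) hβ hα hfin hN h v

/-- (K6) the Prelude Hecke operator on Kummer classes, over any coefficient field `L`. -/
theorem heckeOperatorAlong_kummerPic (hin : HeckeInputsAlong L N ℓ) {n : ℕ} (hn : n ≠ 0)
    {u : laurentBaseChange L (modularFunctionFieldFull N)}
    (h : ∀ v : Place L (laurentBaseChange L (modularFunctionFieldFull N)), (n : ℤ) ∣ v.ord u) :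
    heckeOperatorAlong L N ℓ (kummerPic L n u) = kummerPic L n (heckeNorm N ℓ u) := by
  obtain ⟨hα, hβ, hP, hfin, hFI, hN⟩ := hin
  haveI := hP
  rw [heckeOperatorAlong_eq hα hβ hFI hfin hN]
  exact correspondence_kummerPic (heckeBetaBar L N ℓ) (heckeAlphaBar L N ℓ) hβ hα hFI hfin hN
    hn h

end Hecke

section HeckeBar

variable (N : ℕ) [NeZero N]
  [HasPrincipalDivisors (AlgebraicClosure ℚ) (modularFunctionFieldBar N)]

/-- (K6) for the frozen `heckeOperatorBar` on `JZero N`. -/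
theorem heckeOperatorBar_kummerPic (ℓ : Nat.Primes)
    (hin : haveI : NeZero (ℓ : ℕ) := ⟨ℓ.2.ne_zero⟩; HeckeInputsAlong (AlgebraicClosure ℚ) N ℓ)
    {n : ℕ} (hn : n ≠ 0) {u : modularFunctionFieldBar N}
    (h : ∀ v : Place (AlgebraicClosure ℚ) (modularFunctionFieldBar N), (n : ℤ) ∣ v.ord u) :
    heckeOperatorBar N ℓ (kummerPic (AlgebraicClosure ℚ) n u)
      = kummerPic (AlgebraicClosure ℚ) n
          (haveI : NeZero (ℓ : ℕ) := ⟨ℓ.2.ne_zero⟩; heckeNorm N ℓ u) := by
  haveI : NeZero (ℓ : ℕ) := ⟨ℓ.2.ne_zero⟩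
  rw [heckeOperatorBar_apply]
  exact heckeOperatorAlong_kummerPic N ℓ hin hn h

theorem dvd_ord_heckeNormBar (ℓ : Nat.Primes)
    (hin : haveI : NeZero (ℓ : ℕ) := ⟨ℓ.2.ne_zero⟩; HeckeInputsAlong (AlgebraicClosure ℚ) N ℓ)
    {n : ℕ} {u : modularFunctionFieldBar N}
    (h : ∀ v : Place (AlgebraicClosure ℚ) (modularFunctionFieldBar N), (n : ℤ) ∣ v.ord u)
    (v : Place (AlgebraicClosure ℚ) (modularFunctionFieldBar N)) :
    (n : ℤ) ∣ v.ord (haveI : NeZero (ℓ : ℕ) := ⟨ℓ.2.ne_zero⟩; heckeNorm N ℓ u) := by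
  haveI : NeZero (ℓ : ℕ) := ⟨ℓ.2.ne_zero⟩
  exact dvd_ord_heckeNorm N ℓ hin h v

end HeckeBar

section Galois

variable (F₀ : IntermediateField ℚ (LaurentSeries ℚ))
  [HasPrincipalDivisors L (laurentBaseChange L F₀)]

/-- (K4) for the arithmetic Galois action (coefficientwise on Laurent series). -/
theorem galois_smul_kummerPic (σ : L ≃ₐ[ℚ] L) {n : ℕ} (hn : n ≠ 0)
    {u : laurentBaseChange L F₀}
    (h : ∀ v : Place L (laurentBaseChange L F₀), (n : ℤ) ∣ v.ord u) :
    σ • kummerPic L n u = kummerPic L n (arithmeticGalois F₀ σ • u) := by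
  rw [galois_smul_pic0_def]
  exact smul_kummerPic _ hn h

omit [HasPrincipalDivisors L (laurentBaseChange L F₀)] in
theorem dvd_ord_galois_smul (σ : L ≃ₐ[ℚ] L) {n : ℕ} {u : laurentBaseChange L F₀}
    (h : ∀ v : Place L (laurentBaseChange L F₀), (n : ℤ) ∣ v.ord u)
    (v : Place L (laurentBaseChange L F₀)) : (n : ℤ) ∣ v.ord (arithmeticGalois F₀ σ • u) :=
  dvd_ord_semilinear_smul _ h v

end Galois

end Modular

end Fermat.Agent.S29.helper36
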