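import Mathlib
import Fermat.Prelude.Def_ModularCurve_X0ModL
import Fermat.Prelude.Def_AlgebraicCurve_DivisorClassGroup
import Fermat.Agent.S28.helper1457_TowerNoPhi
import Fermat.Agent.S28.helper559_TowerFromPrime
import Fermat.Agent.S28.helper508_FormalPrime
import Fermat.Agent.S28.helper3292_JqFacts
import Fermat.Agent.S24.helper204_Places
import Fermat.Agent.S24.helper1370_PlaceBasics
import Fermat.Agent.S29.helper36_KummerCorr

/-!
# S29-FFC (helper36): the function-field package of `X₀(N)` over ANY algebraically closed
field `L` of characteristic zero (in particular `L = ℂ`)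

`FL := laurentBaseChange L (modularFunctionFieldFull N)`, `jL : FL` the `j`-function.

* `laurentBaseChange_full_eq_fullC` : `FL = modularFunctionFieldFullC L N`;
* `transcendental_jL`;
* `finiteDimensional_jL`, `finrank_jL : finrank L⟮jL⟯ FL = dedekindPsi N`;
* `hasPrincipalDivisors_L : HasPrincipalDivisors L FL`;
* `place_deg_eq_one_L`;
* `exists_algebraMap_eq_of_ord_eq_zero` (constants lemma), `exists_ord_pos_of_not_const`.

On main these facts existed for `L = ℚ̄` only (through the analytic embeddings of S24); here they
come from the S28 degree theorem, which holds over every field.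
-/

set_option autoImplicit false
set_option linter.style.haveILetI false

noncomputable section

namespace Fermat.Agent.S29.helper36

open ModularCurve AlgebraicCurve IntermediateField HahnSeries

section Glue

variable {L E : Type*} [Field L] [Field E] [Algebra L E]

/-- the simple extension generated inside an intermediate field `B` is the comap of the simple
extension generated in the ambient field. -/
theorem comap_val_adjoin_simple (B : IntermediateField L E) (x : B) :
    (L⟮(x : E)⟯).comap B.val = L⟮x⟯ := by
  ext y
  show (y : E) ∈ L⟮(x : E)⟯ ↔ y ∈ L⟮x⟯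
  rw [← IntermediateField.lift_adjoin_simple]
  exact IntermediateField.mem_lift y

/-- rank of `B` over the simple extension generated by `x : B`, as a relative rank in the
ambient field. -/
theorem rank_adjoin_simple_eq_relrank (B : IntermediateField L E) (x : B) :
    Module.rank L⟮x⟯ B = (L⟮(x : E)⟯).relrank B := by
  rw [← comap_val_adjoin_simple B x, IntermediateField.rank_comap, IntermediateField.fieldRange_val]

end Glue

section Field

variable (L : Type) [Field L] [Algebra ℚ L] (N : ℕ)

theorem coeffEmb_qExpand_jq (d : ℕ) [NeZero d] :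
    coeffEmb L (qExpand ℚ d jq) = qExpand L d (jqModC L) :=
  coeffMap_jqNModC (algebraMap ℚ L) d

/-- (F6) the base change of the rational modular function field is the field generated over
`L` by the `j(q^d)`, `d ∣ N`. -/
theorem laurentBaseChange_full_eq_fullC :
    laurentBaseChange L (modularFunctionFieldFull N) = modularFunctionFieldFullC L N := by
  apply le_antisymm
  · rw [laurentBaseChange, IntermediateField.adjoin_le_iff]
    rintro _ ⟨x, hx, rfl⟩
    change x ∈ IntermediateField.adjoin ℚ (divisorExpansions N) at hx
    induction hx using IntermediateField.adjoin_induction with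
    | mem x hx =>
      obtain ⟨d, hd, hdN, rfl⟩ := hx
      have := hd
      rw [coeffEmb_qExpand_jq]
      exact jqModCd_mem_full L N hdN
    | algebraMap r =>
      have h : coeffEmb L (algebraMap ℚ (LaurentSeries ℚ) r)
          = algebraMap L (LaurentSeries L) (algebraMap ℚ L r) := by
        rw [algebraMap_laurentSeries_eq_single, algebraMap_laurentSeries_eq_single, coeffEmb,
          coeffMap_single]
      rw [SetLike.mem_coe, h]
      exact IntermediateField.algebraMap_mem _ _
    | add x y _ _ hx hy =>
      rw [SetLike.mem_coe, map_add]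
      exact add_mem hx hy
    | inv x _ hx =>
      rw [SetLike.mem_coe, map_inv₀]
      exact inv_mem hx
    | mul x y _ _ hx hy =>
      rw [SetLike.mem_coe, map_mul]
      exact mul_mem hx hy
  · rw [modularFunctionFieldFullC, IntermediateField.adjoin_le_iff]
    rintro _ ⟨d, hd, hdN, rfl⟩
    have := hd
    rw [SetLike.mem_coe, ← coeffEmb_qExpand_jq]
    exact coeffEmb_mem_laurentBaseChange L (jqd_mem_full N hdN)

theorem jqModC_mem_laurentBaseChange :
    jqModC L ∈ laurentBaseChange L (modularFunctionFieldFull N) := by
  rw [laurentBaseChange_full_eq_fullC]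
  exact jqModC_mem_full L N

/-- the `j`-function as an element of `FL`. -/
def jL : laurentBaseChange L (modularFunctionFieldFull N) :=
  ⟨jqModC L, jqModC_mem_laurentBaseChange L N⟩

@[simp]
theorem coe_jL : ((jL L N : laurentBaseChange L (modularFunctionFieldFull N)) : LaurentSeries L)
    = jqModC L := rfl

/-- (F1) `j` is transcendental over `L`. -/
theorem transcendental_jL : Transcendental L (jL L N) := by
  have h0 : Transcendental L (jqModC L) :=
    (transcendental_iff_injective).mpr (Fermat.Agent.S28.helper3292.aeval_jqModC_injective L)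
  have h1 : Transcendental L
      (algebraMap (laurentBaseChange L (modularFunctionFieldFull N)) (LaurentSeries L) (jL L N)) :=
    h0
  exact (transcendental_algebraMap_iff
    (algebraMap (laurentBaseChange L (modularFunctionFieldFull N)) (LaurentSeries L)).injective).mp h1

variable [NeZero N] [CharZero L]

/-- the S28 degree theorem, over `L`. -/
theorem relrank_laurentBaseChange :
    (L⟮jqModC L⟯).relrank (laurentBaseChange L (modularFunctionFieldFull N))
      = (dedekindPsi N : Cardinal) := by
  rw [laurentBaseChange_full_eq_fullC]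
  exact Fermat.Agent.S28.helper1457.relrank_full_eq_dedekindPsi_of_hub L N (NeZero.pos N)
    (Fermat.Agent.S28.helper559.hub_of_formalPrime L N (NeZero.pos N)
      (fun p _ _ => Fermat.Agent.S28.helper508.stmt_FormalPrime p))
    (fun p hp _ => by exact_mod_cast hp.ne_zero)

theorem rank_jL :
    Module.rank L⟮jL L N⟯ (laurentBaseChange L (modularFunctionFieldFull N))
      = (dedekindPsi N : Cardinal) := by
  rw [rank_adjoin_simple_eq_relrank]
  exact relrank_laurentBaseChange L N

/-- (F2) `FL` is finite over `L(j)`. -/
theorem finiteDimensional_jL :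
    FiniteDimensional L⟮jL L N⟯ (laurentBaseChange L (modularFunctionFieldFull N)) :=
  haveI : Module.Free L⟮jL L N⟯ (laurentBaseChange L (modularFunctionFieldFull N)) :=
    Module.Free.of_divisionRing _ _
  Module.finite_of_rank_eq_nat (rank_jL L N)

/-- (F2) `[FL : L(j)] = ψ(N)`. -/
theorem finrank_jL :
    Module.finrank L⟮jL L N⟯ (laurentBaseChange L (modularFunctionFieldFull N))
      = dedekindPsi N :=
  Module.finrank_eq_of_rank_eq (rank_jL L N)

variable [IsAlgClosed L]

/-- (F3) principal divisors exist (have finite support and degree zero) on `FL`, for every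
algebraically closed `L` of characteristic zero. -/
theorem hasPrincipalDivisors_L :
    HasPrincipalDivisors L (laurentBaseChange L (modularFunctionFieldFull N)) :=
  haveI := finiteDimensional_jL L N
  Fermat.Agent.S24.helper204.hasPrincipalDivisors (jL L N) (transcendental_jL L N)

/-- (F4) every place of `FL` has degree one. -/
theorem place_deg_eq_one_L (v : Place L (laurentBaseChange L (modularFunctionFieldFull N))) :
    v.deg = 1 :=
  haveI := finiteDimensional_jL L N
  Fermat.Agent.S24.helper204.place_deg_eq_one (jL L N) (transcendental_jL L N) v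

/-- every place is a pole of `j` or a zero of `j - c` for a unique `c`. -/
theorem place_center_L (v : Place L (laurentBaseChange L (modularFunctionFieldFull N))) :
    v.ord (jL L N) < 0 ∨ ∃! c : L, 0 < v.ord (jL L N - algebraMap L _ c) :=
  haveI := finiteDimensional_jL L N
  Fermat.Agent.S24.helper204.place_center (jL L N) (transcendental_jL L N) v

end Field

/-! ### Constants (generic) -/

section Const

variable {K F : Type*} [Field K] [Field F] [Algebra K F] [IsAlgClosed K] [CharZero K]

/-- a non-constant function has a zero. -/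
theorem exists_ord_pos_of_not_mem_range (x : F) [FiniteDimensional K⟮x⟯ F] {f : F}
    (hf : f ∉ Set.range (algebraMap K F)) : ∃ v : Place K F, 0 < v.ord f := by
  have hft : Transcendental K f := Fermat.Agent.S24.helper204.transcendental_of_not_mem_range hf
  haveI : FiniteDimensional K⟮f⟯ F :=
    Fermat.Agent.S24.helper204.finiteDimensional_adjoin_of_transcendental (x := x) hft
  obtain ⟨s, hs, hsum⟩ := Fermat.Agent.S24.helper204.exists_finset_zeros (x := f) hft 0
  have hpos : 0 < Module.finrank K⟮f⟯ F := Module.finrank_pos
  have hne : s.Nonempty := by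
    rw [Finset.nonempty_iff_ne_empty]
    rintro rfl
    rw [Finset.sum_empty] at hsum
    omega
  obtain ⟨v, hv⟩ := hne
  refine ⟨v, ?_⟩
  have h := (hs v).mp hv
  rwa [map_zero, sub_zero] at h

/-- a non-constant function has a pole. -/
theorem exists_ord_neg_of_not_mem_range (x : F) [FiniteDimensional K⟮x⟯ F] {f : F}
    (hf : f ∉ Set.range (algebraMap K F)) : ∃ v : Place K F, v.ord f < 0 := by
  have hf' : f⁻¹ ∉ Set.range (algebraMap K F) := by
    rintro ⟨c, hc⟩
    exact hf ⟨c⁻¹, by rw [map_inv₀, hc, inv_inv]⟩
  obtain ⟨v, hv⟩ := exists_ord_pos_of_not_mem_range x hf'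
  refine ⟨v, ?_⟩
  rw [v.ord_inv] at hv
  omega

/-- CONSTANTS: a function without zeros is a constant. -/
theorem exists_algebraMap_eq_of_ord_nonpos (x : F) [FiniteDimensional K⟮x⟯ F] {f : F}
    (h : ∀ v : Place K F, v.ord f ≤ 0) : ∃ c : K, f = algebraMap K F c := by
  by_contra hc
  have hf : f ∉ Set.range (algebraMap K F) := fun ⟨c, hc'⟩ => hc ⟨c, hc'.symm⟩
  obtain ⟨v, hv⟩ := exists_ord_pos_of_not_mem_range x hf
  have := h v
  omega

/-- CONSTANTS: a function without poles is a constant. -/
theorem exists_algebraMap_eq_of_ord_nonneg (x : F) [FiniteDimensional K⟮x⟯ F] {f : F}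
    (h : ∀ v : Place K F, 0 ≤ v.ord f) : ∃ c : K, f = algebraMap K F c := by
  by_contra hc
  have hf : f ∉ Set.range (algebraMap K F) := fun ⟨c, hc'⟩ => hc ⟨c, hc'.symm⟩
  obtain ⟨v, hv⟩ := exists_ord_neg_of_not_mem_range x hf
  have := h v
  omega

end Const

/-! ### The `q`-adic valuation of `L((q))` -/

section QVal

variable (L : Type*) [Field L]

/-- the `q`-adic valuation of `L((q))`. -/
def qValL : AddValuation (LaurentSeries L) (WithTop ℤ) := HahnSeries.addVal ℤ L

theorem qValL_apply (x : LaurentSeries L) : qValL L x = x.orderTop := HahnSeries.addVal_apply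

theorem qValL_algebraMap (a : L) (ha : a ≠ 0) :
    qValL L (algebraMap L (LaurentSeries L) a) = 0 := by
  rw [qValL_apply, algebraMap_laurentSeries_eq_single]
  exact HahnSeries.orderTop_single ha

theorem orderTop_jqModC : (jqModC L).orderTop = ((-1 : ℤ) : WithTop ℤ) := by
  rw [← HahnSeries.order_eq_orderTop_of_ne_zero (jqModC_ne_zero_of_nontrivial L),
    Fermat.Agent.S28.helper1457.order_jqModC]

end QVal

/-! ### Constants and the `q`-adic place on `FL` -/

section FieldL

variable (L : Type) [Field L] [Algebra ℚ L] (N : ℕ)

section Consts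

variable [NeZero N] [CharZero L] [IsAlgClosed L]

/-- (F5) CONSTANTS on `FL`: a divisor-free function is a constant. -/
theorem exists_algebraMap_eq_of_ord_eq_zero
    {f : laurentBaseChange L (modularFunctionFieldFull N)}
    (h : ∀ v : Place L (laurentBaseChange L (modularFunctionFieldFull N)), v.ord f = 0) :
    ∃ c : L, f = algebraMap L (laurentBaseChange L (modularFunctionFieldFull N)) c :=
  haveI := finiteDimensional_jL L N
  exists_algebraMap_eq_of_ord_nonneg (jL L N) fun v => (h v).ge

/-- (F5') a function without poles on `FL` is a constant. -/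
theorem exists_algebraMap_eq_of_ord_nonneg_L
    {f : laurentBaseChange L (modularFunctionFieldFull N)}
    (h : ∀ v : Place L (laurentBaseChange L (modularFunctionFieldFull N)), 0 ≤ v.ord f) :
    ∃ c : L, f = algebraMap L (laurentBaseChange L (modularFunctionFieldFull N)) c :=
  haveI := finiteDimensional_jL L N
  exists_algebraMap_eq_of_ord_nonneg (jL L N) h

end Consts

/-! the `q`-adic place (the cusp `∞`); no hypothesis on `L` -/

theorem jL_ne_zero : jL L N ≠ 0 := fun h =>
  jqModC_ne_zero_of_nontrivial L (by rw [← coe_jL L N, h]; rfl)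

theorem qValL_jL :
    qValL L ((laurentBaseChange L (modularFunctionFieldFull N)).val (jL L N))
      = ((-1 : ℤ) : WithTop ℤ) := by
  show qValL L (jqModC L) = _
  rw [qValL_apply, orderTop_jqModC]

theorem qPlaceL_nontrivial :
    ∃ f : laurentBaseChange L (modularFunctionFieldFull N),
      f ≠ 0 ∧ qValL L ((laurentBaseChange L (modularFunctionFieldFull N)).val f) ≠ 0 := by
  refine ⟨jL L N, jL_ne_zero L N, ?_⟩
  rw [qValL_jL]
  exact WithTop.coe_ne_zero.mpr (by norm_num)

/-- **the `q`-adic place** (the cusp `∞`) of `FL`, for every field `L ⊇ ℚ`. -/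
def qPlaceL : Place L (laurentBaseChange L (modularFunctionFieldFull N)) :=
  Fermat.Agent.S24.helper1370.ofAlgHom (qValL L) (qValL_algebraMap L)
    (laurentBaseChange L (modularFunctionFieldFull N)).val (qPlaceL_nontrivial L N)

theorem qPlaceL_index :
    Fermat.Agent.S24.helper1370.algHomIndex (qValL L)
      (laurentBaseChange L (modularFunctionFieldFull N)).val (qPlaceL_nontrivial L N) = 1 := by
  have h := Fermat.Agent.S24.helper1370.algHomIndex_mul_ord (qValL L) (qValL_algebraMap L)
    (laurentBaseChange L (modularFunctionFieldFull N)).val (qPlaceL_nontrivial L N)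
    (jL_ne_zero L N) (qValL_jL L N)
  have hdvd : ((Fermat.Agent.S24.helper1370.algHomIndex (qValL L)
      (laurentBaseChange L (modularFunctionFieldFull N)).val (qPlaceL_nontrivial L N) : ℕ) : ℤ)
      ∣ 1 := (dvd_neg).mp ⟨_, h.symm⟩
  exact Nat.dvd_one.mp (Int.natCast_dvd_natCast.mp (by exact_mod_cast hdvd))

/-- the order at the `q`-adic place is the `q`-order of the `q`-expansion. -/
theorem qPlaceL_ord {f : laurentBaseChange L (modularFunctionFieldFull N)} (hf : f ≠ 0) :
    (qPlaceL L N).ord f = (f : LaurentSeries L).order := by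
  have h := Fermat.Agent.S24.helper1370.ofAlgHom_apply (qValL L) (qValL_algebraMap L)
    (laurentBaseChange L (modularFunctionFieldFull N)).val (qPlaceL_nontrivial L N) hf
  rw [qPlaceL_index, Nat.cast_one, one_mul] at h
  have hf' : (f : LaurentSeries L) ≠ 0 := fun h0 => hf (Subtype.ext h0)
  have h2 : qValL L ((laurentBaseChange L (modularFunctionFieldFull N)).val f)
      = (((f : LaurentSeries L).order : ℤ) : WithTop ℤ) := by
    show qValL L (f : LaurentSeries L) = _
    rw [qValL_apply, HahnSeries.order_eq_orderTop_of_ne_zero hf']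
  rw [h2] at h
  exact (WithTop.coe_injective h).symm

theorem qPlaceL_ord_jL : (qPlaceL L N).ord (jL L N) = -1 := by
  rw [qPlaceL_ord L N (jL_ne_zero L N), coe_jL, Fermat.Agent.S28.helper1457.order_jqModC]

end FieldL

/-! ### Consequences for Kummer classes on `FL` -/

section Kummer

variable (L : Type) [Field L] [Algebra ℚ L] (N : ℕ) [NeZero N] [CharZero L] [IsAlgClosed L]

/-- (F3) as an instance. -/
instance (priority := 100) instHasPrincipalDivisorsL :
    HasPrincipalDivisors L (laurentBaseChange L (modularFunctionFieldFull N)) :=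
  hasPrincipalDivisors_L L N

variable {L N}

/-- over an algebraically closed field of characteristic zero, the Kummer class of `u` on `FL`
vanishes iff `u` is an `n`-th power in `FL` (constants are `n`-th powers). -/
theorem kummerPic_eq_zero_iff_pow {n : ℕ} (hn : n ≠ 0)
    {u : laurentBaseChange L (modularFunctionFieldFull N)} (hu : u ≠ 0)
    (h : ∀ v : Place L (laurentBaseChange L (modularFunctionFieldFull N)), (n : ℤ) ∣ v.ord u) :
    kummerPic L n u = 0 ↔
      ∃ w : laurentBaseChange L (modularFunctionFieldFull N), w ≠ 0 ∧ u = w ^ n := by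
  rw [kummerPic_eq_zero_iff hn hu h]
  constructor
  · rintro ⟨w, c, hw, hc0, hc, rfl⟩
    obtain ⟨a, rfl⟩ := exists_algebraMap_eq_of_ord_eq_zero L N hc
    have ha : a ≠ 0 := by
      rintro rfl
      exact hc0 (map_zero _)
    obtain ⟨d, hd⟩ := IsAlgClosed.exists_pow_nat_eq a (Nat.pos_of_ne_zero hn)
    have hd0 : d ≠ 0 := by
      rintro rfl
      rw [zero_pow hn] at hd
      exact ha hd.symm
    refine ⟨algebraMap L _ d * w, mul_ne_zero ((map_ne_zero _).mpr hd0) hw, ?_⟩
    rw [mul_pow, ← map_pow, hd]
  · rintro ⟨w, hw, rfl⟩
    exact ⟨w, 1, hw, one_ne_zero, fun v => v.ord_one, (one_mul _).symm⟩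

/-- two Kummer classes on `FL` agree iff the functions differ by an `n`-th power. -/
theorem kummerPic_eq_iff_pow {n : ℕ} (hn : n ≠ 0)
    {u u' : laurentBaseChange L (modularFunctionFieldFull N)} (hu : u ≠ 0) (hu' : u' ≠ 0)
    (h : ∀ v : Place L (laurentBaseChange L (modularFunctionFieldFull N)), (n : ℤ) ∣ v.ord u)
    (h' : ∀ v : Place L (laurentBaseChange L (modularFunctionFieldFull N)), (n : ℤ) ∣ v.ord u') :
    kummerPic L n u = kummerPic L n u' ↔
      ∃ w : laurentBaseChange L (modularFunctionFieldFull N), w ≠ 0 ∧ u = w ^ n * u' := by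
  have key : kummerPic L n (u * u'⁻¹) = kummerPic L n u - kummerPic L n u' := by
    rw [kummerPic_mul hn hu (inv_ne_zero hu') h (dvd_ord_inv h'), kummerPic_inv hn h',
      sub_eq_add_neg]
  rw [← sub_eq_zero, ← key, kummerPic_eq_zero_iff_pow hn (mul_ne_zero hu (inv_ne_zero hu'))
    (dvd_ord_mul hu (inv_ne_zero hu') h (dvd_ord_inv h'))]
  constructor
  · rintro ⟨w, hw, he⟩
    refine ⟨w, hw, ?_⟩
    rw [← he, mul_assoc, inv_mul_cancel₀ hu', mul_one]
  · rintro ⟨w, hw, he⟩
    refine ⟨w, hw, ?_⟩
    rw [he, mul_assoc, mul_inv_cancel₀ hu', mul_one]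

end Kummer

end Fermat.Agent.S29.helper36
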