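import Mathlib
import Fermat.Prelude.Def_ModularCurve_HeckeModule
import Fermat.Prelude.Thm_ModularCurve_coeffMap_qExpand

set_option autoImplicit false
set_option linter.style.haveILetI false
set_option linter.unusedSectionVars false

noncomputable section

namespace Fermat.Agent.S29.helper5500

open AlgebraicCurve ModularCurve
open scoped Pointwise

section Generic

variable {K F F' : Type*} [Field K] [Field F] [Field F'] [Algebra K F] [Algebra K F']

theorem mem_restrictAlong_iff (φ : F →ₐ[K] F') (hφ : φ.toRingHom.IsIntegral)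
    (w : Place K F') (x : F) :
    x ∈ (w.restrictAlong φ hφ).toValuationSubring ↔ φ x ∈ w.toValuationSubring :=
  Iff.rfl

theorem mem_smul_place_iff (g : SemilinearAut K F) (v : Place K F) (x : F) :
    x ∈ (g • v).toValuationSubring ↔ g⁻¹ • x ∈ v.toValuationSubring := by
  rw [SemilinearAut.smul_toValuationSubring]
  exact ValuationSubring.mem_pointwise_smul_iff_inv_smul_mem

/-- Restriction of places along an intertwined field embedding is equivariant. -/
theorem restrictAlong_smul (φ : F →ₐ[K] F') (hφ : φ.toRingHom.IsIntegral)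
    (g : SemilinearAut K F) (g' : SemilinearAut K F')
    (h : SemilinearAut.IntertwinesAlong (φ : F →+* F') g g') (w : Place K F') :
    (g' • w).restrictAlong φ hφ = g • (w.restrictAlong φ hφ) := by
  apply Place.ext
  ext x
  rw [mem_restrictAlong_iff, mem_smul_place_iff, mem_smul_place_iff, mem_restrictAlong_iff]
  have := h.inv x
  rw [show (φ : F →+* F') x = φ x from rfl] at this
  rw [this]
  rfl

/-- The ramification index along an intertwined embedding is invariant. -/
theorem ramificationIndexAlong_smul (φ : F →ₐ[K] F')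
    (g : SemilinearAut K F) (g' : SemilinearAut K F')
    (h : SemilinearAut.IntertwinesAlong (φ : F →+* F') g g') (w : Place K F') :
    (g' • w).ramificationIndexAlong φ = w.ramificationIndexAlong φ := by
  have hset : {n : ℕ | 0 < n ∧ ∃ f : F, f ≠ 0 ∧ (g' • w).ord (φ f) = n}
      = {n : ℕ | 0 < n ∧ ∃ f : F, f ≠ 0 ∧ w.ord (φ f) = n} := by
    ext n
    show (0 < n ∧ ∃ f : F, f ≠ 0 ∧ (g' • w).ord (φ f) = n) ↔
      (0 < n ∧ ∃ f : F, f ≠ 0 ∧ w.ord (φ f) = n)
    constructor
    · rintro ⟨hn, f, hf, hfn⟩
      refine ⟨hn, g⁻¹ • f, ?_, ?_⟩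
      · simpa using hf
      · rw [← hfn]
        have h1 : g' • (φ (g⁻¹ • f)) = φ f := by
          have := h (g⁻¹ • f)
          rw [smul_inv_smul] at this
          exact this
        rw [← h1, SemilinearAut.ord_smul]
    · rintro ⟨hn, f, hf, hfn⟩
      refine ⟨hn, g • f, ?_, ?_⟩
      · simpa using hf
      · rw [← hfn]
        have h1 : g' • (φ f) = φ (g • f) := h f
        rw [← h1, SemilinearAut.ord_smul]
  show sInf {n : ℕ | 0 < n ∧ ∃ f : F, f ≠ 0 ∧ (g' • w).ord (φ f) = n}
    = sInf {n : ℕ | 0 < n ∧ ∃ f : F, f ≠ 0 ∧ w.ord (φ f) = n}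
  rw [hset]

/-- The ring equivalence between the valuation rings of the restrictions of `w` and `g' • w`. -/
def restrictSmulEquiv (φ : F →ₐ[K] F') (hφ : φ.toRingHom.IsIntegral)
    (g : SemilinearAut K F) (g' : SemilinearAut K F')
    (h : SemilinearAut.IntertwinesAlong (φ : F →+* F') g g') (w : Place K F') :
    (w.restrictAlong φ hφ).toValuationSubring ≃+*
      ((g' • w).restrictAlong φ hφ).toValuationSubring where
  toFun x := ⟨g • (x : F), by
    rw [mem_restrictAlong_iff]
    have h1 : g' • (φ (x : F)) = φ (g • (x : F)) := h (x : F)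
    rw [← h1, SemilinearAut.smul_toValuationSubring]
    exact ValuationSubring.smul_mem_pointwise_smul g' _ _ ((mem_restrictAlong_iff φ hφ w _).mp x.2)⟩
  invFun y := ⟨g⁻¹ • (y : F), by
    rw [mem_restrictAlong_iff]
    have h1 : g'⁻¹ • (φ (y : F)) = φ (g⁻¹ • (y : F)) := h.inv (y : F)
    rw [← h1]
    exact (mem_smul_place_iff g' w _).mp ((mem_restrictAlong_iff φ hφ (g' • w) _).mp y.2)⟩
  left_inv x := by ext; simp
  right_inv y := by ext; simp
  map_mul' x y := by ext; simp
  map_add' x y := by ext; simp

@[simp]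
theorem coe_restrictSmulEquiv (φ : F →ₐ[K] F') (hφ : φ.toRingHom.IsIntegral)
    (g : SemilinearAut K F) (g' : SemilinearAut K F')
    (h : SemilinearAut.IntertwinesAlong (φ : F →+* F') g g') (w : Place K F')
    (x : (w.restrictAlong φ hφ).toValuationSubring) :
    ((restrictSmulEquiv φ hφ g g' h w x : ((g' • w).restrictAlong φ hφ).toValuationSubring) : F)
      = g • (x : F) := rfl

/-- The inertia degree along an intertwined embedding is invariant. -/
theorem inertiaDegAlong_smul (φ : F →ₐ[K] F') (hφ : φ.toRingHom.IsIntegral)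
    (g : SemilinearAut K F) (g' : SemilinearAut K F')
    (h : SemilinearAut.IntertwinesAlong (φ : F →+* F') g g') (w : Place K F') :
    (g' • w).inertiaDegAlong φ hφ = w.inertiaDegAlong φ hφ := by
  letI := algebraAlong φ
  haveI := isScalarTower_along φ
  haveI := isIntegral_along φ hφ
  obtain ⟨e, he⟩ : ∃ e : (w.restrict F).toValuationSubring ≃+*
      ((g' • w).restrict F).toValuationSubring,
      ∀ a : (w.restrict F).toValuationSubring,
        ((e a : ((g' • w).restrict F).toValuationSubring) : F) = g • (a : F) :=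
    ⟨restrictSmulEquiv φ hφ g g' h w, fun _ => rfl⟩
  show Module.finrank ((g' • w).restrict F).ResidueField (g' • w).ResidueField
    = Module.finrank (w.restrict F).ResidueField w.ResidueField
  symm
  refine Algebra.finrank_eq_of_equiv_equiv
    (IsLocalRing.ResidueField.mapEquiv e)
    (SemilinearAut.smulResidueRingEquiv g' w) ?_
  refine RingHom.ext fun x => ?_
  obtain ⟨a, rfl⟩ := IsLocalRing.residue_surjective x
  show algebraMap ((g' • w).restrict F).ResidueField (g' • w).ResidueField
      (IsLocalRing.ResidueField.mapEquiv e (IsLocalRing.residue _ a))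
    = SemilinearAut.smulResidueRingEquiv g' w
        (algebraMap (w.restrict F).ResidueField w.ResidueField (IsLocalRing.residue _ a))
  rw [IsLocalRing.ResidueField.mapEquiv_apply, IsLocalRing.ResidueField.map_residue,
    Place.algebraMap_residueField_eq, Place.algebraMap_residueField_eq,
    Place.restrictResidueMap_residue, Place.restrictResidueMap_residue]
  show _ = IsLocalRing.ResidueField.mapEquiv
    (SemilinearAut.smulValuationSubringEquiv g' w.toValuationSubring) (IsLocalRing.residue _ _)
  rw [IsLocalRing.ResidueField.mapEquiv_apply, IsLocalRing.ResidueField.map_residue]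
  refine congrArg _ (Subtype.ext ?_)
  show φ ((e a : ((g' • w).restrict F).toValuationSubring) : F) = g' • φ (a : F)
  rw [he a]
  exact (h (a : F)).symm

/-- Pull-back of divisors along an intertwined embedding is equivariant. -/
theorem pullbackAlong_smul [HasPrincipalDivisors K F'] (φ : F →ₐ[K] F')
    (hφ : φ.toRingHom.IsIntegral) (g : SemilinearAut K F) (g' : SemilinearAut K F')
    (h : SemilinearAut.IntertwinesAlong (φ : F →+* F') g g') (D : Divisor K F) :
    Divisor.pullbackAlong φ hφ (g • D) = g' • Divisor.pullbackAlong φ hφ D := by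
  refine Finsupp.ext fun W => ?_
  rw [Divisor.pullbackAlong_apply, SemilinearAut.divisor_smul_apply,
    SemilinearAut.divisor_smul_apply, Divisor.pullbackAlong_apply,
    ramificationIndexAlong_smul φ g⁻¹ g'⁻¹ h.inv W, restrictAlong_smul φ hφ g⁻¹ g'⁻¹ h.inv W]

/-- Push-forward of divisors along an intertwined embedding is equivariant. -/
theorem pushforwardAlong_smul (ψ : F →ₐ[K] F')
    (hψ : ψ.toRingHom.IsIntegral) (g : SemilinearAut K F) (g' : SemilinearAut K F')
    (h : SemilinearAut.IntertwinesAlong (ψ : F →+* F') g g') (E : Divisor K F') :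
    Divisor.pushforwardAlong ψ hψ (g' • E) = g • Divisor.pushforwardAlong ψ hψ E := by
  induction E using Finsupp.induction with
  | zero => simp
  | single_add w n E _ _ ih =>
    rw [smul_add, map_add, map_add, smul_add, ih, SemilinearAut.smul_single,
      Divisor.pushforwardAlong_single, Divisor.pushforwardAlong_single,
      SemilinearAut.smul_single, restrictAlong_smul ψ hψ g g' h w,
      inertiaDegAlong_smul ψ hψ g g' h w]

/-- The divisor correspondence `ψ_* φ^*` is equivariant. -/
theorem divisor_correspondence_smul [HasPrincipalDivisors K F'] (φ ψ : F →ₐ[K] F')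
    (hφ : φ.toRingHom.IsIntegral) (hψ : ψ.toRingHom.IsIntegral)
    (g : SemilinearAut K F) (g' : SemilinearAut K F')
    (h₁ : SemilinearAut.IntertwinesAlong (φ : F →+* F') g g')
    (h₂ : SemilinearAut.IntertwinesAlong (ψ : F →+* F') g g') (D : Divisor K F) :
    Divisor.correspondence φ ψ hφ hψ (g • D) = g • Divisor.correspondence φ ψ hφ hψ D := by
  rw [Divisor.correspondence_apply, Divisor.correspondence_apply,
    pullbackAlong_smul φ hφ g g' h₁, pushforwardAlong_smul ψ hψ g g' h₂]

/-- The correspondence on `Pic⁰` is equivariant. -/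
theorem pic0_correspondence_smul [HasPrincipalDivisors K F'] (φ ψ : F →ₐ[K] F')
    (hφ : φ.toRingHom.IsIntegral) (hψ : ψ.toRingHom.IsIntegral)
    (hFI : FundamentalIdentityAlong K φ hφ)
    (hfin : FiniteAlong K ψ) (hN : NormFormulaAlong K ψ hfin)
    (g : SemilinearAut K F) (g' : SemilinearAut K F')
    (h₁ : SemilinearAut.IntertwinesAlong (φ : F →+* F') g g')
    (h₂ : SemilinearAut.IntertwinesAlong (ψ : F →+* F') g g') (x : Pic0 K F) :
    Pic0.correspondence φ ψ hφ hψ hFI hfin hN (g • x)
      = g • Pic0.correspondence φ ψ hφ hψ hFI hfin hN x := by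
  obtain ⟨D, rfl⟩ := Pic0.mk_surjective x
  rw [SemilinearAut.pic0_smul_mk, Pic0.correspondence_mk, Pic0.correspondence_mk,
    SemilinearAut.pic0_smul_mk]
  refine congrArg Pic0.mk (Subtype.ext ?_)
  rw [Pic0.coe_degZeroCorrespondence, SemilinearAut.coe_degZeroSMulHom,
    SemilinearAut.coe_degZeroSMulHom, Pic0.coe_degZeroCorrespondence]
  exact divisor_correspondence_smul φ ψ hφ hψ g g' h₁ h₂ (D : Divisor K F)

end Generic

section Modular

variable {L : Type*} [Field L] [Algebra ℚ L]
variable (N ℓ : ℕ) [NeZero N] [NeZero ℓ]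

theorem intertwines_heckeAlphaBar (σ : L ≃ₐ[ℚ] L) :
    SemilinearAut.IntertwinesAlong
      ((heckeAlphaBar L N ℓ :
        laurentBaseChange L (modularFunctionFieldFull N) →ₐ[L]
          laurentBaseChange L (modularFunctionFieldFull (N * ℓ))) :
        laurentBaseChange L (modularFunctionFieldFull N) →+*
          laurentBaseChange L (modularFunctionFieldFull (N * ℓ)))
      (arithmeticGalois (modularFunctionFieldFull N) σ)
      (arithmeticGalois (modularFunctionFieldFull (N * ℓ)) σ) := by
  intro x
  apply Subtype.ext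
  rw [coe_arithmeticGalois_smul]
  show coeffMap (σ : L →+* L) ((heckeAlphaBar L N ℓ x : _) : LaurentSeries L)
    = ((heckeAlphaBar L N ℓ (arithmeticGalois (modularFunctionFieldFull N) σ • x) : _) :
        LaurentSeries L)
  rw [coe_heckeAlphaBar, coe_heckeAlphaBar, coe_arithmeticGalois_smul]

theorem intertwines_heckeBetaBar (σ : L ≃ₐ[ℚ] L) :
    SemilinearAut.IntertwinesAlong
      ((heckeBetaBar L N ℓ :
        laurentBaseChange L (modularFunctionFieldFull N) →ₐ[L]
          laurentBaseChange L (modularFunctionFieldFull (N * ℓ))) :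
        laurentBaseChange L (modularFunctionFieldFull N) →+*
          laurentBaseChange L (modularFunctionFieldFull (N * ℓ)))
      (arithmeticGalois (modularFunctionFieldFull N) σ)
      (arithmeticGalois (modularFunctionFieldFull (N * ℓ)) σ) := by
  intro x
  apply Subtype.ext
  rw [coe_arithmeticGalois_smul]
  show coeffMap (σ : L →+* L) ((heckeBetaBar L N ℓ x : _) : LaurentSeries L)
    = ((heckeBetaBar L N ℓ (arithmeticGalois (modularFunctionFieldFull N) σ • x) : _) :
        LaurentSeries L)
  rw [coe_heckeBetaBar, coe_heckeBetaBar, coe_arithmeticGalois_smul, coeffMap_qExpand]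

/-- The Prelude Hecke operator on `Pic⁰` of the base-changed modular function field commutes
with the arithmetic Galois action (unconditionally: if the Hecke inputs fail it is `0`). -/
theorem heckeOperatorAlong_galois_smul (σ : L ≃ₐ[ℚ] L)
    (x : Pic0 L (laurentBaseChange L (modularFunctionFieldFull N))) :
    heckeOperatorAlong L N ℓ (σ • x) = σ • heckeOperatorAlong L N ℓ x := by
  by_cases h : HeckeInputsAlong L N ℓ
  · obtain ⟨hα, hβ, hP, hfin, hFI, hN⟩ := h
    haveI := hP
    rw [heckeOperatorAlong_eq hα hβ hFI hfin hN, galois_smul_pic0_def, galois_smul_pic0_def]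
    exact pic0_correspondence_smul (heckeBetaBar L N ℓ) (heckeAlphaBar L N ℓ) hβ hα hFI hfin hN
      _ _ (intertwines_heckeBetaBar N ℓ σ) (intertwines_heckeAlphaBar N ℓ σ) x
  · rw [heckeOperatorAlong_of_not h]
    simp

end Modular

section JZeroSection

variable (N : ℕ) [NeZero N]

/-- **Galois-equivariance of the Prelude Hecke operators on `JZero N`** (operator-wise,
unconditional). -/
theorem galois_smul_heckeOperatorBar (ℓ : Nat.Primes)
    (σ : AlgebraicClosure ℚ ≃ₐ[ℚ] AlgebraicClosure ℚ) (x : JZero N) :
    σ • heckeOperatorBar N ℓ x = heckeOperatorBar N ℓ (σ • x) := by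
  haveI : NeZero (ℓ : ℕ) := ⟨ℓ.2.ne_zero⟩
  rw [heckeOperatorBar_apply, heckeOperatorBar_apply]
  exact (heckeOperatorAlong_galois_smul N (ℓ : ℕ) σ x).symm

/-- The instance hypothesis of the frozen statement S37: under commutativity of the Prelude
Hecke operators, the Galois action on `JZero N` commutes with the `HeckeAlg`-module structure
`heckeModuleBar N`. -/
theorem smulCommClass_heckeModuleBar (hcomm : HeckeOperatorsCommuteBar N) :
    letI := heckeModuleBar N
    SMulCommClass (AlgebraicClosure ℚ ≃ₐ[ℚ] AlgebraicClosure ℚ) HeckeAlg (JZero N) := by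
  letI := heckeModuleBar N
  refine ⟨fun σ t x => ?_⟩
  revert x
  induction t using MvPolynomial.induction_on with
  | C a =>
    intro x
    rw [heckeModuleBar_C_smul, heckeModuleBar_C_smul]
    exact map_zsmul (DistribSMul.toAddMonoidHom (JZero N) σ) a x
  | add p q hp hq =>
    intro x
    rw [add_smul, add_smul, smul_add, hp, hq]
  | mul_X p ℓ hp =>
    intro x
    have hX : ∀ y : JZero N, (MvPolynomial.X ℓ : HeckeAlg) • y = heckeOperatorBar N ℓ y :=
      fun y => heckeModuleBar_heckeGen_smul hcomm ℓ y
    rw [mul_smul, mul_smul, hX, hX, hp, galois_smul_heckeOperatorBar]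

end JZeroSection

section Formal

variable {K L : Type*} [Field K] [Field L] [Algebra K L]

/-- Formal consequence of the conclusion of S37: the Frobenius quadratic relation on
`p`-power torsion. -/
theorem frobeniusQuadratic_of_specializationExists (N p : ℕ) (J : Type*) [AddCommGroup J]
    [Module HeckeAlg J] [DistribMulAction (L ≃ₐ[K] L) J] [SMulCommClass (L ≃ₐ[K] L) HeckeAlg J]
    (h : SpecializationExists (K := K) (L := L) N p J) :
    FrobeniusQuadratic (K := K) (L := L) N p J := by
  intro ℓ hℓ hℓNp A hA σ hσ x hx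
  obtain ⟨J', _, _, sp, F, hsp, hrel⟩ := h ℓ hℓ hℓNp A hA
  refine hsp.injective_torsion _ ?_ ?_
  · obtain ⟨n, hn⟩ := hx
    refine ⟨n, ?_⟩
    rw [smul_add, smul_sub, smul_comm (p ^ n) σ, smul_comm (p ^ n) σ, hn,
      smul_comm (p ^ n) (heckeGen ⟨ℓ, hℓ⟩), smul_comm (p ^ n) σ, hn, smul_comm (p ^ n) ℓ, hn]
    simp
  · rw [map_add, map_sub, hsp.hecke_comm, hsp.frobenius_comm σ hσ, hsp.frobenius_comm σ hσ,
      map_nsmul]
    exact hrel (sp x)

/-- Formal consequence of the conclusion of S37: inertia acts trivially on `p`-power torsion. -/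
theorem unramifiedOutside_of_specializationExists (N p : ℕ) (J : Type*) [AddCommGroup J]
    [Module HeckeAlg J] [DistribMulAction (L ≃ₐ[K] L) J] [SMulCommClass (L ≃ₐ[K] L) HeckeAlg J]
    (h : SpecializationExists (K := K) (L := L) N p J) :
    UnramifiedOutside (K := K) (L := L) N p J := by
  intro ℓ hℓ hℓNp A hA σ hσ x hx
  obtain ⟨J', _, _, sp, F, hsp, -⟩ := h ℓ hℓ hℓNp A hA
  have h0 : σ • x - x = 0 := by
    refine hsp.injective_torsion _ ?_ ?_
    · obtain ⟨n, hn⟩ := hx
      refine ⟨n, ?_⟩
      rw [smul_sub, smul_comm (p ^ n) σ, hn]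
      simp
    · rw [map_sub, hsp.inertia_comm σ hσ, sub_self]
  exact sub_eq_zero.mp h0

end Formal

end Fermat.Agent.S29.helper5500
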