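/-
S29-ESQ (helper7964): the FORMAL Eichler–Shimura congruence for the multiplicative Hecke
operator on Laurent series.

`R` commutative ring, `ℓ` prime, `I` an ideal of `R` containing `ℓ`, `σ` an automorphism of `R`
inducing the `ℓ`-power Frobenius modulo `I`.  For a Laurent series `u ∈ R((q))`:

* `pow_prime_congr`:  `u ^ ℓ ≡ (σ u)(q ^ ℓ)` coefficientwise modulo `I`;
* `formalES_general`: if `W(q ^ ℓ) = ∏_b w_b` with `ℓ` series `w_b ≡ u` (the conjugates
  `u(ζ^b q^{1/ℓ})`, written in the variable `x = q^{1/ℓ}`), then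
  `u(q ^ ℓ) * W ≡ (σ⁻¹ u) ^ ℓ * σ u` coefficientwise modulo `I`;
* `formalES`: the same for the explicit twists `w_b = tw (ζ ^ b) u`, `W = uOp ℓ (∏_b w_b)`;
* `inertia_congr`: `τ ≡ id` modulo `I` gives `τ u ≡ u` coefficientwise modulo `I`.

Vocabulary: `LaurentSeries R = HahnSeries ℤ R`, `ModularCurve.qExpand R ℓ` (`q ↦ q ^ ℓ`) and
`ModularCurve.coeffMap` (coefficientwise ring hom) from the Prelude.
-/
import Mathlib
import Fermat.Prelude.Def_ModularCurve_X0
import Fermat.Prelude.Def_ModularCurve_LaurentCoeff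

set_option autoImplicit false

noncomputable section

namespace Fermat.Agent.S29.helper7964

open ModularCurve HahnSeries

variable {R : Type*} [CommRing R]

/-! ### Coefficientwise congruences -/

/-- The ideal of Laurent series all of whose coefficients lie in `I`. -/
def coeffIdeal (I : Ideal R) : Ideal (LaurentSeries R) :=
  RingHom.ker (coeffMap (Ideal.Quotient.mk I))

theorem mem_coeffIdeal {I : Ideal R} {f : LaurentSeries R} :
    f ∈ coeffIdeal I ↔ ∀ n : ℤ, f.coeff n ∈ I := by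
  rw [coeffIdeal, RingHom.mem_ker]
  constructor
  · intro h n
    have h1 : (coeffMap (Ideal.Quotient.mk I) f).coeff n = 0 := by rw [h]; rfl
    rwa [coeffMap_coeff, Ideal.Quotient.eq_zero_iff_mem] at h1
  · intro h
    ext n
    rw [coeffMap_coeff, HahnSeries.coeff_zero, Ideal.Quotient.eq_zero_iff_mem]
    exact h n

theorem natCast_mem_coeffIdeal {I : Ideal R} {m : ℕ} (hm : (m : R) ∈ I) :
    (m : LaurentSeries R) ∈ coeffIdeal I := by
  rw [coeffIdeal, RingHom.mem_ker, map_natCast]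
  have h0 : ((m : R ⧸ I)) = 0 := by
    rw [← map_natCast (Ideal.Quotient.mk I), Ideal.Quotient.eq_zero_iff_mem]
    exact hm
  have h1 : ((m : LaurentSeries (R ⧸ I))) = HahnSeries.C ((m : R ⧸ I)) := by
    rw [map_natCast]
  rw [h1, h0, map_zero]

/-! ### Vanishing below a bound -/

theorem coeff_mul_eq_zero_of_lt {g h : LaurentSeries R} {a b : ℤ}
    (hg : ∀ n < a, g.coeff n = 0) (hh : ∀ n < b, h.coeff n = 0) :
    ∀ k < a + b, (g * h).coeff k = 0 := by
  intro k hk
  rw [HahnSeries.coeff_mul]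
  refine Finset.sum_eq_zero fun ij hij => ?_
  rw [Finset.mem_antidiagonal] at hij
  obtain ⟨hi, hj, hsum⟩ := hij
  exfalso
  have hi' : a ≤ ij.1 := by
    by_contra hlt
    exact hi (hg _ (not_le.mp hlt))
  have hj' : b ≤ ij.2 := by
    by_contra hlt
    exact hj (hh _ (not_le.mp hlt))
  omega

theorem coeff_pow_eq_zero_of_lt {g : LaurentSeries R} {M : ℤ}
    (hg : ∀ n < M, g.coeff n = 0) (m : ℕ) : ∀ k < (m : ℤ) * M, (g ^ m).coeff k = 0 := by
  induction m with
  | zero =>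
      intro k hk
      rw [pow_zero, HahnSeries.coeff_one, if_neg]
      simp only [Nat.cast_zero, zero_mul] at hk
      exact hk.ne
  | succ m ih =>
      intro k hk
      rw [pow_succ]
      refine coeff_mul_eq_zero_of_lt ih hg k ?_
      have : ((m + 1 : ℕ) : ℤ) * M = (m : ℤ) * M + M := by push_cast; ring
      rwa [this] at hk

/-! ### Frobenius on Laurent series modulo `I` -/

section Frobenius

variable (ℓ : ℕ) [Fact ℓ.Prime] (I : Ideal R) (σ : R →+* R)

/-- The statement `w ^ ℓ ≡ (σ w)(q ^ ℓ)` modulo `I`. -/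
def FrobCongr (w : LaurentSeries R) : Prop :=
  w ^ ℓ - qExpand R ℓ (coeffMap σ w) ∈ coeffIdeal I

variable {ℓ I σ}

theorem frobCongr_zero : FrobCongr ℓ I σ (0 : LaurentSeries R) := by
  rw [FrobCongr, zero_pow (Fact.out : ℓ.Prime).ne_zero, map_zero, map_zero, sub_zero]
  exact zero_mem _

theorem frobCongr_add (hℓ : (ℓ : R) ∈ I) {x y : LaurentSeries R}
    (hx : FrobCongr ℓ I σ x) (hy : FrobCongr ℓ I σ y) : FrobCongr ℓ I σ (x + y) := by
  obtain ⟨r, hr⟩ := exists_add_pow_prime_eq (Fact.out : ℓ.Prime) x y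
  rw [FrobCongr] at hx hy ⊢
  have e : (x + y) ^ ℓ - qExpand R ℓ (coeffMap σ (x + y))
      = (x ^ ℓ - qExpand R ℓ (coeffMap σ x)) + (y ^ ℓ - qExpand R ℓ (coeffMap σ y))
        + (ℓ : LaurentSeries R) * (x * y * r) := by
    rw [hr, map_add, map_add]; ring
  rw [e]
  exact add_mem (add_mem hx hy) (Ideal.mul_mem_right _ _ (natCast_mem_coeffIdeal hℓ))

theorem frobCongr_single (hσ : ∀ a : R, σ a - a ^ ℓ ∈ I) (n : ℤ) (a : R) :
    FrobCongr ℓ I σ (HahnSeries.single n a) := by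
  rw [FrobCongr, HahnSeries.single_pow, coeffMap_single, qExpand_single, nsmul_eq_mul,
    ← HahnSeries.single_sub, mem_coeffIdeal]
  intro k
  rw [HahnSeries.coeff_single]
  split_ifs
  · have := I.neg_mem (hσ a)
    rwa [neg_sub] at this
  · exact zero_mem _

theorem frobCongr_sum (hℓ : (ℓ : R) ∈ I) (hσ : ∀ a : R, σ a - a ^ ℓ ∈ I)
    (s : Finset ℤ) (c : ℤ → R) :
    FrobCongr ℓ I σ (∑ n ∈ s, HahnSeries.single n (c n)) := by
  classical
  induction s using Finset.induction_on with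
  | empty => simpa using frobCongr_zero (ℓ := ℓ) (I := I) (σ := σ)
  | insert a s ha ih =>
      rw [Finset.sum_insert ha]
      exact frobCongr_add hℓ (frobCongr_single hσ a (c a)) ih

/-- **Frobenius on Laurent series.** If `σ a ≡ a ^ ℓ` modulo `I ∋ ℓ` for all `a`, then
`w ^ ℓ ≡ (σ w)(q ^ ℓ)` coefficientwise modulo `I`, for every Laurent series `w`. -/
theorem pow_prime_congr (hℓ : (ℓ : R) ∈ I) (hσ : ∀ a : R, σ a - a ^ ℓ ∈ I)
    (w : LaurentSeries R) : w ^ ℓ - qExpand R ℓ (coeffMap σ w) ∈ coeffIdeal I := by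
  rw [mem_coeffIdeal]
  intro k
  have hℓpos : (0 : ℤ) < (ℓ : ℤ) := by exact_mod_cast (Fact.out : ℓ.Prime).pos
  -- truncation level
  set M : ℤ := |k| + 1 with hM
  have hkM : k < (ℓ : ℤ) * M := by
    have h1 : k ≤ |k| := le_abs_self k
    have h2 : (1 : ℤ) ≤ (ℓ : ℤ) := hℓpos
    nlinarith [abs_nonneg k]
  set w₁ : LaurentSeries R := ∑ n ∈ Finset.Ico w.order M, HahnSeries.single n (w.coeff n) with hw₁
  set w₂ : LaurentSeries R := w - w₁ with hw₂
  have hw₁coeff : ∀ n : ℤ, w₁.coeff n = if n ∈ Finset.Ico w.order M then w.coeff n else 0 := by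
    intro n
    rw [hw₁, HahnSeries.coeff_sum]
    split_ifs with h
    · rw [Finset.sum_eq_single n]
      · exact HahnSeries.coeff_single_same n _
      · intro b _ hb
        exact HahnSeries.coeff_single_of_ne (Ne.symm hb)
      · intro h'
        exact absurd h h'
    · refine Finset.sum_eq_zero fun b hb => ?_
      apply HahnSeries.coeff_single_of_ne
      rintro rfl
      exact h hb
  have hw₂coeff : ∀ n < M, w₂.coeff n = 0 := by
    intro n hn
    rw [hw₂, HahnSeries.coeff_sub, hw₁coeff]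
    split_ifs with h
    · exact sub_self _
    · rw [sub_zero]
      rw [Finset.mem_Ico] at h
      have : n < w.order := by
        by_contra h'
        exact h ⟨not_lt.mp h', hn⟩
      exact HahnSeries.coeff_eq_zero_of_lt_order this
  have hw : w = w₁ + w₂ := by rw [hw₂]; ring
  have h1 : FrobCongr ℓ I σ w₁ := frobCongr_sum hℓ hσ _ _
  obtain ⟨r, hr⟩ := exists_add_pow_prime_eq (Fact.out : ℓ.Prime) w₁ w₂
  have e : w ^ ℓ - qExpand R ℓ (coeffMap σ w)
      = (w₁ ^ ℓ - qExpand R ℓ (coeffMap σ w₁)) + (w₂ ^ ℓ - qExpand R ℓ (coeffMap σ w₂))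
        + (ℓ : LaurentSeries R) * (w₁ * w₂ * r) := by
    rw [hw, hr, map_add, map_add]; ring
  rw [e, HahnSeries.coeff_add, HahnSeries.coeff_add]
  refine add_mem (add_mem (mem_coeffIdeal.mp h1 k) ?_)
    (mem_coeffIdeal.mp (Ideal.mul_mem_right _ _ (natCast_mem_coeffIdeal hℓ)) k)
  -- the tail contributes nothing in degree `k`
  have t1 : (w₂ ^ ℓ).coeff k = 0 := coeff_pow_eq_zero_of_lt hw₂coeff ℓ k hkM
  have t2 : (qExpand R ℓ (coeffMap σ w₂)).coeff k = 0 := by
    by_cases hdvd : (ℓ : ℤ) ∣ k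
    · obtain ⟨n, rfl⟩ := hdvd
      rw [qExpand_coeff_mul, coeffMap_coeff]
      have hn : n < M := lt_of_mul_lt_mul_left hkM hℓpos.le
      rw [hw₂coeff n hn, map_zero]
    · exact qExpand_coeff_of_not_dvd ℓ _ hdvd
  rw [HahnSeries.coeff_sub, t1, t2, sub_zero]
  exact zero_mem _

end Frobenius

/-! ### The formal Eichler–Shimura congruence -/

section ES

variable {ℓ : ℕ} [Fact ℓ.Prime] {I : Ideal R}

/-- `q ↦ q ^ ℓ` reflects coefficientwise membership in `I`. -/
theorem mem_coeffIdeal_of_qExpand_mem {f : LaurentSeries R}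
    (h : qExpand R ℓ f ∈ coeffIdeal I) : f ∈ coeffIdeal I := by
  rw [mem_coeffIdeal] at h ⊢
  intro n
  have := h ((ℓ : ℤ) * n)
  rwa [qExpand_coeff_mul] at this

/-- `q ↦ q ^ ℓ` preserves coefficientwise membership in `I`. -/
theorem qExpand_mem_coeffIdeal {f : LaurentSeries R} (h : f ∈ coeffIdeal I) :
    qExpand R ℓ f ∈ coeffIdeal I := by
  rw [mem_coeffIdeal] at h ⊢
  intro k
  by_cases hdvd : (ℓ : ℤ) ∣ k
  · obtain ⟨n, rfl⟩ := hdvd
    rw [qExpand_coeff_mul]
    exact h n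
  · rw [qExpand_coeff_of_not_dvd ℓ _ hdvd]
    exact zero_mem _

/-- Coefficientwise ring homs preserve coefficientwise membership in `I` when they map `I` to
`I`. -/
theorem coeffMap_mem_coeffIdeal {τ : R →+* R} (hτ : ∀ a ∈ I, τ a ∈ I) {f : LaurentSeries R}
    (h : f ∈ coeffIdeal I) : coeffMap τ f ∈ coeffIdeal I := by
  rw [mem_coeffIdeal] at h ⊢
  intro n
  rw [coeffMap_coeff]
  exact hτ _ (h n)

/-- A product of `s.card` factors, each congruent to `u` modulo an ideal `J`, is congruent to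
`u ^ s.card`. -/
theorem prod_sub_pow_mem {A : Type*} [CommRing A] {ι : Type*} (s : Finset ι) (J : Ideal A)
    (u : A) (w : ι → A) (hw : ∀ b ∈ s, w b - u ∈ J) :
    ∏ b ∈ s, w b - u ^ s.card ∈ J := by
  classical
  induction s using Finset.induction_on with
  | empty => simp
  | insert a s ha ih =>
      rw [Finset.prod_insert ha, Finset.card_insert_of_notMem ha, pow_succ]
      have e : w a * ∏ b ∈ s, w b - u ^ s.card * u
          = (w a - u) * ∏ b ∈ s, w b + u * (∏ b ∈ s, w b - u ^ s.card) := by ring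
      rw [e]
      exact add_mem (Ideal.mul_mem_right _ _ (hw a (Finset.mem_insert_self a s)))
        (Ideal.mul_mem_left _ _ (ih fun b hb => hw b (Finset.mem_insert_of_mem hb)))

/-- **Formal Eichler–Shimura congruence, general form.**
`σ` an automorphism of `R` with `σ a ≡ a ^ ℓ` modulo `I ∋ ℓ`.  Let `u` be a Laurent series,
`w_b` (`b ∈ s`, `s.card = ℓ`) series congruent to `u` coefficientwise modulo `I` (in the
application: the conjugates `u(ζ^b x)`, `x = q^{1/ℓ}`), and `W` a series with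
`W(q ^ ℓ) = ∏_b w_b`.  Then the multiplicative Hecke transform `u(q ^ ℓ) * W` satisfies
`u(q ^ ℓ) * W ≡ (σ⁻¹ u) ^ ℓ * σ u` coefficientwise modulo `I`. -/
theorem formalES_general (hℓ : (ℓ : R) ∈ I) (σ : R ≃+* R) (hσ : ∀ a : R, σ a - a ^ ℓ ∈ I)
    {ι : Type*} (s : Finset ι) (hs : s.card = ℓ) (u W : LaurentSeries R)
    (w : ι → LaurentSeries R) (hw : ∀ b ∈ s, w b - u ∈ coeffIdeal I)
    (hW : qExpand R ℓ W = ∏ b ∈ s, w b) :
    qExpand R ℓ u * W
      - coeffMap (σ.symm : R →+* R) u ^ ℓ * coeffMap (σ : R →+* R) u ∈ coeffIdeal I := by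
  have hσ' : ∀ a : R, (σ : R →+* R) a - a ^ ℓ ∈ I := hσ
  -- `W ≡ σ u`
  have h1 : qExpand R ℓ W - u ^ ℓ ∈ coeffIdeal I := by
    have := prod_sub_pow_mem s (coeffIdeal I) u w hw
    rwa [hs, ← hW] at this
  have h2 : u ^ ℓ - qExpand R ℓ (coeffMap (σ : R →+* R) u) ∈ coeffIdeal I :=
    pow_prime_congr hℓ hσ' u
  have h3 : W - coeffMap (σ : R →+* R) u ∈ coeffIdeal I := by
    apply mem_coeffIdeal_of_qExpand_mem (ℓ := ℓ)
    have e : qExpand R ℓ (W - coeffMap (σ : R →+* R) u)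
        = (qExpand R ℓ W - u ^ ℓ) + (u ^ ℓ - qExpand R ℓ (coeffMap (σ : R →+* R) u)) := by
      rw [map_sub]; ring
    rw [e]
    exact add_mem h1 h2
  -- `u(q ^ ℓ) ≡ (σ⁻¹ u) ^ ℓ`
  have h4 : coeffMap (σ.symm : R →+* R) u ^ ℓ - qExpand R ℓ u ∈ coeffIdeal I := by
    have := pow_prime_congr hℓ hσ' (coeffMap (σ.symm : R →+* R) u)
    rw [coeffMap_coeffMap] at this
    have hid : ((σ : R →+* R).comp (σ.symm : R →+* R)) = RingHom.id R := by
      ext a; simp
    rwa [coeffMap_congr hid, coeffMap_id] at this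
  have e : qExpand R ℓ u * W
      - coeffMap (σ.symm : R →+* R) u ^ ℓ * coeffMap (σ : R →+* R) u
      = qExpand R ℓ u * (W - coeffMap (σ : R →+* R) u)
        - (coeffMap (σ.symm : R →+* R) u ^ ℓ - qExpand R ℓ u) * coeffMap (σ : R →+* R) u := by
    ring
  rw [e]
  exact sub_mem (Ideal.mul_mem_left _ _ h3) (Ideal.mul_mem_right _ _ h4)

/-- Inertia: a ring endomorphism congruent to the identity modulo `I` moves Laurent series only
inside the coefficient ideal. -/
theorem inertia_congr (τ : R →+* R) (hτ : ∀ a : R, τ a - a ∈ I) (u : LaurentSeries R) :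
    coeffMap τ u - u ∈ coeffIdeal I := by
  rw [mem_coeffIdeal]
  intro n
  rw [HahnSeries.coeff_sub, coeffMap_coeff]
  exact hτ _

end ES

/-! ### Explicit twists and the operator `U_ℓ` -/

section Twist

/-- The twist `q ↦ c q` of a Laurent series, for a unit `c`. -/
def tw (c : Rˣ) (f : LaurentSeries R) : LaurentSeries R where
  coeff n := ((c ^ n : Rˣ) : R) * f.coeff n
  isPWO_support' := f.isPWO_support.mono fun n hn => by
    rw [Function.mem_support] at hn
    rw [HahnSeries.mem_support]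
    intro h0
    exact hn (by rw [h0, mul_zero])

@[simp]
theorem tw_coeff (c : Rˣ) (f : LaurentSeries R) (n : ℤ) :
    (tw c f).coeff n = ((c ^ n : Rˣ) : R) * f.coeff n := rfl

theorem tw_support (c : Rˣ) (f : LaurentSeries R) : (tw c f).support = f.support := by
  ext n
  rw [HahnSeries.mem_support, HahnSeries.mem_support, tw_coeff]
  constructor
  · intro h h0
    exact h (by rw [h0, mul_zero])
  · intro h h0
    exact h ((Units.mul_right_eq_zero _).mp h0)

theorem tw_one (f : LaurentSeries R) : tw 1 f = f := by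
  ext n
  simp

theorem tw_add (c : Rˣ) (f g : LaurentSeries R) : tw c (f + g) = tw c f + tw c g := by
  ext n
  simp [mul_add]

theorem tw_mul (c : Rˣ) (f g : LaurentSeries R) : tw c (f * g) = tw c f * tw c g := by
  ext k
  rw [tw_coeff, HahnSeries.coeff_mul, HahnSeries.coeff_mul, Finset.mul_sum]
  have hs : Finset.antidiagonal (tw c f).isPWO_support (tw c g).isPWO_support k
      = Finset.antidiagonal f.isPWO_support g.isPWO_support k := by
    ext ij
    simp only [Finset.mem_antidiagonal, tw_support]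
  rw [hs]
  refine Finset.sum_congr rfl fun ij hij => ?_
  obtain ⟨_, _, hsum⟩ := Finset.mem_antidiagonal.mp hij
  rw [tw_coeff, tw_coeff, ← hsum, zpow_add, Units.val_mul]
  ring

theorem tw_single (c : Rˣ) (n : ℤ) (a : R) :
    tw c (HahnSeries.single n a) = HahnSeries.single n (((c ^ n : Rˣ) : R) * a) := by
  ext m
  rw [tw_coeff, HahnSeries.coeff_single, HahnSeries.coeff_single]
  split_ifs with h
  · rw [h]
  · rw [mul_zero]

/-- The twist as a ring homomorphism. -/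
def twRingHom (c : Rˣ) : LaurentSeries R →+* LaurentSeries R where
  toFun := tw c
  map_one' := by
    have h : (1 : LaurentSeries R) = HahnSeries.single 0 1 := rfl
    rw [h, tw_single, zpow_zero, Units.val_one, one_mul]
  map_mul' := tw_mul c
  map_zero' := by
    ext n
    simp
  map_add' := tw_add c

@[simp]
theorem twRingHom_apply (c : Rˣ) (f : LaurentSeries R) : twRingHom c f = tw c f := rfl

theorem tw_tw (c d : Rˣ) (f : LaurentSeries R) : tw c (tw d f) = tw (c * d) f := by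
  ext n
  rw [tw_coeff, tw_coeff, tw_coeff, mul_zpow, Units.val_mul, mul_assoc]

/-- A twist by a unit congruent to `1` modulo `I` is congruent to the identity. -/
theorem tw_sub_mem_coeffIdeal {I : Ideal R} (c : Rˣ) (hc : (c : R) - 1 ∈ I)
    (f : LaurentSeries R) : tw c f - f ∈ coeffIdeal I := by
  rw [mem_coeffIdeal]
  intro n
  rw [HahnSeries.coeff_sub, tw_coeff]
  have key : ∀ m : ℤ, ((c ^ m : Rˣ) : R) - 1 ∈ I := by
    have hnat : ∀ m : ℕ, ((c ^ m : Rˣ) : R) - 1 ∈ I := by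
      intro m
      induction m with
      | zero => simp
      | succ m ih =>
          have e : ((c ^ (m + 1) : Rˣ) : R) - 1
              = ((c ^ m : Rˣ) : R) * ((c : R) - 1) + (((c ^ m : Rˣ) : R) - 1) := by
            rw [pow_succ, Units.val_mul]; ring
          rw [e]
          exact add_mem (Ideal.mul_mem_left _ _ hc) ih
    intro m
    obtain ⟨k, rfl | rfl⟩ := Int.eq_nat_or_neg m
    · simpa using hnat k
    · -- `c ^ (-k) - 1 = - c ^ (-k) * (c ^ k - 1)`
      have e : ((c ^ (-(k : ℤ)) : Rˣ) : R) - 1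
          = -(((c ^ (-(k : ℤ)) : Rˣ) : R) * (((c ^ k : Rˣ) : R) - 1)) := by
        have h1 : ((c ^ (-(k : ℤ)) : Rˣ) : R) * ((c ^ k : Rˣ) : R) = 1 := by
          rw [← Units.val_mul, zpow_neg, zpow_natCast, inv_mul_cancel, Units.val_one]
        linear_combination h1
      rw [e]
      exact I.neg_mem (Ideal.mul_mem_left _ _ (hnat k))
  have e : ((c ^ n : Rˣ) : R) * f.coeff n - f.coeff n
      = (((c ^ n : Rˣ) : R) - 1) * f.coeff n := by ring
  rw [e]
  exact Ideal.mul_mem_right _ _ (key n)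

theorem uOp_bddBelow (ℓ : ℕ) [NeZero ℓ] (f : LaurentSeries R) :
    BddBelow (Function.support fun n : ℤ => f.coeff ((ℓ : ℤ) * n)) := by
  refine ⟨-|f.order|, fun m hm => ?_⟩
  by_contra hlt
  rw [not_le] at hlt
  apply hm
  apply HahnSeries.coeff_eq_zero_of_lt_order
  have hℓ : (1 : ℤ) ≤ (ℓ : ℤ) := by
    exact_mod_cast Nat.one_le_iff_ne_zero.mpr (NeZero.ne ℓ)
  have h1 : -|f.order| ≤ f.order := neg_abs_le f.order
  have h2 : (0 : ℤ) ≤ |f.order| := abs_nonneg _
  nlinarith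

/-- The operator `U_ℓ` on Laurent series: `(U_ℓ f).coeff n = f.coeff (ℓ n)`. -/
def uOp (ℓ : ℕ) [NeZero ℓ] (f : LaurentSeries R) : LaurentSeries R :=
  HahnSeries.ofSuppBddBelow (fun n : ℤ => f.coeff ((ℓ : ℤ) * n)) (uOp_bddBelow ℓ f)

@[simp]
theorem uOp_coeff (ℓ : ℕ) [NeZero ℓ] (f : LaurentSeries R) (n : ℤ) :
    (uOp ℓ f).coeff n = f.coeff ((ℓ : ℤ) * n) := rfl

theorem uOp_qExpand (ℓ : ℕ) [NeZero ℓ] (f : LaurentSeries R) : uOp ℓ (qExpand R ℓ f) = f := by
  ext n
  rw [uOp_coeff, qExpand_coeff_mul]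

/-- A series supported on multiples of `ℓ` is `(U_ℓ f)(q ^ ℓ)`. -/
theorem qExpand_uOp (ℓ : ℕ) [NeZero ℓ] (f : LaurentSeries R)
    (hf : ∀ k : ℤ, ¬ (ℓ : ℤ) ∣ k → f.coeff k = 0) : qExpand R ℓ (uOp ℓ f) = f := by
  ext k
  by_cases hdvd : (ℓ : ℤ) ∣ k
  · obtain ⟨n, rfl⟩ := hdvd
    rw [qExpand_coeff_mul, uOp_coeff]
  · rw [qExpand_coeff_of_not_dvd ℓ _ hdvd, hf k hdvd]

theorem uOp_mem_coeffIdeal {I : Ideal R} (ℓ : ℕ) [NeZero ℓ] {f : LaurentSeries R}
    (h : f ∈ coeffIdeal I) : uOp ℓ f ∈ coeffIdeal I := by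
  rw [mem_coeffIdeal] at h ⊢
  intro n
  rw [uOp_coeff]
  exact h _

theorem uOp_sub (ℓ : ℕ) [NeZero ℓ] (f g : LaurentSeries R) :
    uOp ℓ (f - g) = uOp ℓ f - uOp ℓ g := by
  ext n
  simp

/-- The formal multiplicative Hecke operator
`T_ℓ(u) = u(q ^ ℓ) * U_ℓ (∏_{b < ℓ} u(ζ ^ b x))`. -/
def heckeMul (ℓ : ℕ) [NeZero ℓ] (ζ : Rˣ) (u : LaurentSeries R) : LaurentSeries R :=
  qExpand R ℓ u * uOp ℓ (∏ b ∈ Finset.range ℓ, tw (ζ ^ b) u)

/-- **Formal Eichler–Shimura congruence** for the multiplicative Hecke operator: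
`T_ℓ(u) ≡ (σ⁻¹ u) ^ ℓ * σ u` coefficientwise modulo `I`, for every Laurent series `u`, as soon
as `ℓ ∈ I`, `ζ ≡ 1` modulo `I` and `σ ≡ Frob_ℓ` modulo `I`. -/
theorem formalES {ℓ : ℕ} [Fact ℓ.Prime] {I : Ideal R} (hℓ : (ℓ : R) ∈ I) (ζ : Rˣ)
    (hζ : (ζ : R) - 1 ∈ I) (σ : R ≃+* R) (hσ : ∀ a : R, σ a - a ^ ℓ ∈ I)
    (u : LaurentSeries R) :
    heckeMul ℓ ζ u
      - coeffMap (σ.symm : R →+* R) u ^ ℓ * coeffMap (σ : R →+* R) u ∈ coeffIdeal I := by
  have hσ' : ∀ a : R, (σ : R →+* R) a - a ^ ℓ ∈ I := hσ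
  -- each twist is congruent to `u`
  have hpow : ∀ b : ℕ, ((ζ ^ b : Rˣ) : R) - 1 ∈ I := by
    intro b
    induction b with
    | zero => simp
    | succ b ih =>
        have e : ((ζ ^ (b + 1) : Rˣ) : R) - 1
            = ((ζ ^ b : Rˣ) : R) * ((ζ : R) - 1) + (((ζ ^ b : Rˣ) : R) - 1) := by
          rw [pow_succ, Units.val_mul]; ring
        rw [e]
        exact add_mem (Ideal.mul_mem_left _ _ hζ) ih
  have hw : ∀ b ∈ Finset.range ℓ, tw (ζ ^ b) u - u ∈ coeffIdeal I := fun b _ =>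
    tw_sub_mem_coeffIdeal _ (hpow b) u
  have h1 : ∏ b ∈ Finset.range ℓ, tw (ζ ^ b) u - u ^ ℓ ∈ coeffIdeal I := by
    have := prod_sub_pow_mem (Finset.range ℓ) (coeffIdeal I) u (fun b => tw (ζ ^ b) u) hw
    rwa [Finset.card_range] at this
  have h2 : u ^ ℓ - qExpand R ℓ (coeffMap (σ : R →+* R) u) ∈ coeffIdeal I :=
    pow_prime_congr hℓ hσ' u
  have h3 : uOp ℓ (∏ b ∈ Finset.range ℓ, tw (ζ ^ b) u) - coeffMap (σ : R →+* R) u
      ∈ coeffIdeal I := by
    have h12 := uOp_mem_coeffIdeal ℓ (add_mem h1 h2)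
    have e : ∏ b ∈ Finset.range ℓ, tw (ζ ^ b) u - u ^ ℓ
        + (u ^ ℓ - qExpand R ℓ (coeffMap (σ : R →+* R) u))
        = ∏ b ∈ Finset.range ℓ, tw (ζ ^ b) u - qExpand R ℓ (coeffMap (σ : R →+* R) u) := by
      ring
    rwa [e, uOp_sub, uOp_qExpand] at h12
  have h4 : coeffMap (σ.symm : R →+* R) u ^ ℓ - qExpand R ℓ u ∈ coeffIdeal I := by
    have := pow_prime_congr hℓ hσ' (coeffMap (σ.symm : R →+* R) u)
    rw [coeffMap_coeffMap] at this
    have hid : ((σ : R →+* R).comp (σ.symm : R →+* R)) = RingHom.id R := by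
      ext a; simp
    rwa [coeffMap_congr hid, coeffMap_id] at this
  have e : heckeMul ℓ ζ u
      - coeffMap (σ.symm : R →+* R) u ^ ℓ * coeffMap (σ : R →+* R) u
      = qExpand R ℓ u * (uOp ℓ (∏ b ∈ Finset.range ℓ, tw (ζ ^ b) u)
          - coeffMap (σ : R →+* R) u)
        - (coeffMap (σ.symm : R →+* R) u ^ ℓ - qExpand R ℓ u) * coeffMap (σ : R →+* R) u := by
    rw [heckeMul]; ring
  rw [e]
  exact sub_mem (Ideal.mul_mem_left _ _ h3) (Ideal.mul_mem_right _ _ h4)

end Twist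

end Fermat.Agent.S29.helper7964
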