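import Fermat.Agent.S37.helper5162_HeckeInputsModular
import Fermat.Agent.S24.helper1944_Ev
import Fermat.Agent.Lib.helper1356_Gamma0Index
import Fermat.Agent.S29.helper7964_FormalES

/-!
# S29-NORMQ (helper4824): the norm along `α` of `β u` is the multiplicative Hecke operator

For `ℓ` prime, `ℓ ∤ N`, and `u` in the function field `F_N = ℚ̄(j(q^d) : d ∣ N)`, the Prelude Hecke
correspondence `T_ℓ = α_* β^*` acts on functions by `u ↦ Norm_{F_{Nℓ}/α F_N}(β u)`, where
`α : F_N → F_{Nℓ}` is the inclusion and `β : q ↦ q^ℓ`.  This file proves the `q`-series formula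

`Norm_α (β u) = u(q^ℓ) * g`,   `g(q^ℓ) = ∏_{b < ℓ} u(ζ^b q)`   (`ζ` a primitive `ℓ`-th root of `1`),

i.e. the Prelude `T_ℓ` on functions is the classical multiplicative Hecke operator.

Route: the `ℓ + 1` embeddings of `F_{Nℓ}` over `α(F_N)` into `ℚ̄((q))` are `x(q) ↦ x(q^{ℓ²})` and
`tw(c^b) ∘ w` (`b < ℓ`), where `w` is the Atkin–Lehner swap embedding (`w(α h) = h(q^{ℓ²})`,
`w(β h) = h(q^ℓ)`), constructed from the analytic dictionary of S24 and the substitution
`τ ↦ Wτ`, and `c` is a primitive `ℓ²`-th root of unity; the degree is `ℓ + 1` by the S24 degree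
formula and the index of `Γ₀(Nℓ)` in `Γ₀(N)`; the norm is the product over the embeddings.
-/

set_option autoImplicit false
set_option linter.style.haveILetI false
set_option linter.unusedSectionVars false

open ModularCurve AlgebraicCurve IntermediateField UpperHalfPlane
open scoped MatrixGroups

namespace Fermat.Agent.S29.helper4824

open Fermat.Agent.S24.helper24 Fermat.Agent.S24.helper1944 Fermat.Agent.S24.helper3176

noncomputable section

/-! ## Generic: norm as a product over sufficiently many embeddings -/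

section Generic

/-- If `τ i`, `i : ι`, are `[L : K]` pairwise distinct ring homs `L → E` (fields) all restricting
to the same `e0 : K → E`, then `e0 (Norm_{L/K} x) = ∏ i, τ i x`. -/
theorem norm_eq_prod_ringHoms {K L E : Type*} [Field K] [Field L] [Field E] [Algebra K L]
    [FiniteDimensional K L] [Algebra.IsSeparable K L] (e0 : K →+* E) {ι : Type*} [Fintype ι]
    (hcard : Fintype.card ι = Module.finrank K L) (τ : ι → (L →+* E))
    (hτ : ∀ i (a : K), τ i (algebraMap K L a) = e0 a) (hinj : Function.Injective τ) (x : L) :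
    e0 (Algebra.norm K x) = ∏ i, τ i x := by
  classical
  letI : Algebra K E := e0.toAlgebra
  let σ : ι → (L →ₐ[K] AlgebraicClosure E) := fun i =>
    { toRingHom := (algebraMap E (AlgebraicClosure E)).comp (τ i)
      commutes' := fun a => by
        show algebraMap E (AlgebraicClosure E) (τ i (algebraMap K L a))
          = algebraMap K (AlgebraicClosure E) a
        rw [hτ i a, IsScalarTower.algebraMap_apply K E (AlgebraicClosure E)]
        rfl }
  have hσ : Function.Injective σ := by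
    intro i j hij
    apply hinj
    ext y
    have := congrArg (fun f : L →ₐ[K] AlgebraicClosure E => f y) hij
    exact (algebraMap E (AlgebraicClosure E)).injective this
  have hbij : Function.Bijective σ :=
    (Fintype.bijective_iff_injective_and_card σ).mpr ⟨hσ, by rw [hcard, AlgHom.card]⟩
  have h := Algebra.norm_eq_prod_embeddings K (AlgebraicClosure E) x
  rw [← Fintype.prod_bijective σ hbij (fun i => σ i x) (fun f => f x) (fun i => rfl)] at h
  apply (algebraMap E (AlgebraicClosure E)).injective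
  rw [map_prod]
  rw [IsScalarTower.algebraMap_apply K E (AlgebraicClosure E)] at h
  exact h

/-- Tower law along an algebra hom: `[F : K(x)] * [F' : φ F] = [F' : K(φ x)]`. -/
theorem finrank_mul_finrankAlong {K F F' : Type*} [Field K] [Field F] [Field F'] [Algebra K F]
    [Algebra K F'] (φ : F →ₐ[K] F') (x : F) :
    Module.finrank K⟮x⟯ F * finrankAlong K φ = Module.finrank K⟮φ x⟯ F' := by
  letI := algebraAlong φ
  letI : Algebra K⟮x⟯ F' := ((algebraMap F F').comp (algebraMap K⟮x⟯ F)).toAlgebra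
  haveI : IsScalarTower K⟮x⟯ F F' := IsScalarTower.of_algebraMap_eq fun _ => rfl
  have h1 : Module.finrank K⟮x⟯ F * Module.finrank F F' = Module.finrank K⟮x⟯ F' :=
    Module.finrank_mul_finrank K⟮x⟯ F F'
  have hmap : K⟮x⟯.map φ = K⟮φ x⟯ := by
    rw [adjoin_map, Set.image_singleton]
  let e : K⟮x⟯ ≃+* K⟮φ x⟯ :=
    ((IntermediateField.equivMap K⟮x⟯ φ).trans (IntermediateField.equivOfEq hmap)).toRingEquiv
  have h2 : Module.finrank K⟮x⟯ F' = Module.finrank K⟮φ x⟯ F' := by
    refine Algebra.finrank_eq_of_equiv_equiv e (RingEquiv.refl F') ?_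
    ext y
    rfl
  show Module.finrank K⟮x⟯ F * Module.finrank F F' = _
  rw [h1, h2]

end Generic

/-! ## The coefficient twist `q ↦ c q` on Laurent series over a field -/

section Twist

variable {K : Type*} [Field K]

/-- The underlying function of the twist `∑ aₙ qⁿ ↦ ∑ cⁿ aₙ qⁿ`. -/
def twistFun (c : K) (x : LaurentSeries K) : LaurentSeries K where
  coeff n := c ^ n * x.coeff n
  isPWO_support' := x.isPWO_support.mono (fun n hn => by
    simp only [Function.mem_support, ne_eq] at hn ⊢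
    exact fun h => hn (by rw [h, mul_zero]))

@[simp]
theorem twistFun_coeff (c : K) (x : LaurentSeries K) (n : ℤ) :
    (twistFun c x).coeff n = c ^ n * x.coeff n := rfl

theorem support_twistFun {c : K} (hc : c ≠ 0) (x : LaurentSeries K) :
    (twistFun c x).support = x.support := by
  ext n
  simp only [HahnSeries.mem_support, twistFun_coeff, ne_eq, mul_eq_zero, not_or]
  constructor
  · exact fun h => h.2
  · exact fun h => ⟨zpow_ne_zero n hc, h⟩

theorem twistFun_mul {c : K} (hc : c ≠ 0) (x y : LaurentSeries K) :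
    twistFun c (x * y) = twistFun c x * twistFun c y := by
  ext n
  rw [twistFun_coeff, HahnSeries.coeff_mul, HahnSeries.coeff_mul, Finset.mul_sum]
  refine Finset.sum_congr ?_ fun ij hij => ?_
  · ext ij
    simp [support_twistFun hc]
  · have hn : ij.1 + ij.2 = n := by
      simp only [Finset.mem_antidiagonal] at hij
      exact hij.2.2
    rw [twistFun_coeff, twistFun_coeff, ← hn, zpow_add₀ hc]
    ring

/-- The twist `q ↦ c q` as a ring homomorphism (`c ≠ 0`). -/
def twistHom (c : K) (hc : c ≠ 0) : LaurentSeries K →+* LaurentSeries K where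
  toFun := twistFun c
  map_one' := by
    ext n
    rw [twistFun_coeff, HahnSeries.coeff_one]
    split_ifs with h
    · subst h; simp
    · simp
  map_mul' := twistFun_mul hc
  map_zero' := by ext n; simp
  map_add' x y := by ext n; simp [mul_add]

@[simp]
theorem twistHom_apply (c : K) (hc : c ≠ 0) (x : LaurentSeries K) :
    twistHom c hc x = twistFun c x := rfl

theorem twistFun_single_zero (c : K) (a : K) :
    twistFun c (HahnSeries.single 0 a) = HahnSeries.single 0 a := by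
  ext n
  rw [twistFun_coeff, HahnSeries.coeff_single]
  split_ifs with h
  · subst h; simp
  · simp

/-- Twisting a series in `q^d`: `(x(q^d))(c q) = x(c^d q^d)`. -/
theorem twistFun_qExpand (c : K) (d : ℕ) [NeZero d] (x : LaurentSeries K) :
    twistFun c (qExpand K d x) = qExpand K d (twistFun (c ^ d) x) := by
  ext n
  by_cases hn : (d : ℤ) ∣ n
  · obtain ⟨m, rfl⟩ := hn
    rw [twistFun_coeff, qExpand_coeff_mul, qExpand_coeff_mul, twistFun_coeff, zpow_mul,
      zpow_natCast]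
  · rw [twistFun_coeff, qExpand_coeff_of_not_dvd d x hn, qExpand_coeff_of_not_dvd d _ hn,
      mul_zero]

theorem twistFun_one (x : LaurentSeries K) : twistFun (1 : K) x = x := by
  ext n
  simp

/-- A series in `q^d` is fixed by the twist by a `d`-th root of unity. -/
theorem twistFun_qExpand_of_pow_eq_one {c : K} {d : ℕ} [NeZero d] (hc : c ^ d = 1)
    (x : LaurentSeries K) : twistFun c (qExpand K d x) = qExpand K d x := by
  rw [twistFun_qExpand, hc, twistFun_one]

end Twist

/-! ## Convergent evaluation: uniqueness -/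

section Eval

theorem convS_neg {x : LaurentSeries Kbar} (hx : ConvS x) : ConvS (-x) := fun τ => by
  have h := hasSum_lsTerm_neg (hx.hasSum τ)
  rw [← map_neg] at h
  exact h.summable

theorem evS_neg {x : LaurentSeries Kbar} (hx : ConvS x) (τ : ℍ) : evS (-x) τ = -evS x τ := by
  have h := hasSum_lsTerm_neg (hx.hasSum τ)
  rw [← map_neg] at h
  exact evS_of_hasSum h

/-- Two convergent series with the same sum on the upper half plane are equal. -/
theorem eq_of_evS_eq {x y : LaurentSeries Kbar} (hx : ConvS x) (hy : ConvS y)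
    (h : ∀ τ : ℍ, evS x τ = evS y τ) : x = y := by
  have h0 : x + -y = 0 := by
    refine eq_zero_of_evS_eq_zero (hx.add (convS_neg hy)) fun τ => ?_
    rw [evS_add hx (convS_neg hy), evS_neg hy, h τ, add_neg_cancel]
  exact add_neg_eq_zero.mp h0

theorem convS_zero : ConvS (0 : LaurentSeries Kbar) := by
  have h := convS_algebraMap 0
  rwa [map_zero] at h

theorem evS_zero (τ : ℍ) : evS (0 : LaurentSeries Kbar) τ = 0 := by
  have h := evS_algebraMap 0 τ
  rwa [map_zero, map_zero] at h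

theorem convS_one : ConvS (1 : LaurentSeries Kbar) := by
  have h := convS_algebraMap 1
  rwa [map_one] at h

theorem evS_one (τ : ℍ) : evS (1 : LaurentSeries Kbar) τ = 1 := by
  have h := evS_algebraMap 1 τ
  rwa [map_one, map_one] at h

end Eval

/-! ## The Atkin–Lehner substitution on the upper half plane -/

section Moebius

/-- The matrix `[[ℓ² x, y], [N ℓ², ℓ]]` (determinant `ℓ²` when `ℓ x - N y = 1`). -/
def swapGL (N l : ℕ) (x y : ℤ) (hl : l ≠ 0) (h : (l : ℤ) * x - (N : ℤ) * y = 1) : GL (Fin 2) ℝ :=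
  Matrix.GeneralLinearGroup.mkOfDetNeZero
    !![((l : ℝ) ^ 2 * (x : ℝ)), (y : ℝ); ((N : ℝ) * (l : ℝ) ^ 2), (l : ℝ)] (by
      have hR : (l : ℝ) * (x : ℝ) - (N : ℝ) * (y : ℝ) = 1 := by exact_mod_cast h
      have hl' : (l : ℝ) ≠ 0 := by exact_mod_cast hl
      rw [Matrix.det_fin_two_of]
      have : (l : ℝ) ^ 2 * (x : ℝ) * (l : ℝ) - (y : ℝ) * ((N : ℝ) * (l : ℝ) ^ 2) = (l : ℝ) ^ 2 := by
        linear_combination ((l : ℝ) ^ 2) * hR
      rw [this]
      exact pow_ne_zero 2 hl')

theorem swapGL_det_pos (N l : ℕ) (x y : ℤ) (hl : l ≠ 0) (h : (l : ℤ) * x - (N : ℤ) * y = 1) :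
    0 < (swapGL N l x y hl h).det.val := by
  have hR : (l : ℝ) * (x : ℝ) - (N : ℝ) * (y : ℝ) = 1 := by exact_mod_cast h
  have hl' : (l : ℝ) ≠ 0 := by exact_mod_cast hl
  show 0 < Matrix.det !![((l : ℝ) ^ 2 * (x : ℝ)), (y : ℝ); ((N : ℝ) * (l : ℝ) ^ 2), (l : ℝ)]
  rw [Matrix.det_fin_two_of]
  have : (l : ℝ) ^ 2 * (x : ℝ) * (l : ℝ) - (y : ℝ) * ((N : ℝ) * (l : ℝ) ^ 2) = (l : ℝ) ^ 2 := by
    linear_combination ((l : ℝ) ^ 2) * hR
  rw [this]
  positivity

theorem coe_swapGL_smul (N l : ℕ) (x y : ℤ) (hl : l ≠ 0) (h : (l : ℤ) * x - (N : ℤ) * y = 1)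
    (τ : ℍ) :
    ((swapGL N l x y hl h • τ : ℍ) : ℂ) =
      (((l : ℂ) ^ 2 * (x : ℂ)) * τ + (y : ℂ)) / (((N : ℂ) * (l : ℂ) ^ 2) * τ + (l : ℂ)) := by
  rw [UpperHalfPlane.coe_smul_of_det_pos (swapGL_det_pos N l x y hl h)]
  simp [UpperHalfPlane.num, UpperHalfPlane.denom, swapGL]

theorem swapGL_denom_ne_zero (N l : ℕ) (x y : ℤ) (hl : l ≠ 0)
    (h : (l : ℤ) * x - (N : ℤ) * y = 1) (τ : ℍ) :
    ((N : ℂ) * (l : ℂ) ^ 2) * τ + (l : ℂ) ≠ 0 := by
  have h0 := UpperHalfPlane.denom_ne_zero (swapGL N l x y hl h) τ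
  simpa [UpperHalfPlane.denom, swapGL] using h0

/-- First substitution identity: `j(d · Wτ) = j(d ℓ² τ)` for `d ∣ N`. -/
theorem jFun_mulPt_swapGL_of_dvd (N l : ℕ) (x y : ℤ) (hl : l ≠ 0)
    (h : (l : ℤ) * x - (N : ℤ) * y = 1) {d N' : ℕ} (hd : 0 < d) (hN : N = d * N') (τ : ℍ) :
    jFun (mulPt d (swapGL N l x y hl h • τ)) = jFun (mulPt (d * l ^ 2) τ) := by
  have hdet : Matrix.det !![x, (d : ℤ) * y; (N' : ℤ), (l : ℤ)] = 1 := by
    rw [Matrix.det_fin_two_of]
    have : (N : ℤ) = (d : ℤ) * (N' : ℤ) := by exact_mod_cast hN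
    rw [this] at h
    linear_combination h
  let M1 : SL(2, ℤ) := ⟨!![x, (d : ℤ) * y; (N' : ℤ), (l : ℤ)], hdet⟩
  have hpt : mulPt d (swapGL N l x y hl h • τ) = M1 • mulPt (d * l ^ 2) τ := by
    apply UpperHalfPlane.ext
    have hdl : 0 < d * l ^ 2 := Nat.mul_pos hd (pow_pos (Nat.pos_of_ne_zero hl) 2)
    rw [coe_mulPt hd, coe_swapGL_smul, UpperHalfPlane.coe_specialLinearGroup_apply, coe_mulPt hdl]
    have hD := swapGL_denom_ne_zero N l x y hl h τ
    have hNc : (N : ℂ) = (d : ℂ) * (N' : ℂ) := by exact_mod_cast congrArg (Nat.cast : ℕ → ℂ) hN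
    have hD' : ((algebraMap ℤ ℝ (M1 1 0) : ℝ) : ℂ) * (((d * l ^ 2 : ℕ) : ℂ) * (τ : ℂ))
        + ((algebraMap ℤ ℝ (M1 1 1) : ℝ) : ℂ) = ((N : ℂ) * (l : ℂ) ^ 2) * τ + (l : ℂ) := by
      simp only [M1, Matrix.of_apply, Matrix.cons_val',
        Matrix.cons_val_zero, Matrix.cons_val_one, Matrix.cons_val_fin_one, eq_intCast]
      push_cast
      rw [hNc]
      ring
    rw [hD', ← mul_div_assoc, div_eq_div_iff hD hD]
    simp only [M1, Matrix.of_apply, Matrix.cons_val',
      Matrix.cons_val_zero, Matrix.cons_val_one, Matrix.cons_val_fin_one, eq_intCast]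
    push_cast
    ring
  rw [hpt, jFun_smul]

/-- Second substitution identity: `j(d ℓ · Wτ) = j(d ℓ τ)` for `d ∣ N`. -/
theorem jFun_mulPt_swapGL_of_mul (N l : ℕ) (x y : ℤ) (hl : l ≠ 0)
    (h : (l : ℤ) * x - (N : ℤ) * y = 1) {d N' : ℕ} (hd : 0 < d) (hN : N = d * N') (τ : ℍ) :
    jFun (mulPt (d * l) (swapGL N l x y hl h • τ)) = jFun (mulPt (d * l) τ) := by
  have hdet : Matrix.det !![(l : ℤ) * x, (d : ℤ) * y; (N' : ℤ), (1 : ℤ)] = 1 := by
    rw [Matrix.det_fin_two_of]
    have : (N : ℤ) = (d : ℤ) * (N' : ℤ) := by exact_mod_cast hN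
    rw [this] at h
    linear_combination h
  let M2 : SL(2, ℤ) := ⟨!![(l : ℤ) * x, (d : ℤ) * y; (N' : ℤ), (1 : ℤ)], hdet⟩
  have hpt : mulPt (d * l) (swapGL N l x y hl h • τ) = M2 • mulPt (d * l) τ := by
    apply UpperHalfPlane.ext
    have hdl : 0 < d * l := Nat.mul_pos hd (Nat.pos_of_ne_zero hl)
    rw [coe_mulPt hdl, coe_swapGL_smul, UpperHalfPlane.coe_specialLinearGroup_apply,
      coe_mulPt hdl]
    have hD := swapGL_denom_ne_zero N l x y hl h τ
    have hNc : (N : ℂ) = (d : ℂ) * (N' : ℂ) := by exact_mod_cast congrArg (Nat.cast : ℕ → ℂ) hN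
    have hlc : (l : ℂ) ≠ 0 := by exact_mod_cast hl
    have hD2 : ((N : ℂ) * (l : ℂ)) * τ + 1 ≠ 0 := by
      intro h0
      apply hD
      have : ((N : ℂ) * (l : ℂ) ^ 2) * τ + (l : ℂ) = (l : ℂ) * (((N : ℂ) * (l : ℂ)) * τ + 1) := by
        ring
      rw [this, h0, mul_zero]
    have hD' : ((algebraMap ℤ ℝ (M2 1 0) : ℝ) : ℂ) * (((d * l : ℕ) : ℂ) * (τ : ℂ))
        + ((algebraMap ℤ ℝ (M2 1 1) : ℝ) : ℂ) = ((N : ℂ) * (l : ℂ)) * τ + 1 := by
      simp only [M2, Matrix.of_apply, Matrix.cons_val',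
        Matrix.cons_val_zero, Matrix.cons_val_one, Matrix.cons_val_fin_one, eq_intCast]
      push_cast
      rw [hNc]
      ring
    rw [hD', ← mul_div_assoc, div_eq_div_iff hD hD2]
    simp only [M2, Matrix.of_apply, Matrix.cons_val',
      Matrix.cons_val_zero, Matrix.cons_val_one, Matrix.cons_val_fin_one, eq_intCast]
    push_cast
    ring
  rw [hpt, jFun_smul]

end Moebius

/-! ## The swap embedding `w : F_{Nℓ} → ℚ̄((q))` -/

section Swap

/-- The exponent swap: `d ↦ d ℓ²` if `ℓ ∤ d`, and `d ℓ ↦ d ℓ`. -/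
def swapExp (l e : ℕ) : ℕ := if l ∣ e then e else e * l ^ 2

theorem swapExp_of_dvd {l e : ℕ} (h : l ∣ e) : swapExp l e = e := if_pos h

theorem swapExp_of_not_dvd {l e : ℕ} (h : ¬ l ∣ e) : swapExp l e = e * l ^ 2 := if_neg h

instance neZero_swapExp (l e : ℕ) [NeZero l] [NeZero e] : NeZero (swapExp l e) := by
  refine ⟨?_⟩
  unfold swapExp
  split_ifs
  · exact NeZero.ne e
  · exact Nat.mul_ne_zero (NeZero.ne e) (pow_ne_zero 2 (NeZero.ne l))

variable (N l : ℕ) [NeZero N] [NeZero l]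

/-- `b` is the `q`-expansion of `τ ↦ ev(a)(G τ)`. -/
def SwapRel (G : GL (Fin 2) ℝ) (a : FN (N * l)) (b : LaurentSeries Kbar) : Prop :=
  ConvS b ∧ ∀ τ : ℍ, evS b τ = evFun (N * l) a (G • τ)

variable {N l}

theorem SwapRel.unique {G : GL (Fin 2) ℝ} {a : FN (N * l)} {b b' : LaurentSeries Kbar}
    (h : SwapRel N l G a b) (h' : SwapRel N l G a b') : b = b' :=
  eq_of_evS_eq h.1 h'.1 fun τ => by rw [h.2 τ, h'.2 τ]

theorem swapRel_const (G : GL (Fin 2) ℝ) (c : Kbar) :
    SwapRel N l G (algebraMap Kbar (FN (N * l)) c) (algebraMap Kbar (LaurentSeries Kbar) c) :=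
  ⟨convS_algebraMap c, fun τ => by rw [evS_algebraMap, evFun_algebraMap]⟩

theorem SwapRel.add {G : GL (Fin 2) ℝ} {a a' : FN (N * l)} {b b' : LaurentSeries Kbar}
    (ha : a ∈ AN (N * l)) (ha' : a' ∈ AN (N * l))
    (h : SwapRel N l G a b) (h' : SwapRel N l G a' b') : SwapRel N l G (a + a') (b + b') :=
  ⟨h.1.add h'.1, fun τ => by
    rw [evS_add h.1 h'.1, h.2 τ, h'.2 τ, evFun_add (N * l) ha ha']; rfl⟩

theorem SwapRel.mul {G : GL (Fin 2) ℝ} {a a' : FN (N * l)} {b b' : LaurentSeries Kbar}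
    (ha : a ∈ AN (N * l)) (ha' : a' ∈ AN (N * l))
    (h : SwapRel N l G a b) (h' : SwapRel N l G a' b') : SwapRel N l G (a * a') (b * b') :=
  ⟨h.1.mul h'.1, fun τ => by
    rw [evS_mul h.1 h'.1, h.2 τ, h'.2 τ, evFun_mul (N * l) ha ha']; rfl⟩

/-- The generators: `j(q^e) ↦ j(q^{swapExp e})`. -/
theorem swapRel_gen (hl : l.Prime) (x y : ℤ) (h : (l : ℤ) * x - (N : ℤ) * y = 1)
    (e : ℕ) [NeZero e] (he : e ∣ N * l) :
    SwapRel N l (swapGL N l x y (NeZero.ne l) h) (jBarD (N * l) e he) (jSeries (swapExp l e)) := by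
  refine ⟨convS_jSeries _, fun τ => ?_⟩
  rw [evS_jSeries, evFun_jBarD]
  by_cases hle : l ∣ e
  · obtain ⟨d, rfl⟩ := hle
    have hdN : d ∣ N := by
      have h1 : d * l ∣ N * l := by rwa [mul_comm d l]
      exact Nat.dvd_of_mul_dvd_mul_right (Nat.pos_of_ne_zero (NeZero.ne l)) h1
    obtain ⟨N', hN'⟩ := hdN
    have hd : 0 < d := by
      rcases Nat.eq_zero_or_pos d with h0 | h0
      · exact absurd (by rw [h0, mul_zero]) (NeZero.ne (l * d))
      · exact h0
    have key := jFun_mulPt_swapGL_of_mul N l x y (NeZero.ne l) h hd hN' τ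
    rw [swapExp_of_dvd (Dvd.intro d rfl)]
    rw [mul_comm l d]
    exact key.symm
  · have hcop : Nat.Coprime e l := ((Nat.Prime.coprime_iff_not_dvd hl).mpr hle).symm
    have heN : e ∣ N := hcop.dvd_of_dvd_mul_right he
    obtain ⟨N', hN'⟩ := heN
    have key := jFun_mulPt_swapGL_of_dvd N l x y (NeZero.ne l) h (NeZero.pos e) hN' τ
    rw [swapExp_of_not_dvd hle]
    exact key.symm

theorem exists_swapRel (hl : l.Prime) (x y : ℤ) (h : (l : ℤ) * x - (N : ℤ) * y = 1) :
    ∀ a ∈ AN (N * l), ∃ b, SwapRel N l (swapGL N l x y (NeZero.ne l) h) a b :=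
  AN_induction (N * l) (p := fun a => ∃ b, SwapRel N l (swapGL N l x y (NeZero.ne l) h) a b)
    (fun e _ he => ⟨_, swapRel_gen hl x y h e he⟩)
    (fun c => ⟨_, swapRel_const _ c⟩)
    (fun _ _ ha ha' ⟨_, hb⟩ ⟨_, hb'⟩ => ⟨_, hb.add ha ha' hb'⟩)
    (fun _ _ ha ha' ⟨_, hb⟩ ⟨_, hb'⟩ => ⟨_, hb.mul ha ha' hb'⟩)

theorem jSeries_congr {a b : ℕ} [NeZero a] [NeZero b] (h : a = b) : jSeries a = jSeries b := by
  subst h; rfl

theorem qExpand_jSeries (m d : ℕ) [NeZero m] [NeZero d] :
    qExpand Kbar m (jSeries d) = jSeries (m * d) := by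
  rw [jSeries_eq_qExpand, jSeries_eq_qExpand, qExpand_qExpand]

theorem qExpand_algebraMap (m : ℕ) [NeZero m] (c : Kbar) :
    qExpand Kbar m (algebraMap Kbar (LaurentSeries Kbar) c)
      = algebraMap Kbar (LaurentSeries Kbar) c := by
  rw [algebraMap_laurentSeries_eq_single, qExpand_single, mul_zero]

section SwapHom

variable (hl : l.Prime) (x y : ℤ) (h : (l : ℤ) * x - (N : ℤ) * y = 1)

/-- The swap on the algebra `AN (N ℓ)`, as a function. -/
def swapAN (a : AN (N * l)) : LaurentSeries Kbar :=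
  Classical.choose (exists_swapRel hl x y h (a : FN (N * l)) a.2)

theorem swapAN_spec (a : AN (N * l)) :
    SwapRel N l (swapGL N l x y (NeZero.ne l) h) (a : FN (N * l)) (swapAN hl x y h a) :=
  Classical.choose_spec (exists_swapRel hl x y h (a : FN (N * l)) a.2)

/-- The swap on the algebra `AN (N ℓ)`, as an algebra hom. -/
def swapANHom : AN (N * l) →ₐ[Kbar] LaurentSeries Kbar where
  toFun := swapAN hl x y h
  map_one' := by
    have h1 := swapRel_const (N := N) (l := l) (swapGL N l x y (NeZero.ne l) h) (1 : Kbar)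
    rw [map_one, map_one] at h1
    exact (swapAN_spec hl x y h 1).unique h1
  map_mul' a b :=
    (swapAN_spec hl x y h (a * b)).unique
      ((swapAN_spec hl x y h a).mul a.2 b.2 (swapAN_spec hl x y h b))
  map_zero' := by
    have h1 := swapRel_const (N := N) (l := l) (swapGL N l x y (NeZero.ne l) h) (0 : Kbar)
    rw [map_zero, map_zero] at h1
    exact (swapAN_spec hl x y h 0).unique h1
  map_add' a b :=
    (swapAN_spec hl x y h (a + b)).unique
      ((swapAN_spec hl x y h a).add a.2 b.2 (swapAN_spec hl x y h b))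
  commutes' c :=
    (swapAN_spec hl x y h (algebraMap Kbar (AN (N * l)) c)).unique (swapRel_const _ c)

theorem swapANHom_apply (a : AN (N * l)) : swapANHom hl x y h a = swapAN hl x y h a := rfl

theorem swapANHom_injective : Function.Injective (swapANHom hl x y h) := by
  rw [injective_iff_map_eq_zero]
  intro a ha
  apply Subtype.ext
  refine eq_zero_of_evFun_eq_zero (N * l) a.2 fun τ => ?_
  have hs := (swapAN_spec hl x y h a).2 ((swapGL N l x y (NeZero.ne l) h)⁻¹ • τ)
  rw [smul_inv_smul] at hs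
  rw [← hs, ← swapANHom_apply, ha, evS_zero]

theorem swapANHom_gen (e : ℕ) [NeZero e] (he : e ∣ N * l) :
    swapANHom hl x y h ⟨jBarD (N * l) e he, jBarD_mem_AN (N * l) e he⟩ = jSeries (swapExp l e) :=
  (swapAN_spec hl x y h ⟨jBarD (N * l) e he, jBarD_mem_AN (N * l) e he⟩).unique
    (swapRel_gen hl x y h e he)

end SwapHom

/-- **The Atkin–Lehner swap embedding** `w : F_{Nℓ} → ℚ̄((q))`: `w(α u) = u(q^{ℓ²})` and
`w(β u) = u(q^ℓ)`. -/
theorem exists_swap (N l : ℕ) [NeZero N] [NeZero l] (hl : l.Prime) (hlN : ¬ l ∣ N) :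
    ∃ w : FN (N * l) →ₐ[Kbar] LaurentSeries Kbar,
      (∀ u : FN N, w (heckeAlphaBar Kbar N l u) = qExpand Kbar (l ^ 2) (u : LaurentSeries Kbar)) ∧
      (∀ u : FN N, w (heckeBetaBar Kbar N l u) = qExpand Kbar l (u : LaurentSeries Kbar)) := by
  have hcop : IsCoprime (l : ℤ) (N : ℤ) :=
    Nat.isCoprime_iff_coprime.mpr ((Nat.Prime.coprime_iff_not_dvd hl).mpr hlN)
  obtain ⟨a, b, hab⟩ := hcop
  have h : (l : ℤ) * a - (N : ℤ) * (-b) = 1 := by linear_combination hab
  obtain ⟨w, hw⟩ := exists_algHom_extension (N * l) (swapANHom hl a (-b) h)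
    (swapANHom_injective hl a (-b) h)
  have hnd : ∀ d : ℕ, d ∣ N → ¬ l ∣ d := fun d hd hld => hlN (hld.trans hd)
  refine ⟨w, fun u => ?_, fun u => ?_⟩
  · have key : (w : FN (N * l) →+* LaurentSeries Kbar).comp
        (heckeAlphaBar Kbar N l : FN N →+* FN (N * l))
        = (qExpand Kbar (l ^ 2)).comp (algebraMap (FN N) (LaurentSeries Kbar)) := by
      refine ringHom_ext_of_gen N (fun c => ?_) (fun d _ hd => ?_)
      · show w (heckeAlphaBar Kbar N l (algebraMap Kbar (FN N) c))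
          = qExpand Kbar (l ^ 2) (algebraMap Kbar (LaurentSeries Kbar) c)
        rw [AlgHom.commutes, AlgHom.commutes, qExpand_algebraMap]
      · show w (heckeAlphaBar Kbar N l (jBarD N d hd)) = qExpand Kbar (l ^ 2) (jSeries d)
        have hd' : d ∣ N * l := hd.trans (dvd_mul_right N l)
        have e1 : heckeAlphaBar Kbar N l (jBarD N d hd) = jBarD (N * l) d hd' :=
          Subtype.ext (coe_heckeAlphaBar N l _)
        rw [e1, hw ⟨jBarD (N * l) d hd', jBarD_mem_AN (N * l) d hd'⟩, swapANHom_gen,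
          qExpand_jSeries]
        exact jSeries_congr (by rw [swapExp_of_not_dvd (hnd d hd), mul_comm])
    exact congrArg (fun f : FN N →+* LaurentSeries Kbar => f u) key
  · have key : (w : FN (N * l) →+* LaurentSeries Kbar).comp
        (heckeBetaBar Kbar N l : FN N →+* FN (N * l))
        = (qExpand Kbar l).comp (algebraMap (FN N) (LaurentSeries Kbar)) := by
      refine ringHom_ext_of_gen N (fun c => ?_) (fun d _ hd => ?_)
      · show w (heckeBetaBar Kbar N l (algebraMap Kbar (FN N) c))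
          = qExpand Kbar l (algebraMap Kbar (LaurentSeries Kbar) c)
        rw [AlgHom.commutes, AlgHom.commutes, qExpand_algebraMap]
      · show w (heckeBetaBar Kbar N l (jBarD N d hd)) = qExpand Kbar l (jSeries d)
        have hd' : l * d ∣ N * l := by
          rw [mul_comm N l]; exact Nat.mul_dvd_mul_left l hd
        have e1 : heckeBetaBar Kbar N l (jBarD N d hd) = jBarD (N * l) (l * d) hd' :=
          Subtype.ext (by
            rw [coe_heckeBetaBar]
            exact qExpand_jSeries l d)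
        rw [e1, hw ⟨jBarD (N * l) (l * d) hd', jBarD_mem_AN (N * l) (l * d) hd'⟩, swapANHom_gen,
          qExpand_jSeries]
        exact jSeries_congr (swapExp_of_dvd (Dvd.intro d rfl))
    exact congrArg (fun f : FN N →+* LaurentSeries Kbar => f u) key

end Swap

/-! ## The degree of `F_{Nℓ}` over `α(F_N)` -/

section Degree

variable (N l : ℕ) [NeZero N] [NeZero l]

/-- `[F_{Nℓ} : α F_N] = ℓ + 1` for `ℓ` prime, `ℓ ∤ N`. -/
theorem finrankAlong_heckeAlphaBar (hl : l.Prime) (hlN : ¬ l ∣ N) :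
    finrankAlong Kbar (heckeAlphaBar Kbar N l) = l + 1 := by
  have h := finrank_mul_finrankAlong (heckeAlphaBar Kbar N l) (jBar N)
  have h1 : Module.finrank Kbar⟮jBar N⟯ (FN N) = dedekindPsi N := by
    rw [(Fermat.Agent.S37.helper5162.stmt_JFinrank N).2]
    exact Fermat.Agent.Lib.helper1356.card_quotient_Gamma0 N
  have h2 : ∀ y : FN (N * l), y = jBar (N * l) →
      Module.finrank Kbar⟮y⟯ (FN (N * l)) = dedekindPsi (N * l) := by
    rintro y rfl
    rw [(Fermat.Agent.S37.helper5162.stmt_JFinrank (N * l)).2]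
    exact Fermat.Agent.Lib.helper1356.card_quotient_Gamma0 (N * l)
  rw [h1, h2 _ (Fermat.Agent.S37.helper5162.heckeAlphaBar_jBar N l),
    Fermat.Agent.Lib.helper1356.dedekindPsi_mul_prime_of_not_dvd hl (NeZero.ne N) hlN,
    mul_comm] at h
  have hpos : 0 < dedekindPsi N := by
    rw [← h1]
    haveI := Fermat.Agent.S37.helper5162.finiteDimensional_jBar N
    exact Module.finrank_pos
  exact Nat.eq_of_mul_eq_mul_right hpos h

end Degree

/-! ## The norm formula -/

section Norm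

variable (N l : ℕ) [NeZero N] [NeZero l]

/-- The multiplicative Hecke operator on functions in Prelude vocabulary:
`u ↦ Norm_{F_{Nℓ}/α F_N} (β u)`.  It is definitionally (`rfl`) the landed
`helper8217.heckeFun N l u`, `helper36.heckeNorm N l u` and every
`normAlong (heckeAlphaBar Kbar N l) (heckeBetaBar Kbar N l u)`. -/
def heckeNormFun (u : FN N) : FN N :=
  letI := algebraAlong (heckeAlphaBar Kbar N l)
  Algebra.norm (FN N) (heckeBetaBar Kbar N l u)

theorem heckeNormFun_def (u : FN N) :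
    heckeNormFun N l u
      = (letI := algebraAlong (heckeAlphaBar Kbar N l)
         Algebra.norm (FN N) (heckeBetaBar Kbar N l u)) := rfl

/-- The base embedding `u ↦ u(q^{ℓ²})` of `F_N`. -/
def baseEmb : FN N →+* LaurentSeries Kbar :=
  (qExpand Kbar (l ^ 2)).comp (algebraMap (FN N) (LaurentSeries Kbar))

theorem baseEmb_apply (u : FN N) :
    baseEmb N l u = qExpand Kbar (l ^ 2) (u : LaurentSeries Kbar) := rfl

/-- The embedding `x ↦ x(q^{ℓ²})` of `F_{Nℓ}`. -/
def topEmb : FN (N * l) →+* LaurentSeries Kbar :=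
  (qExpand Kbar (l ^ 2)).comp (algebraMap (FN (N * l)) (LaurentSeries Kbar))

theorem topEmb_apply (x : FN (N * l)) :
    topEmb N l x = qExpand Kbar (l ^ 2) (x : LaurentSeries Kbar) := rfl

variable {N l}

/-- The twisted swap embeddings. -/
def twEmb (w : FN (N * l) →ₐ[Kbar] LaurentSeries Kbar) (c : Kbar) (hc : c ≠ 0) (b : ℕ) :
    FN (N * l) →+* LaurentSeries Kbar :=
  (twistHom (c ^ b) (pow_ne_zero _ hc)).comp (w : FN (N * l) →+* LaurentSeries Kbar)

theorem twEmb_apply (w : FN (N * l) →ₐ[Kbar] LaurentSeries Kbar) (c : Kbar) (hc : c ≠ 0) (b : ℕ)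
    (x : FN (N * l)) : twEmb w c hc b x = twistFun (c ^ b) (w x) := rfl

/-- The family of `ℓ + 1` embeddings. -/
def embFam (w : FN (N * l) →ₐ[Kbar] LaurentSeries Kbar) (c : Kbar) (hc : c ≠ 0) :
    Option (Fin l) → (FN (N * l) →+* LaurentSeries Kbar)
  | none => topEmb N l
  | some b => twEmb w c hc (b : ℕ)

theorem embFam_none (w : FN (N * l) →ₐ[Kbar] LaurentSeries Kbar) (c : Kbar) (hc : c ≠ 0) :
    embFam w c hc none = topEmb N l := rfl

theorem embFam_some (w : FN (N * l) →ₐ[Kbar] LaurentSeries Kbar) (c : Kbar) (hc : c ≠ 0)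
    (b : Fin l) : embFam w c hc (some b) = twEmb w c hc (b : ℕ) := rfl

theorem embFam_restrict (w : FN (N * l) →ₐ[Kbar] LaurentSeries Kbar)
    (hwα : ∀ u : FN N, w (heckeAlphaBar Kbar N l u)
      = qExpand Kbar (l ^ 2) (u : LaurentSeries Kbar))
    (c : Kbar) (hc : c ≠ 0) (hcl : c ^ (l ^ 2) = 1) (i : Option (Fin l)) (a : FN N) :
    embFam w c hc i (heckeAlphaBar Kbar N l a) = baseEmb N l a := by
  cases i with
  | none =>
    rw [embFam_none, topEmb_apply, baseEmb_apply, coe_heckeAlphaBar]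
  | some b =>
    rw [embFam_some, twEmb_apply, baseEmb_apply, hwα]
    exact twistFun_qExpand_of_pow_eq_one (by rw [← pow_mul, mul_comm, pow_mul, hcl, one_pow]) _

theorem embFam_none_beta (w : FN (N * l) →ₐ[Kbar] LaurentSeries Kbar) (c : Kbar) (hc : c ≠ 0)
    (v : FN N) : embFam w c hc none (heckeBetaBar Kbar N l v)
      = qExpand Kbar (l ^ 2) (qExpand Kbar l (v : LaurentSeries Kbar)) := by
  rw [embFam_none, topEmb_apply, coe_heckeBetaBar]

theorem embFam_some_beta (w : FN (N * l) →ₐ[Kbar] LaurentSeries Kbar)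
    (hwβ : ∀ u : FN N, w (heckeBetaBar Kbar N l u) = qExpand Kbar l (u : LaurentSeries Kbar))
    {ζ c : Kbar} (hc : c ≠ 0) (hcζ : c ^ l = ζ) (b : Fin l) (v : FN N) :
    embFam w c hc (some b) (heckeBetaBar Kbar N l v)
      = qExpand Kbar l (twistFun (ζ ^ (b : ℕ)) (v : LaurentSeries Kbar)) := by
  rw [embFam_some, twEmb_apply, hwβ, twistFun_qExpand, ← pow_mul, mul_comm, pow_mul, hcζ]

theorem coe_jBar_coeff_neg_one (N : ℕ) :
    ((jBar N : FN N) : LaurentSeries Kbar).coeff (-1) = 1 := by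
  rw [coe_jBar, coeffEmb_coeff, coeff_jq_neg_one, map_one]

theorem embFam_injective (hl : l.Prime) (w : FN (N * l) →ₐ[Kbar] LaurentSeries Kbar)
    (hwβ : ∀ u : FN N, w (heckeBetaBar Kbar N l u) = qExpand Kbar l (u : LaurentSeries Kbar))
    {ζ c : Kbar} (hζ : IsPrimitiveRoot ζ l) (hc : c ≠ 0) (hcζ : c ^ l = ζ) :
    Function.Injective (embFam (N := N) w c hc) := by
  have hζ0 : ζ ≠ 0 := hζ.ne_zero hl.ne_zero
  have hcoeff_none : (embFam w c hc none (heckeBetaBar Kbar N l (jBar N))).coeff (-(l : ℤ)) = 0 := by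
    rw [embFam_none_beta]
    apply qExpand_coeff_of_not_dvd
    intro hdvd
    have h1 : ((l ^ 2 : ℕ) : ℤ) ∣ (l : ℤ) := (dvd_neg (a := ((l ^ 2 : ℕ) : ℤ)) (b := (l : ℤ))).mp hdvd
    have h2 : l ^ 2 ∣ l := by exact_mod_cast h1
    have h3 : l ^ 2 ≤ l := Nat.le_of_dvd hl.pos h2
    have h4 : 2 ≤ l := hl.two_le
    nlinarith
  have hcoeff_some : ∀ b : Fin l,
      (embFam w c hc (some b) (heckeBetaBar Kbar N l (jBar N))).coeff (-(l : ℤ))
        = (ζ ^ (b : ℕ))⁻¹ := by
    intro b
    rw [embFam_some_beta w hwβ hc hcζ]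
    have : (-(l : ℤ)) = (l : ℤ) * (-1) := by ring
    rw [this, qExpand_coeff_mul, twistFun_coeff, coe_jBar_coeff_neg_one, mul_one, zpow_neg_one]
  intro i j hij
  have hc_eq : (embFam w c hc i (heckeBetaBar Kbar N l (jBar N))).coeff (-(l : ℤ))
      = (embFam w c hc j (heckeBetaBar Kbar N l (jBar N))).coeff (-(l : ℤ)) := by rw [hij]
  cases i with
  | none =>
    cases j with
    | none => rfl
    | some b =>
      rw [hcoeff_none, hcoeff_some] at hc_eq
      exact absurd hc_eq.symm (inv_ne_zero (pow_ne_zero _ hζ0))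
  | some a =>
    cases j with
    | none =>
      rw [hcoeff_none, hcoeff_some] at hc_eq
      exact absurd hc_eq (inv_ne_zero (pow_ne_zero _ hζ0))
    | some b =>
      rw [hcoeff_some, hcoeff_some, inv_inj] at hc_eq
      have := hζ.pow_inj a.2 b.2 hc_eq
      exact congrArg some (Fin.ext this)

/-- `V_{ℓ²}(Norm_α(β u)) = u(q^{ℓ³}) * ∏_{b<ℓ} (u(q^ℓ))(c^b q)` for any `c` with `c^ℓ = ζ`. -/
theorem qExpand_sq_heckeNormFun (N l : ℕ) [NeZero N] [NeZero l] (hl : l.Prime) (hlN : ¬ l ∣ N)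
    {ζ : Kbar} (hζ : IsPrimitiveRoot ζ l) (u : FN N) :
    qExpand Kbar (l ^ 2) ((heckeNormFun N l u : FN N) : LaurentSeries Kbar)
      = qExpand Kbar (l ^ 2) (qExpand Kbar l (u : LaurentSeries Kbar))
        * ∏ b : Fin l, qExpand Kbar l (twistFun (ζ ^ (b : ℕ)) (u : LaurentSeries Kbar)) := by
  classical
  obtain ⟨w, hwα, hwβ⟩ := exists_swap N l hl hlN
  obtain ⟨c, hcζ⟩ := IsAlgClosed.exists_pow_nat_eq ζ hl.pos
  have hζ0 : ζ ≠ 0 := hζ.ne_zero hl.ne_zero
  have hc0 : c ≠ 0 := by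
    rintro rfl
    rw [zero_pow hl.ne_zero] at hcζ
    exact hζ0 hcζ.symm
  have hcl2 : c ^ (l ^ 2) = 1 := by
    rw [pow_two, pow_mul, hcζ, hζ.pow_eq_one]
  letI := algebraAlong (heckeAlphaBar Kbar N l)
  haveI : Module.Finite (FN N) (FN (N * l)) :=
    Fermat.Agent.S37.helper5162.finiteAlong_heckeAlphaBar N l
  haveI : CharZero (FN N) := charZero_of_injective_algebraMap (algebraMap Kbar (FN N)).injective
  have hcard : Fintype.card (Option (Fin l)) = Module.finrank (FN N) (FN (N * l)) := by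
    rw [Fintype.card_option, Fintype.card_fin]
    exact (finrankAlong_heckeAlphaBar N l hl hlN).symm
  have key := norm_eq_prod_ringHoms (baseEmb N l) hcard (embFam w c hc0)
    (fun i a => embFam_restrict w hwα c hc0 hcl2 i a)
    (embFam_injective hl w hwβ hζ hc0 hcζ) (heckeBetaBar Kbar N l u)
  rw [Fintype.prod_option, embFam_none_beta, baseEmb_apply] at key
  rw [show (∏ b : Fin l, embFam w c hc0 (some b) (heckeBetaBar Kbar N l u))
      = ∏ b : Fin l, qExpand Kbar l (twistFun (ζ ^ (b : ℕ)) (u : LaurentSeries Kbar)) from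
    Finset.prod_congr rfl fun b _ => embFam_some_beta w hwβ hc0 hcζ b u] at key
  exact key


/-- `V_ℓ(Norm_α(β u)) = u(q^{ℓ²}) * ∏_{b<ℓ} u(ζ^b q)`. -/
theorem qExpand_heckeNormFun (N l : ℕ) [NeZero N] [NeZero l] (hl : l.Prime) (hlN : ¬ l ∣ N)
    {ζ : Kbar} (hζ : IsPrimitiveRoot ζ l) (u : FN N) :
    qExpand Kbar l ((heckeNormFun N l u : FN N) : LaurentSeries Kbar)
      = qExpand Kbar l (qExpand Kbar l (u : LaurentSeries Kbar))
        * ∏ b ∈ Finset.range l, twistFun (ζ ^ b) (u : LaurentSeries Kbar) := by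
  have h := qExpand_sq_heckeNormFun N l hl hlN hζ u
  have hsq : ∀ x : LaurentSeries Kbar,
      qExpand Kbar (l ^ 2) x = qExpand Kbar l (qExpand Kbar l x) := by
    intro x
    rw [qExpand_qExpand]
    exact qExpand_congr (pow_two l) x
  rw [hsq, hsq, ← map_prod, ← map_mul] at h
  have h' := qExpand_injective (R := Kbar) l h
  rw [h', Finset.prod_range]

/-- **S29-NORMQ (Q).**  For `ℓ` prime, `ℓ ∤ N`, `ζ` a primitive `ℓ`-th root of unity and
`u ∈ F_N`: the product `∏_{b<ℓ} u(ζ^b q)` is `g(q^ℓ)` for a (unique) Laurent series `g`, and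
`Norm_{F_{Nℓ}/α F_N}(β u) = u(q^ℓ) * g`. -/
theorem norm_alpha_beta (N l : ℕ) [NeZero N] [NeZero l] (hl : l.Prime) (hlN : ¬ l ∣ N)
    {ζ : Kbar} (hζ : IsPrimitiveRoot ζ l) (u : FN N) :
    ∃ g : LaurentSeries Kbar,
      qExpand Kbar l g = ∏ b ∈ Finset.range l, twistFun (ζ ^ b) (u : LaurentSeries Kbar) ∧
      ((heckeNormFun N l u : FN N) : LaurentSeries Kbar)
        = qExpand Kbar l (u : LaurentSeries Kbar) * g := by
  have h := qExpand_heckeNormFun N l hl hlN hζ u
  by_cases hu : u = 0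
  · subst hu
    refine ⟨0, ?_, ?_⟩
    · rw [map_zero]
      symm
      apply Finset.prod_eq_zero (Finset.mem_range.mpr hl.pos)
      ext n
      simp [twistFun_coeff]
    · have h0 : heckeNormFun N l (0 : FN N) = 0 := by
        unfold heckeNormFun
        rw [map_zero]
        letI := algebraAlong (heckeAlphaBar Kbar N l)
        haveI : Module.Finite (FN N) (FN (N * l)) :=
          Fermat.Agent.S37.helper5162.finiteAlong_heckeAlphaBar N l
        exact Algebra.norm_zero
      rw [h0]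
      simp
  · have hu' : qExpand Kbar l ((u : FN N) : LaurentSeries Kbar) ≠ 0 := by
      intro h0
      apply hu
      have h1 : ((u : FN N) : LaurentSeries Kbar) = 0 := by
        apply qExpand_injective (R := Kbar) l
        rw [h0, map_zero]
      exact Subtype.ext h1
    refine ⟨((heckeNormFun N l u : FN N) : LaurentSeries Kbar)
      / qExpand Kbar l (u : LaurentSeries Kbar), ?_, ?_⟩
    · have hu'' : qExpand Kbar l (qExpand Kbar l ((u : FN N) : LaurentSeries Kbar)) ≠ 0 := by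
        intro h0
        apply hu'
        apply qExpand_injective (R := Kbar) l
        rw [h0, map_zero]
      rw [map_div₀, h, mul_div_assoc, mul_comm, div_mul_cancel₀ _ hu'']
    · rw [mul_div_cancel₀ _ hu']


/-- The twist of `helper7964_FormalES` is `twistFun`. -/
theorem tw_eq_twistFun {K : Type*} [Field K] (c : Kˣ) (x : LaurentSeries K) :
    Fermat.Agent.S29.helper7964.tw c x = twistFun (c : K) x := by
  ext n
  rw [Fermat.Agent.S29.helper7964.tw_coeff, twistFun_coeff, Units.val_zpow_eq_zpow_val]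

/-- **S29-NORMQ (Q), operator form.**  The Prelude multiplicative Hecke operator on functions
is the formal operator `heckeMul` of `helper7964_FormalES`:
`Norm_α(β u) = u(q^ℓ) * U_ℓ(∏_{b<ℓ} u(ζ^b q))`. -/
theorem heckeNormFun_eq_heckeMul (N l : ℕ) [NeZero N] [NeZero l] (hl : l.Prime) (hlN : ¬ l ∣ N)
    (ζ : Kbarˣ) (hζ : IsPrimitiveRoot (ζ : Kbar) l) (u : FN N) :
    ((heckeNormFun N l u : FN N) : LaurentSeries Kbar)
      = Fermat.Agent.S29.helper7964.heckeMul l ζ (u : LaurentSeries Kbar) := by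
  obtain ⟨g, hg, hN⟩ := norm_alpha_beta N l hl hlN hζ u
  have hprod : ∏ b ∈ Finset.range l, Fermat.Agent.S29.helper7964.tw (ζ ^ b) (u : LaurentSeries Kbar)
      = qExpand Kbar l g := by
    rw [hg]
    refine Finset.prod_congr rfl fun b _ => ?_
    rw [tw_eq_twistFun, Units.val_pow_eq_pow_val]
  rw [hN, Fermat.Agent.S29.helper7964.heckeMul, hprod, Fermat.Agent.S29.helper7964.uOp_qExpand]

end Norm

end

end Fermat.Agent.S29.helper4824
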