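import Fermat.Agent.S29.helper405_UnrES
import Fermat.Agent.S29.helper4824_NormAlpha

/-!
# S29 — (U) and (ES) on `J₀(N)[m]`, final forms (any modulus `m` prime to `ℓ`)

`helper405_UnrES` proves the unramifiedness (U) and the Eichler–Shimura relation (ES) on the
`m`-torsion of `J₀(N)` from the S18 Kummer form (KF) and the `q`-expansion form of the Hecke
norm (NQ).  (NQ) is a theorem: it is NORMQ (Q) of `helper4824_NormAlpha`
(`heckeNormFun_eq_heckeMul`).  So here: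

* `stmt_NormQAll : Stmt_NormQAll` (unconditional);
* `Stmt_KF0All` : the export shape of the S18 project (`Stmt_KF0` at every level and every
  good prime), and `stmt_KFAll_of_kf0 : Stmt_KF0All → Stmt_KFAll`;
* `stmt_UMod_of_kf0`, `stmt_ESMod_of_kf0` : (U), (ES) for an arbitrary modulus `m` with
  `¬ ℓ ∣ m`, every prime `ℓ ∤ N`, every valuation subring over `ℓ`, every inertia element
  resp. every Frobenius lift — the statements `Stmt_UMod`, `Stmt_ESMod` of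
  `S30/helper831_Wiring` written out (no import of that file);
* `stmt_U_of_kf0`, `stmt_ES_of_kf0`, `stmt_UnrES_of_kf0`, `stmt_OpUN_of_kf0`,
  `stmt_OpFQ_of_kf0` : the S29 consumer shapes;
* `result_of_kf0_occ` : the frozen S29 from (KF0) and (OCC) alone.
-/

namespace Fermat.Agent.S29.helper405

open ModularCurve AlgebraicCurve

/-- **(NQ)** holds: NORMQ (Q) of `helper4824_NormAlpha`. -/
theorem stmt_NormQAll : Stmt_NormQAll := by
  intro N _ ℓ _ hℓ hℓN ζ hζ u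
  exact Fermat.Agent.S29.helper4824.heckeNormFun_eq_heckeMul N ℓ hℓ hℓN ζ hζ u

/-- **(KF0)** The export shape of the S18 project: the Kummer form with `c = 1` at every
level `N` and every prime `ℓ ∤ N`. -/
def Stmt_KF0All : Prop :=
  ∀ (N : ℕ) [NeZero N] (ℓ : ℕ), ℓ.Prime → ¬ ℓ ∣ N → Fermat.Agent.S18.helper3054.Stmt_KF0 N ℓ

theorem stmt_KFAll_of_kf0 (h : Stmt_KF0All) : Stmt_KFAll := fun N _ ℓ hℓ hℓN =>
  Fermat.Agent.S18.helper3054.kf_of_kf0 N ℓ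
    (fun A _ => Fermat.Agent.Lib.helper6879.isAlgClosed_residueField A) (h N ℓ hℓ hℓN)

/-- **(U), any modulus**, from (KF): `S30.helper831.Stmt_UMod` written out. -/
theorem stmt_UMod_of_kfAll (hKF : Stmt_KFAll) :
    ∀ (N : ℕ) [NeZero N] (m : ℕ) (ℓ : ℕ), ℓ.Prime → ¬ ℓ ∣ N → ¬ ℓ ∣ m →
      ∀ A : ValuationSubring (AlgebraicClosure ℚ), A.LiesOverPrime ℓ →
        ∀ τ ∈ A.inertiaSubgroupIn ℚ, ∀ x : JZero N, m • x = 0 → τ • x = x := by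
  intro N _ m ℓ hℓ hℓN hℓm A hA τ hτ x hx
  have : Fact ℓ.Prime := ⟨hℓ⟩
  exact inertia_smul_eq_of_kf hℓN hA (hKF N ℓ hℓ hℓN) hℓm τ hτ x hx

/-- **(ES), any modulus**, from (KF): `S30.helper831.Stmt_ESMod` written out. -/
theorem stmt_ESMod_of_kfAll (hKF : Stmt_KFAll) :
    ∀ (N : ℕ) [NeZero N] (m : ℕ) (ℓ : ℕ) (hℓ : ℓ.Prime), ¬ ℓ ∣ N → ¬ ℓ ∣ m →
      ∀ A : ValuationSubring (AlgebraicClosure ℚ), A.LiesOverPrime ℓ →
        ∀ σ : AlgebraicClosure ℚ ≃ₐ[ℚ] AlgebraicClosure ℚ, A.IsFrobeniusAt σ ℓ →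
          ∀ x : JZero N, m • x = 0 →
            σ • σ • x - heckeOperatorBar N ⟨ℓ, hℓ⟩ (σ • x) + ℓ • x = 0 := by
  intro N _ m ℓ hℓ hℓN hℓm A hA σ hσ x hx
  have : Fact ℓ.Prime := ⟨hℓ⟩
  exact frobenius_quadratic_of_kf hℓN hA hℓ (hKF N ℓ hℓ hℓN) (stmt_NormQAll N ℓ hℓ hℓN) hℓm
    σ hσ x hx

/-- **(U), any modulus**, from the S18 export (KF0). -/
theorem stmt_UMod_of_kf0 (hKF : Stmt_KF0All) :
    ∀ (N : ℕ) [NeZero N] (m : ℕ) (ℓ : ℕ), ℓ.Prime → ¬ ℓ ∣ N → ¬ ℓ ∣ m →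
      ∀ A : ValuationSubring (AlgebraicClosure ℚ), A.LiesOverPrime ℓ →
        ∀ τ ∈ A.inertiaSubgroupIn ℚ, ∀ x : JZero N, m • x = 0 → τ • x = x :=
  stmt_UMod_of_kfAll (stmt_KFAll_of_kf0 hKF)

/-- **(ES), any modulus**, from the S18 export (KF0). -/
theorem stmt_ESMod_of_kf0 (hKF : Stmt_KF0All) :
    ∀ (N : ℕ) [NeZero N] (m : ℕ) (ℓ : ℕ) (hℓ : ℓ.Prime), ¬ ℓ ∣ N → ¬ ℓ ∣ m →
      ∀ A : ValuationSubring (AlgebraicClosure ℚ), A.LiesOverPrime ℓ →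
        ∀ σ : AlgebraicClosure ℚ ≃ₐ[ℚ] AlgebraicClosure ℚ, A.IsFrobeniusAt σ ℓ →
          ∀ x : JZero N, m • x = 0 →
            σ • σ • x - heckeOperatorBar N ⟨ℓ, hℓ⟩ (σ • x) + ℓ • x = 0 :=
  stmt_ESMod_of_kfAll (stmt_KFAll_of_kf0 hKF)

/-! ### The S29 consumer shapes from (KF0) alone -/

theorem stmt_OpUN_of_kf0 (hKF : Stmt_KF0All) : helper6752.Stmt_OpUN :=
  stmt_OpUN_of_kf (stmt_KFAll_of_kf0 hKF)

theorem stmt_OpFQ_of_kf0 (hKF : Stmt_KF0All) : helper6752.Stmt_OpFQ :=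
  stmt_OpFQ_of_kf (stmt_KFAll_of_kf0 hKF) stmt_NormQAll

theorem stmt_U_of_kf0 (hKF : Stmt_KF0All) : helper5782.Stmt_U :=
  stmt_U_of_kf (stmt_KFAll_of_kf0 hKF)

theorem stmt_ES_of_kf0 (hKF : Stmt_KF0All) : helper5782.Stmt_ES :=
  stmt_ES_of_kf (stmt_KFAll_of_kf0 hKF) stmt_NormQAll

theorem stmt_UnrES_of_kf0 (hKF : Stmt_KF0All) : Stmt_UnrES :=
  stmt_UnrES_of_kf (stmt_KFAll_of_kf0 hKF) stmt_NormQAll

/-- **Frozen S29 from the two remaining inputs**: the S18 export (KF0) and the occurrence of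
the eigensystem (OCC, captain's shape). -/
theorem result_of_kf0_occ (hKF : Stmt_KF0All) (hOcc : helper5782.Stmt_Occ)
    {N : ℕ} {g : CuspForm (CongruenceSubgroup.Gamma0 N) 2} (hg : g.IsNormalizedEigenform)
    {p : ℕ} (hp : p.Prime) {k : Type} [Field k] [CharP k p]
    (φ : integralClosure ℤ ℂ →+* k) :
    ∃ ρ : ResidualGaloisRep k, ρ.IsAttachedTo g φ ∧
      ∀ ℓ : ℕ, ℓ.Prime → ¬ ℓ ∣ N * p → ρ.IsUnramifiedAt ℓ :=
  result_of_kf_normQ_occ (stmt_KFAll_of_kf0 hKF) stmt_NormQAll hOcc hg hp φ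

end Fermat.Agent.S29.helper405
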