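import Mathlib
import Fermat.Prelude.Def_GaloisRep_Residual
import Fermat.Agent.Lib.helper54_Frobenius
import Fermat.Agent.S05.helper4205_Inertia

/-!
# S29 endgame (helper6752)

The frozen statement S29 from three Prop-valued inputs:

* `Stmt_Eig` : for every normalised eigenform `g` of level `N ≠ 0`, every prime `p` and every
  algebraically closed field `κ` of characteristic `p` with a surjection `ψ : ℤ̄ → κ`, there is a
  NONZERO finite-dimensional `κ`-linear representation of `Gal(ℚ̄/ℚ)` of finite level, with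
  trivial inertia at the primes not dividing `N p`, on which every Frobenius lift `σ` at such a
  prime `ℓ` satisfies `σ² - ψ(a_ℓ) σ + ℓ = 0`.  (No dimension or irreducibility statement.)
* `Stmt_CycFrob` : generator form of Chebotarev: modulo any finite level, every element of
  `Gal(ℚ̄/ℚ)` is a power of a Frobenius lift at a prime outside any given finite set.
* `Stmt_Dim2` : the dimension-two lemma.

`result_of` derives the frozen statement verbatim.
-/

set_option autoImplicit false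

namespace Fermat.Agent.S29.helper6752

open Polynomial
open Fermat.Agent.Lib.helper54

local notation "Qb" => AlgebraicClosure ℚ
local notation "GQ" => (AlgebraicClosure ℚ ≃ₐ[ℚ] AlgebraicClosure ℚ)
local notation "Zc" => integralClosure ℤ ℂ
local notation "Zb" => integralClosure ℤ (AlgebraicClosure ℚ)

/-! ## The residue field of `φ` -/

/-- Every monic polynomial of positive degree over the ring of all algebraic integers of `ℂ`
has a root there. -/
theorem exists_root_zc (f : Zc[X]) (hf : f.Monic) (hdeg : f.natDegree ≠ 0) :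
    ∃ z : Zc, f.eval z = 0 := by
  have hdeg' : (f.map (algebraMap Zc ℂ)).degree ≠ 0 := by
    rw [degree_map_eq_of_injective (FaithfulSMul.algebraMap_injective Zc ℂ)]
    intro h
    exact hdeg (natDegree_eq_of_degree_eq_some h)
  obtain ⟨z, hz⟩ := IsAlgClosed.exists_root (f.map (algebraMap Zc ℂ)) hdeg'
  have hz' : aeval z f = 0 := by rwa [IsRoot, eval_map_algebraMap] at hz
  have hint : IsIntegral Zc z := ⟨f, hf, hz'⟩
  have hintZ : IsIntegral ℤ z := isIntegral_trans (R := ℤ) (A := Zc) z hint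
  refine ⟨⟨z, hintZ⟩, ?_⟩
  apply FaithfulSMul.algebraMap_injective Zc ℂ
  rw [map_zero, ← aeval_algebraMap_apply_eq_algebraMap_eval]
  exact hz'

section Residue

variable {k : Type} [Field k] (φ : Zc →+* k)

theorem ker_isMaximal (p : ℕ) (hp : p.Prime) [CharP k p] : (RingHom.ker φ).IsMaximal := by
  have : (RingHom.ker φ).IsPrime := RingHom.ker_isPrime φ
  apply Ideal.isMaximal_of_isIntegral_of_isMaximal_comap (R := ℤ) (RingHom.ker φ)
  have h1 : (RingHom.ker φ).comap (algebraMap ℤ Zc) = Ideal.span {(p : ℤ)} := by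
    rw [← CharP.ker_intAlgebraMap_eq_span (R := k) p]
    ext m
    simp [RingHom.mem_ker]
  rw [h1]
  exact PrincipalIdealRing.isMaximal_of_irreducible
    (Nat.prime_iff_prime_int.mp hp).irreducible

/-- The residue field of `φ`: an algebraically closed field of characteristic `p` through which
`φ` factors (surjectively on the first factor). -/
theorem exists_residue_field (p : ℕ) (hp : p.Prime) [CharP k p] :
    ∃ (κ : Type) (_ : Field κ) (_ : IsAlgClosed κ) (_ : CharP κ p) (ψ : Zc →+* κ) (ι : κ →+* k),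
      ι.comp ψ = φ ∧ Function.Surjective ψ := by
  have hmax : (RingHom.ker φ).IsMaximal := ker_isMaximal φ p hp
  let _ : Field (Zc ⧸ RingHom.ker φ) := Ideal.Quotient.field (RingHom.ker φ)
  let ψ : Zc →+* (Zc ⧸ RingHom.ker φ) := Ideal.Quotient.mk (RingHom.ker φ)
  let ι : (Zc ⧸ RingHom.ker φ) →+* k := Ideal.Quotient.lift (RingHom.ker φ) φ (fun a ha => ha)
  have hψ : Function.Surjective ψ := Ideal.Quotient.mk_surjective
  have hclosed : IsAlgClosed (Zc ⧸ RingHom.ker φ) := by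
    apply IsAlgClosed.of_exists_root
    intro f hf hirr
    obtain ⟨F, hF, hFdeg, hFmon⟩ := lifts_and_natDegree_eq_and_monic
      (f := ψ) (p := f) ((Polynomial.mem_lifts _).mpr (Polynomial.map_surjective ψ hψ f)) hf
    have hdeg : F.natDegree ≠ 0 := by
      rw [hFdeg]
      exact (natDegree_pos_iff_degree_pos.mpr (degree_pos_of_irreducible hirr)).ne'
    obtain ⟨z, hz⟩ := exists_root_zc F hFmon hdeg
    refine ⟨ψ z, ?_⟩
    rw [← hF, eval_map, eval₂_at_apply, hz, map_zero]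
  have hchar : CharP (Zc ⧸ RingHom.ker φ) p := RingHom.charP ι ι.injective p
  exact ⟨Zc ⧸ RingHom.ker φ, inferInstance, hclosed, hchar, ψ, ι, by ext; rfl, hψ⟩

end Residue

/-! ## The mod `p` cyclotomic character -/

section Cyclo

variable (p : ℕ) [hp : Fact p.Prime]

instance : NeZero (p : Qb) := ⟨by exact_mod_cast hp.out.ne_zero⟩

theorem exists_zeta : ∃ ζ : Qb, IsPrimitiveRoot ζ p :=
  HasEnoughRootsOfUnity.exists_primitiveRoot Qb p

/-- A chosen primitive `p`-th root of unity in `ℚ̄`. -/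
noncomputable def zetaP : Qb := (exists_zeta p).choose

theorem zetaP_spec : IsPrimitiveRoot (zetaP p) p := (exists_zeta p).choose_spec

/-- The mod `p` cyclotomic character of `Gal(ℚ̄/ℚ)`. -/
noncomputable def chiP : GQ →* (ZMod p)ˣ := (zetaP_spec p).autToPow ℚ

theorem chiP_spec (σ : GQ) : zetaP p ^ ((chiP p σ : ZMod p).val) = σ (zetaP p) :=
  (zetaP_spec p).autToPow_spec ℚ σ

/-- The character is determined by the action on `ζ_p`. -/
theorem chiP_eq_of_apply_eq {σ τ : GQ} (h : σ (zetaP p) = τ (zetaP p)) : chiP p σ = chiP p τ := by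
  rw [← chiP_spec, ← chiP_spec] at h
  have h2 := (zetaP_spec p).pow_inj (ZMod.val_lt _) (ZMod.val_lt _) h
  exact Units.ext (ZMod.val_injective p h2)

theorem chiP_eq_one_of_apply_eq {σ : GQ} (h : σ (zetaP p) = zetaP p) : chiP p σ = 1 := by
  have : σ (zetaP p) = (1 : GQ) (zetaP p) := by simpa using h
  rw [chiP_eq_of_apply_eq p this, map_one]

/-- `ζ_p` as an algebraic integer. -/
noncomputable def zetaB : Zb := ⟨zetaP p, (zetaP_spec p).isIntegral hp.out.pos⟩

theorem zetaB_spec : IsPrimitiveRoot (zetaB p) p :=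
  IsPrimitiveRoot.of_map_of_injective (f := algebraMap Zb Qb) (zetaP_spec p)
    (FaithfulSMul.algebraMap_injective Zb Qb)

/-- A primitive `p`-th root of unity is not congruent to `1` modulo a place over `ℓ ≠ p`. -/
theorem one_sub_notMem {ℓ : ℕ} (hℓ : ℓ.Prime) (hℓp : ℓ ≠ p) (A : ValuationSubring Qb)
    (hA : A.LiesOverPrime ℓ) (μ : Zb) (hμ : IsPrimitiveRoot μ p) :
    1 - μ ∉ primeOfValuationSubring A := by
  intro hmem
  obtain ⟨n, rfl⟩ : ∃ n, p = n + 1 := ⟨p - 1, (Nat.sub_add_cancel hp.out.pos).symm⟩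
  have hprod := hμ.prod_one_sub_pow_eq_order
  have hn : 0 < n := by
    have := hp.out.two_le
    omega
  have h1 : ∏ k ∈ Finset.range n, (1 - μ ^ (k + 1)) ∈ primeOfValuationSubring A := by
    apply Ideal.prod_mem _ (Finset.mem_range.mpr hn)
    simpa using hmem
  rw [hprod] at h1
  have h2 := intCast_not_mem_primeOfValuationSubring hℓ A hA ((n + 1 : ℕ) : ℤ) (by
    intro hdvd
    have hdvd' : ℓ ∣ n + 1 := by exact_mod_cast hdvd
    exact hℓp ((Nat.prime_dvd_prime_iff_eq hℓ hp.out).mp hdvd'))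
  apply h2
  have : (((n + 1 : ℕ) : ℤ) : Zb) = (n : Zb) + 1 := by push_cast; ring
  rw [this]
  exact h1

/-- Powers of `ζ_p` congruent modulo a place over `ℓ ≠ p` have exponents congruent mod `p`. -/
theorem natCast_eq_of_pow_sub_pow_mem {ℓ : ℕ} (hℓ : ℓ.Prime) (hℓp : ℓ ≠ p)
    (A : ValuationSubring Qb) (hA : A.LiesOverPrime ℓ) (a b : ℕ)
    (h : zetaP p ^ a - zetaP p ^ b ∈ A.nonunits) : (a : ZMod p) = (b : ZMod p) := by
  by_contra hne
  set m : ℕ := a + b * (p - 1) with hm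
  have hpm : ¬ p ∣ m := by
    intro hdvd
    apply hne
    have h0 : ((m : ℕ) : ZMod p) = 0 := (ZMod.natCast_eq_zero_iff m p).mpr hdvd
    have hp1 : ((p - 1 : ℕ) : ZMod p) = -1 := by
      rw [Nat.cast_sub hp.out.pos]
      simp
    rw [hm] at h0
    push_cast at h0
    rw [hp1] at h0
    linear_combination h0
  have hprim : IsPrimitiveRoot (zetaB p ^ m) p :=
    (zetaB_spec p).pow_of_coprime m ((Nat.Prime.coprime_iff_not_dvd hp.out).mpr hpm).symm
  apply one_sub_notMem p hℓ hℓp A hA _ hprim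
  have hmem : zetaB p ^ a - zetaB p ^ b ∈ primeOfValuationSubring A := by
    rw [mem_primeOfValuationSubring]
    exact h
  have hpow : zetaB p ^ (b * (p - 1)) * zetaB p ^ b = 1 := by
    rw [← pow_add]
    have : b * (p - 1) + b = b * p := by
      have := Nat.sub_add_cancel hp.out.pos
      calc b * (p - 1) + b = b * ((p - 1) + 1) := by ring
        _ = b * p := by rw [this]
    rw [this, mul_comm, pow_mul, (zetaB_spec p).pow_eq_one, one_pow]
  have key : 1 - zetaB p ^ m = -(zetaB p ^ (b * (p - 1))) * (zetaB p ^ a - zetaB p ^ b) := by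
    rw [hm, pow_add]
    linear_combination (-1 : Zb) * hpow
  rw [key]
  exact Ideal.mul_mem_left _ _ hmem

/-- Frobenius congruence on elements of the valuation ring. -/
theorem frob_sub_pow_mem {A : ValuationSubring Qb} {σ : GQ} {ℓ : ℕ} (h : A.IsFrobeniusAt σ ℓ)
    {z : Qb} (hz : z ∈ A) : σ z - z ^ ℓ ∈ A.nonunits := by
  have h1 := h.smul_residue_eq (IsLocalRing.residue A ⟨z, hz⟩)
  rw [← IsLocalRing.ResidueField.residue_smul, ← map_pow, ← sub_eq_zero, ← map_sub,
    IsLocalRing.residue_eq_zero_iff] at h1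
  exact (ValuationSubring.coe_mem_nonunits_iff (A := A)).2 h1

theorem zetaP_mem (A : ValuationSubring Qb) : zetaP p ∈ A :=
  mem_valuationSubring_of_isIntegral A _ ((zetaP_spec p).isIntegral hp.out.pos)

/-- A Frobenius lift at `ℓ ≠ p` has cyclotomic character `ℓ`. -/
theorem chiP_frob {ℓ : ℕ} (hℓ : ℓ.Prime) (hℓp : ℓ ≠ p) (A : ValuationSubring Qb)
    (hA : A.LiesOverPrime ℓ) (σ : GQ) (hσ : A.IsFrobeniusAt σ ℓ) :
    ((chiP p σ : (ZMod p)ˣ) : ZMod p) = (ℓ : ZMod p) := by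
  have h1 := frob_sub_pow_mem hσ (zetaP_mem p A)
  rw [← chiP_spec] at h1
  have h2 := natCast_eq_of_pow_sub_pow_mem p hℓ hℓp A hA _ _ h1
  rwa [ZMod.natCast_zmod_val] at h2

/-- Inertia at `ℓ ≠ p` lies in the kernel of the mod `p` cyclotomic character. -/
theorem chiP_inertia {ℓ : ℕ} (hℓ : ℓ.Prime) (hℓp : ℓ ≠ p) (A : ValuationSubring Qb)
    (hA : A.LiesOverPrime ℓ) (σ : GQ) (hσ : σ ∈ A.inertiaSubgroupIn ℚ) : chiP p σ = 1 := by
  have h1 := Fermat.Agent.S05.helper4205.apply_sub_mem_nonunits hσ (zetaP_mem p A)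
  rw [← chiP_spec] at h1
  have h2 := natCast_eq_of_pow_sub_pow_mem p hℓ hℓp A hA _ 1 (by simpa using h1)
  rw [ZMod.natCast_zmod_val] at h2
  exact Units.ext (by simpa using h2)

end Cyclo

/-! ## The three inputs -/

/-- (EIG) The eigen-Galois-module: what the construction (Kummer model of `J₀(N)[p]`, Hecke
eigenspace, Eichler–Shimura congruence, specialisation) has to deliver. -/
def Stmt_Eig : Prop :=
  ∀ (N : ℕ), N ≠ 0 → ∀ (g : CuspForm (CongruenceSubgroup.Gamma0 N) 2), g.IsNormalizedEigenform →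
  ∀ (p : ℕ), p.Prime → ∀ (κ : Type) [Field κ] [IsAlgClosed κ] [CharP κ p] (ψ : Zc →+* κ),
    Function.Surjective ψ →
    ∃ (W : Type) (_ : AddCommGroup W) (_ : Module κ W) (ρ : GQ →* Module.End κ W),
      Module.Finite κ W ∧ Nontrivial W ∧ GaloisFactorsThroughFiniteLevel ρ ∧
      (∀ ℓ : ℕ, ℓ.Prime → ¬ ℓ ∣ N * p → ∀ A : ValuationSubring Qb, A.LiesOverPrime ℓ →
        ∀ σ ∈ A.inertiaSubgroupIn ℚ, ρ σ = 1) ∧
      (∀ ℓ : ℕ, ℓ.Prime → ¬ ℓ ∣ N * p → ∀ A : ValuationSubring Qb, A.LiesOverPrime ℓ →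
        ∀ σ : GQ, A.IsFrobeniusAt σ ℓ →
          ∃ a : Zc, (a : ℂ) = ModularFormClass.qCoeff g ℓ ∧
            ρ σ * ρ σ - ψ a • ρ σ + (ℓ : κ) • (1 : Module.End κ W) = 0)

/-- (CYC) Generator form of Chebotarev: modulo the finite level `L`, every `τ` is a power of a
Frobenius lift at some prime outside the finite set `B`. -/
def Stmt_CycFrob : Prop :=
  ∀ (L : IntermediateField ℚ Qb), FiniteDimensional ℚ L → ∀ (τ : GQ) (B : Finset ℕ),
    ∃ ℓ : ℕ, ℓ.Prime ∧ ℓ ∉ B ∧ ∃ A : ValuationSubring Qb, A.LiesOverPrime ℓ ∧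
      ∃ s : GQ, A.IsFrobeniusAt s ℓ ∧ ∃ n : ℕ, ∀ x ∈ L, (s ^ n) x = τ x

/-- (DIM2) The dimension-two lemma, generator form, all characteristics. -/
def Stmt_Dim2 : Prop :=
  ∀ (K : Type) [Field K] [IsAlgClosed K] (G : Type) [Group G]
    (V : Type) [AddCommGroup V] [Module K V] [Module.Finite K V] [Nontrivial V]
    (ρ : G →* Module.End K V) (ε : G →* Kˣ),
    (∀ g : G, ∃ (h : G) (n : ℕ) (c : K), ρ (h ^ n) = ρ g ∧ ε (h ^ n) = ε g ∧
      ρ h * ρ h - c • ρ h + ((ε h : Kˣ) : K) • (1 : Module.End K V) = 0) →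
    ∃ (V' : Type) (_ : AddCommGroup V') (_ : Module K V') (_ : Module.Finite K V')
      (ρ' : G →* Module.End K V'),
      Module.finrank K V' = 2 ∧ (∀ g : G, ρ g = 1 → ε g = 1 → ρ' g = 1) ∧
      ∀ (g : G) (c : K),
        ρ g * ρ g - c • ρ g + ((ε g : Kˣ) : K) • (1 : Module.End K V) = 0 →
        LinearMap.charpoly (ρ' g) = X ^ 2 - C c * X + C ((ε g : Kˣ) : K)

/-! ## Assembly -/

section Assembly

variable (p : ℕ) [hp : Fact p.Prime] (κ : Type) [Field κ] [CharP κ p]

/-- The cyclotomic character with values in `κ`. -/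
noncomputable def epsK : GQ →* κˣ :=
  (Units.map (ZMod.castHom (dvd_refl p) κ).toMonoidHom).comp (chiP p)

theorem epsK_coe (σ : GQ) :
    ((epsK p κ σ : κˣ) : κ) = ZMod.castHom (dvd_refl p) κ ((chiP p σ : (ZMod p)ˣ) : ZMod p) := rfl

theorem epsK_frob {ℓ : ℕ} (hℓ : ℓ.Prime) (hℓp : ℓ ≠ p) (A : ValuationSubring Qb)
    (hA : A.LiesOverPrime ℓ) (σ : GQ) (hσ : A.IsFrobeniusAt σ ℓ) :
    ((epsK p κ σ : κˣ) : κ) = (ℓ : κ) := by
  rw [epsK_coe, chiP_frob p hℓ hℓp A hA σ hσ, map_natCast]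

theorem epsK_eq_one_of_chiP {σ : GQ} (h : chiP p σ = 1) : epsK p κ σ = 1 := by
  rw [epsK, MonoidHom.comp_apply, h, map_one]

end Assembly

/-- The trivial two-dimensional representation. -/
noncomputable def trivialRep (k : Type) [Field k] : ResidualGaloisRep k where
  V := Fin 2 → k
  finrank_eq := by simp
  ρ := 1
  factorsThroughFiniteLevel := ⟨⊥, inferInstance, fun _ _ => rfl⟩

/-- **S29 endgame**: the frozen statement from (EIG), (CYC) and (DIM2). -/
theorem result_of (hEig : Stmt_Eig) (hCyc : Stmt_CycFrob) (hDim : Stmt_Dim2)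
    {N : ℕ} {g : CuspForm (CongruenceSubgroup.Gamma0 N) 2} (hg : g.IsNormalizedEigenform)
    {p : ℕ} (hp : p.Prime) {k : Type} [Field k] [CharP k p]
    (φ : integralClosure ℤ ℂ →+* k) :
    ∃ ρ : ResidualGaloisRep k, ρ.IsAttachedTo g φ ∧
      ∀ ℓ : ℕ, ℓ.Prime → ¬ ℓ ∣ N * p → ρ.IsUnramifiedAt ℓ := by
  by_cases hN : N = 0
  · subst hN
    refine ⟨trivialRep k, ?_, ?_⟩
    · intro ℓ _ hℓN
      exact absurd (dvd_zero ℓ) hℓN
    · intro ℓ _ hℓN
      exact absurd (by simp) hℓN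
  have : Fact p.Prime := ⟨hp⟩
  obtain ⟨κ, _, _, _, ψ, ι, hι, hψ⟩ := exists_residue_field φ p hp
  obtain ⟨W, _, _, ρ, hfin, hnt, ⟨L0, hL0, hL0ρ⟩, hunr, hfrob⟩ := hEig N hN g hg p hp κ ψ hψ
  -- the finite level of the output representation
  have hζint : IsIntegral ℚ (zetaP p) := ((zetaP_spec p).isIntegral hp.pos).tower_top
  have : FiniteDimensional ℚ (IntermediateField.adjoin ℚ {zetaP p}) :=
    IntermediateField.adjoin.finiteDimensional hζint
  let L' : IntermediateField ℚ Qb := L0 ⊔ IntermediateField.adjoin ℚ {zetaP p}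
  have hL' : FiniteDimensional ℚ L' := IntermediateField.finiteDimensional_sup L0 _
  have hζL' : zetaP p ∈ L' :=
    (le_sup_right : IntermediateField.adjoin ℚ {zetaP p} ≤ L')
      (IntermediateField.mem_adjoin_simple_self ℚ (zetaP p))
  have hL0L' : ∀ x ∈ L0, x ∈ L' := fun x hx => (le_sup_left : L0 ≤ L') hx
  -- hypothesis (H) of the dimension-two lemma
  have H : ∀ σ : GQ, ∃ (h : GQ) (n : ℕ) (c : κ), ρ (h ^ n) = ρ σ ∧
      epsK p κ (h ^ n) = epsK p κ σ ∧
      ρ h * ρ h - c • ρ h + ((epsK p κ h : κˣ) : κ) • (1 : Module.End κ W) = 0 := by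
    intro σ
    obtain ⟨ℓ, hℓ, hℓB, A, hA, s, hs, n, hn⟩ := hCyc L' hL' σ (N * p).primeFactors
    have hℓNp : ¬ ℓ ∣ N * p := fun hdvd =>
      hℓB (Nat.mem_primeFactors.mpr ⟨hℓ, hdvd, mul_ne_zero hN hp.ne_zero⟩)
    have hℓp : ℓ ≠ p := fun h => hℓNp (h ▸ dvd_mul_left _ _)
    obtain ⟨a, -, hrel⟩ := hfrob ℓ hℓ hℓNp A hA s hs
    refine ⟨s, n, ψ a, ?_, ?_, ?_⟩
    · have h1 : ρ (σ⁻¹ * s ^ n) = 1 := by
        apply hL0ρ
        intro x hx
        rw [AlgEquiv.mul_apply, hn x (hL0L' x hx)]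
        exact σ.symm_apply_apply x
      have h2 : ρ σ * ρ (σ⁻¹ * s ^ n) = ρ (s ^ n) := by
        rw [← map_mul, mul_inv_cancel_left]
      rw [← h2, h1, mul_one]
    · have h1 : chiP p (s ^ n) = chiP p σ := chiP_eq_of_apply_eq p (hn _ hζL')
      rw [epsK, MonoidHom.comp_apply, MonoidHom.comp_apply, h1]
    · rw [epsK_frob p κ hℓ hℓp A hA s hs]
      exact hrel
  obtain ⟨V', _, _, _, ρ', hrank, hker, hchar⟩ := hDim κ GQ W ρ (epsK p κ) H
  let R : ResidualGaloisRep κ :=
    { V := V'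
      finrank_eq := hrank
      ρ := ρ'
      factorsThroughFiniteLevel := ⟨L', hL', fun σ hσ =>
        hker σ (hL0ρ σ fun x hx => hσ x (hL0L' x hx))
          (epsK_eq_one_of_chiP p κ (chiP_eq_one_of_apply_eq p (hσ _ hζL')))⟩ }
  let _ : Algebra κ k := ι.toAlgebra
  refine ⟨R.baseChangeAlong ι, ?_, ?_⟩
  · intro ℓ hℓ hℓN hℓk A hA σ hσ
    have hℓp : ℓ ≠ p := by
      rintro rfl
      exact hℓk (CharP.cast_eq_zero k ℓ)
    have hℓNp : ¬ ℓ ∣ N * p := by
      intro hdvd
      rcases (Nat.Prime.dvd_mul hℓ).mp hdvd with h | h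
      · exact hℓN h
      · exact hℓp ((Nat.prime_dvd_prime_iff_eq hℓ hp).mp h)
    obtain ⟨a, ha, hrel⟩ := hfrob ℓ hℓ hℓNp A hA σ hσ
    refine ⟨a, ha, ?_⟩
    have hrel' : ρ σ * ρ σ - ψ a • ρ σ + ((epsK p κ σ : κˣ) : κ) • (1 : Module.End κ W) = 0 := by
      rw [epsK_frob p κ hℓ hℓp A hA σ hσ]
      exact hrel
    have h1 := hchar σ (ψ a) hrel'
    rw [epsK_frob p κ hℓ hℓp A hA σ hσ] at h1
    show LinearMap.charpoly (LinearMap.baseChange k (ρ' σ)) = _
    rw [LinearMap.charpoly_baseChange, h1]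
    have hια : ι (ψ a) = φ a := RingHom.congr_fun hι a
    rw [RingHom.algebraMap_toAlgebra, Polynomial.map_add, Polynomial.map_sub, Polynomial.map_mul,
      Polynomial.map_pow, Polynomial.map_X, Polynomial.map_C, Polynomial.map_C, hια, map_natCast]
  · intro ℓ hℓ hℓNp A hA σ hσ
    have hℓp : ℓ ≠ p := fun h => hℓNp (h ▸ dvd_mul_left _ _)
    have h1 : ρ' σ = 1 :=
      hker σ (hunr ℓ hℓ hℓNp A hA σ hσ)
        (epsK_eq_one_of_chiP p κ (chiP_inertia p hℓ hℓp A hA σ hσ))
    show LinearMap.baseChange k (ρ' σ) = 1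
    rw [h1, LinearMap.baseChange_one]

end Fermat.Agent.S29.helper6752
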