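import Fermat.Agent.Lib.helper74_GenChebCore
import Fermat.Agent.S29.helper9726_GenChebAdapters
import Fermat.Agent.S29.helper6752_Endgame

/-!
# S29: the (CYC) input of the endgame, unconditional (helper4878)

Adapter: the landed number-field core `Fermat.Agent.Lib.helper74.exists_frob_generator`
(Frobenius density theorem in existence form) gives `helper9726.Stmt_FrobGenQ`, hence, by the
landed bridge `helper9726.cycFrob_of_frobGenQ`, the statement `helper6752.Stmt_CycFrob`
consumed by the S29 endgame `helper6752.result_of`.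
-/

set_option autoImplicit false

namespace Fermat.Agent.S29.helper4878

open NumberField

/-- The number-field core in the shape of `helper9726.Stmt_FrobGenQ`, from helper74's theorem. -/
theorem stmt_FrobGenQ : Fermat.Agent.S29.helper9726.Stmt_FrobGenQ := by
  intro K _ _ _ g T
  obtain ⟨ℓ, P, τ, k, m, hℓ, hℓT, hP, hℓP, -, huniq, hτ, hg⟩ :=
    Fermat.Agent.Lib.helper74.exists_frob_generator (L := K) g T
  refine ⟨ℓ, P, hℓ, hℓT, hP, hℓP, ?_⟩
  intro τ' hτ'
  have h1 : τ' = τ := huniq τ' hτ'
  subst h1
  apply le_antisymm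
  · rw [Subgroup.zpowers_le]
    rw [hτ]
    exact Subgroup.pow_mem _ (Subgroup.mem_zpowers g) k
  · rw [Subgroup.zpowers_le]
    rw [hg]
    exact Subgroup.pow_mem _ (Subgroup.mem_zpowers τ') m

/-- **(CYC)**: the generator form of Chebotarev consumed by the S29 endgame, unconditionally. -/
theorem stmt_CycFrob : Fermat.Agent.S29.helper6752.Stmt_CycFrob :=
  Fermat.Agent.S29.helper9726.cycFrob_of_frobGenQ stmt_FrobGenQ

end Fermat.Agent.S29.helper4878
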