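/-
S29 / S30 / S31 shared brick (helper2378): CARTESIAN BASE CHANGE for divisors on function fields,
in the Prelude `AlgebraicCurve` vocabulary.

For a commutative square of finite extensions

      K0 --a--> L1
      |b        |b2
      v         v
      L2 --a2-> L

such that norms are compatible (`Nm_{L/L2}(b2 y) = b (Nm_{L1/K0} y)`, which holds as soon as a
`K0`-basis of `L1` is mapped to an `L2`-basis of `L`), the norm formula holds for `a` and `a2`, and
the places of `L1` over one place of `K0` can be separated by a function (weak approximation),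

      pullback(b) ∘ pushforward(a) = pushforward(a2) ∘ pullback(b2)   on `Divisor K L1`.

No completions are used: the identity is checked on principal divisors through norms and then
localised with the separating functions.
-/
import Mathlib
import Fermat.Prelude.Def_AlgebraicCurve_Correspondence

set_option autoImplicit false
set_option linter.style.haveILetI false

namespace Fermat.Agent.S29.helper2378

open AlgebraicCurve

noncomputable section

/-! ## Norms and base change along a square with compatible bases -/

section NormBaseChange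

variable {K0 L1 L2 L : Type*} [Field K0] [Field L1] [Field L2] [Field L]
  [Algebra K0 L1] [Algebra K0 L2] [Algebra L1 L] [Algebra L2 L]

/-- If a `K0`-basis of `L1` is mapped to an `L2`-basis of `L`, norms commute with the square. -/
theorem norm_algebraMap_of_basis
    (hsq : ∀ x : K0, algebraMap L1 L (algebraMap K0 L1 x) = algebraMap L2 L (algebraMap K0 L2 x))
    {ι : Type*} [Fintype ι] [DecidableEq ι] (e : Module.Basis ι K0 L1) (e' : Module.Basis ι L2 L)
    (he : ∀ i, e' i = algebraMap L1 L (e i)) (y : L1) :
    Algebra.norm L2 (algebraMap L1 L y) = algebraMap K0 L2 (Algebra.norm K0 y) := by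
  rw [Algebra.norm_eq_matrix_det e', Algebra.norm_eq_matrix_det e, RingHom.map_det]
  congr 1
  ext i j
  rw [RingHom.mapMatrix_apply, Matrix.map_apply, Algebra.leftMulMatrix_eq_repr_mul,
    Algebra.leftMulMatrix_eq_repr_mul]
  obtain ⟨c, hc⟩ : ∃ c : ι → K0, c = fun k => e.repr (y * e j) k := ⟨_, rfl⟩
  have h1 : y * e j = ∑ k, c k • e k := by
    rw [hc]
    exact (e.sum_repr (y * e j)).symm
  have h2 : algebraMap L1 L y * e' j = ∑ k, algebraMap K0 L2 (c k) • e' k := by
    rw [he j, ← map_mul, h1, map_sum]
    refine Finset.sum_congr rfl fun k _ => ?_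
    rw [Algebra.smul_def, map_mul, hsq, he k, Algebra.smul_def]
  have h3 : e.repr (y * e j) i = c i := by rw [hc]
  rw [h2, h3, map_sum]
  simp only [map_smul, Module.Basis.repr_self, Finsupp.coe_finsetSum, Finsupp.coe_smul,
    Finset.sum_apply, Pi.smul_apply, Finsupp.single_apply, smul_eq_mul, mul_ite, mul_one,
    mul_zero, Finset.sum_ite_eq', Finset.mem_univ, if_true]

end NormBaseChange

/-! ## The base change identity, instance form -/

section Instance

variable {K K0 L1 L2 L : Type*} [Field K] [Field K0] [Field L1] [Field L2] [Field L]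
  [Algebra K K0] [Algebra K L1] [Algebra K L2] [Algebra K L]
  [Algebra K0 L1] [IsScalarTower K K0 L1] [Algebra.IsIntegral K0 L1]
  [Algebra K0 L2] [IsScalarTower K K0 L2] [Algebra.IsIntegral K0 L2]
  [Algebra L1 L] [IsScalarTower K L1 L] [Algebra.IsIntegral L1 L]
  [Algebra L2 L] [IsScalarTower K L2 L] [Algebra.IsIntegral L2 L]

omit [Algebra.IsIntegral K0 L1] [Algebra.IsIntegral K0 L2] [Algebra.IsIntegral L1 L]
  [Algebra.IsIntegral L2 L] in
/-- Restricting a place of `L` to `K0` through either side of the square gives the same place. -/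
theorem restrict_restrict_of_square
    [Algebra.IsIntegral K0 L1] [Algebra.IsIntegral K0 L2] [Algebra.IsIntegral L1 L]
    [Algebra.IsIntegral L2 L]
    (hsq : ∀ x : K0, algebraMap L1 L (algebraMap K0 L1 x) = algebraMap L2 L (algebraMap K0 L2 x))
    (R : Place K L) : (R.restrict L1).restrict K0 = (R.restrict L2).restrict K0 := by
  apply Place.ext
  ext x
  simp only [Place.restrict_toValuationSubring, ValuationSubring.mem_comap]
  rw [hsq]

variable [HasPrincipalDivisors K L1] [HasPrincipalDivisors K L2] [HasPrincipalDivisors K L]
  [Module.Finite K0 L1] [Module.Finite L2 L]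

/-- **Cartesian base change for divisors** (instance form). -/
theorem pullback_comp_pushforward_eq
    (hsq : ∀ x : K0, algebraMap L1 L (algebraMap K0 L1 x) = algebraMap L2 L (algebraMap K0 L2 x))
    (hN1 : Divisor.PushforwardNormFormula K K0 L1) (hN2 : Divisor.PushforwardNormFormula K L2 L)
    (hBC : ∀ y : L1, Algebra.norm L2 (algebraMap L1 L y) = algebraMap K0 L2 (Algebra.norm K0 y))
    (hWA : ∀ P : Place K L1, ∃ y : L1, y ≠ 0 ∧ P.ord y = 1 ∧
      ∀ P' : Place K L1, P' ≠ P → P'.restrict K0 = P.restrict K0 → P'.ord y = 0) :
    (Divisor.pullback (K := K) (F := K0) L2).comp (Divisor.pushforward (K := K) (F' := L1) K0)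
      = (Divisor.pushforward (K := K) (F' := L) L2).comp (Divisor.pullback (K := K) (F := L1) L) := by
  classical
  -- it suffices to treat `single P 1`
  have key : ∀ P : Place K L1,
      Divisor.pullback (K := K) (F := K0) L2 (Divisor.pushforward K0 (Finsupp.single P (1 : ℤ)))
        = Divisor.pushforward L2 (Divisor.pullback (K := K) (F := L1) L (Finsupp.single P (1 : ℤ))) := by
    intro P
    obtain ⟨y, hy0, hyP, hyP'⟩ := hWA P
    obtain ⟨D, hD, -⟩ := HasPrincipalDivisors.exists_divisor (K := K) y hy0
    -- the two sides agree on the principal divisor `D`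
    have hprinc : ∀ Q : Place K L2,
        Divisor.pullback (K := K) (F := K0) L2 (Divisor.pushforward K0 D) Q
          = Divisor.pushforward L2 (Divisor.pullback (K := K) (F := L1) L D) Q := by
      intro Q
      have hyL : algebraMap L1 L y ≠ 0 := by simpa using hy0
      rw [Divisor.pullback_apply, hN1 y hy0 D hD (Q.restrict K0), ← Place.ord_restrict,
        hN2 (algebraMap L1 L y) hyL (Divisor.pullback L D)
          (fun R => Divisor.pullback_apply_eq_ord hD R) Q, hBC y]
    -- the remainder `D' = D - single P 1` vanishes on the fibre of `P`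
    obtain ⟨D', hD'def⟩ : ∃ D' : Divisor K L1, D' = D - Finsupp.single P (1 : ℤ) := ⟨_, rfl⟩
    have hD' : ∀ P' : Place K L1, P'.restrict K0 = P.restrict K0 → D' P' = 0 := by
      intro P' hP'
      rw [hD'def, Finsupp.sub_apply, hD P']
      by_cases h : P' = P
      · subst h
        rw [hyP, Finsupp.single_eq_same, sub_self]
      · rw [hyP' P' h hP', Finsupp.single_eq_of_ne h, sub_zero]
    have hsingle : Finsupp.single P (1 : ℤ) = D - D' := by
      rw [hD'def, sub_sub_cancel]
    refine Finsupp.ext fun Q => ?_
    by_cases hQ : Q.restrict K0 = P.restrict K0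
    · -- on the fibre: both sides are computed by `D`
      have hL : Divisor.pullback (K := K) (F := K0) L2 (Divisor.pushforward K0 D') Q = 0 := by
        rw [Divisor.pullback_apply, Divisor.pushforward_apply]
        rw [Finset.sum_eq_zero, mul_zero]
        intro w _
        split_ifs with hw
        · rw [hD' w (hw.trans hQ), zero_mul]
        · rfl
      have hR : Divisor.pushforward L2 (Divisor.pullback (K := K) (F := L1) L D') Q = 0 := by
        rw [Divisor.pushforward_apply]
        refine Finset.sum_eq_zero fun R _ => ?_
        split_ifs with hRQ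
        · rw [Divisor.pullback_apply, hD' (R.restrict L1)
            ((restrict_restrict_of_square hsq R).trans (by rw [hRQ, hQ])), mul_zero, zero_mul]
        · rfl
      rw [hsingle, map_sub, map_sub, map_sub, map_sub, Finsupp.sub_apply, Finsupp.sub_apply,
        hL, hR, hprinc Q]
    · -- off the fibre: both sides vanish
      have hL : Divisor.pullback (K := K) (F := K0) L2
          (Divisor.pushforward K0 (Finsupp.single P (1 : ℤ))) Q = 0 := by
        rw [Divisor.pullback_apply, Divisor.pushforward_single,
          Finsupp.single_eq_of_ne hQ, mul_zero]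
      have hR : Divisor.pushforward L2
          (Divisor.pullback (K := K) (F := L1) L (Finsupp.single P (1 : ℤ))) Q = 0 := by
        rw [Divisor.pushforward_apply]
        refine Finset.sum_eq_zero fun R _ => ?_
        split_ifs with hRQ
        · rw [Divisor.pullback_apply]
          have hne : R.restrict L1 ≠ P := by
            intro h
            apply hQ
            rw [← hRQ, ← restrict_restrict_of_square hsq R, h]
          rw [Finsupp.single_eq_of_ne hne, mul_zero, zero_mul]
        · rfl
      rw [hL, hR]
  refine Finsupp.addHom_ext fun P n => ?_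
  have hn : Finsupp.single P n = n • Finsupp.single P (1 : ℤ) := by
    rw [Finsupp.smul_single, smul_eq_mul, mul_one]
  rw [hn, map_zsmul, map_zsmul]
  exact congrArg (n • ·) (key P)

end Instance

/-! ## `Along` forms (algebra homomorphisms instead of instances) -/

section Along

variable {K K0 L1 L2 L : Type*} [Field K] [Field K0] [Field L1] [Field L2] [Field L]
  [Algebra K K0] [Algebra K L1] [Algebra K L2] [Algebra K L]

/-- The norm along an algebra homomorphism. -/
def normAlong {F F' : Type*} [Field F] [Field F'] [Algebra K F] [Algebra K F']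
    (φ : F →ₐ[K] F') : F' →* F :=
  letI := algebraAlong φ
  Algebra.norm F

/-- Norm compatibility for a square in which `L` is spanned over `L2` by the image of `L1` and
the two degrees agree. -/
theorem normAlong_comm_of_span
    (a : K0 →ₐ[K] L1) (b : K0 →ₐ[K] L2) (b2 : L1 →ₐ[K] L) (a2 : L2 →ₐ[K] L)
    (hsq : ∀ x : K0, b2 (a x) = a2 (b x))
    (hfa : FiniteAlong K a)
    (hdeg : finrankAlong K a2 = finrankAlong K a)
    (hgen : ∀ z : L, ∃ (s : Finset L1) (c : L1 → L2), z = ∑ x ∈ s, a2 (c x) * b2 x) (y : L1) :
    normAlong a2 (b2 y) = b (normAlong a y) := by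
  classical
  letI := algebraAlong a
  letI := algebraAlong b
  letI := algebraAlong b2
  letI := algebraAlong a2
  haveI : Module.Finite K0 L1 := hfa
  have hsq' : ∀ x : K0,
      algebraMap L1 L (algebraMap K0 L1 x) = algebraMap L2 L (algebraMap K0 L2 x) := hsq
  let e := Module.finBasis K0 L1
  let v : Fin (Module.finrank K0 L1) → L := fun i => algebraMap L1 L (e i)
  have hspan : ⊤ ≤ Submodule.span L2 (Set.range v) := by
    intro z _
    obtain ⟨s, c, rfl⟩ := hgen z
    refine Submodule.sum_mem _ fun x _ => ?_
    have hx : x = ∑ k, e.repr x k • e k := (e.sum_repr x).symm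
    have h2 : a2 (c x) * b2 x = c x • algebraMap L1 L x := by
      rw [Algebra.smul_def]
      rfl
    rw [h2]
    refine Submodule.smul_mem _ _ ?_
    rw [hx, map_sum]
    refine Submodule.sum_mem _ fun k _ => ?_
    rw [Algebra.smul_def, map_mul, hsq', ← Algebra.smul_def]
    exact Submodule.smul_mem _ _ (Submodule.subset_span ⟨k, rfl⟩)
  have hcard : Fintype.card (Fin (Module.finrank K0 L1)) = Module.finrank L2 L := by
    rw [Fintype.card_fin]
    exact hdeg.symm
  let e' := basisOfTopLeSpanOfCardEqFinrank v hspan hcard
  have he : ∀ i, e' i = algebraMap L1 L (e i) := fun i => by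
    simp only [e', coe_basisOfTopLeSpanOfCardEqFinrank, v]
  exact norm_algebraMap_of_basis hsq' e e' he y

variable [HasPrincipalDivisors K L1] [HasPrincipalDivisors K L2] [HasPrincipalDivisors K L]

/-- **Cartesian base change for divisors**, `Along` form:
`b^* ∘ a_* = a2_* ∘ b2^*` for a commutative square `b2 ∘ a = a2 ∘ b`. -/
theorem pullbackAlong_comp_pushforwardAlong_eq
    (a : K0 →ₐ[K] L1) (b : K0 →ₐ[K] L2) (b2 : L1 →ₐ[K] L) (a2 : L2 →ₐ[K] L)
    (ha : a.toRingHom.IsIntegral) (hb : b.toRingHom.IsIntegral)
    (hb2 : b2.toRingHom.IsIntegral) (ha2 : a2.toRingHom.IsIntegral)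
    (hsq : ∀ x : K0, b2 (a x) = a2 (b x))
    (hfa : FiniteAlong K a) (hfa2 : FiniteAlong K a2)
    (hNa : NormFormulaAlong K a hfa) (hNa2 : NormFormulaAlong K a2 hfa2)
    (hBC : ∀ y : L1, normAlong a2 (b2 y) = b (normAlong a y))
    (hWA : ∀ P : Place K L1, ∃ y : L1, y ≠ 0 ∧ P.ord y = 1 ∧
      ∀ P' : Place K L1, P' ≠ P → P'.restrictAlong a ha = P.restrictAlong a ha → P'.ord y = 0) :
    (Divisor.pullbackAlong b hb).comp (Divisor.pushforwardAlong a ha)
      = (Divisor.pushforwardAlong a2 ha2).comp (Divisor.pullbackAlong b2 hb2) := by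
  letI := algebraAlong a
  letI := algebraAlong b
  letI := algebraAlong b2
  letI := algebraAlong a2
  haveI := isScalarTower_along a
  haveI := isScalarTower_along b
  haveI := isScalarTower_along b2
  haveI := isScalarTower_along a2
  haveI := isIntegral_along a ha
  haveI := isIntegral_along b hb
  haveI := isIntegral_along b2 hb2
  haveI := isIntegral_along a2 ha2
  haveI : Module.Finite K0 L1 := hfa
  haveI : Module.Finite L2 L := hfa2
  exact pullback_comp_pushforward_eq (K := K) (K0 := K0) (L1 := L1) (L2 := L2) (L := L)
    hsq hNa hNa2 hBC hWA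

end Along

end

end Fermat.Agent.S29.helper2378
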