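/-
S29 / S30 / S31 shared brick (helper2378): WEAK APPROXIMATION for places of a function field in the
Prelude `AlgebraicCurve` vocabulary (any fields `K`, `F`), and the resulting separating functions on
the fibres of a finite map.  Consumed by the cartesian base change `helper2378_BaseChange.lean`
(hypothesis `hWA`).
-/
import Mathlib
import Fermat.Prelude.Def_AlgebraicCurve_Correspondence
import Fermat.Agent.S24.helper1370_PlaceBasics

set_option autoImplicit false
set_option linter.style.haveILetI false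

namespace Fermat.Agent.S29.helper2378

open AlgebraicCurve
open Fermat.Agent.S24.helper1370

noncomputable section

section WeakApprox

variable {K F : Type*} [Field K] [Field F] [Algebra K F]

/-- Two distinct places are separated by a function with a pole at one and a zero at the other. -/
theorem exists_ord_neg_pos {v w : Place K F} (h : v ≠ w) :
    ∃ f : F, v.ord f < 0 ∧ 0 < w.ord f := by
  obtain ⟨f, hf1, hf2⟩ := (ne_iff_exists_ord v w).mp h
  obtain ⟨g, hg1, hg2⟩ := (ne_iff_exists_ord w v).mp h.symm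
  have hf0 : f ≠ 0 := by
    rintro rfl
    simp at hf2
  have hg0 : g ≠ 0 := by
    rintro rfl
    simp at hg2
  refine ⟨g / f, ?_, ?_⟩
  · rw [ord_div v hg0 hf0]
    omega
  · rw [ord_div w hg0 hf0]
    omega

/-- A function with a pole at `v` and zeros at all places of a finite set not containing `v`. -/
theorem exists_ord_neg_forall_pos (v : Place K F) (s : Finset (Place K F)) (hv : v ∉ s) :
    ∃ z : F, v.ord z < 0 ∧ ∀ u ∈ s, 0 < u.ord z := by
  classical
  induction s using Finset.induction_on with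
  | empty =>
    obtain ⟨π, hπ⟩ := exists_uniformizer v
    exact ⟨π⁻¹, by rw [v.ord_inv, hπ]; norm_num, by simp⟩
  | insert w s hws ih =>
    rw [Finset.mem_insert, not_or] at hv
    obtain ⟨z, hzv, hzs⟩ := ih hv.2
    obtain ⟨x, hxv, hxw⟩ := exists_ord_neg_pos hv.1
    have hz0 : z ≠ 0 := by
      rintro rfl
      simp at hzv
    have hx0 : x ≠ 0 := by
      rintro rfl
      simp at hxv
    -- a large exponent
    obtain ⟨n, hn1, hn⟩ : ∃ n : ℕ, 1 ≤ n ∧ ∀ u ∈ s, 0 < (n : ℤ) + u.ord x := by
      obtain ⟨S, hS⟩ : ∃ S : ℕ, S = ∑ u ∈ s, (u.ord x).natAbs := ⟨_, rfl⟩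
      refine ⟨1 + S, by omega, fun u hu => ?_⟩
      have h1 : (u.ord x).natAbs ≤ S := by
        rw [hS]
        exact Finset.single_le_sum (f := fun u : Place K F => (u.ord x).natAbs)
          (fun _ _ => Nat.zero_le _) hu
      have h2 : -(u.ord x) ≤ ((u.ord x).natAbs : ℤ) := by omega
      push_cast
      omega
    have hzn0 : z ^ n ≠ 0 := pow_ne_zero n hz0
    have hmul : ∀ u ∈ s, 0 < (n : ℤ) * u.ord z + u.ord x := by
      intro u hu
      have h1 := hzs u hu
      have h2 := hn u hu
      have h3 : (n : ℤ) * 1 ≤ (n : ℤ) * u.ord z :=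
        mul_le_mul_of_nonneg_left (by omega) (by positivity)
      omega
    by_cases hzw : 0 ≤ w.ord z
    · -- `z ^ n * x`
      refine ⟨z ^ n * x, ?_, ?_⟩
      · rw [v.ord_mul hzn0 hx0, ord_pow]
        have h3 : (n : ℤ) * v.ord z ≤ 0 :=
          mul_nonpos_of_nonneg_of_nonpos (by positivity) (by omega)
        omega
      · intro u hu
        rw [u.ord_mul hzn0 hx0, ord_pow]
        rcases Finset.mem_insert.mp hu with rfl | hu
        · have h3 : 0 ≤ (n : ℤ) * u.ord z := mul_nonneg (by positivity) hzw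
          omega
        · exact hmul u hu
    · -- `z ^ n / (1 + z ^ n) * x`
      rw [not_le] at hzw
      have hn0 : (0 : ℤ) < n := by exact_mod_cast hn1
      have hvz : v.ord (z ^ n) < 0 := by
        rw [ord_pow]
        exact mul_neg_of_pos_of_neg hn0 hzv
      have hwz : w.ord (z ^ n) < 0 := by
        rw [ord_pow]
        exact mul_neg_of_pos_of_neg hn0 hzw
      have h1v : v.ord (1 + z ^ n) = v.ord (z ^ n) :=
        ord_add_eq_of_lt' v hzn0 (by rw [v.ord_one]; exact hvz)
      have h1w : w.ord (1 + z ^ n) = w.ord (z ^ n) :=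
        ord_add_eq_of_lt' w hzn0 (by rw [w.ord_one]; exact hwz)
      have h10 : 1 + z ^ n ≠ 0 := by
        intro h0
        rw [h0, v.ord_zero] at h1v
        omega
      have ht0 : z ^ n / (1 + z ^ n) ≠ 0 := div_ne_zero hzn0 h10
      refine ⟨z ^ n / (1 + z ^ n) * x, ?_, ?_⟩
      · rw [v.ord_mul ht0 hx0, ord_div v hzn0 h10, h1v]
        omega
      · intro u hu
        rw [u.ord_mul ht0 hx0, ord_div u hzn0 h10]
        rcases Finset.mem_insert.mp hu with rfl | hu
        · rw [h1w]
          omega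
        · have hup : 0 < u.ord (z ^ n) := by
            rw [ord_pow]
            exact mul_pos hn0 (hzs u hu)
          have h1u : u.ord (1 + z ^ n) = u.ord (1 : F) :=
            ord_add_eq_of_lt u one_ne_zero (by rw [u.ord_one]; exact hup)
          rw [h1u, u.ord_one, ord_pow]
          have := hmul u hu
          omega

/-- Approximate idempotents: `w` is `1` to order `N` at `v` and `0` to order `N` on `s`. -/
theorem exists_approx_idempotent (v : Place K F) (s : Finset (Place K F)) (hv : v ∉ s) (N : ℕ) :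
    ∃ w : F, w ≠ 0 ∧ w - 1 ≠ 0 ∧ (N : ℤ) ≤ v.ord (w - 1) ∧ ∀ u ∈ s, (N : ℤ) ≤ u.ord w := by
  obtain ⟨z, hzv, hzs⟩ := exists_ord_neg_forall_pos v s hv
  have hz0 : z ≠ 0 := by
    rintro rfl
    simp at hzv
  set n : ℕ := N + 1 with hn
  have hn0 : (0 : ℤ) < n := by rw [hn]; positivity
  have hzn0 : z ^ n ≠ 0 := pow_ne_zero n hz0
  have hvz : v.ord (z ^ n) ≤ -(n : ℤ) := by
    rw [ord_pow]
    have h3 : (n : ℤ) * v.ord z ≤ (n : ℤ) * (-1) :=
      mul_le_mul_of_nonneg_left (by omega) hn0.le
    omega
  have h1v : v.ord (1 + z ^ n) = v.ord (z ^ n) :=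
    ord_add_eq_of_lt' v hzn0 (by rw [v.ord_one]; omega)
  have h10 : 1 + z ^ n ≠ 0 := by
    intro h0
    rw [h0, v.ord_zero] at h1v
    omega
  have hw1 : z ^ n / (1 + z ^ n) - 1 = -(1 + z ^ n)⁻¹ := by
    field_simp
    ring
  refine ⟨z ^ n / (1 + z ^ n), div_ne_zero hzn0 h10, ?_, ?_, ?_⟩
  · rw [hw1]
    exact neg_ne_zero.mpr (inv_ne_zero h10)
  · rw [hw1, ord_neg, v.ord_inv, h1v]
    omega
  · intro u hu
    have hup : (n : ℤ) ≤ u.ord (z ^ n) := by
      rw [ord_pow]
      have h3 : (n : ℤ) * 1 ≤ (n : ℤ) * u.ord z :=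
        mul_le_mul_of_nonneg_left (by have := hzs u hu; omega) hn0.le
      omega
    have h1u : u.ord (1 + z ^ n) = u.ord (1 : F) :=
      ord_add_eq_of_lt u one_ne_zero (by rw [u.ord_one]; omega)
    rw [ord_div u hzn0 h10, h1u, u.ord_one]
    omega

/-- **Weak approximation, separating form**: a function of order `1` at `v` and order `0` at all
places of a finite set `s` not containing `v`. -/
theorem exists_ord_eq_one_forall_eq_zero (v : Place K F) (s : Finset (Place K F)) (hv : v ∉ s) :
    ∃ y : F, y ≠ 0 ∧ v.ord y = 1 ∧ ∀ u ∈ s, u.ord y = 0 := by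
  obtain ⟨π, hπ⟩ := exists_uniformizer v
  have hπ0 : π ≠ 0 := uniformizer_ne_zero v hπ
  have hπ1 : π - 1 ≠ 0 := by
    intro h
    rw [sub_eq_zero] at h
    rw [h, v.ord_one] at hπ
    omega
  -- `ord_v (π - 1) = 0`
  have hvπ1 : v.ord (π - 1) = 0 := by
    have h := ord_add_eq_of_lt v (f := (-1 : F)) (g := π) (neg_ne_zero.mpr one_ne_zero)
      (by rw [ord_neg, v.ord_one, hπ]; norm_num)
    rw [ord_neg, v.ord_one, neg_add_eq_sub] at h
    exact h
  obtain ⟨N, hN2, hN⟩ : ∃ N : ℕ, 2 ≤ N ∧ ∀ u ∈ s, 0 < (N : ℤ) + u.ord (π - 1) := by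
    obtain ⟨S, hS⟩ : ∃ S : ℕ, S = ∑ u ∈ s, (u.ord (π - 1)).natAbs := ⟨_, rfl⟩
    refine ⟨2 + S, by omega, fun u hu => ?_⟩
    have h1 : (u.ord (π - 1)).natAbs ≤ S := by
      rw [hS]
      exact Finset.single_le_sum (f := fun u : Place K F => (u.ord (π - 1)).natAbs)
        (fun _ _ => Nat.zero_le _) hu
    have h2 : -(u.ord (π - 1)) ≤ ((u.ord (π - 1)).natAbs : ℤ) := by omega
    push_cast
    omega
  obtain ⟨w, hw0, hw1, hwv, hws⟩ := exists_approx_idempotent v s hv N
  -- `y = 1 + w (π - 1) = π + (w - 1) (π - 1)`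
  have hy1 : 1 + w * (π - 1) = π + (w - 1) * (π - 1) := by ring
  have hvy : v.ord (1 + w * (π - 1)) = 1 := by
    rw [hy1, ord_add_eq_of_lt v hπ0, hπ]
    rw [hπ, v.ord_mul hw1 hπ1, hvπ1]
    have : (2 : ℤ) ≤ N := by exact_mod_cast hN2
    omega
  have hy0 : 1 + w * (π - 1) ≠ 0 := by
    intro h0
    rw [h0, v.ord_zero] at hvy
    omega
  refine ⟨1 + w * (π - 1), hy0, hvy, fun u hu => ?_⟩
  rw [ord_add_eq_of_lt u one_ne_zero, u.ord_one]
  rw [u.ord_one, u.ord_mul hw0 hπ1]
  have := hws u hu
  have := hN u hu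
  omega

end WeakApprox

/-! ## Separating functions on the fibres of a finite map -/

section Fibre

variable {K F F' : Type*} [Field K] [Field F] [Field F'] [Algebra K F] [Algebra K F']
  [HasPrincipalDivisors K F']

/-- The hypothesis `hWA` of the cartesian base change holds for every integral map of function
fields (with principal divisors upstairs). -/
theorem exists_separating_along (a : F →ₐ[K] F') (ha : a.toRingHom.IsIntegral) (P : Place K F') :
    ∃ y : F', y ≠ 0 ∧ P.ord y = 1 ∧
      ∀ P' : Place K F', P' ≠ P → P'.restrictAlong a ha = P.restrictAlong a ha →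
        P'.ord y = 0 := by
  classical
  letI := algebraAlong a
  haveI := isScalarTower_along a
  haveI := isIntegral_along a ha
  have hfin : {w : Place K F' | w.restrict F = P.restrict F}.Finite :=
    Place.restrict_fiber_finite (P.restrict F)
  obtain ⟨y, hy0, hy1, hy⟩ := exists_ord_eq_one_forall_eq_zero P (hfin.toFinset.erase P)
    (Finset.notMem_erase P _)
  refine ⟨y, hy0, hy1, fun P' hne hP' => hy P' ?_⟩
  rw [Finset.mem_erase]
  refine ⟨hne, ?_⟩
  rw [Set.Finite.mem_toFinset]
  exact hP'

end Fibre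

/-! ## Towers: functoriality of pull-back and push-forward -/

section Tower

variable {K F F1 Z : Type*} [Field K] [Field F] [Field F1] [Field Z]
  [Algebra K F] [Algebra K F1] [Algebra K Z]
  [Algebra F F1] [IsScalarTower K F F1] [Algebra.IsIntegral F F1]
  [Algebra F1 Z] [IsScalarTower K F1 Z] [Algebra.IsIntegral F1 Z]
  [Algebra F Z] [IsScalarTower K F Z] [Algebra.IsIntegral F Z] [IsScalarTower F F1 Z]

theorem restrict_restrict_tower (W : Place K Z) : (W.restrict F1).restrict F = W.restrict F := by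
  apply Place.ext
  ext x
  simp only [Place.restrict_toValuationSubring, ValuationSubring.mem_comap]
  rw [← IsScalarTower.algebraMap_apply]

theorem ramificationIndex_tower (W : Place K Z) :
    W.ramificationIndex F = W.ramificationIndex F1 * (W.restrict F1).ramificationIndex F := by
  obtain ⟨f, hf0, hf⟩ := W.exists_ord_eq_ramificationIndex (F := F)
  have h1 := W.ord_restrict (F := F) f
  have hpos : 0 < W.ramificationIndex F := W.ramificationIndex_pos (F := F)
  have h2 : (W.restrict F).ord f = 1 := by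
    rw [hf] at h1
    have hpos' : (0 : ℤ) < (W.ramificationIndex F : ℤ) := by exact_mod_cast hpos
    have h1' : (W.ramificationIndex F : ℤ) * 1 = (W.ramificationIndex F : ℤ) * (W.restrict F).ord f := by
      rw [mul_one]
      exact h1
    exact (mul_left_cancel₀ hpos'.ne' h1').symm
  have h3 := W.ord_restrict (F := F1) (algebraMap F F1 f)
  rw [← IsScalarTower.algebraMap_apply, hf] at h3
  have h4 := (W.restrict F1).ord_restrict (F := F) f
  rw [restrict_restrict_tower, h2, mul_one] at h4
  rw [h4] at h3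
  exact_mod_cast h3

theorem pullback_pullback_tower [HasPrincipalDivisors K F1] [HasPrincipalDivisors K Z]
    (D : Divisor K F) :
    Divisor.pullback (K := K) (F := F1) Z (Divisor.pullback (K := K) (F := F) F1 D)
      = Divisor.pullback (K := K) (F := F) Z D := by
  refine Finsupp.ext fun W => ?_
  rw [Divisor.pullback_apply, Divisor.pullback_apply, Divisor.pullback_apply,
    restrict_restrict_tower, ramificationIndex_tower (F := F) (F1 := F1) W]
  push_cast
  ring

theorem inertiaDeg_tower (hdeg : ∀ v : Place K F, v.deg ≠ 0) (W : Place K Z) :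
    W.inertiaDeg F = W.inertiaDeg F1 * (W.restrict F1).inertiaDeg F := by
  have h1 := W.deg_restrict_mul_inertiaDeg (F := F)
  have h2 := W.deg_restrict_mul_inertiaDeg (F := F1)
  have h3 := (W.restrict F1).deg_restrict_mul_inertiaDeg (F := F)
  rw [restrict_restrict_tower] at h3
  rw [← h2, ← h3, mul_assoc] at h1
  rw [Nat.mul_left_cancel_iff (Nat.pos_of_ne_zero (hdeg _))] at h1
  rw [h1, mul_comm]

theorem pushforward_pushforward_tower (hdeg : ∀ v : Place K F, v.deg ≠ 0) (D : Divisor K Z) :
    Divisor.pushforward (K := K) (F' := F1) F (Divisor.pushforward (K := K) (F' := Z) F1 D)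
      = Divisor.pushforward (K := K) (F' := Z) F D := by
  have key : (Divisor.pushforward (K := K) (F' := F1) F).comp
      (Divisor.pushforward (K := K) (F' := Z) F1) = Divisor.pushforward (K := K) (F' := Z) F := by
    refine Finsupp.addHom_ext fun W n => ?_
    rw [AddMonoidHom.comp_apply, Divisor.pushforward_single, Divisor.pushforward_single,
      Divisor.pushforward_single, restrict_restrict_tower,
      inertiaDeg_tower (F := F) (F1 := F1) hdeg W]
    push_cast
    rw [mul_assoc]
  exact DFunLike.congr_fun key D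

end Tower

section TowerAlong

variable {K F F1 Z : Type*} [Field K] [Field F] [Field F1] [Field Z]
  [Algebra K F] [Algebra K F1] [Algebra K Z]

theorem isIntegral_comp (φ : F →ₐ[K] F1) (ψ : F1 →ₐ[K] Z) (hφ : φ.toRingHom.IsIntegral)
    (hψ : ψ.toRingHom.IsIntegral) : (ψ.comp φ).toRingHom.IsIntegral :=
  RingHom.IsIntegral.trans _ _ hφ hψ

theorem pullbackAlong_comp [HasPrincipalDivisors K F1] [HasPrincipalDivisors K Z]
    (φ : F →ₐ[K] F1) (ψ : F1 →ₐ[K] Z) (hφ : φ.toRingHom.IsIntegral)
    (hψ : ψ.toRingHom.IsIntegral) (hψφ : (ψ.comp φ).toRingHom.IsIntegral) :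
    Divisor.pullbackAlong (ψ.comp φ) hψφ
      = (Divisor.pullbackAlong ψ hψ).comp (Divisor.pullbackAlong φ hφ) := by
  letI := algebraAlong φ
  letI := algebraAlong ψ
  letI := algebraAlong (ψ.comp φ)
  haveI := isScalarTower_along φ
  haveI := isScalarTower_along ψ
  haveI := isScalarTower_along (ψ.comp φ)
  haveI := isIntegral_along φ hφ
  haveI := isIntegral_along ψ hψ
  haveI := isIntegral_along (ψ.comp φ) hψφ
  haveI : IsScalarTower F F1 Z := IsScalarTower.of_algebraMap_eq fun _ => rfl
  refine AddMonoidHom.ext fun D => ?_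
  exact (pullback_pullback_tower (K := K) (F := F) (F1 := F1) (Z := Z) D).symm

theorem pushforwardAlong_comp
    (φ : F →ₐ[K] F1) (ψ : F1 →ₐ[K] Z) (hφ : φ.toRingHom.IsIntegral)
    (hψ : ψ.toRingHom.IsIntegral) (hψφ : (ψ.comp φ).toRingHom.IsIntegral)
    (hdeg : ∀ v : Place K F, v.deg ≠ 0) :
    Divisor.pushforwardAlong (ψ.comp φ) hψφ
      = (Divisor.pushforwardAlong φ hφ).comp (Divisor.pushforwardAlong ψ hψ) := by
  letI := algebraAlong φ
  letI := algebraAlong ψ
  letI := algebraAlong (ψ.comp φ)
  haveI := isScalarTower_along φ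
  haveI := isScalarTower_along ψ
  haveI := isScalarTower_along (ψ.comp φ)
  haveI := isIntegral_along φ hφ
  haveI := isIntegral_along ψ hψ
  haveI := isIntegral_along (ψ.comp φ) hψφ
  haveI : IsScalarTower F F1 Z := IsScalarTower.of_algebraMap_eq fun _ => rfl
  refine AddMonoidHom.ext fun D => ?_
  exact (pushforward_pushforward_tower (K := K) (F := F) (F1 := F1) (Z := Z) hdeg D).symm

end TowerAlong

end

end Fermat.Agent.S29.helper2378
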