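/-
S29 / S30 / S31 (helper2378, board row 795): the Hecke operators `T_ℓ` on `J₀(N)(ℚ̄)` commute,
`ModularCurve.HeckeOperatorsCommuteBar N` (hypothesis `hcomm` of the frozen S37 statement and
fact (1) of the S30/S31 machine interface).

Route: for primes `ℓ ≠ ℓ'` the square
      F_N ──incl──▶ F_{Nℓ}
       │q↦q^ℓ'       │q↦q^ℓ'
       ▼             ▼
     F_{Nℓ'} ─incl─▶ F_{Nℓℓ'}
is cartesian (`F_{Nℓℓ'}` is the compositum and the degrees agree), so by the base change formula
`T_ℓ' ∘ T_ℓ = (incl F_N → F_{Nℓℓ'})_* ∘ (q ↦ q^{ℓℓ'})^*` on divisors, which is symmetric in `ℓ, ℓ'`.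
-/
import Mathlib
import Fermat.Agent.S29.helper2378_BaseChange
import Fermat.Agent.S29.helper2378_WeakApprox
import Fermat.Agent.S28.helper720_GcdLemma
import Fermat.Agent.S28.helper508_FormalPrime
import Fermat.Agent.S29.helper36_FunctionFieldL
import Fermat.Agent.S37.helper8426_HeckeInputs

set_option autoImplicit false
set_option linter.style.haveILetI false

namespace Fermat.Agent.S29.helper2378

open AlgebraicCurve

noncomputable section

/-! ## Generic: composition of two correspondences through a cartesian square -/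

section GenericCorr

variable {K F A B Z : Type*} [Field K] [Field F] [Field A] [Field B] [Field Z]
  [Algebra K F] [Algebra K A] [Algebra K B] [Algebra K Z]

/-- If `Z` is generated as a field by the images of `B` (along the finite map `a2`) and of `A`
(along `b2`), then every element of `Z` is a `B`-linear combination of elements of `b2 A`. -/
theorem exists_sum_of_generation (a2 : B →ₐ[K] Z) (b2 : A →ₐ[K] Z) (hfa2 : FiniteAlong K a2)
    (hgen : ∀ T : Subfield Z, (∀ c, a2 c ∈ T) → (∀ x, b2 x ∈ T) → ∀ z, z ∈ T) (z : Z) :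
    ∃ (s : Finset A) (c : A → B), z = ∑ x ∈ s, a2 (c x) * b2 x := by
  classical
  letI := algebraAlong a2
  haveI : Module.Finite B Z := hfa2
  obtain ⟨M, hM⟩ : ∃ M : Submodule B Z, M = Submodule.span B (Set.range b2) := ⟨_, rfl⟩
  have hone : (1 : Z) ∈ M := by
    rw [hM]
    exact Submodule.subset_span ⟨1, map_one b2⟩
  have hmul : ∀ x y : Z, x ∈ M → y ∈ M → x * y ∈ M := by
    intro x y hx hy
    have h1 : x * y ∈ M * M := Submodule.mul_mem_mul hx hy
    rw [hM, Submodule.span_mul_span] at h1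
    rw [hM]
    refine Submodule.span_mono ?_ h1
    rintro _ ⟨_, ⟨u, rfl⟩, _, ⟨v, rfl⟩, rfl⟩
    exact ⟨u * v, map_mul b2 u v⟩
  let S : Subalgebra B Z :=
    { carrier := M
      mul_mem' := fun {x y} hx hy => hmul x y hx hy
      one_mem' := hone
      add_mem' := fun {x y} hx hy => M.add_mem hx hy
      zero_mem' := M.zero_mem
      algebraMap_mem' := fun r => by
        show algebraMap B Z r ∈ M
        rw [Algebra.algebraMap_eq_smul_one]
        exact M.smul_mem r hone }
  let T : Subfield Z :=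
    { S.toSubring with
      inv_mem' := fun x hx => by
        have hx' : x ∈ S := hx
        exact Subalgebra.inv_mem_of_algebraic (A := S) (x := ⟨x, hx'⟩)
          (Algebra.IsAlgebraic.isAlgebraic (R := B) x) }
  have hz : z ∈ M :=
    hgen T (fun c => S.algebraMap_mem c)
      (fun x => by
        show b2 x ∈ M
        rw [hM]
        exact Submodule.subset_span ⟨x, rfl⟩) z
  rw [hM] at hz
  obtain ⟨c, hc⟩ := Finsupp.mem_span_range_iff_exists_finsupp.mp hz
  refine ⟨c.support, c, ?_⟩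
  rw [← hc, Finsupp.sum]
  refine Finset.sum_congr rfl fun x _ => ?_
  rw [Algebra.smul_def]
  rfl

variable [HasPrincipalDivisors K A] [HasPrincipalDivisors K B] [HasPrincipalDivisors K Z]

/-- **Composition of correspondences through a cartesian square.**  With `α : F → A`,
`β' : F → B` and the square `b2 ∘ α = a2 ∘ β'` into `Z` cartesian,
`(α'_* β'^*) ∘ (α_* β^*) = (a2 ∘ α')_* (b2 ∘ β)^*`. -/
theorem correspondence_comp_of_square
    (β α : F →ₐ[K] A) (β' α' : F →ₐ[K] B) (b2 : A →ₐ[K] Z) (a2 : B →ₐ[K] Z)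
    (hβ : β.toRingHom.IsIntegral) (hα : α.toRingHom.IsIntegral)
    (hβ' : β'.toRingHom.IsIntegral) (hα' : α'.toRingHom.IsIntegral)
    (hb2 : b2.toRingHom.IsIntegral) (ha2 : a2.toRingHom.IsIntegral)
    (hsq : ∀ x : F, b2 (α x) = a2 (β' x))
    (hfα : FiniteAlong K α) (hfa2 : FiniteAlong K a2)
    (hNα : NormFormulaAlong K α hfα) (hNa2 : NormFormulaAlong K a2 hfa2)
    (hdegree : finrankAlong K a2 = finrankAlong K α)
    (hgen : ∀ T : Subfield Z, (∀ c, a2 c ∈ T) → (∀ x, b2 x ∈ T) → ∀ z, z ∈ T)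
    (hdeg : ∀ v : Place K F, v.deg ≠ 0) :
    (Divisor.correspondence β' α' hβ' hα').comp (Divisor.correspondence β α hβ hα)
      = Divisor.correspondence (b2.comp β) (a2.comp α') (isIntegral_comp β b2 hβ hb2)
          (isIntegral_comp α' a2 hα' ha2) := by
  have hbc := pullbackAlong_comp_pushforwardAlong_eq α β' b2 a2 hα hβ' hb2 ha2 hsq hfα hfa2
    hNα hNa2
    (normAlong_comm_of_span α β' b2 a2 hsq hfα hdegree (exists_sum_of_generation a2 b2 hfa2 hgen))
    (exists_separating_along α hα)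
  have h1 := pullbackAlong_comp β b2 hβ hb2 (isIntegral_comp β b2 hβ hb2)
  have h2 := pushforwardAlong_comp α' a2 hα' ha2 (isIntegral_comp α' a2 hα' ha2) hdeg
  refine AddMonoidHom.ext fun D => ?_
  rw [AddMonoidHom.comp_apply, Divisor.correspondence_apply, Divisor.correspondence_apply,
    Divisor.correspondence_apply, h1, h2, AddMonoidHom.comp_apply, AddMonoidHom.comp_apply]
  have h3 := DFunLike.congr_fun hbc (Divisor.pullbackAlong β hβ D)
  rw [AddMonoidHom.comp_apply, AddMonoidHom.comp_apply] at h3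
  rw [h3]

end GenericCorr

section GenericPic

variable {K F A B : Type*} [Field K] [Field F] [Field A] [Field B]
  [Algebra K F] [Algebra K A] [Algebra K B]
  [HasPrincipalDivisors K A] [HasPrincipalDivisors K B]

/-- Commuting correspondences on divisors commute on `Pic⁰`. -/
theorem pic0_correspondence_comm
    (β α : F →ₐ[K] A) (β' α' : F →ₐ[K] B)
    (hβ : β.toRingHom.IsIntegral) (hα : α.toRingHom.IsIntegral)
    (hβ' : β'.toRingHom.IsIntegral) (hα' : α'.toRingHom.IsIntegral)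
    (hFI : FundamentalIdentityAlong K β hβ) (hfin : FiniteAlong K α)
    (hN : NormFormulaAlong K α hfin)
    (hFI' : FundamentalIdentityAlong K β' hβ') (hfin' : FiniteAlong K α')
    (hN' : NormFormulaAlong K α' hfin')
    (h : (Divisor.correspondence β' α' hβ' hα').comp (Divisor.correspondence β α hβ hα)
      = (Divisor.correspondence β α hβ hα).comp (Divisor.correspondence β' α' hβ' hα'))
    (x : Pic0 K F) :
    Pic0.correspondence β' α' hβ' hα' hFI' hfin' hN'
        (Pic0.correspondence β α hβ hα hFI hfin hN x)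
      = Pic0.correspondence β α hβ hα hFI hfin hN
        (Pic0.correspondence β' α' hβ' hα' hFI' hfin' hN' x) := by
  obtain ⟨D, rfl⟩ := Pic0.mk_surjective x
  rw [Pic0.correspondence_mk, Pic0.correspondence_mk, Pic0.correspondence_mk,
    Pic0.correspondence_mk]
  congr 1
  apply Subtype.ext
  simp only [Pic0.coe_degZeroCorrespondence]
  exact DFunLike.congr_fun h (D : Divisor K F)

end GenericPic

/-! ## The arithmetic input: `j(q^{p e}) ∈ ℚ(j(q^e), j(q^{p r e}))` -/

section Gcd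

open Polynomial ModularCurve
open Fermat.Agent.S28.helper328 (twist Jsub evalJ)
open Fermat.Agent.S28.Spec (toQ)
open Fermat.Agent.S28.helper720

theorem pnat_ne_mul_of_one_lt {a e : ℕ+} (ha : 1 < a) : e ≠ a * e := by
  intro h
  have h1 : (e : ℕ) = (a : ℕ) * (e : ℕ) := by
    have := congrArg (fun x : ℕ+ => (x : ℕ)) h
    simpa using this
  have ha' : 1 < (a : ℕ) := ha
  have he : 0 < (e : ℕ) := e.pos
  nlinarith

/-- **Unique common root lemma, middle form.**  `j(q^{p e})` lies in the field generated over `ℚ`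
by `j(q^e)` and `j(q^{p r e})`: it is the only common root of `Φ_p(j(q^e), Y)` and
`Φ_r(j(q^{p r e}), Y)`. -/
theorem toQ_jd_mid_mem_adjoin_pair {p r : ℕ+} (hp1 : 1 < p) {Φp Φr : Polynomial (Polynomial ℤ)}
    (hp : PrimeRoots p Φp) (hr : PrimeRoots r Φr) (e : ℕ+) :
    toQ (jd (p * e)) ∈
      IntermediateField.adjoin ℚ {toQ (jd e), toQ (jd (p * r * e))} := by
  set E := IntermediateField.adjoin ℚ {toQ (jd e), toQ (jd (p * r * e))} with hE
  have hx : toQ (jd e) ∈ E := IntermediateField.subset_adjoin _ _ (Set.mem_insert _ _)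
  have hy : toQ (jd (p * r * e)) ∈ E :=
    IntermediateField.subset_adjoin _ _ (Set.mem_insert_of_mem _ rfl)
  obtain ⟨z, hz⟩ : ∃ z, z = toQ (jd (p * e)) := ⟨_, rfl⟩
  rw [← hz]
  let fE : Polynomial E := Φp.map (evZ (⟨_, hx⟩ : E))
  let gE : Polynomial E := Φr.map (evZ (⟨_, hy⟩ : E))
  have hfE : fE.map (algebraMap E (LaurentSeries ℚ)) = Φp.map (evZ (toQ (jd e))) :=
    map_map_evZ _ _ _
  have hgE : gE.map (algebraMap E (LaurentSeries ℚ)) = Φr.map (evZ (toQ (jd (p * r * e)))) :=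
    map_map_evZ _ _ _
  have hf0 : Polynomial.aeval z fE = 0 := by
    rw [Polynomial.aeval_def, ← Polynomial.eval_map, hfE, hz]
    have := congrArg toQ (hp.eval_up e)
    rw [map_eval_evZ, map_zero] at this
    exact this
  have hg0 : Polynomial.aeval z gE = 0 := by
    rw [Polynomial.aeval_def, ← Polynomial.eval_map, hgE, hz]
    have := congrArg toQ (hr.eval_low (p * e))
    rw [map_eval_evZ, map_zero] at this
    rwa [show r * (p * e) = p * r * e by rw [mul_comm p r, mul_assoc]] at this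
  have hfmonic : fE.Monic := hp.monic.map _
  have hint : IsIntegral E z := ⟨fE, hfmonic, by rwa [← Polynomial.aeval_def]⟩
  have hdf : minpoly E z ∣ fE := minpoly.dvd E z hf0
  have hdg : minpoly E z ∣ gE := minpoly.dvd E z hg0
  -- pass to `ℂ((t))`, `q = t^p`
  let θ : E →+* LaurentSeries ℂ := (toC p).comp (algebraMap E (LaurentSeries ℚ))
  have hθf : fE.map θ = Φp.map (evZ (Jsub ℂ 1 (p * e))) := by
    rw [← Polynomial.map_map, hfE, map_map_evZ, toC_toQ_jd]
  have hθg : gE.map θ = Φr.map (evZ (Jsub ℂ 1 (r * (p ^ 2 * e)))) := by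
    rw [← Polynomial.map_map, hgE, map_map_evZ, toC_toQ_jd]
    rw [show p * (p * r * e) = r * (p ^ 2 * e) from PNat.eq (by push_cast; ring)]
  obtain ⟨ωp, -, hFp⟩ := hp.roots
  obtain ⟨ωr, -, hFr⟩ := hr.roots
  have hFp' := hFp e
  have hFr' := hFr (p ^ 2 * e)
  rw [evalJ_eq_evZ] at hFp' hFr'
  set a0 := Jsub ℂ 1 (p ^ 2 * e) with ha0
  set F2 := ∏ b ∈ Finset.range (p : ℕ), (X - C (Jsub ℂ (ωp ^ b) e)) with hF2
  set G2 := (X - C (Jsub ℂ 1 (r ^ 2 * (p ^ 2 * e)))) *
    ∏ c ∈ (Finset.range (r : ℕ)).erase 0, (X - C (Jsub ℂ (ωr ^ c) (p ^ 2 * e))) with hG2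
  have hG : Φr.map (evZ (Jsub ℂ 1 (r * (p ^ 2 * e)))) = (X - C a0) * G2 := by
    rw [hFr', ← Finset.mul_prod_erase (Finset.range (r : ℕ)) _ (Finset.mem_range.mpr r.pos),
      pow_zero, hG2, ha0]
    ring
  have hp2 : (1 : ℕ+) < p ^ 2 := by
    have h1 : (1 : ℕ) < (p : ℕ) := hp1
    have h2 : (1 : ℕ) < (p : ℕ) ^ 2 := by nlinarith
    exact_mod_cast h2
  have hcop : IsCoprime F2 G2 := by
    refine IsCoprime.prod_left fun b _ => ?_
    refine IsCoprime.mul_right ?_ (IsCoprime.prod_right fun c _ => ?_)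
    · refine isCoprime_X_sub_C_of_isUnit_sub ?_
      rw [isUnit_iff_ne_zero, sub_ne_zero]
      refine Jsub_ne_of_ne ℂ _ _ ?_
      rw [← mul_assoc]
      refine pnat_ne_mul_of_one_lt ?_
      have h1 : (1 : ℕ) < (p : ℕ) := hp1
      have h0 : 0 < (r : ℕ) := r.pos
      have h3 : 1 ≤ (r : ℕ) ^ 2 := Nat.one_le_pow _ _ h0
      have h4 : (1 : ℕ) < (p : ℕ) ^ 2 := by nlinarith
      have h2 : (1 : ℕ) < (r : ℕ) ^ 2 * (p : ℕ) ^ 2 := by nlinarith
      exact_mod_cast h2
    · refine isCoprime_X_sub_C_of_isUnit_sub ?_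
      rw [isUnit_iff_ne_zero, sub_ne_zero]
      exact Jsub_ne_of_ne ℂ _ _ (pnat_ne_mul_of_one_lt hp2)
  obtain ⟨u, v, huv⟩ := hcop
  have h1 : (minpoly E z).map θ ∣ (X - C a0) * F2 := by
    rw [← hFp', ← hθf]; exact Polynomial.map_dvd θ hdf
  have h2 : (minpoly E z).map θ ∣ (X - C a0) * G2 := by
    rw [← hG, ← hθg]; exact Polynomial.map_dvd θ hdg
  have hdvd : (minpoly E z).map θ ∣ X - C a0 := by
    have : X - C a0 = u * ((X - C a0) * F2) + v * ((X - C a0) * G2) := by
      linear_combination (-(X - C a0)) * huv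
    rw [this]
    exact dvd_add (Dvd.dvd.mul_left h1 u) (Dvd.dvd.mul_left h2 v)
  have hdeg : (minpoly E z).natDegree ≤ 1 := by
    have := Polynomial.natDegree_le_of_dvd hdvd (X_sub_C_ne_zero a0)
    rwa [(minpoly.monic hint).natDegree_map, natDegree_X_sub_C] at this
  have hpos := minpoly.natDegree_pos hint
  have h1' : (minpoly E z).natDegree = 1 := by omega
  obtain ⟨w, hw⟩ := (minpoly.natDegree_eq_one_iff).mp h1'
  rw [← hw]
  exact w.2


/-- The same in the Prelude vocabulary: `j(q^{ℓ m}) ∈ ℚ(j(q^m), j(q^{ℓ ℓ' m}))`. -/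
theorem qExpand_jq_mem_adjoin_pair (ℓ ℓ' m : ℕ) [hℓ : Fact ℓ.Prime] [hℓ' : Fact ℓ'.Prime]
    [NeZero ℓ] [NeZero ℓ'] [NeZero m] :
    qExpand ℚ (ℓ * m) jq ∈
      IntermediateField.adjoin ℚ {qExpand ℚ m jq, qExpand ℚ (ℓ * ℓ' * m) jq} := by
  obtain ⟨Φp, hp⟩ := exists_primeRoots_of_formalPrime ℓ
    (Fermat.Agent.S28.helper508.stmt_FormalPrime ℓ)
  obtain ⟨Φr, hr⟩ := exists_primeRoots_of_formalPrime ℓ'
    (Fermat.Agent.S28.helper508.stmt_FormalPrime ℓ')
  have hm : 0 < m := Nat.pos_of_ne_zero (NeZero.ne m)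
  have key := toQ_jd_mid_mem_adjoin_pair (p := ⟨ℓ, hℓ.out.pos⟩) (r := ⟨ℓ', hℓ'.out.pos⟩)
    (show (1 : ℕ) < ℓ from hℓ.out.one_lt) hp hr (Nat.toPNat m hm)
  rw [toQ_jd, toQ_jd, toQ_jd] at key
  exact key

end Gcd

/-! ## Generation of the level `N ℓ ℓ'` field -/

section Generation

open ModularCurve IntermediateField
open Fermat.Agent.S29.helper36

/-- The coefficient embedding maps `ℚ(S)` into any intermediate field containing the image of
`S`. -/
theorem coeffEmb_mem_of_mem_adjoin {L : Type*} [Field L] [Algebra ℚ L]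
    {S : Set (LaurentSeries ℚ)} {x : LaurentSeries ℚ}
    (hx : x ∈ IntermediateField.adjoin ℚ S) (T : IntermediateField L (LaurentSeries L))
    (hS : ∀ s ∈ S, coeffEmb L s ∈ T) : coeffEmb L x ∈ T := by
  induction hx using IntermediateField.adjoin_induction with
  | mem x hx => exact hS x hx
  | algebraMap r =>
    have h : coeffEmb L (algebraMap ℚ (LaurentSeries ℚ) r)
        = algebraMap L (LaurentSeries L) (algebraMap ℚ L r) := by
      rw [algebraMap_laurentSeries_eq_single, algebraMap_laurentSeries_eq_single, coeffEmb,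
        coeffMap_single]
    rw [h]
    exact T.algebraMap_mem _
  | add x y _ _ hx hy =>
    rw [map_add]
    exact add_mem hx hy
  | inv x _ hx =>
    rw [map_inv₀]
    exact inv_mem hx
  | mul x y _ _ hx hy =>
    rw [map_mul]
    exact mul_mem hx hy

variable (L : Type) [Field L] [Algebra ℚ L]

/-- **Generation.**  For primes `ℓ`, `ℓ'` the field of level `N ℓ ℓ'` is generated by the field of
level `N ℓ'` and the image of the field of level `N ℓ` under `q ↦ q^ℓ'`. -/
theorem level_generation (N ℓ ℓ' : ℕ) [NeZero N] [hℓ : Fact ℓ.Prime] [hℓ' : Fact ℓ'.Prime]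
    [NeZero ℓ] [NeZero ℓ'] (T : IntermediateField L (LaurentSeries L))
    (h1 : laurentBaseChange L (modularFunctionFieldFull (N * ℓ')) ≤ T)
    (h2 : ∀ x ∈ laurentBaseChange L (modularFunctionFieldFull (N * ℓ)), qExpand L ℓ' x ∈ T) :
    laurentBaseChange L (modularFunctionFieldFull (N * ℓ * ℓ')) ≤ T := by
  rw [laurentBaseChange_full_eq_fullC, modularFunctionFieldFullC, IntermediateField.adjoin_le_iff]
  rintro _ ⟨d, hd0, hd, rfl⟩
  haveI := hd0
  rw [SetLike.mem_coe]
  by_cases hℓ'd : ℓ' ∣ d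
  · -- `d = ℓ' d'` with `d' ∣ N ℓ`
    obtain ⟨d', rfl⟩ := hℓ'd
    have hd'0 : d' ≠ 0 := fun h => NeZero.ne (ℓ' * d') (by rw [h, mul_zero])
    haveI : NeZero d' := ⟨hd'0⟩
    have hd' : d' ∣ N * ℓ := by
      have : ℓ' * d' ∣ ℓ' * (N * ℓ) := by rwa [mul_comm ℓ' (N * ℓ)]
      exact Nat.dvd_of_mul_dvd_mul_left hℓ'.out.pos this
    rw [← qExpand_qExpand]
    refine h2 _ ?_
    rw [laurentBaseChange_full_eq_fullC]
    exact jqModCd_mem_full L (N * ℓ) hd'
  · have hcop : Nat.Coprime d ℓ' := (Nat.coprime_comm.mp ((Nat.Prime.coprime_iff_not_dvd hℓ'.out).mpr hℓ'd))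
    have hdNℓ : d ∣ N * ℓ := Nat.Coprime.dvd_of_dvd_mul_right hcop hd
    by_cases hdN : d ∣ N
    · refine h1 ?_
      rw [laurentBaseChange_full_eq_fullC]
      exact jqModCd_mem_full L (N * ℓ') (hdN.trans (dvd_mul_right N ℓ'))
    · -- `d = ℓ m` with `m ∣ N`
      have hℓd : ℓ ∣ d := by
        by_contra hnd
        have hcop' : Nat.Coprime d ℓ :=
          Nat.coprime_comm.mp ((Nat.Prime.coprime_iff_not_dvd hℓ.out).mpr hnd)
        exact hdN (Nat.Coprime.dvd_of_dvd_mul_right hcop' hdNℓ)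
      obtain ⟨m, rfl⟩ := hℓd
      have hm0 : m ≠ 0 := fun h => NeZero.ne (ℓ * m) (by rw [h, mul_zero])
      haveI : NeZero m := ⟨hm0⟩
      have hm : m ∣ N := by
        have : ℓ * m ∣ ℓ * N := by rwa [mul_comm ℓ N]
        exact Nat.dvd_of_mul_dvd_mul_left hℓ.out.pos this
      rw [← coeffEmb_qExpand_jq]
      refine coeffEmb_mem_of_mem_adjoin (qExpand_jq_mem_adjoin_pair ℓ ℓ' m) T ?_
      rintro s (rfl | rfl)
      · refine h1 ?_
        rw [coeffEmb_qExpand_jq, laurentBaseChange_full_eq_fullC]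
        exact jqModCd_mem_full L (N * ℓ') (hm.trans (dvd_mul_right N ℓ'))
      · have e1 : qExpand ℚ (ℓ * ℓ' * m) jq = qExpand ℚ (ℓ' * (ℓ * m)) jq :=
          qExpand_congr (by ring) jq
        rw [e1, coeffEmb_qExpand_jq, ← qExpand_qExpand]
        refine h2 _ ?_
        rw [laurentBaseChange_full_eq_fullC]
        exact jqModCd_mem_full L (N * ℓ) (by rw [mul_comm N ℓ]; exact mul_dvd_mul_left ℓ hm)

end Generation

/-! ## Degrees -/

section Degrees

open ModularCurve IntermediateField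
open Fermat.Agent.S29.helper36

/-- The degree along an inclusion of intermediate fields is the relative finrank. -/
theorem finrankAlong_inclusion {K E : Type*} [Field K] [Field E] [Algebra K E]
    {A B : IntermediateField K E} (h : A ≤ B) :
    finrankAlong K (IntermediateField.inclusion h) = A.relfinrank B := by
  rw [IntermediateField.relfinrank_eq_finrank_of_le h]
  letI := algebraAlong (IntermediateField.inclusion h)
  let e : B ≃ₗ[A] (IntermediateField.extendScalars h) :=
    { toFun := fun x => ⟨x.1, x.2⟩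
      invFun := fun x => ⟨x.1, x.2⟩
      map_add' := fun _ _ => rfl
      map_smul' := fun c x => by
        apply Subtype.ext
        rw [Algebra.smul_def]
        rfl
      left_inv := fun _ => rfl
      right_inv := fun _ => rfl }
  exact e.finrank_eq

variable (L : Type) [Field L] [Algebra ℚ L] [CharZero L]

theorem relfinrank_level (M : ℕ) [NeZero M] :
    (L⟮jqModC L⟯).relfinrank (laurentBaseChange L (modularFunctionFieldFull M))
      = dedekindPsi M := by
  rw [IntermediateField.relfinrank_eq_toNat_relrank, relrank_laurentBaseChange,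
    Cardinal.toNat_natCast]

omit [CharZero L] in
theorem laurentBaseChange_full_le {M M' : ℕ} [NeZero M] [NeZero M'] (h : M ∣ M') :
    laurentBaseChange L (modularFunctionFieldFull M)
      ≤ laurentBaseChange L (modularFunctionFieldFull M') := by
  rw [laurentBaseChange_full_eq_fullC, laurentBaseChange_full_eq_fullC]
  exact full_degeneracyC_le L h

/-- `[F_{Mℓ} : F_M] = ℓ` or `ℓ + 1` according to `ℓ ∣ M` or not. -/
theorem relfinrank_level_mul_prime (M ℓ M' : ℕ) [NeZero M] [NeZero M'] (hℓ : ℓ.Prime)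
    (hM' : M' = M * ℓ) :
    (laurentBaseChange L (modularFunctionFieldFull M)).relfinrank
        (laurentBaseChange L (modularFunctionFieldFull M'))
      = if ℓ ∣ M then ℓ else ℓ + 1 := by
  subst hM'
  have hJ : L⟮jqModC L⟯ ≤ laurentBaseChange L (modularFunctionFieldFull M) :=
    adjoin_simple_le_iff.mpr (jqModC_mem_laurentBaseChange L M)
  have hle := laurentBaseChange_full_le L (dvd_mul_right M ℓ)
  have h := IntermediateField.relfinrank_mul_relfinrank hJ hle
  rw [relfinrank_level, relfinrank_level] at h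
  have hpos : 0 < dedekindPsi M :=
    Fermat.Agent.S28.helper1595.dedekindPsi_pos (NeZero.pos M)
  split_ifs with hd
  · rw [Fermat.Agent.S28.helper1595.dedekindPsi_mul_prime_of_dvd hℓ (NeZero.pos M) hd] at h
    exact Nat.eq_of_mul_eq_mul_left hpos (by rw [h, mul_comm])
  · rw [Fermat.Agent.S28.helper1595.dedekindPsi_mul_prime_of_not_dvd hℓ (NeZero.pos M) hd] at h
    exact Nat.eq_of_mul_eq_mul_left hpos (by rw [h, mul_comm])

end Degrees

/-! ## The modular square and the commutation of Hecke operators -/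

section Modular

open ModularCurve IntermediateField
open Fermat.Agent.S29.helper36
open Fermat.Agent.S24.helper24 (Kbar FN jBar coe_jBar)

/-- Inclusion of function fields for `M ∣ M'`. -/
def levelIncl {M M' : ℕ} [NeZero M] [NeZero M'] (h : M ∣ M') :
    modularFunctionFieldBar M →ₐ[AlgebraicClosure ℚ] modularFunctionFieldBar M' :=
  IntermediateField.inclusion (laurentBaseChange_full_le (AlgebraicClosure ℚ) h)

@[simp]
theorem coe_levelIncl {M M' : ℕ} [NeZero M] [NeZero M'] (h : M ∣ M')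
    (x : modularFunctionFieldBar M) :
    ((levelIncl h x : modularFunctionFieldBar M') : LaurentSeries (AlgebraicClosure ℚ))
      = (x : LaurentSeries (AlgebraicClosure ℚ)) :=
  IntermediateField.coe_inclusion _ x

theorem finiteAlong_levelIncl {M M' : ℕ} [NeZero M] [NeZero M'] (h : M ∣ M') :
    FiniteAlong (AlgebraicClosure ℚ) (levelIncl h) := by
  have hj : levelIncl h (jBar M) = jBar M' :=
    Subtype.ext (by rw [coe_levelIncl, coe_jBar, coe_jBar])
  haveI : FiniteDimensional (AlgebraicClosure ℚ)⟮levelIncl h (jBar M)⟯ (FN M') := by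
    rw [hj]
    infer_instance
  exact Fermat.Agent.S37.helper5162.finiteAlong_of_finiteDimensional _ (jBar M)

theorem finrankAlong_levelIncl_mul_prime (M ℓ M' : ℕ) [NeZero M] [NeZero M'] (hℓ : ℓ.Prime)
    (hM' : M' = M * ℓ) (h : M ∣ M') :
    finrankAlong (AlgebraicClosure ℚ) (levelIncl h) = if ℓ ∣ M then ℓ else ℓ + 1 := by
  rw [levelIncl, finrankAlong_inclusion]
  exact relfinrank_level_mul_prime (AlgebraicClosure ℚ) M ℓ M' hℓ hM'

variable (N ℓ ℓ' : ℕ) [NeZero N] [hℓ : Fact ℓ.Prime] [hℓ' : Fact ℓ'.Prime] [NeZero ℓ] [NeZero ℓ']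

/-- The square is generated: `F_{Nℓℓ'}` is the compositum. -/
theorem square_generation (T : Subfield (modularFunctionFieldBar (N * ℓ * ℓ')))
    (hT1 : ∀ c : modularFunctionFieldBar (N * ℓ'),
      levelIncl (M := N * ℓ') (M' := N * ℓ * ℓ') ⟨ℓ, Nat.mul_right_comm N ℓ ℓ'⟩ c ∈ T)
    (hT2 : ∀ x : modularFunctionFieldBar (N * ℓ),
      heckeBetaBar (AlgebraicClosure ℚ) (N * ℓ) ℓ' x ∈ T)
    (z : modularFunctionFieldBar (N * ℓ * ℓ')) : z ∈ T := by
  let T' : IntermediateField (AlgebraicClosure ℚ) (LaurentSeries (AlgebraicClosure ℚ)) :=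
    (T.map (modularFunctionFieldBar (N * ℓ * ℓ')).val.toRingHom).toIntermediateField
      (fun c => ⟨levelIncl (M := N * ℓ') (M' := N * ℓ * ℓ') ⟨ℓ, Nat.mul_right_comm N ℓ ℓ'⟩
        (algebraMap (AlgebraicClosure ℚ) _ c), hT1 _, rfl⟩)
  have hz : (z : LaurentSeries (AlgebraicClosure ℚ)) ∈ T' :=
    level_generation (AlgebraicClosure ℚ) N ℓ ℓ' T'
      (fun y hy => ⟨levelIncl (M := N * ℓ') (M' := N * ℓ * ℓ') ⟨ℓ, Nat.mul_right_comm N ℓ ℓ'⟩
        ⟨y, hy⟩, hT1 _, rfl⟩)
      (fun x hx => ⟨heckeBetaBar (AlgebraicClosure ℚ) (N * ℓ) ℓ' ⟨x, hx⟩, hT2 _, rfl⟩) z.2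
  obtain ⟨t, ht, htz⟩ := hz
  have : t = z := Subtype.ext htz
  rwa [← this]

omit hℓ hℓ' in
/-- The square commutes. -/
theorem square_comm (x : modularFunctionFieldBar N) :
    heckeBetaBar (AlgebraicClosure ℚ) (N * ℓ) ℓ' (heckeAlphaBar (AlgebraicClosure ℚ) N ℓ x)
      = levelIncl (M := N * ℓ') (M' := N * ℓ * ℓ') ⟨ℓ, Nat.mul_right_comm N ℓ ℓ'⟩
          (heckeBetaBar (AlgebraicClosure ℚ) N ℓ' x) :=
  Subtype.ext (by rw [coe_heckeBetaBar, coe_heckeAlphaBar, coe_levelIncl, coe_heckeBetaBar])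

/-- **`T_ℓ' ∘ T_ℓ` as a single correspondence through level `N ℓ ℓ'`** (divisor level). -/
theorem heckeDiv_comp (hne : ℓ ≠ ℓ') :
    (Divisor.correspondence (heckeBetaBar (AlgebraicClosure ℚ) N ℓ')
        (heckeAlphaBar (AlgebraicClosure ℚ) N ℓ')
        (Fermat.Agent.S37.helper5162.heckeBetaBarIntegral N ℓ')
        (Fermat.Agent.S37.helper5162.heckeAlphaBarIntegral N ℓ')).comp
      (Divisor.correspondence (heckeBetaBar (AlgebraicClosure ℚ) N ℓ)
        (heckeAlphaBar (AlgebraicClosure ℚ) N ℓ)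
        (Fermat.Agent.S37.helper5162.heckeBetaBarIntegral N ℓ)
        (Fermat.Agent.S37.helper5162.heckeAlphaBarIntegral N ℓ))
    = Divisor.correspondence
        ((heckeBetaBar (AlgebraicClosure ℚ) (N * ℓ) ℓ').comp (heckeBetaBar (AlgebraicClosure ℚ) N ℓ))
        ((levelIncl (M := N * ℓ') (M' := N * ℓ * ℓ') ⟨ℓ, Nat.mul_right_comm N ℓ ℓ'⟩).comp
          (heckeAlphaBar (AlgebraicClosure ℚ) N ℓ'))
        (isIntegral_comp _ _ (Fermat.Agent.S37.helper5162.heckeBetaBarIntegral N ℓ)
          (Fermat.Agent.S37.helper5162.heckeBetaBarIntegral (N * ℓ) ℓ'))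
        (isIntegral_comp _ _ (Fermat.Agent.S37.helper5162.heckeAlphaBarIntegral N ℓ')
          (Fermat.Agent.S37.helper5162.isIntegral_of_finiteAlong _ (finiteAlong_levelIncl _))) := by
  refine correspondence_comp_of_square (K := AlgebraicClosure ℚ) _ _ _ _ _ _
    (Fermat.Agent.S37.helper5162.heckeBetaBarIntegral N ℓ)
    (Fermat.Agent.S37.helper5162.heckeAlphaBarIntegral N ℓ)
    (Fermat.Agent.S37.helper5162.heckeBetaBarIntegral N ℓ')
    (Fermat.Agent.S37.helper5162.heckeAlphaBarIntegral N ℓ')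
    (Fermat.Agent.S37.helper5162.heckeBetaBarIntegral (N * ℓ) ℓ')
    (Fermat.Agent.S37.helper5162.isIntegral_of_finiteAlong _ (finiteAlong_levelIncl _))
    (square_comm N ℓ ℓ')
    (Fermat.Agent.S37.helper5162.finiteAlong_heckeAlphaBar N ℓ) (finiteAlong_levelIncl _)
    (Fermat.Agent.S37.helper8426.normFormulaAlong _ _
      (Fermat.Agent.S37.helper5162.residueField_surjective (N * ℓ)))
    (Fermat.Agent.S37.helper8426.normFormulaAlong _ _
      (Fermat.Agent.S37.helper5162.residueField_surjective (N * ℓ * ℓ')))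
    ?_ (square_generation N ℓ ℓ')
    (fun v => by rw [Fermat.Agent.S37.helper5162.place_deg_eq_one N v]; exact one_ne_zero)
  rw [finrankAlong_levelIncl_mul_prime (N * ℓ') ℓ (N * ℓ * ℓ') hℓ.out
    (Nat.mul_right_comm N ℓ ℓ')]
  have hα : heckeAlphaBar (AlgebraicClosure ℚ) N ℓ = levelIncl (dvd_mul_right N ℓ) := rfl
  rw [hα, finrankAlong_levelIncl_mul_prime N ℓ (N * ℓ) hℓ.out rfl]
  have hiff : ℓ ∣ N * ℓ' ↔ ℓ ∣ N :=
    ⟨fun h => ((Nat.Prime.dvd_mul hℓ.out).mp h).resolve_right
      (fun h' => hne ((Nat.prime_dvd_prime_iff_eq hℓ.out hℓ'.out).mp h')),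
     fun h => h.mul_right _⟩
  simp only [hiff]

omit [NeZero N] hℓ hℓ' [NeZero ℓ] [NeZero ℓ'] in
/-- Correspondences through propositionally equal levels with the same underlying maps agree. -/
theorem correspondence_congr_level {M M' : ℕ} [NeZero M] [NeZero M'] (hM : M = M')
    (e i : modularFunctionFieldBar N →ₐ[AlgebraicClosure ℚ] modularFunctionFieldBar M)
    (e' i' : modularFunctionFieldBar N →ₐ[AlgebraicClosure ℚ] modularFunctionFieldBar M')
    (he : ∀ x, ((e x : modularFunctionFieldBar M) : LaurentSeries (AlgebraicClosure ℚ))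
      = ((e' x : modularFunctionFieldBar M') : LaurentSeries (AlgebraicClosure ℚ)))
    (hi : ∀ x, ((i x : modularFunctionFieldBar M) : LaurentSeries (AlgebraicClosure ℚ))
      = ((i' x : modularFunctionFieldBar M') : LaurentSeries (AlgebraicClosure ℚ)))
    (h1 : e.toRingHom.IsIntegral) (h2 : i.toRingHom.IsIntegral)
    (h1' : e'.toRingHom.IsIntegral) (h2' : i'.toRingHom.IsIntegral) :
    Divisor.correspondence e i h1 h2 = Divisor.correspondence e' i' h1' h2' := by
  subst hM
  have hee : e = e' := AlgHom.ext fun x => Subtype.ext (he x)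
  have hii : i = i' := AlgHom.ext fun x => Subtype.ext (hi x)
  subst hee hii
  rfl

/-- **The Hecke correspondences `T_ℓ`, `T_ℓ'` commute on divisors.** -/
theorem heckeDiv_comm (hne : ℓ ≠ ℓ') :
    (Divisor.correspondence (heckeBetaBar (AlgebraicClosure ℚ) N ℓ')
        (heckeAlphaBar (AlgebraicClosure ℚ) N ℓ')
        (Fermat.Agent.S37.helper5162.heckeBetaBarIntegral N ℓ')
        (Fermat.Agent.S37.helper5162.heckeAlphaBarIntegral N ℓ')).comp
      (Divisor.correspondence (heckeBetaBar (AlgebraicClosure ℚ) N ℓ)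
        (heckeAlphaBar (AlgebraicClosure ℚ) N ℓ)
        (Fermat.Agent.S37.helper5162.heckeBetaBarIntegral N ℓ)
        (Fermat.Agent.S37.helper5162.heckeAlphaBarIntegral N ℓ))
    = (Divisor.correspondence (heckeBetaBar (AlgebraicClosure ℚ) N ℓ)
        (heckeAlphaBar (AlgebraicClosure ℚ) N ℓ)
        (Fermat.Agent.S37.helper5162.heckeBetaBarIntegral N ℓ)
        (Fermat.Agent.S37.helper5162.heckeAlphaBarIntegral N ℓ)).comp
      (Divisor.correspondence (heckeBetaBar (AlgebraicClosure ℚ) N ℓ')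
        (heckeAlphaBar (AlgebraicClosure ℚ) N ℓ')
        (Fermat.Agent.S37.helper5162.heckeBetaBarIntegral N ℓ')
        (Fermat.Agent.S37.helper5162.heckeAlphaBarIntegral N ℓ')) := by
  rw [heckeDiv_comp N ℓ ℓ' hne, heckeDiv_comp N ℓ' ℓ hne.symm]
  refine correspondence_congr_level N (Nat.mul_right_comm N ℓ ℓ') _ _ _ _ (fun x => ?_)
    (fun x => ?_) _ _ _ _
  · rw [AlgHom.comp_apply, AlgHom.comp_apply, coe_heckeBetaBar, coe_heckeBetaBar,
      coe_heckeBetaBar, coe_heckeBetaBar, qExpand_qExpand, qExpand_qExpand]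
    exact qExpand_congr (mul_comm ℓ' ℓ) _
  · rw [AlgHom.comp_apply, AlgHom.comp_apply, coe_levelIncl, coe_levelIncl, coe_heckeAlphaBar,
      coe_heckeAlphaBar]

/-- The Hecke operators on `J₀(N)(ℚ̄)` at two distinct primes commute. -/
theorem heckeOperatorAlong_comm (hne : ℓ ≠ ℓ') (x : JZero N) :
    heckeOperatorAlong (AlgebraicClosure ℚ) N ℓ' (heckeOperatorAlong (AlgebraicClosure ℚ) N ℓ x)
      = heckeOperatorAlong (AlgebraicClosure ℚ) N ℓ
          (heckeOperatorAlong (AlgebraicClosure ℚ) N ℓ' x) := by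
  rw [heckeOperatorAlong_eq (Fermat.Agent.S37.helper5162.heckeAlphaBarIntegral N ℓ)
      (Fermat.Agent.S37.helper5162.heckeBetaBarIntegral N ℓ)
      (Fermat.Agent.S37.helper8426.fundamentalIdentityAlong_heckeBetaBar N ℓ)
      (Fermat.Agent.S37.helper5162.finiteAlong_heckeAlphaBar N ℓ)
      (Fermat.Agent.S37.helper8426.normFormulaAlong_heckeAlphaBar N ℓ),
    heckeOperatorAlong_eq (Fermat.Agent.S37.helper5162.heckeAlphaBarIntegral N ℓ')
      (Fermat.Agent.S37.helper5162.heckeBetaBarIntegral N ℓ')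
      (Fermat.Agent.S37.helper8426.fundamentalIdentityAlong_heckeBetaBar N ℓ')
      (Fermat.Agent.S37.helper5162.finiteAlong_heckeAlphaBar N ℓ')
      (Fermat.Agent.S37.helper8426.normFormulaAlong_heckeAlphaBar N ℓ')]
  exact pic0_correspondence_comm _ _ _ _ _ _ _ _ _ _ _ _ _ _ (heckeDiv_comm N ℓ ℓ' hne) x

end Modular

/-- **The Hecke operators on `J₀(N)(ℚ̄)` commute** (all primes, all levels). -/
theorem heckeOperatorsCommuteBar (N : ℕ) [NeZero N] : ModularCurve.HeckeOperatorsCommuteBar N := by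
  intro p p'
  by_cases h : p = p'
  · subst h
    rfl
  · haveI : Fact (p : ℕ).Prime := ⟨p.2⟩
    haveI : Fact (p' : ℕ).Prime := ⟨p'.2⟩
    haveI : NeZero (p : ℕ) := ⟨p.2.ne_zero⟩
    haveI : NeZero (p' : ℕ) := ⟨p'.2.ne_zero⟩
    have hne : (p' : ℕ) ≠ (p : ℕ) := fun h' => h (Subtype.ext h'.symm)
    refine LinearMap.ext fun x => ?_
    exact heckeOperatorAlong_comm N (p' : ℕ) (p : ℕ) hne x

end

end Fermat.Agent.S29.helper2378
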