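import Fermat.Agent.S24.helper6180_Ev
import Fermat.Agent.S24.helper580_HolMer

/-!
# S29 / CPLACE (helper580), part (C0): the complex function field of `X₀(N)` and its analytic
evaluation

`FC N = laurentBaseChange ℂ (modularFunctionFieldFull N)` is the field generated over `ℂ` by the
formal series `j(q^d)`, `d ∣ N`, inside `ℂ((q))`.  It is the field of fractions of the `ℂ`-algebra
`AC N` generated by these series.  Every element `a` of `AC N` is the `q`-expansion of a unique
holomorphic function `evFun N a` on the upper half plane; this gives an injective `ℂ`-algebra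
homomorphism `evC N : FC N →ₐ[ℂ] Mer` into the field `Mer` of meromorphic functions on `ℍ`
(`Mer`, `ordAt`, `pull` of `Fermat.Agent.S24.helper580`).

Main statements:

* `E1_evRC` : the `q`-expansion of `evFun N a` is `a`;
* `evC_coe` : `evC N a = algebraMap Hol Mer (evHol N a)` for `a : AC N`;
* `evC_jCD` : `evC` sends `j(q^d)` to `τ ↦ J(dτ)`;
* `pull_evC` : `Γ₀(N)`-invariance;  `mem_Gamma0_of_pull_evC` : separation;
* `evFun_smul_mdiff_growth` : all `SL(2,ℤ)`-translates are holomorphic of exponential growth;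
* `baseChangeC`, `evC_baseChangeC` : compatibility with the `ℚ̄`-function field and the
  evaluation `helper6180.ev` of S24.
-/

set_option autoImplicit false

open ModularCurve CongruenceSubgroup UpperHalfPlane IntermediateField
open scoped MatrixGroups Manifold

noncomputable section

namespace Fermat.Agent.S29.helper580

open Fermat.Agent.S24 Fermat.Agent.S24.helper24 Fermat.Agent.S24.helper580

/-! ## The complex function field -/

/-- The function field of `X₀(N)` over `ℂ`, as a subfield of `ℂ((q))`. -/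
abbrev FC (N : ℕ) : Type := ↥(laurentBaseChange ℂ (modularFunctionFieldFull N))

/-- The formal series `j(q^d)` with complex coefficients. -/
def jSeriesC (d : ℕ) [NeZero d] : LaurentSeries ℂ := coeffEmb ℂ (qExpand ℚ d jq)

theorem jSeriesC_mem (N d : ℕ) [NeZero d] (hd : d ∣ N) :
    jSeriesC d ∈ laurentBaseChange ℂ (modularFunctionFieldFull N) :=
  coeffEmb_mem_laurentBaseChange ℂ (jqd_mem_full N hd)

/-- `j(q^d)` as an element of the complex function field of level `N`, for `d ∣ N`. -/
def jCD (N d : ℕ) [NeZero d] (hd : d ∣ N) : FC N := ⟨jSeriesC d, jSeriesC_mem N d hd⟩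

/-- The function `j` as an element of the complex function field. -/
def jC (N : ℕ) : FC N := jCD N 1 (one_dvd N)

theorem coe_jCD (N d : ℕ) [NeZero d] (hd : d ∣ N) :
    ((jCD N d hd : FC N) : LaurentSeries ℂ) = jSeriesC d := rfl

theorem coe_jC (N : ℕ) : ((jC N : FC N) : LaurentSeries ℂ) = coeffEmb ℂ jq := by
  show coeffEmb ℂ (qExpand ℚ 1 jq) = coeffEmb ℂ jq
  rw [qExpand_one_apply]

variable (N : ℕ)

/-- The generators `j(q^d)`, `d ∣ N`. -/
def genSetC : Set (FC N) := {x | ∃ (d : ℕ) (_ : NeZero d) (hd : d ∣ N), x = jCD N d hd}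

theorem jCD_mem_genSetC (d : ℕ) [NeZero d] (hd : d ∣ N) : jCD N d hd ∈ genSetC N :=
  ⟨d, inferInstance, hd, rfl⟩

theorem val_image_genSetC :
    (fun x : FC N => (x : LaurentSeries ℂ)) '' genSetC N = helper3176.genSet ℂ N := by
  ext x
  rw [helper3176.mem_genSet_iff]
  constructor
  · rintro ⟨y, ⟨d, hd0, hd, rfl⟩, rfl⟩
    exact ⟨d, hd0, hd, rfl⟩
  · rintro ⟨d, hd0, hd, rfl⟩
    exact ⟨jCD N d hd, ⟨d, hd0, hd, rfl⟩, rfl⟩

/-- The `ℂ`-subalgebra of the complex function field generated by the `j(q^d)`, `d ∣ N`. -/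
def AC : Subalgebra ℂ (FC N) := Algebra.adjoin ℂ (genSetC N)

theorem jCD_mem_AC (d : ℕ) [NeZero d] (hd : d ∣ N) : jCD N d hd ∈ AC N :=
  Algebra.subset_adjoin (jCD_mem_genSetC N d hd)

theorem jC_mem_AC : jC N ∈ AC N := jCD_mem_AC N 1 (one_dvd N)

theorem map_val_AC :
    (AC N).map (laurentBaseChange ℂ (modularFunctionFieldFull N)).val
      = Algebra.adjoin ℂ (helper3176.genSet ℂ N) := by
  rw [AC, AlgHom.map_adjoin, ← val_image_genSetC]
  rfl

/-- Every element of the complex function field is a quotient of two elements of `AC N`. -/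
theorem exists_div_AC (z : FC N) :
    ∃ a b : AC N, (b : FC N) ≠ 0 ∧ z = (a : FC N) / (b : FC N) := by
  obtain ⟨r, hr, s, hs, hs0, hz⟩ := helper3176.exists_div_of_mem_laurentBaseChange ℂ z.2
  rw [← map_val_AC] at hr hs
  obtain ⟨a, ha, rfl⟩ := hr
  obtain ⟨b, hb, rfl⟩ := hs
  refine ⟨⟨a, ha⟩, ⟨b, hb⟩, ?_, ?_⟩
  · intro hb0
    apply hs0
    show (laurentBaseChange ℂ (modularFunctionFieldFull N)).val b = 0
    rw [show b = 0 from hb0, map_zero]
  · apply Subtype.ext
    rw [hz]
    show (laurentBaseChange ℂ (modularFunctionFieldFull N)).val a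
        / (laurentBaseChange ℂ (modularFunctionFieldFull N)).val b
      = (laurentBaseChange ℂ (modularFunctionFieldFull N)).val (a / b)
    rw [map_div₀]

/-- The complex function field is the field of fractions of `AC N`. -/
instance isFractionRing_AC : IsFractionRing (AC N) (FC N) :=
  IsFractionRing.of_field _ _ fun z => by
    obtain ⟨a, b, _, hz⟩ := exists_div_AC N z
    exact ⟨a, b, hz⟩

/-- Two ring homs out of the complex function field into a field that agree on `AC N` are
equal. -/
theorem ringHom_ext_of_AC {Ω : Type*} [Field Ω] {f g : FC N →+* Ω}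
    (h : ∀ a : AC N, f (a : FC N) = g (a : FC N)) : f = g := by
  ext z
  obtain ⟨a, b, _, rfl⟩ := exists_div_AC N z
  rw [map_div₀, map_div₀, h a, h b]

/-- Induction principle for `AC N`. -/
theorem AC_induction (p : FC N → Prop)
    (hgen : ∀ (d : ℕ) [NeZero d] (hd : d ∣ N), p (jCD N d hd))
    (hconst : ∀ c : ℂ, p (algebraMap ℂ (FC N) c))
    (hadd : ∀ x y, p x → p y → p (x + y))
    (hmul : ∀ x y, p x → p y → p (x * y)) (a : AC N) : p (a : FC N) := by
  obtain ⟨x, hx⟩ := a
  show p x
  unfold AC at hx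
  induction hx using Algebra.adjoin_induction with
  | mem x hx =>
      obtain ⟨d, hd0, hd, rfl⟩ := hx
      exact hgen d hd
  | algebraMap c => exact hconst c
  | add x y _ _ hx hy => exact hadd x y hx hy
  | mul x y _ _ hx hy => exact hmul x y hx hy

/-- `j` is transcendental over `ℂ`. -/
theorem transcendental_jC : Transcendental ℂ (jC N) := by
  intro halg
  apply helper3176.transcendental_coeffEmb_jq ℂ
  have h := halg.algHom (laurentBaseChange ℂ (modularFunctionFieldFull N)).val
  have hval : (laurentBaseChange ℂ (modularFunctionFieldFull N)).val (jC N) = coeffEmb ℂ jq :=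
    coe_jC N
  rwa [hval] at h

/-! ## The `q`-expansion side -/

open helper6180 in
theorem coeffMap_i0_coeffEmb (x : LaurentSeries ℚ) :
    coeffMap i0 (coeffEmb Kbar x) = coeffEmb ℂ x := by
  rw [coeffEmb, coeffMap_coeffMap]
  exact coeffMap_congr (RingHom.ext_rat _ _) x

open helper6180 in
theorem E1_JdR_C (d : ℕ) [NeZero d] : E1 (JdR d (NeZero.pos d)) = jSeriesC d := by
  rw [E1_JdR, jSeries, coeffMap_i0_coeffEmb, jSeriesC]

theorem algebraMap_C_eq (c : ℂ) : algebraMap ℂ (LaurentSeries ℂ) c = HahnSeries.C c := by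
  rw [ModularCurve.algebraMap_laurentSeries_eq_single]
  rfl

open helper6180 in
theorem coe_mem_range_E1 (a : AC N) : ∃ f : R1, E1 f = ((a : FC N) : LaurentSeries ℂ) := by
  refine AC_induction N (fun x => ∃ f : R1, E1 f = (x : LaurentSeries ℂ)) ?_ ?_ ?_ ?_ a
  · intro d _ hd
    exact ⟨JdR d (NeZero.pos d), E1_JdR_C d⟩
  · intro c
    refine ⟨constR c, ?_⟩
    rw [E1_constR]
    exact (algebraMap_C_eq c).symm
  · rintro x y ⟨f, hf⟩ ⟨g, hg⟩
    refine ⟨f + g, ?_⟩
    rw [map_add, hf, hg]
    rfl
  · rintro x y ⟨f, hf⟩ ⟨g, hg⟩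
    refine ⟨f * g, ?_⟩
    rw [map_mul, hf, hg]
    rfl

open helper6180 in
/-- The evaluation homomorphism `AC N → R1`: the inverse of the `q`-expansion. -/
def evRC : AC N →+* R1 where
  toFun a := (coe_mem_range_E1 N a).choose
  map_one' := E1_injective (by rw [(coe_mem_range_E1 N 1).choose_spec, map_one]; rfl)
  map_mul' a b := E1_injective (by
    rw [(coe_mem_range_E1 N (a * b)).choose_spec, map_mul,
      (coe_mem_range_E1 N a).choose_spec, (coe_mem_range_E1 N b).choose_spec]; rfl)
  map_zero' := E1_injective (by rw [(coe_mem_range_E1 N 0).choose_spec, map_zero]; rfl)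
  map_add' a b := E1_injective (by
    rw [(coe_mem_range_E1 N (a + b)).choose_spec, map_add,
      (coe_mem_range_E1 N a).choose_spec, (coe_mem_range_E1 N b).choose_spec]; rfl)

open helper6180 in
/-- **Key property**: the `q`-expansion of `evRC a` is `a`. -/
theorem E1_evRC (a : AC N) : E1 (evRC N a) = ((a : FC N) : LaurentSeries ℂ) :=
  (coe_mem_range_E1 N a).choose_spec

open helper6180 in
theorem evRC_injective : Function.Injective (evRC N) := by
  intro a b h
  have h1 : ((a : FC N) : LaurentSeries ℂ) = ((b : FC N) : LaurentSeries ℂ) := by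
    rw [← E1_evRC, ← E1_evRC, h]
  exact Subtype.ext (Subtype.ext h1)

/-- The analytic evaluation of an element of `AC N`, as a function on the upper half plane. -/
def evFun (a : AC N) : ℍ → ℂ := (evRC N a).1

theorem evFun_def (a : AC N) : evFun N a = (evRC N a).1 := rfl

theorem evFun_add (a b : AC N) : evFun N (a + b) = evFun N a + evFun N b := by
  rw [evFun_def, map_add]; rfl

theorem evFun_mul (a b : AC N) : evFun N (a * b) = evFun N a * evFun N b := by
  rw [evFun_def, map_mul]; rfl

theorem evFun_one : evFun N 1 = 1 := by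
  rw [evFun_def, map_one]; rfl

theorem evFun_zero : evFun N 0 = 0 := by
  rw [evFun_def, map_zero]; rfl

theorem evFun_injective : Function.Injective (evFun N) := by
  intro a b h
  exact evRC_injective N (Subtype.ext h)

open helper6180 in
theorem evRC_jCD (d : ℕ) [NeZero d] (hd : d ∣ N) :
    evRC N ⟨jCD N d hd, jCD_mem_AC N d hd⟩ = JdR d (NeZero.pos d) := by
  apply E1_injective
  rw [E1_evRC, E1_JdR_C]
  rfl

/-- `evFun (j(q^d)) = J(dτ)`. -/
theorem evFun_jCD (d : ℕ) [NeZero d] (hd : d ∣ N) :
    evFun N ⟨jCD N d hd, jCD_mem_AC N d hd⟩ = helper6180.Jd d := by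
  rw [evFun_def, evRC_jCD]
  rfl

/-- `evFun j = J`. -/
theorem evFun_jC : evFun N ⟨jC N, jC_mem_AC N⟩ = helper288.jFn := by
  have h := evFun_jCD N 1 (one_dvd N)
  funext τ
  rw [← helper6180.Jd_one τ, ← h]
  rfl

open helper6180 in
theorem evRC_algebraMap (c : ℂ) : evRC N (algebraMap ℂ (AC N) c) = constR c := by
  apply E1_injective
  rw [E1_evRC, E1_constR]
  exact algebraMap_C_eq c

/-- `evFun` of a constant is the constant function. -/
theorem evFun_algebraMap (c : ℂ) : evFun N (algebraMap ℂ (AC N) c) = fun _ => c := by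
  rw [evFun_def, evRC_algebraMap]
  rfl

theorem isCuspMer_evFun (a : AC N) : helper315.IsCuspMer ((1 : ℕ) : ℝ) (evFun N a) :=
  (evRC N a).2

theorem mdiff_evFun (a : AC N) : MDiff (evFun N a) := (isCuspMer_evFun N a).mdiff

/-- Induction principle: a property of functions that holds for the `J(dτ)`, `d ∣ N`, for
constants, and is stable under sums and products holds for all `evFun a`. -/
theorem evFun_induction (p : (ℍ → ℂ) → Prop)
    (hgen : ∀ d : ℕ, 0 < d → d ∣ N → p (helper6180.Jd d))
    (hconst : ∀ c : ℂ, p (fun _ => c))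
    (hadd : ∀ f g, p f → p g → p (f + g))
    (hmul : ∀ f g, p f → p g → p (f * g)) (a : AC N) : p (evFun N a) := by
  obtain ⟨x, hx⟩ := a
  have key : ∀ (x : FC N) (hx : x ∈ Algebra.adjoin ℂ (genSetC N)), p (evFun N ⟨x, hx⟩) := by
    intro x hx
    induction hx using Algebra.adjoin_induction with
    | mem x hx =>
        obtain ⟨d, hd0, hd, rfl⟩ := hx
        have h := evFun_jCD N d hd
        rw [show (⟨jCD N d hd, _⟩ : AC N) = ⟨jCD N d hd, jCD_mem_AC N d hd⟩ from rfl, h]
        exact hgen d (NeZero.pos d) hd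
    | algebraMap c =>
        have h := evFun_algebraMap N c
        rw [show (⟨algebraMap ℂ (FC N) c, _⟩ : AC N) = algebraMap ℂ (AC N) c from rfl, h]
        exact hconst _
    | add x y hx hy ihx ihy =>
        rw [show (⟨x + y, _⟩ : AC N) = (⟨x, hx⟩ : AC N) + ⟨y, hy⟩ from rfl, evFun_add]
        exact hadd _ _ ihx ihy
    | mul x y hx hy ihx ihy =>
        rw [show (⟨x * y, _⟩ : AC N) = (⟨x, hx⟩ : AC N) * ⟨y, hy⟩ from rfl, evFun_mul]
        exact hmul _ _ ihx ihy
  exact key x hx

/-- `evFun a` is `Γ₀(N)`-invariant. -/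
theorem evFun_smul_of_mem_Gamma0 (a : AC N) (γ : SL(2, ℤ)) (hγ : γ ∈ Gamma0 N) (τ : ℍ) :
    evFun N a (γ • τ) = evFun N a τ := by
  refine evFun_induction N (fun f => ∀ τ, f (γ • τ) = f τ) ?_ ?_ ?_ ?_ a τ
  · intro d hd0 hd τ
    exact helper288.jFn_mul_smul_of_mem_Gamma0 N d hd0 hd γ hγ τ
  · intro c τ
    rfl
  · intro f g hf hg τ
    simp only [Pi.add_apply, hf τ, hg τ]
  · intro f g hf hg τ
    simp only [Pi.mul_apply, hf τ, hg τ]

/-- Separation: an element of `SL(2,ℤ)` fixing all `evFun a` lies in `Γ₀(N)`. -/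
theorem mem_Gamma0_of_evFun_smul [NeZero N] (g : SL(2, ℤ))
    (h : ∀ (a : AC N) (τ : ℍ), evFun N a (g • τ) = evFun N a τ) : g ∈ Gamma0 N := by
  refine helper288.mem_Gamma0_of_jFn_eq N g fun τ => ?_
  have h1 := h ⟨jCD N N dvd_rfl, jCD_mem_AC N N dvd_rfl⟩ τ
  rw [evFun_jCD] at h1
  exact h1

/-- All translates of `evFun a` are holomorphic and of exponential growth. -/
theorem evFun_smul_mdiff_growth (a : AC N) :
    ∀ g : SL(2, ℤ), MDiff (fun τ : ℍ => evFun N a (g • τ)) ∧
      helper167.HasExpGrowth (fun τ : ℍ => evFun N a (g • τ)) := by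
  refine evFun_induction N (fun f => ∀ g : SL(2, ℤ), MDiff (fun τ : ℍ => f (g • τ)) ∧
      helper167.HasExpGrowth (fun τ : ℍ => f (g • τ))) ?_ ?_ ?_ ?_ a
  · intro d hd0 hd g
    exact ⟨helper288.mdiff_jFn_mul_smul g d hd0, helper288.hasExpGrowth_jFn_mul_smul g d hd0⟩
  · intro c g
    exact ⟨mdifferentiable_const, helper167.hasExpGrowth_const c⟩
  · intro f g hf hg γ
    exact ⟨(hf γ).1.add (hg γ).1, (hf γ).2.add (hg γ).2⟩
  · intro f g hf hg γ
    exact ⟨(hf γ).1.mul (hg γ).1, (hf γ).2.mul (hg γ).2⟩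

/-! ## The evaluation into `Hol` and `Mer` -/

/-- The evaluation as a `ℂ`-algebra homomorphism into the ring `Hol` of holomorphic functions. -/
def evHol : AC N →ₐ[ℂ] Hol where
  toFun a := ⟨evFun N a, mdiff_evFun N a⟩
  map_one' := Subtype.ext (evFun_one N)
  map_mul' a b := Subtype.ext (evFun_mul N a b)
  map_zero' := Subtype.ext (evFun_zero N)
  map_add' a b := Subtype.ext (evFun_add N a b)
  commutes' c := Subtype.ext (evFun_algebraMap N c)

theorem evHol_apply (a : AC N) (τ : ℍ) : (evHol N a : ℍ → ℂ) τ = evFun N a τ := rfl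

theorem coe_evHol (a : AC N) : (evHol N a : ℍ → ℂ) = evFun N a := rfl

theorem evHol_injective : Function.Injective (evHol N) := by
  intro a b h
  exact evFun_injective N (congrArg (fun x : Hol => (x : ℍ → ℂ)) h)

/-- The evaluation of `AC N` in `Mer`. -/
def evMerA : AC N →ₐ[ℂ] Mer := (IsScalarTower.toAlgHom ℂ Hol Mer).comp (evHol N)

theorem evMerA_apply (a : AC N) : evMerA N a = algebraMap Hol Mer (evHol N a) := rfl

theorem evMerA_injective : Function.Injective (evMerA N) := by
  intro a b h
  exact evHol_injective N (IsFractionRing.injective Hol Mer h)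

/-- **The analytic evaluation of the complex function field**, an injective `ℂ`-algebra
homomorphism into the field of meromorphic functions on the upper half plane. -/
def evC : FC N →ₐ[ℂ] Mer := IsFractionRing.liftAlgHom (evMerA_injective N)

/-- On `AC N` the evaluation is given by the holomorphic function `evFun`. -/
theorem evC_coe (a : AC N) : evC N (a : FC N) = algebraMap Hol Mer (evHol N a) :=
  IsFractionRing.lift_algebraMap (evMerA_injective N) a

theorem evC_injective : Function.Injective (evC N) := (evC N).toRingHom.injective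

theorem evC_ne_zero {f : FC N} (hf : f ≠ 0) : evC N f ≠ 0 :=
  (map_ne_zero_iff _ (evC_injective N)).mpr hf

/-- `evC` of a quotient of elements of `AC N`. -/
theorem evC_div (a b : AC N) :
    evC N ((a : FC N) / (b : FC N))
      = algebraMap Hol Mer (evHol N a) / algebraMap Hol Mer (evHol N b) := by
  rw [map_div₀, evC_coe, evC_coe]

/-- `J(dτ)` as an element of `Hol`. -/
def JdHol (d : ℕ) (hd : 0 < d) : Hol := ⟨helper6180.Jd d, helper6180.mdiff_Jd d hd⟩

/-- `evC (j(q^d)) = J(dτ)`. -/
theorem evC_jCD (d : ℕ) [NeZero d] (hd : d ∣ N) :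
    evC N (jCD N d hd) = algebraMap Hol Mer (JdHol d (NeZero.pos d)) := by
  have h := evC_coe N ⟨jCD N d hd, jCD_mem_AC N d hd⟩
  rw [h]
  congr 1
  exact Subtype.ext (evFun_jCD N d hd)

/-- The analytic `j`-function as an element of `Hol`. -/
def JHol : Hol := ⟨helper288.jFn, helper288.mdiff_jFn⟩

/-- `evC j = J`. -/
theorem evC_jC : evC N (jC N) = algebraMap Hol Mer JHol := by
  have h := evC_coe N ⟨jC N, jC_mem_AC N⟩
  rw [h]
  congr 1
  exact Subtype.ext (evFun_jC N)

/-! ## Invariance and separation in `Mer` -/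

/-- `pull g` on the image of `AC N`: composition with `g`. -/
theorem pull_evC_coe (g : SL(2, ℤ)) (a : AC N) :
    pull g (evC N (a : FC N)) = algebraMap Hol Mer (pullHol g (evHol N a)) := by
  rw [evC_coe, pull_algebraMap]

/-- `evC f` is `Γ₀(N)`-invariant. -/
theorem pull_evC (γ : SL(2, ℤ)) (hγ : γ ∈ Gamma0 N) (f : FC N) : pull γ (evC N f) = evC N f := by
  have key : ((pull γ : Mer ≃ₐ[ℂ] Mer) : Mer →+* Mer).comp (evC N : FC N →+* Mer)
      = (evC N : FC N →+* Mer) := by
    refine ringHom_ext_of_AC N fun a => ?_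
    show pull γ (evC N (a : FC N)) = evC N (a : FC N)
    rw [pull_evC_coe, evC_coe]
    congr 1
    exact Hol.ext fun τ => evFun_smul_of_mem_Gamma0 N a γ hγ τ
  exact congrArg (fun φ : FC N →+* Mer => φ f) key

/-- Separation: an element of `SL(2,ℤ)` fixing all `evC f` lies in `Γ₀(N)`. -/
theorem mem_Gamma0_of_pull_evC [NeZero N] (g : SL(2, ℤ))
    (h : ∀ f : FC N, pull g (evC N f) = evC N f) : g ∈ Gamma0 N := by
  apply mem_Gamma0_of_evFun_smul N g
  intro a τ
  have h2 := h (a : FC N)
  rw [pull_evC_coe, evC_coe] at h2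
  have h3 : pullHol g (evHol N a) = evHol N a := IsFractionRing.injective Hol Mer h2
  exact congrFun (congrArg Subtype.val h3) τ

/-- `pull g (evC j) = evC j` for every `g ∈ SL(2,ℤ)`. -/
theorem pull_evC_jC (g : SL(2, ℤ)) : pull g (evC N (jC N)) = evC N (jC N) := by
  rw [evC_jC, pull_algebraMap]
  congr 1
  exact Hol.ext fun τ => helper288.jFn_smul g τ

/-! ## Compatibility with the `ℚ̄`-function field and the S24 evaluation -/

open helper6180 in
theorem coeffMap_i0_mem {x : LaurentSeries Kbar} (hx : x ∈ modularFunctionFieldBar N) :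
    coeffMap i0 x ∈ laurentBaseChange ℂ (modularFunctionFieldFull N) := by
  rw [mem_laurentBaseChange_iff] at hx
  induction hx using Subfield.closure_induction with
  | mem y hy =>
      rcases hy with ⟨a, rfl⟩ | ⟨z, hz, rfl⟩
      · rw [coeffMap_i0_algebraMap, ← algebraMap_C_eq]
        exact (laurentBaseChange ℂ (modularFunctionFieldFull N)).algebraMap_mem _
      · rw [coeffMap_i0_coeffEmb]
        exact coeffEmb_mem_laurentBaseChange ℂ hz
  | one => rw [map_one]; exact one_mem _
  | add x y _ _ hx hy => rw [map_add]; exact add_mem hx hy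
  | neg x _ hx => rw [map_neg]; exact neg_mem hx
  | inv x _ hx => rw [map_inv₀]; exact inv_mem hx
  | mul x y _ _ hx hy => rw [map_mul]; exact mul_mem hx hy

/-- Extension of constants `ℚ̄ → ℂ` (along `helper6180.i0`) on the function fields. -/
def baseChangeC : FN N →+* FC N where
  toFun x := ⟨coeffMap helper6180.i0 (x : LaurentSeries Kbar), coeffMap_i0_mem N x.2⟩
  map_one' := Subtype.ext (map_one _)
  map_mul' x y := Subtype.ext (map_mul _ _ _)
  map_zero' := Subtype.ext (map_zero _)
  map_add' x y := Subtype.ext (map_add _ _ _)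

theorem coe_baseChangeC (x : FN N) :
    ((baseChangeC N x : FC N) : LaurentSeries ℂ)
      = coeffMap helper6180.i0 (x : LaurentSeries Kbar) := rfl

theorem baseChangeC_injective : Function.Injective (baseChangeC N) :=
  (baseChangeC N).injective

theorem baseChangeC_algebraMap (c : Kbar) :
    baseChangeC N (algebraMap Kbar (FN N) c) = algebraMap ℂ (FC N) (helper6180.i0 c) := by
  apply Subtype.ext
  rw [coe_baseChangeC]
  show coeffMap helper6180.i0 (algebraMap Kbar (LaurentSeries Kbar) c)
    = algebraMap ℂ (LaurentSeries ℂ) (helper6180.i0 c)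
  rw [helper6180.coeffMap_i0_algebraMap, algebraMap_C_eq]

theorem baseChangeC_jBarD (d : ℕ) [NeZero d] (hd : d ∣ N) :
    baseChangeC N (jBarD N d hd) = jCD N d hd := by
  apply Subtype.ext
  rw [coe_baseChangeC]
  show coeffMap helper6180.i0 (jSeries d) = jSeriesC d
  rw [jSeries, coeffMap_i0_coeffEmb, jSeriesC]

theorem baseChangeC_jBar : baseChangeC N (jBar N) = jC N := baseChangeC_jBarD N 1 (one_dvd N)

theorem baseChangeC_mem_AC (a : helper3176.AN N) : baseChangeC N (a : FN N) ∈ AC N := by
  obtain ⟨x, hx⟩ := a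
  show baseChangeC N x ∈ AC N
  unfold helper3176.AN at hx
  induction hx using Algebra.adjoin_induction with
  | mem x hx =>
      obtain ⟨d, hd0, hd, rfl⟩ := hx
      rw [baseChangeC_jBarD]
      exact jCD_mem_AC N d hd
  | algebraMap c =>
      rw [baseChangeC_algebraMap]
      exact (AC N).algebraMap_mem _
  | add x y _ _ hx hy => rw [map_add]; exact add_mem hx hy
  | mul x y _ _ hx hy => rw [map_mul]; exact mul_mem hx hy

/-- The complex evaluation restricted to `ℚ̄[j(q^d)]` is the S24 evaluation `helper6180.ev`. -/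
theorem evFun_baseChangeC (a : helper3176.AN N) :
    evFun N ⟨baseChangeC N (a : FN N), baseChangeC_mem_AC N a⟩ = helper6180.ev N a := by
  have h : evRC N ⟨baseChangeC N (a : FN N), baseChangeC_mem_AC N a⟩ = helper6180.evR N a := by
    apply helper6180.E1_injective
    rw [E1_evRC, helper6180.E1_evR]
    rfl
  rw [evFun_def, h]
  rfl

/-- `helper6180.ev N a` as an element of `Hol`. -/
def evHolBar (a : helper3176.AN N) : Hol := ⟨helper6180.ev N a, helper6180.mdiff_ev N a⟩

/-- **Compatibility**: `evC ∘ baseChangeC` is the S24 evaluation on `ℚ̄[j(q^d)]`. -/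
theorem evC_baseChangeC (a : helper3176.AN N) :
    evC N (baseChangeC N (a : FN N)) = algebraMap Hol Mer (evHolBar N a) := by
  have h := evC_coe N ⟨baseChangeC N (a : FN N), baseChangeC_mem_AC N a⟩
  rw [h]
  exact congrArg (algebraMap Hol Mer) (Subtype.ext (evFun_baseChangeC N a))

/-- Any ring homomorphism `FN N → Mer` that is given by `helper6180.ev` on `ℚ̄[j(q^d)]` is
`evC ∘ baseChangeC`. -/
theorem eq_evC_comp_baseChangeC (φ : FN N →+* Mer)
    (h : ∀ a : helper3176.AN N, φ (a : FN N) = algebraMap Hol Mer (evHolBar N a)) :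
    φ = (evC N : FC N →+* Mer).comp (baseChangeC N) := by
  refine helper3176.ringHom_ext_of_AN N fun a => ?_
  rw [h a]
  exact (evC_baseChangeC N a).symm

end Fermat.Agent.S29.helper580
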