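import Fermat.Agent.S29.helper3718_TwistedForm
import Fermat.Agent.S29.helper580_CPlace
import Fermat.Prelude.Def_ModularCurve_PeriodMap

/-!
# S29 / TH4-ASM (helper2122): internal assembly of the surjectivity statement (TH4)

For a character `χ : Γ₀(N) →* ℂˣ` with `χ ^ n = 1` which is trivial on the elements of trace `±2`
and on the elements of finite order (e.g. `χ = ζ ^ lam` for an integral parabolic homomorphism
`lam`), we assemble the statement

  `SurjAt N n χ` : there is `u₀ ≠ 0` in the function field of `X₀(N)` over `ℚ̄` all of whose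
  orders are divisible by `n`, together with a meromorphic `n`-th root of its analytic realisation
  with multiplier `χ`.
-/

set_option autoImplicit false

open ModularCurve CongruenceSubgroup UpperHalfPlane
open scoped MatrixGroups Manifold

noncomputable section

namespace Fermat.Agent.S29.helper2122

open Fermat.Agent.S24 Fermat.Agent.S24.helper24 Fermat.Agent.S24.helper580
open Fermat.Agent.S29.helper580 Fermat.Agent.Lib.helper1219

/-! ## Characters attached to integral homomorphisms -/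

/-- The character `γ ↦ ζ ^ (lam γ)`. -/
def chiOf (N : ℕ) (ζ : ℂˣ) (lam : Additive ↥(Gamma0 N) →+ ℤ) : ↥(Gamma0 N) →* ℂˣ where
  toFun γ := ζ ^ (lam (Additive.ofMul γ))
  map_one' := by
    show ζ ^ (lam 0) = 1
    rw [map_zero, zpow_zero]
  map_mul' γ δ := by
    show ζ ^ (lam (Additive.ofMul γ + Additive.ofMul δ)) = _
    rw [map_add, zpow_add]

theorem chiOf_apply (N : ℕ) (ζ : ℂˣ) (lam : Additive ↥(Gamma0 N) →+ ℤ) (γ : ↥(Gamma0 N)) :
    chiOf N ζ lam γ = ζ ^ (lam (Additive.ofMul γ)) := rfl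

theorem chiOf_pow (N : ℕ) {n : ℕ} {ζ : ℂˣ} (hζ : ζ ^ n = 1) (lam : Additive ↥(Gamma0 N) →+ ℤ)
    (γ : ↥(Gamma0 N)) : chiOf N ζ lam γ ^ n = 1 := by
  rw [chiOf_apply, ← zpow_natCast, ← zpow_mul, mul_comm, zpow_mul, zpow_natCast, hζ, one_zpow]

theorem chiOf_eq_one_of_trace (N : ℕ) (ζ : ℂˣ) {lam : Additive ↥(Gamma0 N) →+ ℤ}
    (hlam : Period.IsParabolicHom (Gamma0 N) lam) (γ : ↥(Gamma0 N))
    (hγ : ((γ : SL(2, ℤ)) : Matrix (Fin 2) (Fin 2) ℤ).trace ^ 2 = 4) : chiOf N ζ lam γ = 1 := by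
  rw [chiOf_apply, hlam γ hγ, zpow_zero]

theorem chiOf_eq_one_of_finOrder (N : ℕ) (ζ : ℂˣ) (lam : Additive ↥(Gamma0 N) →+ ℤ)
    (γ : ↥(Gamma0 N)) (hγ : IsOfFinOrder (γ : SL(2, ℤ))) : chiOf N ζ lam γ = 1 := by
  obtain ⟨k, hk, hpow'⟩ := isOfFinOrder_iff_pow_eq_one.mp hγ
  have hpow : γ ^ k = 1 := Subtype.ext (by rw [Subgroup.coe_pow, hpow', Subgroup.coe_one])
  have h1 : (k : ℤ) * lam (Additive.ofMul γ) = 0 := by
    have h2 : lam (Additive.ofMul (γ ^ k)) = k • lam (Additive.ofMul γ) := by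
      rw [ofMul_pow, map_nsmul]
    rw [hpow] at h2
    have h3 : lam (Additive.ofMul (1 : ↥(Gamma0 N))) = 0 := map_zero lam
    rw [h3] at h2
    rw [← nsmul_eq_mul]
    exact h2.symm
  have h4 : lam (Additive.ofMul γ) = 0 := by
    rcases mul_eq_zero.mp h1 with h | h
    · exact absurd (by exact_mod_cast h) hk.ne'
    · exact h
  rw [chiOf_apply, h4, zpow_zero]

/-! ## The twisted root as a meromorphic function -/

section Root

variable {N : ℕ} {χ : ↥(Gamma0 N) →* ℂˣ}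

theorem norm_chi_eq_one {n : ℕ} (hn : 0 < n) (hχ : ∀ γ, χ γ ^ n = 1) (γ : ↥(Gamma0 N)) :
    ‖(χ γ : ℂ)‖ = 1 := by
  refine Complex.norm_eq_one_of_pow_eq_one (n := n) ?_ hn.ne'
  rw [← Units.val_pow_eq_pow_val, hχ, Units.val_one]

theorem chi_eq_one_of_upper
    (hχtr : ∀ γ : ↥(Gamma0 N),
      ((γ : SL(2, ℤ)) : Matrix (Fin 2) (Fin 2) ℤ).trace ^ 2 = 4 → χ γ = 1)
    (γ : ↥(Gamma0 N)) (h10 : (γ : SL(2, ℤ)).1 1 0 = 0) : χ γ = 1 := by
  apply hχtr
  have hdet : ((γ : SL(2, ℤ)) : Matrix (Fin 2) (Fin 2) ℤ).det = 1 := (γ : SL(2, ℤ)).2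
  rw [Matrix.det_fin_two, h10, mul_zero, sub_zero] at hdet
  rw [Matrix.trace_fin_two]
  rcases Int.eq_one_or_neg_one_of_mul_eq_one' hdet with ⟨h1, h2⟩ | ⟨h1, h2⟩
  · rw [h1, h2]; norm_num
  · rw [h1, h2]; norm_num

/-- The twisted root `E_{12,χ} / Δ` of `helper3718` as an element of `Hol`. -/
def rootHol (N : ℕ) (χ : ↥(Gamma0 N) →* ℂˣ) (hunit : ∀ γ, ‖(χ γ : ℂ)‖ = 1) : Hol :=
  ⟨helper3718.twistedRoot N χ, helper3718.twistedRoot_mdifferentiable hunit⟩

theorem rootHol_apply (hunit : ∀ γ, ‖(χ γ : ℂ)‖ = 1) (τ : ℍ) :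
    (rootHol N χ hunit : ℍ → ℂ) τ = helper3718.twistedRoot N χ τ := rfl

theorem pullHol_rootHol (hunit : ∀ γ, ‖(χ γ : ℂ)‖ = 1)
    (hpar : ∀ γ : ↥(Gamma0 N), (γ : SL(2, ℤ)).1 1 0 = 0 → χ γ = 1) (γ : ↥(Gamma0 N)) :
    pullHol (γ : SL(2, ℤ)) (rootHol N χ hunit) = (χ γ : ℂ) • rootHol N χ hunit := by
  refine Hol.ext fun τ => ?_
  show helper3718.twistedRoot N χ ((γ : SL(2, ℤ)) • τ)
    = (χ γ : ℂ) * helper3718.twistedRoot N χ τ
  exact helper3718.twistedRoot_smul hpar γ τ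

/-- The twisted root as an element of `Mer`. -/
def rootMer (N : ℕ) (χ : ↥(Gamma0 N) →* ℂˣ) (hunit : ∀ γ, ‖(χ γ : ℂ)‖ = 1) : Mer :=
  algebraMap Hol Mer (rootHol N χ hunit)

theorem pull_rootMer (hunit : ∀ γ, ‖(χ γ : ℂ)‖ = 1)
    (hpar : ∀ γ : ↥(Gamma0 N), (γ : SL(2, ℤ)).1 1 0 = 0 → χ γ = 1) (γ : ↥(Gamma0 N)) :
    pull (γ : SL(2, ℤ)) (rootMer N χ hunit)
      = algebraMap ℂ Mer (χ γ : ℂ) * rootMer N χ hunit := by
  unfold rootMer
  rw [pull_algebraMap, pullHol_rootHol hunit hpar, Algebra.smul_def, map_mul,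
    ← IsScalarTower.algebraMap_apply]

end Root

/-! ## Modular forms on `Γ₀(N)` and the expansion `E1` -/

section QExp

local notation "ιL" => HahnSeries.ofPowerSeries ℤ ℂ

theorem isCuspHol_modularForm (N : ℕ) [NeZero N] {k : ℤ} (f : ModularForm (G0 N) k) :
    helper315.IsCuspHol ((1 : ℕ) : ℝ) (f : ℍ → ℂ) := by
  refine ⟨ModularFormClass.holo f, ?_, ModularFormClass.bdd_at_infty f⟩
  rw [← helper315.periodic_comp_ofComplex_iff]
  have := SlashInvariantFormClass.periodic_comp_ofComplex f (h1G0 N)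
  simpa using this

/-- A modular form on `Γ₀(N)` as an element of `R1`. -/
def formR1 (N : ℕ) [NeZero N] {k : ℤ} (f : ModularForm (G0 N) k) : helper6180.R1 :=
  ⟨(f : ℍ → ℂ), (isCuspHol_modularForm N f).isCuspMer⟩

theorem E1_formR1 (N : ℕ) [NeZero N] {k : ℤ} (f : ModularForm (G0 N) k) :
    helper6180.E1 (formR1 N f) = ιL (qExpansion 1 f) := by
  rw [helper6180.E1_apply]
  have := helper315.cuspExpFun_of_isCuspHol (by norm_num) (isCuspHol_modularForm N f)
  simpa [formR1] using this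

/-- **Identification of the analytic realisation.** If `x` in the complex function field is the
ratio of the `q`-expansions of two modular forms `G`, `E` of level `N`, then
`evC x * E = G` as functions; stated as: for `x = a / b`, `evFun a * E = G * evFun b`. -/
theorem evFun_mul_eq_of_ratio (N : ℕ) [NeZero N] {k : ℤ} (G E : ModularForm (G0 N) k)
    (a b : AC N)
    (hx : ((a : FC N) : LaurentSeries ℂ) * ιL (qExpansion 1 E)
      = ιL (qExpansion 1 G) * ((b : FC N) : LaurentSeries ℂ)) (τ : ℍ) :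
    evFun N a τ * E τ = G τ * evFun N b τ := by
  have h1 : evRC N a * formR1 N E = formR1 N G * evRC N b := by
    apply helper6180.E1_injective
    rw [map_mul, map_mul, E1_evRC, E1_evRC, E1_formR1, E1_formR1, hx]
  have h2 := congrArg (fun f : helper6180.R1 => (f : ℍ → ℂ) τ) h1
  exact h2

end QExp

/-! ## Behaviour at the cusps -/

section Cusp

open Filter Topology

theorem trace_conj_SL (g h : SL(2, ℤ)) :
    ((g * h * g⁻¹ : SL(2, ℤ)) : Matrix (Fin 2) (Fin 2) ℤ).trace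
      = (h : Matrix (Fin 2) (Fin 2) ℤ).trace := by
  rw [Matrix.SpecialLinearGroup.coe_mul, Matrix.SpecialLinearGroup.coe_mul, Matrix.trace_mul_comm,
    ← Matrix.mul_assoc, ← Matrix.SpecialLinearGroup.coe_mul, inv_mul_cancel,
    Matrix.SpecialLinearGroup.coe_one, Matrix.one_mul]

theorem trace_T_zpow (k : ℤ) :
    ((ModularGroup.T ^ k : SL(2, ℤ)) : Matrix (Fin 2) (Fin 2) ℤ).trace = 2 := by
  rw [ModularGroup.coe_T_zpow, Matrix.trace_fin_two_of]
  norm_num

theorem trace_sq_conj_T_zpow (g : SL(2, ℤ)) (k : ℤ) :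
    ((g * ModularGroup.T ^ k * g⁻¹ : SL(2, ℤ)) : Matrix (Fin 2) (Fin 2) ℤ).trace ^ 2 = 4 := by
  rw [trace_conj_SL, trace_T_zpow]
  norm_num

theorem conj_T_pow_mem_Gamma0 (N : ℕ) (g : SL(2, ℤ)) :
    g * ModularGroup.T ^ (N : ℤ) * g⁻¹ ∈ Gamma0 N := by
  have h1 : ModularGroup.T ^ (N : ℤ) ∈ Gamma N := by
    have := CongruenceSubgroup.ModularGroup_T_pow_mem_Gamma (N : ℤ) (N : ℤ) dvd_rfl
    simpa using this
  have h2 : g * ModularGroup.T ^ (N : ℤ) * g⁻¹ ∈ Gamma N :=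
    (CongruenceSubgroup.Gamma_normal N).conj_mem _ h1 g
  rw [Gamma_mem] at h2
  rw [Gamma0_mem]
  exact h2.2.2.1

/-- Translates of a function invariant under the elements of trace `±2` of `Γ₀(N)` are
`N`-periodic. -/
theorem hPeriodic_comp_smul (N : ℕ) {F : ℍ → ℂ} (g : SL(2, ℤ))
    (hinv : ∀ γ ∈ Gamma0 N, ((γ : SL(2, ℤ)) : Matrix (Fin 2) (Fin 2) ℤ).trace ^ 2 = 4 →
      ∀ τ : ℍ, F (γ • τ) = F τ) :
    helper315.HPeriodic (N : ℝ) (fun τ => F (g • τ)) := by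
  intro τ
  show F (g • ((N : ℝ) +ᵥ τ)) = F (g • τ)
  have h1 : ((N : ℝ) +ᵥ τ) = ModularGroup.T ^ (N : ℤ) • τ := by
    rw [UpperHalfPlane.modular_T_zpow_smul]
    simp
  have h2 : g • (ModularGroup.T ^ (N : ℤ) • τ)
      = (g * ModularGroup.T ^ (N : ℤ) * g⁻¹) • (g • τ) := by
    rw [← mul_smul, ← mul_smul, inv_mul_cancel_right]
  rw [h1, h2]
  exact hinv _ (conj_T_pow_mem_Gamma0 N g) (trace_sq_conj_T_zpow g N) _

/-- A holomorphic `N`-periodic function of exponential growth is meromorphic at the cusp. -/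
theorem isCuspMer_of_growth (N : ℕ) [NeZero N] {F : ℍ → ℂ} (hF : MDiff F)
    (hper : helper315.HPeriodic (N : ℝ) F)
    (hgr : ∃ (m : ℕ) (C A : ℝ), ∀ τ : ℍ, A ≤ τ.im →
      ‖F τ‖ ≤ C * Real.exp (2 * Real.pi * m * τ.im)) :
    helper315.IsCuspMer (N : ℝ) F := by
  obtain ⟨m, C, A, hgr⟩ := hgr
  have hN : (0 : ℝ) < (N : ℝ) := helper315.natCast_pos' N
  refine ⟨N * m, ?_, ?_, ?_⟩
  · exact ((helper315.mdiff_qH _).pow _).mul hF
  · intro τ
    show helper315.qH (N : ℝ) ((N : ℝ) +ᵥ τ) ^ (N * m) * F ((N : ℝ) +ᵥ τ)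
      = helper315.qH (N : ℝ) τ ^ (N * m) * F τ
    rw [helper315.hPeriodic_qH hN.ne' τ, hper τ]
  · rw [UpperHalfPlane.isBoundedAtImInfty_iff]
    refine ⟨C, A, fun τ hτ => ?_⟩
    show ‖helper315.qH (N : ℝ) τ ^ (N * m) * F τ‖ ≤ C
    rw [norm_mul, norm_pow, helper315.qH_apply, Function.Periodic.norm_qParam, ← Real.exp_nat_mul]
    have h1 := hgr τ hτ
    have h2 : ((N * m : ℕ) : ℝ) * (-2 * Real.pi * (τ : ℂ).im / (N : ℝ))
        = -(2 * Real.pi * m * τ.im) := by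
      have : (τ : ℂ).im = τ.im := rfl
      rw [this]
      push_cast
      field_simp
    rw [h2]
    have h3 : 0 < Real.exp (-(2 * Real.pi * m * τ.im)) := Real.exp_pos _
    calc Real.exp (-(2 * Real.pi * m * τ.im)) * ‖F τ‖
        ≤ Real.exp (-(2 * Real.pi * m * τ.im)) * (C * Real.exp (2 * Real.pi * m * τ.im)) :=
          mul_le_mul_of_nonneg_left h1 h3.le
      _ = C * (Real.exp (-(2 * Real.pi * m * τ.im)) * Real.exp (2 * Real.pi * m * τ.im)) := by
          ring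
      _ = C := by rw [← Real.exp_add, neg_add_cancel, Real.exp_zero, mul_one]

/-- The ratio of two functions meromorphic at the cusp is a meromorphic function of the local
parameter `q_N = exp (2 π i τ / N)` near `i∞`. -/
theorem exists_ratio_merAt (N : ℕ) [NeZero N] {P Q : ℍ → ℂ}
    (hP : helper315.IsCuspMer (N : ℝ) P) (hQ : helper315.IsCuspMer (N : ℝ) Q) (hQ0 : Q ≠ 0) :
    ∃ H : ℂ → ℂ, MeromorphicAt H 0 ∧
      ∀ᶠ τ : ℍ in atImInfty, P τ = H (Function.Periodic.qParam (N : ℝ) (τ : ℂ)) * Q τ := by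
  have hN : (0 : ℝ) < (N : ℝ) := helper315.natCast_pos' N
  obtain ⟨m₁, h₁⟩ := hP
  obtain ⟨m₂, h₂⟩ := hQ
  set K₁ : ℂ → ℂ := UpperHalfPlane.cuspFunction (N : ℝ) (helper315.qH (N : ℝ) ^ m₁ * P) with hK₁
  set K₂ : ℂ → ℂ := UpperHalfPlane.cuspFunction (N : ℝ) (helper315.qH (N : ℝ) ^ m₂ * Q) with hK₂
  have e₁ : ∀ τ : ℍ, K₁ (Function.Periodic.qParam (N : ℝ) (τ : ℂ))
      = Function.Periodic.qParam (N : ℝ) (τ : ℂ) ^ m₁ * P τ := fun τ =>
    UpperHalfPlane.eq_cuspFunction τ hN.ne' h₁.periodic'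
  have e₂ : ∀ τ : ℍ, K₂ (Function.Periodic.qParam (N : ℝ) (τ : ℂ))
      = Function.Periodic.qParam (N : ℝ) (τ : ℂ) ^ m₂ * Q τ := fun τ =>
    UpperHalfPlane.eq_cuspFunction τ hN.ne' h₂.periodic'
  have a₁ : AnalyticAt ℂ K₁ 0 := h₁.analyticAt hN
  have a₂ : AnalyticAt ℂ K₂ 0 := h₂.analyticAt hN
  refine ⟨fun q => K₁ q * q ^ m₂ / (K₂ q * q ^ m₁), ?_, ?_⟩
  · exact (a₁.meromorphicAt.mul ((analyticAt_id.pow m₂).meromorphicAt)).div
      (a₂.meromorphicAt.mul ((analyticAt_id.pow m₁).meromorphicAt))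
  · have hK₂ne : ∀ᶠ q in 𝓝[≠] (0 : ℂ), K₂ q ≠ 0 := by
      rcases a₂.eventually_eq_zero_or_eventually_ne_zero with h | h
      · exfalso
        apply hQ0
        have hq : qExpansion (N : ℝ) (helper315.qH (N : ℝ) ^ m₂ * Q) = 0 := by
          ext n
          rw [UpperHalfPlane.qExpansion_coeff, map_zero]
          have h0 : K₂ =ᶠ[𝓝 0] fun _ => (0 : ℂ) := h
          rw [← hK₂, h0.iteratedDeriv_eq, iteratedDeriv_fun_const_zero, mul_zero]
        have h3 := (h₂.qExpansion_eq_zero_iff hN).mp hq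
        funext τ
        have h4 := congrFun h3 τ
        have h5 : helper315.qH (N : ℝ) τ ^ m₂ * Q τ = 0 := h4
        exact (mul_eq_zero.mp h5).resolve_left (pow_ne_zero _ (helper315.qH_ne_zero _ τ))
      · exact h
    have htend : Tendsto (fun τ : ℍ => Function.Periodic.qParam (N : ℝ) (τ : ℂ)) atImInfty
        (𝓝[≠] 0) := (Function.Periodic.qParam_tendsto hN).comp UpperHalfPlane.tendsto_coe_atImInfty
    filter_upwards [htend.eventually hK₂ne] with τ hτ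
    have hq0 : Function.Periodic.qParam (N : ℝ) (τ : ℂ) ≠ 0 := Function.Periodic.qParam_ne_zero _
    have hQτ : Q τ ≠ 0 := by
      intro h0
      apply hτ
      rw [e₂, h0, mul_zero]
    show P τ = K₁ (Function.Periodic.qParam (N : ℝ) (τ : ℂ))
        * Function.Periodic.qParam (N : ℝ) (τ : ℂ) ^ m₂
        / (K₂ (Function.Periodic.qParam (N : ℝ) (τ : ℂ))
          * Function.Periodic.qParam (N : ℝ) (τ : ℂ) ^ m₁) * Q τ
    rw [e₁, e₂]
    field_simp

end Cusp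

/-! ## The assembly -/

section Assembly

variable (N : ℕ) [NeZero N] (n : ℕ)

/-- **The target (relation form of TH4).** There is a nonzero function `u₀` on `X₀(N)` over `ℚ̄`
all of whose orders are divisible by `n`, whose analytic realisation has a meromorphic `n`-th root
on the upper half plane with multiplier `χ`. -/
def SurjAt (χ : ↥(Gamma0 N) →* ℂˣ) : Prop :=
  ∃ u₀ : FN N, u₀ ≠ 0 ∧ (∀ v : AlgebraicCurve.Place Kbar (FN N), (n : ℤ) ∣ v.ord u₀) ∧
    ∃ h : Mer, h ^ n = evC N (baseChangeC N u₀) ∧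
      ∀ γ : ↥(Gamma0 N), pull (γ : SL(2, ℤ)) h = algebraMap ℂ Mer (χ γ : ℂ) * h

/-- (RATIO) The field of ratios of `q`-expansions of modular forms of level `N` lies in the
complex function field (`helper5517` (B)). -/
def RatioInFC : Prop :=
  ∀ x ∈ ratioField N, x ∈ laurentBaseChange ℂ (modularFunctionFieldFull N)

/-- (DESC) Descent from `ℂ` to `ℚ̄` of a function with an analytic `n`-th root: if `x` in the
complex function field has the realisation `W ^ n` for a holomorphic `W` with multiplier `χ`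
(trivial on elliptic and parabolic elements) of moderate growth at the cusps, then
`x = c * u₀ * t ^ n` with `u₀` defined over `ℚ̄` (CPLACE + FINC + DESC, or any other route). -/
def DescC : Prop :=
  ∀ (χ : ↥(Gamma0 N) →* ℂˣ), (∀ γ, χ γ ^ n = 1) →
    (∀ γ : ↥(Gamma0 N),
      ((γ : SL(2, ℤ)) : Matrix (Fin 2) (Fin 2) ℤ).trace ^ 2 = 4 → χ γ = 1) →
    (∀ γ : ↥(Gamma0 N), IsOfFinOrder (γ : SL(2, ℤ)) → χ γ = 1) →
    ∀ W : Hol, (∀ γ : ↥(Gamma0 N), pullHol (γ : SL(2, ℤ)) W = (χ γ : ℂ) • W) →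
      (∀ g : SL(2, ℤ), ∃ (m : ℕ) (C A : ℝ), ∀ τ : ℍ, A ≤ τ.im →
        ‖(W : ℍ → ℂ) (g • τ)‖ ≤ C * Real.exp (2 * Real.pi * m * τ.im)) →
      ∀ x : FC N, x ≠ 0 → evC N x = algebraMap Hol Mer W ^ n →
        ∃ (u₀ : FN N) (c : ℂ) (t : FC N), u₀ ≠ 0 ∧ c ≠ 0 ∧ t ≠ 0 ∧
          x = algebraMap ℂ (FC N) c * baseChangeC N u₀ * t ^ n

/-- (ANDIV) Divisibility of the orders of a function with an analytic `n`-th root
(`helper6324.dvd_ord_of_analytic_root`, with `RatioInv` and `RatioCuspMer` unfolded). -/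
def AnDiv : Prop :=
  ∀ (a b : helper3176.AN N), a ≠ 0 → b ≠ 0 → ∀ (A B : ℍ → ℂ), MDiff A → MDiff B → B ≠ 0 →
    (∀ τ : ℍ, A τ ^ n * helper6180.ev N b τ = B τ ^ n * helper6180.ev N a τ) →
    (∀ γ ∈ Gamma0 N, IsOfFinOrder γ → ∀ τ : ℍ, A (γ • τ) * B τ = A τ * B (γ • τ)) →
    (∀ (g : SL(2, ℤ)) (k : ℤ), g⁻¹ * ModularGroup.T ^ k * g ∈ Gamma0 N →
      ∀ τ : ℍ, A ((g⁻¹ * ModularGroup.T ^ k * g) • τ) * B τ
        = A τ * B ((g⁻¹ * ModularGroup.T ^ k * g) • τ)) →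
    (∀ g : SL(2, ℤ), ∃ H : ℂ → ℂ, MeromorphicAt H 0 ∧
      ∀ᶠ τ : ℍ in atImInfty,
        A (g • τ) = H (Function.Periodic.qParam (N : ℝ) (τ : ℂ)) * B (g • τ)) →
    ∀ v : AlgebraicCurve.Place Kbar (FN N), (n : ℤ) ∣ v.ord ((a : FN N) / (b : FN N))

variable {N n}

/-- **Tail of the assembly** (common to all descent routes): from a function `u₀` over `ℚ̄`, a
holomorphic `W` with multiplier `χ` and moderate growth at the cusps, and a relation
`W ^ n = c' ^ n * ev u₀ * ev t ^ n` with `t` in the complex function field, we get `SurjAt`. -/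
theorem surjAt_of_root (hAD : AnDiv N n) {χ : ↥(Gamma0 N) →* ℂˣ}
    (hχtr : ∀ γ : ↥(Gamma0 N),
      ((γ : SL(2, ℤ)) : Matrix (Fin 2) (Fin 2) ℤ).trace ^ 2 = 4 → χ γ = 1)
    (hχfin : ∀ γ : ↥(Gamma0 N), IsOfFinOrder (γ : SL(2, ℤ)) → χ γ = 1)
    (W : Hol) (hW : ∀ γ : ↥(Gamma0 N), pullHol (γ : SL(2, ℤ)) W = (χ γ : ℂ) • W)
    (hgr : ∀ g : SL(2, ℤ), ∃ (m : ℕ) (C A : ℝ), ∀ τ : ℍ, A ≤ τ.im →
      ‖(W : ℍ → ℂ) (g • τ)‖ ≤ C * Real.exp (2 * Real.pi * m * τ.im))
    (u₀ : FN N) (hu₀ : u₀ ≠ 0) (c' : ℂ) (hc' : c' ≠ 0) (t : FC N) (ht : t ≠ 0)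
    (hrel : algebraMap Hol Mer W ^ n
      = algebraMap ℂ Mer (c' ^ n) * evC N (baseChangeC N u₀) * evC N t ^ n) :
    SurjAt N n χ := by
  classical
  -- representations as fractions
  obtain ⟨a₀, b₀, hb₀, hu⟩ := helper3176.exists_div_AN N u₀
  obtain ⟨at', bt, hbt, htt⟩ := exists_div_AC N t
  have ha₀ : a₀ ≠ 0 := by
    rintro rfl
    apply hu₀
    rw [hu]
    simp
  have hb₀' : b₀ ≠ 0 := by
    rintro rfl
    exact hb₀ rfl
  have hat : at' ≠ 0 := by
    rintro rfl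
    apply ht
    rw [htt]
    simp
  have hbt' : bt ≠ 0 := by
    rintro rfl
    exact hbt rfl
  -- the multiplier, pointwise
  have hWpt : ∀ (γ : ↥(Gamma0 N)) (τ : ℍ),
      (W : ℍ → ℂ) ((γ : SL(2, ℤ)) • τ) = (χ γ : ℂ) * (W : ℍ → ℂ) τ := by
    intro γ τ
    have h1 := congrArg (fun f : Hol => (f : ℍ → ℂ) τ) (hW γ)
    exact h1
  have hWinv : ∀ γ ∈ Gamma0 N, ((γ : SL(2, ℤ)) : Matrix (Fin 2) (Fin 2) ℤ).trace ^ 2 = 4 →
      ∀ τ : ℍ, (W : ℍ → ℂ) (γ • τ) = (W : ℍ → ℂ) τ := by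
    intro γ hγ htr τ
    have h1 := hWpt ⟨γ, hγ⟩ τ
    rw [hχtr ⟨γ, hγ⟩ htr, Units.val_one, one_mul] at h1
    exact h1
  -- Mer-level elements
  have hinj : Function.Injective (algebraMap Hol Mer) := IsFractionRing.injective Hol Mer
  have hEb : algebraMap Hol Mer (evHolBar N b₀) ≠ 0 := by
    rw [← evC_baseChangeC]
    exact evC_ne_zero N (fun h => hb₀ (baseChangeC_injective N (by rw [h, map_zero])))
  have hTb : algebraMap Hol Mer (evHol N bt) ≠ 0 := by
    rw [← evC_coe]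
    exact evC_ne_zero N hbt
  have hTa : algebraMap Hol Mer (evHol N at') ≠ 0 := by
    rw [← evC_coe]
    exact evC_ne_zero N (fun h => hat (Subtype.ext h))
  have hevu : evC N (baseChangeC N u₀)
      = algebraMap Hol Mer (evHolBar N a₀) / algebraMap Hol Mer (evHolBar N b₀) := by
    rw [hu, map_div₀, map_div₀, evC_baseChangeC, evC_baseChangeC]
  have hevt : evC N t = algebraMap Hol Mer (evHol N at') / algebraMap Hol Mer (evHol N bt) := by
    rw [htt, evC_div]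
  have hc'M : algebraMap ℂ Mer c' ≠ 0 := by
    rw [Ne, map_eq_zero]
    exact hc'
  have hevt0 : evC N t ≠ 0 := evC_ne_zero N ht
  -- the Hol-level relation
  have hHol : W ^ n * evHolBar N b₀ * evHol N bt ^ n
      = (c' ^ n) • (evHolBar N a₀ * evHol N at' ^ n) := by
    apply hinj
    have e1 : algebraMap Hol Mer ((c' ^ n) • (evHolBar N a₀ * evHol N at' ^ n))
        = algebraMap ℂ Mer (c' ^ n)
          * (algebraMap Hol Mer (evHolBar N a₀) * algebraMap Hol Mer (evHol N at') ^ n) := by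
      rw [Algebra.smul_def, map_mul, ← IsScalarTower.algebraMap_apply, map_mul,
        map_pow (algebraMap Hol Mer)]
    rw [e1, map_mul, map_mul, map_pow, map_pow, hrel, hevu, hevt, div_pow]
    have hTbn : algebraMap Hol Mer (evHol N bt) ^ n ≠ 0 := pow_ne_zero n hTb
    field_simp
  have hpt : ∀ τ : ℍ, (W : ℍ → ℂ) τ ^ n * helper6180.ev N b₀ τ * evFun N bt τ ^ n
      = c' ^ n * (helper6180.ev N a₀ τ * evFun N at' τ ^ n) := by
    intro τ
    have h1 := congrArg (fun f : Hol => (f : ℍ → ℂ) τ) hHol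
    exact h1
  refine ⟨u₀, hu₀, ?_, algebraMap Hol Mer W / (algebraMap ℂ Mer c' * evC N t), ?_, ?_⟩
  · -- divisibility of the orders (ANDIV)
    intro v
    rw [hu]
    refine hAD a₀ b₀ ha₀ hb₀' (fun τ => (W : ℍ → ℂ) τ * evFun N bt τ)
      (fun τ => c' * evFun N at' τ) (W.2.mul (mdiff_evFun N bt))
      (mdifferentiable_const.mul (mdiff_evFun N at')) ?_ ?_ ?_ ?_ ?_ v
    · -- `B ≠ 0`
      intro hB
      apply hat
      apply evFun_injective N
      rw [evFun_zero]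
      funext τ
      have h1 := congrFun hB τ
      exact (mul_eq_zero.mp h1).resolve_left hc'
    · intro τ
      have h1 := hpt τ
      simp only [mul_pow]
      linear_combination h1
    · intro γ hγ hfin τ
      have h1 := hWpt ⟨γ, hγ⟩ τ
      rw [hχfin ⟨γ, hγ⟩ hfin, Units.val_one, one_mul] at h1
      rw [h1, evFun_smul_of_mem_Gamma0 N bt γ hγ τ, evFun_smul_of_mem_Gamma0 N at' γ hγ τ]
    · intro g k hγ τ
      have htr : (((g⁻¹ * ModularGroup.T ^ k * g : SL(2, ℤ)) : Matrix (Fin 2) (Fin 2) ℤ)).trace ^ 2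
          = 4 := by
        have := trace_sq_conj_T_zpow g⁻¹ k
        rwa [inv_inv] at this
      have h1 := hWinv _ hγ htr τ
      rw [h1, evFun_smul_of_mem_Gamma0 N bt _ hγ τ, evFun_smul_of_mem_Gamma0 N at' _ hγ τ]
    · intro g
      have hperE : ∀ a : AC N, helper315.HPeriodic (N : ℝ) (fun τ => evFun N a (g • τ)) :=
        fun a => hPeriodic_comp_smul N g (fun γ hγ _ τ => evFun_smul_of_mem_Gamma0 N a γ hγ τ)
      have hcmE : ∀ a : AC N, helper315.IsCuspMer (N : ℝ) (fun τ => evFun N a (g • τ)) := by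
        intro a
        obtain ⟨m, C, hm⟩ := (evFun_smul_mdiff_growth N a g).2
        exact isCuspMer_of_growth N (evFun_smul_mdiff_growth N a g).1 (hperE a) ⟨m, C, 1, hm⟩
      have hcmW : helper315.IsCuspMer (N : ℝ) (fun τ => (W : ℍ → ℂ) (g • τ)) :=
        isCuspMer_of_growth N (mdifferentiable_comp_smul g W.2)
          (hPeriodic_comp_smul N g hWinv) (hgr g)
      have hP : helper315.IsCuspMer (N : ℝ)
          (fun τ => (W : ℍ → ℂ) (g • τ) * evFun N bt (g • τ)) := hcmW.mul (hcmE bt)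
      have hQ : helper315.IsCuspMer (N : ℝ) (fun τ => c' * evFun N at' (g • τ)) :=
        (helper315.IsCuspHol.const _ c').isCuspMer.mul (hcmE at')
      refine exists_ratio_merAt N hP hQ ?_
      intro hQ0
      apply hat
      apply evFun_injective N
      rw [evFun_zero]
      funext τ
      have h1 := congrFun hQ0 (g⁻¹ • τ)
      simp only [smul_inv_smul, Pi.zero_apply] at h1
      exact (mul_eq_zero.mp h1).resolve_left hc'
  · -- the root
    rw [div_pow, mul_pow, hrel, map_pow]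
    field_simp
  · -- the multiplier
    intro γ
    have h1 : pull (γ : SL(2, ℤ)) (algebraMap Hol Mer W)
        = algebraMap ℂ Mer (χ γ : ℂ) * algebraMap Hol Mer W := by
      rw [pull_algebraMap, hW γ, Algebra.smul_def, map_mul, ← IsScalarTower.algebraMap_apply]
    rw [map_div₀, map_mul, h1, pull_evC N _ γ.2, AlgEquiv.commutes, mul_div_assoc]

local notation "ιL" => HahnSeries.ofPowerSeries ℤ ℂ

/-- The analytic realisation of the ratio `x_χ` of `helper3718.exists_twisted_ratio` is the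
`n`-th power of the twisted root. -/
theorem evC_eq_rootMer_pow {χ : ↥(Gamma0 N) →* ℂˣ} (hχ : ∀ γ, χ γ ^ n = 1)
    (hunit : ∀ γ, ‖(χ γ : ℂ)‖ = 1)
    (hpar : ∀ γ : ↥(Gamma0 N), (γ : SL(2, ℤ)).1 1 0 = 0 → χ γ = 1) (x : FC N)
    (hx : (x : LaurentSeries ℂ) * ιL (qExpansion 1 (helper3718.discPowForm N n))
      = ιL (qExpansion 1 (helper3718.twistedPowForm N χ n hχ hunit hpar))) :
    evC N x = algebraMap Hol Mer (rootHol N χ hunit) ^ n := by
  obtain ⟨a, b, hb, hab⟩ := exists_div_AC N x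
  have hbL : ((b : FC N) : LaurentSeries ℂ) ≠ 0 := fun h => hb (Subtype.ext h)
  have hcoe : ((a : FC N) : LaurentSeries ℂ)
      = (x : LaurentSeries ℂ) * ((b : FC N) : LaurentSeries ℂ) := by
    have h1 : (x : LaurentSeries ℂ)
        = ((a : FC N) : LaurentSeries ℂ) / ((b : FC N) : LaurentSeries ℂ) := by
      rw [hab]; rfl
    rw [h1, div_mul_cancel₀ _ hbL]
  have key : ∀ τ : ℍ, evFun N a τ * helper3718.discPowForm N n τ
      = helper3718.twistedPowForm N χ n hχ hunit hpar τ * evFun N b τ :=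
    evFun_mul_eq_of_ratio N _ _ a b (by rw [hcoe, mul_right_comm, hx])
  have hHol : evHol N a = rootHol N χ hunit ^ n * evHol N b := by
    refine Hol.ext fun τ => ?_
    show evFun N a τ = helper3718.twistedRoot N χ τ ^ n * evFun N b τ
    have h1 := key τ
    have hD : helper3718.discPowForm N n τ ≠ 0 := by
      rw [helper3718.discPowForm_apply]
      exact pow_ne_zero n (ModularForm.discriminant_ne_zero τ)
    rw [helper3718.twistedRoot_pow_eq n hχ hunit hpar τ, div_mul_eq_mul_div, ← h1,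
      mul_div_assoc, div_self hD, mul_one]
  have hbM : algebraMap Hol Mer (evHol N b) ≠ 0 := by
    rw [← evC_coe]
    exact evC_ne_zero N hb
  rw [hab, evC_div, hHol, map_mul, map_pow, mul_div_assoc, div_self hbM, mul_one]

/-- **TH4, assembled.** From (RATIO), (DESC) and (ANDIV): every character `χ` of `Γ₀(N)` with
`χ ^ n = 1` which is trivial on the elements of trace `±2` and on the elements of finite order is
the multiplier of an analytic `n`-th root of a function `u₀` over `ℚ̄` with `n`-divisible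
divisor. -/
theorem surjAt_of (hRC : RatioInFC N) (hDC : DescC N n) (hAD : AnDiv N n) (hn : 0 < n)
    (χ : ↥(Gamma0 N) →* ℂˣ) (hχn : ∀ γ, χ γ ^ n = 1)
    (hχtr : ∀ γ : ↥(Gamma0 N),
      ((γ : SL(2, ℤ)) : Matrix (Fin 2) (Fin 2) ℤ).trace ^ 2 = 4 → χ γ = 1)
    (hχfin : ∀ γ : ↥(Gamma0 N), IsOfFinOrder (γ : SL(2, ℤ)) → χ γ = 1) :
    SurjAt N n χ := by
  have hunit : ∀ γ, ‖(χ γ : ℂ)‖ = 1 := norm_chi_eq_one hn hχn
  have hpar : ∀ γ : ↥(Gamma0 N), (γ : SL(2, ℤ)).1 1 0 = 0 → χ γ = 1 :=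
    chi_eq_one_of_upper hχtr
  obtain ⟨x, hxmem, hx0, hxrel⟩ := helper3718.exists_twisted_ratio N χ n hχn hunit hpar
  set xC : FC N := ⟨x, hRC x hxmem⟩ with hxC
  have hxC0 : xC ≠ 0 := fun h => hx0 (congrArg Subtype.val h)
  have hev : evC N xC = algebraMap Hol Mer (rootHol N χ hunit) ^ n :=
    evC_eq_rootMer_pow hχn hunit hpar xC hxrel
  have hgr : ∀ g : SL(2, ℤ), ∃ (m : ℕ) (C A : ℝ), ∀ τ : ℍ, A ≤ τ.im →
      ‖(rootHol N χ hunit : ℍ → ℂ) (g • τ)‖ ≤ C * Real.exp (2 * Real.pi * m * τ.im) := by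
    intro g
    obtain ⟨C, A, h⟩ := helper3718.twistedRoot_growth (χ := χ) hunit g
    refine ⟨1, C, A, fun τ hτ => ?_⟩
    have h1 := h τ hτ
    rw [Nat.cast_one, mul_one]
    exact h1
  obtain ⟨u₀, c, t, hu₀, hc, ht, hx⟩ :=
    hDC χ hχn hχtr hχfin (rootHol N χ hunit) (pullHol_rootHol hunit hpar) hgr xC hxC0 hev
  obtain ⟨c', hc'⟩ := IsAlgClosed.exists_pow_nat_eq c hn
  have hc'0 : c' ≠ 0 := by
    rintro rfl
    rw [zero_pow hn.ne'] at hc'
    exact hc hc'.symm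
  refine surjAt_of_root hAD hχtr hχfin (rootHol N χ hunit) (pullHol_rootHol hunit hpar) hgr
    u₀ hu₀ c' hc'0 t ht ?_
  rw [← hev, hx, map_mul, map_mul, map_pow, AlgHom.commutes, hc']

/-- **TH4 for integral parabolic homomorphisms.** For `lam : Γ₀(N) → ℤ` parabolic and `ζ` an
`n`-th root of unity, the character `ζ ^ lam` is the multiplier of an analytic `n`-th root of a
function over `ℚ̄` with `n`-divisible divisor. -/
theorem surjAt_chiOf (hRC : RatioInFC N) (hDC : DescC N n) (hAD : AnDiv N n) (hn : 0 < n)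
    (ζ : ℂˣ) (hζ : ζ ^ n = 1) (lam : Additive ↥(Gamma0 N) →+ ℤ)
    (hlam : lam ∈ Period.parabolicHoms ℤ (Gamma0 N) ℤ) :
    SurjAt N n (chiOf N ζ lam) :=
  surjAt_of hRC hDC hAD hn (chiOf N ζ lam) (chiOf_pow N hζ lam)
    (fun γ hγ => chiOf_eq_one_of_trace N ζ hlam γ hγ)
    (fun γ hγ => chiOf_eq_one_of_finOrder N ζ lam γ hγ)

end Assembly

end Fermat.Agent.S29.helper2122
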