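import Mathlib
import Fermat.Agent.S29.helper2122_SurjAsm
import Fermat.Agent.S29.helper36_FunctionFieldL
import Fermat.Agent.Lib.helper1219_RatioField
import Fermat.Agent.Lib.helper1219_Bridge
import Fermat.Agent.S20.helper34_Index

/-!
# S29 / TH4, open Prop (1) of the assembly `helper2122_SurjAsm`: `RatioInFC N`

Every ratio of `q`-expansions of two modular forms of the same weight `12 M` on `Γ₀(N)`
(`Lib.helper1219.ratioField N ⊆ ℂ((q))`) lies in the complex function field
`laurentBaseChange ℂ (modularFunctionFieldFull N) = ℂ(j(q^d) : d ∣ N)`.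

Proof (no analysis, all inputs landed):
* the function field `F_ℂ` is contained in `ratioField N` (generators `j(q^d)`);
* `[F_ℂ : ℂ(j)] = ψ(N)` (S28 degree theorem over `ℂ`, `helper36.relrank_laurentBaseChange`);
* every element of `ratioField N` is a root of a nonzero polynomial of degree
  `≤ [SL(2,ℤ) : Γ₀(N)] = ψ(N)` over `ℂ[j]` (`helper1219.ratio_relation`, S20 index formula);
* primitive element theorem in characteristic zero (`mem_of_relrank_of_degree_le`).

Main results: `ratioInFC N : helper2122.RatioInFC N`, `ratioField_eq N`.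
-/

set_option autoImplicit false
set_option linter.style.haveILetI false

open ModularCurve IntermediateField Polynomial

noncomputable section

namespace Fermat.Agent.S29.helper288

/-- **Pure field theory.** `K ≤ F` intermediate fields of `E / k` (characteristic zero) with
`[F : K] = n` finite, `R ⊇ F` a subfield of `E` all of whose elements are roots of nonzero
polynomials of degree `≤ n` over `K`.  Then `R ⊆ F`. -/
theorem mem_of_relrank_of_degree_le {k E : Type*} [Field k] [Field E] [Algebra k E] [CharZero k]
    (K F : IntermediateField k E) (hKF : K ≤ F) (n : ℕ) (hn : K.relrank F = (n : Cardinal))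
    (R : Subfield E) (hFR : ∀ y ∈ F, y ∈ R)
    (hdeg : ∀ y ∈ R, ∃ P : Polynomial K, P ≠ 0 ∧ P.natDegree ≤ n ∧ Polynomial.aeval y P = 0)
    {x : E} (hx : x ∈ R) : x ∈ F := by
  classical
  rw [IntermediateField.relrank_eq_rank_of_le hKF] at hn
  set Fs : IntermediateField K E := IntermediateField.extendScalars hKF with hFs
  haveI : Module.Finite K Fs := Module.finite_of_rank_eq_nat hn
  have hfr : Module.finrank K Fs = n := Module.finrank_eq_of_rank_eq hn
  haveI : CharZero K := charZero_of_injective_algebraMap (algebraMap k K).injective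
  -- `R` as an intermediate field over `K`
  let R' : IntermediateField K E :=
    { R with algebraMap_mem' := fun a => hFR _ (hKF a.2) }
  have hR' : ∀ y : E, y ∈ R' ↔ y ∈ R := fun y => Iff.rfl
  have hxint : IsIntegral K x := by
    obtain ⟨P, hP0, -, hPx⟩ := hdeg x hx
    exact isAlgebraic_iff_isIntegral.mp ⟨P, hP0, hPx⟩
  haveI : FiniteDimensional K K⟮x⟯ := IntermediateField.adjoin.finiteDimensional hxint
  set L : IntermediateField K E := Fs ⊔ K⟮x⟯ with hL
  haveI : FiniteDimensional K L := IntermediateField.finiteDimensional_sup Fs K⟮x⟯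
  have hLR : L ≤ R' := by
    refine sup_le (fun y hy => ?_) ?_
    · exact (hR' y).mpr (hFR y ((IntermediateField.mem_extendScalars hKF).mp hy))
    · rw [IntermediateField.adjoin_simple_le_iff]
      exact (hR' x).mpr hx
  obtain ⟨α, hα⟩ := Field.exists_primitive_element K L
  have h1 : (minpoly K α).natDegree = Module.finrank K L :=
    (Field.primitive_element_iff_minpoly_natDegree_eq K α).mp hα
  obtain ⟨P, hP0, hPn, hPα⟩ := hdeg (α : E) ((hR' _).mp (hLR α.2))
  have hPα' : Polynomial.aeval α P = 0 :=
    (Polynomial.aeval_algebraMap_eq_zero_iff E α P).mp hPα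
  have h2 : (minpoly K α).natDegree ≤ n :=
    (Polynomial.natDegree_le_natDegree (minpoly.degree_le_of_ne_zero K α hP0 hPα')).trans hPn
  have hle : Fs ≤ L := le_sup_left
  have heq : Fs = L := IntermediateField.eq_of_le_of_finrank_le hle (by omega)
  have hxL : x ∈ L := (le_sup_right : K⟮x⟯ ≤ L) (IntermediateField.mem_adjoin_simple_self K x)
  rw [← heq] at hxL
  exact (IntermediateField.mem_extendScalars hKF).mp hxL

open Fermat.Agent.Lib.helper1219 in
/-- the complex function field of `X₀(N)` is contained in the field of ratios. -/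
theorem fullC_le_ratioField (N : ℕ) :
    ∀ y ∈ laurentBaseChange ℂ (modularFunctionFieldFull N), y ∈ ratioField N := by
  let R' : IntermediateField ℂ (LaurentSeries ℂ) :=
    { ratioField N with
      algebraMap_mem' := fun c => by
        have h : algebraMap ℂ (LaurentSeries ℂ) c = HahnSeries.C c := by
          rw [algebraMap_laurentSeries_eq_single]; rfl
        show algebraMap ℂ (LaurentSeries ℂ) c ∈ ratioField N
        rw [h]
        exact IsRatio.const c }
  have hle : laurentBaseChange ℂ (modularFunctionFieldFull N) ≤ R' := by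
    rw [Fermat.Agent.S29.helper36.laurentBaseChange_full_eq_fullC, modularFunctionFieldFullC,
      IntermediateField.adjoin_le_iff]
    rintro _ ⟨d, hd, hdN, rfl⟩
    exact qExpand_j_mem_ratioField N d hdN (jqModC ℂ) jqModC_mul_disc
  exact fun y hy => hle hy

open Fermat.Agent.Lib.helper1219 in
/-- every element of the field of ratios is a root of a nonzero polynomial of degree `≤ ψ(N)`
over `ℂ(j)`. -/
theorem exists_poly_of_mem_ratioField (N : ℕ) [NeZero N] {y : LaurentSeries ℂ}
    (hy : y ∈ ratioField N) :
    ∃ P : Polynomial (ℂ⟮jqModC ℂ⟯), P ≠ 0 ∧ P.natDegree ≤ dedekindPsi N ∧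
      Polynomial.aeval y P = 0 := by
  obtain ⟨P, hP0, hPdeg, hPy⟩ := ratio_relation N hy (jqModC ℂ) jqModC_mul_disc
  rw [Fermat.Agent.S20.helper34.card_quotient_Gamma0 N] at hPdeg
  -- the coefficient map `ℂ[X] → ℂ(j)`
  let φ : Polynomial ℂ →+* ℂ⟮jqModC ℂ⟯ :=
    ((Polynomial.aeval (R := ℂ) (jqModC ℂ)).toRingHom).codRestrict (ℂ⟮jqModC ℂ⟯).toSubfield
      (fun p => (IntermediateField.algebra_adjoin_le_adjoin ℂ _)
        (Algebra.adjoin_singleton_eq_range_aeval ℂ (jqModC ℂ) ▸ ⟨p, rfl⟩))
  have hφ : Function.Injective φ := by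
    intro p q hpq
    apply Fermat.Agent.S28.helper3292.aeval_jqModC_injective ℂ
    exact congrArg Subtype.val hpq
  have hcomp : (algebraMap (ℂ⟮jqModC ℂ⟯) (LaurentSeries ℂ)).comp φ
      = (Polynomial.aeval (R := ℂ) (jqModC ℂ)).toRingHom := by
    ext p <;> rfl
  refine ⟨P.map φ, ?_, (Polynomial.natDegree_map_le).trans hPdeg, ?_⟩
  · exact (Polynomial.map_ne_zero_iff hφ).mpr hP0
  · rw [Polynomial.aeval_def, Polynomial.eval₂_map, hcomp]
    exact hPy

/-- **(RATIO)** `helper2122.RatioInFC N`: the field of ratios of `q`-expansions of modular forms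
of level `Γ₀(N)` lies in the complex function field. -/
theorem ratioInFC (N : ℕ) [NeZero N] : Fermat.Agent.S29.helper2122.RatioInFC N := by
  intro x hx
  refine mem_of_relrank_of_degree_le (ℂ⟮jqModC ℂ⟯)
    (laurentBaseChange ℂ (modularFunctionFieldFull N))
    ((IntermediateField.adjoin_simple_le_iff).mpr
      (Fermat.Agent.S29.helper36.jqModC_mem_laurentBaseChange ℂ N))
    (dedekindPsi N) (Fermat.Agent.S29.helper36.relrank_laurentBaseChange ℂ N)
    (Fermat.Agent.Lib.helper1219.ratioField N) (fullC_le_ratioField N)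
    (fun y hy => exists_poly_of_mem_ratioField N hy) hx

/-- the field of ratios IS the complex function field. -/
theorem mem_ratioField_iff (N : ℕ) [NeZero N] (x : LaurentSeries ℂ) :
    x ∈ Fermat.Agent.Lib.helper1219.ratioField N ↔
      x ∈ laurentBaseChange ℂ (modularFunctionFieldFull N) :=
  ⟨fun hx => ratioInFC N x hx, fun hx => fullC_le_ratioField N x hx⟩

end Fermat.Agent.S29.helper288
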