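import Fermat.Agent.S29.helper580_CPlace
import Fermat.Agent.S29.helper265_ValPlace
import Fermat.Agent.S24.helper384_Count
import Fermat.Agent.S24.helper204_Places
import Fermat.Agent.S24.helper102_DegreeAlg
import Fermat.Agent.S24.helper2064_JOrder
import Fermat.Agent.S24.helper454_JSurj
import Fermat.Prelude.Def_ModularCurve_ArithmeticGalois

/-!
# S29 / CPLACE (helper580), part (C1): finite places of the complex function field are points

For `z : ℍ`, `ordC N z f` is the order at `z` of the meromorphic function `evC N f`.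
It is a positive multiple `e · v.ord` of the order function of a place `v` of `FC N / ℂ`.

* `finiteDimensional_jC` : `FC N` is finite over `ℂ(j)`;
* `exists_point_of_place` (**completeness**): every place `v` of `FC N` with `0 ≤ v.ord j` is
  the place of a point `z` of the upper half plane;
* `exists_point_of_smul` / `dvd_ordC_smul` (**stability**): a semilinear automorphism of `FC N`
  fixing `j` permutes the point valuations, so the set of functions all of whose analytic
  orders on `ℍ` are divisible by `p` is stable under it.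
-/

set_option autoImplicit false

open ModularCurve CongruenceSubgroup UpperHalfPlane IntermediateField AlgebraicCurve Polynomial
open scoped MatrixGroups Manifold

noncomputable section

namespace Fermat.Agent.S29.helper580

open Fermat.Agent.S24 Fermat.Agent.S24.helper24 Fermat.Agent.S24.helper580
open Fermat.Agent.S29.helper265 (IsIntOrder)

/-! ## Abstract lemmas on integer order functions -/

section Abstract

variable {K F : Type*} [Field K] [Field F] [Algebra K F]

/-- The order function of a place is an integer order function. -/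
theorem isIntOrder_ord (v : Place K F) : IsIntOrder K v.ord :=
  ⟨fun _ _ hf hg => v.ord_mul hf hg, fun _ _ _ _ hfg => helper384.ord_add_ge v hfg,
    fun a _ => helper384.ord_algebraMap v a⟩

theorem isIntOrder_map_add_of_lt {w : F → ℤ} (hw : IsIntOrder K w) {a b : F} (ha : a ≠ 0)
    (hb : b ≠ 0) (h : w a < w b) : w (a + b) = w a := by
  have hab : a + b ≠ 0 := by
    intro h0
    have hb' : b = -a := by rw [eq_neg_iff_add_eq_zero, add_comm]; exact h0
    rw [hb', hw.map_neg ha] at h
    exact lt_irrefl _ h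
  apply le_antisymm
  · by_contra hlt
    push Not at hlt
    have h1 := hw.map_add hab (neg_ne_zero.mpr hb) (by rw [add_neg_cancel_right]; exact ha)
    rw [add_neg_cancel_right, hw.map_neg hb] at h1
    have h2 : w a < min (w (a + b)) (w b) := lt_min hlt h
    exact absurd h1 (not_le.mpr h2)
  · have h1 := hw.map_add ha hb hab
    rwa [min_eq_left h.le] at h1

theorem isIntOrder_aeval_mem {w : F → ℤ} (hw : IsIntOrder K w) {t : F}
    (ht : t ∈ hw.valuationSubring) (p : K[X]) : aeval t p ∈ hw.valuationSubring := by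
  rw [aeval_eq_sum_range]
  refine sum_mem fun i _ => ?_
  rw [Algebra.smul_def]
  exact mul_mem (hw.algebraMap_mem_valuationSubring _) (pow_mem ht i)

/-- A finite sum of elements that are zero or of order `> M` is zero or of order `> M`. -/
theorem isIntOrder_sum_gt {w : F → ℤ} (hw : IsIntOrder K w) (M : ℤ) {ι : Type*} (s : Finset ι)
    (f : ι → F) (h : ∀ i ∈ s, f i = 0 ∨ M < w (f i)) :
    (∑ i ∈ s, f i) = 0 ∨ M < w (∑ i ∈ s, f i) := by
  classical
  induction s using Finset.induction_on with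
  | empty => left; simp
  | insert a s ha ih =>
    rw [Finset.sum_insert ha]
    have ih' := ih fun i hi => h i (Finset.mem_insert_of_mem hi)
    rcases eq_or_ne (f a) 0 with hfa | hfa
    · rw [hfa, zero_add]; exact ih'
    · have h0 : M < w (f a) := (h a (Finset.mem_insert_self a s)).resolve_left hfa
      rcases eq_or_ne (∑ i ∈ s, f i) 0 with hs | hs
      · rw [hs, add_zero]; right; exact h0
      · have h1 : M < w (∑ i ∈ s, f i) := ih'.resolve_left hs
        by_cases hz : f a + ∑ i ∈ s, f i = 0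
        · left; exact hz
        · right; exact lt_of_lt_of_le (lt_min h0 h1) (hw.map_add hfa hs hz)

/-- For a polynomial `p` with `p(t) ≠ 0` there is `k` such that `w (p(t)) = k * w t` for every
integer order function `w` with `0 < w t` (`k` is the multiplicity of the root `0` of `p`). -/
theorem exists_mult_aeval (t : F) (p : K[X]) (hp : aeval t p ≠ 0) :
    ∃ k : ℕ, ∀ w : F → ℤ, IsIntOrder K w → 0 < w t → w (aeval t p) = k * w t := by
  induction' hn : p.natDegree using Nat.strong_induction_on with n ih generalizing p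
  have hp0 : p ≠ 0 := fun h => hp (by rw [h, map_zero])
  have hsplit : aeval t p = aeval t p.divX * t + algebraMap K F (p.coeff 0) := by
    conv_lhs => rw [← Polynomial.divX_mul_X_add p]
    rw [map_add, map_mul, aeval_X, aeval_C]
  by_cases h0 : p.coeff 0 = 0
  · rw [h0, map_zero, add_zero] at hsplit
    have hd : aeval t p.divX ≠ 0 := by
      intro h; apply hp; rw [hsplit, h, zero_mul]
    have ht0 : t ≠ 0 := by
      intro h; apply hp; rw [hsplit, h, mul_zero]
    have hdeg : p.divX.natDegree < n := by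
      rw [← hn, Polynomial.natDegree_divX_eq_natDegree_tsub_one]
      have hpos : 0 < p.natDegree := by
        rw [Nat.pos_iff_ne_zero]
        intro hz
        have hC := Polynomial.eq_C_of_natDegree_eq_zero hz
        rw [h0, map_zero] at hC
        exact hp0 hC
      omega
    obtain ⟨k, hk⟩ := ih _ hdeg p.divX hd rfl
    refine ⟨k + 1, fun w hw hwt => ?_⟩
    rw [hsplit, hw.map_mul hd ht0, hk w hw hwt]
    push_cast
    ring
  · refine ⟨0, fun w hw hwt => ?_⟩
    have ha : algebraMap K F (p.coeff 0) ≠ 0 := (_root_.map_ne_zero _).mpr h0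
    have hwa : w (algebraMap K F (p.coeff 0)) = 0 := hw.map_const h0
    rw [Nat.cast_zero, zero_mul]
    by_cases hb : aeval t p.divX * t = 0
    · rw [hsplit, hb, zero_add, hwa]
    · have hd : aeval t p.divX ≠ 0 := left_ne_zero_of_mul hb
      have ht0 : t ≠ 0 := right_ne_zero_of_mul hb
      have htm : t ∈ hw.valuationSubring := by
        rw [IsIntOrder.mem_valuationSubring_iff]; right; exact hwt.le
      have hdm := isIntOrder_aeval_mem hw htm p.divX
      rw [IsIntOrder.mem_valuationSubring_iff] at hdm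
      have hd0 : 0 ≤ w (aeval t p.divX) := hdm.resolve_left hd
      have hwb : 0 < w (aeval t p.divX * t) := by
        rw [hw.map_mul hd ht0]; omega
      rw [hsplit, add_comm, isIntOrder_map_add_of_lt hw ha hb (by rw [hwa]; exact hwb), hwa]

/-- The order of a quotient `p(t) / q(t)^m` is an integer multiple `k * w t`, with `k`
independent of the order function `w`. -/
theorem exists_mult_ratio (t : F) (p q : K[X]) (hp : aeval t p ≠ 0) (hq : aeval t q ≠ 0)
    (m : ℕ) : ∃ k : ℤ, ∀ w : F → ℤ, IsIntOrder K w → 0 < w t →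
      w (aeval t p / aeval t q ^ m) = k * w t := by
  obtain ⟨kp, hkp⟩ := exists_mult_aeval t p hp
  obtain ⟨kq, hkq⟩ := exists_mult_aeval t q hq
  refine ⟨(kp : ℤ) - m * kq, fun w hw hwt => ?_⟩
  have hqm : aeval t q ^ m ≠ 0 := pow_ne_zero m hq
  have h1 : w (aeval t q ^ m) = m * w (aeval t q) := by
    have := hw.map_zpow hq (m : ℤ)
    rwa [zpow_natCast] at this
  rw [div_eq_mul_inv, hw.map_mul hp (inv_ne_zero hqm), hw.map_inv hqm, h1, hkp w hw hwt,
    hkq w hw hwt]
  ring

/-- Two integer order functions that are positive at `t` have the same sign on `K(t)`. -/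
theorem isIntOrder_sign_transfer {w1 w2 : F → ℤ} (h1 : IsIntOrder K w1) (h2 : IsIntOrder K w2)
    {t : F} (ht1 : 0 < w1 t) (ht2 : 0 < w2 t) (p q : K[X]) (hp : aeval t p ≠ 0)
    (hq : aeval t q ≠ 0) (m : ℕ) :
    (0 ≤ w2 (aeval t p / aeval t q ^ m) → 0 ≤ w1 (aeval t p / aeval t q ^ m)) ∧
      (w2 (aeval t p / aeval t q ^ m) = 0 → w1 (aeval t p / aeval t q ^ m) = 0) := by
  obtain ⟨k, hk⟩ := exists_mult_ratio t p q hp hq m
  rw [hk w1 h1 ht1, hk w2 h2 ht2]
  constructor
  · intro h
    have hk0 : 0 ≤ k := by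
      by_contra hneg
      push Not at hneg
      have := mul_neg_of_neg_of_pos hneg ht2
      omega
    exact mul_nonneg hk0 ht1.le
  · intro h
    rcases mul_eq_zero.mp h with h0 | h0
    · rw [h0, zero_mul]
    · omega

/-- Coefficients of a product of `X - r x` with all `r x` in a subring lie in the subring. -/
theorem coeff_prod_X_sub_C_mem {R : Type*} [CommRing R] (S : Subring R) {ι : Type*}
    (s : Finset ι) (r : ι → R) (hr : ∀ x ∈ s, r x ∈ S) :
    ∀ i : ℕ, (∏ x ∈ s, (X - C (r x))).coeff i ∈ S := by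
  classical
  induction s using Finset.induction_on with
  | empty =>
    intro i
    simp only [Finset.prod_empty, coeff_one]
    split_ifs
    exacts [S.one_mem, S.zero_mem]
  | insert a s ha ih =>
    intro i
    rw [Finset.prod_insert ha, coeff_mul]
    refine S.sum_mem fun y _ => S.mul_mem ?_
      (ih (fun x hx => hr x (Finset.mem_insert_of_mem hx)) _)
    rw [coeff_sub, coeff_X, coeff_C]
    refine S.sub_mem ?_ ?_
    · split_ifs
      exacts [S.one_mem, S.zero_mem]
    · split_ifs
      exacts [hr a (Finset.mem_insert_self a s), S.zero_mem]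

theorem prod_X_sub_C_scaleRoots {R : Type*} [CommRing R] [NoZeroDivisors R] {ι : Type*}
    (s : Finset ι) (r : ι → R) (b : R) :
    (∏ x ∈ s, (X - C (r x))).scaleRoots b = ∏ x ∈ s, (X - C (r x * b)) := by
  classical
  induction s using Finset.induction_on with
  | empty => simp [one_scaleRoots]
  | insert a s ha ih =>
    rw [Finset.prod_insert ha, Finset.prod_insert ha, mul_scaleRoots_of_noZeroDivisors,
      X_sub_C_scaleRoots, ih]

theorem addVal_prod_eq_zero {R : Type*} [CommRing R] (w : AddValuation R (WithTop ℤ))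
    {ι : Type*} (s : Finset ι) (r : ι → R) (h : ∀ x ∈ s, w (r x) = 0) :
    w (∏ x ∈ s, r x) = 0 := by
  classical
  induction s using Finset.induction_on with
  | empty => simp
  | insert a s ha ih =>
    rw [Finset.prod_insert ha, AddValuation.map_mul, h a (Finset.mem_insert_self a s),
      ih fun x hx => h x (Finset.mem_insert_of_mem hx), add_zero]


end Abstract

/-! ## Orders at points -/

variable (N : ℕ)

/-- Evaluation at a point, as a `ℂ`-algebra homomorphism on `Hol`. -/
def evalAt (τ : ℍ) : Hol →ₐ[ℂ] ℂ := (Pi.evalAlgHom ℂ (fun _ : ℍ => ℂ) τ).comp Hol.val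

theorem evalAt_apply (τ : ℍ) (f : Hol) : evalAt τ f = (f : ℍ → ℂ) τ := rfl

theorem evalAt_aeval_JHol (p : ℂ[X]) (τ : ℍ) :
    evalAt τ (aeval JHol p) = p.eval (helper288.jFn τ) := by
  rw [← Polynomial.aeval_algHom_apply, ← Polynomial.coe_aeval_eq_eval]
  rfl

theorem aeval_JHol_apply (p : ℂ[X]) (τ : ℍ) :
    (aeval JHol p : ℍ → ℂ) τ = p.eval (helper288.jFn τ) := evalAt_aeval_JHol p τ

/-- `evC` of a polynomial in `j`. -/
theorem evC_aeval_jC (p : ℂ[X]) :
    evC N (aeval (jC N) p) = algebraMap Hol Mer (aeval JHol p) := by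
  rw [← Polynomial.aeval_algHom_apply, evC_jC, Polynomial.aeval_algebraMap_apply]

theorem evC_jC_sub (c : ℂ) :
    evC N (jC N - algebraMap ℂ (FC N) c) = algebraMap Hol Mer (JHol - algebraMap ℂ Hol c) := by
  rw [map_sub, evC_jC, AlgHom.commutes, map_sub, ← IsScalarTower.algebraMap_apply]

theorem jC_sub_ne_zero (c : ℂ) : jC N - algebraMap ℂ (FC N) c ≠ 0 :=
  helper204.sub_ne_zero_of_transcendental (transcendental_jC N) c

theorem jC_ne_zero : jC N ≠ 0 := by
  have h := jC_sub_ne_zero N 0
  rwa [map_zero, sub_zero] at h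

/-- The order at `z` of the meromorphic function `evC N f` (junk value `0` at `f = 0`). -/
def ordC (z : ℍ) (f : FC N) : ℤ := (ordAt z (evC N f)).untopD 0

theorem coe_ordC (z : ℍ) {f : FC N} (hf : f ≠ 0) :
    ((ordC N z f : ℤ) : WithTop ℤ) = ordAt z (evC N f) := by
  obtain ⟨n, hn⟩ := WithTop.ne_top_iff_exists.mp (ordAt_ne_top z (evC_ne_zero N hf))
  rw [ordC, ← hn]
  rfl

theorem ordC_zero (z : ℍ) : ordC N z 0 = 0 := by
  rw [ordC, map_zero, AddValuation.map_zero]
  rfl

theorem isIntOrder_ordC (z : ℍ) : IsIntOrder ℂ (ordC N z) := by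
  refine ⟨fun f g hf hg => ?_, fun f g hf hg hfg => ?_, fun a ha => ?_⟩
  · have h := coe_ordC N z (mul_ne_zero hf hg)
    rw [map_mul, AddValuation.map_mul, ← coe_ordC N z hf, ← coe_ordC N z hg,
      ← WithTop.coe_add] at h
    exact WithTop.coe_injective h
  · have h1 := (ordAt z).map_add (evC N f) (evC N g)
    rw [← map_add, ← coe_ordC N z hf, ← coe_ordC N z hg, ← coe_ordC N z hfg] at h1
    exact_mod_cast h1
  · rw [ordC, AlgHom.commutes, ordAt_const z ha]
    rfl

theorem ordAt_algebraMap_nonneg (z : ℍ) (f : Hol) : 0 ≤ ordAt z (algebraMap Hol Mer f) := by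
  rw [ordAt_algebraMap_eq_analyticOrderAt]
  cases analyticOrderAt ((f : ℍ → ℂ) ∘ ofComplex) (z : ℂ) with
  | top => exact le_top
  | coe n => exact WithTop.coe_le_coe.mpr (Int.natCast_nonneg n)

/-- The order of `j - j(z)` at a point with `j`-value `c`: `3`, `2` or `1`. -/
def jOrd (c : ℂ) : ℕ := if c = 0 then 3 else if c = 1728 then 2 else 1

theorem jOrd_pos (c : ℂ) : 0 < jOrd c := by
  unfold jOrd
  split_ifs <;> norm_num

theorem ordAt_evC_jC_sub_self (z : ℍ) :
    ordAt z (evC N (jC N - algebraMap ℂ (FC N) (helper288.jFn z)))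
      = ((jOrd (helper288.jFn z) : ℤ) : WithTop ℤ) := by
  rw [evC_jC_sub, ordAt_algebraMap_eq_analyticOrderAt]
  have hfun : (((JHol - algebraMap ℂ Hol (helper288.jFn z) : Hol) : ℍ → ℂ) ∘ ofComplex)
      = fun s : ℂ => helper288.jFn (ofComplex s) - helper288.jFn z := rfl
  rw [hfun]
  obtain ⟨h3, h2, h1⟩ := helper2064.analyticOrderAt_sub_of_eq helper288.jFn (fun τ => rfl) z
  unfold jOrd
  split_ifs with hc0 hc1
  · rw [h3 hc0]; rfl
  · rw [h2 hc1]; rfl
  · rw [h1 hc0 hc1]; rfl

theorem ordC_jC_sub_self (z : ℍ) :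
    ordC N z (jC N - algebraMap ℂ (FC N) (helper288.jFn z)) = jOrd (helper288.jFn z) := by
  rw [ordC, ordAt_evC_jC_sub_self]
  rfl

theorem ordC_jC_sub_of_ne (z : ℍ) {c : ℂ} (hc : helper288.jFn z ≠ c) :
    ordC N z (jC N - algebraMap ℂ (FC N) c) = 0 := by
  rw [ordC, evC_jC_sub, ordAt_algebraMap_eq_analyticOrderAt]
  have h0 : analyticOrderAt (((JHol - algebraMap ℂ Hol c : Hol) : ℍ → ℂ) ∘ ofComplex) (z : ℂ)
      = 0 := by
    rw [(Hol.analyticAt _ z).analyticOrderAt_eq_zero]
    show helper288.jFn (ofComplex (z : ℂ)) - c ≠ 0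
    rw [UpperHalfPlane.ofComplex_apply]
    exact sub_ne_zero.mpr hc
  rw [h0]
  rfl

theorem ordC_jC_nonneg (z : ℍ) : 0 ≤ ordC N z (jC N) := by
  have h := ordAt_algebraMap_nonneg z JHol
  rw [← evC_jC N, ← coe_ordC N z (jC_ne_zero N)] at h
  exact_mod_cast h

/-- The order function at a point is a positive multiple of the order function of a place. -/
theorem exists_pointPlace (z : ℍ) :
    ∃ (v : Place ℂ (FC N)) (e : ℕ), 0 < e ∧
      ∀ f : FC N, f ≠ 0 → ordC N z f = (e : ℤ) * v.ord f :=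
  (isIntOrder_ordC N z).exists_place
    ⟨jC N - algebraMap ℂ (FC N) (helper288.jFn z), jC_sub_ne_zero N _, by
      rw [ordC_jC_sub_self]
      exact_mod_cast (jOrd_pos _).ne'⟩

/-- The place of `FC N` defined by a point of the upper half plane. -/
def pointPlace (z : ℍ) : Place ℂ (FC N) := (exists_pointPlace N z).choose

/-- The ramification index of the uniformisation at a point (the order of its stabiliser in
`Γ₀(N) / ±1`). -/
def pointIndex (z : ℍ) : ℕ := (exists_pointPlace N z).choose_spec.choose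

theorem pointIndex_pos (z : ℍ) : 0 < pointIndex N z :=
  (exists_pointPlace N z).choose_spec.choose_spec.1

theorem ordC_eq (z : ℍ) {f : FC N} (hf : f ≠ 0) :
    ordC N z f = (pointIndex N z : ℤ) * (pointPlace N z).ord f :=
  (exists_pointPlace N z).choose_spec.choose_spec.2 f hf

theorem pointPlace_ord_jC_nonneg (z : ℍ) : 0 ≤ (pointPlace N z).ord (jC N) := by
  have h := ordC_jC_nonneg N z
  rw [ordC_eq N z (jC_ne_zero N)] at h
  have he : (0 : ℤ) < pointIndex N z := by exact_mod_cast pointIndex_pos N z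
  exact nonneg_of_mul_nonneg_right h he

/-! ## Finiteness over `ℂ(j)` -/

section Degree

variable [NeZero N]

/-- Translating by `g` permutes the conjugates `F ∘ (out x)⁻¹` of a `Γ₀(N)`-invariant function. -/
theorem out_inv_smul_smul (F : ℍ → ℂ) (hinv : ∀ γ ∈ Gamma0 N, ∀ τ : ℍ, F (γ • τ) = F τ)
    (g : SL(2, ℤ)) (x : XN N) (τ : ℍ) :
    F ((Quotient.out x)⁻¹ • g • τ) = F ((Quotient.out (g⁻¹ • x))⁻¹ • τ) := by
  obtain ⟨h, hh, hout⟩ : ∃ h ∈ Gamma0 N,
      Quotient.out (g⁻¹ • x) = g⁻¹ * Quotient.out x * h := by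
    have hx : g⁻¹ • x = ((g⁻¹ * Quotient.out x : SL(2, ℤ)) : XN N) := by
      conv_lhs => rw [← QuotientGroup.out_eq' x]
      rfl
    rw [hx]
    obtain ⟨h, hh⟩ := QuotientGroup.mk_out_eq_mul (Gamma0 N) (g⁻¹ * Quotient.out x)
    exact ⟨h, h.2, hh⟩
  rw [hout, mul_inv_rev, mul_inv_rev, inv_inv, mul_smul, mul_smul, hinv h⁻¹ (inv_mem hh)]

theorem out_one_inv_smul (F : ℍ → ℂ) (hinv : ∀ γ ∈ Gamma0 N, ∀ τ : ℍ, F (γ • τ) = F τ)
    (τ : ℍ) : F ((Quotient.out ((1 : SL(2, ℤ)) : XN N))⁻¹ • τ) = F τ := by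
  obtain ⟨h, hh⟩ := QuotientGroup.mk_out_eq_mul (Gamma0 N) (1 : SL(2, ℤ))
  rw [hh, one_mul]
  exact hinv _ (inv_mem h.2) τ

/-- The monic relation over `ℂ[J]` satisfied by `evFun a`. -/
theorem exists_monic_relation_evFun [Fintype (XN N)] (a : AC N) :
    ∃ P : Polynomial (Polynomial ℂ), P.Monic ∧ P.natDegree = Fintype.card (XN N) ∧
      ∀ τ : ℍ, ∑ i ∈ Finset.range (Fintype.card (XN N) + 1),
        (P.coeff i).eval (helper288.jFn τ) * evFun N a τ ^ i = 0 := by
  classical
  let φ : XN N → ℍ → ℂ := fun x τ => evFun N a ((Quotient.out x)⁻¹ • τ)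
  have hφhol : ∀ x, MDiff (φ x) := fun x => (evFun_smul_mdiff_growth N a _).1
  have hφgr : ∀ x, helper167.HasExpGrowth (φ x) := fun x => (evFun_smul_mdiff_growth N a _).2
  have hφperm : ∀ g : SL(2, ℤ), ∃ s : Equiv.Perm (XN N), ∀ (x : XN N) (τ : ℍ),
      φ x (g • τ) = φ (s x) τ := fun g =>
    ⟨MulAction.toPerm g⁻¹, fun x τ =>
      out_inv_smul_smul N (evFun N a) (fun γ hγ τ => evFun_smul_of_mem_Gamma0 N a γ hγ τ) g x τ⟩
  obtain ⟨P, hmonic, hdeg, hP⟩ := helper167.exists_monic_relation_sum φ hφhol hφperm hφgr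
  refine ⟨P, hmonic, hdeg, fun τ => ?_⟩
  have h1 := hP ((1 : SL(2, ℤ)) : XN N) τ
  have h2 : φ ((1 : SL(2, ℤ)) : XN N) τ = evFun N a τ :=
    out_one_inv_smul N (evFun N a) (fun γ hγ τ => evFun_smul_of_mem_Gamma0 N a γ hγ τ) τ
  rw [h2] at h1
  exact h1

/-- The monic relation over `ℂ[j]` satisfied by an element of `AC N`. -/
theorem exists_relation_AC [Fintype (XN N)] (a : AC N) :
    ∃ P : Polynomial (Polynomial ℂ), P.Monic ∧ P.natDegree = Fintype.card (XN N) ∧
      ∑ i ∈ Finset.range (Fintype.card (XN N) + 1),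
        aeval (jC N) (P.coeff i) * (a : FC N) ^ i = 0 := by
  obtain ⟨P, hmonic, hdeg, hP⟩ := exists_monic_relation_evFun N a
  refine ⟨P, hmonic, hdeg, ?_⟩
  apply evC_injective N
  rw [map_zero, map_sum]
  have h : ∀ i, evC N (aeval (jC N) (P.coeff i) * (a : FC N) ^ i)
      = algebraMap Hol Mer (aeval JHol (P.coeff i) * evHol N a ^ i) := by
    intro i
    rw [map_mul, map_pow, evC_aeval_jC, evC_coe, map_mul, map_pow]
  simp_rw [h]
  rw [← map_sum]
  have h0 : ∑ i ∈ Finset.range (Fintype.card (XN N) + 1),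
      aeval JHol (P.coeff i) * evHol N a ^ i = 0 := by
    refine Hol.ext fun τ => ?_
    show evalAt τ (∑ i ∈ Finset.range (Fintype.card (XN N) + 1),
      aeval JHol (P.coeff i) * evHol N a ^ i) = evalAt τ 0
    rw [map_sum, map_zero]
    simp_rw [map_mul, map_pow, evalAt_aeval_JHol]
    exact hP τ
  rw [h0, map_zero]

/-- `FC N` is finite over `ℂ(j)`, of degree at most `[SL(2,ℤ) : Γ₀(N)]`. -/
theorem finiteDimensional_jC_and_finrank_le :
    FiniteDimensional ℂ⟮jC N⟯ (FC N) ∧ Module.finrank ℂ⟮jC N⟯ (FC N) ≤ Nat.card (XN N) := by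
  classical
  let _ : Fintype (XN N) := Fintype.ofFinite _
  rw [Nat.card_eq_fintype_card]
  refine helper102.finrank_le_of_forall_mem (jC N) (AC N) (jC_mem_AC N) (fun x => ?_) _
    (fun a ha => ?_)
  · obtain ⟨a, b, -, hx⟩ := exists_div_AC N x
    exact ⟨a, a.2, b, b.2, hx⟩
  · obtain ⟨P, hmonic, hdeg, hP⟩ := exists_relation_AC N ⟨a, ha⟩
    refine helper102.isIntegral_natDegree_le_of_relation (jC N) a (transcendental_jC N) _
      (fun k => P.coeff k) ⟨Fintype.card (XN N), le_rfl, ?_⟩ hP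
    rw [← hdeg, hmonic.coeff_natDegree]
    exact one_ne_zero

theorem finiteDimensional_jC : FiniteDimensional ℂ⟮jC N⟯ (FC N) :=
  (finiteDimensional_jC_and_finrank_le N).1

theorem finiteDimensional_jC_sub (c : ℂ) :
    FiniteDimensional ℂ⟮jC N - algebraMap ℂ (FC N) c⟯ (FC N) :=
  haveI := finiteDimensional_jC N
  helper102.finiteDimensional_adjoin_sub_algebraMap (jC N) c

end Degree

/-! ## Completeness: every finite place is a point place -/

/-- The valuation ring of `ordAt z`. -/
def ordRing (z : ℍ) : Subring Mer where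
  carrier := {m | 0 ≤ ordAt z m}
  mul_mem' {a b} ha hb := by
    show 0 ≤ ordAt z (a * b)
    rw [AddValuation.map_mul]
    exact add_nonneg ha hb
  one_mem' := by
    show 0 ≤ ordAt z 1
    rw [AddValuation.map_one]
  add_mem' {a b} ha hb := le_trans (le_min ha hb) ((ordAt z).map_add a b)
  zero_mem' := by
    show 0 ≤ ordAt z 0
    rw [AddValuation.map_zero]
    exact le_top
  neg_mem' {a} ha := by
    show 0 ≤ ordAt z (-a)
    rw [AddValuation.map_neg]
    exact ha

theorem mem_ordRing {z : ℍ} {m : Mer} : m ∈ ordRing z ↔ 0 ≤ ordAt z m := Iff.rfl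

theorem aeval_comp_shift (c : ℂ) (q : ℂ[X]) :
    aeval (jC N - algebraMap ℂ (FC N) c) (q.comp (X + C c)) = aeval (jC N) q := by
  rw [aeval_comp, map_add, aeval_X, aeval_C, sub_add_cancel]

section Completeness

variable [NeZero N]

/-- **Completeness.** Every place of the complex function field at which `j` has no pole is
the place of a point of the upper half plane. -/
theorem exists_pointPlace_eq (v : Place ℂ (FC N)) (hv : 0 ≤ v.ord (jC N)) :
    ∃ z : ℍ, pointPlace N z = v := by
  classical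
  haveI : FiniteDimensional ℂ⟮jC N⟯ (FC N) := finiteDimensional_jC N
  let _ : Fintype (XN N) := Fintype.ofFinite _
  -- the centre of `v`
  obtain ⟨c, hc, -⟩ : ∃! c : ℂ, 0 < v.ord (jC N - algebraMap ℂ (FC N) c) :=
    (helper204.place_center (jC N) (transcendental_jC N) v).resolve_left (not_lt.mpr hv)
  obtain ⟨τ0, hτ0⟩ := helper454.exists_j_eq c
  have hJ0 : helper288.jFn τ0 = c := hτ0
  set t : FC N := jC N - algebraMap ℂ (FC N) c with ht
  haveI : FiniteDimensional ℂ⟮t⟯ (FC N) := finiteDimensional_jC_sub N c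
  have ht0 : t ≠ 0 := jC_sub_ne_zero N c
  -- the points over `c`
  let g : XN N → SL(2, ℤ) := fun x => (Quotient.out x)⁻¹
  let zx : XN N → ℍ := fun x => g x • τ0
  have hJx : ∀ x, helper288.jFn (zx x) = c := fun x => by
    show helper288.jFn (g x • τ0) = c
    rw [helper288.jFn_smul, hJ0]
  by_contra hno
  push Not at hno
  -- prime avoidance
  have hVt : ∀ x : XN N, 0 < (pointPlace N (zx x)).ord t := by
    intro x
    have h1 := ordC_jC_sub_self N (zx x)
    rw [hJx x, ordC_eq N (zx x) ht0] at h1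
    have he : (0 : ℤ) < pointIndex N (zx x) := by exact_mod_cast pointIndex_pos N (zx x)
    have hj : (0 : ℤ) < jOrd c := by exact_mod_cast jOrd_pos c
    rw [← h1] at hj
    exact (mul_pos_iff_of_pos_left he).mp hj
  obtain ⟨b, -, hbv, hbV⟩ := helper384.exists_integral_avoiding t v hc Finset.univ
    (fun x => pointPlace N (zx x)) hVt (fun x _ => hno (zx x))
  have hb0 : b ≠ 0 := by
    rintro rfl
    rw [v.ord_zero] at hbv
    exact lt_irrefl _ hbv
  have hbx : ∀ x, ordC N (zx x) b = 0 := fun x => by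
    rw [ordC_eq N (zx x) hb0, hbV x (Finset.mem_univ x), mul_zero]
  -- write `b = a1 / b1`
  obtain ⟨a1, b1, hb1, hb⟩ := exists_div_AC N b
  have hb1' : b1 ≠ 0 := fun h => hb1 (by rw [h]; rfl)
  set A : ℍ → ℂ := evFun N a1 with hA
  set B : ℍ → ℂ := evFun N b1 with hB
  have hAinv : ∀ γ ∈ Gamma0 N, ∀ τ : ℍ, A (γ • τ) = A τ :=
    fun γ hγ τ => evFun_smul_of_mem_Gamma0 N a1 γ hγ τ
  have hBinv : ∀ γ ∈ Gamma0 N, ∀ τ : ℍ, B (γ • τ) = B τ :=
    fun γ hγ τ => evFun_smul_of_mem_Gamma0 N b1 γ hγ τ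
  -- holomorphic conjugates
  let AH : XN N → Hol := fun x => pullHol (g x) (evHol N a1)
  let BH : XN N → Hol := fun x => pullHol (g x) (evHol N b1)
  have hBH0 : ∀ x, BH x ≠ 0 := fun x =>
    (EmbeddingLike.map_ne_zero_iff (f := pullHol (g x))).mpr
      ((map_ne_zero_iff _ (evHol_injective N)).mpr hb1')
  let ΦH : XN N → Hol := fun x => AH x * ∏ y ∈ Finset.univ.erase x, BH y
  let βH : Hol := ∏ y, BH y
  have hβH0 : βH ≠ 0 := Finset.prod_ne_zero_iff.mpr fun y _ => hBH0 y
  have hΦB : ∀ x, ΦH x * BH x = AH x * βH := by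
    intro x
    show AH x * (∏ y ∈ Finset.univ.erase x, BH y) * BH x = AH x * ∏ y, BH y
    rw [mul_assoc, mul_comm (∏ y ∈ Finset.univ.erase x, BH y) (BH x),
      Finset.mul_prod_erase Finset.univ BH (Finset.mem_univ x)]
  let φ : XN N → ℍ → ℂ := fun x => (ΦH x : ℍ → ℂ)
  let β : ℍ → ℂ := (βH : ℍ → ℂ)
  have hφ_apply : ∀ x τ, φ x τ = A (g x • τ) * ∏ y ∈ Finset.univ.erase x, B (g y • τ) := by
    intro x τ
    show evalAt τ (AH x * ∏ y ∈ Finset.univ.erase x, BH y) = _
    rw [map_mul, map_prod]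
    rfl
  have hβ_apply : ∀ τ, β τ = ∏ y, B (g y • τ) := by
    intro τ
    show evalAt τ (∏ y, BH y) = _
    rw [map_prod]
    rfl
  have hφhol : ∀ x, MDiff (φ x) := fun x => (ΦH x).2
  have hβhol : MDiff β := βH.2
  have hφgr : ∀ x, helper167.HasExpGrowth (φ x) := by
    intro x
    have h1 : helper167.HasExpGrowth (fun τ : ℍ => A (g x • τ)) :=
      (evFun_smul_mdiff_growth N a1 (g x)).2
    have h2 : helper167.HasExpGrowth
        (fun τ : ℍ => ∏ y ∈ Finset.univ.erase x, B (g y • τ)) :=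
      helper167.hasExpGrowth_finset_prod _ (fun y τ => B (g y • τ))
        (fun y _ => (evFun_smul_mdiff_growth N b1 (g y)).2)
    have h3 := h1.mul h2
    have h4 : φ x = fun τ : ℍ => A (g x • τ) * ∏ y ∈ Finset.univ.erase x, B (g y • τ) :=
      funext fun τ => hφ_apply x τ
    rw [h4]
    exact h3
  have hβgr : helper167.HasExpGrowth β := by
    have h2 : helper167.HasExpGrowth (fun τ : ℍ => ∏ y, B (g y • τ)) :=
      helper167.hasExpGrowth_finset_prod _ (fun y τ => B (g y • τ))
        (fun y _ => (evFun_smul_mdiff_growth N b1 (g y)).2)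
    have h4 : β = fun τ : ℍ => ∏ y, B (g y • τ) := funext fun τ => hβ_apply τ
    rw [h4]
    exact h2
  have hφperm : ∀ h : SL(2, ℤ), ∃ s : Equiv.Perm (XN N), ∀ (x : XN N) (τ : ℍ),
      φ x (h • τ) = φ (s x) τ := by
    intro h
    refine ⟨MulAction.toPerm h⁻¹, fun x τ => ?_⟩
    rw [hφ_apply, hφ_apply]
    show A ((Quotient.out x)⁻¹ • h • τ) * ∏ y ∈ Finset.univ.erase x, B (g y • h • τ)
      = A ((Quotient.out (h⁻¹ • x))⁻¹ • τ) * ∏ y ∈ Finset.univ.erase (h⁻¹ • x), B (g y • τ)
    rw [out_inv_smul_smul N A hAinv h x τ]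
    congr 1
    refine Finset.prod_equiv (MulAction.toPerm h⁻¹) (fun y => ?_) (fun y _ => ?_)
    · simp only [Finset.mem_erase, Finset.mem_univ, and_true, MulAction.toPerm_apply]
      exact (MulAction.injective h⁻¹).ne_iff.symm
    · exact out_inv_smul_smul N B hBinv h y τ
  have hβinv : ∀ (γ : SL(2, ℤ)) (τ : ℍ), β (γ • τ) = β τ := by
    intro γ τ
    rw [hβ_apply, hβ_apply]
    rw [← Equiv.prod_comp (MulAction.toPerm γ⁻¹) (fun y => B (g y • τ))]
    exact Finset.prod_congr rfl fun y _ => out_inv_smul_smul N B hBinv γ y τ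
  -- `β` is a polynomial in `J`
  obtain ⟨mβ, Cβ, hgrβ⟩ := hβgr
  obtain ⟨Pβ, -, hPβ⟩ := helper167.polyInJ_of_invariant β hβhol hβinv mβ
    (helper167.isBoundedAtImInfty_disc_pow_mul hgrβ)
  -- the monic relation
  obtain ⟨P, hPmonic, hPdeg, hP⟩ := helper167.exists_monic_relation φ hφhol hφperm hφgr
  set n := Fintype.card (XN N) with hn
  -- the meromorphic conjugates of `b`
  let ψ : XN N → Mer := fun x => pull (g x) (evC N b)
  have hψ0 : ∀ x, ordAt τ0 (ψ x) = 0 := by
    intro x
    show ordAt τ0 (pull (g x) (evC N b)) = 0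
    rw [ordAt_pull, ← coe_ordC N _ hb0]
    exact_mod_cast hbx x
  have hψ : ∀ x, ψ x = algebraMap Hol Mer (AH x) / algebraMap Hol Mer (BH x) := by
    intro x
    show pull (g x) (evC N b) = _
    rw [hb, map_div₀, map_div₀, pull_evC_coe, pull_evC_coe]
  set βM : Mer := algebraMap Hol Mer βH with hβM
  have hβM0 : βM ≠ 0 := (map_ne_zero_iff _ (IsFractionRing.injective Hol Mer)).mpr hβH0
  have hΦM : ∀ x, ψ x * βM = algebraMap Hol Mer (ΦH x) := by
    intro x
    have hB0 : algebraMap Hol Mer (BH x) ≠ 0 :=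
      (map_ne_zero_iff _ (IsFractionRing.injective Hol Mer)).mpr (hBH0 x)
    have h1 : algebraMap Hol Mer (ΦH x) * algebraMap Hol Mer (BH x)
        = algebraMap Hol Mer (AH x) * βM := by
      rw [← map_mul, hΦB x, map_mul]
    rw [hψ x, div_mul_eq_mul_div, ← h1, mul_div_assoc, div_self hB0, mul_one]
  set β' : FC N := aeval (jC N) Pβ with hβ'
  have hβ'M : evC N β' = βM := by
    rw [hβ', evC_aeval_jC, hβM]
    congr 1
    refine Hol.ext fun τ => ?_
    rw [aeval_JHol_apply]
    exact (hPβ τ).symm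
  have hβ'0 : β' ≠ 0 := by
    intro h
    rw [h, map_zero] at hβ'M
    exact hβM0 hβ'M.symm
  -- the two polynomials
  set Q : Polynomial Mer := ∏ x, (X - C (ψ x)) with hQ
  have hQdeg : Q.natDegree = n := by
    rw [hQ, natDegree_finsetProd_X_sub_C_eq_card, Finset.card_univ]
  have hscale : Q.scaleRoots βM = ∏ x, (X - C (algebraMap Hol Mer (ΦH x))) := by
    rw [hQ, prod_X_sub_C_scaleRoots]
    exact Finset.prod_congr rfl fun x _ => by rw [hΦM x]
  have hcoeffH : ∀ i, (∏ x, (X - C (ΦH x))).coeff i = aeval JHol (P.coeff i) := by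
    intro i
    refine Hol.ext fun τ => ?_
    show evalAt τ ((∏ x, (X - C (ΦH x))).coeff i) = evalAt τ (aeval JHol (P.coeff i))
    rw [evalAt_aeval_JHol]
    have h1 : evalAt τ ((∏ x, (X - C (ΦH x))).coeff i)
        = ((∏ x, (X - C (ΦH x))).map (evalAt τ : Hol →+* ℂ)).coeff i := by
      rw [coeff_map]
      rfl
    rw [h1, Polynomial.map_prod]
    have h2 : ∏ x, (X - C (ΦH x)).map (evalAt τ : Hol →+* ℂ) = ∏ x, (X - C (φ x τ)) :=
      Finset.prod_congr rfl fun x _ => by
        rw [Polynomial.map_sub, Polynomial.map_X, Polynomial.map_C]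
        rfl
    rw [h2, ← hP τ, coeff_map]
    rfl
  have hcoeff : ∀ i, Q.coeff i * βM ^ (n - i) = evC N (aeval (jC N) (P.coeff i)) := by
    intro i
    have h1 := coeff_scaleRoots Q βM i
    rw [hQdeg, hscale] at h1
    rw [← h1, evC_aeval_jC, ← hcoeffH i]
    have h2 : ∏ x, (X - C (algebraMap Hol Mer (ΦH x)))
        = (∏ x, (X - C (ΦH x))).map (algebraMap Hol Mer) := by
      rw [Polynomial.map_prod]
      exact Finset.prod_congr rfl fun x _ => by
        rw [Polynomial.map_sub, Polynomial.map_X, Polynomial.map_C]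
    rw [h2, coeff_map]
  -- the coefficients as elements of `ℂ(j)`
  let r : ℕ → FC N := fun i => aeval (jC N) (P.coeff i) / β' ^ (n - i)
  have hr : ∀ i, evC N (r i) = Q.coeff i := by
    intro i
    show evC N (aeval (jC N) (P.coeff i) / β' ^ (n - i)) = Q.coeff i
    rw [map_div₀, map_pow, hβ'M, ← hcoeff i, mul_div_assoc, div_self (pow_ne_zero _ hβM0),
      mul_one]
  have hr_ord : ∀ i, 0 ≤ ordAt τ0 (evC N (r i)) := by
    intro i
    rw [hr i]
    exact coeff_prod_X_sub_C_mem (ordRing τ0) Finset.univ ψ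
      (fun x _ => mem_ordRing.mpr (hψ0 x).ge) i
  have hr0_ord : ordAt τ0 (evC N (r 0)) = 0 := by
    rw [hr 0, hQ, coeff_zero_eq_eval_zero, eval_prod]
    refine addVal_prod_eq_zero (ordAt τ0) Finset.univ _ fun x _ => ?_
    rw [eval_sub, eval_X, eval_C, zero_sub, AddValuation.map_neg]
    exact hψ0 x
  -- the relation satisfied by `b`
  have hx0 : ψ ((1 : SL(2, ℤ)) : XN N) = evC N b := by
    show pull (g ((1 : SL(2, ℤ)) : XN N)) (evC N b) = evC N b
    apply pull_evC
    obtain ⟨h, hh⟩ := QuotientGroup.mk_out_eq_mul (Gamma0 N) (1 : SL(2, ℤ))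
    show (Quotient.out ((1 : SL(2, ℤ)) : XN N))⁻¹ ∈ Gamma0 N
    rw [hh, one_mul]
    exact inv_mem h.2
  have hrel : ∑ i ∈ Finset.range (n + 1), r i * b ^ i = 0 := by
    apply evC_injective N
    rw [map_zero, map_sum]
    have h1 : ∀ i, evC N (r i * b ^ i) = Q.coeff i * evC N b ^ i := fun i => by
      rw [map_mul, map_pow, hr i]
    simp_rw [h1]
    have h2 := eval_eq_sum_range (p := Q) (evC N b)
    rw [hQdeg] at h2
    rw [← h2, hQ, eval_prod]
    refine Finset.prod_eq_zero (Finset.mem_univ ((1 : SL(2, ℤ)) : XN N)) ?_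
    rw [eval_sub, eval_X, eval_C, hx0, sub_self]
  -- transfer to `v`
  have hw1 : IsIntOrder ℂ v.ord := isIntOrder_ord v
  have hw2 : IsIntOrder ℂ (ordC N τ0) := isIntOrder_ordC N τ0
  have ht2 : 0 < ordC N τ0 t := by
    have h1 := ordC_jC_sub_self N τ0
    rw [hJ0] at h1
    rw [ht, h1]
    exact_mod_cast jOrd_pos c
  have hβshift : aeval t (Pβ.comp (X + C c)) ≠ 0 := by
    rw [ht, aeval_comp_shift]
    exact hβ'0
  have hrv : ∀ i, r i ≠ 0 → 0 ≤ v.ord (r i) := by
    intro i hri
    have hpi : aeval t ((P.coeff i).comp (X + C c)) ≠ 0 := by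
      rw [ht, aeval_comp_shift]
      intro h
      apply hri
      show aeval (jC N) (P.coeff i) / β' ^ (n - i) = 0
      rw [h, zero_div]
    have key := (isIntOrder_sign_transfer hw1 hw2 hc ht2 ((P.coeff i).comp (X + C c))
      (Pβ.comp (X + C c)) hpi hβshift (n - i)).1
    rw [ht, aeval_comp_shift, aeval_comp_shift] at key
    apply key
    have h2 := hr_ord i
    rw [← coe_ordC N τ0 hri] at h2
    exact_mod_cast h2
  have hr0 : r 0 ≠ 0 := by
    intro h
    rw [h, map_zero, AddValuation.map_zero] at hr0_ord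
    exact WithTop.top_ne_zero hr0_ord
  have hrv0 : v.ord (r 0) = 0 := by
    have hpi : aeval t ((P.coeff 0).comp (X + C c)) ≠ 0 := by
      rw [ht, aeval_comp_shift]
      intro h
      apply hr0
      show aeval (jC N) (P.coeff 0) / β' ^ (n - 0) = 0
      rw [h, zero_div]
    have key := (isIntOrder_sign_transfer hw1 hw2 hc ht2 ((P.coeff 0).comp (X + C c))
      (Pβ.comp (X + C c)) hpi hβshift (n - 0)).2
    rw [ht, aeval_comp_shift, aeval_comp_shift] at key
    apply key
    have h2 := hr0_ord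
    rw [← coe_ordC N τ0 hr0] at h2
    exact_mod_cast h2
  -- the contradiction
  rw [Finset.sum_range_succ', pow_zero, mul_one] at hrel
  have hsum := isIntOrder_sum_gt hw1 0 (Finset.range n) (fun i => r (i + 1) * b ^ (i + 1))
    (fun i _ => by
      by_cases hri : r (i + 1) = 0
      · left
        rw [hri, zero_mul]
      · right
        have hbi : b ^ (i + 1) ≠ 0 := pow_ne_zero _ hb0
        have h1 : v.ord (b ^ (i + 1)) = ((i + 1 : ℕ) : ℤ) * v.ord b := by
          have := hw1.map_zpow hb0 ((i + 1 : ℕ) : ℤ)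
          rwa [zpow_natCast] at this
        rw [hw1.map_mul hri hbi, h1]
        have h2 := hrv (i + 1) hri
        have h3 : (0 : ℤ) < ((i + 1 : ℕ) : ℤ) * v.ord b :=
          mul_pos (by exact_mod_cast Nat.succ_pos i) hbv
        omega)
  have hr0eq : r 0 = -∑ i ∈ Finset.range n, r (i + 1) * b ^ (i + 1) :=
    eq_neg_of_add_eq_zero_right hrel
  rcases hsum with h0 | h0
  · rw [h0, neg_zero] at hr0eq
    exact hr0 hr0eq
  · have hS : ∑ i ∈ Finset.range n, r (i + 1) * b ^ (i + 1) ≠ 0 := by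
      intro h
      rw [h, neg_zero] at hr0eq
      exact hr0 hr0eq
    rw [hr0eq, hw1.map_neg hS] at hrv0
    omega

end Completeness

/-! ## Consequences: the dictionary and its stability under semilinear automorphisms -/

section Consequences

variable [NeZero N]

theorem pointIndex_mul_ord_jC_sub (z : ℍ) :
    (pointIndex N z : ℤ)
        * (pointPlace N z).ord (jC N - algebraMap ℂ (FC N) (helper288.jFn z))
      = jOrd (helper288.jFn z) := by
  rw [← ordC_eq N z (jC_sub_ne_zero N _), ordC_jC_sub_self]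

theorem pointPlace_ord_jC_sub_pos (z : ℍ) :
    0 < (pointPlace N z).ord (jC N - algebraMap ℂ (FC N) (helper288.jFn z)) := by
  have h1 := pointIndex_mul_ord_jC_sub N z
  have he : (0 : ℤ) < pointIndex N z := by exact_mod_cast pointIndex_pos N z
  have hj : (0 : ℤ) < jOrd (helper288.jFn z) := by exact_mod_cast jOrd_pos _
  rw [← h1] at hj
  exact (mul_pos_iff_of_pos_left he).mp hj

theorem pointPlace_ord_jC_sub_of_ne (z : ℍ) {c : ℂ} (hc : helper288.jFn z ≠ c) :
    (pointPlace N z).ord (jC N - algebraMap ℂ (FC N) c) = 0 := by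
  have h1 := ordC_jC_sub_of_ne N z hc
  rw [ordC_eq N z (jC_sub_ne_zero N c)] at h1
  have he : (pointIndex N z : ℤ) ≠ 0 := by exact_mod_cast (pointIndex_pos N z).ne'
  exact (mul_eq_zero.mp h1).resolve_left he

/-- At a point whose `j`-value is neither `0` nor `1728` the index is `1`. -/
theorem pointIndex_eq_one (z : ℍ) (h0 : helper288.jFn z ≠ 0) (h1 : helper288.jFn z ≠ 1728) :
    pointIndex N z = 1 := by
  have h := pointIndex_mul_ord_jC_sub N z
  have hj : jOrd (helper288.jFn z) = 1 := by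
    unfold jOrd
    rw [if_neg h0, if_neg h1]
  rw [hj, Nat.cast_one] at h
  have hd : (pointIndex N z : ℤ) ∣ 1 := Dvd.intro _ h
  have he : (0 : ℤ) ≤ pointIndex N z := Int.natCast_nonneg _
  exact_mod_cast Int.eq_one_of_dvd_one he hd

/-- **Completeness**, order form: a place with `0 ≤ v.ord j` is the place of a point `z`, and
the analytic order at `z` is `e · v.ord`. -/
theorem exists_point_of_place (v : Place ℂ (FC N)) (hv : 0 ≤ v.ord (jC N)) :
    ∃ (z : ℍ) (e : ℕ), 0 < e ∧ ∀ f : FC N, f ≠ 0 →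
      ordAt z (evC N f) = (((e : ℤ) * v.ord f : ℤ) : WithTop ℤ) := by
  obtain ⟨z, hz⟩ := exists_pointPlace_eq N v hv
  refine ⟨z, pointIndex N z, pointIndex_pos N z, fun f hf => ?_⟩
  rw [← coe_ordC N z hf, ordC_eq N z hf, hz]

/-- **Completeness at generic places**: a place centred at `c ∉ {0, 1728}` is the place of a
point `z` with `j(z) = c`, and the analytic order at `z` equals `v.ord` (index `1`). -/
theorem exists_point_of_place_generic (v : Place ℂ (FC N)) (c : ℂ)
    (hc : 0 < v.ord (jC N - algebraMap ℂ (FC N) c)) (h0 : c ≠ 0) (h1 : c ≠ 1728) :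
    ∃ z : ℍ, helper288.jFn z = c ∧ pointPlace N z = v ∧ ∀ f : FC N, f ≠ 0 →
      ordAt z (evC N f) = ((v.ord f : ℤ) : WithTop ℤ) := by
  have hv : 0 ≤ v.ord (jC N) := by
    rw [helper204.ord_nonneg_iff]
    have h2 : jC N - algebraMap ℂ (FC N) c ∈ v.toValuationSubring :=
      helper204.mem_of_ord_nonneg v hc.le
    have h3 := add_mem h2 (v.algebraMap_mem' c)
    rwa [sub_add_cancel] at h3
  obtain ⟨z, hz⟩ := exists_pointPlace_eq N v hv
  have hzc : helper288.jFn z = c := by
    by_contra hne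
    have h2 := pointPlace_ord_jC_sub_of_ne N z hne
    rw [hz] at h2
    omega
  refine ⟨z, hzc, hz, fun f hf => ?_⟩
  rw [← coe_ordC N z hf, ordC_eq N z hf, hz,
    pointIndex_eq_one N z (by rw [hzc]; exact h0) (by rw [hzc]; exact h1), Nat.cast_one,
    one_mul]

omit [NeZero N] in
theorem nsmul_coe_withTop (p : ℕ) (m : ℤ) :
    p • ((m : ℤ) : WithTop ℤ) = (((p : ℤ) * m : ℤ) : WithTop ℤ) := by
  induction p with
  | zero => simp
  | succ k ih =>
    rw [succ_nsmul, ih, ← WithTop.coe_add]
    congr 1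
    push_cast
    ring

/-- If `evC u` is a `p`-th power in `Mer`, then `p` divides the order of `u` at every place
centred at a value `c ∉ {0, 1728}`. -/
theorem dvd_ord_of_pow_eq_generic (v : Place ℂ (FC N)) (c : ℂ)
    (hc : 0 < v.ord (jC N - algebraMap ℂ (FC N) c)) (h0 : c ≠ 0) (h1 : c ≠ 1728)
    {u : FC N} (hu : u ≠ 0) (p : ℕ) (W : Mer) (hW : W ^ p = evC N u) :
    (p : ℤ) ∣ v.ord u := by
  obtain ⟨z, -, -, hz⟩ := exists_point_of_place_generic N v c hc h0 h1
  have hW0 : W ^ p ≠ 0 := by rw [hW]; exact evC_ne_zero N hu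
  rcases Nat.eq_zero_or_pos p with hp | hp
  · subst hp
    rw [pow_zero] at hW
    have hu1 : u = 1 := evC_injective N (by rw [← hW, map_one])
    rw [hu1, v.ord_one]
    exact dvd_zero _
  · have hW1 : W ≠ 0 := fun h => hW0 (by rw [h, zero_pow hp.ne'])
    obtain ⟨m, hm⟩ := WithTop.ne_top_iff_exists.mp (ordAt_ne_top z hW1)
    have h2 := hz u hu
    rw [← hW, AddValuation.map_pow, ← hm] at h2
    rw [nsmul_coe_withTop] at h2
    exact ⟨m, (WithTop.coe_injective h2).symm⟩

/-- **Stability.** A semilinear automorphism of `FC N` fixing `j` permutes the point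
valuations: the order at `z` of `g • f` is the order of `f` at another point `z'`. -/
theorem exists_point_of_smul (g : SemilinearAut ℂ (FC N)) (hg : g • jC N = jC N) (z : ℍ) :
    ∃ z' : ℍ, ∀ f : FC N, ordC N z (g • f) = ordC N z' f := by
  set v := pointPlace N z with hv
  set v' : Place ℂ (FC N) := g⁻¹ • v with hv'
  have hord : ∀ f : FC N, v'.ord f = v.ord (g • f) := by
    intro f
    have h := SemilinearAut.ord_smul g⁻¹ v (g • f)
    rwa [inv_smul_smul] at h
  have hv'j : 0 ≤ v'.ord (jC N) := by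
    rw [hord, hg]
    exact pointPlace_ord_jC_nonneg N z
  obtain ⟨z', hz'⟩ := exists_pointPlace_eq N v' hv'j
  set c := helper288.jFn z with hcdef
  set c' : ℂ := (SemilinearAut.baseAut g).symm c with hc'def
  have hgc : g • (jC N - algebraMap ℂ (FC N) c') = jC N - algebraMap ℂ (FC N) c := by
    rw [smul_sub, hg, SemilinearAut.smul_algebraMap, hc'def, RingEquiv.apply_symm_apply]
  have hm : v'.ord (jC N - algebraMap ℂ (FC N) c')
      = v.ord (jC N - algebraMap ℂ (FC N) c) := by
    rw [hord, hgc]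
  have hmpos : 0 < v.ord (jC N - algebraMap ℂ (FC N) c) := pointPlace_ord_jC_sub_pos N z
  have hz'c : helper288.jFn z' = c' := by
    by_contra hne
    have h2 := pointPlace_ord_jC_sub_of_ne N z' hne
    rw [hz', hm] at h2
    omega
  have hjord : jOrd c' = jOrd c := by
    have e0 : c' = 0 ↔ c = 0 := by
      rw [hc'def]
      exact EmbeddingLike.map_eq_zero_iff
    have e1 : c' = 1728 ↔ c = 1728 := by
      rw [hc'def]
      constructor
      · intro h
        have h2 := congrArg (SemilinearAut.baseAut g) h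
        rwa [RingEquiv.apply_symm_apply, map_ofNat] at h2
      · intro h
        rw [h, map_ofNat]
    unfold jOrd
    simp only [e0, e1]
  have he : (pointIndex N z' : ℤ) = pointIndex N z := by
    have h1 := pointIndex_mul_ord_jC_sub N z
    have h2 := pointIndex_mul_ord_jC_sub N z'
    rw [hz'c, hz', hm, hjord] at h2
    rw [← hcdef, ← hv] at h1
    have h3 : (pointIndex N z' : ℤ) * v.ord (jC N - algebraMap ℂ (FC N) c)
        = (pointIndex N z : ℤ) * v.ord (jC N - algebraMap ℂ (FC N) c) := by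
      rw [h2, h1]
    exact mul_right_cancel₀ hmpos.ne' h3
  refine ⟨z', fun f => ?_⟩
  rcases eq_or_ne f 0 with rfl | hf
  · rw [smul_zero, ordC_zero, ordC_zero]
  · have hgf : g • f ≠ 0 := by
      rw [SemilinearAut.smul_def]
      exact (EmbeddingLike.map_ne_zero_iff (f := SemilinearAut.toRingAut g)).mpr hf
    rw [ordC_eq N z hgf, ordC_eq N z' hf, hz', hord, he]

/-- **Stability of divisibility.** If all analytic orders of `u` on `ℍ` are divisible by `p`,
the same holds for `g • u`, for every semilinear automorphism `g` of `FC N` fixing `j`. -/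
theorem dvd_ordC_smul (g : SemilinearAut ℂ (FC N)) (hg : g • jC N = jC N) (p : ℤ) (u : FC N)
    (h : ∀ z : ℍ, p ∣ ordC N z u) (z : ℍ) : p ∣ ordC N z (g • u) := by
  obtain ⟨z', hz'⟩ := exists_point_of_smul N g hg z
  rw [hz']
  exact h z'

omit [NeZero N] in
theorem arithmeticGalois_smul_jC (σ : ℂ ≃ₐ[ℚ] ℂ) :
    arithmeticGalois (modularFunctionFieldFull N) σ • jC N = jC N := by
  apply Subtype.ext
  rw [coe_arithmeticGalois_smul, coe_jC, coeffMap_coeffEmb]

/-- The set of functions all of whose analytic orders on `ℍ` are divisible by `p` is stable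
under the coefficientwise action of `Aut(ℂ/ℚ)`. -/
theorem dvd_ordC_arithmeticGalois (σ : ℂ ≃ₐ[ℚ] ℂ) (p : ℤ) (u : FC N)
    (h : ∀ z : ℍ, p ∣ ordC N z u) (z : ℍ) :
    p ∣ ordC N z (arithmeticGalois (modularFunctionFieldFull N) σ • u) :=
  dvd_ordC_smul N _ (arithmeticGalois_smul_jC N σ) p u h z

omit [NeZero N] in
/-- Divisibility of `ordC` in the `WithTop ℤ` form used by the root lemmas. -/
theorem dvd_ordC_iff (z : ℍ) {u : FC N} (hu : u ≠ 0) (p : ℤ) :
    p ∣ ordC N z u ↔ ∃ m : ℤ, ordAt z (evC N u) = ((p * m : ℤ) : WithTop ℤ) := by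
  rw [← coe_ordC N z hu]
  constructor
  · rintro ⟨m, hm⟩
    exact ⟨m, by rw [hm]⟩
  · rintro ⟨m, hm⟩
    exact ⟨m, WithTop.coe_injective hm⟩

omit [NeZero N] in
/-- Place orders divisible by `p` give analytic orders divisible by `p` (no dictionary
needed). -/
theorem dvd_ordC_of_forall_place (p : ℤ) {u : FC N} (hu : u ≠ 0)
    (h : ∀ v : Place ℂ (FC N), p ∣ v.ord u) (z : ℍ) : p ∣ ordC N z u := by
  rw [ordC_eq N z hu]
  exact Dvd.dvd.mul_left (h _) _

end Consequences

end Fermat.Agent.S29.helper580
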