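import Mathlib
import Fermat.Agent.S37.helper8353_Top

/-!
# S29-COREHOM (helper7959): operator-wise consequences of the S37 back-end statement

The S37 squads prove the geometric back-end statement
`Fermat.Agent.S37.helper8353.Stmt_CoreHom N p` (for every prime `ℓ ∤ N p` and every valuation
subring `A` of `ℚ̄` over `ℓ`: ONE Frobenius `σ₀` at `A` and an additive reduction map
`r : J₀(N) →+ G` that kills inertia, kills the Eichler–Shimura element of `σ₀`, and is injective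
on `p`-power torsion).

The frozen S37 conclusion is obtained from it only after assuming that the Prelude Hecke operators
commute (`HeckeOperatorsCommuteBar N`) and that Galois commutes with the resulting `HeckeAlg`-module
structure.  For the construction of mod-`p` Galois representations (S29) none of this is needed:
this file extracts directly from `Stmt_CoreHom N p` (or from the subgroup form `Stmt_Core N p`),
with the single Prelude operator `heckeOperatorBar N ℓ` and no module structure at all,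

* `inertia_smul_eq_of_coreHom` : inertia at `A ∣ ℓ` fixes every `p`-power torsion point of `J₀(N)`;
* `es_of_coreHom` : for EVERY Frobenius `σ` at `A` and every `p`-power torsion point `x`,
  `σ • σ • x - T_ℓ (σ • x) + ℓ • x = 0`.
-/

set_option autoImplicit false

noncomputable section

namespace Fermat.Agent.S29.helper7959

open ModularCurve Fermat.Agent.S37.helper8353

/-! ### Abstract form -/

section Abstract

variable {K L : Type*} [Field K] [Field L] [Algebra K L]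
variable {J : Type*} [AddCommGroup J] [DistribMulAction (L ≃ₐ[K] L) J]

/-- The Galois action commutes with natural multiples. -/
theorem galois_smul_nsmul (σ : L ≃ₐ[K] L) (n : ℕ) (x : J) : σ • (n • x) = n • (σ • x) :=
  smul_comm σ n x

/-- `p`-power torsion is preserved by the Galois action. -/
theorem ppow_torsion_smul {p : ℕ} (σ : L ≃ₐ[K] L) {x : J} (hx : ∃ n : ℕ, p ^ n • x = 0) :
    ∃ n : ℕ, p ^ n • (σ • x) = 0 := by
  obtain ⟨n, hn⟩ := hx
  exact ⟨n, by rw [← galois_smul_nsmul, hn, smul_zero]⟩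

/-- A reduction map killing inertia and injective on `p`-power torsion forces inertia to act
trivially on `p`-power torsion. -/
theorem inertia_smul_eq_of_hom {G : Type*} [AddCommGroup G] {p : ℕ} {A : ValuationSubring L}
    (r : J →+ G)
    (hI : ∀ τ ∈ A.inertiaSubgroupIn K, ∀ x : J, r (τ • x) = r x)
    (hinj : ∀ x : J, (∃ n : ℕ, p ^ n • x = 0) → r x = 0 → x = 0)
    {τ : L ≃ₐ[K] L} (hτ : τ ∈ A.inertiaSubgroupIn K) {x : J} (hx : ∃ n : ℕ, p ^ n • x = 0) :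
    τ • x = x := by
  have htor : ∃ n : ℕ, p ^ n • (τ • x - x) = 0 := by
    obtain ⟨n, hn⟩ := hx
    exact ⟨n, by rw [nsmul_sub, ← galois_smul_nsmul, hn, smul_zero, sub_zero]⟩
  have h0 : r (τ • x - x) = 0 := by rw [map_sub, hI τ hτ x, sub_self]
  exact sub_eq_zero.mp (hinj _ htor h0)

/-- The Eichler–Shimura element of a `p`-power torsion point is `p`-power torsion, for any
operator `T` preserving `n`-torsion. -/
theorem ppow_torsion_es {p ℓ : ℕ} (T : J → J)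
    (hT : ∀ (n : ℕ) (x : J), n • x = 0 → n • T x = 0) (σ : L ≃ₐ[K] L) {x : J}
    (hx : ∃ n : ℕ, p ^ n • x = 0) :
    ∃ n : ℕ, p ^ n • (σ • σ • x - T (σ • x) + ℓ • x) = 0 := by
  obtain ⟨n, hn⟩ := hx
  refine ⟨n, ?_⟩
  have h0 : p ^ n • (σ • x) = 0 := by rw [← galois_smul_nsmul, hn, smul_zero]
  have h1 : p ^ n • (σ • σ • x) = 0 := by rw [← galois_smul_nsmul, h0, smul_zero]
  have h2 : p ^ n • T (σ • x) = 0 := hT _ _ h0
  have h3 : p ^ n • (ℓ • x) = 0 := by rw [smul_comm (p ^ n) ℓ x, hn, smul_zero]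
  rw [nsmul_add, nsmul_sub, h1, h2, h3, sub_zero, add_zero]

/-- The Eichler–Shimura relation on `p`-power torsion for the chosen Frobenius. -/
theorem es_of_hom_chosen {G : Type*} [AddCommGroup G] {p ℓ : ℕ} (T : J → J)
    (hT : ∀ (n : ℕ) (x : J), n • x = 0 → n • T x = 0) {σ : L ≃ₐ[K] L} (r : J →+ G)
    (hES : ∀ x : J, r (σ • σ • x) - r (T (σ • x)) + ℓ • r x = 0)
    (hinj : ∀ x : J, (∃ n : ℕ, p ^ n • x = 0) → r x = 0 → x = 0)
    {x : J} (hx : ∃ n : ℕ, p ^ n • x = 0) :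
    σ • σ • x - T (σ • x) + ℓ • x = 0 := by
  refine hinj _ (ppow_torsion_es T hT σ hx) ?_
  rw [map_add, map_sub, map_nsmul]
  exact hES x

/-- On `p`-power torsion all Frobenius elements at `A` act in the same way, as soon as inertia
acts trivially there. -/
theorem frobenius_smul_eq {p q : ℕ} {A : ValuationSubring L} {σ σ₀ : L ≃ₐ[K] L}
    (hσ : A.IsFrobeniusAt σ q) (hσ₀ : A.IsFrobeniusAt σ₀ q)
    (hI : ∀ τ ∈ A.inertiaSubgroupIn K, ∀ y : J, (∃ n : ℕ, p ^ n • y = 0) → τ • y = y)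
    {y : J} (hy : ∃ n : ℕ, p ^ n • y = 0) : σ • y = σ₀ • y := by
  have hτ : σ * σ₀⁻¹ ∈ A.inertiaSubgroupIn K := frobenius_mul_inv_mem_inertia hσ hσ₀
  have h1 : σ • y = (σ * σ₀⁻¹) • (σ₀ • y) := by
    rw [← mul_smul, inv_mul_cancel_right]
  rw [h1]
  exact hI _ hτ _ (ppow_torsion_smul σ₀ hy)

/-- The Eichler–Shimura relation on `p`-power torsion for EVERY Frobenius at `A`. -/
theorem es_of_hom {G : Type*} [AddCommGroup G] {p ℓ : ℕ} {A : ValuationSubring L} (T : J → J)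
    (hT : ∀ (n : ℕ) (x : J), n • x = 0 → n • T x = 0)
    {σ₀ : L ≃ₐ[K] L} (hσ₀ : A.IsFrobeniusAt σ₀ ℓ) (r : J →+ G)
    (hI : ∀ τ ∈ A.inertiaSubgroupIn K, ∀ x : J, r (τ • x) = r x)
    (hES : ∀ x : J, r (σ₀ • σ₀ • x) - r (T (σ₀ • x)) + ℓ • r x = 0)
    (hinj : ∀ x : J, (∃ n : ℕ, p ^ n • x = 0) → r x = 0 → x = 0)
    {σ : L ≃ₐ[K] L} (hσ : A.IsFrobeniusAt σ ℓ) {x : J} (hx : ∃ n : ℕ, p ^ n • x = 0) :
    σ • σ • x - T (σ • x) + ℓ • x = 0 := by
  have hI' : ∀ τ ∈ A.inertiaSubgroupIn K, ∀ y : J, (∃ n : ℕ, p ^ n • y = 0) → τ • y = y :=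
    fun τ hτ y hy => inertia_smul_eq_of_hom r hI hinj hτ hy
  rw [frobenius_smul_eq hσ hσ₀ hI' hx, frobenius_smul_eq hσ hσ₀ hI' (ppow_torsion_smul σ₀ hx)]
  exact es_of_hom_chosen T hT r hES hinj hx

/-- Subgroup form of `inertia_smul_eq_of_hom`: if a subgroup containing all inertia differences
has no `p`-power torsion, inertia acts trivially on `p`-power torsion. -/
theorem inertia_smul_eq_of_subgroup {p : ℕ} {A : ValuationSubring L} (M : AddSubgroup J)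
    (hI : ∀ τ ∈ A.inertiaSubgroupIn K, ∀ x : J, τ • x - x ∈ M)
    (hM : ∀ x ∈ M, (∃ n : ℕ, p ^ n • x = 0) → x = 0)
    {τ : L ≃ₐ[K] L} (hτ : τ ∈ A.inertiaSubgroupIn K) {x : J} (hx : ∃ n : ℕ, p ^ n • x = 0) :
    τ • x = x := by
  have htor : ∃ n : ℕ, p ^ n • (τ • x - x) = 0 := by
    obtain ⟨n, hn⟩ := hx
    exact ⟨n, by rw [nsmul_sub, ← galois_smul_nsmul, hn, smul_zero, sub_zero]⟩
  exact sub_eq_zero.mp (hM _ (hI τ hτ x) htor)

/-- Subgroup form: if the subgroup generated by the inertia differences and the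
Eichler–Shimura elements of one Frobenius `σ₀` has no `p`-power torsion, then the relation holds
on `p`-power torsion for every Frobenius at `A`. -/
theorem es_of_subgroup {p ℓ : ℕ} {A : ValuationSubring L} (T : J → J)
    (hT : ∀ (n : ℕ) (x : J), n • x = 0 → n • T x = 0)
    {σ₀ : L ≃ₐ[K] L} (hσ₀ : A.IsFrobeniusAt σ₀ ℓ) (M : AddSubgroup J)
    (hI : ∀ τ ∈ A.inertiaSubgroupIn K, ∀ x : J, τ • x - x ∈ M)
    (hES : ∀ x : J, σ₀ • σ₀ • x - T (σ₀ • x) + ℓ • x ∈ M)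
    (hM : ∀ x ∈ M, (∃ n : ℕ, p ^ n • x = 0) → x = 0)
    {σ : L ≃ₐ[K] L} (hσ : A.IsFrobeniusAt σ ℓ) {x : J} (hx : ∃ n : ℕ, p ^ n • x = 0) :
    σ • σ • x - T (σ • x) + ℓ • x = 0 := by
  have hI' : ∀ τ ∈ A.inertiaSubgroupIn K, ∀ y : J, (∃ n : ℕ, p ^ n • y = 0) → τ • y = y :=
    fun τ hτ y hy => inertia_smul_eq_of_subgroup M hI hM hτ hy
  rw [frobenius_smul_eq hσ hσ₀ hI' hx, frobenius_smul_eq hσ hσ₀ hI' (ppow_torsion_smul σ₀ hx)]
  exact hM _ (hES x) (ppow_torsion_es T hT σ₀ hx)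

end Abstract

/-! ### The modular instance: `J₀(N)` with the Prelude operator `heckeOperatorBar N ℓ` -/

section Modular

variable {N : ℕ} [NeZero N]

/-- The Prelude Hecke operator preserves `n`-torsion. -/
theorem heckeOperatorBar_nsmul_eq_zero (ℓ : Nat.Primes) (n : ℕ) (x : JZero N) (hx : n • x = 0) :
    n • heckeOperatorBar N ℓ x = 0 := by
  rw [← map_nsmul, hx, map_zero]

/-- **Inertia is trivial on `p`-power torsion** (from the S37 back-end statement alone). -/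
theorem inertia_smul_eq_of_coreHom {p : ℕ} (h : Stmt_CoreHom N p) {ℓ : ℕ} (hℓ : ℓ.Prime)
    (hℓNp : ¬ ℓ ∣ N * p) {A : ValuationSubring Qb} (hA : A.LiesOverPrime ℓ) {τ : GQ}
    (hτ : τ ∈ A.inertiaSubgroupIn ℚ) {x : JZero N} (hx : ∃ n : ℕ, p ^ n • x = 0) :
    τ • x = x := by
  obtain ⟨σ₀, _, G, _, r, hI, _, hinj⟩ := h ℓ hℓ hℓNp A hA
  exact inertia_smul_eq_of_hom (K := ℚ) (L := Qb) r hI hinj hτ hx

/-- **Eichler–Shimura relation on `p`-power torsion, for every Frobenius** (from the S37 back-end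
statement alone; only the single Prelude operator `heckeOperatorBar N ℓ` appears). -/
theorem es_of_coreHom {p : ℕ} (h : Stmt_CoreHom N p) {ℓ : ℕ} (hℓ : ℓ.Prime)
    (hℓNp : ¬ ℓ ∣ N * p) {A : ValuationSubring Qb} (hA : A.LiesOverPrime ℓ) {σ : GQ}
    (hσ : A.IsFrobeniusAt σ ℓ) {x : JZero N} (hx : ∃ n : ℕ, p ^ n • x = 0) :
    σ • σ • x - heckeOperatorBar N ⟨ℓ, hℓ⟩ (σ • x) + ℓ • x = 0 := by
  obtain ⟨σ₀, hσ₀, G, _, r, hI, hES, hinj⟩ := h ℓ hℓ hℓNp A hA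
  exact es_of_hom (K := ℚ) (L := Qb) (fun y => heckeOperatorBar N ⟨ℓ, hℓ⟩ y)
    (heckeOperatorBar_nsmul_eq_zero ⟨ℓ, hℓ⟩) hσ₀ r hI hES hinj hσ hx

/-- Subgroup form of `inertia_smul_eq_of_coreHom`. -/
theorem inertia_smul_eq_of_core {p : ℕ} (h : Stmt_Core N p) {ℓ : ℕ} (hℓ : ℓ.Prime)
    (hℓNp : ¬ ℓ ∣ N * p) {A : ValuationSubring Qb} (hA : A.LiesOverPrime ℓ) {τ : GQ}
    (hτ : τ ∈ A.inertiaSubgroupIn ℚ) {x : JZero N} (hx : ∃ n : ℕ, p ^ n • x = 0) :
    τ • x = x := by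
  obtain ⟨σ₀, _, hcore⟩ := h ℓ hℓ hℓNp A hA
  exact inertia_smul_eq_of_subgroup (K := ℚ) (L := Qb) (relBar N A ⟨ℓ, hℓ⟩ σ₀)
    (fun τ hτ x => AddSubgroup.subset_closure (Or.inl ⟨τ, hτ, x, rfl⟩)) hcore hτ hx

/-- Subgroup form of `es_of_coreHom`. -/
theorem es_of_core {p : ℕ} (h : Stmt_Core N p) {ℓ : ℕ} (hℓ : ℓ.Prime)
    (hℓNp : ¬ ℓ ∣ N * p) {A : ValuationSubring Qb} (hA : A.LiesOverPrime ℓ) {σ : GQ}
    (hσ : A.IsFrobeniusAt σ ℓ) {x : JZero N} (hx : ∃ n : ℕ, p ^ n • x = 0) :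
    σ • σ • x - heckeOperatorBar N ⟨ℓ, hℓ⟩ (σ • x) + ℓ • x = 0 := by
  obtain ⟨σ₀, hσ₀, hcore⟩ := h ℓ hℓ hℓNp A hA
  exact es_of_subgroup (K := ℚ) (L := Qb) (fun y => heckeOperatorBar N ⟨ℓ, hℓ⟩ y)
    (heckeOperatorBar_nsmul_eq_zero ⟨ℓ, hℓ⟩) hσ₀ (relBar N A ⟨ℓ, hℓ⟩ σ₀)
    (fun τ hτ x => AddSubgroup.subset_closure (Or.inl ⟨τ, hτ, x, rfl⟩))
    (fun x => AddSubgroup.subset_closure (Or.inr ⟨x, rfl⟩)) hcore hσ hx

omit [NeZero N] in
/-- `p`-torsion points are `p`-power torsion. -/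
theorem ppow_torsion_of_mem_torsionBy {p : ℕ} {x : JZero N}
    (hx : x ∈ Submodule.torsionBy ℤ (JZero N) (p : ℤ)) : ∃ n : ℕ, p ^ n • x = 0 := by
  refine ⟨1, ?_⟩
  have h := (Submodule.mem_torsionBy_iff (p : ℤ) x).mp hx
  rw [pow_one]
  rwa [natCast_zsmul] at h

/-- `torsionBy` form of `inertia_smul_eq_of_coreHom`. -/
theorem inertia_smul_eq_of_coreHom_torsionBy {p : ℕ} (h : Stmt_CoreHom N p) {ℓ : ℕ}
    (hℓ : ℓ.Prime) (hℓNp : ¬ ℓ ∣ N * p) {A : ValuationSubring Qb} (hA : A.LiesOverPrime ℓ)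
    {τ : GQ} (hτ : τ ∈ A.inertiaSubgroupIn ℚ) {x : JZero N}
    (hx : x ∈ Submodule.torsionBy ℤ (JZero N) (p : ℤ)) : τ • x = x :=
  inertia_smul_eq_of_coreHom h hℓ hℓNp hA hτ (ppow_torsion_of_mem_torsionBy hx)

/-- `torsionBy` form of `es_of_coreHom`. -/
theorem es_of_coreHom_torsionBy {p : ℕ} (h : Stmt_CoreHom N p) {ℓ : ℕ} (hℓ : ℓ.Prime)
    (hℓNp : ¬ ℓ ∣ N * p) {A : ValuationSubring Qb} (hA : A.LiesOverPrime ℓ) {σ : GQ}
    (hσ : A.IsFrobeniusAt σ ℓ) {x : JZero N}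
    (hx : x ∈ Submodule.torsionBy ℤ (JZero N) (p : ℤ)) :
    σ • σ • x - heckeOperatorBar N ⟨ℓ, hℓ⟩ (σ • x) + ℓ • x = 0 :=
  es_of_coreHom h hℓ hℓNp hA hσ (ppow_torsion_of_mem_torsionBy hx)

end Modular

end Fermat.Agent.S29.helper7959
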