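import Mathlib

/-!
# Eigen-occurrence: the algebra core (S29, step M6)

Let `T` be a commutative ring acting faithfully on a finitely generated module `M`
(for instance a Hecke ring acting on a lattice of cusp forms, or on the homology of a
modular curve).  Then every ring homomorphism `lam : T →+* K` to a field `K`
"occurs" in `M`: there is a nonzero additive map `φ : M →+ K` with
`φ (t • x) = lam t * φ x`.

The proof does not reduce `T` modulo a prime number (`T ⊗ 𝔽_p` need not act faithfully
on `M / p M`).  Instead it uses supports over `T` itself: a faithful finite module has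
full support, so its fibre at the prime `ker lam` is nonzero (Nakayama), and this
fibre base-changes to a nonzero `K`-vector space, which carries a nonzero functional.
-/

namespace Fermat.Agent.S29.helper5350

open TensorProduct

/-- A finite faithful module over a commutative ring has a nonzero base change along
every ring homomorphism to a field. -/
theorem nontrivial_tensor_of_faithful {T : Type*} [CommRing T] {M : Type*} [AddCommGroup M]
    [Module T M] [Module.Finite T M] (hfaith : ∀ t : T, (∀ x : M, t • x = 0) → t = 0)
    (K : Type*) [Field K] [Algebra T K] :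
    Nontrivial (K ⊗[T] M) := by
  classical
  have hker : (RingHom.ker (algebraMap T K)).IsPrime := RingHom.ker_isPrime _
  let p : PrimeSpectrum T := ⟨RingHom.ker (algebraMap T K), hker⟩
  have hann : Module.annihilator T M = ⊥ := by
    rw [eq_bot_iff]
    intro t ht
    rw [Module.mem_annihilator] at ht
    exact hfaith t ht
  have hp : p ∈ Module.support T M :=
    Module.mem_support_iff_of_finite.mpr (by rw [hann]; exact bot_le)
  have h1 : Nontrivial (p.asIdeal.ResidueField ⊗[T] M) :=
    (Module.mem_support_iff_nontrivial_residueField_tensorProduct p).mp hp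
  -- the residue field of `ker (T → K)` embeds in `K`
  let g : T ⧸ p.asIdeal →+* K :=
    Ideal.Quotient.lift p.asIdeal (algebraMap T K) (fun a ha => ha)
  have hg : Function.Injective g := by
    rw [RingHom.injective_iff_ker_eq_bot, eq_bot_iff]
    intro x hx
    obtain ⟨x, rfl⟩ := Ideal.Quotient.mk_surjective x
    rw [RingHom.mem_ker] at hx
    have : algebraMap T K x = 0 := hx
    exact (Ideal.Quotient.eq_zero_iff_mem.mpr this)
  let ι : p.asIdeal.ResidueField →+* K := IsFractionRing.lift hg
  let _ : Algebra p.asIdeal.ResidueField K := ι.toAlgebra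
  have : IsScalarTower T p.asIdeal.ResidueField K := by
    refine IsScalarTower.of_algebraMap_eq (fun x => ?_)
    change algebraMap T K x = ι (algebraMap T p.asIdeal.ResidueField x)
    rw [← Ideal.algebraMap_quotient_residueField_mk]
    change _ = IsFractionRing.lift hg (algebraMap _ _ _)
    rw [IsFractionRing.lift_algebraMap]
    rfl
  let e := AlgebraTensorModule.cancelBaseChange T p.asIdeal.ResidueField K K M
  have h2 : Nontrivial (K ⊗[p.asIdeal.ResidueField] (p.asIdeal.ResidueField ⊗[T] M)) :=
    inferInstance
  exact e.toEquiv.symm.nontrivial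

/-- **Eigen-occurrence, module form.**  If a commutative ring `T` acts faithfully on a
finite `T`-module `M`, then every ring homomorphism `lam : T →+* K` to a field is the
eigenvalue system of a nonzero additive functional `M →+ K`. -/
theorem exists_eigen_functional_of_faithful {T : Type*} [CommRing T] {M : Type*}
    [AddCommGroup M] [Module T M] [Module.Finite T M]
    (hfaith : ∀ t : T, (∀ x : M, t • x = 0) → t = 0)
    {K : Type*} [Field K] (lam : T →+* K) :
    ∃ φ : M →+ K, φ ≠ 0 ∧ ∀ (t : T) (x : M), φ (t • x) = lam t * φ x := by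
  classical
  let _ : Algebra T K := lam.toAlgebra
  have hnt : Nontrivial (K ⊗[T] M) := nontrivial_tensor_of_faithful hfaith K
  obtain ⟨v, hv⟩ := exists_ne (0 : K ⊗[T] M)
  have hex : ∃ f : Module.Dual K (K ⊗[T] M), f v ≠ 0 := by
    by_contra hcon
    push Not at hcon
    exact hv ((Module.forall_dual_apply_eq_zero_iff K v).mp hcon)
  obtain ⟨f, hf⟩ := hex
  let φ : M →+ K :=
    (f.toAddMonoidHom).comp ((TensorProduct.mk T K M 1).toAddMonoidHom)
  have hφ : ∀ x : M, φ x = f ((1 : K) ⊗ₜ[T] x) := fun x => rfl
  refine ⟨φ, ?_, ?_⟩
  · intro h0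
    apply hf
    have hpure : ∀ (k : K) (x : M), f (k ⊗ₜ[T] x) = 0 := by
      intro k x
      have h1 : k ⊗ₜ[T] x = k • ((1 : K) ⊗ₜ[T] x) := by
        rw [TensorProduct.smul_tmul', smul_eq_mul, mul_one]
      rw [h1, map_smul, ← hφ, h0]
      simp
    have hall : ∀ w : K ⊗[T] M, f w = 0 := by
      intro w
      induction w using TensorProduct.induction_on with
      | zero => exact map_zero f
      | tmul k x => exact hpure k x
      | add a b iha ihb => rw [map_add, iha, ihb, add_zero]
    exact hall v
  · intro t x
    rw [hφ, hφ]
    have h1 : (1 : K) ⊗ₜ[T] (t • x) = (lam t) • ((1 : K) ⊗ₜ[T] x) := by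
      rw [TensorProduct.tmul_smul, TensorProduct.smul_tmul', TensorProduct.smul_tmul']
      congr 1
    rw [h1, map_smul, smul_eq_mul]

/-- **Eigen-occurrence, lattice form.**  Let a commutative ring `T` act faithfully, through
`act : T →+* End_ℤ(Lam)`, on a finitely generated abelian group `Lam`.  Then every ring
homomorphism `lam : T →+* K` to a field is the eigenvalue system of a nonzero additive
functional `Lam →+ K`. -/
theorem exists_eigen_functional {T : Type*} [CommRing T] {Lam : Type*} [AddCommGroup Lam]
    [Module.Finite ℤ Lam] (act : T →+* Module.End ℤ Lam) (hact : Function.Injective act)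
    {K : Type*} [Field K] (lam : T →+* K) :
    ∃ φ : Lam →+ K, φ ≠ 0 ∧ ∀ (t : T) (x : Lam), φ (act t x) = lam t * φ x := by
  let _ : Module T Lam := Module.compHom Lam act
  have hsmul : ∀ (t : T) (x : Lam), t • x = act t x := fun t x => rfl
  have : IsScalarTower ℤ T Lam := by
    refine ⟨fun n t x => ?_⟩
    rw [hsmul, hsmul, map_zsmul]
    rfl
  have : Module.Finite T Lam := Module.Finite.of_restrictScalars_finite ℤ T Lam
  have hfaith : ∀ t : T, (∀ x : Lam, t • x = 0) → t = 0 := by
    intro t ht
    apply hact
    rw [map_zero]
    ext x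
    exact ht x
  obtain ⟨φ, h0, h1⟩ := exists_eigen_functional_of_faithful hfaith lam
  exact ⟨φ, h0, fun t x => h1 t x⟩

/-- **Eigen-occurrence, `K`-linear functional form.**  Same hypotheses as
`exists_eigen_functional`; the conclusion is a nonzero `K`-linear functional on
`K ⊗[ℤ] Lam` which is a simultaneous eigenvector of the transposed operators. -/
theorem exists_eigen_dual {T : Type*} [CommRing T] {Lam : Type*} [AddCommGroup Lam]
    [Module.Finite ℤ Lam] (act : T →+* Module.End ℤ Lam) (hact : Function.Injective act)
    {K : Type*} [Field K] (lam : T →+* K) :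
    ∃ Φ : Module.Dual K (K ⊗[ℤ] Lam), Φ ≠ 0 ∧
      ∀ (t : T) (v : K ⊗[ℤ] Lam), Φ ((act t).baseChange K v) = lam t * Φ v := by
  obtain ⟨φ, h0, h1⟩ := exists_eigen_functional act hact lam
  refine ⟨(φ.toIntLinearMap).liftBaseChange K, ?_, ?_⟩
  · intro hΦ
    apply h0
    ext x
    have := congrArg (fun Ψ : Module.Dual K (K ⊗[ℤ] Lam) => Ψ ((1 : K) ⊗ₜ[ℤ] x)) hΦ
    simpa using this
  · intro t v
    induction v using TensorProduct.induction_on with
    | zero => simp
    | tmul k x =>
      rw [LinearMap.baseChange_tmul, LinearMap.liftBaseChange_tmul,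
        LinearMap.liftBaseChange_tmul]
      change k • φ (act t x) = lam t * (k • φ x)
      rw [h1 t x, smul_eq_mul, smul_eq_mul]
      ring
    | add a b iha ihb => rw [map_add, map_add, iha, ihb, map_add, mul_add]

/-- The transposed action of a commutative ring on the dual of a lattice. -/
noncomputable def dualAct {T : Type*} [CommRing T] {Lam : Type*} [AddCommGroup Lam]
    (act : T →+* Module.End ℤ Lam) : T →+* Module.End ℤ (Module.Dual ℤ Lam) where
  toFun t := (act t).dualMap
  map_one' := by
    rw [map_one]
    exact LinearMap.dualMap_id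
  map_mul' s t := by
    rw [mul_comm s t, map_mul]
    exact (LinearMap.dualMap_comp_dualMap (act s) (act t)).symm
  map_zero' := by
    rw [map_zero]
    ext f x
    simp
  map_add' s t := by
    rw [map_add]
    ext f x
    simp

theorem dualAct_apply {T : Type*} [CommRing T] {Lam : Type*} [AddCommGroup Lam]
    (act : T →+* Module.End ℤ Lam) (t : T) (f : Module.Dual ℤ Lam) (x : Lam) :
    dualAct act t f x = f (act t x) := rfl

theorem dualAct_injective {T : Type*} [CommRing T] {Lam : Type*} [AddCommGroup Lam]
    [Module.Free ℤ Lam] (act : T →+* Module.End ℤ Lam) (hact : Function.Injective act) :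
    Function.Injective (dualAct act) := by
  rw [injective_iff_map_eq_zero]
  intro t ht
  apply hact
  rw [map_zero]
  ext x
  apply (Module.forall_dual_apply_eq_zero_iff ℤ (act t x)).mp
  intro f
  have := congrArg (fun g : Module.End ℤ (Module.Dual ℤ Lam) => g f x) ht
  simpa [dualAct_apply] using this

/-- The pairing `K ⊗[ℤ] Lam × Hom(Lam, ℤ) → K` is non-degenerate on the left when `Lam`
is finite free. -/
theorem eq_zero_of_forall_dual_baseChange {Lam : Type*} [AddCommGroup Lam]
    [Module.Finite ℤ Lam] [Module.Free ℤ Lam] {K : Type*} [Field K] (d : K ⊗[ℤ] Lam)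
    (h : ∀ f : Module.Dual ℤ Lam, f.baseChange K d = 0) : d = 0 := by
  classical
  let b := Module.Free.chooseBasis ℤ Lam
  have hrepr : ∀ (i : Module.Free.ChooseBasisIndex ℤ Lam) (e : K ⊗[ℤ] Lam),
      (b.baseChange K).repr e i = Module.Dual.baseChange K (b.coord i) e := by
    intro i e
    induction e using TensorProduct.induction_on with
    | zero => simp
    | tmul x y =>
      rw [Module.Basis.baseChange_repr_tmul, Module.Dual.baseChange_apply_tmul,
        Module.Basis.coord_apply]
    | add a b' iha ihb => rw [map_add, map_add, Finsupp.add_apply, iha, ihb]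
  apply (b.baseChange K).ext_elem
  intro i
  rw [hrepr, h, map_zero, Finsupp.zero_apply]

/-- **Eigen-occurrence, eigenvector form.**  Let a commutative ring `T` act faithfully on a
finite free abelian group `Lam`.  Then every ring homomorphism `lam : T →+* K` to a field is
the eigenvalue system of a nonzero vector of `K ⊗[ℤ] Lam`. -/
theorem exists_eigen_vector {T : Type*} [CommRing T] {Lam : Type*} [AddCommGroup Lam]
    [Module.Finite ℤ Lam] [Module.Free ℤ Lam] (act : T →+* Module.End ℤ Lam)
    (hact : Function.Injective act) {K : Type*} [Field K] (lam : T →+* K) :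
    ∃ c : K ⊗[ℤ] Lam, c ≠ 0 ∧ ∀ t : T, (act t).baseChange K c = lam t • c := by
  classical
  obtain ⟨φ, hφ0, hφ⟩ := exists_eigen_functional (dualAct act) (dualAct_injective act hact) lam
  let b := Module.Free.chooseBasis ℤ Lam
  let c : K ⊗[ℤ] Lam := ∑ i, φ (b.coord i) ⊗ₜ[ℤ] b i
  have hpair : ∀ f : Module.Dual ℤ Lam, f.baseChange K c = φ f := by
    intro f
    simp only [c, map_sum, Module.Dual.baseChange_apply_tmul]
    conv_rhs => rw [← b.sum_dual_apply_smul_coord f]
    rw [map_sum]
    refine Finset.sum_congr rfl fun i _ => ?_
    rw [map_zsmul]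
  have hnat : ∀ (g : Module.End ℤ Lam) (f : Module.Dual ℤ Lam) (d : K ⊗[ℤ] Lam),
      f.baseChange K (g.baseChange K d) = (g.dualMap f).baseChange K d := by
    intro g f d
    induction d using TensorProduct.induction_on with
    | zero => simp
    | tmul x y =>
      rw [LinearMap.baseChange_tmul, Module.Dual.baseChange_apply_tmul,
        Module.Dual.baseChange_apply_tmul, LinearMap.dualMap_apply]
    | add a b' iha ihb => rw [map_add, map_add, iha, ihb, map_add]
  refine ⟨c, ?_, ?_⟩
  · intro hc
    apply hφ0
    ext f
    rw [← hpair f, hc, map_zero]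
    rfl
  · intro t
    rw [← sub_eq_zero]
    apply eq_zero_of_forall_dual_baseChange
    intro f
    rw [map_sub, hnat, hpair, map_smul, hpair]
    have := hφ t f
    rw [smul_eq_mul, sub_eq_zero]
    exact this

end Fermat.Agent.S29.helper5350
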