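import Mathlib
import Fermat.Prelude.Def_ModularCurve_LaurentCoeff
import Fermat.Agent.S29.helper6961_OrbitDescent

/-!
# S29 / M4: coefficient descent for `laurentBaseChange` (the "linear disjointness" step)

`k`, `L` fields of characteristic zero, `ι : k →+* L` a ring homomorphism,
`F₀ : IntermediateField ℚ (LaurentSeries ℚ)`.  Then

* `mem_laurentBaseChange_of_coeffMap_mem` : a Laurent series `y` over `k` whose image
  `coeffMap ι y` lies in `laurentBaseChange L F₀` already lies in `laurentBaseChange k F₀`
  ("`k((q)) ∩ L·F₀ = k·F₀`");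
* `coeffMap_mem_laurentBaseChange_iff` : the two memberships are equivalent;
* `exists_coeffMap_eq_of_coeff_mem_range` : a series over `L` all of whose coefficients lie in
  the range of `ι` is `coeffMap ι y` for a series `y` over `k`;
* `exists_mem_laurentBaseChange_coeffMap_eq` : the combination;
* `exists_descent_of_finite_stable` : the descent `Ω → K` for algebraically closed fields
  `K ⊆ Ω`: an element of `laurentBaseChange Ω F₀` lying in a *finite* set of Laurent series
  stable under the coefficientwise action of `Aut(Ω/K)` comes from `laurentBaseChange K F₀`.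

The proof is basis-free: for a `k`-linear functional `π : L → k` the coefficientwise push
`π_* : L((q)) → k((q))` satisfies `π_* (coeffMap ι z * x) = z * π_* x`, and maps the
`L`-algebra generated by `coeffEmb L '' F₀` into the `k`-algebra generated by
`coeffEmb k '' F₀` (span induction, quantified over all `π`).  If `coeffMap ι y * b = a` with
`a`, `b` in the `L`-algebra and `b ≠ 0`, choose `π` not vanishing at a nonzero coefficient of
`b`: then `y = π_* a / π_* b`.
-/

set_option autoImplicit false

namespace Fermat.Agent.S29.helper6961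

open HahnSeries ModularCurve

section Push

variable {k L : Type*} [Field k] [Field L]

/-- Coefficientwise push of a Laurent series along an additive map. -/
noncomputable def pushCoeff (π : L →+ k) (x : LaurentSeries L) : LaurentSeries k :=
  x.map π

@[simp] theorem pushCoeff_coeff (π : L →+ k) (x : LaurentSeries L) (n : ℤ) :
    (pushCoeff π x).coeff n = π (x.coeff n) := rfl

theorem pushCoeff_zero (π : L →+ k) : pushCoeff π 0 = 0 := by
  ext n; simp

theorem pushCoeff_add (π : L →+ k) (x y : LaurentSeries L) :
    pushCoeff π (x + y) = pushCoeff π x + pushCoeff π y := by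
  ext n; simp

theorem support_pushCoeff_subset (π : L →+ k) (x : LaurentSeries L) :
    (pushCoeff π x).support ⊆ x.support := by
  intro n hn
  rw [HahnSeries.mem_support] at hn ⊢
  intro h
  apply hn
  rw [pushCoeff_coeff, h, map_zero]

theorem support_coeffMap_subset (ι : k →+* L) (z : LaurentSeries k) :
    (coeffMap ι z).support ⊆ z.support := by
  intro n hn
  rw [HahnSeries.mem_support] at hn ⊢
  intro h
  apply hn
  rw [coeffMap_coeff, h, map_zero]

/-- The key identity: the push along a `k`-linear functional is linear over `k((q))`. -/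
theorem pushCoeff_coeffMap_mul (ι : k →+* L) (π : L →+ k)
    (hπ : ∀ (c : k) (l : L), π (ι c * l) = c * π l)
    (z : LaurentSeries k) (x : LaurentSeries L) :
    pushCoeff π (coeffMap ι z * x) = z * pushCoeff π x := by
  ext n
  rw [pushCoeff_coeff,
    HahnSeries.coeff_mul_left' z.isPWO_support (support_coeffMap_subset ι z),
    HahnSeries.coeff_mul_right' x.isPWO_support (support_pushCoeff_subset π x), map_sum]
  refine Finset.sum_congr rfl fun ij _ => ?_
  rw [coeffMap_coeff, hπ, pushCoeff_coeff]

/-- Precomposing a `k`-linear functional with a multiplication is again `k`-linear. -/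
theorem pushCoeff_algebraMap_mul (π : L →+ k) (c : L) (x : LaurentSeries L) :
    pushCoeff π (algebraMap L (LaurentSeries L) c * x) =
      pushCoeff (π.comp (AddMonoidHom.mulLeft c)) x := by
  ext n
  rw [pushCoeff_coeff, algebraMap_laurentSeries_eq_single, HahnSeries.coeff_single_zero_mul]
  rfl

end Push

section Descent

variable {k L : Type*} [Field k] [Field L] [Algebra ℚ k] [Algebra ℚ L]

theorem coeffMap_coeffEmb_eq (ι : k →+* L) (f : LaurentSeries ℚ) :
    coeffMap ι (coeffEmb k f) = coeffEmb L f := by
  rw [coeffEmb, coeffEmb, coeffMap_coeffMap]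
  exact coeffMap_congr (RingHom.ext_rat _ _) f

/-- Elements of the monoid generated by `coeffEmb L '' F₀` are again of this form. -/
theorem exists_eq_coeffEmb_of_mem_closure (F₀ : IntermediateField ℚ (LaurentSeries ℚ))
    {m : LaurentSeries L}
    (hm : m ∈ Submonoid.closure (⇑(coeffEmb L) '' (F₀ : Set (LaurentSeries ℚ)))) :
    ∃ f ∈ F₀, coeffEmb L f = m := by
  induction hm using Submonoid.closure_induction with
  | mem x hx => exact hx
  | one => exact ⟨1, one_mem _, map_one _⟩
  | mul x y _ _ hx hy =>
      obtain ⟨f, hf, rfl⟩ := hx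
      obtain ⟨g, hg, rfl⟩ := hy
      exact ⟨f * g, mul_mem hf hg, map_mul _ _ _⟩

/-- The push along any `k`-linear functional maps the `L`-algebra generated by `F₀` into the
`k`-algebra generated by `F₀`. -/
theorem pushCoeff_mem_adjoin (ι : k →+* L) (F₀ : IntermediateField ℚ (LaurentSeries ℚ))
    {x : LaurentSeries L}
    (hx : x ∈ Algebra.adjoin L (⇑(coeffEmb L) '' (F₀ : Set (LaurentSeries ℚ)))) :
    ∀ π : L →+ k, (∀ (c : k) (l : L), π (ι c * l) = c * π l) →
      pushCoeff π x ∈ Algebra.adjoin k (⇑(coeffEmb k) '' (F₀ : Set (LaurentSeries ℚ))) := by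
  have h := hx
  rw [← Subalgebra.mem_toSubmodule, Algebra.adjoin_eq_span] at h
  clear hx
  induction h using Submodule.span_induction with
  | mem m hm =>
      intro π hπ
      obtain ⟨f, hf, rfl⟩ := exists_eq_coeffEmb_of_mem_closure F₀ hm
      have h1 : coeffEmb L f = coeffMap ι (coeffEmb k f) * 1 := by
        rw [mul_one, coeffMap_coeffEmb_eq]
      have h2 : pushCoeff π (1 : LaurentSeries L) = algebraMap k (LaurentSeries k) (π 1) := by
        rw [algebraMap_laurentSeries_eq_single]
        ext n
        rw [pushCoeff_coeff, HahnSeries.coeff_one, HahnSeries.coeff_single]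
        split_ifs <;> simp
      rw [h1, pushCoeff_coeffMap_mul ι π hπ, h2]
      exact mul_mem (Algebra.subset_adjoin ⟨f, hf, rfl⟩) (Subalgebra.algebraMap_mem _ _)
  | zero =>
      intro π _
      rw [pushCoeff_zero]
      exact zero_mem _
  | add x y _ _ hx hy =>
      intro π hπ
      rw [pushCoeff_add]
      exact add_mem (hx π hπ) (hy π hπ)
  | smul c x _ hx =>
      intro π hπ
      rw [Algebra.smul_def, pushCoeff_algebraMap_mul]
      refine hx _ ?_
      intro d l
      simp only [AddMonoidHom.coe_comp, AddMonoidHom.coe_mulLeft, Function.comp_apply]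
      rw [← hπ d (c * l)]
      congr 1
      ring

/-- Existence of a `k`-linear functional on `L` not vanishing at a given nonzero element. -/
theorem exists_functional_ne_zero (ι : k →+* L) {v : L} (hv : v ≠ 0) :
    ∃ π : L →+ k, (∀ (c : k) (l : L), π (ι c * l) = c * π l) ∧ π v ≠ 0 := by
  let _ : Algebra k L := ι.toAlgebra
  have h := (Module.forall_dual_apply_eq_zero_iff k v).not.mpr hv
  push Not at h
  obtain ⟨φ, hφ⟩ := h
  refine ⟨φ.toAddMonoidHom, ?_, hφ⟩
  intro c l
  have : ι c * l = c • l := by
    rw [Algebra.smul_def]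
    rfl
  rw [this]
  exact φ.map_smul c l

variable (F₀ : IntermediateField ℚ (LaurentSeries ℚ))

/-- **Coefficient descent** ("`k((q)) ∩ L·F₀ = k·F₀`"): if the coefficientwise image of a
Laurent series `y` over `k` lies in the base change of `F₀` to `L`, then `y` lies in the base
change of `F₀` to `k`. -/
theorem mem_laurentBaseChange_of_coeffMap_mem (ι : k →+* L) (y : LaurentSeries k)
    (h : coeffMap ι y ∈ laurentBaseChange L F₀) : y ∈ laurentBaseChange k F₀ := by
  rw [laurentBaseChange, IntermediateField.mem_adjoin_iff_div] at h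
  obtain ⟨a, ha, b, hb, hab⟩ := h
  have hinj : Function.Injective (coeffMap ι) := by
    intro u v huv
    ext n
    have := congrArg (fun w => w.coeff n) huv
    simp only [coeffMap_coeff] at this
    exact ι.injective this
  by_cases hb0 : b = 0
  · rw [hb0, div_zero] at hab
    have : y = 0 := hinj (by rw [hab, map_zero])
    rw [this]
    exact zero_mem _
  · have hmul : coeffMap ι y * b = a := by
      rw [hab, div_mul_cancel₀ _ hb0]
    obtain ⟨t, ht⟩ : ∃ t, b.coeff t ≠ 0 := by
      by_contra hcon
      push Not at hcon
      exact hb0 (HahnSeries.ext (funext hcon))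
    obtain ⟨π, hπ, hπt⟩ := exists_functional_ne_zero ι ht
    have ha' := pushCoeff_mem_adjoin ι F₀ ha π hπ
    have hb' := pushCoeff_mem_adjoin ι F₀ hb π hπ
    have hb'0 : pushCoeff π b ≠ 0 := by
      intro h0
      apply hπt
      have := congrArg (fun w => w.coeff t) h0
      simpa using this
    have hy : y = pushCoeff π a / pushCoeff π b := by
      rw [eq_div_iff hb'0, ← pushCoeff_coeffMap_mul ι π hπ, hmul]
    rw [hy]
    exact div_mem (IntermediateField.algebra_adjoin_le_adjoin k _ ha')
      (IntermediateField.algebra_adjoin_le_adjoin k _ hb')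

/-- The easy direction: the coefficientwise image of the base change to `k` lies in the base
change to `L`. -/
theorem coeffMap_mem_laurentBaseChange_of_mem (ι : k →+* L) {y : LaurentSeries k}
    (hy : y ∈ laurentBaseChange k F₀) : coeffMap ι y ∈ laurentBaseChange L F₀ := by
  rw [mem_laurentBaseChange_iff] at hy
  induction hy using Subfield.closure_induction with
  | mem x hx =>
      rcases hx with ⟨c, rfl⟩ | ⟨z, hz, rfl⟩
      · rw [algebraMap_laurentSeries_eq_single, coeffMap_single,
          ← algebraMap_laurentSeries_eq_single]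
        exact (laurentBaseChange L F₀).algebraMap_mem _
      · rw [coeffMap_coeffEmb_eq]
        exact coeffEmb_mem_laurentBaseChange L hz
  | one => simp
  | add x y _ _ hx hy => simpa using add_mem hx hy
  | neg x _ hx => simpa using neg_mem hx
  | inv x _ hx => simpa using inv_mem hx
  | mul x y _ _ hx hy => simpa using mul_mem hx hy

theorem coeffMap_mem_laurentBaseChange_iff (ι : k →+* L) (y : LaurentSeries k) :
    coeffMap ι y ∈ laurentBaseChange L F₀ ↔ y ∈ laurentBaseChange k F₀ :=
  ⟨mem_laurentBaseChange_of_coeffMap_mem F₀ ι y, coeffMap_mem_laurentBaseChange_of_mem F₀ ι⟩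

/-- A Laurent series over `L` all of whose coefficients lie in the range of `ι` is the
coefficientwise image of a Laurent series over `k`. -/
theorem exists_coeffMap_eq_of_coeff_mem_range (ι : k →+* L) (u : LaurentSeries L)
    (h : ∀ n, u.coeff n ∈ Set.range ι) : ∃ y : LaurentSeries k, coeffMap ι y = u := by
  choose g hg using h
  have hsupp : Function.support g ⊆ u.support := by
    intro n hn
    rw [HahnSeries.mem_support, ← hg n]
    exact fun h0 => hn (ι.injective (by rw [h0, map_zero]))
  refine ⟨⟨g, u.isPWO_support.mono hsupp⟩, ?_⟩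
  ext n
  rw [coeffMap_coeff]
  exact hg n

/-- **Descent of elements with coefficients in the small field.** -/
theorem exists_mem_laurentBaseChange_coeffMap_eq (ι : k →+* L) {u : LaurentSeries L}
    (hu : u ∈ laurentBaseChange L F₀) (h : ∀ n, u.coeff n ∈ Set.range ι) :
    ∃ y ∈ laurentBaseChange k F₀, coeffMap ι y = u := by
  obtain ⟨y, rfl⟩ := exists_coeffMap_eq_of_coeff_mem_range ι u h
  exact ⟨y, mem_laurentBaseChange_of_coeffMap_mem F₀ ι y hu, rfl⟩

end Descent

section Galois

variable {K Ω : Type*} [Field K] [Field Ω] [Algebra K Ω] [Algebra ℚ K] [Algebra ℚ Ω]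
  [IsAlgClosed K] [IsAlgClosed Ω]

/-- **Descent `Ω → K` from a finite Galois-stable set** (`K ⊆ Ω` algebraically closed, e.g.
`ℚ̄ ⊆ ℂ`): an element `u` of the function field `laurentBaseChange Ω F₀` that belongs to a
finite set `S` of Laurent series stable under the coefficientwise action of `Aut(Ω/K)` is the
image of an element of `laurentBaseChange K F₀`. -/
theorem exists_descent_of_finite_stable (F₀ : IntermediateField ℚ (LaurentSeries ℚ))
    (S : Set (LaurentSeries Ω)) (hS : S.Finite)
    (hstab : ∀ σ : Ω ≃ₐ[K] Ω, ∀ u ∈ S, coeffMap (σ : Ω →+* Ω) u ∈ S)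
    {u : LaurentSeries Ω} (huS : u ∈ S) (hu : u ∈ laurentBaseChange Ω F₀) :
    ∃ y ∈ laurentBaseChange K F₀, coeffMap (algebraMap K Ω) y = u := by
  refine exists_mem_laurentBaseChange_coeffMap_eq F₀ (algebraMap K Ω) hu fun n => ?_
  exact laurent_coeff_mem_range_of_finite_stable (K := K)
    (fun σ v => coeffMap (σ : Ω →+* Ω) v) (fun σ v m => rfl) S hS hstab huS n

/-- Variant: a single element fixed by the coefficientwise action of a set of automorphisms
whose translates cover `Aut(Ω/K)` up to finitely many values, stated as: the set of all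
coefficientwise conjugates of `u` is finite. -/
theorem exists_descent_of_finite_conjugates (F₀ : IntermediateField ℚ (LaurentSeries ℚ))
    {u : LaurentSeries Ω}
    (hfin : (Set.range fun σ : Ω ≃ₐ[K] Ω => coeffMap (σ : Ω →+* Ω) u).Finite)
    (hu : u ∈ laurentBaseChange Ω F₀) :
    ∃ y ∈ laurentBaseChange K F₀, coeffMap (algebraMap K Ω) y = u := by
  refine exists_descent_of_finite_stable (K := K) F₀ _ hfin ?_ ⟨1, ?_⟩ hu
  · rintro σ _ ⟨τ, rfl⟩
    refine ⟨σ * τ, ?_⟩
    ext n
    simp
  · ext n
    simp

end Galois

end Fermat.Agent.S29.helper6961
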