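import Mathlib

/-!
# `p`-th roots of holomorphic functions on the upper half plane (helper3343, S29-ROOT)

Analytic core of the Kummer injection `U → Hom(Γ, μ_p)` (route #1370 M2):

a holomorphic function on the open upper half plane all of whose zeros have order divisible
by `p` is the `p`-th power of a holomorphic function.

Proof: on every closed disc inside the half plane, Mathlib's `MeromorphicOn.extract_zeros_poles`
splits off the (finitely many) zeros; the zero-free factor has a holomorphic logarithm on the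
open disc (primitive of the logarithmic derivative); roots on two discs through a common base
point agree after normalisation (identity theorem); glue.
-/

set_option autoImplicit false

open Complex Metric Set Filter Topology

namespace Fermat.Agent.S29.helper3343

/-- The open upper half plane as a subset of `ℂ`. -/
def uhp : Set ℂ := {z : ℂ | 0 < z.im}

theorem mem_uhp {z : ℂ} : z ∈ uhp ↔ 0 < z.im := Iff.rfl

theorem isOpen_uhp : IsOpen uhp := isOpen_lt continuous_const Complex.continuous_im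

/-- A zero-free holomorphic function on an open disc has a holomorphic `p`-th root. -/
theorem exists_root_of_ne_zero_ball {c : ℂ} {r : ℝ} {g : ℂ → ℂ}
    (hg : DifferentiableOn ℂ g (ball c r)) (hg0 : ∀ z ∈ ball c r, g z ≠ 0) {p : ℕ} (hp : 0 < p) :
    ∃ k : ℂ → ℂ, DifferentiableOn ℂ k (ball c r) ∧ ∀ z ∈ ball c r, k z ^ p = g z := by
  rcases le_or_gt r 0 with hr | hr
  · refine ⟨fun _ => 0, differentiableOn_const _, fun z hz => ?_⟩
    rw [ball_eq_empty.mpr hr] at hz
    exact absurd hz (notMem_empty z)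
  have hc : c ∈ ball c r := mem_ball_self hr
  have hdg : DifferentiableOn ℂ (deriv g) (ball c r) := hg.deriv isOpen_ball
  have hφ : DifferentiableOn ℂ (fun z => deriv g z / g z) (ball c r) := hdg.div hg hg0
  obtain ⟨L, hL⟩ := hφ.isExactOn_ball
  -- `F = g * exp (-L)` has zero derivative on the ball
  have hF : ∀ z ∈ ball c r, HasDerivAt (fun z => g z * Complex.exp (-L z)) 0 z := by
    intro z hz
    have h1 : HasDerivAt g (deriv g z) z :=
      (hg.differentiableAt (isOpen_ball.mem_nhds hz)).hasDerivAt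
    have h2 : HasDerivAt (fun z => Complex.exp (-L z))
        (Complex.exp (-L z) * (-(deriv g z / g z))) z := (hL z hz).neg.cexp
    have h3 := h1.mul h2
    have h4 : deriv g z * Complex.exp (-L z) +
        g z * (Complex.exp (-L z) * (-(deriv g z / g z))) = 0 := by
      field_simp [hg0 z hz]
      ring
    rwa [h4] at h3
  have hFd : DifferentiableOn ℂ (fun z => g z * Complex.exp (-L z)) (ball c r) :=
    fun z hz => (hF z hz).differentiableAt.differentiableWithinAt
  have hFc : ∀ z ∈ ball c r, g z * Complex.exp (-L z) = g c * Complex.exp (-L c) := by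
    intro z hz
    exact isOpen_ball.is_const_of_deriv_eq_zero (convex_ball c r).isPreconnected hFd
      (fun w hw => (hF w hw).deriv) hz hc
  obtain ⟨a, ha⟩ := IsAlgClosed.exists_pow_nat_eq (g c * Complex.exp (-L c)) hp
  refine ⟨fun z => a * Complex.exp (L z / p), ?_, fun z hz => ?_⟩
  · intro z hz
    have : DifferentiableAt ℂ L z := (hL z hz).differentiableAt
    exact (((this.div_const _).cexp).const_mul a).differentiableWithinAt
  · have hpne : (p : ℂ) ≠ 0 := Nat.cast_ne_zero.mpr hp.ne'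
    rw [mul_pow, ha, ← Complex.exp_nat_mul, mul_div_cancel₀ _ hpne, ← hFc z hz, mul_assoc,
      ← Complex.exp_add, neg_add_cancel, Complex.exp_zero, mul_one]

/-- A holomorphic function near a closed disc, all of whose zeros in the disc have order
divisible by `p`, has a holomorphic `p`-th root on the open disc. -/
theorem exists_root_ball {W : ℂ → ℂ} {c : ℂ} {r : ℝ} (hr : 0 < r) {p : ℕ} (hp : 0 < p)
    (hW : AnalyticOnNhd ℂ W (closedBall c r))
    (hdiv : ∀ z ∈ closedBall c r, ∃ m : ℕ, analyticOrderAt W z = ((p * m : ℕ) : ℕ∞)) :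
    ∃ h : ℂ → ℂ, AnalyticOnNhd ℂ h (ball c r) ∧ ∀ z ∈ ball c r, h z ^ p = W z := by
  classical
  set U : Set ℂ := closedBall c r with hU
  have hmer : MeromorphicOn W U := hW.meromorphicOn
  have hord : ∀ z ∈ U, ∃ m : ℕ, meromorphicOrderAt W z = (((p * m : ℕ) : ℤ) : WithTop ℤ) := by
    intro z hz
    obtain ⟨m, hm⟩ := hdiv z hz
    refine ⟨m, ?_⟩
    rw [(hW z hz).meromorphicOrderAt_eq, hm]
    rfl
  have h2 : ∀ u : U, meromorphicOrderAt W u ≠ ⊤ := by
    rintro ⟨z, hz⟩
    obtain ⟨m, hm⟩ := hord z hz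
    rw [hm]
    exact WithTop.coe_ne_top
  have h3 : (MeromorphicOn.divisor W U).support.Finite :=
    (MeromorphicOn.divisor W U).finiteSupport (isCompact_closedBall c r)
  obtain ⟨g, hg, hg0, hEq⟩ := hmer.extract_zeros_poles h2 h3
  set D := MeromorphicOn.divisor W U with hD
  -- the divisor is `p` times a nonnegative function
  have hDp : ∀ u : ℂ, ∃ m : ℕ, D u = ((p * m : ℕ) : ℤ) := by
    intro u
    by_cases hu : u ∈ U
    · obtain ⟨m, hm⟩ := hord u hu
      refine ⟨m, ?_⟩
      rw [hD, MeromorphicOn.divisor_apply hmer hu, hm]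
      rfl
    · exact ⟨0, by rw [hD, Function.locallyFinsuppWithin.apply_eq_zero_of_notMem _ hu]; simp⟩
  choose m hm using hDp
  set d : ℂ → ℤ := fun u => (m u : ℤ) with hd
  have hdD : ∀ u, D u = d u * p := by
    intro u
    rw [hm u, hd]
    push_cast
    ring
  have hdfin : d.support.Finite := by
    refine h3.subset fun u hu => ?_
    rw [Function.mem_support] at hu ⊢
    intro h0
    apply hu
    have := hdD u
    rw [h0] at this
    have hp' : (p : ℤ) ≠ 0 := by exact_mod_cast hp.ne'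
    rcases mul_eq_zero.mp this.symm with h | h
    · exact h
    · exact absurd h hp'
  set P : ℂ → ℂ := ∏ᶠ u, (fun x => x - u) ^ d u with hP
  have hPan : ∀ x, AnalyticAt ℂ P x := fun x =>
    Function.FactorizedRational.analyticAt (by rw [hd]; positivity)
  have hPpow : P ^ p = ∏ᶠ u, (fun x => x - u) ^ D u := by
    have hfin : Function.HasFiniteMulSupport (fun u : ℂ => (fun x : ℂ => x - u) ^ d u) := by
      show (Function.mulSupport fun u : ℂ => (fun x : ℂ => x - u) ^ d u).Finite
      rw [Function.FactorizedRational.mulSupport]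
      exact hdfin
    rw [hP, finprod_pow hfin]
    congr 1
    funext u
    rw [hdD u, zpow_mul]
    exact (zpow_natCast _ _).symm
  obtain ⟨k, hk, hkp⟩ := exists_root_of_ne_zero_ball (c := c) (r := r) (g := g)
    ((hg.mono ball_subset_closedBall).differentiableOn)
    (fun z hz => hg0 ⟨z, ball_subset_closedBall hz⟩) hp
  have hkan : AnalyticOnNhd ℂ k (ball c r) := hk.analyticOnNhd isOpen_ball
  have han : AnalyticOnNhd ℂ (fun z => P z * k z) (ball c r) :=
    fun z hz => (hPan z).mul (hkan z hz)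
  refine ⟨fun z => P z * k z, han, ?_⟩
  have hcU : c ∈ ball c r := mem_ball_self hr
  have hpowan : AnalyticOnNhd ℂ (fun z => (P z * k z) ^ p) (ball c r) := fun z hz => (han z hz).pow p
  have key : EqOn (fun z => (P z * k z) ^ p) W (ball c r) := by
    refine hpowan.eqOn_of_preconnected_of_frequently_eq (hW.mono ball_subset_closedBall)
      (convex_ball c r).isPreconnected hcU ?_
    have h1 := (mem_codiscreteWithin.mp hEq) c (mem_closedBall_self hr.le)
    rw [disjoint_principal_right] at h1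
    have h2 : ball c r ∈ 𝓝[≠] c := mem_nhdsWithin_of_mem_nhds (isOpen_ball.mem_nhds hcU)
    have h3 : ∀ᶠ z in 𝓝[≠] c, (P z * k z) ^ p = W z := by
      filter_upwards [h1, h2] with z hz1 hz2
      have hzU : z ∈ U := ball_subset_closedBall hz2
      have hz3 : z ∈ {x | W x = ((∏ᶠ u, (fun x => x - u) ^ D u) • g) x} := by
        by_contra hcon
        exact hz1 ⟨hzU, hcon⟩
      have hz4 : W z = ((∏ᶠ u, (fun x => x - u) ^ D u) • g) z := hz3
      rw [hz4, ← hPpow, mul_pow, hkp z hz2]
      rfl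
    exact h3.frequently
  exact fun z hz => key hz

/-- Two holomorphic `p`-th roots of the same function on a connected open set which agree
(and do not vanish) at one point agree everywhere. -/
theorem eqOn_of_pow_eq {V : Set ℂ} (hVo : IsOpen V) (hVc : IsPreconnected V) {h1 h2 : ℂ → ℂ}
    (a1 : AnalyticOnNhd ℂ h1 V) (a2 : AnalyticOnNhd ℂ h2 V) {p : ℕ} (hp : 0 < p)
    (hpow : ∀ z ∈ V, h1 z ^ p = h2 z ^ p) {z0 : ℂ} (hz0 : z0 ∈ V) (h0 : h1 z0 = h2 z0)
    (hne : h2 z0 ≠ 0) : EqOn h1 h2 V := by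
  refine a1.eqOn_of_preconnected_of_eventuallyEq a2 hVc hz0 ?_
  -- the finite set of nontrivial `p`-th roots of unity
  set T : Set ℂ := {ζ : ℂ | ζ ^ p = 1 ∧ ζ ≠ 1} with hT
  have hTfin : T.Finite := by
    refine (Polynomial.nthRootsFinset p (1 : ℂ)).finite_toSet.subset fun ζ hζ => ?_
    exact (Polynomial.mem_nthRootsFinset hp (1 : ℂ)).mpr hζ.1
  have hTc : IsClosed T := hTfin.isClosed
  have h1T : (1 : ℂ) ∉ T := fun h => h.2 rfl
  have hq : ContinuousAt (fun z => h1 z / h2 z) z0 :=
    (a1 z0 hz0).continuousAt.div (a2 z0 hz0).continuousAt hne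
  have hq1 : h1 z0 / h2 z0 = 1 := by rw [h0, div_self hne]
  have e1 : ∀ᶠ z in 𝓝 z0, h1 z / h2 z ∈ Tᶜ := by
    apply hq.eventually_mem
    rw [hq1]
    exact hTc.isOpen_compl.mem_nhds h1T
  have e2 : ∀ᶠ z in 𝓝 z0, h2 z ≠ 0 := (a2 z0 hz0).continuousAt.eventually_ne hne
  have e3 : ∀ᶠ z in 𝓝 z0, z ∈ V := hVo.mem_nhds hz0
  filter_upwards [e1, e2, e3] with z hz1 hz2 hz3
  have hpw : (h1 z / h2 z) ^ p = 1 := by
    rw [div_pow, hpow z hz3, div_self (pow_ne_zero p hz2)]
  have : h1 z / h2 z = 1 := by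
    by_contra hcon
    exact hz1 ⟨hpw, hcon⟩
  exact (div_eq_one_iff_eq hz2).mp this

/-- Any two points of the upper half plane lie in a common open disc whose closure is contained
in the upper half plane. -/
theorem exists_ball_uhp {z z0 : ℂ} (hz : z ∈ uhp) (hz0 : z0 ∈ uhp) :
    ∃ (c : ℂ) (r : ℝ), 0 < r ∧ closedBall c r ⊆ uhp ∧ z0 ∈ ball c r ∧ z ∈ ball c r := by
  have hzi : 0 < z.im := hz
  have hz0i : 0 < z0.im := hz0
  set ε : ℝ := min z.im z0.im / 2 with hε
  have hε0 : 0 < ε := by rw [hε]; positivity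
  have hε1 : 2 * ε ≤ z.im := by rw [hε]; linarith [min_le_left z.im z0.im]
  have hε2 : 2 * ε ≤ z0.im := by rw [hε]; linarith [min_le_right z.im z0.im]
  set R : ℝ := max (‖z‖ ^ 2 / z.im) (‖z0‖ ^ 2 / z0.im) + ε + 1 with hR
  have hR1 : ‖z‖ ^ 2 / z.im < R := by
    rw [hR]; linarith [le_max_left (‖z‖ ^ 2 / z.im) (‖z0‖ ^ 2 / z0.im)]
  have hR2 : ‖z0‖ ^ 2 / z0.im < R := by
    rw [hR]; linarith [le_max_right (‖z‖ ^ 2 / z.im) (‖z0‖ ^ 2 / z0.im)]
  have hRε : ε < R := by
    have : 0 ≤ ‖z‖ ^ 2 / z.im := by positivity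
    rw [hR]; linarith [le_max_left (‖z‖ ^ 2 / z.im) (‖z0‖ ^ 2 / z0.im)]
  have hR0 : 0 < R := hε0.trans hRε
  have hr : 0 < R - ε := sub_pos.mpr hRε
  have hmem : ∀ w : ℂ, 0 < w.im → 2 * ε ≤ w.im → ‖w‖ ^ 2 / w.im < R →
      w ∈ ball ((R : ℂ) * I) (R - ε) := by
    intro w hw hwε hwR
    rw [mem_ball, dist_eq_norm, ← sq_lt_sq₀ (norm_nonneg _) hr.le, Complex.sq_norm,
      Complex.normSq_apply]
    have hw2 : ‖w‖ ^ 2 = w.re * w.re + w.im * w.im := by
      rw [Complex.sq_norm, Complex.normSq_apply]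
    have hwR' : ‖w‖ ^ 2 < R * w.im := (div_lt_iff₀ hw).mp hwR
    simp only [Complex.sub_re, Complex.sub_im, Complex.mul_re, Complex.mul_im, Complex.ofReal_re,
      Complex.ofReal_im, Complex.I_re, Complex.I_im, mul_zero, mul_one, sub_zero,
      add_zero]
    nlinarith [mul_le_mul_of_nonneg_left hwε hR0.le, sq_nonneg ε]
  refine ⟨(R : ℂ) * I, R - ε, hr, ?_, hmem z0 hz0i hε2 hR2, hmem z hzi hε1 hR1⟩
  intro w hw
  rw [mem_closedBall, dist_eq_norm] at hw
  have h1 : |(w - (R : ℂ) * I).im| ≤ R - ε := (Complex.abs_im_le_norm _).trans hw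
  have h2 : (w - (R : ℂ) * I).im = w.im - R := by simp
  rw [h2] at h1
  have h3 := (abs_le.mp h1).1
  show 0 < w.im
  linarith

/-- **`p`-th roots on the upper half plane.** A holomorphic function on the open upper half plane
all of whose zeros have order divisible by `p` is the `p`-th power of a holomorphic function. -/
theorem exists_root_uhp {W : ℂ → ℂ} {p : ℕ} (hp : 0 < p) (hW : AnalyticOnNhd ℂ W uhp)
    (hdiv : ∀ z ∈ uhp, ∃ m : ℕ, analyticOrderAt W z = ((p * m : ℕ) : ℕ∞)) :
    ∃ h : ℂ → ℂ, AnalyticOnNhd ℂ h uhp ∧ ∀ z ∈ uhp, h z ^ p = W z := by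
  classical
  -- a base point where `W` does not vanish
  have hI : (I : ℂ) ∈ uhp := by simp [uhp]
  obtain ⟨z0, hz0, hWz0⟩ : ∃ z0 ∈ uhp, W z0 ≠ 0 := by
    obtain ⟨m, hm⟩ := hdiv I hI
    have hne : analyticOrderAt W I ≠ ⊤ := by rw [hm]; exact ENat.natCast_ne_top _
    have hfr : ∃ᶠ z in 𝓝 (I : ℂ), W z ≠ 0 := by
      intro hcon
      apply hne
      rw [analyticOrderAt_eq_top]
      filter_upwards [hcon] with z hz
      exact not_not.mp hz
    obtain ⟨z0, h1, h2⟩ := (hfr.and_eventually (isOpen_uhp.mem_nhds hI)).exists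
    exact ⟨z0, h2, h1⟩
  obtain ⟨c0, hc0⟩ := IsAlgClosed.exists_pow_nat_eq (W z0) hp
  have hc0ne : c0 ≠ 0 := by
    rintro rfl
    rw [zero_pow hp.ne'] at hc0
    exact hWz0 hc0.symm
  -- normalised roots on discs through the base point
  have hloc : ∀ z ∈ uhp, ∃ (c : ℂ) (r : ℝ) (h : ℂ → ℂ), closedBall c r ⊆ uhp ∧ z0 ∈ ball c r ∧
      z ∈ ball c r ∧ AnalyticOnNhd ℂ h (ball c r) ∧ (∀ w ∈ ball c r, h w ^ p = W w) ∧
      h z0 = c0 := by
    intro z hz
    obtain ⟨c, r, hr, hsub, hz0m, hzm⟩ := exists_ball_uhp hz hz0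
    obtain ⟨h, han, hpow⟩ := exists_root_ball hr hp (hW.mono hsub)
      (fun w hw => hdiv w (hsub hw))
    have hh0 : h z0 ≠ 0 := by
      intro h0
      have := hpow z0 hz0m
      rw [h0, zero_pow hp.ne'] at this
      exact hWz0 this.symm
    refine ⟨c, r, fun w => c0 / h z0 * h w, hsub, hz0m, hzm, ?_, ?_, ?_⟩
    · exact fun w hw => analyticAt_const.mul (han w hw)
    · intro w hw
      rw [mul_pow, div_pow, hpow w hw, hpow z0 hz0m, hc0, div_self hWz0, one_mul]
    · exact div_mul_cancel₀ c0 hh0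
  choose! c r h hsub hz0m hzm han hpow hnorm using hloc
  have hball : ∀ z ∈ uhp, ball (c z) (r z) ⊆ uhp :=
    fun z hz => ball_subset_closedBall.trans (hsub z hz)
  -- compatibility of the local roots
  have hcompat : ∀ z ∈ uhp, ∀ w ∈ ball (c z) (r z), h w w = h z w := by
    intro z hz w hw
    have hwU : w ∈ uhp := hball z hz hw
    have hV : IsPreconnected (ball (c w) (r w) ∩ ball (c z) (r z)) :=
      ((convex_ball _ _).inter (convex_ball _ _)).isPreconnected
    have hVo : IsOpen (ball (c w) (r w) ∩ ball (c z) (r z)) := isOpen_ball.inter isOpen_ball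
    have key := eqOn_of_pow_eq hVo hV ((han w hwU).mono inter_subset_left)
      ((han z hz).mono inter_subset_right) hp
      (fun x hx => by rw [hpow w hwU x hx.1, hpow z hz x hx.2])
      (z0 := z0) ⟨hz0m w hwU, hz0m z hz⟩ (by rw [hnorm w hwU, hnorm z hz])
      (by rw [hnorm z hz]; exact hc0ne)
    exact key ⟨hzm w hwU, hw⟩
  refine ⟨fun z => h z z, fun z hz => ?_, fun z hz => hpow z hz z (hzm z hz)⟩
  refine (han z hz z (hzm z hz)).congr ?_
  filter_upwards [isOpen_ball.mem_nhds (hzm z hz)] with w hw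
  exact (hcompat z hz w hw).symm

end Fermat.Agent.S29.helper3343
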