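import Fermat.Agent.S24.helper182_HolMer
import Fermat.Agent.S29.helper3343_PthRoot

/-!
# `p`-th roots in `Mer` and the Kummer character (helper3343, S29-ROOT, adapter to the S24 package)

In the vocabulary of the landed S24 package (`Hol`, `Mer = Frac Hol`, `ordAt`, `pullMer`):

* `exists_hol_pow_eq`: a holomorphic function on `ℍ` whose zeros all have order divisible by `p`
  is a `p`-th power in `Hol`;
* `exists_mer_pow_eq`: a nonzero meromorphic function on `ℍ` all of whose orders are divisible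
  by `p` is a `p`-th power in `Mer`;
* `exists_kummerChar`: if `h ^ p` is invariant under a subgroup `Γ ≤ SL(2, ℤ)`, then
  `h ∘ γ = χ(γ) h` for a character `χ : Γ →* ℂˣ` with `χ ^ p = 1`;
* `kummerChar` and its properties (multiplicativity, kernel = `p`-th powers of `Γ`-invariant
  functions): the Kummer injection `U → Hom(Γ, μ_p)` of route #1370 M2.
-/

set_option autoImplicit false

open UpperHalfPlane Filter Topology
open scoped Manifold MatrixGroups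

namespace Fermat.Agent.S29.helper3343

open Fermat.Agent.S24.helper182

/-- A holomorphic function on `ℍ` all of whose zeros have order divisible by `p` is a `p`-th
power of a holomorphic function. -/
theorem exists_hol_pow_eq {p : ℕ} (hp : 0 < p) (w : Hol)
    (hdiv : ∀ τ : ℍ, ∃ m : ℕ, ordNat τ w.1 = ((p * m : ℕ) : ℕ∞)) : ∃ h : Hol, h ^ p = w := by
  have hW : AnalyticOnNhd ℂ (w.1 ∘ ofComplex) uhp := analyticOnNhd_comp_ofComplex w.2
  obtain ⟨H, Han, Hpow⟩ := exists_root_uhp hp hW (fun z hz => hdiv ⟨z, hz⟩)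
  have hmd : MDiff (fun τ : ℍ => H (τ : ℂ)) := by
    rw [UpperHalfPlane.mdifferentiable_iff]
    refine Han.differentiableOn.congr fun z hz => ?_
    show H ((ofComplex z : ℍ) : ℂ) = H z
    rw [ofComplex_apply_of_im_pos hz]
  refine ⟨⟨fun τ : ℍ => H (τ : ℂ), hmd⟩, ?_⟩
  apply Subtype.ext
  funext τ
  show H (τ : ℂ) ^ p = w.1 τ
  rw [Hpow (τ : ℂ) τ.im_pos]
  show w.1 (ofComplex (τ : ℂ)) = w.1 τ
  rw [ofComplex_apply]

/-- A nonzero meromorphic function on `ℍ` all of whose orders are divisible by `p` is a `p`-th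
power of a meromorphic function. -/
theorem exists_mer_pow_eq {p : ℕ} (hp : 0 < p) (u : Mer) (hu : u ≠ 0)
    (hdiv : ∀ τ : ℍ, ∃ m : ℤ, ordAt τ u = (((p : ℤ) * m : ℤ) : WithTop ℤ)) :
    ∃ h : Mer, h ^ p = u := by
  obtain ⟨a, b, hb, rfl⟩ := exists_div_eq u
  have ha : a ≠ 0 := by
    rintro rfl
    exact hu (by rw [map_zero, zero_div])
  have hbm : algebraMap Hol Mer b ≠ 0 := algebraMap_ne_zero hb
  -- `w = a * b ^ (p - 1)` has all its zero orders divisible by `p`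
  have hw : ∀ τ : ℍ, ∃ m : ℕ, ordNat τ (a * b ^ (p - 1) : Hol).1 = ((p * m : ℕ) : ℕ∞) := by
    intro τ
    obtain ⟨m, hm⟩ := hdiv τ
    rw [ordAt_div τ ha hb] at hm
    have hm' : ((ordNat τ a.1).toNat : ℤ) - ((ordNat τ b.1).toNat : ℤ) = (p : ℤ) * m := by
      exact_mod_cast hm
    have hane : ordNat τ a.1 ≠ ⊤ := fun h => ha (Subtype.ext ((ordNat_eq_top_iff a.2 τ).mp h))
    have hbne : ordNat τ b.1 ≠ ⊤ := fun h => hb (Subtype.ext ((ordNat_eq_top_iff b.2 τ).mp h))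
    set A := (ordNat τ a.1).toNat with hA
    set B := (ordNat τ b.1).toNat with hB
    have hordw : ordNat τ (a * b ^ (p - 1) : Hol).1 = ((A + (p - 1) * B : ℕ) : ℕ∞) := by
      have h1 : (a * b ^ (p - 1) : Hol).1 = a.1 * b.1 ^ (p - 1) := rfl
      have h2 : MDiff (b.1 ^ (p - 1)) := (b ^ (p - 1) : Hol).2
      rw [h1, ordNat_mul a.2 h2]
      have h3 : ordNat τ (b.1 ^ (p - 1)) = (p - 1) • ordNat τ b.1 :=
        analyticOrderAt_pow (analyticAt_comp_ofComplex b.2 τ) (p - 1)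
      rw [h3, ← ENat.natCast_toNat hane, ← ENat.natCast_toNat hbne]
      push_cast
      rw [nsmul_eq_mul]
      rfl
    have hp1 : ((p - 1 : ℕ) : ℤ) = (p : ℤ) - 1 := by
      rw [Nat.cast_sub hp]; simp
    have key : ((A + (p - 1) * B : ℕ) : ℤ) = (p : ℤ) * ((B : ℤ) + m) := by
      push_cast
      rw [hp1]
      linear_combination hm'
    have hnn : 0 ≤ (B : ℤ) + m := by
      have h0 : (0 : ℤ) ≤ ((A + (p - 1) * B : ℕ) : ℤ) := Int.natCast_nonneg _
      rw [key] at h0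
      have hp0 : (0 : ℤ) < p := by exact_mod_cast hp
      exact nonneg_of_mul_nonneg_right h0 hp0
    obtain ⟨m', hm'⟩ := Int.eq_ofNat_of_zero_le hnn
    refine ⟨m', ?_⟩
    rw [hordw]
    have : A + (p - 1) * B = p * m' := by
      have : ((A + (p - 1) * B : ℕ) : ℤ) = ((p * m' : ℕ) : ℤ) := by
        rw [key, hm']; push_cast; ring
      exact_mod_cast this
    rw [this]
  obtain ⟨h0, hh0⟩ := exists_hol_pow_eq hp (a * b ^ (p - 1)) hw
  refine ⟨algebraMap Hol Mer h0 / algebraMap Hol Mer b, ?_⟩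
  rw [div_pow, ← map_pow, hh0, map_mul, map_pow]
  have hpp : (algebraMap Hol Mer b) ^ p = (algebraMap Hol Mer b) ^ (p - 1) * algebraMap Hol Mer b := by
    rw [← pow_succ, Nat.sub_add_cancel hp]
  rw [hpp, mul_comm ((algebraMap Hol Mer b) ^ (p - 1)) (algebraMap Hol Mer b),
    mul_div_mul_right _ _ (pow_ne_zero _ hbm)]

/-- Conversely, a `p`-th power has all its orders divisible by `p`. -/
theorem ordAt_pow_dvd {p : ℕ} (h : Mer) (hh : h ≠ 0) (τ : ℍ) :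
    ∃ m : ℤ, ordAt τ (h ^ p) = (((p : ℤ) * m : ℤ) : WithTop ℤ) := by
  obtain ⟨l, hl⟩ := exists_ordAt_eq_coe τ hh
  refine ⟨l, ?_⟩
  rw [AddValuation.map_pow, hl]
  rw [← WithTop.coe_nsmul, nsmul_eq_mul]

/-! ## Constants -/

/-- Constant functions as a ring homomorphism `ℂ →+* Hol`. -/
def constH : ℂ →+* Hol where
  toFun c := ⟨fun _ => c, mdifferentiable_const⟩
  map_one' := rfl
  map_mul' _ _ := rfl
  map_zero' := rfl
  map_add' _ _ := rfl

/-- Constant functions as a ring homomorphism `ℂ →+* Mer`. -/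
noncomputable def constM : ℂ →+* Mer := (algebraMap Hol Mer).comp constH

theorem constM_injective : Function.Injective constM := constM.injective

theorem pullMer_constM (g : SL(2, ℤ)) (c : ℂ) : pullMer g (constM c) = constM c := by
  show pullMer g (algebraMap Hol Mer (constH c)) = algebraMap Hol Mer (constH c)
  rw [pullMer_algebraMap]
  rfl

/-- A `p`-th root of unity in `Mer` is a constant. -/
theorem exists_const_of_pow_eq_one {p : ℕ} (hp : 0 < p) {q : Mer} (hq : q ^ p = 1) :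
    ∃ ζ : ℂ, ζ ^ p = 1 ∧ q = constM ζ := by
  have h1 := Polynomial.X_pow_sub_one_eq_prod hp (Complex.isPrimitiveRoot_exp p hp.ne')
  have h2 := congrArg (Polynomial.eval₂ constM q) h1
  rw [Polynomial.eval₂_sub, Polynomial.eval₂_pow, Polynomial.eval₂_X, Polynomial.eval₂_one, hq,
    sub_self, Polynomial.eval₂_finsetProd] at h2
  obtain ⟨ζ, hζ, h3⟩ := Finset.prod_eq_zero_iff.mp h2.symm
  rw [Polynomial.eval₂_sub, Polynomial.eval₂_X, Polynomial.eval₂_C, sub_eq_zero] at h3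
  exact ⟨ζ, (Polynomial.mem_nthRootsFinset hp (1 : ℂ)).mp hζ, h3⟩

/-- **Multiplier character.** If `h ^ p` is invariant under `Γ`, then `h ∘ γ = χ(γ) h` for a
character `χ : Γ →* ℂˣ` with `χ ^ p = 1`. -/
theorem exists_kummerChar {p : ℕ} (hp : 0 < p) (Γ : Subgroup SL(2, ℤ)) {h : Mer} (hh : h ≠ 0)
    (hinv : ∀ γ ∈ Γ, pullMer γ (h ^ p) = h ^ p) :
    ∃ χ : Γ →* ℂˣ, (∀ γ, χ γ ^ p = 1) ∧
      ∀ γ : Γ, pullMer (γ : SL(2, ℤ)) h = constM ((χ γ : ℂˣ) : ℂ) * h := by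
  have hex : ∀ γ : Γ, ∃ ζ : ℂ, ζ ^ p = 1 ∧ pullMer (γ : SL(2, ℤ)) h = constM ζ * h := by
    intro γ
    have hq : (pullMer (γ : SL(2, ℤ)) h / h) ^ p = 1 := by
      rw [div_pow, ← map_pow, hinv γ γ.2, div_self (pow_ne_zero p hh)]
    obtain ⟨ζ, hζ, hq'⟩ := exists_const_of_pow_eq_one hp hq
    exact ⟨ζ, hζ, by rw [← hq', div_mul_cancel₀ _ hh]⟩
  choose ζ hζ1 hζ2 using hex
  have hζ0 : ∀ γ, ζ γ ≠ 0 := by
    intro γ h0
    have := hζ1 γ
    rw [h0, zero_pow hp.ne'] at this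
    exact zero_ne_one this
  have hmul : ∀ γ₁ γ₂ : Γ, ζ (γ₁ * γ₂) = ζ γ₁ * ζ γ₂ := by
    intro γ₁ γ₂
    have h1 : pullMer ((γ₁ * γ₂ : Γ) : SL(2, ℤ)) h = constM (ζ γ₁ * ζ γ₂) * h := by
      rw [Subgroup.coe_mul, ← pullMer_pullMer, hζ2 γ₁, map_mul, pullMer_constM, hζ2 γ₂, map_mul]
      ring
    have h2 := hζ2 (γ₁ * γ₂)
    rw [h1] at h2
    exact (constM_injective (mul_right_cancel₀ hh h2)).symm
  refine ⟨MonoidHom.mk' (fun γ => Units.mk0 (ζ γ) (hζ0 γ)) (fun a b => ?_), fun γ => ?_, fun γ => ?_⟩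
  · ext
    simp [hmul a b]
  · ext
    simp [hζ1 γ]
  · simpa using hζ2 γ

/-- The multiplier character does not depend on the choice of the `p`-th root. -/
theorem kummerChar_unique {p : ℕ} (hp : 0 < p) (Γ : Subgroup SL(2, ℤ)) {h h' : Mer} (hh : h ≠ 0)
    (hpow : h' ^ p = h ^ p) {χ χ' : Γ →* ℂˣ}
    (hχ : ∀ γ : Γ, pullMer (γ : SL(2, ℤ)) h = constM ((χ γ : ℂˣ) : ℂ) * h)
    (hχ' : ∀ γ : Γ, pullMer (γ : SL(2, ℤ)) h' = constM ((χ' γ : ℂˣ) : ℂ) * h') : χ = χ' := by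
  have hq : (h' / h) ^ p = 1 := by rw [div_pow, hpow, div_self (pow_ne_zero p hh)]
  obtain ⟨ζ, hζ, hq'⟩ := exists_const_of_pow_eq_one hp hq
  have hh' : h' = constM ζ * h := by rw [← hq', div_mul_cancel₀ _ hh]
  have hζ0 : constM ζ ≠ 0 := by
    intro h0
    have : (constM ζ) ^ p = 1 := by rw [← map_pow, hζ, map_one]
    rw [h0, zero_pow hp.ne'] at this
    exact zero_ne_one this
  ext γ
  have h1 := hχ' γ
  rw [hh', map_mul, pullMer_constM, hχ γ] at h1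
  have h2 : constM ((χ γ : ℂˣ) : ℂ) * (constM ζ * h) = constM ((χ' γ : ℂˣ) : ℂ) * (constM ζ * h) := by
    rw [← h1]; ring
  exact constM_injective (mul_right_cancel₀ (mul_ne_zero hζ0 hh) h2)

/-! ## The Kummer character of a `Γ`-invariant function with divisor in `p · Div` -/

/-- `u` is a Kummer element for `(Γ, p)`: nonzero, `Γ`-invariant, and all its orders on `ℍ` are
divisible by `p`. -/
def IsKummer (p : ℕ) (Γ : Subgroup SL(2, ℤ)) (u : Mer) : Prop :=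
  u ≠ 0 ∧ (∀ γ ∈ Γ, pullMer γ u = u) ∧
    ∀ τ : ℍ, ∃ m : ℤ, ordAt τ u = (((p : ℤ) * m : ℤ) : WithTop ℤ)

theorem IsKummer.one (p : ℕ) (Γ : Subgroup SL(2, ℤ)) : IsKummer p Γ 1 :=
  ⟨one_ne_zero, fun γ _ => map_one _, fun τ => ⟨0, by rw [AddValuation.map_one]; simp⟩⟩

theorem IsKummer.mul {p : ℕ} {Γ : Subgroup SL(2, ℤ)} {u v : Mer} (hu : IsKummer p Γ u)
    (hv : IsKummer p Γ v) : IsKummer p Γ (u * v) := by
  refine ⟨mul_ne_zero hu.1 hv.1, fun γ hγ => by rw [map_mul, hu.2.1 γ hγ, hv.2.1 γ hγ],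
    fun τ => ?_⟩
  obtain ⟨m, hm⟩ := hu.2.2 τ
  obtain ⟨n, hn⟩ := hv.2.2 τ
  refine ⟨m + n, ?_⟩
  rw [AddValuation.map_mul, hm, hn, ← WithTop.coe_add, mul_add]

theorem IsKummer.inv {p : ℕ} {Γ : Subgroup SL(2, ℤ)} {u : Mer} (hu : IsKummer p Γ u) :
    IsKummer p Γ u⁻¹ := by
  refine ⟨inv_ne_zero hu.1, fun γ hγ => by rw [map_inv₀, hu.2.1 γ hγ], fun τ => ?_⟩
  obtain ⟨m, hm⟩ := hu.2.2 τ
  refine ⟨-m, ?_⟩
  rw [AddValuation.map_inv, hm, ← WithTop.LinearOrderedAddCommGroup.coe_neg, mul_neg]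

/-- The `p`-th power of a nonzero `Γ`-invariant function is a Kummer element. -/
theorem IsKummer.pow_of_invariant {p : ℕ} {Γ : Subgroup SL(2, ℤ)} {v : Mer} (hv : v ≠ 0)
    (hinv : ∀ γ ∈ Γ, pullMer γ v = v) : IsKummer p Γ (v ^ p) :=
  ⟨pow_ne_zero p hv, fun γ hγ => by rw [map_pow, hinv γ hγ], fun τ => ordAt_pow_dvd v hv τ⟩

/-- Nonzero constants are Kummer elements. -/
theorem IsKummer.const (p : ℕ) (Γ : Subgroup SL(2, ℤ)) {c : ℂ} (hc : c ≠ 0) :
    IsKummer p Γ (constM c) := by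
  refine ⟨(map_ne_zero constM).mpr hc, fun γ _ => pullMer_constM γ c, fun τ => ⟨0, ?_⟩⟩
  show ordAt τ (algebraMap Hol Mer (constH c)) = _
  rw [ordAt_algebraMap, ordHol_apply]
  have h : ordNat τ (constH c).1 = 0 := ordNat_const hc τ
  rw [h]
  simp

/-- Existence of a `p`-th root with its multiplier character. -/
theorem IsKummer.exists_char {p : ℕ} (hp : 0 < p) {Γ : Subgroup SL(2, ℤ)} {u : Mer}
    (hu : IsKummer p Γ u) :
    ∃ χ : Γ →* ℂˣ, (∀ γ, χ γ ^ p = 1) ∧ ∃ h : Mer, h ^ p = u ∧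
      ∀ γ : Γ, pullMer (γ : SL(2, ℤ)) h = constM ((χ γ : ℂˣ) : ℂ) * h := by
  obtain ⟨h, hh⟩ := exists_mer_pow_eq hp u hu.1 hu.2.2
  have hh0 : h ≠ 0 := by
    rintro rfl
    rw [zero_pow hp.ne'] at hh
    exact hu.1 hh.symm
  obtain ⟨χ, hχ1, hχ2⟩ := exists_kummerChar hp Γ hh0
    (fun γ hγ => by rw [hh]; exact hu.2.1 γ hγ)
  exact ⟨χ, hχ1, h, hh, hχ2⟩

open Classical in
/-- The Kummer character `χ_u : Γ →* ℂˣ` of `u`: `h ∘ γ = χ_u(γ) h` for any `p`-th root `h`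
of `u` in `Mer` (and the trivial character if `u` has no `p`-th root). -/
noncomputable def kummerChar (p : ℕ) (Γ : Subgroup SL(2, ℤ)) (u : Mer) : Γ →* ℂˣ :=
  if H : ∃ χ : Γ →* ℂˣ, ∃ h : Mer, h ^ p = u ∧
      ∀ γ : Γ, pullMer (γ : SL(2, ℤ)) h = constM ((χ γ : ℂˣ) : ℂ) * h then H.choose else 1

/-- The Kummer character is computed by any `p`-th root. -/
theorem kummerChar_eq {p : ℕ} (hp : 0 < p) {Γ : Subgroup SL(2, ℤ)} {u : Mer} (hu : u ≠ 0)
    {h : Mer} (hh : h ^ p = u) {χ : Γ →* ℂˣ}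
    (hχ : ∀ γ : Γ, pullMer (γ : SL(2, ℤ)) h = constM ((χ γ : ℂˣ) : ℂ) * h) :
    kummerChar p Γ u = χ := by
  have H : ∃ χ : Γ →* ℂˣ, ∃ h : Mer, h ^ p = u ∧
      ∀ γ : Γ, pullMer (γ : SL(2, ℤ)) h = constM ((χ γ : ℂˣ) : ℂ) * h := ⟨χ, h, hh, hχ⟩
  have hh0 : h ≠ 0 := by
    rintro rfl
    rw [zero_pow hp.ne'] at hh
    exact hu hh.symm
  obtain ⟨h', hh', hχ'⟩ := H.choose_spec
  have hdef : kummerChar p Γ u = H.choose := by
    unfold kummerChar
    rw [dif_pos H]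
  rw [hdef]
  exact (kummerChar_unique hp Γ hh0 (hh'.trans hh.symm) hχ hχ').symm

theorem kummerChar_spec {p : ℕ} (hp : 0 < p) {Γ : Subgroup SL(2, ℤ)} {u : Mer}
    (hu : IsKummer p Γ u) :
    ∃ h : Mer, h ^ p = u ∧
      ∀ γ : Γ, pullMer (γ : SL(2, ℤ)) h = constM ((kummerChar p Γ u γ : ℂˣ) : ℂ) * h := by
  obtain ⟨χ, -, h, hh, hχ⟩ := hu.exists_char hp
  rw [kummerChar_eq hp hu.1 hh hχ]
  exact ⟨h, hh, hχ⟩

/-- The Kummer character takes values in the `p`-th roots of unity. -/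
theorem kummerChar_pow {p : ℕ} (hp : 0 < p) {Γ : Subgroup SL(2, ℤ)} {u : Mer}
    (hu : IsKummer p Γ u) (γ : Γ) : kummerChar p Γ u γ ^ p = 1 := by
  obtain ⟨χ, hχ1, h, hh, hχ⟩ := hu.exists_char hp
  rw [kummerChar_eq hp hu.1 hh hχ]
  exact hχ1 γ

/-- The Kummer character is multiplicative in `u`. -/
theorem kummerChar_mul {p : ℕ} (hp : 0 < p) {Γ : Subgroup SL(2, ℤ)} {u v : Mer}
    (hu : IsKummer p Γ u) (hv : IsKummer p Γ v) :
    kummerChar p Γ (u * v) = kummerChar p Γ u * kummerChar p Γ v := by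
  obtain ⟨h, hh, hχ⟩ := kummerChar_spec hp hu
  obtain ⟨k, hk, hψ⟩ := kummerChar_spec hp hv
  refine kummerChar_eq hp (mul_ne_zero hu.1 hv.1) (h := h * k) (by rw [mul_pow, hh, hk])
    (fun γ => ?_)
  rw [map_mul, hχ γ, hψ γ, MonoidHom.mul_apply, Units.val_mul, map_mul]
  ring

/-- **Injectivity of the Kummer map.** The Kummer character of `u` is trivial iff `u` is the
`p`-th power of a `Γ`-invariant meromorphic function. -/
theorem kummerChar_eq_one_iff {p : ℕ} (hp : 0 < p) {Γ : Subgroup SL(2, ℤ)} {u : Mer}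
    (hu : IsKummer p Γ u) :
    kummerChar p Γ u = 1 ↔ ∃ v : Mer, (∀ γ ∈ Γ, pullMer γ v = v) ∧ v ^ p = u := by
  constructor
  · intro h1
    obtain ⟨h, hh, hχ⟩ := kummerChar_spec hp hu
    refine ⟨h, fun γ hγ => ?_, hh⟩
    have := hχ ⟨γ, hγ⟩
    rw [h1] at this
    simpa using this
  · rintro ⟨v, hv, hvp⟩
    exact kummerChar_eq hp hu.1 hvp (fun γ => by simp [hv γ γ.2])

/-- Multiplying by a `p`-th power of an invariant function or by a constant does not change the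
Kummer character. -/
theorem kummerChar_mul_pow {p : ℕ} (hp : 0 < p) {Γ : Subgroup SL(2, ℤ)} {u v : Mer}
    (hu : IsKummer p Γ u) (hv : v ≠ 0) (hinv : ∀ γ ∈ Γ, pullMer γ v = v) :
    kummerChar p Γ (u * v ^ p) = kummerChar p Γ u := by
  have hvk : IsKummer p Γ (v ^ p) := IsKummer.pow_of_invariant hv hinv
  rw [kummerChar_mul hp hu hvk, (kummerChar_eq_one_iff hp hvk).mpr ⟨v, hinv, rfl⟩]
  exact mul_one (kummerChar p Γ u)

theorem kummerChar_const {p : ℕ} (hp : 0 < p) (Γ : Subgroup SL(2, ℤ)) {c : ℂ} (hc : c ≠ 0) :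
    kummerChar p Γ (constM c) = 1 := by
  obtain ⟨a, ha⟩ := IsAlgClosed.exists_pow_nat_eq c hp
  refine (kummerChar_eq_one_iff hp (IsKummer.const p Γ hc)).mpr
    ⟨constM a, fun γ _ => pullMer_constM γ a, by rw [← map_pow, ha]⟩

end Fermat.Agent.S29.helper3343
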