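import Fermat.Agent.S24.helper580_HolMer
import Fermat.Agent.S29.helper3343_KummerChar

/-!
# Bridge between the two landed `Hol`/`Mer` packages (helper2122, S29)

Two copies of "holomorphic functions on `ℍ` and their fraction field" are on main:

* `Fermat.Agent.S24.helper580` (`Hol : Subalgebra ℂ (ℍ → ℂ)`, `Mer`, `ordAt`, `pull`): the one in the
  closure of the landed `S24` (evaluation maps `ev`, local data);
* `Fermat.Agent.S24.helper182` (`Hol : Subring (ℍ → ℂ)`, `Mer`, `ordAt`, `pullMer`): the one on which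
  the landed `p`-th root / Kummer character theory `Fermat.Agent.S29.helper3343` is built.

This file provides the canonical ring isomorphism `merEquiv : helper182.Mer ≃+* helper580.Mer`
(identity on functions), its compatibility with orders, pullbacks and constants, and transports the
root / multiplier statements of `helper3343` to `helper580.Mer`, for every exponent `n ≥ 1`:

* `exists_mer_pow_eq`  : all orders divisible by `n` ⟹ `n`-th root in `helper580.Mer`;
* `exists_multiplier`   : `h ^ n` invariant under `Γ` ⟹ `pull γ h = χ γ • h`, `χ : Γ →* ℂˣ`, `χ ^ n = 1`;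
* `multiplier_unique`   : the multiplier does not depend on the chosen root;
* `multiplier_eq_one_iff`-type statement `exists_invariant_root`.
-/

set_option autoImplicit false

open UpperHalfPlane
open scoped MatrixGroups Manifold

namespace Fermat.Agent.S29.helper2122

open Fermat.Agent.S24

/-- The identity on functions, as a ring isomorphism between the two copies of `Hol`. -/
def holEquiv : ↥helper182.Hol ≃+* ↥helper580.Hol where
  toFun f := ⟨f.1, f.2⟩
  invFun f := ⟨f.1, f.2⟩
  left_inv _ := rfl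
  right_inv _ := rfl
  map_mul' _ _ := rfl
  map_add' _ _ := rfl

@[simp] theorem holEquiv_apply (f : ↥helper182.Hol) (τ : ℍ) :
    ((holEquiv f : ↥helper580.Hol) : ℍ → ℂ) τ = f.1 τ := rfl

@[simp] theorem holEquiv_symm_apply (f : ↥helper580.Hol) (τ : ℍ) :
    (holEquiv.symm f).1 τ = (f : ℍ → ℂ) τ := rfl

theorem coe_holEquiv (f : ↥helper182.Hol) : ((holEquiv f : ↥helper580.Hol) : ℍ → ℂ) = f.1 := rfl

/-- The canonical isomorphism between the two copies of `Mer`. -/
noncomputable def merEquiv : helper182.Mer ≃+* helper580.Mer :=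
  IsFractionRing.ringEquivOfRingEquiv holEquiv

theorem merEquiv_algebraMap (f : ↥helper182.Hol) :
    merEquiv (algebraMap ↥helper182.Hol helper182.Mer f)
      = algebraMap ↥helper580.Hol helper580.Mer (holEquiv f) :=
  IsFractionRing.ringEquivOfRingEquiv_algebraMap holEquiv f

theorem merEquiv_symm_algebraMap (f : ↥helper580.Hol) :
    merEquiv.symm (algebraMap ↥helper580.Hol helper580.Mer f)
      = algebraMap ↥helper182.Hol helper182.Mer (holEquiv.symm f) := by
  rw [RingEquiv.symm_apply_eq, merEquiv_algebraMap, RingEquiv.apply_symm_apply]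

theorem ordHol_holEquiv (τ : ℍ) (f : ↥helper182.Hol) :
    helper580.ordHol τ (holEquiv f) = helper182.ordHol τ f := by
  rw [helper580.ordHol_eq_analyticOrderAt, helper182.ordHol_apply]
  rfl

/-- `merEquiv` preserves the order at every point. -/
theorem ordAt_merEquiv (τ : ℍ) (z : helper182.Mer) :
    helper580.ordAt τ (merEquiv z) = helper182.ordAt τ z := by
  obtain ⟨a, b, hb, rfl⟩ := helper182.exists_div_eq z
  rw [map_div₀, AddValuation.map_div, AddValuation.map_div, merEquiv_algebraMap,
    merEquiv_algebraMap, helper580.ordAt_algebraMap, helper580.ordAt_algebraMap,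
    helper182.ordAt_algebraMap, helper182.ordAt_algebraMap, ordHol_holEquiv, ordHol_holEquiv]

theorem ordAt_merEquiv_symm (τ : ℍ) (z : helper580.Mer) :
    helper182.ordAt τ (merEquiv.symm z) = helper580.ordAt τ z := by
  rw [← ordAt_merEquiv, RingEquiv.apply_symm_apply]

/-- `merEquiv` intertwines the two pullback actions of `SL(2, ℤ)`. -/
theorem merEquiv_pullMer (g : SL(2, ℤ)) (z : helper182.Mer) :
    merEquiv (helper182.pullMer g z) = helper580.pull g (merEquiv z) := by
  obtain ⟨a, b, hb, rfl⟩ := helper182.exists_div_eq z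
  have e1 : merEquiv (helper182.pullMer g
      (algebraMap ↥helper182.Hol helper182.Mer a / algebraMap ↥helper182.Hol helper182.Mer b))
      = algebraMap ↥helper580.Hol helper580.Mer (holEquiv (helper182.pullHol g a))
        / algebraMap ↥helper580.Hol helper580.Mer (holEquiv (helper182.pullHol g b)) := by
    rw [map_div₀, map_div₀, helper182.pullMer_algebraMap, helper182.pullMer_algebraMap,
      merEquiv_algebraMap, merEquiv_algebraMap]
  have e2 : helper580.pull g (merEquiv
      (algebraMap ↥helper182.Hol helper182.Mer a / algebraMap ↥helper182.Hol helper182.Mer b))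
      = algebraMap ↥helper580.Hol helper580.Mer (helper580.pullHol g (holEquiv a))
        / algebraMap ↥helper580.Hol helper580.Mer (helper580.pullHol g (holEquiv b)) := by
    rw [map_div₀, merEquiv_algebraMap, merEquiv_algebraMap, map_div₀,
      helper580.pull_algebraMap, helper580.pull_algebraMap]
  rw [e1, e2]
  rfl

theorem merEquiv_symm_pull (g : SL(2, ℤ)) (z : helper580.Mer) :
    merEquiv.symm (helper580.pull g z) = helper182.pullMer g (merEquiv.symm z) := by
  rw [RingEquiv.symm_apply_eq, merEquiv_pullMer, RingEquiv.apply_symm_apply]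

/-- `merEquiv` sends constants to constants. -/
theorem merEquiv_constM (c : ℂ) :
    merEquiv (helper3343.constM c) = algebraMap ℂ helper580.Mer c := by
  show merEquiv (algebraMap ↥helper182.Hol helper182.Mer (helper3343.constH c)) = _
  rw [merEquiv_algebraMap, IsScalarTower.algebraMap_apply ℂ ↥helper580.Hol helper580.Mer]
  rfl

theorem merEquiv_symm_algebraMap_complex (c : ℂ) :
    merEquiv.symm (algebraMap ℂ helper580.Mer c) = helper3343.constM c := by
  rw [RingEquiv.symm_apply_eq, merEquiv_constM]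

/-! ## Transport of the root / multiplier theory to `helper580.Mer` -/

/-- A nonzero element of `helper580.Mer` all of whose orders are divisible by `n` is an `n`-th
power. -/
theorem exists_mer_pow_eq {n : ℕ} (hn : 0 < n) (u : helper580.Mer) (hu : u ≠ 0)
    (hdiv : ∀ τ : ℍ, ∃ m : ℤ, helper580.ordAt τ u = (((n : ℤ) * m : ℤ) : WithTop ℤ)) :
    ∃ h : helper580.Mer, h ^ n = u := by
  have hu' : merEquiv.symm u ≠ 0 := (map_ne_zero merEquiv.symm).mpr hu
  obtain ⟨h, hh⟩ := helper3343.exists_mer_pow_eq hn (merEquiv.symm u) hu'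
    (fun τ => by rw [ordAt_merEquiv_symm]; exact hdiv τ)
  exact ⟨merEquiv h, by rw [← map_pow, hh, RingEquiv.apply_symm_apply]⟩

/-- Conversely, an `n`-th power has all its orders divisible by `n`. -/
theorem ordAt_pow_dvd {n : ℕ} (h : helper580.Mer) (hh : h ≠ 0) (τ : ℍ) :
    ∃ m : ℤ, helper580.ordAt τ (h ^ n) = (((n : ℤ) * m : ℤ) : WithTop ℤ) := by
  have hh' : merEquiv.symm h ≠ 0 := (map_ne_zero merEquiv.symm).mpr hh
  obtain ⟨m, hm⟩ := helper3343.ordAt_pow_dvd (p := n) (merEquiv.symm h) hh' τ
  refine ⟨m, ?_⟩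
  rw [← hm, ← map_pow, ordAt_merEquiv_symm]

/-- **Multiplier character** in `helper580.Mer`: if `h ^ n` is invariant under `Γ`, then
`pull γ h = χ(γ) h` for a character `χ : Γ →* ℂˣ` with `χ ^ n = 1`. -/
theorem exists_multiplier {n : ℕ} (hn : 0 < n) (Γ : Subgroup SL(2, ℤ)) {h : helper580.Mer}
    (hh : h ≠ 0) (hinv : ∀ γ ∈ Γ, helper580.pull γ (h ^ n) = h ^ n) :
    ∃ χ : Γ →* ℂˣ, (∀ γ, χ γ ^ n = 1) ∧
      ∀ γ : Γ, helper580.pull (γ : SL(2, ℤ)) h
        = algebraMap ℂ helper580.Mer ((χ γ : ℂˣ) : ℂ) * h := by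
  have hh' : merEquiv.symm h ≠ 0 := (map_ne_zero merEquiv.symm).mpr hh
  obtain ⟨χ, hχ1, hχ2⟩ := helper3343.exists_kummerChar hn Γ hh' (fun γ hγ => by
    rw [← map_pow, ← merEquiv_symm_pull, hinv γ hγ])
  refine ⟨χ, hχ1, fun γ => ?_⟩
  have := congrArg merEquiv (hχ2 γ)
  rw [merEquiv_pullMer, RingEquiv.apply_symm_apply, map_mul, merEquiv_constM,
    RingEquiv.apply_symm_apply] at this
  exact this

/-- The multiplier character does not depend on the choice of the `n`-th root. -/
theorem multiplier_unique {n : ℕ} (hn : 0 < n) (Γ : Subgroup SL(2, ℤ)) {h h' : helper580.Mer}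
    (hh : h ≠ 0) (hpow : h' ^ n = h ^ n) {χ χ' : Γ →* ℂˣ}
    (hχ : ∀ γ : Γ, helper580.pull (γ : SL(2, ℤ)) h
      = algebraMap ℂ helper580.Mer ((χ γ : ℂˣ) : ℂ) * h)
    (hχ' : ∀ γ : Γ, helper580.pull (γ : SL(2, ℤ)) h'
      = algebraMap ℂ helper580.Mer ((χ' γ : ℂˣ) : ℂ) * h') : χ = χ' := by
  have hh0 : merEquiv.symm h ≠ 0 := (map_ne_zero merEquiv.symm).mpr hh
  refine helper3343.kummerChar_unique hn Γ (h := merEquiv.symm h) (h' := merEquiv.symm h') hh0
    (by rw [← map_pow, ← map_pow, hpow]) (fun γ => ?_) (fun γ => ?_)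
  · rw [← merEquiv_symm_pull, hχ γ, map_mul, merEquiv_symm_algebraMap_complex]
  · rw [← merEquiv_symm_pull, hχ' γ, map_mul, merEquiv_symm_algebraMap_complex]

/-- An `n`-th root of unity in `helper580.Mer` is a constant. -/
theorem exists_const_of_pow_eq_one {n : ℕ} (hn : 0 < n) {q : helper580.Mer} (hq : q ^ n = 1) :
    ∃ ζ : ℂ, ζ ^ n = 1 ∧ q = algebraMap ℂ helper580.Mer ζ := by
  obtain ⟨ζ, hζ, hq'⟩ := helper3343.exists_const_of_pow_eq_one (q := merEquiv.symm q) hn
    (by rw [← map_pow, hq, map_one])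
  refine ⟨ζ, hζ, ?_⟩
  rw [← merEquiv_constM, ← hq', RingEquiv.apply_symm_apply]

/-- If two nonzero elements have the same `n`-th power, they differ by a constant `n`-th root of
unity. -/
theorem exists_const_mul_of_pow_eq {n : ℕ} (hn : 0 < n) {h h' : helper580.Mer} (hh : h ≠ 0)
    (hpow : h' ^ n = h ^ n) :
    ∃ ζ : ℂ, ζ ^ n = 1 ∧ h' = algebraMap ℂ helper580.Mer ζ * h := by
  have hq : (h' / h) ^ n = 1 := by rw [div_pow, hpow, div_self (pow_ne_zero n hh)]
  obtain ⟨ζ, hζ, hq'⟩ := exists_const_of_pow_eq_one hn hq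
  exact ⟨ζ, hζ, by rw [← hq', div_mul_cancel₀ _ hh]⟩

end Fermat.Agent.S29.helper2122
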