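import Mathlib

/-!
# S29-FINC (backup copy): finiteness of the Kummer classes over `ℂ`

Spec-independent ends of the leaf (Mathlib only):

* `finite_monoidHom_of_fg` : homs from a finitely generated group to a finite monoid are
  finitely many;
* `fg_SL2Z`, `fg_Gamma0`, `finite_hom_Gamma0` : `Γ₀(N)` is finitely generated (finite index in
  `SL(2,ℤ) = ⟨S, T⟩`, Schreier), hence `Finite (Γ₀(N) →* M)` for every finite `M`;
* `exists_finset_reps` : the abstract fibre lemma turning a map to a finite type that is
  "injective modulo `n`-th powers" into a finite set of representatives;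
* `exists_finset_reps_of_roots` : the multiplier argument in abstract form.  `F` a field
  (the function field), `M` a field (meromorphic functions) with a finitely generated group `Γ`
  acting by ring endomorphisms, `ev : F →+* M` with `Γ`-invariant image.  If every `u` with `P u`
  has an `n`-th root in `M`, and every `Γ`-invariant element of `M` whose `n`-th power lies in
  `ev F` lies in `ev F`, then the `u` with `P u` fall into finitely many classes modulo
  `n`-th powers of `F`.  (No homomorphism property of the multiplier is needed: the values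
  `act s h / h` at a finite generating set already separate the classes.)
-/

set_option autoImplicit false

namespace Fermat.Agent.S29.helper587

open scoped MatrixGroups

/-! ### (G) finitely many homs out of `Γ₀(N)` -/

/-- Homs from a finitely generated group to a finite monoid are finitely many. -/
theorem finite_monoidHom_of_fg (G M : Type*) [Group G] [hG : Group.FG G] [Monoid M] [Finite M] :
    Finite (G →* M) := by
  obtain ⟨S, hS⟩ := Group.fg_def.mp hG
  refine Finite.of_injective (fun (f : G →* M) (s : (S : Set G)) => f s) ?_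
  intro f g h
  refine MonoidHom.eq_of_eqOn_dense hS ?_
  intro x hx
  exact congrFun h ⟨x, hx⟩

/-- `SL(2,ℤ)` is finitely generated (by `S` and `T`). -/
instance fg_SL2Z : Group.FG SL(2, ℤ) := by
  rw [Group.fg_iff]
  exact ⟨{ModularGroup.S, ModularGroup.T}, SpecialLinearGroup.SL2Z_generators,
    Set.toFinite _⟩

/-- `Γ₀(N)` is finitely generated. -/
instance fg_Gamma0 (N : ℕ) [NeZero N] : Group.FG ↥(CongruenceSubgroup.Gamma0 N) :=
  Subgroup.fg_of_index_ne_zero _

/-- Finitely many homs from `Γ₀(N)` to a finite monoid. -/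
instance finite_hom_Gamma0 (N : ℕ) [NeZero N] (M : Type*) [Monoid M] [Finite M] :
    Finite (↥(CongruenceSubgroup.Gamma0 N) →* M) :=
  finite_monoidHom_of_fg _ _

/-- Finitely many characters `Γ₀(N) → μ_n(ℂ)`. -/
instance finite_hom_Gamma0_rootsOfUnity (N : ℕ) [NeZero N] (n : ℕ) [NeZero n] :
    Finite (↥(CongruenceSubgroup.Gamma0 N) →* ↥(rootsOfUnity n ℂ)) :=
  finite_monoidHom_of_fg _ _

/-! ### (A) the abstract fibre lemma -/

/-- **Fibre lemma.** If a map `Θ` from the elements satisfying `P` to a finite type has the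
property that two elements with the same image differ by an `n`-th power, then there is a
finite set `T` of elements satisfying `P` such that every element satisfying `P` is
`s * t ^ n` with `s ∈ T`. -/
theorem exists_finset_reps {F : Type*} [Field F] (n : ℕ) (P : F → Prop) {X : Type*} [Finite X]
    (Θ : {u : F // P u} → X)
    (hΘ : ∀ u u' : {u : F // P u}, Θ u = Θ u' → ∃ t : F, t ≠ 0 ∧ (u : F) = u' * t ^ n) :
    ∃ T : Finset F, (∀ s ∈ T, P s) ∧ ∀ u : F, P u → ∃ s ∈ T, ∃ t : F, t ≠ 0 ∧ u = s * t ^ n := by
  classical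
  have hfin : (Set.range Θ).Finite := Set.toFinite _
  choose sec hsec using fun x : Set.range Θ => x.2
  have hfin' : (Set.range fun x : Set.range Θ => ((sec x : {u : F // P u}) : F)).Finite :=
    Set.finite_range _
  refine ⟨hfin'.toFinset, ?_, ?_⟩
  · intro s hs
    rw [Set.Finite.mem_toFinset] at hs
    obtain ⟨x, rfl⟩ := hs
    exact (sec x).2
  · intro u hu
    let x : Set.range Θ := ⟨Θ ⟨u, hu⟩, ⟨u, hu⟩, rfl⟩
    refine ⟨((sec x : {u : F // P u}) : F), ?_, ?_⟩
    · rw [Set.Finite.mem_toFinset]
      exact ⟨x, rfl⟩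
    · exact hΘ ⟨u, hu⟩ (sec x) (hsec x).symm

/-- **Finiteness of classes from `n`-th roots and a finitely generated symmetry group.**
See the module docstring.  The action is only assumed to have subgroup stabilisers (`hstab`),
so the statement is agnostic to left/right conventions. -/
theorem exists_finset_reps_of_roots {F M : Type*} [Field F] [Field M] (ev : F →+* M)
    {Γ : Type*} [Group Γ] [hΓ : Group.FG Γ] (act : Γ → M →+* M)
    (hstab : ∀ w : M, ∃ H : Subgroup Γ, ∀ γ, γ ∈ H ↔ act γ w = w)
    (hev : ∀ γ f, act γ (ev f) = ev f)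
    (n : ℕ) (hn : n ≠ 0) (P : F → Prop) (hP0 : ∀ u, P u → u ≠ 0)
    (hroot : ∀ u, P u → ∃ h : M, h ^ n = ev u)
    (hinv : ∀ w : M, (∀ γ, act γ w = w) → (∃ f : F, w ^ n = ev f) → ∃ t : F, w = ev t) :
    ∃ T : Finset F, (∀ s ∈ T, P s) ∧ ∀ u : F, P u → ∃ s ∈ T, ∃ t : F, t ≠ 0 ∧ u = s * t ^ n := by
  classical
  obtain ⟨S, hS⟩ := Group.fg_def.mp hΓ
  have hevinj : Function.Injective ev := ev.injective
  -- chosen roots
  choose! h hh using hroot
  have hh0 : ∀ u, P u → h u ≠ 0 := by
    intro u hu h0
    have := hh u hu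
    rw [h0, zero_pow hn] at this
    exact hP0 u hu (hevinj (by rw [← this, map_zero]))
  -- the finite set of `n`-th roots of unity of `M`
  let R : Finset M := (Polynomial.nthRoots n (1 : M)).toFinset
  have hR : ∀ z : M, z ∈ R ↔ z ^ n = 1 := by
    intro z
    simp only [R, Multiset.mem_toFinset]
    exact Polynomial.mem_nthRoots (Nat.pos_of_ne_zero hn)
  have hmem : ∀ (u : {u : F // P u}) (s : Γ), act s (h u) / h u ∈ R := by
    intro u s
    rw [hR, div_pow, ← map_pow, hh u u.2, hev]
    exact div_self (by rw [← hh u u.2]; exact pow_ne_zero n (hh0 u u.2))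
  let Θ : {u : F // P u} → (↥S → ↥R) := fun u s => ⟨act (s : Γ) (h u) / h u, hmem u s⟩
  refine exists_finset_reps n P Θ ?_
  intro u u' hΘ
  have hu0 := hh0 u u.2
  have hu'0 := hh0 u' u'.2
  set w : M := h u / h u' with hw
  have hw0 : w ≠ 0 := div_ne_zero hu0 hu'0
  -- `w` is fixed by the generators
  have hgen : ∀ s ∈ (S : Set Γ), act s w = w := by
    intro s hs
    have h1 : act s (h u) / h u = act s (h u') / h u' := by
      have := congrFun hΘ ⟨s, Finset.mem_coe.mp hs⟩
      exact congrArg Subtype.val this
    have h2 : act s (h u') ≠ 0 := by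
      intro h0
      have := (map_eq_zero (act s)).mp h0
      exact hu'0 this
    rw [hw, map_div₀]
    field_simp
    field_simp at h1
    linear_combination h1
  -- hence by everything
  obtain ⟨H, hH⟩ := hstab w
  have hHtop : H = ⊤ := by
    rw [eq_top_iff, ← hS, Subgroup.closure_le]
    intro s hs
    exact (hH s).mpr (hgen s hs)
  have hall : ∀ γ, act γ w = w := fun γ => (hH γ).mp (hHtop ▸ Subgroup.mem_top γ)
  have hwn : w ^ n = ev ((u : F) / u') := by
    rw [hw, div_pow, hh u u.2, hh u' u'.2, map_div₀]
  obtain ⟨t, ht⟩ := hinv w hall ⟨_, hwn⟩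
  have ht0 : t ≠ 0 := by
    rintro rfl
    rw [map_zero] at ht
    exact hw0 ht
  refine ⟨t, ht0, ?_⟩
  have h3 : ev (t ^ n) = ev ((u : F) / u') := by rw [map_pow, ← ht, hwn]
  have h4 := hevinj h3
  have hu'F : (u' : F) ≠ 0 := hP0 u' u'.2
  rw [h4]
  field_simp

end Fermat.Agent.S29.helper587
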