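import Fermat.Agent.S24.helper580_HolMer
import Fermat.Agent.S29.helper587_FinC

/-!
# S29-FINC (backup copy), part 2: the instance on the S24 field `Mer`

Vocabulary of the landed S24 module `helper580_HolMer`: `Hol` (holomorphic functions on `ℍ`),
`Mer = FractionRing Hol`, `ordAt τ : AddValuation Mer (WithTop ℤ)`, `pull g : Mer ≃ₐ[ℂ] Mer`.

* `exists_hol_of_ordAt_nonneg` : **holomorphy criterion** — an element of `Mer` all of whose
  orders are `≥ 0` is (the image of) a holomorphic function.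
* `exists_hol_of_pow_mem` : `Hol` is root-closed in `Mer` (`z ^ n` holomorphic ⟹ `z` holomorphic).
* `exists_mer_root_of_holRoot` : `n`-th roots in `Mer` from `n`-th roots in `Hol`.
* `exists_subgroup_pull_fixed` : stabilisers for the `pull` action are subgroups.
* `finite_classes_of_mer` : the finiteness statement `FINC` for any field `F` realised in `Mer`
  by a `Γ`-invariant ring hom, from the root Prop and the invariant-root Prop.
-/

set_option autoImplicit false

open UpperHalfPlane Filter Topology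
open scoped MatrixGroups Manifold

namespace Fermat.Agent.S29.helper587

open Fermat.Agent.S24.helper580

noncomputable section

/-! ### The holomorphy criterion -/

/-- **Holomorphy criterion.** An element of `Mer` whose order is `≥ 0` at every point of `ℍ`
is the image of a holomorphic function. -/
theorem exists_hol_of_ordAt_nonneg (z : Mer) (hz : ∀ τ : ℍ, 0 ≤ ordAt τ z) :
    ∃ f : Hol, algebraMap Hol Mer f = z := by
  obtain ⟨a, b, hb, hzb⟩ := exists_eq_div z
  have hbM : algebraMap Hol Mer b ≠ 0 := fun h =>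
    hb (IsFractionRing.injective Hol Mer (h.trans (map_zero _).symm))
  set A : ℂ → ℂ := (a : ℍ → ℂ) ∘ ofComplex with hA
  set B : ℂ → ℂ := (b : ℍ → ℂ) ∘ ofComplex with hB
  have hAan : ∀ x : ℂ, 0 < x.im → AnalyticAt ℂ A x := fun x hx => Hol.analyticAt a ⟨x, hx⟩
  have hBan : ∀ x : ℂ, 0 < x.im → AnalyticAt ℂ B x := fun x hx => Hol.analyticAt b ⟨x, hx⟩
  have hQmer : MeromorphicOn (A / B) upperHalfPlaneSet := fun x hx =>
    (hAan x hx).meromorphicAt.div (hBan x hx).meromorphicAt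
  set G : ℂ → ℂ := toMeromorphicNFOn (A / B) upperHalfPlaneSet with hG
  have hBne : ∀ x : ℂ, 0 < x.im → ∀ᶠ w in 𝓝[≠] x, B w ≠ 0 := by
    intro x hx
    refine (meromorphicOrderAt_ne_top_iff_eventually_ne_zero (hBan x hx).meromorphicAt).mp ?_
    exact ordHol_ne_top ⟨x, hx⟩ hb
  -- `G * B = A` on a punctured neighbourhood of every point
  have hGB : ∀ x : ℂ, 0 < x.im → (G * B) =ᶠ[𝓝[≠] x] A := by
    intro x hx
    filter_upwards [hQmer.toMeromorphicNFOn_eq_self_on_nhdsNE hx, hBne x hx] with w hw hBw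
    have hw' : G w = (A / B) w := hw
    simp only [Pi.mul_apply]
    rw [hw', Pi.div_apply, div_mul_cancel₀ _ hBw]
  -- `G` is analytic on the upper half plane
  have hGan : ∀ x : ℂ, 0 < x.im → AnalyticAt ℂ G x := by
    intro x hx
    have hNF : MeromorphicNFAt G x := meromorphicNFOn_toMeromorphicNFOn (A / B) upperHalfPlaneSet hx
    rw [← hNF.meromorphicOrderAt_nonneg_iff_analyticAt]
    have h1 : meromorphicOrderAt (G * B) x = meromorphicOrderAt A x :=
      meromorphicOrderAt_congr (hGB x hx)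
    rw [meromorphicOrderAt_mul hNF.meromorphicAt (hBan x hx).meromorphicAt] at h1
    have h2 : ordAt ⟨x, hx⟩ z + ordHol ⟨x, hx⟩ b = ordHol ⟨x, hx⟩ a := by
      rw [← ordAt_algebraMap, ← ordAt_algebraMap, ← (ordAt ⟨x, hx⟩).map_mul, hzb]
    have h3 : ordHol ⟨x, hx⟩ b ≠ ⊤ := ordHol_ne_top ⟨x, hx⟩ hb
    have h4 : meromorphicOrderAt G x = ordAt ⟨x, hx⟩ z := by
      have h5 : meromorphicOrderAt G x + ordHol ⟨x, hx⟩ b = ordAt ⟨x, hx⟩ z + ordHol ⟨x, hx⟩ b := by
        rw [h2]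
        exact h1
      exact (WithTop.add_right_inj h3).mp h5
    rw [h4]
    exact hz ⟨x, hx⟩
  -- the holomorphic function
  have hfmd : MDifferentiable 𝓘(ℂ) 𝓘(ℂ) (fun τ : ℍ => G τ) := by
    rw [UpperHalfPlane.mdifferentiable_iff]
    intro x hx
    have hx' : 0 < x.im := hx
    refine ((hGan x hx').differentiableAt.differentiableWithinAt).congr_of_eventuallyEq ?_ ?_
    · filter_upwards [self_mem_nhdsWithin] with w hw
      have hw' : 0 < w.im := hw
      simp only [Function.comp_apply]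
      rw [ofComplex_apply_of_im_pos hw']
    · simp only [Function.comp_apply]
      rw [ofComplex_apply_of_im_pos hx']
  refine ⟨⟨fun τ : ℍ => G τ, hfmd⟩, ?_⟩
  have hmul : (⟨fun τ : ℍ => G τ, hfmd⟩ : Hol) * b = a := by
    apply Hol.ext
    intro τ
    have hτ : 0 < (τ : ℂ).im := τ.im_pos
    have hev : ∀ᶠ w in 𝓝 (τ : ℂ), (G * B) w = A w := by
      refine (AnalyticAt.frequently_eq_iff_eventually_eq
        ((hGan _ hτ).mul (hBan _ hτ)) (hAan _ hτ)).mp ?_
      exact (hGB _ hτ).frequently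
    have h1 := hev.self_of_nhds
    simp only [Pi.mul_apply, hA, hB, Function.comp_apply, ofComplex_apply] at h1
    exact h1
  have : algebraMap Hol Mer (⟨fun τ : ℍ => G τ, hfmd⟩ : Hol) * algebraMap Hol Mer b
      = z * algebraMap Hol Mer b := by
    rw [← map_mul, hmul, hzb]
  exact mul_right_cancel₀ hbM this

/-- Orders of holomorphic functions are nonnegative. -/
theorem ordHol_nonneg' (τ : ℍ) (f : Hol) : 0 ≤ ordHol τ f := by
  rw [ordHol_eq_analyticOrderAt]
  cases h : analyticOrderAt ((f : ℍ → ℂ) ∘ ofComplex) (τ : ℂ) with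
  | top => exact le_top
  | coe m =>
    show ((0 : ℤ) : WithTop ℤ) ≤ ((m : ℤ) : WithTop ℤ)
    exact WithTop.coe_le_coe.mpr (Int.natCast_nonneg m)

/-- `Hol` is root-closed in `Mer`: if `z ^ n` is holomorphic (`n ≠ 0`), so is `z`. -/
theorem exists_hol_of_pow_mem (z : Mer) {n : ℕ} (hn : n ≠ 0) (f : Hol)
    (hzf : z ^ n = algebraMap Hol Mer f) : ∃ g : Hol, algebraMap Hol Mer g = z := by
  refine exists_hol_of_ordAt_nonneg z fun τ => ?_
  have h1 : n • ordAt τ z = ordHol τ f := by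
    rw [← (ordAt τ).map_pow, hzf, ordAt_algebraMap]
  have h2 : (0 : WithTop ℤ) ≤ n • ordAt τ z := h1 ▸ ordHol_nonneg' τ f
  cases h : ordAt τ z with
  | top => exact le_top
  | coe m =>
    rw [h] at h2
    have h3 : (n • (m : WithTop ℤ)) = ((n • m : ℤ) : WithTop ℤ) := by
      rw [← WithTop.coe_nsmul]
    rw [h3] at h2
    have h4 : (0 : ℤ) ≤ n • m := WithTop.coe_le_coe.mp h2
    show ((0 : ℤ) : WithTop ℤ) ≤ ((m : ℤ) : WithTop ℤ)
    refine WithTop.coe_le_coe.mpr ?_
    rw [nsmul_eq_mul] at h4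
    by_contra hneg
    have hneg' : m < 0 := not_le.mp hneg
    have hn' : (0 : ℤ) < n := by exact_mod_cast Nat.pos_of_ne_zero hn
    nlinarith

/-- `n`-divisibility of an order in `WithTop ℤ`. -/
def OrdDvd (n : ℕ) (x : WithTop ℤ) : Prop := ∃ m : ℤ, x = (((n : ℤ) * m : ℤ) : WithTop ℤ)

/-- The holomorphic root Prop (the deliverable of the ROOT leaf, `Hol` form): a nonzero
holomorphic function all of whose zero orders are divisible by `n` has a holomorphic `n`-th
root. -/
def Stmt_HolRoot (n : ℕ) : Prop :=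
  ∀ a : Hol, a ≠ 0 → (∀ τ : ℍ, OrdDvd n (ordHol τ a)) → ∃ c : Hol, c ^ n = a

/-- `n`-th roots in `Mer` from `n`-th roots in `Hol`: write `z = a / b`, take a root of
`a * b ^ (n - 1)` and divide by `b`. -/
theorem exists_mer_root_of_holRoot {n : ℕ} (hn : n ≠ 0) (hroot : Stmt_HolRoot n) (z : Mer)
    (hz0 : z ≠ 0) (hz : ∀ τ : ℍ, OrdDvd n (ordAt τ z)) : ∃ h : Mer, h ^ n = z := by
  obtain ⟨a, b, hb, hzb⟩ := exists_eq_div z
  have hbM : algebraMap Hol Mer b ≠ 0 := fun h =>
    hb (IsFractionRing.injective Hol Mer (h.trans (map_zero _).symm))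
  have ha : a ≠ 0 := by
    rintro rfl
    rw [map_zero] at hzb
    rcases mul_eq_zero.mp hzb with h | h
    · exact hz0 h
    · exact hbM h
  obtain ⟨k, rfl⟩ : ∃ k, n = k + 1 := Nat.exists_eq_succ_of_ne_zero hn
  have hab : a * b ^ k ≠ 0 := mul_ne_zero ha (pow_ne_zero k hb)
  obtain ⟨c, hc⟩ := hroot (a * b ^ k) hab (by
    intro τ
    obtain ⟨m, hm⟩ := hz τ
    have h2 : ordAt τ z + ordHol τ b = ordHol τ a := by
      rw [← ordAt_algebraMap, ← ordAt_algebraMap, ← (ordAt τ).map_mul, hzb]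
    obtain ⟨l, hl⟩ := WithTop.ne_top_iff_exists.mp (ordHol_ne_top τ hb)
    refine ⟨m + l, ?_⟩
    rw [(ordHol τ).map_mul, (ordHol τ).map_pow, ← h2, hm, ← hl]
    rw [← WithTop.coe_nsmul, ← WithTop.coe_add, ← WithTop.coe_add]
    congr 1
    rw [nsmul_eq_mul]
    push_cast
    ring)
  refine ⟨algebraMap Hol Mer c / algebraMap Hol Mer b, ?_⟩
  rw [div_pow, ← map_pow, hc, map_mul, map_pow, pow_succ, ← hzb]
  field_simp

/-! ### Stabilisers for `pull` -/

/-- The stabiliser of an element of `Mer` under `pull`, inside a subgroup `Γ`. -/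
theorem exists_subgroup_pull_fixed (Γ : Subgroup SL(2, ℤ)) (w : Mer) :
    ∃ H : Subgroup Γ, ∀ γ : Γ, γ ∈ H ↔ pull (γ : SL(2, ℤ)) w = w := by
  refine ⟨{ carrier := {γ : Γ | pull (γ : SL(2, ℤ)) w = w}
            mul_mem' := ?_
            one_mem' := ?_
            inv_mem' := ?_ }, fun γ => Iff.rfl⟩
  · intro γ γ' h h'
    show pull ((γ * γ' : Γ) : SL(2, ℤ)) w = w
    have h1 : pull (γ' : SL(2, ℤ)) (pull (γ : SL(2, ℤ)) w) = w := by
      rw [show pull (γ : SL(2, ℤ)) w = w from h]; exact h'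
    rw [pull_pull] at h1
    exact h1
  · show pull ((1 : Γ) : SL(2, ℤ)) w = w
    exact pull_one w
  · intro γ h
    show pull ((γ⁻¹ : Γ) : SL(2, ℤ)) w = w
    have h' : pull (γ : SL(2, ℤ)) w = w := h
    have h1 : pull ((γ⁻¹ : Γ) : SL(2, ℤ)) (pull (γ : SL(2, ℤ)) w) = w := by
      rw [pull_pull]
      have : ((γ : SL(2, ℤ)) * ((γ⁻¹ : Γ) : SL(2, ℤ))) = 1 := by
        rw [Subgroup.coe_inv, mul_inv_cancel]
      rw [this, pull_one]
    rwa [h'] at h1

/-! ### Finiteness of the classes (FINC), `Mer` form -/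

/-- **FINC, `Mer` form.**  `F` a field realised in `Mer` by a ring hom `ev` whose image is fixed
by `pull γ`, `γ ∈ Γ` (`Γ` finitely generated).  Inputs:

* `A`, `hA`, `hden` : a multiplicative set `A` of elements with holomorphic realisation such that
  every `f : F` has a nonzero denominator `d ∈ A` with `f * d ∈ A`;
* `hroot` : every nonzero element of `Mer` with all orders divisible by `n` is an `n`-th power
  (landed: `helper2122.exists_mer_pow_eq`; or `exists_mer_root_of_holRoot` from `Stmt_HolRoot n`);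
* `hinv`  : a `Γ`-invariant HOLOMORPHIC function whose `n`-th power is `ev a`, `a ∈ A`, lies in
  `ev F`.

Output: the `u ≠ 0` in `F` all of whose analytic orders `ordAt τ (ev u)` are divisible by `n`
fall into finitely many classes modulo `n`-th powers. -/
theorem finite_classes_of_mer {F : Type*} [Field F] (Γ : Subgroup SL(2, ℤ)) [Group.FG Γ]
    (ev : F →+* Mer) (hev : ∀ γ ∈ Γ, ∀ f : F, pull γ (ev f) = ev f)
    (A : Submonoid F) (hA : ∀ a ∈ A, ∃ E : Hol, algebraMap Hol Mer E = ev a)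
    (hden : ∀ f : F, ∃ d ∈ A, d ≠ 0 ∧ f * d ∈ A)
    {n : ℕ} (hn : n ≠ 0)
    (hroot : ∀ z : Mer, z ≠ 0 → (∀ τ : ℍ, OrdDvd n (ordAt τ z)) → ∃ h : Mer, h ^ n = z)
    (hinv : ∀ H : Hol, (∀ γ ∈ Γ, pull γ (algebraMap Hol Mer H) = algebraMap Hol Mer H) →
      (∃ a ∈ A, algebraMap Hol Mer H ^ n = ev a) → ∃ t : F, algebraMap Hol Mer H = ev t) :
    ∃ T : Finset F, (∀ s ∈ T, s ≠ 0 ∧ ∀ τ : ℍ, OrdDvd n (ordAt τ (ev s))) ∧
      ∀ u : F, u ≠ 0 → (∀ τ : ℍ, OrdDvd n (ordAt τ (ev u))) →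
        ∃ s ∈ T, ∃ t : F, t ≠ 0 ∧ u = s * t ^ n := by
  have key := exists_finset_reps_of_roots (F := F) (M := Mer) ev (Γ := Γ)
    (fun γ => ((pull (γ : SL(2, ℤ)) : Mer ≃ₐ[ℂ] Mer) : Mer →+* Mer))
    (fun w => exists_subgroup_pull_fixed Γ w)
    (fun γ f => hev γ γ.2 f) n hn
    (fun u => u ≠ 0 ∧ ∀ τ : ℍ, OrdDvd n (ordAt τ (ev u)))
    (fun u hu => hu.1)
    (fun u hu => hroot (ev u)
      (fun h => hu.1 (ev.injective (h.trans (map_zero ev).symm))) hu.2)
    (by
      intro w hw ⟨f, hf⟩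
      obtain ⟨d, hdA, hd0, hfd⟩ := hden f
      obtain ⟨k, rfl⟩ : ∃ k, n = k + 1 := Nat.exists_eq_succ_of_ne_zero hn
      -- `e = (f * d) * d ^ k ∈ A` and `(w * ev d) ^ (k + 1) = ev e`
      have heA : f * d * d ^ k ∈ A := A.mul_mem hfd (A.pow_mem hdA k)
      have hpow : (w * ev d) ^ (k + 1) = ev (f * d * d ^ k) := by
        rw [mul_pow, hf, map_mul, map_mul, map_pow, pow_succ]
        ring
      obtain ⟨E, hE⟩ := hA _ heA
      obtain ⟨H, hH⟩ := exists_hol_of_pow_mem (w * ev d) (Nat.succ_ne_zero k) E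
        (by rw [hpow, hE])
      have hHinv : ∀ γ ∈ Γ, pull γ (algebraMap Hol Mer H) = algebraMap Hol Mer H := by
        intro γ hγ
        rw [hH, map_mul, hev γ hγ d]
        have hγw : pull γ w = w := hw ⟨γ, hγ⟩
        rw [hγw]
      obtain ⟨t, ht⟩ := hinv H hHinv ⟨_, heA, by rw [hH, hpow]⟩
      refine ⟨t / d, ?_⟩
      have hd0' : ev d ≠ 0 := fun h => hd0 (ev.injective (h.trans (map_zero ev).symm))
      rw [map_div₀, ← ht, hH]
      field_simp)
  obtain ⟨T, hT1, hT2⟩ := key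
  exact ⟨T, hT1, fun u hu0 hu => hT2 u ⟨hu0, hu⟩⟩

end

end Fermat.Agent.S29.helper587
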