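import Fermat.Agent.S29.helper580_CPlace
import Fermat.Agent.S29.helper2122_MerBridge
import Fermat.Agent.S29.helper3126_InvRoot
import Fermat.Agent.S29.helper265_ValPlace
import Fermat.Agent.S29.helper587_FinCMer

/-!
# S29-FINC: finiteness of the Kummer classes of the complex function field of `X₀(N)`

Instance of `helper587.finite_classes_of_mer` on `FC N = laurentBaseChange ℂ
(modularFunctionFieldFull N)` with the landed analytic evaluation `helper580.evC`:

* root Prop: landed `helper2122.exists_mer_pow_eq`;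
* invariant-root Prop: `invRoot_evC`, from the landed Lagrange representation
  `helper3126.exists_lagrange_rep`.

Main statement `finite_kummer_classes_FC`: for every `n ≠ 0` there is a finite set `T ⊆ FC N`
such that every `u ≠ 0` in `FC N` all of whose analytic orders `ordAt τ (evC N u)`, `τ ∈ ℍ`, are
divisible by `n` is `s * t ^ n` with `s ∈ T`.
-/

set_option autoImplicit false

open UpperHalfPlane CongruenceSubgroup ModularCurve
open scoped MatrixGroups Manifold

namespace Fermat.Agent.S29.helper587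

open Fermat.Agent.S24.helper580 (Hol Mer ordAt pull pullHol pull_algebraMap pullHol_apply)
open Fermat.Agent.S29.helper580 (FC AC evC evHol evFun jC jCD)

noncomputable section

variable (N : ℕ)

/-- The evaluation at a point, as a ring hom on `AC N`. -/
def evPt (τ : ℍ) : AC N →+* ℂ :=
  (Pi.evalRingHom (fun _ : ℍ => ℂ) τ).comp
    ((Fermat.Agent.S24.helper580.Hol.val : Hol →ₐ[ℂ] (ℍ → ℂ)).toRingHom.comp
      (evHol N).toRingHom)

theorem evPt_apply (τ : ℍ) (a : AC N) : evPt N τ a = evFun N a τ := rfl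

/-- The element `G(j, j_N)` of `AC N` attached to a bivariate polynomial. -/
def biElt [NeZero N] (G : Polynomial (Polynomial ℂ)) : AC N :=
  G.eval₂ (Polynomial.eval₂RingHom (algebraMap ℂ (AC N))
      (⟨jC N, Fermat.Agent.S29.helper580.jC_mem_AC N⟩ : AC N))
    (⟨jCD N N dvd_rfl, Fermat.Agent.S29.helper580.jCD_mem_AC N N dvd_rfl⟩ : AC N)

theorem evFun_biElt [NeZero N] (G : Polynomial (Polynomial ℂ)) (τ : ℍ) :
    evFun N (biElt N G) τ = Fermat.Agent.S29.helper3126.biVal N G τ := by
  rw [← evPt_apply, biElt, Polynomial.hom_eval₂]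
  unfold Fermat.Agent.S29.helper3126.biVal
  congr 1
  · refine Polynomial.ringHom_ext (fun c => ?_) ?_
    · simp only [RingHom.comp_apply, Polynomial.coe_eval₂RingHom, Polynomial.eval₂_C,
        Polynomial.coe_evalRingHom, Polynomial.eval_C]
      rw [evPt_apply, Fermat.Agent.S29.helper580.evFun_algebraMap]
    · simp only [RingHom.comp_apply, Polynomial.coe_eval₂RingHom, Polynomial.eval₂_X,
        Polynomial.coe_evalRingHom, Polynomial.eval_X]
      rw [evPt_apply, Fermat.Agent.S29.helper580.evFun_jC]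
      rfl
  · rw [evPt_apply, Fermat.Agent.S29.helper580.evFun_jCD]
    rfl

/-- **Invariant roots lie in the complex function field.**  A holomorphic `Γ₀(N)`-invariant
function whose `n`-th power is the realisation of an element of `AC N` is the realisation of an
element of `FC N`. -/
theorem invRoot_evC [NeZero N] {n : ℕ} (hn : n ≠ 0) (H : Hol)
    (hinv : ∀ γ ∈ Gamma0 N, pull γ (algebraMap Hol Mer H) = algebraMap Hol Mer H)
    (a : FC N) (ha : a ∈ AC N) (hpow : algebraMap Hol Mer H ^ n = evC N a) :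
    ∃ t : FC N, algebraMap Hol Mer H = evC N t := by
  have hinj := IsFractionRing.injective Hol Mer
  -- function-level invariance
  have hfun_inv : ∀ γ ∈ Gamma0 N, ∀ τ : ℍ, (H : ℍ → ℂ) (γ • τ) = (H : ℍ → ℂ) τ := by
    intro γ hγ τ
    have h1 := hinv γ hγ
    rw [pull_algebraMap] at h1
    have h2 : pullHol γ H = H := hinj h1
    have h3 := congrFun (congrArg Subtype.val h2) τ
    exact h3
  -- function-level power identity
  have hpowfun : ∀ τ : ℍ, (H : ℍ → ℂ) τ ^ n = evFun N ⟨a, ha⟩ τ := by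
    intro τ
    have h1 : algebraMap Hol Mer (H ^ n) = algebraMap Hol Mer (evHol N ⟨a, ha⟩) := by
      rw [map_pow, hpow]
      exact Fermat.Agent.S29.helper580.evC_coe N ⟨a, ha⟩
    have h2 : H ^ n = evHol N ⟨a, ha⟩ := hinj h1
    have h3 := congrFun (congrArg Subtype.val h2) τ
    exact h3
  -- growth of all translates
  have hgrowth : ∀ g : SL(2, ℤ),
      Fermat.Agent.S24.helper167.HasExpGrowth (fun τ : ℍ => (H : ℍ → ℂ) (g • τ)) := by
    intro g
    exact Fermat.Agent.S29.helper3126.hasExpGrowth_of_pow (Nat.pos_of_ne_zero hn)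
      (fun τ => hpowfun (g • τ))
      (Fermat.Agent.S29.helper580.evFun_smul_mdiff_growth N ⟨a, ha⟩ g).2
  obtain ⟨G, D, hGD, τ0, hD0⟩ :=
    Fermat.Agent.S29.helper3126.exists_lagrange_rep N (H : ℍ → ℂ) H.2 hfun_inv hgrowth
  have hdA : ((biElt N D : AC N) : FC N) ≠ 0 := by
    intro h0
    have h1 : biElt N D = 0 := Subtype.ext h0
    apply hD0
    rw [← evFun_biElt, h1, Fermat.Agent.S29.helper580.evFun_zero]
    rfl
  have hmul : H * evHol N (biElt N D) = evHol N (biElt N G) := by
    apply Fermat.Agent.S24.helper580.Hol.ext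
    intro τ
    show (H : ℍ → ℂ) τ * evFun N (biElt N D) τ = evFun N (biElt N G) τ
    rw [evFun_biElt, evFun_biElt, hGD τ]
  refine ⟨((biElt N G : AC N) : FC N) / ((biElt N D : AC N) : FC N), ?_⟩
  have hd' : evC N ((biElt N D : AC N) : FC N) ≠ 0 :=
    Fermat.Agent.S29.helper580.evC_ne_zero N hdA
  rw [map_div₀, eq_div_iff hd', Fermat.Agent.S29.helper580.evC_coe,
    Fermat.Agent.S29.helper580.evC_coe, ← map_mul, hmul]

/-- **FINC (analytic-order form).** For every `n ≠ 0` there is a finite set `T` of nonzero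
elements of the complex function field `FC N` of `X₀(N)` such that every `u ≠ 0` all of whose
analytic orders `ordAt τ (evC N u)`, `τ ∈ ℍ`, are divisible by `n` is `s * t ^ n` with `s ∈ T`
and `t ≠ 0`. -/
theorem finite_kummer_classes_FC [NeZero N] {n : ℕ} (hn : n ≠ 0) :
    ∃ T : Finset (FC N), (∀ s ∈ T, s ≠ 0 ∧ ∀ τ : ℍ, OrdDvd n (ordAt τ (evC N s))) ∧
      ∀ u : FC N, u ≠ 0 → (∀ τ : ℍ, OrdDvd n (ordAt τ (evC N u))) →
        ∃ s ∈ T, ∃ t : FC N, t ≠ 0 ∧ u = s * t ^ n := by
  refine finite_classes_of_mer (Gamma0 N) (evC N : FC N →+* Mer)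
    (fun γ hγ f => Fermat.Agent.S29.helper580.pull_evC N γ hγ f)
    (AC N).toSubsemiring.toSubmonoid ?_ ?_ hn ?_ ?_
  · intro a ha
    exact ⟨evHol N ⟨a, ha⟩, (Fermat.Agent.S29.helper580.evC_coe N ⟨a, ha⟩).symm⟩
  · intro f
    obtain ⟨a, b, hb, hf⟩ := Fermat.Agent.S29.helper580.exists_div_AC N f
    refine ⟨(b : FC N), b.2, hb, ?_⟩
    rw [hf, div_mul_cancel₀ _ hb]
    exact a.2
  · intro z hz h
    exact Fermat.Agent.S29.helper2122.exists_mer_pow_eq (Nat.pos_of_ne_zero hn) z hz h
  · intro H hinv ⟨a, ha, hpow⟩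
    exact invRoot_evC N hn H hinv a ha hpow

/-! ### Place form -/

/-- The analytic order at `τ` of the realisation, as an integer valued function on `FC N`. -/
def ordC (τ : ℍ) (f : FC N) : ℤ := (ordAt τ (evC N f)).untopD 0

theorem coe_ordC (τ : ℍ) {f : FC N} (hf : f ≠ 0) :
    ((ordC N τ f : ℤ) : WithTop ℤ) = ordAt τ (evC N f) := by
  have h : ordAt τ (evC N f) ≠ ⊤ :=
    Fermat.Agent.S24.helper580.ordAt_ne_top τ (Fermat.Agent.S29.helper580.evC_ne_zero N hf)
  obtain ⟨m, hm⟩ := WithTop.ne_top_iff_exists.mp h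
  rw [ordC, ← hm]
  rfl

/-- `f ↦ ord_τ (evC f)` is an integer order function on `FC N`, trivial on `ℂ`. -/
theorem isIntOrder_ordC (τ : ℍ) : Fermat.Agent.S29.helper265.IsIntOrder ℂ (ordC N τ) := by
  refine ⟨fun f g hf hg => ?_, fun f g hf hg hfg => ?_, fun c hc => ?_⟩
  · apply WithTop.coe_injective
    have hmul : evC N (f * g) = evC N f * evC N g := (evC N).toRingHom.map_mul f g
    rw [coe_ordC N τ (mul_ne_zero hf hg), WithTop.coe_add, coe_ordC N τ hf, coe_ordC N τ hg,
      hmul, (ordAt τ).map_mul]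
  · have h := (ordAt τ).map_add (evC N f) (evC N g)
    have hadd : evC N (f + g) = evC N f + evC N g := (evC N).toRingHom.map_add f g
    rw [← hadd, ← coe_ordC N τ hf, ← coe_ordC N τ hg, ← coe_ordC N τ hfg,
      ← WithTop.coe_min] at h
    exact WithTop.coe_le_coe.mp h
  · apply WithTop.coe_injective
    have hc' : algebraMap ℂ (FC N) c ≠ 0 := by
      rw [Ne, map_eq_zero]; exact hc
    rw [coe_ordC N τ hc', AlgHom.commutes]
    exact Fermat.Agent.S24.helper580.ordAt_const τ hc

/-- Place orders divisible by `n` force analytic orders divisible by `n` (complex function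
field; via `helper265` VALPLACE). -/
theorem ordDvd_of_forall_place_dvd {n : ℕ} {u : FC N} (hu : u ≠ 0)
    (h : ∀ v : AlgebraicCurve.Place ℂ (FC N), (n : ℤ) ∣ v.ord u) (τ : ℍ) :
    OrdDvd n (ordAt τ (evC N u)) := by
  obtain ⟨m, hm⟩ := (isIntOrder_ordC N τ).dvd_of_forall_place_dvd hu h
  exact ⟨m, by rw [← coe_ordC N τ hu, hm]⟩

/-- **FINC (place form)** = the hypothesis `hfin` of the descent leaves: finitely many Kummer
classes modulo `n`-th powers in the complex function field of `X₀(N)`. -/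
theorem finite_kummer_classes_FC_place [NeZero N] {n : ℕ} (hn : n ≠ 0) :
    ∃ T : Finset (FC N), ∀ u : FC N, u ≠ 0 →
      (∀ v : AlgebraicCurve.Place ℂ (FC N), (n : ℤ) ∣ v.ord u) →
        ∃ s ∈ T, ∃ t : FC N, t ≠ 0 ∧ u = s * t ^ n := by
  obtain ⟨T, -, hT⟩ := finite_kummer_classes_FC N hn
  exact ⟨T, fun u hu h => hT u hu (ordDvd_of_forall_place_dvd N hu h)⟩

end

end Fermat.Agent.S29.helper587
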