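import Fermat.Prelude.Def_ModularCurve_ArithmeticGalois

/-!
# S29-OFFS (helper8395): Kummer classes off a finite stable set of places

Glue for the descent `ℂ → ℚ̄` of Kummer generators (team_s29_chat #118).

* `KummerOff K n S u` : `u ≠ 0` and `n ∣ ord_v u` at every place `v ∉ S`.
* `exists_finset_off` (O1): if the everywhere-Kummer functions fall into finitely many classes
  modulo constants and `n`-th powers, so do the functions that are Kummer off a finite set `S`.
* `exists_finset_orbit` (O2): if `S` is stable under a set of semilinear automorphisms, the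
  translates `g • u` of a function that is Kummer off `S` fall into finitely many classes.
* `finite_ord_ne_zero`, `ord_smul_of_smul_eq` (O3, generic): zero/pole sets of invariant
  functions are finite and stable.
* `jL`, `badPlaces`, `badPlaces_finite`, `smul_mem_badPlaces` (O3, modular): the places above
  `j = 0, 1728, ∞` of the function field of `X₀(N)` over any field `L ⊇ ℚ`.
-/

set_option autoImplicit false

open AlgebraicCurve

namespace Fermat.Agent.S29.helper8395

section Generic

variable {K F : Type*} [Field K] [Field F] [Algebra K F]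

/-- `u` is nonzero and its order is divisible by `n` at every place outside `S`. -/
def KummerOff (K : Type*) {F : Type*} [Field K] [Field F] [Algebra K F] (n : ℕ)
    (S : Set (Place K F)) (u : F) : Prop :=
  u ≠ 0 ∧ ∀ v : Place K F, v ∉ S → (n : ℤ) ∣ v.ord u

theorem kummerOff_empty_iff (n : ℕ) (u : F) :
    KummerOff K n (∅ : Set (Place K F)) u ↔ u ≠ 0 ∧ ∀ v : Place K F, (n : ℤ) ∣ v.ord u := by
  unfold KummerOff
  simp

theorem KummerOff.mono {n : ℕ} {S S' : Set (Place K F)} (h : S ⊆ S') {u : F}
    (hu : KummerOff K n S u) : KummerOff K n S' u :=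
  ⟨hu.1, fun v hv => hu.2 v fun hvS => hv (h hvS)⟩

theorem ord_div (v : Place K F) {f g : F} (hf : f ≠ 0) (hg : g ≠ 0) :
    v.ord (f / g) = v.ord f - v.ord g := by
  rw [div_eq_mul_inv, v.ord_mul hf (inv_ne_zero hg), v.ord_inv, sub_eq_add_neg]

/-- The residue pattern of `u` on the set `S`. -/
noncomputable def pattern (n : ℕ) (S : Set (Place K F)) (u : F) : S → ZMod n :=
  fun v => ((v : Place K F).ord u : ZMod n)

/-- Two functions that are Kummer off `S` with the same residue pattern on `S` have an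
everywhere-Kummer quotient. -/
theorem dvd_ord_div_of_pattern_eq {n : ℕ} {S : Set (Place K F)} {u w : F}
    (hu : KummerOff K n S u) (hw : KummerOff K n S w)
    (hpat : pattern n S u = pattern n S w) (v : Place K F) :
    (n : ℤ) ∣ v.ord (u / w) := by
  rw [ord_div v hu.1 hw.1]
  by_cases hv : v ∈ S
  · have h := congrFun hpat ⟨v, hv⟩
    simp only [pattern] at h
    exact (ZMod.intCast_eq_intCast_iff_dvd_sub _ _ n).mp h.symm
  · exact dvd_sub (hu.2 v hv) (hw.2 v hv)

/-- **(O1)** Finiteness transfer: finitely many everywhere-Kummer classes and `S` finite imply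
finitely many classes of functions that are Kummer off `S`. -/
theorem exists_finset_off (n : ℕ) (hn : n ≠ 0) (S : Set (Place K F)) (hS : S.Finite)
    (hfin : ∃ T : Finset F, ∀ u : F, u ≠ 0 → (∀ v : Place K F, (n : ℤ) ∣ v.ord u) →
      ∃ s ∈ T, ∃ (c : K) (t : F), c ≠ 0 ∧ t ≠ 0 ∧ u = algebraMap K F c * s * t ^ n) :
    ∃ T' : Finset F, ∀ u : F, KummerOff K n S u →
      ∃ s ∈ T', ∃ (c : K) (t : F), c ≠ 0 ∧ t ≠ 0 ∧ u = algebraMap K F c * s * t ^ n := by
  classical
  obtain ⟨T, hT⟩ := hfin
  haveI : NeZero n := ⟨hn⟩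
  haveI : Finite S := hS
  -- a representative for every residue pattern that occurs
  let rep : (S → ZMod n) → F := fun r =>
    if h : ∃ w : F, KummerOff K n S w ∧ pattern n S w = r then h.choose else 1
  have hrep : ∀ u : F, KummerOff K n S u →
      KummerOff K n S (rep (pattern n S u)) ∧
        pattern n S (rep (pattern n S u)) = pattern n S u := by
    intro u hu
    have h : ∃ w : F, KummerOff K n S w ∧ pattern n S w = pattern n S u := ⟨u, hu, rfl⟩
    have hr : rep (pattern n S u) = h.choose := dif_pos h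
    rw [hr]
    exact h.choose_spec
  have hfinite : (Set.range fun x : (S → ZMod n) × T => (x.2 : F) * rep x.1).Finite :=
    Set.finite_range _
  refine ⟨hfinite.toFinset, fun u hu => ?_⟩
  obtain ⟨hw, hpat⟩ := hrep u hu
  set w := rep (pattern n S u) with hwdef
  have hdiv : ∀ v : Place K F, (n : ℤ) ∣ v.ord (u / w) :=
    dvd_ord_div_of_pattern_eq hu hw hpat.symm
  obtain ⟨s, hsT, c, t, hc, ht, huw⟩ := hT (u / w) (div_ne_zero hu.1 hw.1) hdiv
  refine ⟨s * w, ?_, c, t, hc, ht, ?_⟩
  · rw [Set.Finite.mem_toFinset]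
    exact ⟨(pattern n S u, ⟨s, hsT⟩), rfl⟩
  · have h1 : u = u / w * w := (div_mul_cancel₀ u hw.1).symm
    rw [h1, huw]
    ring

/-- A semilinear automorphism under which `S` is stable preserves `KummerOff`. -/
theorem KummerOff.smul {n : ℕ} {S : Set (Place K F)} {u : F} (hu : KummerOff K n S u)
    (g : SemilinearAut K F) (hg : ∀ v : Place K F, v ∈ S → g • v ∈ S) :
    KummerOff K n S (g • u) := by
  refine ⟨?_, fun v hv => ?_⟩
  · intro h0
    apply hu.1
    have h1 : g⁻¹ • (g • u) = g⁻¹ • (0 : F) := congrArg (g⁻¹ • ·) h0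
    rwa [inv_smul_smul, smul_zero] at h1
  · have hv' : g⁻¹ • v ∉ S := fun h => hv (by simpa using hg _ h)
    have h1 : (g • (g⁻¹ • v)).ord (g • u) = (g⁻¹ • v).ord u :=
      SemilinearAut.ord_smul g (g⁻¹ • v) u
    rw [smul_inv_smul] at h1
    rw [h1]
    exact hu.2 _ hv'

/-- **(O2)** Finite orbit of the class: if `S` is finite and stable under every element of a set
`G` of semilinear automorphisms, and the everywhere-Kummer classes are finitely many, then there
is ONE finite set `T'` such that every translate `g • u` (`g ∈ G`) of every function `u` that is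
Kummer off `S` is `c * s * t ^ n` with `s ∈ T'`. -/
theorem exists_finset_orbit (n : ℕ) (hn : n ≠ 0) (S : Set (Place K F)) (hS : S.Finite)
    (G : Set (SemilinearAut K F)) (hG : ∀ g ∈ G, ∀ v : Place K F, v ∈ S → g • v ∈ S)
    (hfin : ∃ T : Finset F, ∀ u : F, u ≠ 0 → (∀ v : Place K F, (n : ℤ) ∣ v.ord u) →
      ∃ s ∈ T, ∃ (c : K) (t : F), c ≠ 0 ∧ t ≠ 0 ∧ u = algebraMap K F c * s * t ^ n) :
    ∃ T' : Finset F, ∀ u : F, KummerOff K n S u → ∀ g ∈ G,
      ∃ s ∈ T', ∃ (c : K) (t : F), c ≠ 0 ∧ t ≠ 0 ∧ g • u = algebraMap K F c * s * t ^ n := by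
  obtain ⟨T', hT'⟩ := exists_finset_off n hn S hS hfin
  exact ⟨T', fun u hu g hg => hT' (g • u) (hu.smul g (hG g hg))⟩

/-- Zeros and poles of a nonzero function are finitely many. -/
theorem finite_ord_ne_zero [HasPrincipalDivisors K F] {f : F} (hf : f ≠ 0) :
    {v : Place K F | v.ord f ≠ 0}.Finite := by
  obtain ⟨D, hD, -⟩ := HasPrincipalDivisors.exists_divisor (K := K) f hf
  refine D.support.finite_toSet.subset fun v hv => ?_
  rw [Finset.mem_coe, Finsupp.mem_support_iff, hD v]
  exact hv

/-- The order of an invariant function is the same at a place and at its translate. -/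
theorem ord_smul_of_smul_eq (g : SemilinearAut K F) {f : F} (hf : g • f = f) (v : Place K F) :
    (g • v).ord f = v.ord f := by
  have h := SemilinearAut.ord_smul g v f
  rwa [hf] at h

end Generic

section Modular

open ModularCurve

variable (L : Type*) [Field L] [Algebra ℚ L]
variable (F₀ : IntermediateField ℚ (LaurentSeries ℚ))

/-- The function `j` in the function field `L · F₀` (for `F₀ ∋ j`). -/
noncomputable def jL (hj : jq ∈ F₀) : laurentBaseChange L F₀ :=
  ⟨coeffEmb L jq, coeffEmb_mem_laurentBaseChange L hj⟩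

@[simp]
theorem coe_jL (hj : jq ∈ F₀) : ((jL L F₀ hj : laurentBaseChange L F₀) : LaurentSeries L)
    = coeffEmb L jq := rfl

theorem coe_algebraMap_coeff_neg_one (c : L) :
    ((algebraMap L (laurentBaseChange L F₀) c : laurentBaseChange L F₀) :
      LaurentSeries L).coeff (-1) = 0 := by
  have h : ((algebraMap L (laurentBaseChange L F₀) c : laurentBaseChange L F₀) :
      LaurentSeries L) = algebraMap L (LaurentSeries L) c := rfl
  rw [h, algebraMap_laurentSeries_eq_single, HahnSeries.coeff_single_of_ne (by norm_num)]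

/-- `j - c ≠ 0` for every constant `c`. -/
theorem jL_sub_ne_zero (hj : jq ∈ F₀) (c : L) :
    jL L F₀ hj - algebraMap L (laurentBaseChange L F₀) c ≠ 0 := by
  intro h
  have h1 := congrArg (fun x : laurentBaseChange L F₀ => (x : LaurentSeries L).coeff (-1)) h
  simp only [AddSubgroupClass.coe_sub, HahnSeries.coeff_sub, coe_jL, coeffEmb_coeff,
    coeff_jq_neg_one, map_one, coe_algebraMap_coeff_neg_one, sub_zero, ZeroMemClass.coe_zero,
    HahnSeries.coeff_zero] at h1
  exact one_ne_zero h1

theorem jL_ne_zero (hj : jq ∈ F₀) : jL L F₀ hj ≠ 0 := by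
  have h := jL_sub_ne_zero L F₀ hj 0
  rwa [map_zero, sub_zero] at h

variable {L}

/-- The arithmetic Galois action fixes `j`. -/
theorem arithmeticGalois_smul_jL (hj : jq ∈ F₀) (σ : L ≃ₐ[ℚ] L) :
    arithmeticGalois F₀ σ • jL L F₀ hj = jL L F₀ hj := by
  apply Subtype.ext
  rw [coe_arithmeticGalois_smul]
  exact coeffMap_coeffEmb σ jq

/-- The arithmetic Galois action fixes rational constants. -/
theorem arithmeticGalois_smul_algebraMap_rat (σ : L ≃ₐ[ℚ] L) (c : ℚ) :
    arithmeticGalois F₀ σ • algebraMap L (laurentBaseChange L F₀) (algebraMap ℚ L c)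
      = algebraMap L (laurentBaseChange L F₀) (algebraMap ℚ L c) := by
  rw [SemilinearAut.smul_algebraMap, baseAut_arithmeticGalois]
  exact congrArg _ (σ.commutes c)

theorem arithmeticGalois_smul_jL_sub_rat (hj : jq ∈ F₀) (σ : L ≃ₐ[ℚ] L) (c : ℚ) :
    arithmeticGalois F₀ σ •
        (jL L F₀ hj - algebraMap L (laurentBaseChange L F₀) (algebraMap ℚ L c))
      = jL L F₀ hj - algebraMap L (laurentBaseChange L F₀) (algebraMap ℚ L c) := by
  rw [smul_sub, arithmeticGalois_smul_jL, arithmeticGalois_smul_algebraMap_rat]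

variable (L)

/-- The places above `j = 0, 1728, ∞`: zeros and poles of `j` and of `j - 1728`. -/
def badPlaces (hj : jq ∈ F₀) : Set (Place L (laurentBaseChange L F₀)) :=
  {v | v.ord (jL L F₀ hj) ≠ 0} ∪
    {v | v.ord (jL L F₀ hj - algebraMap L (laurentBaseChange L F₀) (algebraMap ℚ L 1728)) ≠ 0}

theorem not_mem_badPlaces_iff (hj : jq ∈ F₀) (v : Place L (laurentBaseChange L F₀)) :
    v ∉ badPlaces L F₀ hj ↔ v.ord (jL L F₀ hj) = 0 ∧
      v.ord (jL L F₀ hj - algebraMap L (laurentBaseChange L F₀) (algebraMap ℚ L 1728)) = 0 := by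
  constructor
  · intro h
    exact ⟨not_not.mp fun h1 => h (Or.inl h1), not_not.mp fun h2 => h (Or.inr h2)⟩
  · rintro ⟨h1, h2⟩ (h | h)
    · exact h h1
    · exact h h2

/-- Off the bad places, the centre `c` of a place (`0 < ord_v (j - c)`) is neither `0`
nor `1728`. -/
theorem center_ne_of_not_mem_badPlaces (hj : jq ∈ F₀) {v : Place L (laurentBaseChange L F₀)}
    (hv : v ∉ badPlaces L F₀ hj) {c : L}
    (hc : 0 < v.ord (jL L F₀ hj - algebraMap L (laurentBaseChange L F₀) c)) :
    c ≠ 0 ∧ c ≠ algebraMap ℚ L 1728 := by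
  rw [not_mem_badPlaces_iff] at hv
  refine ⟨?_, ?_⟩
  · rintro rfl
    rw [map_zero, sub_zero, hv.1] at hc
    exact lt_irrefl _ hc
  · rintro rfl
    rw [hv.2] at hc
    exact lt_irrefl _ hc

/-- The bad places are finitely many. -/
theorem badPlaces_finite [HasPrincipalDivisors L (laurentBaseChange L F₀)] (hj : jq ∈ F₀) :
    (badPlaces L F₀ hj).Finite :=
  (finite_ord_ne_zero (jL_ne_zero L F₀ hj)).union (finite_ord_ne_zero (jL_sub_ne_zero L F₀ hj _))

variable {L}

/-- The bad places are stable under the arithmetic Galois action. -/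
theorem smul_mem_badPlaces (hj : jq ∈ F₀) (σ : L ≃ₐ[ℚ] L)
    {v : Place L (laurentBaseChange L F₀)} (hv : v ∈ badPlaces L F₀ hj) :
    arithmeticGalois F₀ σ • v ∈ badPlaces L F₀ hj := by
  rcases hv with hv | hv
  · left
    show (arithmeticGalois F₀ σ • v).ord (jL L F₀ hj) ≠ 0
    rw [ord_smul_of_smul_eq _ (arithmeticGalois_smul_jL F₀ hj σ)]
    exact hv
  · right
    show (arithmeticGalois F₀ σ • v).ord
      (jL L F₀ hj - algebraMap L (laurentBaseChange L F₀) (algebraMap ℚ L 1728)) ≠ 0
    rw [ord_smul_of_smul_eq _ (arithmeticGalois_smul_jL_sub_rat F₀ hj σ 1728)]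
    exact hv

/-- **(O2), modular form.** If the everywhere-Kummer functions of `L · F₀` fall into finitely
many classes, then there is one finite set `T'` such that for every `u` that is Kummer off the
places above `j = 0, 1728, ∞` and every `σ ∈ Aut(L/ℚ)`, the coefficientwise translate of `u`
is `c * s * t ^ n` with `s ∈ T'`. -/
theorem exists_finset_orbit_arithmeticGalois
    [HasPrincipalDivisors L (laurentBaseChange L F₀)] (hj : jq ∈ F₀) (n : ℕ) (hn : n ≠ 0)
    (hfin : ∃ T : Finset (laurentBaseChange L F₀), ∀ u : laurentBaseChange L F₀, u ≠ 0 →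
      (∀ v : Place L (laurentBaseChange L F₀), (n : ℤ) ∣ v.ord u) →
      ∃ s ∈ T, ∃ (c : L) (t : laurentBaseChange L F₀), c ≠ 0 ∧ t ≠ 0 ∧
        u = algebraMap L (laurentBaseChange L F₀) c * s * t ^ n) :
    ∃ T' : Finset (laurentBaseChange L F₀), ∀ u : laurentBaseChange L F₀,
      KummerOff L n (badPlaces L F₀ hj) u → ∀ σ : L ≃ₐ[ℚ] L,
      ∃ s ∈ T', ∃ (c : L) (t : laurentBaseChange L F₀), c ≠ 0 ∧ t ≠ 0 ∧
        arithmeticGalois F₀ σ • u = algebraMap L (laurentBaseChange L F₀) c * s * t ^ n := by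
  obtain ⟨T', hT'⟩ := exists_finset_orbit n hn (badPlaces L F₀ hj) (badPlaces_finite L F₀ hj)
    (Set.range (arithmeticGalois (L := L) F₀))
    (by
      rintro _ ⟨σ, rfl⟩ v hv
      exact smul_mem_badPlaces F₀ hj σ hv) hfin
  exact ⟨T', fun u hu σ => hT' u hu _ ⟨σ, rfl⟩⟩

/-- `j` lies in the full modular function field of every level. -/
theorem jq_mem_full (N : ℕ) : jq ∈ modularFunctionFieldFull N := by
  have h := jqd_mem_full N (one_dvd N)
  rwa [qExpand_one_apply] at h

end Modular

end Fermat.Agent.S29.helper8395
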