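import Fermat.Agent.S29.helper6855_DescentCanon
import Fermat.Agent.S29.helper36_FunctionFieldL
import Fermat.Agent.S29.helper8395_KummerOff
import Fermat.Agent.S29.helper587_FinCInst

/-!
# S29-DESC, modular instance (helper6855)

The descent `Ω → K` of `helper6855_DescentCanon` for the function field of `X₀(N)`,
`laurentBaseChange Ω (modularFunctionFieldFull N)`, with `x = j`:

* `exists_descent_full` : sharp form (the conjugates of `u` meet finitely many classes);
* `exists_descent_full_of_kummerOff` : from finiteness of the Kummer classes (hypothesis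
  `hfin`, the shape of `helper8395.exists_finset_orbit_arithmeticGalois`) for `u` whose divisor
  is divisible by `n` outside the places above `j = 0, 1728, ∞`;
* `exists_descent_FC`, `exists_descent_FC_bar` : the unconditional statements over `ℂ`
  (finiteness = landed `helper587.finite_kummer_classes_FC_place`), the second one in the
  vocabulary `FN N`, `FC N`, `helper580.baseChangeC`.
-/

set_option autoImplicit false

open AlgebraicCurve IntermediateField ModularCurve

namespace Fermat.Agent.S29.helper6855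

section Modular

variable {K Ω : Type} [Field K] [Field Ω] [Algebra K Ω] [Algebra ℚ K] [Algebra ℚ Ω]
  [IsAlgClosed K] [IsAlgClosed Ω] [CharZero Ω]

/-- **Descent for `X₀(N)`, sharp form.** -/
theorem exists_descent_full (N : ℕ) [NeZero N] (n : ℕ) (hn : n ≠ 0)
    (T : Set (laurentBaseChange Ω (modularFunctionFieldFull N))) (hT : T.Finite)
    (u : laurentBaseChange Ω (modularFunctionFieldFull N)) (hu : u ≠ 0)
    (hcls : ∀ (σ : Ω ≃ₐ[K] Ω) (u' : laurentBaseChange Ω (modularFunctionFieldFull N)),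
      (u' : LaurentSeries Ω) = coeffMap (σ : Ω →+* Ω) (u : LaurentSeries Ω) →
        ∃ s ∈ T, SameClass Ω n s u') :
    ∃ (u₀ : LaurentSeries K) (w : laurentBaseChange Ω (modularFunctionFieldFull N)),
      u₀ ∈ laurentBaseChange K (modularFunctionFieldFull N) ∧ u₀ ≠ 0 ∧
      coeffMap (algebraMap K Ω) u₀ = (w : LaurentSeries Ω) ∧ SameClass Ω n u w := by
  haveI := Fermat.Agent.S29.helper36.finiteDimensional_jL Ω N
  refine exists_descent (modularFunctionFieldFull N) (Fermat.Agent.S29.helper36.jL Ω N)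
    (Fermat.Agent.S29.helper36.transcendental_jL Ω N) (fun σ => ?_) ?_ n hn T hT u hu hcls
  · rw [Fermat.Agent.S29.helper36.coe_jL]
    exact coeffMap_jqModC _
  · rw [Fermat.Agent.S29.helper36.coe_jL, Fermat.Agent.S28.helper1457.order_jqModC]
    norm_num

/-- **Descent for `X₀(N)` from finiteness of the Kummer classes**, for functions whose
divisor is divisible by `n` outside the places above `j = 0, 1728, ∞`. -/
theorem exists_descent_full_of_kummerOff (N : ℕ) [NeZero N] (n : ℕ) (hn : n ≠ 0)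
    (hfin : ∃ T : Finset (laurentBaseChange Ω (modularFunctionFieldFull N)),
      ∀ u : laurentBaseChange Ω (modularFunctionFieldFull N), u ≠ 0 →
      (∀ v : Place Ω (laurentBaseChange Ω (modularFunctionFieldFull N)), (n : ℤ) ∣ v.ord u) →
      ∃ s ∈ T, ∃ (c : Ω) (t : laurentBaseChange Ω (modularFunctionFieldFull N)), c ≠ 0 ∧ t ≠ 0 ∧
        u = algebraMap Ω (laurentBaseChange Ω (modularFunctionFieldFull N)) c * s * t ^ n)
    (u : laurentBaseChange Ω (modularFunctionFieldFull N))
    (hu : Fermat.Agent.S29.helper8395.KummerOff Ω n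
      (Fermat.Agent.S29.helper8395.badPlaces Ω (modularFunctionFieldFull N)
        (Fermat.Agent.S29.helper8395.jq_mem_full N)) u) :
    ∃ (u₀ : LaurentSeries K) (w : laurentBaseChange Ω (modularFunctionFieldFull N)),
      u₀ ∈ laurentBaseChange K (modularFunctionFieldFull N) ∧ u₀ ≠ 0 ∧
      coeffMap (algebraMap K Ω) u₀ = (w : LaurentSeries Ω) ∧ SameClass Ω n u w := by
  haveI : HasPrincipalDivisors Ω (laurentBaseChange Ω (modularFunctionFieldFull N)) :=
    Fermat.Agent.S29.helper36.hasPrincipalDivisors_L Ω N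
  obtain ⟨T', hT'⟩ := Fermat.Agent.S29.helper8395.exists_finset_orbit_arithmeticGalois (L := Ω)
    (modularFunctionFieldFull N) (Fermat.Agent.S29.helper8395.jq_mem_full N) n hn hfin
  refine exists_descent_full (K := K) N n hn (↑T') T'.finite_toSet u hu.1 ?_
  intro σ u' hu'
  let σℚ : Ω ≃ₐ[ℚ] Ω := AlgEquiv.ofRingEquiv (f := σ.toRingEquiv) (fun q => by simp)
  obtain ⟨s, hs, c, t, hc, ht, h⟩ := hT' u hu σℚ
  have hu'' : u' = arithmeticGalois (modularFunctionFieldFull N) σℚ • u := Subtype.ext hu'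
  exact ⟨s, hs, c, t, hc, ht, by rw [hu'']; exact h⟩

end Modular

section Complex

open Fermat.Agent.S29.helper580 (FC)

/-- **Descent `ℂ → K` for `X₀(N)`, unconditional** (`K ⊆ ℂ` algebraically closed, e.g. `ℚ̄`):
a nonzero function on `X₀(N)_ℂ` whose divisor is divisible by `n` outside the places above
`j = 0, 1728, ∞` is, up to a constant and an `n`-th power, defined over `K`. -/
theorem exists_descent_FC {K : Type} [Field K] [Algebra K ℂ] [Algebra ℚ K] [IsAlgClosed K]
    (N : ℕ) [NeZero N] {n : ℕ} (hn : n ≠ 0) (u : FC N)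
    (hu : Fermat.Agent.S29.helper8395.KummerOff ℂ n
      (Fermat.Agent.S29.helper8395.badPlaces ℂ (modularFunctionFieldFull N)
        (Fermat.Agent.S29.helper8395.jq_mem_full N)) u) :
    ∃ (u₀ : LaurentSeries K) (w : FC N),
      u₀ ∈ laurentBaseChange K (modularFunctionFieldFull N) ∧ u₀ ≠ 0 ∧
      coeffMap (algebraMap K ℂ) u₀ = (w : LaurentSeries ℂ) ∧ SameClass ℂ n u w := by
  refine exists_descent_full_of_kummerOff (K := K) N n hn ?_ u hu
  obtain ⟨T, hT⟩ := Fermat.Agent.S29.helper587.finite_kummer_classes_FC_place N hn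
  refine ⟨T, fun u hu0 hk => ?_⟩
  obtain ⟨s, hs, t, ht, h⟩ := hT u hu0 hk
  exact ⟨s, hs, 1, t, one_ne_zero, ht, by rw [map_one, one_mul]; exact h⟩

/-- **Descent `ℂ → ℚ̄` for `X₀(N)`** in the vocabulary of the S24/S29 dictionary:
`u = c * baseChangeC u₀ * t ^ n` with `u₀` in the `ℚ̄`-function field. -/
theorem exists_descent_FC_bar (N : ℕ) [NeZero N] {n : ℕ} (hn : n ≠ 0) (u : FC N)
    (hu : Fermat.Agent.S29.helper8395.KummerOff ℂ n
      (Fermat.Agent.S29.helper8395.badPlaces ℂ (modularFunctionFieldFull N)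
        (Fermat.Agent.S29.helper8395.jq_mem_full N)) u) :
    ∃ (u₀ : Fermat.Agent.S24.helper24.FN N) (c : ℂ) (t : FC N), u₀ ≠ 0 ∧ c ≠ 0 ∧ t ≠ 0 ∧
      u = algebraMap ℂ (FC N) c * Fermat.Agent.S29.helper580.baseChangeC N u₀ * t ^ n := by
  letI : Algebra (AlgebraicClosure ℚ) ℂ := Fermat.Agent.S24.helper6180.i0.toAlgebra
  obtain ⟨u₀, w, hu₀, hu₀0, hw, hcl⟩ := exists_descent_FC (K := AlgebraicClosure ℚ) N hn u hu
  obtain ⟨c, t, hc, ht, h⟩ := hcl.symm
  refine ⟨⟨u₀, hu₀⟩, c, t, fun h0 => hu₀0 (congrArg Subtype.val h0), hc, ht, ?_⟩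
  have hw' : Fermat.Agent.S29.helper580.baseChangeC N ⟨u₀, hu₀⟩ = w := Subtype.ext hw
  rw [hw']
  exact h

/-- All-places Kummer form of `exists_descent_FC_bar`. -/
theorem exists_descent_FC_bar_of_kummer (N : ℕ) [NeZero N] {n : ℕ} (hn : n ≠ 0) (u : FC N)
    (hu : u ≠ 0) (hk : ∀ v : Place ℂ (FC N), (n : ℤ) ∣ v.ord u) :
    ∃ (u₀ : Fermat.Agent.S24.helper24.FN N) (c : ℂ) (t : FC N), u₀ ≠ 0 ∧ c ≠ 0 ∧ t ≠ 0 ∧
      u = algebraMap ℂ (FC N) c * Fermat.Agent.S29.helper580.baseChangeC N u₀ * t ^ n :=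
  exists_descent_FC_bar N hn u ⟨hu, fun v _ => hk v⟩

end Complex

end Fermat.Agent.S29.helper6855
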