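import Fermat.Agent.S29.helper580_CPlaceFin
import Fermat.Agent.S29.helper36_FunctionFieldL
import Fermat.Agent.S29.helper8395_KummerOff
import Fermat.Agent.S29.helper6855_DescentModular
import Fermat.Agent.S29.helper2122_SurjAsm

/-!
# S29 / TH4: the Prop `helper2122.DescC N n` (descent `ℂ → ℚ̄`) is a theorem (helper3932)

Glue of three landed leaves:

* CPLACE (helper580, `dvd_ord_of_pow_eq_generic`): if `evC u = W ^ n` with `W` meromorphic on
  the upper half plane then `n ∣ v.ord u` at every place of the complex function field of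
  `X₀(N)` whose centre is not `0` or `1728`;
* OFFS (helper8395, `KummerOff`, `badPlaces`) and FFC (helper36, `place_center_L`);
* DESC (helper6855, `exists_descent_FC_bar`): a function that is Kummer off the bad places is
  `c * u₀ * t ^ n` with `u₀` defined over `ℚ̄`.

Results: `kummerOff_of_pow_eq` and `descC : helper2122.DescC N n` (every modulus `n`).
-/

set_option autoImplicit false

open UpperHalfPlane CongruenceSubgroup ModularCurve AlgebraicCurve
open scoped MatrixGroups

namespace Fermat.Agent.S29.helper3932

open Fermat.Agent.S24 Fermat.Agent.S24.helper24 Fermat.Agent.S24.helper580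
open Fermat.Agent.S29.helper580

variable (N : ℕ)

theorem jL_ffc_eq_jC : helper36.jL ℂ N = jC N := by
  apply Subtype.ext
  rw [helper36.coe_jL, coe_jC]
  have h := helper36.coeffEmb_qExpand_jq ℂ 1
  rw [qExpand_one_apply, qExpand_one_apply] at h
  exact h.symm

theorem jL_offs_eq_jC :
    helper8395.jL ℂ (modularFunctionFieldFull N) (helper8395.jq_mem_full N) = jC N :=
  Subtype.ext (coe_jC N).symm

variable [NeZero N]

/-- **CPLACE in the consumer form of OFFS.** A nonzero function of the complex function field
of `X₀(N)` whose analytic realisation is an `n`-th power of a meromorphic function on the upper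
half plane is Kummer off the places above `j = 0, 1728, ∞`. -/
theorem kummerOff_of_pow_eq (n : ℕ) {u : FC N} (hu : u ≠ 0) (W : Mer) (hW : W ^ n = evC N u) :
    helper8395.KummerOff ℂ n
      (helper8395.badPlaces ℂ (modularFunctionFieldFull N) (helper8395.jq_mem_full N)) u := by
  refine ⟨hu, fun v hv => ?_⟩
  rcases helper36.place_center_L ℂ N v with hneg | ⟨c, hc, -⟩
  · exfalso
    apply hv
    left
    show v.ord (helper8395.jL ℂ (modularFunctionFieldFull N) (helper8395.jq_mem_full N)) ≠ 0
    rw [jL_offs_eq_jC, ← jL_ffc_eq_jC]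
    omega
  · rw [jL_ffc_eq_jC] at hc
    have hc' : 0 < v.ord (helper8395.jL ℂ (modularFunctionFieldFull N)
        (helper8395.jq_mem_full N) - algebraMap ℂ _ c) := by
      rw [jL_offs_eq_jC]
      exact hc
    obtain ⟨h0, h1⟩ := helper8395.center_ne_of_not_mem_badPlaces ℂ (modularFunctionFieldFull N)
      (helper8395.jq_mem_full N) hv hc'
    have h1' : c ≠ 1728 := by
      intro h
      apply h1
      rw [h]
      simp
    exact dvd_ord_of_pow_eq_generic N v c hc h0 h1' hu n W hW

/-- The descent `ℂ → ℚ̄` for functions with an analytic `n`-th root, `n ≠ 0`. -/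
theorem exists_descent_of_pow_eq {n : ℕ} (hn : n ≠ 0) {u : FC N} (hu : u ≠ 0) (W : Mer)
    (hW : W ^ n = evC N u) :
    ∃ (u₀ : FN N) (c : ℂ) (t : FC N), u₀ ≠ 0 ∧ c ≠ 0 ∧ t ≠ 0 ∧
      u = algebraMap ℂ (FC N) c * baseChangeC N u₀ * t ^ n :=
  helper6855.exists_descent_FC_bar N hn u (kummerOff_of_pow_eq N n hu W hW)

/-- **The Prop `DescC` of the TH4 assembly (helper2122) holds**, for every modulus `n`. -/
theorem descC (n : ℕ) : helper2122.DescC N n := by
  intro χ _ _ _ W _ _ x hx hev
  rcases Nat.eq_zero_or_pos n with hn | hn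
  · subst hn
    rw [pow_zero] at hev
    have hx1 : x = 1 := evC_injective N (by rw [hev, map_one])
    refine ⟨1, 1, 1, one_ne_zero, one_ne_zero, one_ne_zero, ?_⟩
    rw [hx1, map_one, map_one, pow_zero, mul_one, mul_one]
  · exact exists_descent_of_pow_eq N hn.ne' hx (algebraMap Hol Mer W) hev.symm

end Fermat.Agent.S29.helper3932
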