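import Fermat.Agent.S18.helper508_GaussMod
import Fermat.Agent.S18.helper3054_Kummer
import Fermat.Agent.Lib.helper6879_ResidueQbar
import Fermat.Agent.S29.helper8217_KummerClass
import Fermat.Agent.S29.helper36_FunctionFieldL

/-!
# S29, the (U)/(ES) seam: concrete providers (helper485)

Against landed names only (`S18/helper508_GaussMod`, `S18/helper3054_Kummer`,
`Lib/helper6879_ResidueQbar`, `S29/helper8217_KummerClass`):

* `mkIntegralFn` : an `A`-integral `q`-series of `F̄_N` with nonzero reduction is an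
  `helper3054.IntegralFn` (for `ℓ ∤ N`; the special-fibre membership is automatic).
* `exists_gauss_normal_form` (GD): every nonzero `u ∈ F̄_N` is `c · a / b` with `a b` integral
  functions.
* `galA`, `galIntegralFn` (P_Gal): the decomposition group of `A` acts on integral functions,
  `gen` by the arithmetic Galois action; the reduction is unchanged under inertia and is the
  coefficientwise Frobenius under Frobenius lifts.
* `inertia_smul_eq_of_kf` (U): inertia at `ℓ ∤ N` acts trivially on the `m`-torsion of `J₀(N)`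
  for every `m` prime to `ℓ`, from the S18 Kummer form `Stmt_KF N ℓ` alone.
-/

set_option autoImplicit false
set_option synthInstance.maxHeartbeats 400000

noncomputable section

namespace Fermat.Agent.S29.helper485

open ModularCurve AlgebraicCurve Polynomial
open Fermat.Agent.S18 Fermat.Agent.S18.helper3054

local notation "Qb" => AlgebraicClosure ℚ
local notation "GQ" => (AlgebraicClosure ℚ ≃ₐ[ℚ] AlgebraicClosure ℚ)

/-! ### Integral functions from integral series -/

section Mk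

variable {N : ℕ} [NeZero N] {ℓ : ℕ}

/-- An `A`-integral `q`-series lying in `F̄_N` with nonzero reduction is an integral function
(for `ℓ ∤ N` the reduction automatically lies in the function field of the special fibre). -/
def mkIntegralFn (hℓ : ℓ.Prime) (hℓN : ¬ ℓ ∣ N) (A : ValuationSubring Qb)
    (hA : A.LiesOverPrime ℓ) (y : LaurentSeries A)
    (hy : coeffMap A.subtype y ∈ modularFunctionFieldBar N)
    (hy0 : coeffMap (IsLocalRing.residue A) y ≠ 0) : IntegralFn A N where
  y := y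
  mem := hy
  memk := haveI : Fact ℓ.Prime := ⟨hℓ⟩
    helper508.coeffMap_residue_mem_fullC N ℓ hℓN A hA y hy
  ne := hy0

@[simp] theorem mkIntegralFn_y (hℓ : ℓ.Prime) (hℓN : ¬ ℓ ∣ N) (A : ValuationSubring Qb)
    (hA : A.LiesOverPrime ℓ) (y : LaurentSeries A)
    (hy : coeffMap A.subtype y ∈ modularFunctionFieldBar N)
    (hy0 : coeffMap (IsLocalRing.residue A) y ≠ 0) :
    (mkIntegralFn hℓ hℓN A hA y hy hy0).y = y := rfl

/-- **(GD) Gauss normal form.**  For `ℓ ∤ N` and a place `A` of `ℚ̄` over `ℓ`, every nonzero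
function `u ∈ F̄_N` is `c · a / b` with `c` a nonzero constant and `a`, `b` integral functions. -/
theorem exists_gauss_normal_form (hℓ : ℓ.Prime) (hℓN : ¬ ℓ ∣ N) (A : ValuationSubring Qb)
    (hA : A.LiesOverPrime ℓ) (u : modularFunctionFieldBar N) (hu : u ≠ 0) :
    ∃ (c : Qb) (a b : IntegralFn A N), c ≠ 0 ∧
      u * b.gen = algebraMap Qb (modularFunctionFieldBar N) c * a.gen := by
  have : Fact ℓ.Prime := ⟨hℓ⟩
  have hu0 : (u : LaurentSeries Qb) ≠ 0 := fun h => hu (Subtype.ext h)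
  obtain ⟨c, Q, y, hc, hQ, hy0, hy, hrel⟩ :=
    helper508.exists_unit_form (helper508.gaussBasis_isBasisZ N ℓ hℓN)
      (helper508.gaussBasis_indepRes N ℓ hℓN A hA) u.2 hu0
  -- the denominator `Q(j)` as an integral function
  have hb : coeffMap A.subtype (aeval (jqModC A) Q) ∈ modularFunctionFieldBar N := by
    rw [helper508.cA_aeval]
    exact helper508.aeval_mem_of_mem _ (helper508.jqModC_mem_bar Qb N) _
  have hb0 : coeffMap (IsLocalRing.residue A) (aeval (jqModC A) Q) ≠ 0 := by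
    rw [helper508.cπ_aeval]
    exact helper508.aeval_jqModC_ne_zero hQ
  refine ⟨c, mkIntegralFn hℓ hℓN A hA y hy hy0,
    mkIntegralFn hℓ hℓN A hA (aeval (jqModC A) Q) hb hb0, hc, Subtype.ext ?_⟩
  show (u : LaurentSeries Qb) * coeffMap A.subtype (aeval (jqModC A) Q) =
    algebraMap Qb (LaurentSeries Qb) c * coeffMap A.subtype y
  rw [helper508.cA_aeval, mul_comm]
  exact hrel

end Mk

/-! ### The decomposition group acts on integral series -/

section Gal

variable {A : ValuationSubring Qb}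

/-- The ring endomorphism of `A` induced by an element of its decomposition group. -/
def galA (σ : GQ) (hσ : σ ∈ A.decompositionSubgroup ℚ) : A →+* A where
  toFun x := ⟨σ x, Lib.helper6879.map_mem_of_mem_decompositionSubgroup hσ x.2⟩
  map_one' := Subtype.ext (map_one σ)
  map_mul' x y := Subtype.ext (map_mul σ (x : Qb) y)
  map_zero' := Subtype.ext (map_zero σ)
  map_add' x y := Subtype.ext (map_add σ (x : Qb) y)

@[simp] theorem coe_galA (σ : GQ) (hσ : σ ∈ A.decompositionSubgroup ℚ) (x : A) :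
    ((galA σ hσ x : A) : Qb) = σ x := rfl

theorem subtype_comp_galA (σ : GQ) (hσ : σ ∈ A.decompositionSubgroup ℚ) :
    A.subtype.comp (galA σ hσ) = (σ : Qb →+* Qb).comp A.subtype :=
  RingHom.ext fun _ => rfl

/-- Coefficientwise `σ` on `A((q))` is compatible with coefficientwise `σ` on `ℚ̄((q))`. -/
theorem coeffMap_subtype_galA (σ : GQ) (hσ : σ ∈ A.decompositionSubgroup ℚ)
    (y : LaurentSeries A) :
    coeffMap A.subtype (coeffMap (galA σ hσ) y) =
      coeffMap (σ : Qb →+* Qb) (coeffMap A.subtype y) := by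
  rw [coeffMap_coeffMap, coeffMap_coeffMap, subtype_comp_galA]

/-- Inertia acts trivially on residues. -/
theorem residue_comp_galA_of_inertia {τ : GQ} (hτ : τ ∈ A.inertiaSubgroupIn ℚ) :
    (IsLocalRing.residue A).comp
        (galA τ (Lib.helper6879.mem_decompositionSubgroup_of_mem_inertiaSubgroupIn hτ)) =
      IsLocalRing.residue A :=
  RingHom.ext fun a => Lib.helper6879.inertia_residue hτ a

/-- A Frobenius lift acts on residues by the `q`-th power. -/
theorem residue_galA_of_frobenius {σ : GQ} {q : ℕ} (h : A.IsFrobeniusAt σ q) (a : A) :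
    IsLocalRing.residue A (galA σ h.mem_decompositionSubgroup a) = IsLocalRing.residue A a ^ q :=
  Lib.helper6879.IsFrobeniusAt_residue h a

/-- The reduction of the `σ`-conjugate of an integral series with nonzero reduction is nonzero. -/
theorem coeffMap_residue_galA_ne_zero (σ : GQ) (hσ : σ ∈ A.decompositionSubgroup ℚ)
    {y : LaurentSeries A} (hy : coeffMap (IsLocalRing.residue A) y ≠ 0) :
    coeffMap (IsLocalRing.residue A) (coeffMap (galA σ hσ) y) ≠ 0 := by
  intro h
  apply hy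
  ext n
  have hn := congrArg (fun s => HahnSeries.coeff s n) h
  simp only [coeffMap_coeff, HahnSeries.coeff_zero] at hn ⊢
  by_contra hne
  have hu : IsUnit (y.coeff n) := by
    by_contra hnu
    exact hne ((IsLocalRing.residue_eq_zero_iff _).mpr hnu)
  have hu' : IsUnit (galA σ hσ (y.coeff n)) := hu.map (galA σ hσ)
  exact ((IsLocalRing.residue_eq_zero_iff _).mp hn) hu'

end Gal

/-! ### (P_Gal): the decomposition group acts on integral functions -/

section GalFn

variable {N : ℕ} [NeZero N] {ℓ : ℕ} {A : ValuationSubring Qb}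

/-- **(P_Gal)** The conjugate of an integral function by an element of the decomposition group
of `A` (coefficientwise action on the `A`-integral `q`-series). -/
def galIntegralFn (hℓ : ℓ.Prime) (hℓN : ¬ ℓ ∣ N) (hA : A.LiesOverPrime ℓ) (σ : GQ)
    (hσ : σ ∈ A.decompositionSubgroup ℚ) (a : IntegralFn A N) : IntegralFn A N :=
  mkIntegralFn hℓ hℓN A hA (coeffMap (galA σ hσ) a.y)
    (by
      rw [coeffMap_subtype_galA]
      exact coeffMap_mem_laurentBaseChange σ a.mem)
    (coeffMap_residue_galA_ne_zero σ hσ a.ne)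

/-- The generic function of the conjugate is the arithmetic Galois conjugate. -/
theorem gen_galIntegralFn (hℓ : ℓ.Prime) (hℓN : ¬ ℓ ∣ N) (hA : A.LiesOverPrime ℓ) (σ : GQ)
    (hσ : σ ∈ A.decompositionSubgroup ℚ) (a : IntegralFn A N) :
    (galIntegralFn hℓ hℓN hA σ hσ a).gen =
      arithmeticGalois (modularFunctionFieldFull N) σ • a.gen :=
  Subtype.ext (coeffMap_subtype_galA σ hσ a.y)

/-- Series form of `gen_galIntegralFn`. -/
theorem coe_gen_galIntegralFn (hℓ : ℓ.Prime) (hℓN : ¬ ℓ ∣ N) (hA : A.LiesOverPrime ℓ) (σ : GQ)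
    (hσ : σ ∈ A.decompositionSubgroup ℚ) (a : IntegralFn A N) :
    ((galIntegralFn hℓ hℓN hA σ hσ a).gen : LaurentSeries Qb) =
      coeffMap (σ : Qb →+* Qb) (a.gen : LaurentSeries Qb) :=
  coeffMap_subtype_galA σ hσ a.y

/-- Series form of the reduction of the conjugate: coefficientwise the residue automorphism. -/
theorem coe_red_galIntegralFn (hℓ : ℓ.Prime) (hℓN : ¬ ℓ ∣ N) (hA : A.LiesOverPrime ℓ) (σ : GQ)
    (hσ : σ ∈ A.decompositionSubgroup ℚ) (a : IntegralFn A N) :
    ((galIntegralFn hℓ hℓN hA σ hσ a).red : LaurentSeries (IsLocalRing.ResidueField A)) =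
      coeffMap ((IsLocalRing.residue A).comp (galA σ hσ)) a.y :=
  coeffMap_coeffMap _ _ _

/-- **(P_Gal), inertia**: the reduction is unchanged under the inertia group. -/
theorem red_galIntegralFn_of_inertia (hℓ : ℓ.Prime) (hℓN : ¬ ℓ ∣ N) (hA : A.LiesOverPrime ℓ)
    {τ : GQ} (hτ : τ ∈ A.inertiaSubgroupIn ℚ) (a : IntegralFn A N) :
    (galIntegralFn hℓ hℓN hA τ
      (Lib.helper6879.mem_decompositionSubgroup_of_mem_inertiaSubgroupIn hτ) a).red = a.red := by
  apply Subtype.ext
  rw [coe_red_galIntegralFn, residue_comp_galA_of_inertia hτ]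
  rfl

/-- **(P_Gal), Frobenius**, coefficient form: a Frobenius lift at `A` acts on the reduction by
the `q`-th power of every coefficient. -/
theorem coeff_red_galIntegralFn_of_frobenius (hℓ : ℓ.Prime) (hℓN : ¬ ℓ ∣ N)
    (hA : A.LiesOverPrime ℓ) {σ : GQ} {q : ℕ} (h : A.IsFrobeniusAt σ q) (a : IntegralFn A N)
    (n : ℤ) :
    ((galIntegralFn hℓ hℓN hA σ h.mem_decompositionSubgroup a).red :
        LaurentSeries (IsLocalRing.ResidueField A)).coeff n =
      ((a.red : LaurentSeries (IsLocalRing.ResidueField A)).coeff n) ^ q := by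
  rw [coe_red_galIntegralFn]
  exact residue_galA_of_frobenius h (a.y.coeff n)

/-- **(P_Gal), Frobenius**, `coeffMap` form for any ring endomorphism `φ` of the residue field
that is the `q`-th power map (e.g. `frobenius k ℓ` when `q = ℓ`). -/
theorem coe_red_galIntegralFn_of_frobenius (hℓ : ℓ.Prime) (hℓN : ¬ ℓ ∣ N)
    (hA : A.LiesOverPrime ℓ) {σ : GQ} {q : ℕ} (h : A.IsFrobeniusAt σ q)
    (φ : IsLocalRing.ResidueField A →+* IsLocalRing.ResidueField A) (hφ : ∀ x, φ x = x ^ q)
    (a : IntegralFn A N) :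
    ((galIntegralFn hℓ hℓN hA σ h.mem_decompositionSubgroup a).red :
        LaurentSeries (IsLocalRing.ResidueField A)) =
      coeffMap φ (a.red : LaurentSeries (IsLocalRing.ResidueField A)) := by
  ext n
  rw [coeff_red_galIntegralFn_of_frobenius hℓ hℓN hA h a n, coeffMap_coeff, hφ]

end GalFn

/-! ### (U): inertia acts trivially on prime-to-`ℓ` torsion, from the Kummer form -/

section Unramified

/-- Field algebra behind the Kummer argument. -/
theorem eq_mul_of_rels {F : Type*} [Field F] {u u' a a' b b' C0 Cτ C' W : F}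
    (hb : b ≠ 0) (hb' : b' ≠ 0) (hC0 : C0 ≠ 0)
    (hrel : u * b = C0 * a) (hrel' : u' * b' = Cτ * a') (hV : a' * b = C' * W * (a * b')) :
    u' = u * (Cτ * C' * C0⁻¹ * W) := by
  have key : u' * (b' * b * C0) = u * (Cτ * C' * C0⁻¹ * W) * (b' * b * C0) := by
    calc u' * (b' * b * C0) = (u' * b') * b * C0 := by ring
      _ = Cτ * (a' * b) * C0 := by rw [hrel']; ring
      _ = Cτ * (C' * W * (a * b')) * C0 := by rw [hV]
      _ = Cτ * C' * W * b' * (C0 * a) := by ring
      _ = Cτ * C' * W * b' * (u * b) := by rw [hrel]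
      _ = u * (Cτ * C' * C0⁻¹ * W) * (b' * b * C0) := by field_simp
  exact mul_right_cancel₀ (mul_ne_zero (mul_ne_zero hb' hb) hC0) key

variable {N : ℕ} [NeZero N] {ℓ : ℕ}

/-- The relation `u * b = c * a` is transported by the arithmetic Galois action of an element
of the decomposition group. -/
theorem galois_rel (hℓ : ℓ.Prime) (hℓN : ¬ ℓ ∣ N) {A : ValuationSubring Qb}
    (hA : A.LiesOverPrime ℓ) (σ : GQ) (hσ : σ ∈ A.decompositionSubgroup ℚ)
    (u : modularFunctionFieldBar N) (c : Qb) (a b : IntegralFn A N)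
    (hrel : u * b.gen = algebraMap Qb (modularFunctionFieldBar N) c * a.gen) :
    (arithmeticGalois (modularFunctionFieldFull N) σ • u) *
        (galIntegralFn hℓ hℓN hA σ hσ b).gen =
      algebraMap Qb (modularFunctionFieldBar N) (σ c) *
        (galIntegralFn hℓ hℓN hA σ hσ a).gen := by
  apply Subtype.ext
  have h1 : (u : LaurentSeries Qb) * (b.gen : LaurentSeries Qb) =
      algebraMap Qb (LaurentSeries Qb) c * (a.gen : LaurentSeries Qb) :=
    congrArg Subtype.val hrel
  have h2 := congrArg (coeffMap (σ : Qb →+* Qb)) h1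
  rw [map_mul, map_mul, coeffMap_algebraMap] at h2
  rw [← coe_gen_galIntegralFn hℓ hℓN hA σ hσ b, ← coe_gen_galIntegralFn hℓ hℓN hA σ hσ a] at h2
  exact h2

/-- Inertia conjugates of a Gauss normal form: same reductions. -/
theorem exists_inertia_conj (hℓ : ℓ.Prime) (hℓN : ¬ ℓ ∣ N) {A : ValuationSubring Qb}
    (hA : A.LiesOverPrime ℓ) {τ : GQ} (hτ : τ ∈ A.inertiaSubgroupIn ℚ)
    (u : modularFunctionFieldBar N) (c : Qb) (a b : IntegralFn A N)
    (hrel : u * b.gen = algebraMap Qb (modularFunctionFieldBar N) c * a.gen) :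
    ∃ a' b' : IntegralFn A N, a'.red = a.red ∧ b'.red = b.red ∧
      (arithmeticGalois (modularFunctionFieldFull N) τ • u) * b'.gen =
        algebraMap Qb (modularFunctionFieldBar N) (τ c) * a'.gen :=
  ⟨_, _, red_galIntegralFn_of_inertia hℓ hℓN hA hτ a, red_galIntegralFn_of_inertia hℓ hℓN hA hτ b,
    galois_rel hℓ hℓN hA τ (Lib.helper6879.mem_decompositionSubgroup_of_mem_inertiaSubgroupIn hτ)
      u c a b hrel⟩

/-- **(U) from the Kummer form.**  For `ℓ ∤ N`, a place `A` of `ℚ̄` over `ℓ` and `m` prime to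
`ℓ`: the inertia group of `A` acts trivially on the `m`-torsion of `J₀(N)`. -/
theorem inertia_smul_eq_of_kf (hℓ : ℓ.Prime) (hℓN : ¬ ℓ ∣ N) (hKF : Stmt_KF N ℓ)
    (m : ℕ) (hm : ¬ ℓ ∣ m) (A : ValuationSubring Qb) (hA : A.LiesOverPrime ℓ)
    (τ : GQ) (hτ : τ ∈ A.inertiaSubgroupIn ℚ) (x : JZero N) (hx : m • x = 0) :
    τ • x = x := by
  have hm0 : m ≠ 0 := by
    rintro rfl
    exact hm (dvd_zero ℓ)
  have hxt : x ∈ Pic0.torsion Qb (modularFunctionFieldBar N) m := by
    rw [Pic0.mem_torsion, natCast_zsmul]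
    exact hx
  obtain ⟨u, hu, rfl⟩ := helper8217.exists_kummerClass_eq hm0 hxt
  rw [helper8217.galois_smul_kummerClass]
  have hu' : helper8217.IsKummer Qb m (arithmeticGalois (modularFunctionFieldFull N) τ • u) :=
    (helper8217.isKummer_smul_iff _).mpr hu
  rw [helper8217.kummerClass_eq_iff hm0 hu' hu]
  -- Gauss normal form of `u` and of its conjugate
  obtain ⟨c0, a, b, hc0, hrel⟩ := exists_gauss_normal_form hℓ hℓN A hA u hu.ne_zero
  obtain ⟨a', b', hra, hrb, hrel'⟩ := exists_inertia_conj hℓ hℓN hA hτ u c0 a b hrel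
  generalize arithmeticGalois (modularFunctionFieldFull N) τ • u = u' at hu' hrel' ⊢
  have hτc0 : τ c0 ≠ 0 := (_root_.map_ne_zero τ).mpr hc0
  have hC0 : algebraMap Qb (modularFunctionFieldBar N) c0 ≠ 0 :=
    (_root_.map_ne_zero (algebraMap Qb (modularFunctionFieldBar N))).mpr hc0
  have hCτ : algebraMap Qb (modularFunctionFieldBar N) (τ c0) ≠ 0 :=
    (_root_.map_ne_zero (algebraMap Qb (modularFunctionFieldBar N))).mpr hτc0
  -- orders
  have hdvd : ∀ P : Place Qb (modularFunctionFieldBar N),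
      (m : ℤ) ∣ P.ord (a'.mul b).gen - P.ord (a.mul b').gen := by
    intro P
    have e1 := congrArg P.ord hrel
    have e2 := congrArg P.ord hrel'
    rw [P.ord_mul hu.ne_zero b.gen_ne_zero, P.ord_mul hC0 a.gen_ne_zero,
      helper8217.ord_algebraMap] at e1
    rw [P.ord_mul hu'.ne_zero b'.gen_ne_zero, P.ord_mul hCτ a'.gen_ne_zero,
      helper8217.ord_algebraMap] at e2
    rw [IntegralFn.gen_mul, IntegralFn.gen_mul, P.ord_mul a'.gen_ne_zero b.gen_ne_zero,
      P.ord_mul a.gen_ne_zero b'.gen_ne_zero]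
    have h3 : P.ord a'.gen + P.ord b.gen - (P.ord a.gen + P.ord b'.gen) = P.ord u' - P.ord u := by
      linarith
    rw [h3]
    exact dvd_sub (hu'.2 P) (hu.2 P)
  -- equal reductions
  have hred : (a'.mul b).red = algebraMap (IsLocalRing.ResidueField A)
      (modularFunctionFieldFullC (IsLocalRing.ResidueField A) N) 1 * 1 ^ m * (a.mul b').red := by
    rw [map_one, one_pow, one_mul, one_mul, IntegralFn.red_mul, IntegralFn.red_mul, hra, hrb]
  obtain ⟨V, c', hV⟩ := hKF A hA m hm (a'.mul b) (a.mul b') hdvd 1 1 one_ne_zero one_ne_zero hred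
  rw [IntegralFn.gen_mul, IntegralFn.gen_mul] at hV
  have hprod : algebraMap Qb (modularFunctionFieldBar N) c' * V ^ m ≠ 0 := by
    intro h0
    rw [h0, zero_mul] at hV
    exact mul_ne_zero a'.gen_ne_zero b.gen_ne_zero hV
  have hc' : c' ≠ 0 := by
    rintro rfl
    rw [map_zero, zero_mul] at hprod
    exact hprod rfl
  have hV0 : V ≠ 0 := by
    rintro rfl
    rw [zero_pow hm0, mul_zero] at hprod
    exact hprod rfl
  refine ⟨V, algebraMap Qb (modularFunctionFieldBar N) (τ c0 * c' * c0⁻¹), hV0,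
    (_root_.map_ne_zero _).mpr (mul_ne_zero (mul_ne_zero hτc0 hc') (inv_ne_zero hc0)),
    fun v => helper8217.ord_algebraMap v _, ?_⟩
  have hfin := eq_mul_of_rels b.gen_ne_zero b'.gen_ne_zero hC0 hrel hrel' hV
  rw [hfin, map_mul, map_mul, map_inv₀]

/-- **(U) at every modulus prime to `ℓ`**, from the S18 Kummer form at all levels: the shape
of `Fermat.Agent.S30.helper831.Stmt_UMod` (unfolded). -/
theorem stmt_UMod_of_kf
    (hKF : ∀ (N : ℕ) [NeZero N] (ℓ : ℕ), ℓ.Prime → ¬ ℓ ∣ N → Stmt_KF N ℓ) :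
    ∀ (N : ℕ) [NeZero N] (m : ℕ) (ℓ : ℕ), ℓ.Prime → ¬ ℓ ∣ N → ¬ ℓ ∣ m →
      ∀ A : ValuationSubring (AlgebraicClosure ℚ), A.LiesOverPrime ℓ →
        ∀ τ ∈ A.inertiaSubgroupIn ℚ, ∀ x : JZero N, m • x = 0 → τ • x = x :=
  fun N _ m ℓ hℓ hℓN hm A hA τ hτ x hx =>
    inertia_smul_eq_of_kf hℓ hℓN (hKF N ℓ hℓ hℓN) m hm A hA τ hτ x hx

/-- **(U) on `p`-power torsion** (shape of `helper6752.Stmt_OpUN`, unfolded). -/
theorem stmt_OpUN_of_kf
    (hKF : ∀ (N : ℕ) [NeZero N] (ℓ : ℕ), ℓ.Prime → ¬ ℓ ∣ N → Stmt_KF N ℓ) :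
    ∀ (N : ℕ) [NeZero N] (p : ℕ), p.Prime → ∀ ℓ : ℕ, ℓ.Prime → ¬ ℓ ∣ N * p →
      ∀ A : ValuationSubring (AlgebraicClosure ℚ), A.LiesOverPrime ℓ →
        ∀ σ ∈ A.inertiaSubgroupIn ℚ, ∀ x : JZero N, (∃ k : ℕ, p ^ k • x = 0) → σ • x = x := by
  intro N _ p _ ℓ hℓ hℓNp A hA σ hσ x ⟨k, hk⟩
  have hℓN : ¬ ℓ ∣ N := fun h => hℓNp (h.mul_right p)
  have hℓp : ¬ ℓ ∣ p := fun h => hℓNp (h.mul_left N)
  have hℓpk : ¬ ℓ ∣ p ^ k := fun h => hℓp (hℓ.dvd_of_dvd_pow h)
  exact inertia_smul_eq_of_kf hℓ hℓN (hKF N ℓ hℓ hℓN) (p ^ k) hℓpk A hA σ hσ x hk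

/-- **(U) on `p`-torsion** (shape of the captain's `helper5782.Stmt_U`, unfolded). -/
theorem stmt_U_of_kf
    (hKF : ∀ (N : ℕ) [NeZero N] (ℓ : ℕ), ℓ.Prime → ¬ ℓ ∣ N → Stmt_KF N ℓ) :
    ∀ (N : ℕ) [NeZero N] (p : ℕ), p.Prime → ∀ ℓ : ℕ, ℓ.Prime → ¬ ℓ ∣ N * p →
      ∀ A : ValuationSubring (AlgebraicClosure ℚ), A.LiesOverPrime ℓ →
        ∀ τ ∈ A.inertiaSubgroupIn ℚ, ∀ x : JZero N, p • x = 0 → τ • x = x := by
  intro N _ p _ ℓ hℓ hℓNp A hA τ hτ x hx
  have hℓN : ¬ ℓ ∣ N := fun h => hℓNp (h.mul_right p)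
  have hℓp : ¬ ℓ ∣ p := fun h => hℓNp (h.mul_left N)
  exact inertia_smul_eq_of_kf hℓ hℓN (hKF N ℓ hℓ hℓN) p hℓp A hA τ hτ x hx

end Unramified

end Fermat.Agent.S29.helper485
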