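/-
S29-M5-AN (helper1856): the multiplier of the coset product.

For a prime `ℓ ∤ N` the Hecke coset representatives `heckeRep ℓ x`, `x : OnePoint (ZMod ℓ)`
(Prelude, `HeckeSlashInvariance`) satisfy `heckeRep ℓ x * γ = g' x * heckeRep ℓ (γ̄ • x)` for
`γ ∈ Γ₀(N)` with `g' x ∈ Γ₀(N)`.  For `w : ℍ → ℂ` we put
`cosetProd ℓ w z = ∏ x, w (heckeRep ℓ x • z)` (`= w (ℓ z) * ∏ j < ℓ, w ((z + j) / ℓ)`), the
function-level multiplicative Hecke operator.  If `w (γ • z) = χ γ * w z` on `Γ₀(N)` then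
`cosetProd ℓ w (γ • z) = (∏ x, χ (g' x)) * cosetProd ℓ w z`: the multiplier of the coset product is
the coset transfer of the multiplier.
-/
import Mathlib
import Fermat.Prelude.Sol.S_ModularForm_heckeT_slash_eq_self_of_mem_Gamma0

set_option autoImplicit false

open UpperHalfPlane Matrix.SpecialLinearGroup CongruenceSubgroup
open P2MW.S_ModularForm_heckeT_slash_eq_self_of_mem_Gamma0.ModularForm.HeckeSlashInvariance
open scoped MatrixGroups OnePoint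

namespace Fermat.Agent.S29.helper1856

noncomputable section

variable {ℓ : ℕ} [Fact ℓ.Prime] {N : ℕ}

/-! ### The reduction matrix is an anti-homomorphism -/

theorem redMatrix_mul (g₁ g₂ : SL(2, ℤ)) :
    redMatrix ℓ (g₁ * g₂) = redMatrix ℓ g₂ * redMatrix ℓ g₁ := by
  ext i j
  fin_cases i <;> fin_cases j <;>
    simp [redMatrix, Matrix.mul_apply, Fin.sum_univ_two] <;> ring

theorem redMatrix_one : redMatrix ℓ (1 : SL(2, ℤ)) = 1 := by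
  ext i j
  fin_cases i <;> fin_cases j <;> simp [redMatrix]

/-- The permutation of `ℙ¹(𝔽_ℓ)` induced by `γ` (a right action of `SL(2, ℤ)`). -/
def cosetPerm (ℓ : ℕ) [Fact ℓ.Prime] (γ : SL(2, ℤ)) : Equiv.Perm (OnePoint (ZMod ℓ)) :=
  MulAction.toPerm (redMatrix ℓ γ)

@[simp] theorem cosetPerm_apply (γ : SL(2, ℤ)) (x : OnePoint (ZMod ℓ)) :
    cosetPerm ℓ γ x = redMatrix ℓ γ • x := rfl

theorem cosetPerm_mul (γ₁ γ₂ : SL(2, ℤ)) (x : OnePoint (ZMod ℓ)) :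
    cosetPerm ℓ (γ₁ * γ₂) x = cosetPerm ℓ γ₂ (cosetPerm ℓ γ₁ x) := by
  simp only [cosetPerm_apply, redMatrix_mul, mul_smul]

theorem cosetPerm_one (x : OnePoint (ZMod ℓ)) : cosetPerm ℓ 1 x = x := by
  simp only [cosetPerm_apply, redMatrix_one, one_smul]

/-! ### The cocycle elements `g' x` -/

/-- The relation defining the Hecke cocycle element: `heckeRep ℓ x * γ = g * heckeRep ℓ (γ̄ • x)`. -/
def IsCocycleElt (ℓ : ℕ) [Fact ℓ.Prime] (γ : SL(2, ℤ)) (x : OnePoint (ZMod ℓ)) (g : SL(2, ℤ)) : Prop :=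
  heckeRep ℓ x * mapGL ℝ γ = mapGL ℝ g * heckeRep ℓ (redMatrix ℓ γ • x)

theorem IsCocycleElt.unique {γ : SL(2, ℤ)} {x : OnePoint (ZMod ℓ)} {g g' : SL(2, ℤ)}
    (h : IsCocycleElt ℓ γ x g) (h' : IsCocycleElt ℓ γ x g') : g = g' := by
  have : mapGL ℝ g * heckeRep ℓ (redMatrix ℓ γ • x) = mapGL ℝ g' * heckeRep ℓ (redMatrix ℓ γ • x) :=
    h.symm.trans h'
  exact mapGL_injective (mul_right_cancel this)

theorem isCocycleElt_one (x : OnePoint (ZMod ℓ)) : IsCocycleElt ℓ 1 x 1 := by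
  simp [IsCocycleElt, redMatrix_one]

theorem IsCocycleElt.mul {γ₁ γ₂ : SL(2, ℤ)} {x : OnePoint (ZMod ℓ)} {g₁ g₂ : SL(2, ℤ)}
    (h₁ : IsCocycleElt ℓ γ₁ x g₁) (h₂ : IsCocycleElt ℓ γ₂ (redMatrix ℓ γ₁ • x) g₂) :
    IsCocycleElt ℓ (γ₁ * γ₂) x (g₁ * g₂) := by
  unfold IsCocycleElt at *
  rw [map_mul, map_mul, ← mul_assoc, h₁, mul_assoc, h₂, ← mul_assoc, redMatrix_mul, mul_smul]

theorem exists_isCocycleElt (hℓN : ¬ ℓ ∣ N) {γ : SL(2, ℤ)} (hγ : γ ∈ Gamma0 N)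
    (x : OnePoint (ZMod ℓ)) : ∃ g : SL(2, ℤ), g ∈ Gamma0 N ∧ IsCocycleElt ℓ γ x g := by
  have hcN : (N : ℤ) ∣ γ 1 0 :=
    (ZMod.intCast_zmod_eq_zero_iff_dvd _ _).mp (Gamma0_mem.mp hγ)
  obtain ⟨g, hg, hmul⟩ := heckeRep_mul hℓN γ hcN x
  exact ⟨g, Gamma0_mem.mpr ((ZMod.intCast_zmod_eq_zero_iff_dvd _ _).mpr hg), hmul⟩

/-- The Hecke cocycle element `g'_γ(x) ∈ Γ₀(N)`, characterised by
`heckeRep ℓ x * γ = g'_γ(x) * heckeRep ℓ (γ̄ • x)`. -/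
def cocycleElt (hℓN : ¬ ℓ ∣ N) (γ : ↥(Gamma0 N)) (x : OnePoint (ZMod ℓ)) : ↥(Gamma0 N) :=
  ⟨(exists_isCocycleElt hℓN γ.2 x).choose, (exists_isCocycleElt hℓN γ.2 x).choose_spec.1⟩

theorem cocycleElt_spec (hℓN : ¬ ℓ ∣ N) (γ : ↥(Gamma0 N)) (x : OnePoint (ZMod ℓ)) :
    IsCocycleElt ℓ (γ : SL(2, ℤ)) x (cocycleElt hℓN γ x : SL(2, ℤ)) :=
  (exists_isCocycleElt hℓN γ.2 x).choose_spec.2

theorem cocycleElt_eq_of (hℓN : ¬ ℓ ∣ N) (γ : ↥(Gamma0 N)) (x : OnePoint (ZMod ℓ))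
    {g : SL(2, ℤ)} (hg : IsCocycleElt ℓ (γ : SL(2, ℤ)) x g) :
    (cocycleElt hℓN γ x : SL(2, ℤ)) = g :=
  (cocycleElt_spec hℓN γ x).unique hg

theorem cocycleElt_one (hℓN : ¬ ℓ ∣ N) (x : OnePoint (ZMod ℓ)) :
    cocycleElt hℓN (1 : ↥(Gamma0 N)) x = 1 :=
  Subtype.ext (cocycleElt_eq_of hℓN 1 x (isCocycleElt_one x))

theorem cocycleElt_mul (hℓN : ¬ ℓ ∣ N) (γ₁ γ₂ : ↥(Gamma0 N)) (x : OnePoint (ZMod ℓ)) :
    cocycleElt hℓN (γ₁ * γ₂) x =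
      cocycleElt hℓN γ₁ x * cocycleElt hℓN γ₂ (cosetPerm ℓ (γ₁ : SL(2, ℤ)) x) :=
  Subtype.ext (cocycleElt_eq_of hℓN (γ₁ * γ₂) x
    ((cocycleElt_spec hℓN γ₁ x).mul (cocycleElt_spec hℓN γ₂ _)))

/-! ### The coset transfer (Hecke operator on characters of `Γ₀(N)`) -/

section transfer

variable {A : Type*} [CommMonoid A]

/-- The coset-transfer Hecke operator on multiplicative characters of `Γ₀(N)`:
`(T̃_ℓ χ)(γ) = ∏_x χ(g'_γ(x))`. -/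
def heckeTransfer (hℓN : ¬ ℓ ∣ N) (χ : ↥(Gamma0 N) →* A) : ↥(Gamma0 N) →* A where
  toFun γ := ∏ x : OnePoint (ZMod ℓ), χ (cocycleElt hℓN γ x)
  map_one' := by simp [cocycleElt_one]
  map_mul' γ₁ γ₂ := by
    simp only [cocycleElt_mul, map_mul, Finset.prod_mul_distrib]
    congr 1
    exact Equiv.prod_comp (cosetPerm ℓ (γ₁ : SL(2, ℤ))) (fun x => χ (cocycleElt hℓN γ₂ x))

theorem heckeTransfer_apply (hℓN : ¬ ℓ ∣ N) (χ : ↥(Gamma0 N) →* A) (γ : ↥(Gamma0 N)) :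
    heckeTransfer hℓN χ γ = ∏ x : OnePoint (ZMod ℓ), χ (cocycleElt hℓN γ x) := rfl

/-- Definition-agnostic form: any family of cocycle elements computes the transfer. -/
theorem heckeTransfer_apply_of (hℓN : ¬ ℓ ∣ N) (χ : ↥(Gamma0 N) →* A) (γ : ↥(Gamma0 N))
    (g' : OnePoint (ZMod ℓ) → ↥(Gamma0 N))
    (hg' : ∀ x, IsCocycleElt ℓ (γ : SL(2, ℤ)) x (g' x : SL(2, ℤ))) :
    heckeTransfer hℓN χ γ = ∏ x : OnePoint (ZMod ℓ), χ (g' x) := by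
  rw [heckeTransfer_apply]
  refine Finset.prod_congr rfl fun x _ => ?_
  rw [Subtype.ext (cocycleElt_eq_of hℓN γ x (hg' x))]

theorem heckeTransfer_mul (hℓN : ¬ ℓ ∣ N) (χ ψ : ↥(Gamma0 N) →* A) :
    heckeTransfer hℓN (χ * ψ) = heckeTransfer hℓN χ * heckeTransfer hℓN ψ := by
  ext γ
  simp [heckeTransfer_apply, Finset.prod_mul_distrib]

theorem heckeTransfer_one (hℓN : ¬ ℓ ∣ N) :
    heckeTransfer hℓN (1 : ↥(Gamma0 N) →* A) = 1 := by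
  ext γ
  simp [heckeTransfer_apply]

theorem heckeTransfer_pow (hℓN : ¬ ℓ ∣ N) (χ : ↥(Gamma0 N) →* A) (n : ℕ) :
    heckeTransfer hℓN (χ ^ n) = heckeTransfer hℓN χ ^ n := by
  ext γ
  simp [heckeTransfer_apply, Finset.prod_pow]

end transfer

section transferAdd

variable {B : Type*} [AddCommMonoid B]

/-- The additive coset transfer `(T̃_ℓ φ)(γ) = ∑_x φ(g'_γ(x))` on `Additive Γ₀(N) →+ B`
(the shape of the Prelude's `ModularCurve.Period.parabolicHoms`). -/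
def heckeTransferAdd (hℓN : ¬ ℓ ∣ N) (φ : Additive ↥(Gamma0 N) →+ B) :
    Additive ↥(Gamma0 N) →+ B where
  toFun γ := ∑ x : OnePoint (ZMod ℓ), φ (Additive.ofMul (cocycleElt hℓN (Additive.toMul γ) x))
  map_zero' := by simp [cocycleElt_one]
  map_add' γ₁ γ₂ := by
    simp only [toMul_add, cocycleElt_mul, ofMul_mul, map_add, Finset.sum_add_distrib]
    congr 1
    exact Equiv.sum_comp (cosetPerm ℓ ((Additive.toMul γ₁ : ↥(Gamma0 N)) : SL(2, ℤ)))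
      (fun x => φ (Additive.ofMul (cocycleElt hℓN (Additive.toMul γ₂) x)))

theorem heckeTransferAdd_apply (hℓN : ¬ ℓ ∣ N) (φ : Additive ↥(Gamma0 N) →+ B)
    (γ : ↥(Gamma0 N)) :
    heckeTransferAdd hℓN φ (Additive.ofMul γ) =
      ∑ x : OnePoint (ZMod ℓ), φ (Additive.ofMul (cocycleElt hℓN γ x)) := rfl

theorem heckeTransferAdd_apply_of (hℓN : ¬ ℓ ∣ N) (φ : Additive ↥(Gamma0 N) →+ B)
    (γ : ↥(Gamma0 N)) (g' : OnePoint (ZMod ℓ) → ↥(Gamma0 N))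
    (hg' : ∀ x, IsCocycleElt ℓ (γ : SL(2, ℤ)) x (g' x : SL(2, ℤ))) :
    heckeTransferAdd hℓN φ (Additive.ofMul γ) =
      ∑ x : OnePoint (ZMod ℓ), φ (Additive.ofMul (g' x)) := by
  rw [heckeTransferAdd_apply]
  refine Finset.sum_congr rfl fun x _ => ?_
  rw [Subtype.ext (cocycleElt_eq_of hℓN γ x (hg' x))]

end transferAdd

/-! ### The coset product -/

/-- The coset product `∏_x w (heckeRep ℓ x • z)`: the function-level multiplicative Hecke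
operator `w ↦ w(ℓ z) ∏_{j < ℓ} w((z + j)/ℓ)`. -/
def cosetProd (ℓ : ℕ) [Fact ℓ.Prime] (w : ℍ → ℂ) (z : ℍ) : ℂ :=
  ∏ x : OnePoint (ZMod ℓ), w (heckeRep ℓ x • z)

theorem cosetProd_apply (w : ℍ → ℂ) (z : ℍ) :
    cosetProd ℓ w z = ∏ x : OnePoint (ZMod ℓ), w (heckeRep ℓ x • z) := rfl

theorem cosetProd_mul (w₁ w₂ : ℍ → ℂ) :
    cosetProd ℓ (w₁ * w₂) = cosetProd ℓ w₁ * cosetProd ℓ w₂ := by
  funext z
  simp [cosetProd_apply, Finset.prod_mul_distrib]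

theorem cosetProd_pow (w : ℍ → ℂ) (n : ℕ) :
    cosetProd ℓ (w ^ n) = cosetProd ℓ w ^ n := by
  funext z
  simp [cosetProd_apply, Finset.prod_pow]

theorem cosetProd_one : cosetProd ℓ (1 : ℍ → ℂ) = 1 := by
  funext z
  simp [cosetProd_apply]

theorem cosetProd_inv (w : ℍ → ℂ) :
    cosetProd ℓ (w⁻¹) = (cosetProd ℓ w)⁻¹ := by
  funext z
  simp [cosetProd_apply, Finset.prod_inv_distrib]

theorem cosetProd_div (w₁ w₂ : ℍ → ℂ) :
    cosetProd ℓ (w₁ / w₂) = cosetProd ℓ w₁ / cosetProd ℓ w₂ := by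
  funext z
  simp [cosetProd_apply, Finset.prod_div_distrib]

theorem card_onePoint_zmod : Fintype.card (OnePoint (ZMod ℓ)) = ℓ + 1 := by
  have h : Fintype.card (OnePoint (ZMod ℓ)) = Fintype.card (Option (ZMod ℓ)) :=
    Fintype.card_congr (Equiv.refl _)
  rw [h, Fintype.card_option, ZMod.card]

theorem cosetProd_const (c : ℂ) :
    cosetProd ℓ (fun _ => c) = fun _ => c ^ (ℓ + 1) := by
  funext z
  simp [cosetProd_apply, Finset.prod_const, Finset.card_univ, card_onePoint_zmod]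

/-- **Multiplier of the coset product**, definition-agnostic form. -/
theorem cosetProd_smul_of {w : ℍ → ℂ} {χ : SL(2, ℤ) → ℂ}
    (hw : ∀ g ∈ Gamma0 N, ∀ z : ℍ, w (g • z) = χ g * w z)
    (γ : SL(2, ℤ)) (g' : OnePoint (ZMod ℓ) → SL(2, ℤ))
    (hg'N : ∀ x, g' x ∈ Gamma0 N) (hg' : ∀ x, IsCocycleElt ℓ γ x (g' x)) (z : ℍ) :
    cosetProd ℓ w (γ • z) = (∏ x : OnePoint (ZMod ℓ), χ (g' x)) * cosetProd ℓ w z := by
  have key : ∀ x : OnePoint (ZMod ℓ),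
      w (heckeRep ℓ x • γ • z) = χ (g' x) * w (heckeRep ℓ (redMatrix ℓ γ • x) • z) := by
    intro x
    have h1 : heckeRep ℓ x • γ • z = g' x • heckeRep ℓ (redMatrix ℓ γ • x) • z := by
      rw [ModularGroup.sl_moeb, ModularGroup.sl_moeb, ← mul_smul, ← mul_smul]
      exact congrArg (· • z) (hg' x)
    rw [h1, hw _ (hg'N x)]
  rw [cosetProd_apply, cosetProd_apply]
  simp only [key, Finset.prod_mul_distrib]
  congr 1
  exact Equiv.prod_comp (cosetPerm ℓ γ) (fun x => w (heckeRep ℓ x • z))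

/-- **Multiplier of the coset product**: if `w (γ • z) = χ γ * w z` for a character
`χ : Γ₀(N) →* ℂˣ`, then `cosetProd ℓ w` transforms by the coset transfer `heckeTransfer χ`. -/
theorem cosetProd_smul (hℓN : ¬ ℓ ∣ N) {w : ℍ → ℂ} (χ : ↥(Gamma0 N) →* ℂˣ)
    (hw : ∀ (g : ↥(Gamma0 N)) (z : ℍ), w ((g : SL(2, ℤ)) • z) = (χ g : ℂ) * w z)
    (γ : ↥(Gamma0 N)) (z : ℍ) :
    cosetProd ℓ w ((γ : SL(2, ℤ)) • z) = (heckeTransfer hℓN χ γ : ℂ) * cosetProd ℓ w z := by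
  classical
  let χ' : SL(2, ℤ) → ℂ := fun g => if hg : g ∈ Gamma0 N then (χ ⟨g, hg⟩ : ℂ) else 0
  have hw' : ∀ g ∈ Gamma0 N, ∀ z : ℍ, w (g • z) = χ' g * w z := by
    intro g hg z
    simp only [χ', dif_pos hg]
    exact hw ⟨g, hg⟩ z
  rw [cosetProd_smul_of hw' (γ : SL(2, ℤ)) (fun x => (cocycleElt hℓN γ x : SL(2, ℤ)))
    (fun x => (cocycleElt hℓN γ x).2) (fun x => cocycleElt_spec hℓN γ x) z]
  congr 1
  rw [heckeTransfer_apply, Units.coe_prod]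
  refine Finset.prod_congr rfl fun x _ => ?_
  simp only [χ', dif_pos (cocycleElt hℓN γ x).2]

/-- Invariant functions have invariant coset products. -/
theorem cosetProd_invariant (hℓN : ¬ ℓ ∣ N) {u : ℍ → ℂ}
    (hu : ∀ g ∈ Gamma0 N, ∀ z : ℍ, u (g • z) = u z) {γ : SL(2, ℤ)} (hγ : γ ∈ Gamma0 N) (z : ℍ) :
    cosetProd ℓ u (γ • z) = cosetProd ℓ u z := by
  have hu' : ∀ g ∈ Gamma0 N, ∀ z : ℍ, u (g • z) = (fun _ : SL(2, ℤ) => (1 : ℂ)) g * u z := by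
    intro g hg z
    rw [hu g hg z, one_mul]
  rw [cosetProd_smul_of hu' γ (fun x => (cocycleElt hℓN ⟨γ, hγ⟩ x : SL(2, ℤ)))
    (fun x => (cocycleElt hℓN ⟨γ, hγ⟩ x).2) (fun x => cocycleElt_spec hℓN ⟨γ, hγ⟩ x) z]
  simp

/-! ### Explicit form and holomorphy -/

omit [Fact (Nat.Prime ℓ)] in
theorem det_heckeRep_pos (x : OnePoint (ZMod ℓ)) : 0 < ((heckeRep ℓ x).det : ℝ) := by
  induction x using OnePoint.rec with
  | infty => exact ModularForm.det_heckeDiagMatrix_pos ℓ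
  | coe j => exact ModularForm.det_heckeMatrix_pos ℓ j.val

theorem coe_heckeRep_infty_smul (z : ℍ) :
    ((heckeRep ℓ ∞ • z : ℍ) : ℂ) = (ℓ : ℂ) * (z : ℂ) :=
  ModularForm.coe_heckeDiagMatrix_smul (Fact.out : ℓ.Prime).ne_zero z

theorem coe_heckeRep_coe_smul (j : ZMod ℓ) (z : ℍ) :
    ((heckeRep ℓ (j : OnePoint (ZMod ℓ)) • z : ℍ) : ℂ) = ((z : ℂ) + j.val) / ℓ :=
  ModularForm.coe_heckeMatrix_smul (Fact.out : ℓ.Prime).ne_zero j.val z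

/-- `cosetProd ℓ w z = w (ℓ z) * ∏_{j : ZMod ℓ} w ((z + j) / ℓ)`. -/
theorem cosetProd_eq (w : ℍ → ℂ) (z : ℍ) :
    cosetProd ℓ w z =
      w (heckeRep ℓ ∞ • z) * ∏ j : ZMod ℓ, w (heckeRep ℓ (j : OnePoint (ZMod ℓ)) • z) := by
  rw [cosetProd_apply]
  exact Fintype.prod_option (fun x : OnePoint (ZMod ℓ) => w (heckeRep ℓ x • z))

/-- For `w = W ∘ (↑)`: `cosetProd ℓ w z = W (ℓ z) * ∏_{j : ZMod ℓ} W ((z + j) / ℓ)`. -/
theorem cosetProd_comp_coe (W : ℂ → ℂ) (z : ℍ) :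
    cosetProd ℓ (fun τ : ℍ => W (τ : ℂ)) z =
      W ((ℓ : ℂ) * (z : ℂ)) * ∏ j : ZMod ℓ, W (((z : ℂ) + j.val) / ℓ) := by
  rw [cosetProd_eq, coe_heckeRep_infty_smul]
  simp only [coe_heckeRep_coe_smul]

open scoped Manifold in
/-- The coset product of a holomorphic function is holomorphic. -/
theorem mdifferentiable_cosetProd {w : ℍ → ℂ} (hw : MDifferentiable 𝓘(ℂ) 𝓘(ℂ) w) :
    MDifferentiable 𝓘(ℂ) 𝓘(ℂ) (cosetProd ℓ w) := by
  have h : ∀ x ∈ (Finset.univ : Finset (OnePoint (ZMod ℓ))),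
      MDifferentiable 𝓘(ℂ) 𝓘(ℂ) (fun z : ℍ => w (heckeRep ℓ x • z)) :=
    fun x _ => hw.comp (mdifferentiable_smul (det_heckeRep_pos x))
  have heq : cosetProd ℓ w = ∏ x : OnePoint (ZMod ℓ), fun z : ℍ => w (heckeRep ℓ x • z) := by
    funext z
    simp [cosetProd_apply, Finset.prod_apply]
  rw [heq]
  exact MDifferentiable.prod (t := Finset.univ) h

/-- p-th roots: if `w ^ p = u` then `cosetProd ℓ w ^ p = cosetProd ℓ u`, and the multiplier of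
`cosetProd ℓ w` is the coset transfer of the multiplier of `w`. -/
theorem cosetProd_root (hℓN : ¬ ℓ ∣ N) {u w : ℍ → ℂ} (p : ℕ) (huw : w ^ p = u)
    (χ : ↥(Gamma0 N) →* ℂˣ)
    (hw : ∀ (g : ↥(Gamma0 N)) (z : ℍ), w ((g : SL(2, ℤ)) • z) = (χ g : ℂ) * w z) :
    cosetProd ℓ w ^ p = cosetProd ℓ u ∧
      ∀ (γ : ↥(Gamma0 N)) (z : ℍ), cosetProd ℓ w ((γ : SL(2, ℤ)) • z) =
        (heckeTransfer hℓN χ γ : ℂ) * cosetProd ℓ w z :=
  ⟨by rw [← cosetProd_pow, huw], cosetProd_smul hℓN χ hw⟩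

end

end Fermat.Agent.S29.helper1856
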