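/-
S29-NORMQ backup (helper1832): the analytic form of the Prelude norm along `α`.

For a prime `ℓ ∤ N` the Prelude Hecke correspondence is `T_ℓ = (α)_* ∘ (β)^*` with
`α = heckeAlphaBar` (the inclusion `F_N ⊆ F_{Nℓ}`) and `β = heckeBetaBar` (`q ↦ q^ℓ`), so on Kummer
classes it is `u ↦ Norm_{F_{Nℓ}/α F_N}(β u)`.  This file proves that the analytic realisation of this
norm on the upper half plane is the coset product
`∏_{x ∈ ℙ¹(𝔽_ℓ)} (ev u)(heckeRep ℓ x • z) = (ev u)(ℓ z) * ∏_{j < ℓ} (ev u)((z + j)/ℓ)`.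

Route (no swap embedding, no `q`-series): the `ℓ + 1` embeddings of `F_{Nℓ}` over `α(F_N)` into an
algebraic closure of the field `Mer` of meromorphic functions on `ℍ` are `pull γ ∘ ev`,
`γ ∈ Γ₀(Nℓ) \ Γ₀(N)`; they are pairwise distinct (coset separation of `j(Nℓ z)`), and there are
`ℓ + 1 = [F_{Nℓ} : α F_N]` of them (degrees over `ℚ̄(j)` from S24), so the norm is their product.
-/
import Fermat.Agent.S24.helper580_MerPackage
import Fermat.Agent.S24.helper1944_Ev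
import Fermat.Agent.S37.helper5162_HeckeInputsModular
import Fermat.Agent.S29.helper1856_CosetProd
import Fermat.Agent.S28.helper1595_Counting
import Fermat.Agent.Lib.helper804_Gamma0Cosets

set_option autoImplicit false

open UpperHalfPlane CongruenceSubgroup ModularCurve AlgebraicCurve IntermediateField
open Fermat.Agent.S24 Fermat.Agent.S24.helper24 Fermat.Agent.S24.helper580
open P2MW.S_ModularForm_heckeT_slash_eq_self_of_mem_Gamma0.ModularForm.HeckeSlashInvariance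
open scoped MatrixGroups Manifold OnePoint

namespace Fermat.Agent.S29.helper1832

noncomputable section

/-! ## Pull-back along `GL₂(ℝ)⁺` on `Hol` and `Mer` -/

/-- Composition with `τ ↦ g • τ` (`det g > 0`), as a ring endomorphism of `Hol`. -/
def pullHolGL (g : GL (Fin 2) ℝ) (hg : 0 < (g.det : ℝ)) : Hol →+* Hol where
  toFun f := ⟨fun τ => (f : ℍ → ℂ) (g • τ), f.2.comp (mdifferentiable_smul hg)⟩
  map_one' := rfl
  map_mul' _ _ := rfl
  map_zero' := rfl
  map_add' _ _ := rfl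

@[simp] theorem pullHolGL_apply (g : GL (Fin 2) ℝ) (hg : 0 < (g.det : ℝ)) (f : Hol) (τ : ℍ) :
    (pullHolGL g hg f : ℍ → ℂ) τ = (f : ℍ → ℂ) (g • τ) := rfl

theorem pullHolGL_injective (g : GL (Fin 2) ℝ) (hg : 0 < (g.det : ℝ)) :
    Function.Injective (pullHolGL g hg) := by
  intro f₁ f₂ h
  refine Hol.ext fun τ => ?_
  have h1 := congrFun (congrArg Subtype.val h) (g⁻¹ • τ)
  simpa only [pullHolGL_apply, smul_inv_smul] using h1

/-- Composition with `τ ↦ g • τ` (`det g > 0`), as a ring endomorphism of `Mer`. -/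
def pullGL (g : GL (Fin 2) ℝ) (hg : 0 < (g.det : ℝ)) : Mer →+* Mer :=
  IsFractionRing.lift (g := (algebraMap Hol Mer).comp (pullHolGL g hg))
    ((IsFractionRing.injective Hol Mer).comp (pullHolGL_injective g hg))

theorem pullGL_algebraMap (g : GL (Fin 2) ℝ) (hg : 0 < (g.det : ℝ)) (f : Hol) :
    pullGL g hg (algebraMap Hol Mer f) = algebraMap Hol Mer (pullHolGL g hg f) :=
  IsFractionRing.lift_algebraMap _ f

theorem pullGL_const (g : GL (Fin 2) ℝ) (hg : 0 < (g.det : ℝ)) (c : ℂ) :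
    pullGL g hg (algebraMap ℂ Mer c) = algebraMap ℂ Mer c := by
  rw [IsScalarTower.algebraMap_apply ℂ Hol Mer, pullGL_algebraMap]
  rfl


/-! ## Evaluation data and the realisation `F_M → Mer` -/

/-- A function-level evaluation datum of level `M`: a ring homomorphism from
`AN M = ℚ̄[j(q^d) : d ∣ M]` to functions on `ℍ`, holomorphic, injective, with the expected values on
constants and on the generators.  Both landed S24 evaluations (`helper1944.evHom`, `helper6180.evHom`)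
are instances. -/
structure EvDatum (κ : Kbar →+* ℂ) (M : ℕ) (ev : helper3176.AN M →+* (ℍ → ℂ)) : Prop where
  const : ∀ c : Kbar, ev (algebraMap Kbar (helper3176.AN M) c) = fun _ => κ c
  gen : ∀ (d : ℕ) [NeZero d] (hd : d ∣ M),
    ev ⟨jBarD M d hd, helper3176.jBarD_mem_AN M d hd⟩
      = fun τ : ℍ => jFun (ofComplex ((d : ℂ) * (τ : ℂ)))
  mdiff : ∀ a, MDifferentiable 𝓘(ℂ) 𝓘(ℂ) (ev a)
  inj : Function.Injective ev

/-- The holomorphic function `τ ↦ j(d τ)`. -/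
def JdHol (d : ℕ) (hd : 0 < d) : Hol :=
  ⟨fun τ : ℍ => jFun (ofComplex ((d : ℂ) * (τ : ℂ))), helper1944.mdiff_jFun_mulPt hd⟩

@[simp] theorem JdHol_apply (d : ℕ) (hd : 0 < d) (τ : ℍ) :
    (JdHol d hd : ℍ → ℂ) τ = jFun (ofComplex ((d : ℂ) * (τ : ℂ))) := rfl

section realisation

variable {κ : Kbar →+* ℂ} {M : ℕ} {ev : helper3176.AN M →+* (ℍ → ℂ)}

/-- The realisation of the function field of level `M` in the field `Mer` of meromorphic functions
on the upper half plane. -/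
def evMer (h : EvDatum κ M ev) : FN M →+* Mer :=
  IsFractionRing.lift (A := helper3176.AN M) (g := eMer ev h.mdiff)
    (eMer_injective ev h.mdiff h.inj)

theorem evMer_coe (h : EvDatum κ M ev) (a : helper3176.AN M) :
    evMer h (a : FN M) = algebraMap Hol Mer (eHol ev h.mdiff a) :=
  IsFractionRing.lift_algebraMap _ a

theorem evMer_const (h : EvDatum κ M ev) (c : Kbar) :
    evMer h (algebraMap Kbar (FN M) c) = algebraMap ℂ Mer (κ c) := by
  have h1 : algebraMap Kbar (FN M) c = ((algebraMap Kbar (helper3176.AN M) c : helper3176.AN M) : FN M) :=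
    rfl
  rw [h1, evMer_coe, IsScalarTower.algebraMap_apply ℂ Hol Mer]
  congr 1
  exact Hol.ext fun τ => by rw [eHol_apply, h.const]; rfl

theorem evMer_jBarD (h : EvDatum κ M ev) (d : ℕ) [NeZero d] (hd : d ∣ M) :
    evMer h (jBarD M d hd) = algebraMap Hol Mer (JdHol d (NeZero.pos d)) := by
  have h1 := evMer_coe h ⟨jBarD M d hd, helper3176.jBarD_mem_AN M d hd⟩
  rw [h1]
  congr 1
  exact Hol.ext fun τ => by rw [eHol_apply, h.gen d hd]; rfl

end realisation


/-! ## Compatibility of the realisations with `α`, `β` and with `Γ₀` -/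

section levels

variable {κ : Kbar →+* ℂ} {N ℓ : ℕ} [NeZero N] [Fact ℓ.Prime]
  {evN : helper3176.AN N →+* (ℍ → ℂ)} {evNl : helper3176.AN (N * ℓ) →+* (ℍ → ℂ)}

theorem heckeAlphaBar_jBarD (d : ℕ) [NeZero d] (hd : d ∣ N) :
    heckeAlphaBar Kbar N ℓ (jBarD N d hd) = jBarD (N * ℓ) d (hd.mul_right ℓ) := by
  apply Subtype.ext
  rw [coe_heckeAlphaBar]
  rfl

omit [NeZero N] in
theorem heckeBetaBar_jBarD (d : ℕ) [NeZero d] (hd : d ∣ N) :
    heckeBetaBar Kbar N ℓ (jBarD N d hd)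
      = jBarD (N * ℓ) (ℓ * d) (by rw [mul_comm N ℓ]; exact Nat.mul_dvd_mul_left ℓ hd) := by
  apply Subtype.ext
  rw [coe_heckeBetaBar]
  show qExpand Kbar ℓ (jSeries d) = jSeries (ℓ * d)
  rw [jSeries, jSeries, helper3176.coeffEmb_qExpand, helper3176.coeffEmb_qExpand,
    qExpand_qExpand]

/-- `ev_{Nℓ} ∘ α = ev_N`. -/
theorem evMer_comp_alpha (hN : EvDatum κ N evN) (hNl : EvDatum κ (N * ℓ) evNl) :
    (evMer hNl).comp (heckeAlphaBar Kbar N ℓ : FN N →+* FN (N * ℓ)) = evMer hN := by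
  refine helper3176.ringHom_ext_of_gen N (fun c => ?_) (fun d _ hd => ?_)
  · show evMer hNl (heckeAlphaBar Kbar N ℓ (algebraMap Kbar (FN N) c)) = _
    rw [AlgHom.commutes, evMer_const, evMer_const]
  · show evMer hNl (heckeAlphaBar Kbar N ℓ (jBarD N d hd)) = _
    rw [heckeAlphaBar_jBarD, evMer_jBarD, evMer_jBarD]

theorem evMer_alpha (hN : EvDatum κ N evN) (hNl : EvDatum κ (N * ℓ) evNl) (f : FN N) :
    evMer hNl (heckeAlphaBar Kbar N ℓ f) = evMer hN f :=
  congrArg (fun φ : FN N →+* Mer => φ f) (evMer_comp_alpha hN hNl)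

omit [NeZero N] in
/-- `ev_{Nℓ} (β f) (z) = ev_N f (ℓ z)`. -/
theorem evMer_comp_beta (hN : EvDatum κ N evN) (hNl : EvDatum κ (N * ℓ) evNl) :
    (evMer hNl).comp (heckeBetaBar Kbar N ℓ : FN N →+* FN (N * ℓ))
      = (pullGL (heckeRep ℓ ∞) (helper1856.det_heckeRep_pos ∞)).comp (evMer hN) := by
  refine helper3176.ringHom_ext_of_gen N (fun c => ?_) (fun d _ hd => ?_)
  · show evMer hNl (heckeBetaBar Kbar N ℓ (algebraMap Kbar (FN N) c))
      = pullGL _ _ (evMer hN (algebraMap Kbar (FN N) c))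
    rw [AlgHom.commutes, evMer_const, evMer_const, pullGL_const]
  · show evMer hNl (heckeBetaBar Kbar N ℓ (jBarD N d hd))
      = pullGL _ _ (evMer hN (jBarD N d hd))
    rw [heckeBetaBar_jBarD, evMer_jBarD, evMer_jBarD, pullGL_algebraMap]
    congr 1
    refine Hol.ext fun τ => ?_
    rw [pullHolGL_apply, JdHol_apply, JdHol_apply, helper1856.coe_heckeRep_infty_smul]
    congr 2
    push_cast
    ring

omit [NeZero N] in
theorem evMer_beta (hN : EvDatum κ N evN) (hNl : EvDatum κ (N * ℓ) evNl) (f : FN N) :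
    evMer hNl (heckeBetaBar Kbar N ℓ f)
      = pullGL (heckeRep ℓ ∞) (helper1856.det_heckeRep_pos ∞) (evMer hN f) :=
  congrArg (fun φ : FN N →+* Mer => φ f) (evMer_comp_beta hN hNl)

end levels

section invariance

variable {κ : Kbar →+* ℂ} {M : ℕ} [NeZero M] {ev : helper3176.AN M →+* (ℍ → ℂ)}

omit [NeZero M] in
/-- The realisation of `F_M` consists of `Γ₀(M)`-invariant functions. -/
theorem pull_evMer (h : EvDatum κ M ev) {γ : SL(2, ℤ)} (hγ : γ ∈ Gamma0 M) (f : FN M) :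
    pull γ (evMer h f) = evMer h f := by
  have key : ((pull γ : Mer ≃ₐ[ℂ] Mer) : Mer →+* Mer).comp (evMer h) = evMer h := by
    refine helper3176.ringHom_ext_of_gen M (fun c => ?_) (fun d _ hd => ?_)
    · show pull γ (evMer h (algebraMap Kbar (FN M) c)) = _
      rw [evMer_const, AlgEquiv.commutes]
    · show pull γ (evMer h (jBarD M d hd)) = _
      rw [evMer_jBarD, pull_algebraMap]
      congr 1
      refine Hol.ext fun τ => ?_
      rw [pullHol_apply, JdHol_apply, JdHol_apply]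
      exact helper288.jFn_mul_smul_of_mem_Gamma0 M d (NeZero.pos d) hd γ hγ τ
  exact congrArg (fun φ : FN M →+* Mer => φ f) key

/-- Separation: an element of `SL(2, ℤ)` fixing the realisation of `F_M` lies in `Γ₀(M)`. -/
theorem mem_Gamma0_of_pull_evMer (h : EvDatum κ M ev) (g : SL(2, ℤ))
    (hg : ∀ f : FN M, pull g (evMer h f) = evMer h f) : g ∈ Gamma0 M := by
  refine helper288.mem_Gamma0_of_jFn_eq M g fun τ => ?_
  have h1 := hg (jBarD M M dvd_rfl)
  rw [evMer_jBarD, pull_algebraMap] at h1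
  have h2 : pullHol g (JdHol M (NeZero.pos M)) = JdHol M (NeZero.pos M) :=
    IsFractionRing.injective Hol Mer h1
  exact congrFun (congrArg Subtype.val h2) τ

end invariance


/-! ## The degree `[F_{Nℓ} : α F_N] = ℓ + 1` -/

section degree

variable (N ℓ : ℕ) [NeZero N] [Fact ℓ.Prime]

/-- `[F_{Nℓ} : α(F_N)] = ℓ + 1` for a prime `ℓ ∤ N` (S24 degrees over `ℚ̄(j)` + index formula). -/
theorem finrank_alpha (hℓN : ¬ ℓ ∣ N) :
    letI := algebraAlong (heckeAlphaBar Kbar N ℓ)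
    Module.finrank (FN N) (FN (N * ℓ)) = ℓ + 1 := by
  letI algF : Algebra (FN N) (FN (N * ℓ)) := algebraAlong (heckeAlphaBar Kbar N ℓ)
  haveI : NeZero (N * ℓ) := ⟨Nat.mul_ne_zero (NeZero.ne N) (Fact.out : ℓ.Prime).ne_zero⟩
  have h1 : Module.finrank Kbar⟮jBar N⟯ (FN N) = Nat.card (XN N) :=
    (Fermat.Agent.S37.helper5162.stmt_JFinrank N).2
  have h2 : Module.finrank Kbar⟮jBar (N * ℓ)⟯ (FN (N * ℓ)) = Nat.card (XN (N * ℓ)) :=
    (Fermat.Agent.S37.helper5162.stmt_JFinrank (N * ℓ)).2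
  letI algE₀ : Algebra Kbar⟮jBar N⟯ (FN (N * ℓ)) :=
    ((algebraMap (FN N) (FN (N * ℓ))).comp (algebraMap Kbar⟮jBar N⟯ (FN N))).toAlgebra
  haveI : IsScalarTower Kbar⟮jBar N⟯ (FN N) (FN (N * ℓ)) :=
    IsScalarTower.of_algebraMap_eq (fun x => rfl)
  have h3 : Module.finrank Kbar⟮jBar N⟯ (FN N) * Module.finrank (FN N) (FN (N * ℓ))
      = Module.finrank Kbar⟮jBar N⟯ (FN (N * ℓ)) :=
    Module.finrank_mul_finrank Kbar⟮jBar N⟯ (FN N) (FN (N * ℓ))
  have hmap : (Kbar⟮jBar N⟯).map (heckeAlphaBar Kbar N ℓ) = Kbar⟮jBar (N * ℓ)⟯ := by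
    rw [IntermediateField.adjoin_map, Set.image_singleton,
      Fermat.Agent.S37.helper5162.heckeAlphaBar_jBar]
  let i : Kbar⟮jBar N⟯ ≃+* Kbar⟮jBar (N * ℓ)⟯ :=
    ((IntermediateField.equivMap Kbar⟮jBar N⟯ (heckeAlphaBar Kbar N ℓ)).trans
      (IntermediateField.equivOfEq hmap)).toRingEquiv
  have h4 : Module.finrank Kbar⟮jBar N⟯ (FN (N * ℓ))
      = Module.finrank Kbar⟮jBar (N * ℓ)⟯ (FN (N * ℓ)) :=
    Algebra.finrank_eq_of_equiv_equiv i (RingEquiv.refl _) (by ext x; rfl)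
  have h5 : Nat.card (XN (N * ℓ)) = (ℓ + 1) * Nat.card (XN N) := by
    rw [Fermat.Agent.Lib.helper804.card_quotient_Gamma0 (N * ℓ),
      Fermat.Agent.Lib.helper804.card_quotient_Gamma0 N]
    exact Fermat.Agent.S28.helper1595.dedekindPsi_mul_prime_of_not_dvd Fact.out (NeZero.pos N) hℓN
  have hpos : 0 < Nat.card (XN N) := by
    rw [← h1]
    exact Module.finrank_pos
  have h6 : Nat.card (XN N) * Module.finrank (FN N) (FN (N * ℓ))
      = Nat.card (XN N) * (ℓ + 1) := by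
    rw [← h1, h3, h4, h2, h5, h1, mul_comm]
  exact Nat.eq_of_mul_eq_mul_left hpos h6

end degree


/-! ## Coset representatives of `Γ₀(Nℓ) \ Γ₀(N)` -/

section cosets

variable (N ℓ : ℕ)

/-- Bezout data `ℓ s - N t = 1` for a prime `ℓ ∤ N`. -/
theorem exists_bezout [Fact ℓ.Prime] (hℓN : ¬ ℓ ∣ N) :
    ∃ s t : ℤ, (ℓ : ℤ) * s - (N : ℤ) * t = 1 := by
  have hcop : IsCoprime (ℓ : ℤ) (N : ℤ) :=
    Nat.isCoprime_iff_coprime.mpr ((Nat.Prime.coprime_iff_not_dvd Fact.out).mpr hℓN)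
  obtain ⟨a, b, hab⟩ := hcop
  exact ⟨a, -b, by linear_combination hab⟩

variable (s t : ℤ) (hst : (ℓ : ℤ) * s - (N : ℤ) * t = 1)

/-- The coset representative `γ_j = [[1, j + t], [N, N j + s ℓ]] ∈ Γ₀(N)`. -/
def gam (j : ℤ) : SL(2, ℤ) :=
  ⟨!![1, j + t; (N : ℤ), N * j + s * ℓ], by rw [Matrix.det_fin_two_of]; linear_combination hst⟩

/-- The companion `γ' = [[ℓ, t], [N, s]] ∈ Γ₀(N)`. -/
def gam' : SL(2, ℤ) :=
  ⟨!![(ℓ : ℤ), t; (N : ℤ), s], by rw [Matrix.det_fin_two_of]; linear_combination hst⟩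

theorem gam_mem (j : ℤ) : gam N ℓ s t hst j ∈ Gamma0 N := by
  rw [Gamma0_mem]
  show (((N : ℤ) : ℤ) : ZMod N) = 0
  simp

theorem gam'_mem : gam' N ℓ s t hst ∈ Gamma0 N := by
  rw [Gamma0_mem]
  show (((N : ℤ) : ℤ) : ZMod N) = 0
  simp

/-- `ℓ · (γ_j τ) = γ' · ((τ + j)/ℓ)`. -/
theorem heckeRep_infty_smul_gam [Fact ℓ.Prime] (j : ZMod ℓ) (τ : ℍ) :
    heckeRep ℓ ∞ • (gam N ℓ s t hst (j.val : ℤ) • τ)
      = gam' N ℓ s t hst • (heckeRep ℓ (j : OnePoint (ZMod ℓ)) • τ) := by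
  have hℓ : (0 : ℤ) < (ℓ : ℤ) := by exact_mod_cast (Fact.out : ℓ.Prime).pos
  have key := helper288.mul_smul_eq_smul_affinePt (gam N ℓ s t hst (j.val : ℤ)) (gam' N ℓ s t hst)
    (ℓ : ℤ) 1 (j.val : ℤ) (ℓ : ℤ) one_pos hℓ
    (by show (ℓ : ℤ) * 1 = (ℓ : ℤ) * 1; rfl)
    (by show (ℓ : ℤ) * ((j.val : ℤ) + t) = (ℓ : ℤ) * (j.val : ℤ) + t * (ℓ : ℤ); ring)
    (by show (N : ℤ) = (N : ℤ) * 1; ring)
    (by show (N : ℤ) * (j.val : ℤ) + s * (ℓ : ℤ) = (N : ℤ) * (j.val : ℤ) + s * (ℓ : ℤ); rfl) τ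
  have haff : helper288.affinePt 1 (j.val : ℤ) (ℓ : ℤ) one_pos hℓ τ
      = heckeRep ℓ (j : OnePoint (ZMod ℓ)) • τ := by
    apply UpperHalfPlane.ext
    rw [helper288.coe_affinePt, helper1856.coe_heckeRep_coe_smul]
    push_cast
    ring
  apply UpperHalfPlane.ext
  rw [helper1856.coe_heckeRep_infty_smul, ← haff, ← key]
  push_cast
  ring

/-- The `ℓ + 1` representatives are pairwise inequivalent modulo `Γ₀(Nℓ)`. -/
theorem gam_sep [Fact ℓ.Prime] (hℓN : ¬ ℓ ∣ N) (hN : N ≠ 0) (i j : ZMod ℓ)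
    (h : gam N ℓ s t hst (i.val : ℤ) * (gam N ℓ s t hst (j.val : ℤ))⁻¹ ∈ Gamma0 (N * ℓ)) :
    i = j := by
  rw [Gamma0_mem, ZMod.intCast_zmod_eq_zero_iff_dvd] at h
  have hentry : (gam N ℓ s t hst (i.val : ℤ) * (gam N ℓ s t hst (j.val : ℤ))⁻¹) 1 0
      = (N : ℤ) * ((N : ℤ) * ((j.val : ℤ) - (i.val : ℤ))) := by
    rw [Matrix.SpecialLinearGroup.coe_mul, Matrix.SpecialLinearGroup.SL2_inv_expl,
      Matrix.mul_apply, Fin.sum_univ_two]
    simp only [gam, Matrix.SpecialLinearGroup.coe_mk, Matrix.of_apply, Matrix.cons_val_zero,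
      Matrix.cons_val_one, Matrix.cons_val', Matrix.cons_val_fin_one]
    ring
  rw [hentry] at h
  have hN' : (N : ℤ) ≠ 0 := by exact_mod_cast hN
  have h1 : (ℓ : ℤ) ∣ (N : ℤ) * ((j.val : ℤ) - (i.val : ℤ)) := by
    have h' : (N : ℤ) * (ℓ : ℤ) ∣ (N : ℤ) * ((N : ℤ) * ((j.val : ℤ) - (i.val : ℤ))) := by
      exact_mod_cast h
    exact (mul_dvd_mul_iff_left hN').mp h'
  have hcop : IsCoprime (ℓ : ℤ) (N : ℤ) :=
    Nat.isCoprime_iff_coprime.mpr ((Nat.Prime.coprime_iff_not_dvd Fact.out).mpr hℓN)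
  have h2 : (ℓ : ℤ) ∣ (j.val : ℤ) - (i.val : ℤ) := hcop.dvd_of_dvd_mul_left h1
  have h3 : (((j.val : ℤ) - (i.val : ℤ) : ℤ) : ZMod ℓ) = 0 :=
    (ZMod.intCast_zmod_eq_zero_iff_dvd _ _).mpr h2
  push_cast at h3
  rw [ZMod.natCast_zmod_val, ZMod.natCast_zmod_val] at h3
  exact (sub_eq_zero.mp h3).symm

/-- `γ_j ∉ Γ₀(Nℓ)`. -/
theorem gam_not_mem [Fact ℓ.Prime] (hN : N ≠ 0) (j : ℤ) :
    gam N ℓ s t hst j ∉ Gamma0 (N * ℓ) := by
  intro h
  rw [Gamma0_mem, ZMod.intCast_zmod_eq_zero_iff_dvd] at h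
  have h' : (N : ℤ) * (ℓ : ℤ) ∣ (N : ℤ) * 1 := by
    have : ((N * ℓ : ℕ) : ℤ) ∣ (N : ℤ) := h
    rw [mul_one]
    exact_mod_cast this
  have hN' : (N : ℤ) ≠ 0 := by exact_mod_cast hN
  have h1 : (ℓ : ℤ) ∣ 1 := (mul_dvd_mul_iff_left hN').mp h'
  have h2 : ℓ ∣ 1 := by exact_mod_cast h1
  exact (Fact.out : ℓ.Prime).one_lt.ne' (Nat.dvd_one.mp h2)

end cosets

/-! ## Pull-backs commute as the points do -/

theorem pull_pullGL (g g' : SL(2, ℤ)) (A B : GL (Fin 2) ℝ) (hA : 0 < (A.det : ℝ))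
    (hB : 0 < (B.det : ℝ)) (h : ∀ τ : ℍ, A • (g • τ) = g' • (B • τ)) (z : Mer) :
    pull g (pullGL A hA z) = pullGL B hB (pull g' z) := by
  have key : ((pull g : Mer ≃ₐ[ℂ] Mer) : Mer →+* Mer).comp (pullGL A hA)
      = (pullGL B hB).comp ((pull g' : Mer ≃ₐ[ℂ] Mer) : Mer →+* Mer) := by
    refine Mer.ringHom_ext fun f => ?_
    show pull g (pullGL A hA (algebraMap Hol Mer f)) = pullGL B hB (pull g' (algebraMap Hol Mer f))
    rw [pullGL_algebraMap, pull_algebraMap, pull_algebraMap, pullGL_algebraMap]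
    congr 1
    refine Hol.ext fun τ => ?_
    rw [pullHol_apply, pullHolGL_apply, pullHolGL_apply, pullHol_apply, h τ]
  exact congrArg (fun φ : Mer →+* Mer => φ z) key


/-! ## The norm along `α` is the coset product -/

section main

variable {κ : Kbar →+* ℂ} {N ℓ : ℕ} [NeZero N] [Fact ℓ.Prime]
  {evN : helper3176.AN N →+* (ℍ → ℂ)} {evNl : helper3176.AN (N * ℓ) →+* (ℍ → ℂ)}

/-- **Analytic form of the Prelude norm (Mer-valued).**  For a prime `ℓ ∤ N` and `u ∈ F_N`, the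
realisation of `Norm_{F_{Nℓ}/α F_N}(β u)` is the coset product of the realisation of `u`:
`∏_{x ∈ ℙ¹(𝔽_ℓ)} (ev u)(heckeRep ℓ x • z)`. -/
theorem evMer_norm_alpha_beta (hℓN : ¬ ℓ ∣ N) (hN : EvDatum κ N evN)
    (hNl : EvDatum κ (N * ℓ) evNl) (u : FN N) :
    letI := algebraAlong (heckeAlphaBar Kbar N ℓ)
    evMer hN (Algebra.norm (FN N) (heckeBetaBar Kbar N ℓ u))
      = ∏ x : OnePoint (ZMod ℓ),
          pullGL (heckeRep ℓ x) (helper1856.det_heckeRep_pos x) (evMer hN u) := by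
  classical
  letI algF : Algebra (FN N) (FN (N * ℓ)) := algebraAlong (heckeAlphaBar Kbar N ℓ)
  haveI : NeZero (N * ℓ) := ⟨Nat.mul_ne_zero (NeZero.ne N) (Fact.out : ℓ.Prime).ne_zero⟩
  obtain ⟨s, t, hst⟩ := exists_bezout N ℓ hℓN
  letI algΩ : Algebra (FN N) (AlgebraicClosure Mer) :=
    ((algebraMap Mer (AlgebraicClosure Mer)).comp (evMer hN)).toAlgebra
  haveI : Module.Finite (FN N) (FN (N * ℓ)) :=
    Fermat.Agent.S37.helper5162.finiteAlong_heckeAlphaBar N ℓ
  -- the coset representatives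
  let γ : OnePoint (ZMod ℓ) → SL(2, ℤ) :=
    fun x => Option.elim x 1 (fun j => gam N ℓ s t hst (j.val : ℤ))
  have hγN : ∀ x, γ x ∈ Gamma0 N := by
    intro x
    induction x using OnePoint.rec with
    | infty => exact one_mem _
    | coe j => exact gam_mem N ℓ s t hst _
  -- the embeddings
  let σ : OnePoint (ZMod ℓ) → (FN (N * ℓ) →ₐ[FN N] AlgebraicClosure Mer) := fun x =>
    { toRingHom := (algebraMap Mer (AlgebraicClosure Mer)).comp
        (((pull (γ x) : Mer ≃ₐ[ℂ] Mer) : Mer →+* Mer).comp (evMer hNl))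
      commutes' := fun f => by
        show algebraMap Mer (AlgebraicClosure Mer)
            (pull (γ x) (evMer hNl (heckeAlphaBar Kbar N ℓ f)))
          = algebraMap Mer (AlgebraicClosure Mer) (evMer hN f)
        rw [evMer_alpha hN hNl, pull_evMer hN (hγN x)] }
  have hσ : ∀ x w, σ x w
      = algebraMap Mer (AlgebraicClosure Mer) (pull (γ x) (evMer hNl w)) := fun x w => rfl
  -- injectivity
  have hσinj : Function.Injective σ := by
    intro x y hxy
    have h1 : ∀ w : FN (N * ℓ), pull (γ x * (γ y)⁻¹) (evMer hNl w) = evMer hNl w := by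
      intro w
      have h2 : pull (γ x) (evMer hNl w) = pull (γ y) (evMer hNl w) := by
        apply (algebraMap Mer (AlgebraicClosure Mer)).injective
        rw [← hσ, ← hσ, hxy]
      have h3 := congrArg (pull (γ y)⁻¹) h2
      rw [pull_pull, pull_pull, mul_inv_cancel, pull_one] at h3
      exact h3
    have h4 : γ x * (γ y)⁻¹ ∈ Gamma0 (N * ℓ) := mem_Gamma0_of_pull_evMer hNl _ h1
    induction x using OnePoint.rec with
    | infty =>
      induction y using OnePoint.rec with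
      | infty => rfl
      | coe j =>
        exfalso
        have h5 : (gam N ℓ s t hst (j.val : ℤ))⁻¹ ∈ Gamma0 (N * ℓ) := by
          have h6 : (1 : SL(2, ℤ)) * (gam N ℓ s t hst (j.val : ℤ))⁻¹ ∈ Gamma0 (N * ℓ) := h4
          rwa [one_mul] at h6
        exact gam_not_mem N ℓ s t hst (NeZero.ne N) _ (inv_mem_iff.mp h5)
    | coe i =>
      induction y using OnePoint.rec with
      | infty =>
        exfalso
        have h5 : gam N ℓ s t hst (i.val : ℤ) ∈ Gamma0 (N * ℓ) := by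
          have h6 : gam N ℓ s t hst (i.val : ℤ) * (1 : SL(2, ℤ))⁻¹ ∈ Gamma0 (N * ℓ) := h4
          rwa [inv_one, mul_one] at h6
        exact gam_not_mem N ℓ s t hst (NeZero.ne N) _ h5
      | coe j =>
        have h5 : gam N ℓ s t hst (i.val : ℤ) * (gam N ℓ s t hst (j.val : ℤ))⁻¹
            ∈ Gamma0 (N * ℓ) := h4
        rw [gam_sep N ℓ s t hst hℓN (NeZero.ne N) i j h5]
  -- cardinality
  have hcard : Fintype.card (OnePoint (ZMod ℓ))
      = Fintype.card (FN (N * ℓ) →ₐ[FN N] AlgebraicClosure Mer) := by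
    rw [AlgHom.card, finrank_alpha N ℓ hℓN, helper1856.card_onePoint_zmod]
  have hbij : Function.Bijective σ :=
    (Fintype.bijective_iff_injective_and_card σ).mpr ⟨hσinj, hcard⟩
  -- the norm is the product over all embeddings
  have hnorm := Algebra.norm_eq_prod_embeddings (FN N) (AlgebraicClosure Mer)
    (heckeBetaBar Kbar N ℓ u)
  rw [← hbij.prod_comp (fun σ' => σ' (heckeBetaBar Kbar N ℓ u))] at hnorm
  -- the individual factors
  have hterm : ∀ x, σ x (heckeBetaBar Kbar N ℓ u)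
      = algebraMap Mer (AlgebraicClosure Mer)
          (pullGL (heckeRep ℓ x) (helper1856.det_heckeRep_pos x) (evMer hN u)) := by
    intro x
    rw [hσ, evMer_beta hN hNl]
    congr 1
    induction x using OnePoint.rec with
    | infty =>
      show pull 1 _ = _
      rw [pull_one]
    | coe j =>
      show pull (gam N ℓ s t hst (j.val : ℤ)) _ = _
      rw [pull_pullGL (gam N ℓ s t hst (j.val : ℤ)) (gam' N ℓ s t hst) (heckeRep ℓ ∞)
        (heckeRep ℓ (j : OnePoint (ZMod ℓ))) (helper1856.det_heckeRep_pos ∞)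
        (helper1856.det_heckeRep_pos (j : OnePoint (ZMod ℓ)))
        (heckeRep_infty_smul_gam N ℓ s t hst j), pull_evMer hN (gam'_mem N ℓ s t hst)]
  apply (algebraMap Mer (AlgebraicClosure Mer)).injective
  rw [map_prod]
  calc algebraMap Mer (AlgebraicClosure Mer)
        (evMer hN (Algebra.norm (FN N) (heckeBetaBar Kbar N ℓ u)))
      = algebraMap (FN N) (AlgebraicClosure Mer)
          (Algebra.norm (FN N) (heckeBetaBar Kbar N ℓ u)) := rfl
    _ = ∏ x : OnePoint (ZMod ℓ), σ x (heckeBetaBar Kbar N ℓ u) := hnorm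
    _ = _ := Finset.prod_congr rfl (fun x _ => hterm x)

end main

end

end Fermat.Agent.S29.helper1832
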