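/-
helper2982 — S29, leaf M5AN-MER: the multiplier law of the coset product for MEROMORPHIC roots.

The landed function-level statement `tmul_smul` (`helper2982_MultHecke`) needs a genuine function
`w : ℍ → M` with `w (γ • z) = χ γ * w z` everywhere.  The `n`-th root of the realisation of a Kummer
function is only meromorphic: it lives in `Mer = Frac Hol` (landed S24 package `helper182_HolMer`,
on which the landed `helper3343.kummerChar` is defined).  This file provides

* `tmul_smul_frac` : the fraction form `A (γ z) B z = χ γ A z B (γ z)` of the multiplier law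
  (function-level, any correspondence, no division);
* `pullGLHol`, `pullGLMer` : pullback of holomorphic / meromorphic functions along
  `α ∈ GL₂(ℝ)`, `det α > 0`, and its composition rules with the `SL(2,ℤ)`-pullback `pullMer`;
* `cpHol`, `cpMer` : the coset product `h ↦ ∏ i, h ∘ α i` on `Hol` and on `Mer`
  (`cpHolT`, `cpMerT` for the correspondence `T_l`: `h ↦ h(l z) ∏_j h((z+j)/l)`);
* `pullMer_cpMer` : if `h ∘ γ = χ(γ) h` in `Mer`, then `cpMer h ∘ γ = (transfer χ)(γ) cpMer h`;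
* `isKummer_cpMer`, `kummerChar_cpMer` : `kummerChar n Γ (cpMer u) = transfer (kummerChar n Γ u)`
  for every modulus `n ≥ 1` (Hecke-equivariance of the Kummer character, `(TH5)` modulo the
  identification of `cpMer (ev u)` with the realisation of the norm);
* `cpMerT_eq_of_cross` : that identification from a cross-multiplied function-level identity;
* `zmodChar`, `transfer_zmodChar`, `kummerLog` : the additive form with values in `ZMod n`.
-/
import Fermat.Agent.S29.helper2982_MultHecke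
import Fermat.Agent.S29.helper3343_KummerChar
import Fermat.Agent.S29.helper2122_MerBridge

set_option autoImplicit false

open UpperHalfPlane CongruenceSubgroup Matrix.SpecialLinearGroup
open scoped MatrixGroups Manifold

namespace Fermat.Agent.S29.helper2982

open Fermat.Agent.S16.helper2138 Fermat.Agent.S24.helper182 Fermat.Agent.S29.helper3343

/-! ### Fraction form of the multiplier law (function level) -/

section Fraction

variable {Γ : Subgroup SL(2, ℤ)} {ι : Type} [Fintype ι] (C : Corr Γ ι)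

/-- **Multiplier law for a quotient `A / B`, without division.** If
`A (γ • z) * B z = χ γ * A z * B (γ • z)` for all `γ ∈ Γ` and all `z`, then the coset products
satisfy the same relation with the transferred character. -/
theorem tmul_smul_frac {M : Type*} [CommMonoid M] (A B : ℍ → M) (χ : Γ →* M)
    (h : ∀ (γ : Γ) (z : ℍ), A (γ • z) * B z = χ γ * A z * B (γ • z)) (γ : Γ) (z : ℍ) :
    tmul C A (γ • z) * tmul C B z = transfer C χ γ * tmul C A z * tmul C B (γ • z) := by
  simp only [tmul_apply, transfer_apply]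
  have hB : ∏ i, B (C.α i • z) = ∏ i, B (C.α (C.σ γ i) • z) :=
    (Equiv.prod_comp (C.σEquiv γ) (fun i => B (C.α i • z))).symm
  have hA : ∏ i, A (C.α i • z) = ∏ i, A (C.α (C.σ γ i) • z) :=
    (Equiv.prod_comp (C.σEquiv γ) (fun i => A (C.α i • z))).symm
  rw [hB, hA]
  simp only [← Finset.prod_mul_distrib]
  refine Finset.prod_congr rfl fun i _ => ?_
  rw [smul_smul_eq C i γ z]
  exact h (C.g i γ) (C.α (C.σ γ i) • z)

end Fraction

section FractionT

variable (N l : ℕ) [Fact l.Prime] (hlN : ¬ l ∣ N)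

/-- Fraction form of the multiplier law for `T_l` on `Γ₀(N)`. -/
theorem tmulT_smul_frac {M : Type*} [CommMonoid M] (A B : ℍ → M) (χ : Gamma0 N →* M)
    (h : ∀ (γ : Gamma0 N) (z : ℍ), A (γ • z) * B z = χ γ * A z * B (γ • z))
    (γ : Gamma0 N) (z : ℍ) :
    tmulT l A (γ • z) * tmulT l B z =
      transfer (corrT N l hlN) χ γ * tmulT l A z * tmulT l B (γ • z) := by
  simp only [← tmul_corrT N l hlN]
  exact tmul_smul_frac _ A B χ h γ z

end FractionT

/-! ### Pullback along `α ∈ GL₂(ℝ)`, `det α > 0`, on `Hol` and `Mer` -/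

section PullGL

/-- Pullback of holomorphic functions by `α ∈ GL₂(ℝ)` with positive determinant:
`(pullGLHol α f) τ = f (α • τ)`. -/
noncomputable def pullGLHol (α : GL (Fin 2) ℝ) (hα : 0 < α.det.val) : Hol →+* Hol where
  toFun f := ⟨fun τ => f.1 (α • τ), f.2.comp (mdifferentiable_smul hα)⟩
  map_one' := rfl
  map_mul' _ _ := rfl
  map_zero' := rfl
  map_add' _ _ := rfl

@[simp]
theorem pullGLHol_apply (α : GL (Fin 2) ℝ) (hα : 0 < α.det.val) (f : Hol) (τ : ℍ) :
    (pullGLHol α hα f).1 τ = f.1 (α • τ) := rfl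

theorem pullGLHol_injective (α : GL (Fin 2) ℝ) (hα : 0 < α.det.val) :
    Function.Injective (pullGLHol α hα) := by
  intro f g hfg
  apply Subtype.ext
  funext τ
  have h := congrArg (fun F : Hol => F.1 (α⁻¹ • τ)) hfg
  simpa [smul_smul] using h

theorem pullGLHol_congr {α β : GL (Fin 2) ℝ} (h : α = β) (hα : 0 < α.det.val)
    (hβ : 0 < β.det.val) : pullGLHol α hα = pullGLHol β hβ := by
  subst h; rfl

theorem pullGLHol_constH (α : GL (Fin 2) ℝ) (hα : 0 < α.det.val) (c : ℂ) :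
    pullGLHol α hα (constH c) = constH c := rfl

/-- `pullHol g ∘ pullGLHol α = pullGLHol (α * g)`. -/
theorem pullHol_pullGLHol (g : SL(2, ℤ)) (α : GL (Fin 2) ℝ) (hα : 0 < α.det.val)
    (hαg : 0 < (α * mapGL ℝ g).det.val) (f : Hol) :
    pullHol g (pullGLHol α hα f) = pullGLHol (α * mapGL ℝ g) hαg f := by
  apply Subtype.ext
  funext τ
  show f.1 (α • (g • τ)) = f.1 ((α * mapGL ℝ g) • τ)
  rw [mul_smul]
  rfl

/-- `pullGLHol α ∘ pullHol g = pullGLHol (g * α)`. -/
theorem pullGLHol_pullHol (g : SL(2, ℤ)) (α : GL (Fin 2) ℝ) (hα : 0 < α.det.val)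
    (hgα : 0 < (mapGL ℝ g * α).det.val) (f : Hol) :
    pullGLHol α hα (pullHol g f) = pullGLHol (mapGL ℝ g * α) hgα f := by
  apply Subtype.ext
  funext τ
  show f.1 (g • (α • τ)) = f.1 ((mapGL ℝ g * α) • τ)
  rw [mul_smul]
  rfl

/-- Pullback of meromorphic functions by `α ∈ GL₂(ℝ)` with positive determinant. -/
noncomputable def pullGLMer (α : GL (Fin 2) ℝ) (hα : 0 < α.det.val) : Mer →+* Mer :=
  IsFractionRing.lift (K := Mer) (g := (algebraMap Hol Mer).comp (pullGLHol α hα))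
    (by
      rw [RingHom.coe_comp]
      exact (IsFractionRing.injective Hol Mer).comp (pullGLHol_injective α hα))

theorem pullGLMer_algebraMap (α : GL (Fin 2) ℝ) (hα : 0 < α.det.val) (f : Hol) :
    pullGLMer α hα (algebraMap Hol Mer f) = algebraMap Hol Mer (pullGLHol α hα f) :=
  IsFractionRing.lift_algebraMap _ f

theorem pullGLMer_congr {α β : GL (Fin 2) ℝ} (h : α = β) (hα : 0 < α.det.val)
    (hβ : 0 < β.det.val) : pullGLMer α hα = pullGLMer β hβ := by
  subst h; rfl

theorem pullGLMer_constM (α : GL (Fin 2) ℝ) (hα : 0 < α.det.val) (c : ℂ) :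
    pullGLMer α hα (constM c) = constM c := by
  show pullGLMer α hα (algebraMap Hol Mer (constH c)) = algebraMap Hol Mer (constH c)
  rw [pullGLMer_algebraMap, pullGLHol_constH]

theorem pullGLMer_injective (α : GL (Fin 2) ℝ) (hα : 0 < α.det.val) :
    Function.Injective (pullGLMer α hα) := (pullGLMer α hα).injective

theorem pullGLMer_ne_zero (α : GL (Fin 2) ℝ) (hα : 0 < α.det.val) {z : Mer} (hz : z ≠ 0) :
    pullGLMer α hα z ≠ 0 := (map_ne_zero (pullGLMer α hα)).mpr hz

/-- `pullMer g ∘ pullGLMer α = pullGLMer (α * g)`. -/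
theorem pullMer_pullGLMer (g : SL(2, ℤ)) (α : GL (Fin 2) ℝ) (hα : 0 < α.det.val)
    (hαg : 0 < (α * mapGL ℝ g).det.val) (z : Mer) :
    pullMer g (pullGLMer α hα z) = pullGLMer (α * mapGL ℝ g) hαg z := by
  obtain ⟨a, b, hb, rfl⟩ := exists_div_eq z
  simp only [map_div₀, pullGLMer_algebraMap, pullMer_algebraMap, pullHol_pullGLHol g α hα hαg]

/-- `pullGLMer α ∘ pullMer g = pullGLMer (g * α)`. -/
theorem pullGLMer_pullMer (g : SL(2, ℤ)) (α : GL (Fin 2) ℝ) (hα : 0 < α.det.val)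
    (hgα : 0 < (mapGL ℝ g * α).det.val) (z : Mer) :
    pullGLMer α hα (pullMer g z) = pullGLMer (mapGL ℝ g * α) hgα z := by
  obtain ⟨a, b, hb, rfl⟩ := exists_div_eq z
  simp only [map_div₀, pullGLMer_algebraMap, pullMer_algebraMap, pullGLHol_pullHol g α hα hgα]

theorem det_mapGL_pos (g : SL(2, ℤ)) : 0 < (mapGL ℝ g : GL (Fin 2) ℝ).det.val := by
  simp

theorem det_mul_mapGL_pos {α : GL (Fin 2) ℝ} (hα : 0 < α.det.val) (g : SL(2, ℤ)) :
    0 < (α * mapGL ℝ g).det.val := by
  simpa using hα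

theorem det_mapGL_mul_pos {α : GL (Fin 2) ℝ} (hα : 0 < α.det.val) (g : SL(2, ℤ)) :
    0 < (mapGL ℝ g * α).det.val := by
  simpa using hα

end PullGL

/-! ### The coset product on `Hol` and `Mer` -/

section CosetProduct

variable {Γ : Subgroup SL(2, ℤ)} {ι : Type} [Fintype ι] (C : Corr Γ ι)
  (hpos : ∀ i, 0 < (C.α i).det.val)

/-- The coset product on holomorphic functions: `cpHol C f = ∏ i, f ∘ α i`. -/
noncomputable def cpHol : Hol →* Hol where
  toFun f := ∏ i, pullGLHol (C.α i) (hpos i) f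
  map_one' := by simp
  map_mul' f g := by simp [Finset.prod_mul_distrib]

theorem cpHol_apply (f : Hol) : cpHol C hpos f = ∏ i, pullGLHol (C.α i) (hpos i) f := rfl

/-- The underlying function of `cpHol C f` is the function-level coset product `tmul C f`. -/
theorem cpHol_val (f : Hol) : (cpHol C hpos f).1 = tmul C f.1 := by
  funext z
  rw [cpHol_apply, tmul_apply]
  have h1 : ((∏ i, pullGLHol (C.α i) (hpos i) f : Hol) : ℍ → ℂ) =
      ∏ i, ((pullGLHol (C.α i) (hpos i) f : Hol) : ℍ → ℂ) := by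
    exact map_prod Hol.subtype _ _
  show ((∏ i, pullGLHol (C.α i) (hpos i) f : Hol) : ℍ → ℂ) z = _
  rw [h1, Finset.prod_apply]
  rfl

include hpos in
theorem mdiff_tmul {f : ℍ → ℂ} (hf : MDiff f) : MDiff (tmul C f) := by
  have h := (cpHol C hpos ⟨f, hf⟩).2
  rwa [cpHol_val] at h

theorem cpHol_ne_zero {f : Hol} (hf : f ≠ 0) : cpHol C hpos f ≠ 0 := by
  rw [cpHol_apply]
  refine Finset.prod_ne_zero_iff.mpr fun i _ => ?_
  exact (map_ne_zero_iff _ (pullGLHol_injective (C.α i) (hpos i))).mpr hf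

/-- The coset product on meromorphic functions: `cpMer C h = ∏ i, h ∘ α i`. -/
noncomputable def cpMer : Mer →* Mer where
  toFun z := ∏ i, pullGLMer (C.α i) (hpos i) z
  map_one' := by simp
  map_mul' x y := by simp [Finset.prod_mul_distrib]

theorem cpMer_apply (z : Mer) : cpMer C hpos z = ∏ i, pullGLMer (C.α i) (hpos i) z := rfl

theorem cpMer_algebraMap (f : Hol) :
    cpMer C hpos (algebraMap Hol Mer f) = algebraMap Hol Mer (cpHol C hpos f) := by
  rw [cpMer_apply, cpHol_apply, map_prod]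
  exact Finset.prod_congr rfl fun i _ => pullGLMer_algebraMap _ _ f

theorem cpMer_constM (c : ℂ) : cpMer C hpos (constM c) = constM (c ^ Fintype.card ι) := by
  rw [cpMer_apply]
  simp only [pullGLMer_constM, Finset.prod_const, Finset.card_univ, map_pow]

theorem cpMer_ne_zero {z : Mer} (hz : z ≠ 0) : cpMer C hpos z ≠ 0 := by
  rw [cpMer_apply]
  exact Finset.prod_ne_zero_iff.mpr fun i _ => pullGLMer_ne_zero _ _ hz

theorem cpMer_inv (z : Mer) : cpMer C hpos z⁻¹ = (cpMer C hpos z)⁻¹ := by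
  simp only [cpMer_apply, map_inv₀, Finset.prod_inv_distrib]

theorem cpMer_div (x y : Mer) : cpMer C hpos (x / y) = cpMer C hpos x / cpMer C hpos y := by
  simp only [cpMer_apply, map_div₀, Finset.prod_div_distrib]

/-- `cpMer` on a fraction of holomorphic functions. -/
theorem cpMer_div_algebraMap (a b : Hol) :
    cpMer C hpos (algebraMap Hol Mer a / algebraMap Hol Mer b) =
      algebraMap Hol Mer (cpHol C hpos a) / algebraMap Hol Mer (cpHol C hpos b) := by
  rw [cpMer_div, cpMer_algebraMap, cpMer_algebraMap]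

/-- The basic coset relation on `Mer`:
`pullMer γ ∘ pullGLMer (α i) = pullGLMer (α (σ γ i)) ∘ pullMer (g i γ)`. -/
theorem pullMer_pullGLMer_corr (γ : Γ) (i : ι) (z : Mer) :
    pullMer (γ : SL(2, ℤ)) (pullGLMer (C.α i) (hpos i) z) =
      pullGLMer (C.α (C.σ γ i)) (hpos (C.σ γ i)) (pullMer (C.g i γ : SL(2, ℤ)) z) := by
  rw [pullMer_pullGLMer _ _ _ (det_mul_mapGL_pos (hpos i) _),
    pullGLMer_pullMer _ _ _ (det_mapGL_mul_pos (hpos (C.σ γ i)) _)]
  exact congrFun (congrArg DFunLike.coe (pullGLMer_congr (C.rel i γ) _ _)) z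

/-- **Multiplier law of the coset product in `Mer`.** If `h ∘ γ = χ(γ) h` for all `γ ∈ Γ`, then
`cpMer C h ∘ γ = (transfer C χ)(γ) · cpMer C h`. -/
theorem pullMer_cpMer {h : Mer} {χ : Γ →* ℂˣ}
    (hχ : ∀ γ : Γ, pullMer (γ : SL(2, ℤ)) h = constM ((χ γ : ℂˣ) : ℂ) * h) (γ : Γ) :
    pullMer (γ : SL(2, ℤ)) (cpMer C hpos h) =
      constM ((transfer C χ γ : ℂˣ) : ℂ) * cpMer C hpos h := by
  rw [cpMer_apply, map_prod]
  have h1 : ∀ i, pullMer (γ : SL(2, ℤ)) (pullGLMer (C.α i) (hpos i) h) =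
      constM ((χ (C.g i γ) : ℂˣ) : ℂ) * pullGLMer (C.α (C.σ γ i)) (hpos (C.σ γ i)) h := by
    intro i
    rw [pullMer_pullGLMer_corr C hpos γ i h, hχ, map_mul, pullGLMer_constM]
  rw [Finset.prod_congr rfl (fun i _ => h1 i), Finset.prod_mul_distrib, transfer_apply,
    Units.coe_prod, map_prod]
  congr 1
  exact Equiv.prod_comp (C.σEquiv γ) (fun i => pullGLMer (C.α i) (hpos i) h)

/-- Invariant meromorphic functions have invariant coset products. -/
theorem pullMer_cpMer_of_invariant {u : Mer} (hu : ∀ γ ∈ Γ, pullMer γ u = u) (γ : Γ) :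
    pullMer (γ : SL(2, ℤ)) (cpMer C hpos u) = cpMer C hpos u := by
  have h := pullMer_cpMer C hpos (h := u) (χ := 1)
    (fun γ => by simp [hu γ γ.2]) γ
  simpa [transfer_one] using h

/-- The coset product of a Kummer element is a Kummer element (any modulus `n ≥ 1`). -/
theorem isKummer_cpMer {n : ℕ} (hn : 0 < n) {u : Mer} (hu : IsKummer n Γ u) :
    IsKummer n Γ (cpMer C hpos u) := by
  obtain ⟨h, hh, -⟩ := kummerChar_spec hn hu
  have hh0 : h ≠ 0 := by
    rintro rfl
    rw [zero_pow hn.ne'] at hh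
    exact hu.1 hh.symm
  have e : cpMer C hpos u = cpMer C hpos h ^ n := by rw [← hh, map_pow]
  refine ⟨cpMer_ne_zero C hpos hu.1, fun γ hγ => ?_, fun τ => ?_⟩
  · exact pullMer_cpMer_of_invariant C hpos hu.2.1 ⟨γ, hγ⟩
  · rw [e]
    exact ordAt_pow_dvd _ (cpMer_ne_zero C hpos hh0) τ

/-- **Hecke-equivariance of the Kummer character** (any modulus `n ≥ 1`, any correspondence):
`kummerChar n Γ (cpMer C u) = transfer C (kummerChar n Γ u)`. -/
theorem kummerChar_cpMer {n : ℕ} (hn : 0 < n) {u : Mer} (hu : IsKummer n Γ u) :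
    kummerChar n Γ (cpMer C hpos u) = transfer C (kummerChar n Γ u) := by
  obtain ⟨h, hh, hχ⟩ := kummerChar_spec hn hu
  exact kummerChar_eq hn (cpMer_ne_zero C hpos hu.1) (h := cpMer C hpos h)
    (by rw [← map_pow, hh]) (pullMer_cpMer C hpos hχ)

/-- Relation form: any `n`-th root with multiplier `χ` is sent to an `n`-th root of the coset
product with multiplier `transfer C χ` (no Kummer hypothesis). -/
theorem exists_root_cpMer {n : ℕ} {u h : Mer} (hh : h ^ n = u) {χ : Γ →* ℂˣ}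
    (hχ : ∀ γ : Γ, pullMer (γ : SL(2, ℤ)) h = constM ((χ γ : ℂˣ) : ℂ) * h) :
    ∃ H : Mer, H ^ n = cpMer C hpos u ∧
      ∀ γ : Γ, pullMer (γ : SL(2, ℤ)) H = constM ((transfer C χ γ : ℂˣ) : ℂ) * H :=
  ⟨cpMer C hpos h, by rw [← map_pow, hh], pullMer_cpMer C hpos hχ⟩

/-- Identification of `cpMer` of a fraction from a cross-multiplied function-level identity
`c · CP(b) = d · CP(a)` (the shape of the analytic norm formula). -/
theorem cpMer_eq_of_cross (a b c d : Hol) (hb : b ≠ 0) (hd : d ≠ 0)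
    (hcross : ∀ z, c.1 z * tmul C b.1 z = d.1 z * tmul C a.1 z) :
    cpMer C hpos (algebraMap Hol Mer a / algebraMap Hol Mer b) =
      algebraMap Hol Mer c / algebraMap Hol Mer d := by
  rw [cpMer_div_algebraMap]
  have hb' : algebraMap Hol Mer (cpHol C hpos b) ≠ 0 := algebraMap_ne_zero (cpHol_ne_zero C hpos hb)
  have hd' : algebraMap Hol Mer d ≠ 0 := algebraMap_ne_zero hd
  rw [div_eq_div_iff hb' hd', ← map_mul, ← map_mul]
  congr 1
  apply Subtype.ext
  funext z
  show (cpHol C hpos a).1 z * d.1 z = c.1 z * (cpHol C hpos b).1 z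
  rw [cpHol_val, cpHol_val, hcross z]
  ring

end CosetProduct

/-! ### The correspondence `T_l` on `Γ₀(N)` -/

section ConcreteMer

open ModularForm (heckeMatrix heckeDiagMatrix det_heckeMatrix_pos det_heckeDiagMatrix_pos)

variable (N l : ℕ) [Fact l.Prime] (hlN : ¬ l ∣ N)

theorem corrT_det_pos (x : OnePoint (ZMod l)) : 0 < ((corrT N l hlN).α x).det.val := by
  rw [corrT_α]
  cases x with
  | infty => rw [repT_infty]; exact det_heckeDiagMatrix_pos l
  | coe j => rw [repT_coe]; exact det_heckeMatrix_pos l j.val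

/-- The coset product of `T_l` on holomorphic functions; underlying function `tmulT l f`. -/
noncomputable def cpHolT : Hol →* Hol := cpHol (corrT N l hlN) (corrT_det_pos N l hlN)

/-- The coset product of `T_l` on meromorphic functions:
`h ↦ h(l z) · ∏_{j mod l} h((z + j)/l)`. -/
noncomputable def cpMerT : Mer →* Mer := cpMer (corrT N l hlN) (corrT_det_pos N l hlN)

theorem cpHolT_val (f : Hol) : (cpHolT N l hlN f).1 = tmulT l f.1 := by
  funext z
  rw [cpHolT, cpHol_val, tmul_corrT]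

omit hlN in
theorem mdiff_tmulT {f : ℍ → ℂ} (hf : MDiff f) : MDiff (tmulT l f) := by
  have hl1 : ¬ l ∣ 1 := (Fact.out : l.Prime).not_dvd_one
  have h := (cpHolT 1 l hl1 ⟨f, hf⟩).2
  rwa [cpHolT_val] at h

theorem cpMerT_algebraMap (f : Hol) :
    cpMerT N l hlN (algebraMap Hol Mer f) = algebraMap Hol Mer (cpHolT N l hlN f) :=
  cpMer_algebraMap _ _ f

theorem cpMerT_div_algebraMap (a b : Hol) :
    cpMerT N l hlN (algebraMap Hol Mer a / algebraMap Hol Mer b) =
      algebraMap Hol Mer (cpHolT N l hlN a) / algebraMap Hol Mer (cpHolT N l hlN b) :=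
  cpMer_div_algebraMap _ _ a b

/-- `cpMerT` of a fraction `a / b` is `c / d` as soon as `c · T(b) = d · T(a)` pointwise, where
`T f z = f(l z) ∏_j f((z + j)/l)` (this is the shape of the analytic norm formula NORMQ (A)). -/
theorem cpMerT_eq_of_cross (a b c d : Hol) (hb : b ≠ 0) (hd : d ≠ 0)
    (hcross : ∀ z, c.1 z * tmulT l b.1 z = d.1 z * tmulT l a.1 z) :
    cpMerT N l hlN (algebraMap Hol Mer a / algebraMap Hol Mer b) =
      algebraMap Hol Mer c / algebraMap Hol Mer d :=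
  cpMer_eq_of_cross _ _ a b c d hb hd (fun z => by
    rw [tmul_corrT, tmul_corrT]; exact hcross z)

/-- Multiplier law of `T_l` in `Mer`. -/
theorem pullMer_cpMerT {h : Mer} {χ : Gamma0 N →* ℂˣ}
    (hχ : ∀ γ : Gamma0 N, pullMer (γ : SL(2, ℤ)) h = constM ((χ γ : ℂˣ) : ℂ) * h)
    (γ : Gamma0 N) :
    pullMer (γ : SL(2, ℤ)) (cpMerT N l hlN h) =
      constM ((transfer (corrT N l hlN) χ γ : ℂˣ) : ℂ) * cpMerT N l hlN h :=
  pullMer_cpMer _ _ hχ γ

theorem isKummer_cpMerT {n : ℕ} (hn : 0 < n) {u : Mer} (hu : IsKummer n (Gamma0 N) u) :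
    IsKummer n (Gamma0 N) (cpMerT N l hlN u) :=
  isKummer_cpMer _ _ hn hu

/-- **Hecke-equivariance of the Kummer character for `T_l` on `Γ₀(N)`**, every modulus `n ≥ 1`:
`χ_{T_l u} = transfer_l χ_u`. -/
theorem kummerChar_cpMerT {n : ℕ} (hn : 0 < n) {u : Mer} (hu : IsKummer n (Gamma0 N) u) :
    kummerChar n (Gamma0 N) (cpMerT N l hlN u) =
      transfer (corrT N l hlN) (kummerChar n (Gamma0 N) u) :=
  kummerChar_cpMer _ _ hn hu

end ConcreteMer

/-! ### Exponential characters `ζ ^ φ` and the transfer (hom level) -/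

section ExpChar

variable {Γ : Subgroup SL(2, ℤ)} {ι : Type} [Fintype ι] (C : Corr Γ ι)

/-- The character `γ ↦ ζ ^ φ γ` attached to an additive `φ : Γ → ℤ` and an element `ζ` of a
commutative group. -/
def zpowChar {M : Type*} [CommGroup M] (ζ : M) (φ : Additive Γ →+ ℤ) : Γ →* M where
  toFun γ := ζ ^ φ (Additive.ofMul γ)
  map_one' := by simp
  map_mul' γ δ := by simp [zpow_add]

@[simp]
theorem zpowChar_apply {M : Type*} [CommGroup M] (ζ : M) (φ : Additive Γ →+ ℤ) (γ : Γ) :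
    zpowChar ζ φ γ = ζ ^ φ (Additive.ofMul γ) := rfl

theorem zpowChar_add {M : Type*} [CommGroup M] (ζ : M) (φ ψ : Additive Γ →+ ℤ) :
    zpowChar ζ (φ + ψ) = zpowChar ζ φ * zpowChar ζ ψ := by
  ext γ
  simp [zpow_add]

theorem zpowChar_zero {M : Type*} [CommGroup M] (ζ : M) :
    zpowChar ζ (0 : Additive Γ →+ ℤ) = 1 := by
  ext γ
  simp

theorem zpowChar_neg {M : Type*} [CommGroup M] (ζ : M) (φ : Additive Γ →+ ℤ) :
    zpowChar ζ (-φ) = (zpowChar ζ φ)⁻¹ := by
  ext γ
  simp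

theorem zpowChar_nsmul {M : Type*} [CommGroup M] (ζ : M) (k : ℕ) (φ : Additive Γ →+ ℤ) :
    zpowChar ζ (k • φ) = zpowChar ζ φ ^ k := by
  ext γ
  show ζ ^ ((k • φ) (Additive.ofMul γ)) = (ζ ^ φ (Additive.ofMul γ)) ^ k
  rw [AddMonoidHom.smul_apply, nsmul_eq_mul, ← zpow_natCast (ζ ^ φ (Additive.ofMul γ)), ← zpow_mul,
    mul_comm]

theorem prod_zpow_eq_zpow_sum {M : Type*} [CommGroup M] (ζ : M) {κ : Type*} (s : Finset κ)
    (f : κ → ℤ) : ∏ i ∈ s, ζ ^ f i = ζ ^ ∑ i ∈ s, f i := by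
  induction s using Finset.cons_induction with
  | empty => simp
  | cons a s ha ih => rw [Finset.prod_cons, Finset.sum_cons, ih, zpow_add]

/-- **(TR)** The transfer of `ζ ^ φ` is `ζ ^ (C.op ℤ φ)`: on exponential characters the
multiplicative transfer is the landed additive coset-transfer operator on `Hom(Γ, ℤ)`. -/
theorem transfer_zpowChar {M : Type*} [CommGroup M] (ζ : M) (φ : Additive Γ →+ ℤ) :
    transfer C (zpowChar ζ φ) = zpowChar ζ (C.op ℤ φ) := by
  ext γ
  rw [transfer_apply, zpowChar_apply, Corr.op_apply]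
  simp only [zpowChar_apply]
  exact prod_zpow_eq_zpow_sum ζ _ _

/-- `ζ ^ φ` is trivial iff `n ∣ φ`, for `ζ` a primitive `n`-th root of unity. -/
theorem zpowChar_eq_one_iff {M : Type*} [CommGroup M] {ζ : M} {n : ℕ} (hζ : IsPrimitiveRoot ζ n)
    (φ : Additive Γ →+ ℤ) :
    zpowChar ζ φ = 1 ↔ ∀ γ : Γ, (n : ℤ) ∣ φ (Additive.ofMul γ) := by
  constructor
  · intro h γ
    have h1 := congrArg (fun χ : Γ →* M => χ γ) h
    exact (hζ.zpow_eq_one_iff_dvd _).mp h1
  · intro h
    ext γ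
    exact (hζ.zpow_eq_one_iff_dvd _).mpr (h γ)

/-- An additive `φ : Γ → ℤ` all of whose values are divisible by `n ≠ 0` is `n • ψ`. -/
theorem exists_eq_nsmul_of_forall_dvd {n : ℕ} (hn : n ≠ 0) (φ : Additive Γ →+ ℤ)
    (h : ∀ γ : Γ, (n : ℤ) ∣ φ (Additive.ofMul γ)) : ∃ ψ : Additive Γ →+ ℤ, φ = n • ψ := by
  have hn' : (n : ℤ) ≠ 0 := by exact_mod_cast hn
  refine ⟨AddMonoidHom.mk' (fun γ => φ γ / (n : ℤ)) (fun a b => ?_), ?_⟩
  · rw [map_add]
    exact Int.add_ediv_of_dvd_left (h (Additive.toMul a))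
  · ext γ
    show φ γ = (n • AddMonoidHom.mk' (fun γ => φ γ / (n : ℤ)) _) γ
    rw [AddMonoidHom.smul_apply, AddMonoidHom.mk'_apply, nsmul_eq_mul]
    exact (Int.mul_ediv_cancel' (h (Additive.toMul γ))).symm

/-- **(SAT)** for a primitive `n`-th root of unity `ζ`: `ζ ^ φ = 1` iff `φ = n • ψ`. -/
theorem zpowChar_eq_one_iff_exists {M : Type*} [CommGroup M] {ζ : M} {n : ℕ} (hn : n ≠ 0)
    (hζ : IsPrimitiveRoot ζ n) (φ : Additive Γ →+ ℤ) :
    zpowChar ζ φ = 1 ↔ ∃ ψ : Additive Γ →+ ℤ, φ = n • ψ := by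
  constructor
  · intro h
    exact exists_eq_nsmul_of_forall_dvd hn φ ((zpowChar_eq_one_iff hζ φ).mp h)
  · rintro ⟨ψ, rfl⟩
    rw [zpowChar_nsmul]
    ext γ
    show (zpowChar ζ ψ γ) ^ n = 1
    rw [zpowChar_apply, ← zpow_natCast, ← zpow_mul, mul_comm, zpow_mul, zpow_natCast,
      hζ.pow_eq_one, one_zpow]

theorem pow_val_add {M : Type*} [Monoid M] {n : ℕ} [NeZero n] {ζ : M} (hζ : ζ ^ n = 1)
    (a b : ZMod n) : ζ ^ (a + b).val = ζ ^ a.val * ζ ^ b.val := by
  rw [← pow_add, ZMod.val_add, ← Nat.mod_add_div (a.val + b.val) n, pow_add, pow_mul, hζ,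
    one_pow, mul_one, Nat.mod_add_div]

/-- The character `γ ↦ ζ ^ (φ γ).val` attached to an additive `φ : Γ → ZMod n` and `ζ` with
`ζ ^ n = 1`. -/
def zmodChar {M : Type*} [CommMonoid M] (n : ℕ) [NeZero n] (ζ : M) (hζ : ζ ^ n = 1)
    (φ : Additive Γ →+ ZMod n) : Γ →* M where
  toFun γ := ζ ^ (φ (Additive.ofMul γ)).val
  map_one' := by simp
  map_mul' γ δ := by simp [pow_val_add hζ]

@[simp]
theorem zmodChar_apply {M : Type*} [CommMonoid M] (n : ℕ) [NeZero n] (ζ : M) (hζ : ζ ^ n = 1)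
    (φ : Additive Γ →+ ZMod n) (γ : Γ) :
    zmodChar n ζ hζ φ γ = ζ ^ (φ (Additive.ofMul γ)).val := rfl

theorem zmodChar_add {M : Type*} [CommMonoid M] (n : ℕ) [NeZero n] (ζ : M) (hζ : ζ ^ n = 1)
    (φ ψ : Additive Γ →+ ZMod n) :
    zmodChar n ζ hζ (φ + ψ) = zmodChar n ζ hζ φ * zmodChar n ζ hζ ψ := by
  ext γ
  simp [pow_val_add hζ]

theorem prod_pow_val_eq {M : Type*} [CommMonoid M] {n : ℕ} [NeZero n] {ζ : M} (hζ : ζ ^ n = 1)
    {κ : Type*} (s : Finset κ) (f : κ → ZMod n) :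
    ∏ i ∈ s, ζ ^ (f i).val = ζ ^ (∑ i ∈ s, f i).val := by
  induction s using Finset.cons_induction with
  | empty => simp
  | cons a s ha ih => rw [Finset.prod_cons, Finset.sum_cons, ih, pow_val_add hζ]

/-- The transfer of `ζ ^ φ`, `φ : Γ → ZMod n`, is `ζ ^ (C.op (ZMod n) φ)`. -/
theorem transfer_zmodChar {M : Type*} [CommMonoid M] (n : ℕ) [NeZero n] (ζ : M) (hζ : ζ ^ n = 1)
    (φ : Additive Γ →+ ZMod n) :
    transfer C (zmodChar n ζ hζ φ) = zmodChar n ζ hζ (C.op (ZMod n) φ) := by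
  ext γ
  rw [transfer_apply, zmodChar_apply, Corr.op_apply]
  simp only [zmodChar_apply]
  exact prod_pow_val_eq hζ _ _

/-- Reduction of the exponent modulo `n`. -/
theorem zpowChar_eq_zmodChar {M : Type*} [CommGroup M] (n : ℕ) [NeZero n] (ζ : M)
    (hζ : ζ ^ n = 1) (φ : Additive Γ →+ ℤ) :
    zpowChar ζ φ = zmodChar n ζ hζ ((Int.castAddHom (ZMod n)).comp φ) := by
  ext γ
  rw [zpowChar_apply, zmodChar_apply]
  show ζ ^ φ (Additive.ofMul γ) = ζ ^ ((φ (Additive.ofMul γ) : ℤ) : ZMod n).val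
  have h1 : ζ ^ (n : ℤ) = 1 := by rw [zpow_natCast, hζ]
  rw [← zpow_natCast, ZMod.val_intCast, ← zpow_eq_zpow_emod _ h1]

end ExpChar

section ExpCharT

variable (N l : ℕ) [Fact l.Prime] (hlN : ¬ l ∣ N)

/-- **(TR) for `T_l` on `Γ₀(N)`**: `transfer_l (ζ ^ φ) = ζ ^ (T_l φ)` with `T_l = heckeHomT N l`
the landed Hecke operator on `Hom(Γ₀(N), ℤ)`. -/
theorem transferT_zpowChar {M : Type*} [CommGroup M] (ζ : M) (φ : Additive (Gamma0 N) →+ ℤ) :
    transfer (corrT N l hlN) (zpowChar ζ φ) = zpowChar ζ (heckeHomT N l hlN ℤ φ) :=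
  transfer_zpowChar _ ζ φ

/-- The same over `ZMod n`. -/
theorem transferT_zmodChar {M : Type*} [CommMonoid M] (n : ℕ) [NeZero n] (ζ : M) (hζ : ζ ^ n = 1)
    (φ : Additive (Gamma0 N) →+ ZMod n) :
    transfer (corrT N l hlN) (zmodChar n ζ hζ φ) =
      zmodChar n ζ hζ (heckeHomT N l hlN (ZMod n) φ) :=
  transfer_zmodChar _ n ζ hζ φ

end ExpCharT

/-! ### Function-level root pairs (copy-independent form of `(R-hecke)`)

A *root pair* for a fraction `a / b` of holomorphic functions is a pair `(A, B)` of holomorphic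
functions with `A ^ n * b = B ^ n * a` (so `A / B` is an `n`-th root of `a / b`); it has multiplier
`χ` if `A (γ z) B z = χ γ A z B (γ z)`.  If `c / d` is the coset product of `a / b`
(`c · CP(b) = d · CP(a)`, the shape of the analytic norm formula), then `(CP(A), CP(B))` is a root
pair of `c / d` with multiplier `transfer χ`.  No ring of meromorphic functions is mentioned. -/

section RootPair

variable {Γ : Subgroup SL(2, ℤ)} {ι : Type} [Fintype ι] (C : Corr Γ ι)
  (hpos : ∀ i, 0 < (C.α i).det.val)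

include hpos in
/-- The coset product of a nonzero holomorphic function is nonzero. -/
theorem tmul_ne_zero {f : ℍ → ℂ} (hf : MDiff f) (hf0 : f ≠ 0) : tmul C f ≠ 0 := by
  have h := cpHol_ne_zero C hpos (f := ⟨f, hf⟩) (fun h0 => hf0 (congrArg Subtype.val h0))
  intro h0
  apply h
  apply Subtype.ext
  rw [cpHol_val]
  exact h0

include hpos in
/-- **`(R-hecke)`, function level.** From a root pair `(A, B)` of `a / b` with multiplier `χ` and
the cross-multiplied norm identity `c · CP(b) = d · CP(a)`, the pair `(CP(A), CP(B))` is a root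
pair of `c / d` with multiplier `transfer C χ`. -/
theorem rootPair_tmul {n : ℕ} {a b c d A B : ℍ → ℂ} (hb : MDiff b) (hc : MDiff c)
    (hd : MDiff d) (hA : MDiff A) (hB : MDiff B) (hb0 : b ≠ 0) (hB0 : B ≠ 0)
    (hroot : ∀ z, A z ^ n * b z = B z ^ n * a z)
    (hcross : ∀ z, c z * tmul C b z = d z * tmul C a z)
    {M : Type*} [CommMonoid M] [MulAction M ℂ] [IsScalarTower M ℂ ℂ] [SMulCommClass M ℂ ℂ]
    (χ : Γ →* M)
    (hmult : ∀ (γ : Γ) (z : ℍ), A (γ • z) * B z = χ γ • (A z * B (γ • z))) :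
    MDiff (tmul C A) ∧ MDiff (tmul C B) ∧ tmul C B ≠ 0 ∧
      (∀ z, tmul C A z ^ n * d z = tmul C B z ^ n * c z) ∧
      ∀ (γ : Γ) (z : ℍ),
        tmul C A (γ • z) * tmul C B z = transfer C χ γ • (tmul C A z * tmul C B (γ • z)) := by
  refine ⟨mdiff_tmul C hpos hA, mdiff_tmul C hpos hB, tmul_ne_zero C hpos hB hB0, ?_, ?_⟩
  · -- the power identity, using that `Hol` is a domain
    have h1 : ∀ z, tmul C A z ^ n * tmul C b z = tmul C B z ^ n * tmul C a z := by
      intro z
      rw [← tmul_pow, ← tmul_pow, ← tmul_mul, ← tmul_mul]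
      simp only [tmul_apply]
      exact Finset.prod_congr rfl fun i _ => hroot _
    let b' : Hol := ⟨tmul C b, mdiff_tmul C hpos hb⟩
    let E : Hol := ⟨fun z => tmul C A z ^ n * d z - tmul C B z ^ n * c z,
      (((mdiff_tmul C hpos hA).pow n).mul hd).sub (((mdiff_tmul C hpos hB).pow n).mul hc)⟩
    have hb' : b' ≠ 0 := fun h0 =>
      tmul_ne_zero C hpos hb hb0 (congrArg Subtype.val h0)
    have hprod : b' * E = 0 := by
      apply Subtype.ext
      funext z
      show tmul C b z * (tmul C A z ^ n * d z - tmul C B z ^ n * c z) = 0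
      have e1 := h1 z
      have e2 := hcross z
      linear_combination d z * e1 - tmul C B z ^ n * e2
    have hE : E = 0 := (mul_eq_zero.mp hprod).resolve_left hb'
    intro z
    have := congrFun (congrArg Subtype.val hE) z
    exact sub_eq_zero.mp this
  · intro γ z
    simp only [tmul_apply, transfer_apply]
    have hB' : ∏ i, B (C.α i • z) = ∏ i, B (C.α (C.σ γ i) • z) :=
      (Equiv.prod_comp (C.σEquiv γ) (fun i => B (C.α i • z))).symm
    have hA' : ∏ i, A (C.α i • z) = ∏ i, A (C.α (C.σ γ i) • z) :=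
      (Equiv.prod_comp (C.σEquiv γ) (fun i => A (C.α i • z))).symm
    rw [hB', hA', ← Finset.prod_mul_distrib, ← Finset.prod_mul_distrib, ← Finset.prod_smul]
    refine Finset.prod_congr rfl fun i _ => ?_
    rw [smul_smul_eq C i γ z]
    exact hmult (C.g i γ) (C.α (C.σ γ i) • z)

end RootPair

section RootPairT

variable (N l : ℕ) [Fact l.Prime] (hlN : ¬ l ∣ N)

/-- **`(R-hecke)` for `T_l` on `Γ₀(N)`, function level**, with a `ℂˣ`-valued multiplier.
`tmulT l f z = f(l z) ∏_j f((z + j)/l)`. -/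
theorem rootPair_tmulT {n : ℕ} {a b c d A B : ℍ → ℂ} (hb : MDiff b)
    (hc : MDiff c) (hd : MDiff d) (hA : MDiff A) (hB : MDiff B) (hb0 : b ≠ 0) (hB0 : B ≠ 0)
    (hroot : ∀ z, A z ^ n * b z = B z ^ n * a z)
    (hcross : ∀ z, c z * tmulT l b z = d z * tmulT l a z)
    (χ : Gamma0 N →* ℂˣ)
    (hmult : ∀ (γ : Gamma0 N) (z : ℍ), A (γ • z) * B z = (χ γ : ℂ) * (A z * B (γ • z))) :
    MDiff (tmulT l A) ∧ MDiff (tmulT l B) ∧ tmulT l B ≠ 0 ∧
      (∀ z, tmulT l A z ^ n * d z = tmulT l B z ^ n * c z) ∧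
      ∀ (γ : Gamma0 N) (z : ℍ), tmulT l A (γ • z) * tmulT l B z =
        (transfer (corrT N l hlN) χ γ : ℂ) * (tmulT l A z * tmulT l B (γ • z)) := by
  have h := rootPair_tmul (corrT N l hlN) (corrT_det_pos N l hlN) hb hc hd hA hB hb0 hB0 hroot
    (fun z => by rw [tmul_corrT, tmul_corrT]; exact hcross z) χ
    (fun γ z => by rw [Units.smul_def, smul_eq_mul]; exact hmult γ z)
  have e : ∀ f : ℍ → ℂ, tmul (corrT N l hlN) f = tmulT l f := fun f => by
    funext z; exact tmul_corrT N l hlN f z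
  simp only [e] at h
  obtain ⟨h1, h2, h3, h4, h5⟩ := h
  refine ⟨h1, h2, h3, h4, fun γ z => ?_⟩
  have := h5 γ z
  rwa [Units.smul_def, smul_eq_mul] at this

end RootPairT

/-! ### The same in the S24-closure copy `helper580.Mer` (transport along `helper2122.merEquiv`)

`helper580.Mer`, `helper580.pull`, `algebraMap ℂ helper580.Mer` is the vocabulary of the landed
S24 closure, of `helper580_CPlace`, `helper587_FinCMer` and of the transported root theory in
`helper2122_MerBridge`. -/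

section Mer580

open Fermat.Agent.S29.helper2122

variable {Γ : Subgroup SL(2, ℤ)} {ι : Type} [Fintype ι] (C : Corr Γ ι)
  (hpos : ∀ i, 0 < (C.α i).det.val)

/-- The coset product on `helper580.Mer`. -/
noncomputable def cpMer580 :
    Fermat.Agent.S24.helper580.Mer →* Fermat.Agent.S24.helper580.Mer :=
  (merEquiv.toMonoidHom.comp (cpMer C hpos)).comp merEquiv.symm.toMonoidHom

theorem cpMer580_apply (z : Fermat.Agent.S24.helper580.Mer) :
    cpMer580 C hpos z = merEquiv (cpMer C hpos (merEquiv.symm z)) := rfl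

/-- `cpMer580` of a fraction `a / b` of holomorphic functions is `c / d` as soon as
`c · CP(b) = d · CP(a)` pointwise. -/
theorem cpMer580_eq_of_cross (a b c d : ↥Fermat.Agent.S24.helper580.Hol) (hb : b ≠ 0) (hd : d ≠ 0)
    (hcross : ∀ z, (c : ℍ → ℂ) z * tmul C (b : ℍ → ℂ) z = (d : ℍ → ℂ) z * tmul C (a : ℍ → ℂ) z) :
    cpMer580 C hpos (algebraMap ↥Fermat.Agent.S24.helper580.Hol Fermat.Agent.S24.helper580.Mer a /
        algebraMap ↥Fermat.Agent.S24.helper580.Hol Fermat.Agent.S24.helper580.Mer b) =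
      algebraMap ↥Fermat.Agent.S24.helper580.Hol Fermat.Agent.S24.helper580.Mer c /
        algebraMap ↥Fermat.Agent.S24.helper580.Hol Fermat.Agent.S24.helper580.Mer d := by
  have hb' : holEquiv.symm b ≠ 0 := (map_ne_zero_iff _ holEquiv.symm.injective).mpr hb
  have hd' : holEquiv.symm d ≠ 0 := (map_ne_zero_iff _ holEquiv.symm.injective).mpr hd
  rw [cpMer580_apply, map_div₀, merEquiv_symm_algebraMap, merEquiv_symm_algebraMap,
    cpMer_eq_of_cross C hpos (holEquiv.symm a) (holEquiv.symm b) (holEquiv.symm c)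
      (holEquiv.symm d) hb' hd' hcross,
    map_div₀, merEquiv_algebraMap, merEquiv_algebraMap, RingEquiv.apply_symm_apply,
    RingEquiv.apply_symm_apply]

/-- **`(R-hecke)` on `helper580.Mer`**: an `n`-th root with multiplier `χ` is sent to an `n`-th
root of the coset product with multiplier `transfer C χ`. -/
theorem exists_root_cpMer580 {n : ℕ} {u h : Fermat.Agent.S24.helper580.Mer} (hh : h ^ n = u)
    {χ : Γ →* ℂˣ}
    (hχ : ∀ γ : Γ, Fermat.Agent.S24.helper580.pull (γ : SL(2, ℤ)) h =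
      algebraMap ℂ Fermat.Agent.S24.helper580.Mer ((χ γ : ℂˣ) : ℂ) * h) :
    ∃ H : Fermat.Agent.S24.helper580.Mer, H ^ n = cpMer580 C hpos u ∧
      ∀ γ : Γ, Fermat.Agent.S24.helper580.pull (γ : SL(2, ℤ)) H =
        algebraMap ℂ Fermat.Agent.S24.helper580.Mer ((transfer C χ γ : ℂˣ) : ℂ) * H := by
  have hχ' : ∀ γ : Γ, pullMer (γ : SL(2, ℤ)) (merEquiv.symm h) =
      constM ((χ γ : ℂˣ) : ℂ) * merEquiv.symm h := by
    intro γ
    rw [← merEquiv_symm_pull, hχ γ, map_mul, merEquiv_symm_algebraMap_complex]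
  obtain ⟨H, hH, hHχ⟩ := exists_root_cpMer C hpos (n := n) (u := merEquiv.symm u)
    (h := merEquiv.symm h) (by rw [← map_pow, hh]) hχ'
  refine ⟨merEquiv H, ?_, fun γ => ?_⟩
  · rw [← map_pow, hH, cpMer580_apply]
  · rw [← merEquiv_pullMer, hHχ γ, map_mul, merEquiv_constM]

end Mer580

section Mer580T

variable (N l : ℕ) [Fact l.Prime] (hlN : ¬ l ∣ N)

/-- The coset product of `T_l` on `helper580.Mer`. -/
noncomputable def cpMerT580 :
    Fermat.Agent.S24.helper580.Mer →* Fermat.Agent.S24.helper580.Mer :=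
  cpMer580 (corrT N l hlN) (corrT_det_pos N l hlN)

/-- The NORMQ (A) adapter on `helper580.Mer`: `cpMerT580 (a / b) = c / d` as soon as
`c · T(b) = d · T(a)` pointwise, `T f z = f(l z) ∏_j f((z + j)/l)`. -/
theorem cpMerT580_eq_of_cross (a b c d : ↥Fermat.Agent.S24.helper580.Hol) (hb : b ≠ 0)
    (hd : d ≠ 0)
    (hcross : ∀ z, (c : ℍ → ℂ) z * tmulT l (b : ℍ → ℂ) z =
      (d : ℍ → ℂ) z * tmulT l (a : ℍ → ℂ) z) :
    cpMerT580 N l hlN
        (algebraMap ↥Fermat.Agent.S24.helper580.Hol Fermat.Agent.S24.helper580.Mer a /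
          algebraMap ↥Fermat.Agent.S24.helper580.Hol Fermat.Agent.S24.helper580.Mer b) =
      algebraMap ↥Fermat.Agent.S24.helper580.Hol Fermat.Agent.S24.helper580.Mer c /
        algebraMap ↥Fermat.Agent.S24.helper580.Hol Fermat.Agent.S24.helper580.Mer d :=
  cpMer580_eq_of_cross _ _ a b c d hb hd (fun z => by
    rw [tmul_corrT, tmul_corrT]; exact hcross z)

/-- **`(R-hecke)` for `T_l` on `Γ₀(N)` in `helper580.Mer`**, every modulus `n`. -/
theorem exists_root_cpMerT580 {n : ℕ} {u h : Fermat.Agent.S24.helper580.Mer} (hh : h ^ n = u)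
    {χ : Gamma0 N →* ℂˣ}
    (hχ : ∀ γ : Gamma0 N, Fermat.Agent.S24.helper580.pull (γ : SL(2, ℤ)) h =
      algebraMap ℂ Fermat.Agent.S24.helper580.Mer ((χ γ : ℂˣ) : ℂ) * h) :
    ∃ H : Fermat.Agent.S24.helper580.Mer, H ^ n = cpMerT580 N l hlN u ∧
      ∀ γ : Gamma0 N, Fermat.Agent.S24.helper580.pull (γ : SL(2, ℤ)) H =
        algebraMap ℂ Fermat.Agent.S24.helper580.Mer
          ((transfer (corrT N l hlN) χ γ : ℂˣ) : ℂ) * H :=
  exists_root_cpMer580 _ _ hh hχ

end Mer580T

end Fermat.Agent.S29.helper2982
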