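/-
S29-NORMQ backup (helper1832), consumer forms of the analytic norm formula
`Fermat.Agent.S29.helper1832.evMer_norm_alpha_beta` (file `helper1832_NormCoset`).

* `evDatum_6180`, `evDatum_1944`, `evDatum_504` : the three landed S24 evaluations of
  `AN M = ℚ̄[j(q^d) : d ∣ M]` are evaluation data (`EvDatum`);
* `evMer_unique` : a ring hom `FN M → Mer` which is "evaluate" on `AN M` is `evMer`;
* `norm_coset_6180`, `norm_coset_1944`, `norm_coset_504` : for ANY ring hom `E : FN N → Mer`
  (`Mer = helper580.Mer`) which on `AN N` is the corresponding landed evaluation,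
  `E (heckeFun N ℓ u) = ∏ x, pullGL (heckeRep ℓ x) (E u)`   (`heckeFun` = landed KUM name
  `helper8217.heckeFun N ℓ u = Norm_{F_{Nℓ}/α F_N} (β u)`);
* `norm_cpMerT_6180` : the same on the other landed copy of `Mer` (`helper182.Mer`), with the landed
  coset product `helper2982.cpMerT`:  `E (heckeFun N ℓ u) = cpMerT N ℓ hℓN (E u)`;
* `norm_cross_6180` : the function-level cross-multiplied form (A) of board row 1056:
  `u = a / b`, `heckeFun N ℓ u = c / d`, `a b c d ∈ AN N` ⟹
  `∀ z, ev c z * tmulT ℓ (ev b) z = ev d z * tmulT ℓ (ev a) z`.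
-/
import Fermat.Agent.S29.helper1832_NormCoset
import Fermat.Agent.S24.helper6180_Ev
import Fermat.Agent.S24.helper504_MerPackage
import Fermat.Agent.S29.helper8217_KummerClass
import Fermat.Agent.S29.helper2982_MultHeckeMer
import Fermat.Agent.S29.helper2122_MerBridge

set_option autoImplicit false

open UpperHalfPlane CongruenceSubgroup ModularCurve AlgebraicCurve
open Fermat.Agent.S24 Fermat.Agent.S24.helper24 Fermat.Agent.S24.helper580
open P2MW.S_ModularForm_heckeT_slash_eq_self_of_mem_Gamma0.ModularForm.HeckeSlashInvariance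
open scoped MatrixGroups Manifold OnePoint

namespace Fermat.Agent.S29.helper1832

noncomputable section

/-! ## The landed evaluations are evaluation data -/

theorem evDatum_6180 (M : ℕ) : EvDatum helper6180.i0 M (helper6180.evHom M) where
  const := helper6180.ev_algebraMap M
  gen := fun d _ hd => helper6180.ev_jBarD M d hd
  mdiff := helper6180.mdiff_ev M
  inj := helper6180.ev_injective M

theorem evDatum_1944 (M : ℕ) : EvDatum helper1944.kappa M (helper1944.evHom M) where
  const := fun c => helper1944.evFun_algebraMap M c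
  gen := fun d _ hd => helper1944.evFun_jBarD M d hd
  mdiff := fun a => (helper1944.evGood_of_mem_AN M a.1 a.2).1
  inj := helper1944.evHom_injective M

theorem hpt_eq_ofComplex (d : ℕ) [NeZero d] (τ : ℍ) :
    helper504.hpt d 0 1 τ = ofComplex ((d : ℂ) * (τ : ℂ)) := by
  apply UpperHalfPlane.ext
  have him : 0 < ((d : ℂ) * (τ : ℂ)).im := helper1944.im_natCast_mul_pos (NeZero.pos d) τ.im_pos
  rw [helper504.coe_hpt, ofComplex_apply_of_im_pos him]
  simp

theorem evDatum_504 (M : ℕ) : EvDatum helper504.kappa M (helper504.evFun M) where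
  const := helper504.evFun_algebraMap M
  gen := fun d _ hd => by
    rw [helper504.evFun_jBarD M d hd]
    funext τ
    rw [helper504.jd_apply, hpt_eq_ofComplex]
  mdiff := helper504.evFun_mdiff M
  inj := helper504.evFun_injective M

/-! ## Uniqueness of the realisation -/

/-- A ring homomorphism `FN M → Mer` which is "evaluate" on `AN M` is the realisation `evMer`. -/
theorem evMer_unique {κ : Kbar →+* ℂ} {M : ℕ} {ev : helper3176.AN M →+* (ℍ → ℂ)}
    (h : EvDatum κ M ev) (E : FN M →+* Mer)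
    (hE : ∀ a : helper3176.AN M, E (a : FN M) = algebraMap Hol Mer ⟨ev a, h.mdiff a⟩) :
    E = evMer h :=
  helper3176.ringHom_ext_of_AN M fun a => by rw [hE, evMer_coe]; rfl

/-! ## The norm formula for `heckeFun`, for an arbitrary realisation -/

section forms

variable {N ℓ : ℕ} [NeZero N] [Fact ℓ.Prime]

/-- **NORMQ, analytic form, `Mer`-valued** (general evaluation datum): for every ring hom
`E : FN N → Mer` which is `evN` on `AN N`,
`E (Norm_{F_{Nℓ}/α F_N}(β u)) = ∏_{x ∈ ℙ¹(𝔽_ℓ)} (E u) ∘ heckeRep ℓ x`. -/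
theorem norm_coset_of_evDatum {κ : Kbar →+* ℂ} {evN : helper3176.AN N →+* (ℍ → ℂ)}
    {evNl : helper3176.AN (N * ℓ) →+* (ℍ → ℂ)} (hℓN : ¬ ℓ ∣ N) (hN : EvDatum κ N evN)
    (hNl : EvDatum κ (N * ℓ) evNl) (E : FN N →+* Mer)
    (hE : ∀ a : helper3176.AN N, E (a : FN N) = algebraMap Hol Mer ⟨evN a, hN.mdiff a⟩)
    (u : FN N) :
    E (helper8217.heckeFun (L := Kbar) N ℓ u)
      = ∏ x : OnePoint (ZMod ℓ),
          pullGL (heckeRep ℓ x) (helper1856.det_heckeRep_pos x) (E u) := by
  rw [evMer_unique hN E hE]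
  exact evMer_norm_alpha_beta hℓN hN hNl u

/-- NORMQ for the landed evaluation `helper6180.ev` (the one of `helper288.evMer`,
`helper265_EvOrder`, ANDIV, CPLACE). -/
theorem norm_coset_6180 (hℓN : ¬ ℓ ∣ N) (E : FN N →+* Mer)
    (hE : ∀ a : helper3176.AN N,
      E (a : FN N) = algebraMap Hol Mer ⟨helper6180.ev N a, helper6180.mdiff_ev N a⟩)
    (u : FN N) :
    E (helper8217.heckeFun (L := Kbar) N ℓ u)
      = ∏ x : OnePoint (ZMod ℓ),
          pullGL (heckeRep ℓ x) (helper1856.det_heckeRep_pos x) (E u) :=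
  norm_coset_of_evDatum hℓN (evDatum_6180 N) (evDatum_6180 (N * ℓ)) E hE u

/-- NORMQ for the landed evaluation `helper1944.evFun` (sum of the `q`-series). -/
theorem norm_coset_1944 (hℓN : ¬ ℓ ∣ N) (E : FN N →+* Mer)
    (hE : ∀ a : helper3176.AN N,
      E (a : FN N) = algebraMap Hol Mer
        ⟨helper1944.evFun N (a : FN N), (helper1944.evGood_of_mem_AN N a.1 a.2).1⟩)
    (u : FN N) :
    E (helper8217.heckeFun (L := Kbar) N ℓ u)
      = ∏ x : OnePoint (ZMod ℓ),
          pullGL (heckeRep ℓ x) (helper1856.det_heckeRep_pos x) (E u) :=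
  norm_coset_of_evDatum hℓN (evDatum_1944 N) (evDatum_1944 (N * ℓ)) E hE u

/-- NORMQ for the landed S24 realisation `helper504.evMer`. -/
theorem norm_coset_504 (hℓN : ¬ ℓ ∣ N) (u : FN N) :
    helper504.evMer N (helper8217.heckeFun (L := Kbar) N ℓ u)
      = ∏ x : OnePoint (ZMod ℓ),
          pullGL (heckeRep ℓ x) (helper1856.det_heckeRep_pos x) (helper504.evMer N u) :=
  norm_coset_of_evDatum hℓN (evDatum_504 N) (evDatum_504 (N * ℓ)) (helper504.evMer N)
    (fun a => helper504.evMer_coe N a) u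

/-! ## Function-level cross-multiplied form (A) -/

/-- **NORMQ (A), function level.**  If `u = a / b` and `Norm_{F_{Nℓ}/α F_N}(β u) = c / d` with
`a b c d ∈ AN N`, then on all of `ℍ`
`ev c (z) * CP (ev b) (z) = ev d (z) * CP (ev a) (z)`, `CP f z = f(ℓ z) ∏_{j mod ℓ} f((z + j)/ℓ)`
(`CP = helper2982.tmulT ℓ`, the landed coset product).  This is `hcross` of
`helper2982.cpMerT_eq_of_cross` verbatim. -/
theorem norm_cross_of_evDatum {κ : Kbar →+* ℂ} {evN : helper3176.AN N →+* (ℍ → ℂ)}
    {evNl : helper3176.AN (N * ℓ) →+* (ℍ → ℂ)} (hℓN : ¬ ℓ ∣ N) (hN : EvDatum κ N evN)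
    (hNl : EvDatum κ (N * ℓ) evNl) (a b c d : helper3176.AN N) (hb : (b : FN N) ≠ 0)
    (hd : (d : FN N) ≠ 0)
    (h : helper8217.heckeFun (L := Kbar) N ℓ ((a : FN N) / (b : FN N)) = (c : FN N) / (d : FN N))
    (z : ℍ) :
    evN c z * helper2982.tmulT ℓ (evN b) z = evN d z * helper2982.tmulT ℓ (evN a) z := by
  classical
  have hmain := evMer_norm_alpha_beta hℓN hN hNl ((a : FN N) / (b : FN N))
  have h' : evMer hN ((c : FN N) / (d : FN N))
      = ∏ x : OnePoint (ZMod ℓ),
          pullGL (heckeRep ℓ x) (helper1856.det_heckeRep_pos x)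
            (evMer hN ((a : FN N) / (b : FN N))) := by
    rw [← h]; exact hmain
  have hEd : evMer hN (d : FN N) ≠ 0 := (map_ne_zero (evMer hN)).mpr hd
  have hEb : evMer hN (b : FN N) ≠ 0 := (map_ne_zero (evMer hN)).mpr hb
  have hPb : (∏ x : OnePoint (ZMod ℓ),
      pullGL (heckeRep ℓ x) (helper1856.det_heckeRep_pos x) (evMer hN (b : FN N))) ≠ 0 :=
    Finset.prod_ne_zero_iff.mpr fun x _ => (map_ne_zero _).mpr hEb
  simp only [map_div₀, Finset.prod_div_distrib] at h'
  rw [div_eq_div_iff hEd hPb] at h'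
  simp only [evMer_coe, pullGL_algebraMap, ← map_prod, ← map_mul] at h'
  have h2 := IsFractionRing.injective Hol Mer h'
  have h3 := congrFun (congrArg (fun f : Hol => (f : ℍ → ℂ)) h2) z
  have hprod : ∀ f : Hol, ((∏ x : OnePoint (ZMod ℓ),
      pullHolGL (heckeRep ℓ x) (helper1856.det_heckeRep_pos x) f : Hol) : ℍ → ℂ) z
      = helper2982.tmulT ℓ (f : ℍ → ℂ) z := by
    intro f
    have hl1 : ¬ ℓ ∣ 1 := (Fact.out : ℓ.Prime).not_dvd_one
    rw [← helper2982.tmul_corrT 1 ℓ hl1, helper2982.tmul_apply]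
    have e1 : ((∏ x : OnePoint (ZMod ℓ),
        pullHolGL (heckeRep ℓ x) (helper1856.det_heckeRep_pos x) f : Hol) : ℍ → ℂ)
        = ∏ x : OnePoint (ZMod ℓ),
          ((pullHolGL (heckeRep ℓ x) (helper1856.det_heckeRep_pos x) f : Hol) : ℍ → ℂ) :=
      map_prod (Hol.val : Hol →ₐ[ℂ] (ℍ → ℂ)) _ _
    rw [e1, Finset.prod_apply]
    rfl
  have h4 : ((eHol evN hN.mdiff c * ∏ x : OnePoint (ZMod ℓ),
      pullHolGL (heckeRep ℓ x) (helper1856.det_heckeRep_pos x) (eHol evN hN.mdiff b) : Hol) : ℍ → ℂ) z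
      = evN c z * helper2982.tmulT ℓ (evN b) z := by
    show (eHol evN hN.mdiff c : ℍ → ℂ) z * _ = _
    rw [hprod]; rfl
  have h5 : (((∏ x : OnePoint (ZMod ℓ),
      pullHolGL (heckeRep ℓ x) (helper1856.det_heckeRep_pos x) (eHol evN hN.mdiff a)) *
        eHol evN hN.mdiff d : Hol) : ℍ → ℂ) z
      = evN d z * helper2982.tmulT ℓ (evN a) z := by
    show _ * (eHol evN hN.mdiff d : ℍ → ℂ) z = _
    rw [hprod, mul_comm]; rfl
  rw [← h4, ← h5]
  exact h3

/-- **NORMQ (A) for the landed evaluation `helper6180.ev`** (the shape consumed by the pair-form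
`MultSpec.hecke`: `hcross` of `helper2982.cpMerT_eq_of_cross` / input of
`helper2982.tmulT_smul_frac`).  `helper8217.heckeFun N ℓ u` is by `rfl` the same as
`helper4824.heckeNormFun N ℓ u` and as `Norm_{F_{Nℓ}/α F_N} (β u)`. -/
theorem norm_cross_6180 (hℓN : ¬ ℓ ∣ N) (a b c d : helper3176.AN N) (hb : b ≠ 0) (hd : d ≠ 0)
    (h : helper8217.heckeFun (L := Kbar) N ℓ ((a : FN N) / (b : FN N)) = (c : FN N) / (d : FN N))
    (τ : ℍ) :
    helper6180.ev N c τ * helper2982.tmulT ℓ (helper6180.ev N b) τ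
      = helper6180.ev N d τ * helper2982.tmulT ℓ (helper6180.ev N a) τ :=
  norm_cross_of_evDatum hℓN (evDatum_6180 N) (evDatum_6180 (N * ℓ)) a b c d
    (fun h0 => hb (Subtype.ext h0)) (fun h0 => hd (Subtype.ext h0)) h τ

/-- NORMQ (A) for the landed evaluation `helper1944.evFun`. -/
theorem norm_cross_1944 (hℓN : ¬ ℓ ∣ N) (a b c d : helper3176.AN N) (hb : b ≠ 0) (hd : d ≠ 0)
    (h : helper8217.heckeFun (L := Kbar) N ℓ ((a : FN N) / (b : FN N)) = (c : FN N) / (d : FN N))
    (τ : ℍ) :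
    helper1944.evFun N (c : FN N) τ * helper2982.tmulT ℓ (helper1944.evFun N (b : FN N)) τ
      = helper1944.evFun N (d : FN N) τ * helper2982.tmulT ℓ (helper1944.evFun N (a : FN N)) τ :=
  norm_cross_of_evDatum hℓN (evDatum_1944 N) (evDatum_1944 (N * ℓ)) a b c d
    (fun h0 => hb (Subtype.ext h0)) (fun h0 => hd (Subtype.ext h0)) h τ

/-! ## The other landed copy of `Mer` (`helper182`) and the landed coset product `cpMerT` -/

theorem pullGL_congr {α β : GL (Fin 2) ℝ} (h : α = β) (hα : 0 < (α.det : ℝ))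
    (hβ : 0 < (β.det : ℝ)) : pullGL α hα = pullGL β hβ := by
  subst h; rfl

/-- The bridge `helper2122.merEquiv` intertwines the two `GL₂(ℝ)⁺`-pullbacks. -/
theorem merEquiv_pullGLMer (α : GL (Fin 2) ℝ) (hα : 0 < α.det.val) (z : helper182.Mer) :
    helper2122.merEquiv (helper2982.pullGLMer α hα z)
      = pullGL α hα (helper2122.merEquiv z) := by
  obtain ⟨a, b, hb, rfl⟩ := helper182.exists_div_eq z
  rw [map_div₀, map_div₀, helper2982.pullGLMer_algebraMap, helper2982.pullGLMer_algebraMap,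
    helper2122.merEquiv_algebraMap, helper2122.merEquiv_algebraMap, map_div₀,
    helper2122.merEquiv_algebraMap, helper2122.merEquiv_algebraMap, map_div₀,
    pullGL_algebraMap, pullGL_algebraMap]
  rfl

omit [NeZero N] in
/-- The landed coset product `helper2982.cpMerT` on `helper182.Mer` corresponds to the product
of the `pullGL (heckeRep ℓ x)` on `helper580.Mer`. -/
theorem merEquiv_cpMerT (hℓN : ¬ ℓ ∣ N) (z : helper182.Mer) :
    helper2122.merEquiv (helper2982.cpMerT N ℓ hℓN z)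
      = ∏ x : OnePoint (ZMod ℓ),
          pullGL (heckeRep ℓ x) (helper1856.det_heckeRep_pos x) (helper2122.merEquiv z) := by
  rw [helper2982.cpMerT, helper2982.cpMer_apply, map_prod]
  refine Finset.prod_congr rfl fun x _ => ?_
  rw [merEquiv_pullGLMer]
  exact congrArg (fun φ : Mer →+* Mer => φ (helper2122.merEquiv z))
    (pullGL_congr (by cases x <;> rfl) _ _)

/-- **NORMQ, `helper182.Mer`-valued, with the landed coset product** (general evaluation datum):
`E (heckeFun N ℓ u) = cpMerT N ℓ hℓN (E u)` for every ring hom `E : FN N → helper182.Mer` which is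
`evN` on `AN N`. -/
theorem norm_cpMerT_of_evDatum {κ : Kbar →+* ℂ} {evN : helper3176.AN N →+* (ℍ → ℂ)}
    {evNl : helper3176.AN (N * ℓ) →+* (ℍ → ℂ)} (hℓN : ¬ ℓ ∣ N) (hN : EvDatum κ N evN)
    (hNl : EvDatum κ (N * ℓ) evNl) (E : FN N →+* helper182.Mer)
    (hE : ∀ a : helper3176.AN N,
      E (a : FN N) = algebraMap helper182.Hol helper182.Mer ⟨evN a, hN.mdiff a⟩)
    (u : FN N) :
    E (helper8217.heckeFun (L := Kbar) N ℓ u) = helper2982.cpMerT N ℓ hℓN (E u) := by
  apply helper2122.merEquiv.injective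
  rw [merEquiv_cpMerT]
  exact norm_coset_of_evDatum hℓN hN hNl
    ((helper2122.merEquiv : helper182.Mer →+* Mer).comp E)
    (fun a => by
      rw [RingHom.comp_apply, hE, RingHom.coe_coe, helper2122.merEquiv_algebraMap]
      rfl) u

/-- NORMQ on `helper182.Mer` for the landed evaluation `helper6180.ev`. -/
theorem norm_cpMerT_6180 (hℓN : ¬ ℓ ∣ N) (E : FN N →+* helper182.Mer)
    (hE : ∀ a : helper3176.AN N,
      E (a : FN N) = algebraMap helper182.Hol helper182.Mer
        ⟨helper6180.ev N a, helper6180.mdiff_ev N a⟩)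
    (u : FN N) :
    E (helper8217.heckeFun (L := Kbar) N ℓ u) = helper2982.cpMerT N ℓ hℓN (E u) :=
  norm_cpMerT_of_evDatum hℓN (evDatum_6180 N) (evDatum_6180 (N * ℓ)) E hE u

/-- NORMQ on `helper182.Mer` for the landed evaluation `helper1944.evFun`. -/
theorem norm_cpMerT_1944 (hℓN : ¬ ℓ ∣ N) (E : FN N →+* helper182.Mer)
    (hE : ∀ a : helper3176.AN N,
      E (a : FN N) = algebraMap helper182.Hol helper182.Mer
        ⟨helper1944.evFun N (a : FN N), (helper1944.evGood_of_mem_AN N a.1 a.2).1⟩)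
    (u : FN N) :
    E (helper8217.heckeFun (L := Kbar) N ℓ u) = helper2982.cpMerT N ℓ hℓN (E u) :=
  norm_cpMerT_of_evDatum hℓN (evDatum_1944 N) (evDatum_1944 (N * ℓ)) E hE u

end forms

end

end Fermat.Agent.S29.helper1832
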