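import Fermat.Agent.S29.helper1736_CuspGermCore
import Fermat.Agent.S24.helper1200_CuspLocal
import Fermat.Agent.S24.helper6180_Ev

/-!
# S29-ANDIV (helper1736): the hypothesis "cusp-meromorphic" is automatic

For the evaluation `ev` of the function field of `X₀(N)` (any evaluation datum satisfying
`helper1200.IsEvGen`, in particular `helper6180.ev N`): if `A`, `B` are holomorphic on the upper
half plane, `B ≠ 0`, `(A / B) ^ n = ev (a / b)` with `n ≥ 1`, and `(A / B) ∘ g` is invariant under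
`τ ↦ τ + N`, then `(A / B) ∘ g` is a meromorphic function of `q^(1/N)` near `i∞`
(`exists_germ_of_root_gen`, `ratioCuspMer_of_root`).  This is the hypothesis `hcusp`
(`RatioCuspMer N A B g`) of the ANDIV statement of helper6324 (chat message 144); it therefore
follows from `hroot` and `hpar`.
-/

set_option autoImplicit false

open Filter Topology UpperHalfPlane Complex ModularCurve CongruenceSubgroup
open scoped MatrixGroups Manifold

namespace Fermat.Agent.S29.helper1736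

open Fermat.Agent.S24 Fermat.Agent.S24.helper24

theorem T_zpow_mem_Gamma (N : ℕ) : ModularGroup.T ^ (N : ℤ) ∈ CongruenceSubgroup.Gamma N := by
  rw [Gamma_mem]
  have h : (ModularGroup.T ^ (N : ℤ)).1 = !![1, (N : ℤ); 0, 1] := ModularGroup.coe_T_zpow (N : ℤ)
  have h00 : (ModularGroup.T ^ (N : ℤ)) 0 0 = 1 := by
    show (ModularGroup.T ^ (N : ℤ)).1 0 0 = 1
    rw [h]; rfl
  have h01 : (ModularGroup.T ^ (N : ℤ)) 0 1 = (N : ℤ) := by
    show (ModularGroup.T ^ (N : ℤ)).1 0 1 = (N : ℤ)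
    rw [h]; rfl
  have h10 : (ModularGroup.T ^ (N : ℤ)) 1 0 = 0 := by
    show (ModularGroup.T ^ (N : ℤ)).1 1 0 = 0
    rw [h]; rfl
  have h11 : (ModularGroup.T ^ (N : ℤ)) 1 1 = 1 := by
    show (ModularGroup.T ^ (N : ℤ)).1 1 1 = 1
    rw [h]; rfl
  rw [h00, h01, h10, h11]
  simp

/-- Every conjugate of `T ^ N` lies in `Γ₀(N)`. -/
theorem conj_T_zpow_mem_Gamma0 (N : ℕ) (g : SL(2, ℤ)) :
    g * ModularGroup.T ^ (N : ℤ) * g⁻¹ ∈ Gamma0 N := by
  have h1 : g * ModularGroup.T ^ (N : ℤ) * g⁻¹ ∈ CongruenceSubgroup.Gamma N :=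
    (Gamma_normal N).conj_mem _ (T_zpow_mem_Gamma N) g
  rw [Gamma_mem] at h1
  rw [Gamma0_mem]
  exact h1.2.2.1

section Gen

variable {N : ℕ} [NeZero N] {i0 : Kbar →+* ℂ} {e : helper3176.AN N →+* (ℍ → ℂ)}

theorem IsEvGen_mdiff (he : helper1200.IsEvGen N i0 e) (a : helper3176.AN N) : MDiff (e a) :=
  helper1200.mdiff_coe_Hol ⟨e a, he.mem_Hol a⟩

/-- The germ at the cusp of a conjugate of `e a`, `a ≠ 0`, is not identically zero. -/
theorem exists_germ_ne_zero (he : helper1200.IsEvGen N i0 e) (g : SL(2, ℤ))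
    (a : helper3176.AN N) (ha : a ≠ 0) :
    ∃ H : ℂ → ℂ, MeromorphicAt H 0 ∧ (∀ᶠ t in 𝓝[≠] (0 : ℂ), H t ≠ 0) ∧
      ∀ τ : ℍ, e a (g • τ) = H (Function.Periodic.qParam (N : ℝ) (τ : ℂ)) := by
  obtain ⟨H, hH, hH'⟩ := he.exists_germ g a
  refine ⟨H, hH, ?_, hH'⟩
  rcases hH.eventually_eq_zero_or_eventually_ne_zero with h0 | h0
  · exfalso
    have hev : ∀ᶠ τ : ℍ in atImInfty, e a (g • τ) = 0 := by
      filter_upwards [(tendsto_qParam_atImInfty N).eventually h0] with τ hτ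
      rw [hH' τ]
      exact hτ
    obtain ⟨c, hc⟩ := (atImInfty_mem _).mp hev
    have hmd : MDiff (fun τ : ℍ => e a (g • τ)) := mdiff_comp_smul_SL g (IsEvGen_mdiff he a)
    have hzero : (fun τ : ℍ => e a (g • τ)) = 0 := by
      by_contra hne
      obtain ⟨τ, hτ, hτ0⟩ := exists_ne_zero_of_im_gt hmd hne c
      exact hτ0 (hc τ hτ.le)
    apply ha
    apply he.inj
    rw [map_zero]
    funext τ
    have h1 := congrFun hzero (g⁻¹ • τ)
    simp only [smul_inv_smul] at h1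
    exact h1
  · exact h0

/-- **The cusp germ of a root** (generic evaluation datum). -/
theorem exists_germ_of_root_gen (he : helper1200.IsEvGen N i0 e) (n : ℕ) (hn : 0 < n)
    (a b : helper3176.AN N) (ha : a ≠ 0) (hb : b ≠ 0) (A B : ℍ → ℂ) (hA : MDiff A)
    (hB : MDiff B) (hB0 : B ≠ 0)
    (hroot : ∀ τ : ℍ, A τ ^ n * e b τ = B τ ^ n * e a τ) (g : SL(2, ℤ))
    (hper : ∀ τ : ℍ, A (g • (ModularGroup.T ^ N • τ)) * B (g • τ)
      = A (g • τ) * B (g • (ModularGroup.T ^ N • τ))) :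
    ∃ H : ℂ → ℂ, MeromorphicAt H 0 ∧
      ∀ᶠ τ : ℍ in atImInfty, A (g • τ) = H (Function.Periodic.qParam (N : ℝ) (τ : ℂ)) * B (g • τ) := by
  obtain ⟨Ha, hHa, hHa0, hHa'⟩ := exists_germ_ne_zero he g a ha
  obtain ⟨Hb, hHb, hHb0, hHb'⟩ := exists_germ_ne_zero he g b hb
  have hBg0 : (fun τ : ℍ => B (g • τ)) ≠ 0 := by
    intro h0
    apply hB0
    funext τ
    have h1 := congrFun h0 (g⁻¹ • τ)
    simp only [smul_inv_smul] at h1
    exact h1
  refine exists_germ_of_pow_eq N n hn (fun τ => A (g • τ)) (fun τ => B (g • τ))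
    (mdiff_comp_smul_SL g hA) (mdiff_comp_smul_SL g hB) hBg0 Ha Hb hHa hHb hHa0 hHb0
    (Eventually.of_forall fun τ => ?_) hper
  show A (g • τ) ^ n * Hb (Function.Periodic.qParam (N : ℝ) (τ : ℂ))
    = B (g • τ) ^ n * Ha (Function.Periodic.qParam (N : ℝ) (τ : ℂ))
  rw [← hHa' τ, ← hHb' τ]
  exact hroot (g • τ)

end Gen

/-- The evaluation `helper6180.evHom N` of the landed S24 closure is an evaluation datum in the
sense of `helper1200.IsEvGen`. -/
theorem isEvGen_evHom (N : ℕ) [NeZero N] :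
    helper1200.IsEvGen N helper6180.i0 (helper6180.evHom N) where
  const := helper6180.ev_algebraMap N
  gen := fun d _ hd => helper6180.ev_jBarD N d hd
  inj := helper6180.ev_injective N

/-- **`hcusp` for free**: the hypothesis `RatioCuspMer N A B g` of the ANDIV statement
(chat message 144), from `hroot` and `hpar`. -/
theorem ratioCuspMer_of_root (N : ℕ) [NeZero N] (n : ℕ) (hn : 0 < n) (a b : helper3176.AN N)
    (ha : a ≠ 0) (hb : b ≠ 0) (A B : ℍ → ℂ) (hA : MDiff A) (hB : MDiff B) (hB0 : B ≠ 0)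
    (hroot : ∀ τ : ℍ, A τ ^ n * helper6180.ev N b τ = B τ ^ n * helper6180.ev N a τ)
    (hpar : ∀ (g : SL(2, ℤ)) (k : ℤ), g⁻¹ * ModularGroup.T ^ k * g ∈ Gamma0 N →
      ∀ τ : ℍ, A ((g⁻¹ * ModularGroup.T ^ k * g) • τ) * B τ
        = A τ * B ((g⁻¹ * ModularGroup.T ^ k * g) • τ))
    (g : SL(2, ℤ)) :
    ∃ H : ℂ → ℂ, MeromorphicAt H 0 ∧
      ∀ᶠ τ : ℍ in atImInfty, A (g • τ) = H (Function.Periodic.qParam (N : ℝ) (τ : ℂ)) * B (g • τ) := by
  refine exists_germ_of_root_gen (isEvGen_evHom N) n hn a b ha hb A B hA hB hB0 hroot g ?_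
  intro τ
  have hmem : (g⁻¹)⁻¹ * ModularGroup.T ^ (N : ℤ) * g⁻¹ ∈ Gamma0 N := by
    rw [inv_inv]
    exact conj_T_zpow_mem_Gamma0 N g
  have h := hpar g⁻¹ (N : ℤ) hmem (g • τ)
  have h2 : ((g⁻¹)⁻¹ * ModularGroup.T ^ (N : ℤ) * g⁻¹) • g • τ = g • (ModularGroup.T ^ N • τ) := by
    rw [inv_inv, zpow_natCast, ← mul_smul, ← mul_smul]
    congr 1
    group
  rw [h2] at h
  exact h

end Fermat.Agent.S29.helper1736
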