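import Fermat.Agent.S29.helper1736_AnDivNorm
import Fermat.Agent.S29.helper1736_CuspGerm

/-!
# S29-ANDIV (helper6324): divisor divisibility from an analytic `n`-th root

`u = a / b` in the function field `FN N` of `X₀(N)` over `ℚ̄`, `a b : AN N = ℚ̄[j(q^d) : d ∣ N]`,
and `A B` holomorphic on the upper half plane with `(A / B) ^ n = ev (a / b)`
(`ev = helper6180.ev N`, the evaluation of the verified S24 closure), the ratio `A / B` being
invariant under the finite order elements and the unipotent elements of `Γ₀(N)`.  Then the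
order of `u` at EVERY place of `FN N` over `ℚ̄` is divisible by `n`.

* `dvd_ord_cusp` : the places over `j = ∞` (this file: the cusp local datum of
  `helper1200_CuspLocal` made explicit, fed into `helper1736.dvd_ord_of_localData`);
* `dvd_ord_of_analytic_root` : all places, with the hypothesis `hcusp`
  (finite places: `helper1736.dvd_ord_finite_ev`);
* `dvd_ord_of_root_pair` : all places, WITHOUT `hcusp` (`helper1736.ratioCuspMer_of_root`).
-/

set_option autoImplicit false

open ModularCurve CongruenceSubgroup UpperHalfPlane Filter AlgebraicCurve IntermediateField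
open scoped MatrixGroups Manifold

namespace Fermat.Agent.S29.helper6324

open Fermat.Agent.S24 Fermat.Agent.S24.helper24

/-- The ratio `A / B` of two functions on the upper half plane is invariant under `γ`
(cross-multiplied form). -/
def RatioInv (A B : ℍ → ℂ) (γ : SL(2, ℤ)) : Prop :=
  ∀ τ : ℍ, A (γ • τ) * B τ = A τ * B (γ • τ)

/-- The ratio `(A / B) ∘ g` is, near `i∞`, a meromorphic function of `exp (2πiτ/N)`. -/
def RatioCuspMer (N : ℕ) (A B : ℍ → ℂ) (g : SL(2, ℤ)) : Prop :=
  ∃ H : ℂ → ℂ, MeromorphicAt H 0 ∧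
    ∀ᶠ τ : ℍ in atImInfty, A (g • τ) = H (Function.Periodic.qParam (N : ℝ) (τ : ℂ)) * B (g • τ)

section Aux

open Fermat.Agent.S24.helper1200

/-- The class of `f ∘ g` in the field of meromorphic functions. -/
noncomputable def merAt (g : SL(2, ℤ)) (f : helper1200.Hol) : helper1200.Mer :=
  algebraMap helper1200.Hol helper1200.Mer (compHol g f)

theorem merAt_ne_zero (g : SL(2, ℤ)) {f : helper1200.Hol} (hf : f ≠ 0) : merAt g f ≠ 0 := by
  intro h
  apply hf
  apply compHol_injective g
  rw [map_zero]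
  exact IsFractionRing.injective helper1200.Hol helper1200.Mer (by rw [map_zero]; exact h)

/-- Powers of the translation on classes of holomorphic functions. -/
theorem sigma_pow_merAt (k : ℕ) (g : SL(2, ℤ)) (f : helper1200.Hol) :
    (holShiftData.σ ^ k) (merAt g f) = merAt (g * ModularGroup.T ^ k) f := by
  induction k with
  | zero => rw [pow_zero, pow_zero, mul_one]; rfl
  | succ k ih =>
    have e : (holShiftData.σ ^ (k + 1)) (merAt g f) = holShiftData.σ ((holShiftData.σ ^ k) (merAt g f)) := by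
      rw [pow_succ']
      rfl
    rw [e, ih]
    show holShiftData.σ (algebraMap helper1200.Hol helper1200.Mer
      (compHol (g * ModularGroup.T ^ k) f)) = _
    rw [holShiftData.hσ]
    show algebraMap helper1200.Hol helper1200.Mer
      (compHol ModularGroup.T (compHol (g * ModularGroup.T ^ k) f)) = _
    rw [compHol_compHol, mul_assoc, ← pow_succ]
    rfl

/-- Equality of two ratios of classes of holomorphic functions from the pointwise
cross-multiplied identity. -/
theorem merAt_div_eq {g g' : SL(2, ℤ)} {f₁ f₂ : helper1200.Hol} (h2 : f₂ ≠ 0)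
    (h : ∀ τ : ℍ, (f₁ : ℍ → ℂ) (g • τ) * (f₂ : ℍ → ℂ) (g' • τ)
      = (f₁ : ℍ → ℂ) (g' • τ) * (f₂ : ℍ → ℂ) (g • τ)) :
    merAt g f₁ / merAt g f₂ = merAt g' f₁ / merAt g' f₂ := by
  rw [div_eq_div_iff (merAt_ne_zero g h2) (merAt_ne_zero g' h2)]
  unfold merAt
  rw [← map_mul, ← map_mul]
  congr 1
  apply Subtype.ext
  funext τ
  exact h τ

end Aux

/-- **ANDIV, cusp half**: divisibility of the orders at the places over `j = ∞`. -/
theorem dvd_ord_cusp (N : ℕ) [NeZero N] (n : ℕ) (a b : helper3176.AN N) (ha : a ≠ 0)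
    (hb : b ≠ 0) (A B : ℍ → ℂ) (hA : MDiff A) (hB : MDiff B) (hB0 : B ≠ 0)
    (hroot : ∀ τ : ℍ, A τ ^ n * helper6180.ev N b τ = B τ ^ n * helper6180.ev N a τ)
    (hpar : ∀ (g : SL(2, ℤ)) (k : ℤ), g⁻¹ * ModularGroup.T ^ k * g ∈ Gamma0 N →
      RatioInv A B (g⁻¹ * ModularGroup.T ^ k * g))
    (hcusp : ∀ g : SL(2, ℤ), RatioCuspMer N A B g)
    (v : Place Kbar (FN N)) (hv : v.ord (jBar N) < 0) :
    (n : ℤ) ∣ v.ord ((a : FN N) / (b : FN N)) := by
  classical
  have h := helper1736.isEvGen_evHom N
  let alg : Algebra Kbar helper1200.Mer :=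
    ((algebraMap helper1200.Hol helper1200.Mer).comp
      (helper1200.constHol.comp helper6180.i0)).toAlgebra
  have halg : ∀ c : Kbar, algebraMap Kbar helper1200.Mer c
      = algebraMap helper1200.Hol helper1200.Mer (helper1200.constHol (helper6180.i0 c)) :=
    fun _ => rfl
  have hK : helper1200.ConstantsAreConst helper1200.holEv helper1200.Mer Kbar :=
    fun c => ⟨helper1200.constHol (helper6180.i0 c), helper6180.i0 c, halg c, fun τ => rfl⟩
  have hid := helper1200.identityAtCusp_holEv
  have hcomm : ∀ (g : SL(2, ℤ)) (c : Kbar),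
      h.iotaG g (algebraMap Kbar (FN N) c) = algebraMap Kbar helper1200.Mer c := by
    intro g c
    have h1 : h.iotaG g ((algebraMap Kbar (helper3176.AN N) c : helper3176.AN N) : FN N)
        = h.phi g (algebraMap Kbar (helper3176.AN N) c) := h.iotaG_coe g _
    rw [show ((algebraMap Kbar (helper3176.AN N) c : helper3176.AN N) : FN N)
      = algebraMap Kbar (FN N) c from rfl] at h1
    rw [h1, h.phi_apply, halg]
    congr 1
    apply Subtype.ext
    funext τ
    rw [helper1200.compHol_apply, h.evHol_apply, h.const c]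
    rfl
  let ι : XN N → (FN N →ₐ[Kbar] helper1200.Mer) := fun x =>
    { h.iotaG x.out with commutes' := fun c => hcomm x.out c }
  have hι_apply : ∀ x f, ι x f = h.iotaG x.out f := fun _ _ => rfl
  have hι : Function.Injective ι := by
    intro x x' hxx'
    have h1 : h.iotaG x.out = h.iotaG x'.out := by
      ext f
      rw [← hι_apply, ← hι_apply, hxx']
    have h2 := h.mem_of_iotaG_eq h1
    have h3 : (QuotientGroup.mk x.out : XN N) = QuotientGroup.mk x'.out :=
      QuotientGroup.eq.mpr h2
    rwa [QuotientGroup.out_eq', QuotientGroup.out_eq'] at h3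
  have hmem : ∀ x f, ∃ H, helper1200.IsCuspGerm helper1200.holEv helper1200.Mer N (ι x f) H :=
    fun x f => h.isCuspGerm_iotaG x.out f
  have hξ : ∀ x, ι x (jBar N)⁻¹
      = (algebraMap helper1200.Hol helper1200.Mer helper1200.jHol)⁻¹ := by
    intro x
    rw [hι_apply, map_inv₀, h.iotaG_jBar]
  have hρ : ∀ x f, helper1200.holShiftData.σ (ι x f) = ι (ModularGroup.T⁻¹ • x) f := by
    intro x f
    rw [hι_apply, hι_apply, h.sigma_iotaG]
    have h1 : (QuotientGroup.mk (ModularGroup.T⁻¹ * x.out) : XN N)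
        = QuotientGroup.mk (ModularGroup.T⁻¹ • x).out := by
      rw [QuotientGroup.out_eq']
      conv_rhs => rw [← QuotientGroup.out_eq' x]
      rfl
    rw [h.iotaG_eq_of_mem (QuotientGroup.eq.mp h1)]
  -- the explicit local datum
  let S := helper1200.holShiftData
  let Ω := helper1200.cuspIF helper1200.holEv helper1200.Mer N hid hK
  let w : AddValuation Ω (WithTop ℤ) :=
    helper1200.cuspValIF helper1200.holEv helper1200.Mer N hid hK
  let ι' : XN N → (FN N →ₐ[Kbar] Ω) := fun i => (ι i).codRestrict Ω.toSubalgebra (hmem i)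
  let σ : Ω ≃ₐ[Kbar] Ω := helper1200.cuspSigmaIF helper1200.holEv helper1200.Mer N hid hK S
  let ξ' : Ω := ⟨(algebraMap helper1200.Hol helper1200.Mer helper1200.jHol)⁻¹,
    _, helper1200.isCuspGerm_jHol_inv N⟩
  -- the holomorphic functions `A`, `B`
  let A' : helper1200.Hol := ⟨A, helper1200.mem_Hol_of_mdiff hA⟩
  let B' : helper1200.Hol := ⟨B, helper1200.mem_Hol_of_mdiff hB⟩
  have hB' : B' ≠ 0 := fun h0 => hB0 (congrArg Subtype.val h0)
  -- the roots
  have hWmem : ∀ i : XN N, ∃ H, helper1200.IsCuspGerm helper1200.holEv helper1200.Mer N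
      (merAt i.out⁻¹ A' / merAt i.out⁻¹ B') H := by
    intro i
    obtain ⟨H, hH, hev⟩ := hcusp i.out⁻¹
    refine ⟨H, hH, helper1200.compHol i.out⁻¹ A', helper1200.compHol i.out⁻¹ B', ?_, ?_, ?_⟩
    · intro h0
      exact hB' (helper1200.compHol_injective i.out⁻¹ (by rw [map_zero]; exact h0))
    · show merAt i.out⁻¹ A' = merAt i.out⁻¹ A' / merAt i.out⁻¹ B' * merAt i.out⁻¹ B'
      rw [div_mul_cancel₀ _ (merAt_ne_zero _ hB')]
    · exact hev
  let W : XN N → Ω := fun i => ⟨merAt i.out⁻¹ A' / merAt i.out⁻¹ B', hWmem i⟩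
  have hu : ((a : FN N) / (b : FN N)) ≠ 0 :=
    div_ne_zero (fun h0 => ha (Subtype.ext h0)) (fun h0 => hb (Subtype.ext h0))
  have hv' : 0 < v.ord (jBar N)⁻¹ := by
    rw [Place.ord_inv]
    omega
  refine helper1736.dvd_ord_of_localData N (jBar N)⁻¹
    (helper1635.transcendental_inv (helper3176.stmt_JTranscendental N))
    (helper1635.adjoin_inv (K := Kbar) (jBar N)) w ι' σ ξ' N ModularGroup.T
    ?_ ?_ ?_ (NeZero.pos N) ?_ ?_ (Or.inr ?_) ?_ n ((a : FN N) / (b : FN N)) hu W ?_ ?_ v hv'
  · -- constants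
    intro c hc
    exact helper1200.cuspOrd_algebraMap hid hK hc
  · -- injectivity
    intro i i' hii'
    apply hι
    ext f
    have := congrArg (fun φ : FN N →ₐ[Kbar] Ω => ((φ f : Ω) : helper1200.Mer)) hii'
    exact this
  · intro i
    exact Subtype.ext (hξ i)
  · show helper1200.cuspOrd helper1200.holEv helper1200.Mer N
      (algebraMap helper1200.Hol helper1200.Mer helper1200.jHol)⁻¹ = _
    exact ((helper1200.isCuspGerm_jHol_inv N).cuspOrd_eq hid).trans
      (helper1200.meromorphicOrderAt_JcInv_pow N)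
  · intro z
    obtain ⟨H, hH⟩ := z.2
    exact hH.cuspOrd_sigma hid S
  · intro i f
    exact Subtype.ext (hρ i f)
  · intro k z hz hk
    obtain ⟨H, hH⟩ := z.2
    have hz' : (z : helper1200.Mer) ≠ 0 := fun h0 => hz (Subtype.ext h0)
    have hk' : (S.σ ^ k) (z : helper1200.Mer) = z := by
      rw [← helper1200.coe_cuspSigmaIF_pow hid hK S k z, hk]
    exact hH.exists_cuspOrd_eq_of_fixed hid S hz' k hk'
  · -- the roots are roots
    intro i
    apply Subtype.ext
    show (merAt i.out⁻¹ A' / merAt i.out⁻¹ B') ^ n = h.iotaG i.out ((a : FN N) / (b : FN N))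
    rw [map_div₀, h.iotaG_coe, h.iotaG_coe, h.phi_apply, h.phi_apply, div_pow]
    have hbne : algebraMap helper1200.Hol helper1200.Mer
        (helper1200.compHol i.out⁻¹ (h.evHol b)) ≠ 0 := by
      intro h0
      apply hb
      apply h.evHol_injective
      apply helper1200.compHol_injective i.out⁻¹
      rw [map_zero, map_zero]
      exact IsFractionRing.injective helper1200.Hol helper1200.Mer (by rw [map_zero]; exact h0)
    rw [div_eq_div_iff (pow_ne_zero n (merAt_ne_zero _ hB')) hbne]
    have key : helper1200.compHol i.out⁻¹ A' ^ n * helper1200.compHol i.out⁻¹ (h.evHol b)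
        = helper1200.compHol i.out⁻¹ (h.evHol a) * helper1200.compHol i.out⁻¹ B' ^ n := by
      apply Subtype.ext
      funext τ
      have h1 := hroot (i.out⁻¹ • τ)
      show A (i.out⁻¹ • τ) ^ n * helper6180.ev N b (i.out⁻¹ • τ)
        = helper6180.ev N a (i.out⁻¹ • τ) * B (i.out⁻¹ • τ) ^ n
      rw [h1, mul_comm]
    have key2 := congrArg (algebraMap helper1200.Hol helper1200.Mer) key
    rw [map_mul, map_mul, map_pow, map_pow] at key2
    exact key2
  · -- the roots are fixed by the stabilizers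
    intro i k hk
    apply Subtype.ext
    rw [helper1200.coe_cuspSigmaIF_pow hid hK S k (W i)]
    show (S.σ ^ k) (merAt i.out⁻¹ A' / merAt i.out⁻¹ B') = merAt i.out⁻¹ A' / merAt i.out⁻¹ B'
    rw [map_div₀, sigma_pow_merAt, sigma_pow_merAt]
    have hmemΓ : i.out⁻¹ * ModularGroup.T ^ (k : ℤ) * i.out ∈ Gamma0 N := by
      have h1 : (QuotientGroup.mk (ModularGroup.T ^ k * i.out) : XN N)
          = QuotientGroup.mk i.out := by
        rw [QuotientGroup.out_eq']
        conv_rhs => rw [← hk]
        conv_rhs => rw [← QuotientGroup.out_eq' i]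
        rfl
      have h2 := (Gamma0 N).inv_mem (QuotientGroup.eq.mp h1)
      have h3 : ((ModularGroup.T ^ k * i.out)⁻¹ * i.out)⁻¹
          = i.out⁻¹ * ModularGroup.T ^ (k : ℤ) * i.out := by
        rw [zpow_natCast]
        group
      rw [h3] at h2
      exact h2
    have hinv := hpar i.out (k : ℤ) hmemΓ
    refine merAt_div_eq hB' fun τ => ?_
    have h4 := hinv (i.out⁻¹ • τ)
    have h5 : (i.out⁻¹ * ModularGroup.T ^ (k : ℤ) * i.out) • i.out⁻¹ • τ
        = (i.out⁻¹ * ModularGroup.T ^ k) • τ := by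
      rw [← mul_smul, zpow_natCast]
      congr 1
      group
    rw [h5] at h4
    exact h4

/-- **ANDIV**: if `(A / B) ^ n = ev (a / b)` with `A`, `B` holomorphic on the upper half plane,
`A / B` invariant under the finite order elements and the unipotent elements of `Γ₀(N)` and
meromorphic at every cusp, then `n` divides the order of `a / b` at every place. -/
theorem dvd_ord_of_analytic_root (N : ℕ) [NeZero N] (n : ℕ) (a b : helper3176.AN N) (ha : a ≠ 0)
    (hb : b ≠ 0) (A B : ℍ → ℂ) (hA : MDiff A) (hB : MDiff B) (hB0 : B ≠ 0)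
    (hroot : ∀ τ : ℍ, A τ ^ n * helper6180.ev N b τ = B τ ^ n * helper6180.ev N a τ)
    (hfin : ∀ γ ∈ Gamma0 N, IsOfFinOrder γ → RatioInv A B γ)
    (hpar : ∀ (g : SL(2, ℤ)) (k : ℤ), g⁻¹ * ModularGroup.T ^ k * g ∈ Gamma0 N →
      RatioInv A B (g⁻¹ * ModularGroup.T ^ k * g))
    (hcusp : ∀ g : SL(2, ℤ), RatioCuspMer N A B g)
    (v : Place Kbar (FN N)) :
    (n : ℤ) ∣ v.ord ((a : FN N) / (b : FN N)) := by
  rcases lt_or_ge (v.ord (jBar N)) 0 with h | h
  · exact dvd_ord_cusp N n a b ha hb A B hA hB hB0 hroot hpar hcusp v h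
  · exact helper1736.dvd_ord_finite_ev N n a b ha hb A B hA hB hB0 hroot hfin v h

/-- **ANDIV, final form** (no hypothesis at the cusps): if `(A / B) ^ n = ev (a / b)` with `A`,
`B` holomorphic on the upper half plane and `A / B` invariant under the finite order elements
and the unipotent elements of `Γ₀(N)`, then `n` divides the order of `a / b` at every place of
the function field of `X₀(N)` over `ℚ̄`. -/
theorem dvd_ord_of_root_pair (N : ℕ) [NeZero N] (n : ℕ) (a b : helper3176.AN N) (ha : a ≠ 0)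
    (hb : b ≠ 0) (A B : ℍ → ℂ) (hA : MDiff A) (hB : MDiff B) (hB0 : B ≠ 0)
    (hroot : ∀ τ : ℍ, A τ ^ n * helper6180.ev N b τ = B τ ^ n * helper6180.ev N a τ)
    (hfin : ∀ γ ∈ Gamma0 N, IsOfFinOrder γ →
      ∀ τ : ℍ, A (γ • τ) * B τ = A τ * B (γ • τ))
    (hpar : ∀ (g : SL(2, ℤ)) (k : ℤ), g⁻¹ * ModularGroup.T ^ k * g ∈ Gamma0 N →
      ∀ τ : ℍ, A ((g⁻¹ * ModularGroup.T ^ k * g) • τ) * B τ
        = A τ * B ((g⁻¹ * ModularGroup.T ^ k * g) • τ))
    (v : Place Kbar (FN N)) :
    (n : ℤ) ∣ v.ord ((a : FN N) / (b : FN N)) := by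
  rcases Nat.eq_zero_or_pos n with hn | hn
  · -- `n = 0`: then `ev a = ev b`, so `a / b = 1`
    subst hn
    have hab : a = b := by
      apply helper6180.ev_injective N
      funext τ
      have h1 := hroot τ
      rw [pow_zero, pow_zero, one_mul, one_mul] at h1
      exact h1.symm
    rw [hab, div_self (fun h0 => hb (Subtype.ext h0))]
    simp
  · exact dvd_ord_of_analytic_root N n a b ha hb A B hA hB hB0 hroot hfin hpar
      (fun g => helper1736.ratioCuspMer_of_root N n hn a b ha hb A B hA hB hB0 hroot hpar g) v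

end Fermat.Agent.S29.helper6324
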