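import Fermat.Agent.S29.helper1590_OccJZero
import Fermat.Agent.S29.helper485_GaussGal
import Fermat.Agent.S29.helper405_ESFinal
import Fermat.Agent.S29.helper288_RatioInFC
import Fermat.Agent.S29.helper3932_DescC
import Fermat.Agent.S31.helper2756_MultMer

/-!
# S29: the final wire

The frozen statement S29 from the three remaining inputs, each in the exact shape in which its
owner exports it:

* `KF0All` : the Kummer field form of S18 with an exact `m`-th power on the special fibre
  (`S18.helper3054.Stmt_KF0`), at every level `N` and every prime `ℓ ∤ N`;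
* `ESModAll` : the Eichler–Shimura relation on the `m`-torsion of `J₀(N)`, for every modulus
  `m` prime to `ℓ` (the unfolded shape of `S30.helper831.Stmt_ESMod`);
* `MultSpecAll` : the analytic Kummer dictionary at prime modulus (`S31.helper2756.MultSpec`).

Everything else (generator-Chebotarev, the dimension-two argument, the occurrence assembly, the
inertia statement (U) from the Kummer form) is on main and is plugged in here.
-/

set_option autoImplicit false

noncomputable section

namespace Fermat.Agent.S29.helper5782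

open ModularCurve AlgebraicCurve CuspForm CuspForm.IsNormalizedEigenform
open Fermat.Agent.S18.helper3054

/-- The S18 export: the Kummer field form `Stmt_KF0` at every level and every good prime. -/
def KF0All : Prop :=
  ∀ (N : ℕ) [NeZero N] (ℓ : ℕ), ℓ.Prime → ¬ ℓ ∣ N → Stmt_KF0 N ℓ

/-- The Kummer field form with a constant on the special fibre, at every level and every good
prime. -/
def KFAll : Prop :=
  ∀ (N : ℕ) [NeZero N] (ℓ : ℕ), ℓ.Prime → ¬ ℓ ∣ N → Stmt_KF N ℓ

/-- (ES) for an arbitrary modulus `m` prime to `ℓ` (unfolded shape of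
`S30.helper831.Stmt_ESMod`). -/
def ESModAll : Prop :=
  ∀ (N : ℕ) [NeZero N] (m : ℕ) (ℓ : ℕ) (hℓ : ℓ.Prime), ¬ ℓ ∣ N → ¬ ℓ ∣ m →
    ∀ A : ValuationSubring (AlgebraicClosure ℚ), A.LiesOverPrime ℓ →
      ∀ σ : (AlgebraicClosure ℚ ≃ₐ[ℚ] AlgebraicClosure ℚ), A.IsFrobeniusAt σ ℓ →
        ∀ x : JZero N, m • x = 0 →
          σ • σ • x - heckeOperatorBar N ⟨ℓ, hℓ⟩ (σ • x) + ℓ • x = 0

/-- The analytic Kummer dictionary at every level and every prime modulus. -/
def MultSpecAll : Prop :=
  ∀ (N : ℕ) [NeZero N] (p : ℕ), p.Prime →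
    ∃ Mult : modularFunctionFieldBar N → (Additive (CongruenceSubgroup.Gamma0 N) →+ ℤ) → Prop,
      Fermat.Agent.S31.helper2756.MultSpec N p Mult

/-- `Stmt_KF0` at all levels gives `Stmt_KF` at all levels (the residue fields of the places of
`ℚ̄` are algebraically closed). -/
theorem kfAll_of_kf0All (h : KF0All) : KFAll := fun N _ ℓ hℓ hℓN =>
  kf_of_kf0 N ℓ (fun A _ => Fermat.Agent.Lib.helper6879.isAlgClosed_residueField A)
    (h N ℓ hℓ hℓN)

/-- (UES) from the Kummer form and (ES). -/
theorem stmt_UnrES_of (hKF : KFAll) (hES : ESModAll) :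
    Fermat.Agent.S29.helper405.Stmt_UnrES := by
  intro N _ p hp
  refine ⟨Fermat.Agent.S29.helper485.stmt_U_of_kf hKF N p hp, ?_⟩
  intro ℓ hℓ hℓNp A hA σ hσ x hx
  have hℓN : ¬ ℓ ∣ N := fun h => hℓNp (h.mul_right p)
  have hℓp : ¬ ℓ ∣ p := fun h => hℓNp (h.mul_left N)
  exact hES N p ℓ hℓ hℓN hℓp A hA σ hσ x hx

/-- **Frozen S29 from the Kummer form `KF`, (ES) and the Kummer dictionary.** -/
theorem result_of_kf (hKF : KFAll) (hES : ESModAll) (hM : MultSpecAll)
    {N : ℕ} {g : CuspForm (CongruenceSubgroup.Gamma0 N) 2} (hg : g.IsNormalizedEigenform)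
    {p : ℕ} (hp : p.Prime) {k : Type} [Field k] [CharP k p]
    (φ : integralClosure ℤ ℂ →+* k) :
    ∃ ρ : ResidualGaloisRep k, ρ.IsAttachedTo g φ ∧
      ∀ ℓ : ℕ, ℓ.Prime → ¬ ℓ ∣ N * p → ρ.IsUnramifiedAt ℓ :=
  Fermat.Agent.S29.helper1590.result_of_multSpec (stmt_UnrES_of hKF hES) hM hg hp φ

/-- **Frozen S29 from the S18 export `KF0`, (ES) and the Kummer dictionary.** -/
theorem result_of_kf0 (hKF0 : KF0All) (hES : ESModAll) (hM : MultSpecAll)
    {N : ℕ} {g : CuspForm (CongruenceSubgroup.Gamma0 N) 2} (hg : g.IsNormalizedEigenform)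
    {p : ℕ} (hp : p.Prime) {k : Type} [Field k] [CharP k p]
    (φ : integralClosure ℤ ℂ →+* k) :
    ∃ ρ : ResidualGaloisRep k, ρ.IsAttachedTo g φ ∧
      ∀ ℓ : ℕ, ℓ.Prime → ¬ ℓ ∣ N * p → ρ.IsUnramifiedAt ℓ :=
  result_of_kf (kfAll_of_kf0All hKF0) hES hM hg hp φ

/-! ### The two S29-internal inputs are theorems -/

/-- **(ES) for every modulus**, from the S18 export (`helper405_ESFinal`). -/
theorem esModAll_of_kf0All (hKF0 : KF0All) : ESModAll :=
  Fermat.Agent.S29.helper405.stmt_ESMod_of_kf0 hKF0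

/-- **The analytic Kummer dictionary at every level and every prime modulus**, unconditionally
(`helper2756_MultMer` with the two descent inputs `helper288.ratioInFC`, `helper3932.descC`). -/
theorem multSpecAll : MultSpecAll := fun N _ p hp =>
  Fermat.Agent.S31.helper2756.exists_multSpec_of_desc hp.ne_zero
    (Fermat.Agent.S29.helper288.ratioInFC N) (Fermat.Agent.S29.helper3932.descC N p)

/-- **Frozen S29 from the S18 export `KF0` alone.** -/
theorem result_of_kf0All (hKF0 : KF0All)
    {N : ℕ} {g : CuspForm (CongruenceSubgroup.Gamma0 N) 2} (hg : g.IsNormalizedEigenform)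
    {p : ℕ} (hp : p.Prime) {k : Type} [Field k] [CharP k p]
    (φ : integralClosure ℤ ℂ →+* k) :
    ∃ ρ : ResidualGaloisRep k, ρ.IsAttachedTo g φ ∧
      ∀ ℓ : ℕ, ℓ.Prime → ¬ ℓ ∣ N * p → ρ.IsUnramifiedAt ℓ :=
  result_of_kf0 hKF0 (esModAll_of_kf0All hKF0) multSpecAll hg hp φ

end Fermat.Agent.S29.helper5782
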