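/-
S29 (generator-Chebotarev, analytic core; seat helper141).

`normCount M ℓ` := number of ideals of `𝓞 M` of absolute norm `ℓ` (for `ℓ` prime: the number of
degree-one primes of `M` above `ℓ`).

* `normCount_asymp` : `∑_ℓ normCount M ℓ * ℓ^(-s) = log (1/(s-1)) + O(1)` on `(1,2)`.
* `exists_prime_linear_form_pos` : **linear-form zeta lemma.**  For finitely many number fields
  `M i` and integers `c i` with `∑ c i > 0`, and every finite set `T`, there is a prime `ℓ ∉ T`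
  with `∑ i, c i * normCount (M i) ℓ > 0`.
-/
import Mathlib
import Fermat.Agent.S14.helper2850_PrimeSums

set_option autoImplicit false

open NumberField Ideal IsDedekindDomain

namespace Fermat.Agent.S29.helper141

noncomputable section

/-- The number of ideals of `𝓞 M` of absolute norm `ℓ`. -/
def normCount (M : Type) [Field M] [NumberField M] (ℓ : ℕ) : ℕ :=
  Nat.card {I : Ideal (𝓞 M) // Ideal.absNorm I = ℓ}

section OneField

variable (M : Type) [Field M] [NumberField M]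

instance finite_normFiber (ℓ : ℕ) : Finite {I : Ideal (𝓞 M) // Ideal.absNorm I = ℓ} :=
  (Ideal.finite_setOfPred_absNorm_eq (S := 𝓞 M) ℓ).to_subtype

/-- The primes of norm `ℓ`. -/
abbrev PrimeFiber (ℓ : ℕ) : Type :=
  {v : HeightOneSpectrum (𝓞 M) // Ideal.absNorm v.asIdeal = ℓ}

/-- For a prime number `ℓ`, the ideals of norm `ℓ` are the primes of norm `ℓ`. -/
def primeFiberEquiv {ℓ : ℕ} (hℓ : ℓ.Prime) :
    PrimeFiber M ℓ ≃ {I : Ideal (𝓞 M) // Ideal.absNorm I = ℓ} where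
  toFun v := ⟨v.1.asIdeal, v.2⟩
  invFun I := ⟨⟨I.1, Ideal.isPrime_of_irreducible_absNorm (by rw [I.2]; exact hℓ),
    by
      intro h
      have h2 := I.2
      rw [h, Ideal.absNorm_bot] at h2
      exact hℓ.ne_zero h2.symm⟩, I.2⟩
  left_inv v := Subtype.ext (HeightOneSpectrum.ext rfl)
  right_inv I := rfl

instance finite_primeFiber (ℓ : ℕ) : Finite (PrimeFiber M ℓ) :=
  Finite.of_injective (fun v : PrimeFiber M ℓ ↦
    (⟨v.1.asIdeal, v.2⟩ : {I : Ideal (𝓞 M) // Ideal.absNorm I = ℓ}))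
    (fun _ _ h ↦ Subtype.ext (HeightOneSpectrum.ext (congrArg Subtype.val h)))

/-- For a prime number `ℓ`, `normCount M ℓ` is the number of primes of `M` of norm `ℓ`. -/
theorem normCount_eq_card_primes {ℓ : ℕ} (hℓ : ℓ.Prime) :
    normCount M ℓ = Nat.card (PrimeFiber M ℓ) :=
  (Nat.card_congr (primeFiberEquiv M hℓ)).symm

/-- The degree-one primes, fibred over the prime numbers. -/
def degOneEquiv :
    (Σ ℓ : Nat.Primes, PrimeFiber M ℓ) ≃
      {v : HeightOneSpectrum (𝓞 M) // (Ideal.absNorm v.asIdeal).Prime} where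
  toFun p := ⟨p.2.1, by rw [p.2.2]; exact p.1.2⟩
  invFun v := ⟨⟨Ideal.absNorm v.1.asIdeal, v.2⟩, ⟨v.1, rfl⟩⟩
  left_inv := by
    rintro ⟨⟨ℓ, hℓ⟩, ⟨v, hv⟩⟩
    change Ideal.absNorm v.asIdeal = ℓ at hv
    subst hv
    rfl
  right_inv v := rfl

/-- The degree-one prime sum as a sum over prime numbers. -/
theorem summable_normCount_and_tsum_eq {s : ℝ} (hs : 1 < s) :
    Summable (fun ℓ : Nat.Primes ↦ (normCount M ℓ : ℝ) * ((ℓ : ℕ) : ℝ) ^ (-s)) ∧
    ∑' ℓ : Nat.Primes, (normCount M ℓ : ℝ) * ((ℓ : ℕ) : ℝ) ^ (-s) =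
      ∑' v : {v : HeightOneSpectrum (𝓞 M) // (Ideal.absNorm v.asIdeal).Prime},
        (Ideal.absNorm v.1.asIdeal : ℝ) ^ (-s) := by
  have hsum : Summable fun v : HeightOneSpectrum (𝓞 M) ↦ (Ideal.absNorm v.asIdeal : ℝ) ^ (-s) :=
    Fermat.Agent.S14.helper2850.summable_primes M hs
  have hsub : Summable fun v : {v : HeightOneSpectrum (𝓞 M) // (Ideal.absNorm v.asIdeal).Prime} ↦
      (Ideal.absNorm v.1.asIdeal : ℝ) ^ (-s) :=
    hsum.subtype _
  have hsig : Summable fun p : (Σ ℓ : Nat.Primes, PrimeFiber M ℓ) ↦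
      (Ideal.absNorm ((degOneEquiv M p).1).asIdeal : ℝ) ^ (-s) :=
    (degOneEquiv M).summable_iff.mpr hsub
  have hinner : ∀ ℓ : Nat.Primes, ∑' v : PrimeFiber M ℓ,
      (Ideal.absNorm ((degOneEquiv M ⟨ℓ, v⟩).1).asIdeal : ℝ) ^ (-s) =
      (normCount M ℓ : ℝ) * ((ℓ : ℕ) : ℝ) ^ (-s) := by
    intro ℓ
    have h1 : ∀ v : PrimeFiber M ℓ,
        (Ideal.absNorm ((degOneEquiv M ⟨ℓ, v⟩).1).asIdeal : ℝ) ^ (-s) = ((ℓ : ℕ) : ℝ) ^ (-s) := by
      intro v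
      have : Ideal.absNorm ((degOneEquiv M ⟨ℓ, v⟩).1).asIdeal = (ℓ : ℕ) := v.2
      rw [this]
    simp_rw [h1]
    rw [tsum_const, normCount_eq_card_primes M ℓ.2, nsmul_eq_mul]
  have h2 := hsig.tsum_sigma
  have h3 := hsig.sigma
  simp_rw [hinner] at h2 h3
  refine ⟨h3, ?_⟩
  rw [← h2]
  exact (degOneEquiv M).tsum_eq
    (fun v : {v : HeightOneSpectrum (𝓞 M) // (Ideal.absNorm v.asIdeal).Prime} ↦
      (Ideal.absNorm v.1.asIdeal : ℝ) ^ (-s))

/-- **Two-sided asymptotic** of the degree-one prime sum: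
`∑_ℓ normCount M ℓ * ℓ^(-s) = log (1/(s-1)) + O(1)` on `(1,2)`. -/
theorem normCount_asymp : ∃ B : ℝ, ∀ s : ℝ, 1 < s → s < 2 →
    Summable (fun ℓ : Nat.Primes ↦ (normCount M ℓ : ℝ) * ((ℓ : ℕ) : ℝ) ^ (-s)) ∧
    |∑' ℓ : Nat.Primes, (normCount M ℓ : ℝ) * ((ℓ : ℕ) : ℝ) ^ (-s) - Real.log (1 / (s - 1))|
      ≤ B := by
  obtain ⟨-, B1, hB1⟩ := Fermat.Agent.S14.helper2850.stmt_PrimeZeta M
  obtain ⟨B2, hB2⟩ := Fermat.Agent.S14.helper2850.stmt_NonDegOne M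
  obtain ⟨B3, hB3⟩ := Fermat.Agent.S14.helper2850.primeIdealZetaSum_le M
  refine ⟨max (B1 + B2) B3, fun s hs hs2 ↦ ?_⟩
  obtain ⟨hsum, heq⟩ := summable_normCount_and_tsum_eq M hs
  refine ⟨hsum, ?_⟩
  rw [heq]
  have hall : Summable fun v : HeightOneSpectrum (𝓞 M) ↦ (Ideal.absNorm v.asIdeal : ℝ) ^ (-s) :=
    Fermat.Agent.S14.helper2850.summable_primes M hs
  set S1 : Set (HeightOneSpectrum (𝓞 M)) := {v | (Ideal.absNorm v.asIdeal).Prime} with hS1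
  have hsplit := hall.tsum_subtype_add_tsum_subtype_compl S1
  have hup := hB3 s hs hs2 S1
  rw [NumberField.Set.primeIdealZetaSum_def] at hup
  have hnd := hB2 s hs hs2
  rw [NumberField.Set.primeIdealZetaSum_def] at hnd
  have hlow := hB1 s hs hs2
  have hcompl : (S1ᶜ : Set (HeightOneSpectrum (𝓞 M))) =
      {v | ¬ (Ideal.absNorm v.asIdeal).Prime} := rfl
  rw [hcompl] at hsplit
  have e1 : ∑' v : {v : HeightOneSpectrum (𝓞 M) // (Ideal.absNorm v.asIdeal).Prime},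
      (Ideal.absNorm v.1.asIdeal : ℝ) ^ (-s) =
      ∑' v : S1, (Ideal.absNorm v.1.asIdeal : ℝ) ^ (-s) := rfl
  rw [e1, abs_le]
  constructor
  · have : -(B1 + B2) ≤ ∑' v : S1, (Ideal.absNorm v.1.asIdeal : ℝ) ^ (-s) -
        Real.log (1 / (s - 1)) := by linarith
    linarith [le_max_left (B1 + B2) B3]
  · linarith [le_max_right (B1 + B2) B3]

end OneField

/-- **Linear-form zeta lemma.**  For finitely many number fields `M i` and integers `c i` with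
`∑ c i > 0`, and every finite set `T` of natural numbers, there is a prime number `ℓ ∉ T` with
`∑ i, c i * normCount (M i) ℓ > 0`. -/
theorem exists_prime_linear_form_pos {ι : Type} [Fintype ι] (M : ι → Type)
    [∀ i, Field (M i)] [∀ i, NumberField (M i)] (c : ι → ℤ) (hc : 0 < ∑ i, c i)
    (T : Finset ℕ) :
    ∃ ℓ : ℕ, ℓ.Prime ∧ ℓ ∉ T ∧ 0 < ∑ i, c i * (normCount (M i) ℓ : ℤ) := by
  classical
  by_contra hcon
  push Not at hcon
  -- the asymptotics of each field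
  choose B hB using fun i ↦ normCount_asymp (M i)
  -- the coefficient of `ℓ^(-s)` in the linear form
  set d : ℕ → ℝ := fun ℓ ↦ ∑ i, (c i : ℝ) * (normCount (M i) ℓ : ℝ) with hd
  have hd_nonpos : ∀ ℓ : Nat.Primes, (ℓ : ℕ) ∉ T → d ℓ ≤ 0 := by
    intro ℓ hℓ
    have h := hcon ℓ ℓ.2 hℓ
    have h' : ((∑ i, c i * (normCount (M i) ℓ : ℤ) : ℤ) : ℝ) ≤ 0 := by exact_mod_cast h
    simpa [hd] using h'
  set T' : Finset Nat.Primes := T.subtype Nat.Prime with hT'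
  set C : ℝ := ∑ ℓ ∈ T', |d ℓ| with hC
  set Bsum : ℝ := ∑ i, |(c i : ℝ)| * B i with hBsum
  have hcR : (0 : ℝ) < ∑ i, (c i : ℝ) := by exact_mod_cast hc
  -- choose `s` close to `1`
  set X : ℝ := max 1 ((C + Bsum + 1) / ∑ i, (c i : ℝ)) with hX
  have hX1 : 1 ≤ X := le_max_left _ _
  have hX2 : C + Bsum + 1 ≤ (∑ i, (c i : ℝ)) * X := by
    have := le_max_right 1 ((C + Bsum + 1) / ∑ i, (c i : ℝ))
    rw [div_le_iff₀ hcR] at this
    linarith
  set s : ℝ := 1 + Real.exp (-X) with hs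
  have hs1 : 1 < s := by rw [hs]; linarith [Real.exp_pos (-X)]
  have hs2 : s < 2 := by
    have : Real.exp (-X) < 1 := by
      have h0 : Real.exp (-X) < Real.exp 0 := Real.exp_lt_exp.mpr (by linarith)
      rwa [Real.exp_zero] at h0
    rw [hs]; linarith
  have hlog : Real.log (1 / (s - 1)) = X := by
    have : s - 1 = Real.exp (-X) := by rw [hs]; ring
    rw [this, one_div, ← Real.exp_neg, neg_neg, Real.log_exp]
  -- the linear combination of the prime sums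
  have hsum : ∀ i, Summable (fun ℓ : Nat.Primes ↦
      (c i : ℝ) * ((normCount (M i) ℓ : ℝ) * ((ℓ : ℕ) : ℝ) ^ (-s))) :=
    fun i ↦ ((hB i s hs1 hs2).1).mul_left _
  have hcomb : ∑ i, (c i : ℝ) * ∑' ℓ : Nat.Primes,
      (normCount (M i) ℓ : ℝ) * ((ℓ : ℕ) : ℝ) ^ (-s) =
      ∑' ℓ : Nat.Primes, d ℓ * ((ℓ : ℕ) : ℝ) ^ (-s) := by
    have h1 : ∀ i, (c i : ℝ) * ∑' ℓ : Nat.Primes,
        (normCount (M i) ℓ : ℝ) * ((ℓ : ℕ) : ℝ) ^ (-s) =
        ∑' ℓ : Nat.Primes, (c i : ℝ) * ((normCount (M i) ℓ : ℝ) * ((ℓ : ℕ) : ℝ) ^ (-s)) :=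
      fun i ↦ (((hB i s hs1 hs2).1).tsum_mul_left _).symm
    simp_rw [h1]
    rw [← Summable.tsum_finsetSum (fun i _ ↦ hsum i)]
    refine tsum_congr fun ℓ ↦ ?_
    rw [hd, Finset.sum_mul]
    exact Finset.sum_congr rfl fun i _ ↦ by ring
  have hdsum : Summable (fun ℓ : Nat.Primes ↦ d ℓ * ((ℓ : ℕ) : ℝ) ^ (-s)) := by
    have := summable_sum (s := Finset.univ) (fun i _ ↦ hsum i)
    refine this.congr fun ℓ ↦ ?_
    rw [hd, Finset.sum_mul]
    exact Finset.sum_congr rfl fun i _ ↦ by ring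
  -- upper bound by the finitely many primes in `T`
  have hupper : ∑' ℓ : Nat.Primes, d ℓ * ((ℓ : ℕ) : ℝ) ^ (-s) ≤ C := by
    have hg : Summable (fun ℓ : Nat.Primes ↦ if ℓ ∈ T' then |d ℓ| else 0) :=
      summable_of_ne_finset_zero (s := T') fun ℓ hℓ ↦ by simp [hℓ]
    have hle : ∀ ℓ : Nat.Primes, d ℓ * ((ℓ : ℕ) : ℝ) ^ (-s) ≤ if ℓ ∈ T' then |d ℓ| else 0 := by
      intro ℓ
      have hpow0 : 0 ≤ ((ℓ : ℕ) : ℝ) ^ (-s) := Real.rpow_nonneg (Nat.cast_nonneg _) _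
      have hpow1 : ((ℓ : ℕ) : ℝ) ^ (-s) ≤ 1 :=
        Real.rpow_le_one_of_one_le_of_nonpos (by exact_mod_cast ℓ.2.one_le) (by linarith)
      by_cases hℓ : ℓ ∈ T'
      · rw [if_pos hℓ]
        calc d ℓ * ((ℓ : ℕ) : ℝ) ^ (-s) ≤ |d ℓ| * ((ℓ : ℕ) : ℝ) ^ (-s) := by
              gcongr
              exact le_abs_self _
          _ ≤ |d ℓ| * 1 := by gcongr
          _ = |d ℓ| := mul_one _
      · rw [if_neg hℓ]
        have hnT : (ℓ : ℕ) ∉ T := by
          intro h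
          exact hℓ (Finset.mem_subtype.mpr h)
        exact mul_nonpos_of_nonpos_of_nonneg (hd_nonpos ℓ hnT) hpow0
    calc ∑' ℓ : Nat.Primes, d ℓ * ((ℓ : ℕ) : ℝ) ^ (-s)
        ≤ ∑' ℓ : Nat.Primes, (if ℓ ∈ T' then |d ℓ| else 0) := hdsum.tsum_le_tsum hle hg
      _ = ∑ ℓ ∈ T', (if ℓ ∈ T' then |d ℓ| else 0) := tsum_eq_sum fun ℓ hℓ ↦ by simp [hℓ]
      _ = C := Finset.sum_congr rfl fun ℓ hℓ ↦ by simp [hℓ]
  -- lower bound from the asymptotics
  have hlower : (∑ i, (c i : ℝ)) * X - Bsum ≤ ∑ i, (c i : ℝ) * ∑' ℓ : Nat.Primes,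
      (normCount (M i) ℓ : ℝ) * ((ℓ : ℕ) : ℝ) ^ (-s) := by
    rw [Finset.sum_mul, hBsum, ← Finset.sum_sub_distrib]
    refine Finset.sum_le_sum fun i _ ↦ ?_
    have h := (hB i s hs1 hs2).2
    rw [hlog] at h
    set P : ℝ := ∑' ℓ : Nat.Primes, (normCount (M i) ℓ : ℝ) * ((ℓ : ℕ) : ℝ) ^ (-s) with hP
    have h1 : |(c i : ℝ) * (P - X)| ≤ |(c i : ℝ)| * B i := by
      rw [abs_mul]
      exact mul_le_mul_of_nonneg_left h (abs_nonneg _)
    have h2 := (abs_le.mp h1).1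
    nlinarith
  rw [hcomb] at hlower
  linarith

end

end Fermat.Agent.S29.helper141
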