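/-
S29 — occurrence assembly, THETA-free relation form (helper1590, backup of the THETA hub).

Abstract core (Mathlib only, no modular objects):

* `MultRelation`: the calculus of a multiplier RELATION `R u χ` ("the function `u` has an
  analytic `n`-th root with multiplier `χ`") against a class map `cls` (Kummer classes) and a
  lattice `Lam` of multipliers `chi lam`.
* `MultRelation.exists_hom`: the induced additive map `ι : Lam →+ J` with `n • ι = 0`,
  `ker ι = n Lam`, characterised by `ι lam = cls u` whenever `R u (chi lam)`.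
* `MultRelation.hom_hecke`: Hecke equivariance of `ι`.
* `baseChange_ne_zero_of_ker_le`: for a field `κ` of characteristic `p`, a `ℤ`-linear map from a
  finite free `ℤ`-module to a group killed by `p` whose kernel is inside `p Lam` stays injective
  after `κ ⊗[ℤ] _` (on the given vector).
* `exists_eigenvector_torsionBy`: transport of a `κ`-eigenvector from the lattice to the
  `p`-torsion of `J`.
-/
import Mathlib

set_option autoImplicit false

open TensorProduct

namespace Fermat.Agent.S29.helper1590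

section Relation

variable {F J X Lam : Type*} [Mul F] [Inv F] [AddCommGroup J] [CommGroup X] [AddCommGroup Lam]

/-- The calculus of a multiplier relation.  `IsK u`: "`u` is a Kummer function" (nonzero with
`n`-divisible divisor); `cls u`: its class (an `n`-torsion point); `R u χ`: "`u` has an analytic
`n`-th root with multiplier `χ`"; `chi lam`: the multiplier attached to a lattice element. -/
structure MultRelation (n : ℕ) (IsK : F → Prop) (cls : F → J) (R : F → X → Prop)
    (chi : Lam → X) : Prop where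
  isK_mul : ∀ {u u' : F}, IsK u → IsK u' → IsK (u * u')
  isK_inv : ∀ {u : F}, IsK u → IsK u⁻¹
  cls_mul : ∀ {u u' : F}, IsK u → IsK u' → cls (u * u') = cls u + cls u'
  cls_inv : ∀ {u : F}, IsK u → cls u⁻¹ = - cls u
  cls_tors : ∀ {u : F}, IsK u → n • cls u = 0
  rel_mul : ∀ {u u' : F} {χ χ' : X}, R u χ → R u' χ' → R (u * u') (χ * χ')
  rel_inv : ∀ {u : F} {χ : X}, R u χ → R u⁻¹ χ⁻¹
  rel_inj : ∀ {u : F}, IsK u → R u 1 → cls u = 0
  rel_triv : ∀ {u : F} {χ : X}, IsK u → cls u = 0 → R u χ → χ = 1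
  chi_add : ∀ a b : Lam, chi (a + b) = chi a * chi b
  surj : ∀ lam : Lam, ∃ u : F, IsK u ∧ R u (chi lam)
  sat : ∀ lam : Lam, chi lam = 1 → ∃ mu : Lam, lam = n • mu

variable {n : ℕ} {IsK : F → Prop} {cls : F → J} {R : F → X → Prop} {chi : Lam → X}

/-- Two Kummer functions with the same multiplier have the same class. -/
theorem MultRelation.cls_eq (h : MultRelation n IsK cls R chi) {u u' : F} {χ : X}
    (hu : IsK u) (hu' : IsK u') (hR : R u χ) (hR' : R u' χ) : cls u = cls u' := by
  have h1 : R (u * u'⁻¹) (χ * χ⁻¹) := h.rel_mul hR (h.rel_inv hR')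
  rw [mul_inv_cancel] at h1
  have h2 := h.rel_inj (h.isK_mul hu (h.isK_inv hu')) h1
  rw [h.cls_mul hu (h.isK_inv hu'), h.cls_inv hu', ← sub_eq_add_neg] at h2
  exact sub_eq_zero.mp h2

/-- The additive map `Lam →+ J` attached to a multiplier relation: `ι lam` is the class of any
Kummer function with multiplier `chi lam`; it is killed by `n` and its kernel is `n Lam`. -/
theorem MultRelation.exists_hom (h : MultRelation n IsK cls R chi) :
    ∃ ι : Lam →+ J, (∀ (lam : Lam) (u : F), IsK u → R u (chi lam) → ι lam = cls u) ∧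
      (∀ lam : Lam, n • ι lam = 0) ∧ (∀ lam : Lam, ι lam = 0 ↔ ∃ mu : Lam, lam = n • mu) := by
  classical
  let f : Lam → J := fun lam => cls (Classical.choose (h.surj lam))
  have hf : ∀ (lam : Lam) (u : F), IsK u → R u (chi lam) → f lam = cls u := fun lam u hu hR =>
    h.cls_eq (Classical.choose_spec (h.surj lam)).1 hu (Classical.choose_spec (h.surj lam)).2 hR
  have hadd : ∀ a b : Lam, f (a + b) = f a + f b := by
    intro a b
    obtain ⟨ua, hKa, hRa⟩ := h.surj a
    obtain ⟨ub, hKb, hRb⟩ := h.surj b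
    have hR : R (ua * ub) (chi (a + b)) := by
      rw [h.chi_add]; exact h.rel_mul hRa hRb
    rw [hf (a + b) (ua * ub) (h.isK_mul hKa hKb) hR, hf a ua hKa hRa, hf b ub hKb hRb,
      h.cls_mul hKa hKb]
  have htors : ∀ lam : Lam, n • f lam = 0 := fun lam =>
    h.cls_tors (Classical.choose_spec (h.surj lam)).1
  refine ⟨AddMonoidHom.mk' f hadd, hf, htors, fun lam => ⟨fun h0 => ?_, ?_⟩⟩
  · obtain ⟨u, hK, hR⟩ := h.surj lam
    have hc : cls u = 0 := by rw [← hf lam u hK hR]; exact h0
    exact h.sat lam (h.rel_triv hK hc hR)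
  · rintro ⟨mu, rfl⟩
    show (AddMonoidHom.mk' f hadd) (n • mu) = 0
    rw [map_nsmul]
    exact htors mu

/-- Hecke equivariance of the additive map of a multiplier relation. -/
theorem MultRelation.hom_hecke (h : MultRelation n IsK cls R chi) (ι : Lam →+ J)
    (hι : ∀ (lam : Lam) (u : F), IsK u → R u (chi lam) → ι lam = cls u)
    (hn : F → F) (T : J → J) (tr : X → X) (t : Lam → Lam)
    (hK : ∀ u : F, IsK u → IsK (hn u))
    (hT : ∀ u : F, IsK u → T (cls u) = cls (hn u))
    (hR : ∀ (u : F) (χ : X), IsK u → R u χ → R (hn u) (tr χ))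
    (htr : ∀ lam : Lam, tr (chi lam) = chi (t lam)) (lam : Lam) :
    ι (t lam) = T (ι lam) := by
  obtain ⟨u, hKu, hRu⟩ := h.surj lam
  have h1 : R (hn u) (chi (t lam)) := by rw [← htr]; exact hR u _ hKu hRu
  rw [hι (t lam) (hn u) (hK u hKu) h1, hι lam u hKu hRu, hT u hKu]

end Relation

section LinearAlgebra

variable {Lam V κ : Type*} [AddCommGroup Lam] [Module.Free ℤ Lam] [Module.Finite ℤ Lam]
  [AddCommGroup V] [Field κ]

/-- A `ℤ`-linear map from a finite free `ℤ`-module into a group killed by `p` whose kernel is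
contained in `p Lam` stays injective after base change to a field of characteristic `p`. -/
theorem baseChange_ne_zero_of_ker_le (p : ℕ) [Fact p.Prime] [CharP κ p]
    (hV : ∀ v : V, p • v = 0) (ι : Lam →ₗ[ℤ] V) (hker : ∀ x : Lam, ι x = 0 → ∃ y : Lam, x = p • y)
    (c : κ ⊗[ℤ] Lam) (hc : c ≠ 0) : ι.baseChange κ c ≠ 0 := by
  classical
  have hp0 : NeZero p := ⟨(Fact.out : p.Prime).ne_zero⟩
  let b := Module.Free.chooseBasis ℤ Lam
  let B := Algebra.TensorProduct.basis κ b
  obtain ⟨i0, hi0⟩ : ∃ i, B.repr c i ≠ 0 := by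
    by_contra hall
    rw [not_exists] at hall
    apply hc
    apply B.repr.injective
    ext i
    simpa using not_not.mp (hall i)
  have instV : Module (ZMod p) V := AddCommGroup.zmodModule hV
  have hsmul : ∀ (a : ZMod p) (v : V), a • v = a.val • v := by
    intro a v
    conv_lhs => rw [← ZMod.natCast_zmod_val a]
    exact Nat.cast_smul_eq_nsmul (ZMod p) a.val v
  have hli : LinearIndependent (ZMod p) (fun i => ι (b i)) := by
    rw [Fintype.linearIndependent_iff]
    intro g hg i
    have hg' : ι (∑ j, (g j).val • b j) = 0 := by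
      rw [map_sum, ← hg]
      refine Finset.sum_congr rfl fun j _ => ?_
      rw [map_nsmul, hsmul]
    obtain ⟨y, hy⟩ := hker _ hg'
    have h1 := congrArg (fun x => b.repr x i) hy
    simp only [map_sum, map_nsmul, Module.Basis.repr_self, Finsupp.coe_finsetSum, Finsupp.coe_smul,
      Finset.sum_apply, Pi.smul_apply, Finsupp.single_apply] at h1
    simp only [smul_ite, smul_zero] at h1
    -- h1 : (g i).val • 1 = p • b.repr y i
    have h2 : ((g i).val : ℤ) = p * b.repr y i := by
      simpa using h1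
    have h3 : (((g i).val : ℤ) : ZMod p) = 0 := by
      rw [h2]; simp
    simpa using h3
  obtain ⟨g, hg⟩ := LinearMap.exists_leftInverse_of_injective
    (Finsupp.linearCombination (ZMod p) (fun i => ι (b i))) (LinearMap.ker_eq_bot.mpr hli)
  let φ : V →+ κ := ((ZMod.castHom (dvd_refl p) κ).toAddMonoidHom).comp
    ((Finsupp.applyAddHom i0).comp g.toAddMonoidHom)
  have hφb : ∀ j, φ (ι (b j)) = if j = i0 then 1 else 0 := by
    intro j
    have h1 : g (ι (b j)) = Finsupp.single j 1 := by
      have := congrArg (fun f => f (Finsupp.single j (1 : ZMod p))) hg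
      simpa using this
    show (ZMod.castHom (dvd_refl p) κ) ((g (ι (b j))) i0) = _
    rw [h1, Finsupp.single_apply]
    split_ifs <;> simp
  have hφ : ∀ y : Lam, φ (ι y) = ((b.repr y i0 : ℤ) : κ) := by
    intro y
    conv_lhs => rw [← b.sum_repr y]
    rw [map_sum, map_sum]
    simp only [map_zsmul, hφb, smul_ite, smul_zero, Finset.sum_ite_eq', Finset.mem_univ, if_true]
    simp
  let Ψ : κ ⊗[ℤ] V →ₗ[ℤ] κ := TensorProduct.lift ((LinearMap.mul ℤ κ).compl₂ φ.toIntLinearMap)
  have hΨ : ∀ c : κ ⊗[ℤ] Lam, Ψ (ι.baseChange κ c) = B.repr c i0 := by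
    intro c
    induction c using TensorProduct.induction_on with
    | zero => simp
    | tmul k y =>
      rw [LinearMap.baseChange_tmul]
      show TensorProduct.lift ((LinearMap.mul ℤ κ).compl₂ φ.toIntLinearMap) (k ⊗ₜ[ℤ] ι y) = _
      rw [TensorProduct.lift.tmul]
      simp only [LinearMap.compl₂_apply, LinearMap.mul_apply', AddMonoidHom.coe_toIntLinearMap,
        hφ, B, Algebra.TensorProduct.basis_repr_tmul, Finsupp.coe_smul, Pi.smul_apply,
        Finsupp.mapRange_apply, smul_eq_mul]
      simp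
    | add x y hx hy => rw [map_add, map_add, hx, hy, map_add, Finsupp.add_apply]
  intro h0
  apply hi0
  rw [← hΨ c, h0, map_zero]

/-- Transport of an eigenvector from the lattice to the `p`-torsion of `J`. -/
theorem exists_eigenvector_torsionBy {J I : Type*} [AddCommGroup J] (p : ℕ) [Fact p.Prime]
    [CharP κ p] (ι : Lam →+ J) (hιp : ∀ x : Lam, p • ι x = 0)
    (hker : ∀ x : Lam, ι x = 0 → ∃ y : Lam, x = p • y)
    (t : I → Lam →ₗ[ℤ] Lam) (T : I → Module.End ℤ J)
    (hst : ∀ i, ∀ y ∈ Submodule.torsionBy ℤ J (p : ℤ), T i y ∈ Submodule.torsionBy ℤ J (p : ℤ))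
    (hT : ∀ (i : I) (x : Lam), ι (t i x) = T i (ι x))
    (a : I → κ) (c : κ ⊗[ℤ] Lam) (hc : c ≠ 0)
    (hca : ∀ i, (t i).baseChange κ c = a i • c) :
    ∃ x : κ ⊗[ℤ] (Submodule.torsionBy ℤ J (p : ℤ)), x ≠ 0 ∧
      ∀ i, ((T i).restrict (hst i)).baseChange κ x = a i • x := by
  have hmem : ∀ x : Lam, ι x ∈ Submodule.torsionBy ℤ J (p : ℤ) := by
    intro x
    rw [Submodule.mem_torsionBy_iff]
    have := hιp x
    rwa [← natCast_zsmul] at this
  let ι' : Lam →ₗ[ℤ] (Submodule.torsionBy ℤ J (p : ℤ)) :=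
    (AddMonoidHom.toIntLinearMap ι).codRestrict _ hmem
  have hι' : ∀ x : Lam, ((ι' x : Submodule.torsionBy ℤ J (p : ℤ)) : J) = ι x := fun x => rfl
  have hV : ∀ v : Submodule.torsionBy ℤ J (p : ℤ), p • v = 0 := by
    intro v
    apply Subtype.ext
    have := v.2
    rw [Submodule.mem_torsionBy_iff] at this
    rw [Submodule.coe_smul_of_tower, Submodule.coe_zero, ← natCast_zsmul]
    exact this
  have hker' : ∀ x : Lam, ι' x = 0 → ∃ y : Lam, x = p • y := by
    intro x hx
    apply hker
    rw [← hι' x, hx]; rfl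
  refine ⟨ι'.baseChange κ c, baseChange_ne_zero_of_ker_le p hV ι' hker' c hc, fun i => ?_⟩
  have hcomm : ((T i).restrict (hst i)) ∘ₗ ι' = ι' ∘ₗ (t i) := by
    ext x
    simp only [LinearMap.coe_comp, Function.comp_apply, LinearMap.coe_restrict_apply, hι', hT]
  rw [← LinearMap.comp_apply, ← LinearMap.baseChange_comp, hcomm, LinearMap.baseChange_comp,
    LinearMap.comp_apply, hca, map_smul]

end LinearAlgebra

section Functional

variable {L κ : Type*} [AddCommGroup L] [Module.Free ℤ L] [Module.Finite ℤ L] [Field κ]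

/-- Evaluation at `y : L` on `κ ⊗[ℤ] Module.Dual ℤ L`: `k ⊗ φ ↦ k * φ y`. -/
noncomputable def evalAt (κ : Type*) [Field κ] {L : Type*} [AddCommGroup L] (y : L) :
    κ ⊗[ℤ] Module.Dual ℤ L →ₗ[κ] κ :=
  (Algebra.TensorProduct.rid ℤ κ κ).toLinearMap ∘ₗ (LinearMap.applyₗ (R := ℤ) y).baseChange κ

omit [Module.Free ℤ L] [Module.Finite ℤ L] in
theorem evalAt_tmul (y : L) (k : κ) (φ : Module.Dual ℤ L) :
    evalAt κ y (k ⊗ₜ[ℤ] φ) = k * ((φ y : ℤ) : κ) := by
  simp only [evalAt, LinearMap.coe_comp, Function.comp_apply, LinearMap.baseChange_tmul,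
    LinearMap.applyₗ_apply_apply, AlgEquiv.toLinearMap_apply, Algebra.TensorProduct.rid_tmul,
    zsmul_eq_mul]
  exact (Int.cast_commute _ _).eq

omit [Module.Free ℤ L] [Module.Finite ℤ L] in
/-- Evaluation at `τ y` is evaluation at `y` after transposing by `τ`. -/
theorem evalAt_transpose (τ : Module.End ℤ L) (y : L) (x : κ ⊗[ℤ] Module.Dual ℤ L) :
    evalAt κ y ((Module.Dual.transpose (R := ℤ) τ).baseChange κ x) = evalAt κ (τ y) x := by
  induction x using TensorProduct.induction_on with
  | zero => simp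
  | tmul k φ =>
    rw [LinearMap.baseChange_tmul, evalAt_tmul, evalAt_tmul]
    rfl
  | add x x' hx hx' => rw [map_add, map_add, map_add, hx, hx']

/-- The evaluations separate the points of `κ ⊗[ℤ] Module.Dual ℤ L` (`L` finite free). -/
theorem eq_zero_of_evalAt (x : κ ⊗[ℤ] Module.Dual ℤ L) (h : ∀ y : L, evalAt κ y x = 0) :
    x = 0 := by
  classical
  let b := Module.Free.chooseBasis ℤ L
  let B := Algebra.TensorProduct.basis κ b.dualBasis
  have key : ∀ (x : κ ⊗[ℤ] Module.Dual ℤ L) (i : Module.Free.ChooseBasisIndex ℤ L),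
      B.repr x i = evalAt κ (b i) x := by
    intro x i
    induction x using TensorProduct.induction_on with
    | zero => simp
    | tmul k φ =>
      rw [evalAt_tmul]
      simp only [B, Algebra.TensorProduct.basis_repr_tmul, Finsupp.coe_smul, Pi.smul_apply,
        Finsupp.mapRange_apply, smul_eq_mul, Module.Basis.dualBasis_repr]
      rfl
    | add x x' hx hx' => rw [map_add, Finsupp.add_apply, hx, hx', map_add]
  apply B.repr.injective
  ext i
  rw [key, h, map_zero, Finsupp.zero_apply]

/-- Every additive functional `L →+ κ` is represented by an element of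
`κ ⊗[ℤ] Module.Dual ℤ L`. -/
theorem exists_evalAt_eq (w : L →+ κ) :
    ∃ c : κ ⊗[ℤ] Module.Dual ℤ L, ∀ y : L, evalAt κ y c = w y := by
  classical
  let b := Module.Free.chooseBasis ℤ L
  refine ⟨∑ j, w (b j) ⊗ₜ[ℤ] b.dualBasis j, fun y => ?_⟩
  rw [map_sum]
  simp only [evalAt_tmul, Module.Basis.dualBasis_apply]
  conv_rhs => rw [← b.sum_repr y]
  rw [map_sum]
  refine Finset.sum_congr rfl fun j _ => ?_
  rw [map_zsmul, zsmul_eq_mul]
  exact (Int.cast_commute _ _).eq.symm

/-- **From an eigen-functional on a lattice to an eigenvector in the `p`-torsion.**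
`L` a finite free `ℤ`-module ("homology lattice") with operators `τ i`, `w : L →+ κ` a nonzero
functional with `w ∘ τ i = a i • w`; `ι : Module.Dual ℤ L →+ J` with `p • ι = 0`, kernel inside
`p • Dual` and `ι (φ ∘ τ i) = T i (ι φ)`.  Then `κ ⊗[ℤ] J[p]` contains a nonzero common
eigenvector of the `T i` with eigenvalues `a i`. -/
theorem exists_eigenvector_of_functional {J I : Type*} [AddCommGroup J] (p : ℕ) [Fact p.Prime]
    [CharP κ p] (ι : Module.Dual ℤ L →+ J) (hιp : ∀ φ : Module.Dual ℤ L, p • ι φ = 0)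
    (hker : ∀ φ : Module.Dual ℤ L, ι φ = 0 → ∃ φ' : Module.Dual ℤ L, φ = p • φ')
    (τ : I → Module.End ℤ L) (T : I → Module.End ℤ J)
    (hst : ∀ i, ∀ y ∈ Submodule.torsionBy ℤ J (p : ℤ), T i y ∈ Submodule.torsionBy ℤ J (p : ℤ))
    (hT : ∀ (i : I) (φ : Module.Dual ℤ L), ι (φ ∘ₗ τ i) = T i (ι φ))
    (a : I → κ) (w : L →+ κ) (hw : w ≠ 0) (hwa : ∀ (i : I) (y : L), w (τ i y) = a i * w y) :
    ∃ x : κ ⊗[ℤ] (Submodule.torsionBy ℤ J (p : ℤ)), x ≠ 0 ∧
      ∀ i, ((T i).restrict (hst i)).baseChange κ x = a i • x := by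
  obtain ⟨c, hc⟩ := exists_evalAt_eq w
  have hc0 : c ≠ 0 := by
    rintro rfl
    apply hw
    ext y
    rw [← hc y, map_zero, AddMonoidHom.zero_apply]
  refine exists_eigenvector_torsionBy p ι hιp hker
    (fun i => Module.Dual.transpose (R := ℤ) (τ i)) T hst (fun i φ => hT i φ) a c hc0 fun i => ?_
  rw [← sub_eq_zero]
  apply eq_zero_of_evalAt
  intro y
  rw [map_sub, evalAt_transpose, map_smul, hc, hc, hwa, smul_eq_mul, sub_self]

end Functional

end Fermat.Agent.S29.helper1590
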