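/-
# S29-MID (helper405): from operator-wise Eichler–Shimura data on `JZero N` to the (EIG) datum

Abstract part: a `ℤ`-module `M` with an action of `Gal(ℚ̄/ℚ)` having open stabilisers, a family of
commuting-with-Galois operators `T i`, and ONE nonzero common eigenvector `x ∈ κ ⊗[ℤ] M` give a
nonzero finite-dimensional `κ`-representation `W` (the `κ`-span of the Galois orbit of `x`) of
finite level on which every `T i` acts by the scalar `a i`, and to which every polynomial identity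
between the Galois action and the `T i` on `M` is transported.
-/
import Mathlib
import Fermat.Prelude.Def_ModularCurve_HeckeModule
import Fermat.Prelude.Def_GaloisRep_Residual

set_option autoImplicit false

open scoped TensorProduct

namespace Fermat.Agent.S29.helper405

/-- The absolute Galois group of `ℚ`, in the Prelude's form. -/
abbrev GalQ : Type := AlgebraicClosure ℚ ≃ₐ[ℚ] AlgebraicClosure ℚ

theorem isAlgClosure_ratBar : IsAlgClosure ℚ (AlgebraicClosure ℚ) :=
  (inferInstance : @IsAlgClosure ℚ (AlgebraicClosure ℚ) _ _ (AlgebraicClosure.instAlgebra ℚ) _)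

theorem normal_ratBar : Normal ℚ (AlgebraicClosure ℚ) :=
  haveI := isAlgClosure_ratBar
  IsAlgClosure.normal _ _

section Abstract

variable {M : Type} [AddCommGroup M] (act : GalQ →* Module.End ℤ M)

/-- Open stabilisers: every element is fixed by the absolute Galois group of a number field. -/
def OpenStab : Prop :=
  ∀ m : M, ∃ L : IntermediateField ℚ (AlgebraicClosure ℚ), FiniteDimensional ℚ L ∧
    ∀ σ : GalQ, (∀ y ∈ L, σ y = y) → act σ m = m

variable (κ : Type) [Field κ]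

/-- The Galois action on `κ ⊗[ℤ] M`. -/
noncomputable def actK : GalQ →* Module.End κ (κ ⊗[ℤ] M) where
  toFun σ := (act σ).baseChange κ
  map_one' := by rw [map_one, LinearMap.baseChange_one]
  map_mul' σ τ := by rw [map_mul, LinearMap.baseChange_mul]

theorem actK_apply (σ : GalQ) : actK act κ σ = (act σ).baseChange κ := rfl

variable {act} {κ}

/-- Open stabilisers pass to `κ ⊗[ℤ] M`. -/
theorem OpenStab.tensor (h : OpenStab act) (x : κ ⊗[ℤ] M) :
    ∃ L : IntermediateField ℚ (AlgebraicClosure ℚ), FiniteDimensional ℚ L ∧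
      ∀ σ : GalQ, (∀ y ∈ L, σ y = y) → actK act κ σ x = x := by
  induction x using TensorProduct.induction_on with
  | zero => exact ⟨⊥, inferInstance, fun σ _ => map_zero _⟩
  | tmul c m =>
    obtain ⟨L, hL, hσ⟩ := h m
    refine ⟨L, hL, fun σ hσL => ?_⟩
    rw [actK_apply, LinearMap.baseChange_tmul, hσ σ hσL]
  | add x y hx hy =>
    obtain ⟨L₁, hL₁, h₁⟩ := hx
    obtain ⟨L₂, hL₂, h₂⟩ := hy
    refine ⟨L₁ ⊔ L₂, inferInstance, fun σ hσ => ?_⟩
    rw [map_add, h₁ σ fun y hy => hσ y (le_sup_left (a := L₁) (b := L₂) hy),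
      h₂ σ fun y hy => hσ y (le_sup_right (a := L₁) (b := L₂) hy)]

/-- A normal finite level: the stabiliser of `x` contains a normal open subgroup, in the form
"every conjugate of an element fixing `L` fixes `x`". -/
theorem OpenStab.tensor_normal (h : OpenStab act) (x : κ ⊗[ℤ] M) :
    ∃ L : IntermediateField ℚ (AlgebraicClosure ℚ), FiniteDimensional ℚ L ∧
      (∀ σ : GalQ, (∀ y ∈ L, σ y = y) → actK act κ σ x = x) ∧
      (∀ σ τ : GalQ, (∀ y ∈ L, σ y = y) → actK act κ σ (actK act κ τ x) = actK act κ τ x) ∧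
      (∀ σ τ : GalQ, (∀ y ∈ L, σ y = τ y) → actK act κ σ x = actK act κ τ x) := by
  obtain ⟨L₀, hL₀, h₀⟩ := h.tensor x
  let L : IntermediateField ℚ (AlgebraicClosure ℚ) :=
    IntermediateField.normalClosure ℚ L₀ (AlgebraicClosure ℚ)
  have hle : L₀ ≤ L := IntermediateField.le_normalClosure L₀
  have := normal_ratBar
  have hnorm : Normal ℚ L := normalClosure.normal ℚ L₀ (AlgebraicClosure ℚ)
  have hfd : FiniteDimensional ℚ L :=
    normalClosure.is_finiteDimensional ℚ L₀ (AlgebraicClosure ℚ)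
  have hmap : ∀ (τ : GalQ) (y : AlgebraicClosure ℚ), y ∈ L → τ y ∈ L := by
    intro τ y hy
    have := (IntermediateField.normal_iff_forall_map_le'.1 hnorm) τ
    exact this ⟨y, hy, rfl⟩
  have key : ∀ σ τ : GalQ, (∀ y ∈ L, σ y = τ y) → actK act κ σ x = actK act κ τ x := by
    intro σ τ hστ
    have h1 : actK act κ (τ⁻¹ * σ) x = x := by
      refine h₀ _ fun y hy => ?_
      rw [AlgEquiv.mul_apply, hστ y (hle hy)]
      exact τ.symm_apply_apply y
    have h2 : actK act κ σ x = actK act κ τ (actK act κ (τ⁻¹ * σ) x) := by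
      rw [← Module.End.mul_apply, ← map_mul, mul_inv_cancel_left]
    rw [h2, h1]
  refine ⟨L, hfd, fun σ hσ => h₀ σ fun y hy => hσ y (hle hy), fun σ τ hσ => ?_, key⟩
  rw [← Module.End.mul_apply, ← map_mul]
  refine key _ _ fun y hy => ?_
  rw [AlgEquiv.mul_apply]
  exact hσ _ (hmap τ y hy)

/-- The `κ`-span of the Galois orbit of `x`. -/
def orbitSpan (act : GalQ →* Module.End ℤ M) (x : κ ⊗[ℤ] M) : Submodule κ (κ ⊗[ℤ] M) :=
  Submodule.span κ (Set.range fun τ : GalQ => actK act κ τ x)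

theorem mem_orbitSpan_self (x : κ ⊗[ℤ] M) : x ∈ orbitSpan act x :=
  Submodule.subset_span ⟨1, by show actK act κ 1 x = x; rw [map_one]; rfl⟩

theorem actK_mem_orbitSpan (σ : GalQ) {x w : κ ⊗[ℤ] M} (hw : w ∈ orbitSpan act x) :
    actK act κ σ w ∈ orbitSpan act x := by
  induction hw using Submodule.span_induction with
  | mem w hw =>
    obtain ⟨τ, rfl⟩ := hw
    refine Submodule.subset_span ⟨σ * τ, ?_⟩
    show actK act κ (σ * τ) x = actK act κ σ (actK act κ τ x)
    rw [map_mul]; rfl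
  | zero => rw [map_zero]; exact Submodule.zero_mem _
  | add u v _ _ hu hv => rw [map_add]; exact Submodule.add_mem _ hu hv
  | smul c u _ hu => rw [map_smul]; exact Submodule.smul_mem _ c hu

theorem OpenStab.finite_range (h : OpenStab act) (x : κ ⊗[ℤ] M) :
    (Set.range fun τ : GalQ => actK act κ τ x).Finite := by
  classical
  obtain ⟨L, hfd, -, -, key⟩ := h.tensor_normal (κ := κ) x
  let r : GalQ → (L →ₐ[ℚ] AlgebraicClosure ℚ) := fun τ => (τ : AlgebraicClosure ℚ →ₐ[ℚ] AlgebraicClosure ℚ).comp L.val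
  let g' : (L →ₐ[ℚ] AlgebraicClosure ℚ) → κ ⊗[ℤ] M := fun a =>
    if h : ∃ τ, r τ = a then actK act κ h.choose x else x
  refine (Set.finite_range g').subset ?_
  rintro _ ⟨τ, rfl⟩
  refine ⟨r τ, ?_⟩
  have hex : ∃ τ', r τ' = r τ := ⟨τ, rfl⟩
  show (if h : ∃ τ', r τ' = r τ then actK act κ h.choose x else x) = actK act κ τ x
  rw [dif_pos hex]
  refine key _ _ fun y hy => ?_
  have := congrArg (fun f : L →ₐ[ℚ] AlgebraicClosure ℚ => f ⟨y, hy⟩) hex.choose_spec
  exact this

theorem OpenStab.finiteDimensional_orbitSpan (h : OpenStab act) (x : κ ⊗[ℤ] M) :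
    FiniteDimensional κ (orbitSpan act x) :=
  FiniteDimensional.span_of_finite κ (h.finite_range x)

/-- The Galois representation on the span of the orbit. -/
noncomputable def orbitRep (act : GalQ →* Module.End ℤ M) (x : κ ⊗[ℤ] M) :
    GalQ →* Module.End κ (orbitSpan act x) where
  toFun σ := (actK act κ σ).restrict fun _ hw => actK_mem_orbitSpan σ hw
  map_one' := by
    refine LinearMap.ext fun w => Subtype.ext ?_
    rw [LinearMap.coe_restrict_apply, map_one]; rfl
  map_mul' σ τ := by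
    refine LinearMap.ext fun w => Subtype.ext ?_
    rw [LinearMap.coe_restrict_apply, map_mul]; rfl

theorem coe_orbitRep_apply (x : κ ⊗[ℤ] M) (σ : GalQ) (w : orbitSpan act x) :
    ((orbitRep act x σ w : orbitSpan act x) : κ ⊗[ℤ] M) = actK act κ σ (w : κ ⊗[ℤ] M) :=
  rfl

theorem OpenStab.factorsThroughFiniteLevel (h : OpenStab act) (x : κ ⊗[ℤ] M) :
    GaloisFactorsThroughFiniteLevel (orbitRep act x) := by
  obtain ⟨L, hfd, -, hfix, -⟩ := h.tensor_normal (κ := κ) x
  refine ⟨L, hfd, fun σ hσ => LinearMap.ext fun w => Subtype.ext ?_⟩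
  rw [coe_orbitRep_apply]
  show actK act κ σ (w : κ ⊗[ℤ] M) = (w : κ ⊗[ℤ] M)
  obtain ⟨w, hw⟩ := w
  show actK act κ σ w = w
  induction hw using Submodule.span_induction with
  | mem w hw => obtain ⟨τ, rfl⟩ := hw; exact hfix σ τ hσ
  | zero => rw [map_zero]
  | add u v _ _ hu hv => rw [map_add, hu, hv]
  | smul c u _ hu => rw [map_smul, hu]

theorem orbitRep_eq_one_of_act_eq_one (x : κ ⊗[ℤ] M) {σ : GalQ} (hσ : act σ = 1) :
    orbitRep act x σ = 1 := by
  refine LinearMap.ext fun w => Subtype.ext ?_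
  rw [coe_orbitRep_apply, actK_apply, hσ, LinearMap.baseChange_one]; rfl

/-- An operator commuting with Galois acts on the orbit span of an eigenvector by the
eigenvalue. -/
theorem baseChange_apply_of_mem_orbitSpan {T : Module.End ℤ M}
    (hT : ∀ σ : GalQ, T * act σ = act σ * T) {a : κ} {x : κ ⊗[ℤ] M}
    (hx : T.baseChange κ x = a • x) {w : κ ⊗[ℤ] M} (hw : w ∈ orbitSpan act x) :
    T.baseChange κ w = a • w := by
  induction hw using Submodule.span_induction with
  | mem w hw =>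
    obtain ⟨τ, rfl⟩ := hw
    show T.baseChange κ ((act τ).baseChange κ x) = a • (act τ).baseChange κ x
    rw [← Module.End.mul_apply, ← LinearMap.baseChange_mul, hT τ, LinearMap.baseChange_mul,
      Module.End.mul_apply, hx, map_smul]
  | zero => rw [map_zero, smul_zero]
  | add u v _ _ hu hv => rw [map_add, hu, hv, smul_add]
  | smul c u _ hu => rw [map_smul, hu, smul_comm]

/-- Transport of a quadratic relation `σ² - T σ + c = 0` on `M` to the orbit span of a
`T`-eigenvector with eigenvalue `a`: there `σ² - a σ + c = 0`. -/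
theorem orbitRep_quadratic {T : Module.End ℤ M}
    (hT : ∀ σ : GalQ, T * act σ = act σ * T) {a : κ} {x : κ ⊗[ℤ] M}
    (hx : T.baseChange κ x = a • x) {σ : GalQ} {c : ℤ}
    (hσ : act σ * act σ - T * act σ + c • (1 : Module.End ℤ M) = 0) :
    orbitRep act x σ * orbitRep act x σ - a • orbitRep act x σ
      + (c : κ) • (1 : Module.End κ (orbitSpan act x)) = 0 := by
  refine LinearMap.ext fun w => Subtype.ext ?_
  have h1 := congrArg (fun f : Module.End ℤ M => (f.baseChange κ) (w : κ ⊗[ℤ] M)) hσ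
  simp only [LinearMap.baseChange_add, LinearMap.baseChange_sub, LinearMap.baseChange_mul,
    LinearMap.baseChange_smul, LinearMap.baseChange_one, LinearMap.baseChange_zero,
    LinearMap.add_apply, LinearMap.sub_apply, Module.End.mul_apply, LinearMap.smul_apply,
    Module.End.one_apply, LinearMap.zero_apply] at h1
  have h2 : T.baseChange κ ((act σ).baseChange κ (w : κ ⊗[ℤ] M))
      = a • (act σ).baseChange κ (w : κ ⊗[ℤ] M) :=
    baseChange_apply_of_mem_orbitSpan hT hx (actK_mem_orbitSpan σ w.2)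
  rw [h2] at h1
  simp only [LinearMap.add_apply, LinearMap.sub_apply, Module.End.mul_apply,
    LinearMap.smul_apply, Module.End.one_apply, LinearMap.zero_apply, Submodule.coe_add,
    Submodule.coe_sub, Submodule.coe_smul, Submodule.coe_zero, coe_orbitRep_apply, actK_apply]
  rw [Int.cast_smul_eq_zsmul]
  exact h1

/-- **Abstract (EIG) datum.** A Galois module `M` with open stabilisers, operators `T i`
commuting with Galois and ONE nonzero common eigenvector in `κ ⊗[ℤ] M` give a nonzero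
finite-dimensional representation of finite level on which the `T i` are the scalars `a i`. -/
theorem exists_eig_of_module (act : GalQ →* Module.End ℤ M) (hfin : OpenStab act)
    {I : Type*} (T : I → Module.End ℤ M) (hTG : ∀ i σ, T i * act σ = act σ * T i)
    (a : I → κ) (x : κ ⊗[ℤ] M) (hx : x ≠ 0) (hxa : ∀ i, (T i).baseChange κ x = a i • x) :
    ∃ (W : Type) (_ : AddCommGroup W) (_ : Module κ W), FiniteDimensional κ W ∧ Nontrivial W ∧
      ∃ ρ : GalQ →* Module.End κ W, GaloisFactorsThroughFiniteLevel ρ ∧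
        (∀ σ, act σ = 1 → ρ σ = 1) ∧
        (∀ σ i (c : ℤ), act σ * act σ - T i * act σ + c • (1 : Module.End ℤ M) = 0 →
          ρ σ * ρ σ - a i • ρ σ + (c : κ) • (1 : Module.End κ W) = 0) := by
  refine ⟨orbitSpan act x, inferInstance, inferInstance, hfin.finiteDimensional_orbitSpan x, ?_,
    orbitRep act x, hfin.factorsThroughFiniteLevel x,
    fun σ hσ => orbitRep_eq_one_of_act_eq_one x hσ,
    fun σ i c hσ => orbitRep_quadratic (hT := hTG i) (hxa i) hσ⟩
  exact ⟨⟨⟨x, mem_orbitSpan_self x⟩, 0, fun h => hx (congrArg Subtype.val h)⟩⟩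

end Abstract

section Tors

variable {J : Type*} [AddCommGroup J] (n : ℤ)

/-- Restriction of `ℤ`-linear endomorphisms to the `n`-torsion submodule. -/
def torsRestrict : Module.End ℤ J →* Module.End ℤ (Submodule.torsionBy ℤ J n) where
  toFun f := f.restrict (p := Submodule.torsionBy ℤ J n) (q := Submodule.torsionBy ℤ J n)
    fun x hx => by
      rw [Submodule.mem_torsionBy_iff] at hx ⊢
      rw [← map_zsmul, hx, map_zero]
  map_one' := LinearMap.ext fun _ => Subtype.ext rfl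
  map_mul' _ _ := LinearMap.ext fun _ => Subtype.ext rfl

@[simp]
theorem coe_torsRestrict_apply (f : Module.End ℤ J) (x : Submodule.torsionBy ℤ J n) :
    ((torsRestrict n f x : Submodule.torsionBy ℤ J n) : J) = f (x : J) :=
  rfl

end Tors

section General

variable {J : Type} [AddCommGroup J] [DistribMulAction GalQ J]

/-- The Galois action on `J` as `ℤ`-linear endomorphisms. -/
noncomputable def galEnd (J : Type) [AddCommGroup J] [DistribMulAction GalQ J] :
    GalQ →* Module.End ℤ J :=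
  DistribMulAction.toModuleEnd ℤ J

@[simp]
theorem galEnd_apply (σ : GalQ) (x : J) : galEnd J σ x = σ • x := rfl

/-- **S29-MID, operator-wise form, for a general Galois module `J` with operators `T ℓ`.** -/
theorem eig_of_operatorwise_general (T : Nat.Primes → Module.End ℤ J) (N p : ℕ) (n : ℤ)
    (hn : ∀ x : J, n • x = 0 → ∃ k : ℕ, p ^ k • x = 0)
    (κ : Type) [Field κ] (a : Nat.Primes → κ)
    (hFL : ∀ x : J, ∃ L : IntermediateField ℚ (AlgebraicClosure ℚ),
      FiniteDimensional ℚ L ∧ ∀ σ : GalQ, (∀ y ∈ L, σ y = y) → σ • x = x)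
    (hGH : ∀ (ℓ : Nat.Primes) (σ : GalQ) (x : J), σ • T ℓ x = T ℓ (σ • x))
    (hUN : ∀ ℓ : ℕ, ℓ.Prime → ¬ ℓ ∣ N * p →
      ∀ A : ValuationSubring (AlgebraicClosure ℚ), A.LiesOverPrime ℓ →
        ∀ σ ∈ A.inertiaSubgroupIn ℚ, ∀ x : J, (∃ k : ℕ, p ^ k • x = 0) → σ • x = x)
    (hFQ : ∀ ℓ : ℕ, (hℓ : ℓ.Prime) → ¬ ℓ ∣ N * p →
      ∀ A : ValuationSubring (AlgebraicClosure ℚ), A.LiesOverPrime ℓ →
        ∀ σ : GalQ, A.IsFrobeniusAt σ ℓ → ∀ x : J, (∃ k : ℕ, p ^ k • x = 0) →
          σ • σ • x - T ⟨ℓ, hℓ⟩ (σ • x) + ℓ • x = 0)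
    (hocc : ∃ x : κ ⊗[ℤ] (Submodule.torsionBy ℤ J n), x ≠ 0 ∧
      ∀ ℓ : Nat.Primes, ¬ (ℓ : ℕ) ∣ N * p →
        (torsRestrict n (T ℓ)).baseChange κ x = a ℓ • x) :
    ∃ (W : Type) (_ : AddCommGroup W) (_ : Module κ W), FiniteDimensional κ W ∧ Nontrivial W ∧
      ∃ ρ : GalQ →* Module.End κ W, GaloisFactorsThroughFiniteLevel ρ ∧
        (∀ ℓ : ℕ, ℓ.Prime → ¬ ℓ ∣ N * p →
          ∀ A : ValuationSubring (AlgebraicClosure ℚ), A.LiesOverPrime ℓ →
            ∀ σ ∈ A.inertiaSubgroupIn ℚ, ρ σ = 1) ∧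
        (∀ ℓ : ℕ, (hℓ : ℓ.Prime) → ¬ ℓ ∣ N * p →
          ∀ A : ValuationSubring (AlgebraicClosure ℚ), A.LiesOverPrime ℓ →
            ∀ σ : GalQ, A.IsFrobeniusAt σ ℓ →
              ρ σ * ρ σ - a ⟨ℓ, hℓ⟩ • ρ σ + (ℓ : κ) • (1 : Module.End κ W) = 0) := by
  obtain ⟨x, hx, hxa⟩ := hocc
  let act : GalQ →* Module.End ℤ (Submodule.torsionBy ℤ J n) := (torsRestrict n).comp (galEnd J)
  have hact : ∀ (σ : GalQ) (y : Submodule.torsionBy ℤ J n),
      ((act σ y : Submodule.torsionBy ℤ J n) : J) = σ • (y : J) :=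
    fun σ y => rfl
  have htors : ∀ y : Submodule.torsionBy ℤ J n, ∃ k : ℕ, p ^ k • (y : J) = 0 :=
    fun y => hn _ ((Submodule.mem_torsionBy_iff _ _).1 y.2)
  have hfin : OpenStab act := by
    intro y
    obtain ⟨L, hL, hσ⟩ := hFL (y : J)
    exact ⟨L, hL, fun σ hσL => Subtype.ext ((hact σ y).trans (hσ σ hσL))⟩
  let T' : {ℓ : Nat.Primes // ¬ (ℓ : ℕ) ∣ N * p} → Module.End ℤ (Submodule.torsionBy ℤ J n) :=
    fun ℓ => torsRestrict n (T ℓ.1)
  have hTG : ∀ i σ, T' i * act σ = act σ * T' i := by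
    intro i σ
    refine LinearMap.ext fun y => Subtype.ext ?_
    show T i.1 (σ • (y : J)) = σ • T i.1 (y : J)
    exact (hGH i.1 σ _).symm
  obtain ⟨W, iW, iM, hfd, hnt, ρ, hlev, hone, hquad⟩ :=
    exists_eig_of_module act hfin T' hTG (fun i => a i.1) x hx (fun i => hxa i.1 i.2)
  refine ⟨W, iW, iM, hfd, hnt, ρ, hlev, ?_, ?_⟩
  · intro ℓ hℓ hℓN A hA σ hσ
    refine hone σ (LinearMap.ext fun y => Subtype.ext ?_)
    exact (hact σ y).trans (hUN ℓ hℓ hℓN A hA σ hσ _ (htors y))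
  · intro ℓ hℓ hℓN A hA σ hσ
    have h := hquad σ ⟨⟨ℓ, hℓ⟩, hℓN⟩ (ℓ : ℤ) (LinearMap.ext fun y => Subtype.ext ?_)
    · rwa [Int.cast_natCast] at h
    · have := hFQ ℓ hℓ hℓN A hA σ hσ (y : J) (htors y)
      simp only [LinearMap.add_apply, LinearMap.sub_apply, Module.End.mul_apply,
        LinearMap.smul_apply, Module.End.one_apply, LinearMap.zero_apply, Submodule.coe_add,
        Submodule.coe_sub, Submodule.coe_zero, hact, T',
        coe_torsRestrict_apply, natCast_zsmul]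
      exact this

/-- If Galois commutes with the operators `T ℓ`, it commutes with every polynomial in them. -/
theorem smul_eval_comm (ev : ModularCurve.HeckeAlg →+* Module.End ℤ J)
    (T : Nat.Primes → Module.End ℤ J) (hev : ∀ ℓ, ev (ModularCurve.heckeGen ℓ) = T ℓ)
    (hGH : ∀ (ℓ : Nat.Primes) (σ : GalQ) (x : J), σ • T ℓ x = T ℓ (σ • x))
    (t : ModularCurve.HeckeAlg) (σ : GalQ) (x : J) : σ • ev t x = ev t (σ • x) := by
  induction t using MvPolynomial.induction_on generalizing x with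
  | C c =>
    rw [← MvPolynomial.algebraMap_eq, eq_intCast, map_intCast, Module.End.intCast_apply,
      Module.End.intCast_apply, smul_comm]
  | add f g hf hg =>
    rw [map_add, LinearMap.add_apply, LinearMap.add_apply, smul_add, hf, hg]
  | mul_X f ℓ hf =>
    have hX : (MvPolynomial.X ℓ : ModularCurve.HeckeAlg) = ModularCurve.heckeGen ℓ := rfl
    rw [map_mul, Module.End.mul_apply, Module.End.mul_apply, hf, hX, hev, hGH]

end General

section Adapters

open ModularCurve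

variable {J : Type} [AddCommGroup J] [Module HeckeAlg J] [DistribMulAction GalQ J]
  [SMulCommClass GalQ HeckeAlg J]

set_option linter.unusedSectionVars false

/-- `SpecializationExists` gives: inertia outside `N p` acts trivially on `p`-power torsion. -/
theorem unramified_of_specializationExists (N p : ℕ)
    (h : SpecializationExists (K := ℚ) (L := AlgebraicClosure ℚ) N p J) :
    ∀ ℓ : ℕ, ℓ.Prime → ¬ ℓ ∣ N * p →
      ∀ A : ValuationSubring (AlgebraicClosure ℚ), A.LiesOverPrime ℓ →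
        ∀ σ ∈ A.inertiaSubgroupIn ℚ, ∀ x : J, (∃ k : ℕ, p ^ k • x = 0) → σ • x = x := by
  intro ℓ hℓ hℓN A hA σ hσ x ⟨k, hk⟩
  obtain ⟨J', _, _, sp, F, hS, -⟩ := h ℓ hℓ hℓN A hA
  have h0 : σ • x - x = 0 := by
    refine hS.injective_torsion _ ⟨k, ?_⟩ ?_
    · rw [smul_sub, smul_comm, hk, smul_zero, sub_zero]
    · rw [map_sub, hS.inertia_comm σ hσ x, sub_self]
  exact sub_eq_zero.1 h0

/-- `SpecializationExists` gives the Eichler–Shimura relation on `p`-power torsion
(operator-wise: `T ℓ` is the endomorphism by which `heckeGen ℓ` acts). -/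
theorem frobeniusQuadratic_of_specializationExists (N p : ℕ)
    (h : SpecializationExists (K := ℚ) (L := AlgebraicClosure ℚ) N p J)
    (T : Nat.Primes → Module.End ℤ J) (hT : ∀ (ℓ : Nat.Primes) (x : J), heckeGen ℓ • x = T ℓ x) :
    ∀ ℓ : ℕ, (hℓ : ℓ.Prime) → ¬ ℓ ∣ N * p →
      ∀ A : ValuationSubring (AlgebraicClosure ℚ), A.LiesOverPrime ℓ →
        ∀ σ : GalQ, A.IsFrobeniusAt σ ℓ → ∀ x : J, (∃ k : ℕ, p ^ k • x = 0) →
          σ • σ • x - T ⟨ℓ, hℓ⟩ (σ • x) + ℓ • x = 0 := by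
  intro ℓ hℓ hℓN A hA σ hσ x ⟨k, hk⟩
  obtain ⟨J', _, _, sp, F, hS, hF⟩ := h ℓ hℓ hℓN A hA
  have hT' : T ⟨ℓ, hℓ⟩ (σ • x) = heckeGen ⟨ℓ, hℓ⟩ • (σ • x) := (hT ⟨ℓ, hℓ⟩ (σ • x)).symm
  rw [hT']
  refine hS.injective_torsion _ ⟨k, ?_⟩ ?_
  · rw [smul_add, smul_sub, smul_comm (p ^ k) σ (σ • x), smul_comm (p ^ k) σ x,
      smul_comm (p ^ k) (heckeGen ⟨ℓ, hℓ⟩) (σ • x), smul_comm (p ^ k) σ x,
      smul_comm (p ^ k) ℓ x, hk]
    simp
  · rw [map_add, map_sub, hS.frobenius_comm σ hσ, hS.frobenius_comm σ hσ, hS.hecke_comm,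
      hS.frobenius_comm σ hσ, map_nsmul]
    exact hF (sp x)

end Adapters

section Concrete

open ModularCurve

variable (N : ℕ) [NeZero N]

/-- Galois commutes with the Prelude Hecke module structure, given operator-wise commutation. -/
theorem smulCommClass_of_galHecke (hcomm : HeckeOperatorsCommuteBar N)
    (hGH : ∀ (ℓ : Nat.Primes) (σ : GalQ) (x : JZero N),
      σ • heckeOperatorBar N ℓ x = heckeOperatorBar N ℓ (σ • x)) :
    letI := heckeModuleBar N
    SMulCommClass GalQ HeckeAlg (JZero N) :=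
  letI := heckeModuleBar N
  ⟨fun σ t x => by
    rw [heckeModuleBar_smul_def hcomm, heckeModuleBar_smul_def hcomm]
    exact smul_eval_comm (heckeEvalBar hcomm) (heckeOperatorBar N)
      (fun ℓ => heckeEvalBar_heckeGen hcomm ℓ) hGH t σ x⟩

/-- **S29-MID, operator-wise form on `JZero N`** (see `eig_of_operatorwise_general`). -/
theorem eig_of_operatorwise (p m : ℕ) (κ : Type) [Field κ] (a : Nat.Primes → κ)
    (hFL : ∀ x : JZero N, ∃ L : IntermediateField ℚ (AlgebraicClosure ℚ),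
      FiniteDimensional ℚ L ∧ ∀ σ : GalQ, (∀ y ∈ L, σ y = y) → σ • x = x)
    (hGH : ∀ (ℓ : Nat.Primes) (σ : GalQ) (x : JZero N),
      σ • heckeOperatorBar N ℓ x = heckeOperatorBar N ℓ (σ • x))
    (hUN : ∀ ℓ : ℕ, ℓ.Prime → ¬ ℓ ∣ N * p →
      ∀ A : ValuationSubring (AlgebraicClosure ℚ), A.LiesOverPrime ℓ →
        ∀ σ ∈ A.inertiaSubgroupIn ℚ, ∀ x : JZero N, (∃ k : ℕ, p ^ k • x = 0) → σ • x = x)
    (hFQ : ∀ ℓ : ℕ, (hℓ : ℓ.Prime) → ¬ ℓ ∣ N * p →
      ∀ A : ValuationSubring (AlgebraicClosure ℚ), A.LiesOverPrime ℓ →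
        ∀ σ : GalQ, A.IsFrobeniusAt σ ℓ → ∀ x : JZero N, (∃ k : ℕ, p ^ k • x = 0) →
          σ • σ • x - heckeOperatorBar N ⟨ℓ, hℓ⟩ (σ • x) + ℓ • x = 0)
    (hocc : ∃ x : κ ⊗[ℤ] (Submodule.torsionBy ℤ (JZero N) ((p ^ m : ℕ) : ℤ)), x ≠ 0 ∧
      ∀ ℓ : Nat.Primes, ¬ (ℓ : ℕ) ∣ N * p →
        (torsRestrict ((p ^ m : ℕ) : ℤ) (heckeOperatorBar N ℓ)).baseChange κ x = a ℓ • x) :
    ∃ (W : Type) (_ : AddCommGroup W) (_ : Module κ W), FiniteDimensional κ W ∧ Nontrivial W ∧
      ∃ ρ : GalQ →* Module.End κ W, GaloisFactorsThroughFiniteLevel ρ ∧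
        (∀ ℓ : ℕ, ℓ.Prime → ¬ ℓ ∣ N * p →
          ∀ A : ValuationSubring (AlgebraicClosure ℚ), A.LiesOverPrime ℓ →
            ∀ σ ∈ A.inertiaSubgroupIn ℚ, ρ σ = 1) ∧
        (∀ ℓ : ℕ, (hℓ : ℓ.Prime) → ¬ ℓ ∣ N * p →
          ∀ A : ValuationSubring (AlgebraicClosure ℚ), A.LiesOverPrime ℓ →
            ∀ σ : GalQ, A.IsFrobeniusAt σ ℓ →
              ρ σ * ρ σ - a ⟨ℓ, hℓ⟩ • ρ σ + (ℓ : κ) • (1 : Module.End κ W) = 0) :=
  eig_of_operatorwise_general (J := JZero N) (heckeOperatorBar N) N p ((p ^ m : ℕ) : ℤ)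
    (fun x hx => ⟨m, by rwa [natCast_zsmul] at hx⟩) κ a hFL hGH hUN hFQ hocc

/-- **S29-MID, frozen-S37 form.**  `hS37` is the conclusion of the frozen statement S37 (after
feeding `hcomm`); together with GALHECKE (`hGH`), FINLEVEL (`hFL`) and ONE nonzero eigenvector
in `κ ⊗[ℤ] J[p^m]` it yields the (EIG) datum. -/
theorem eig_of_specialization (p m : ℕ) (hcomm : HeckeOperatorsCommuteBar N)
    (hS37 : letI := heckeModuleBar N
      ∀ (_ : SMulCommClass GalQ HeckeAlg (JZero N)),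
        SpecializationExists (K := ℚ) (L := AlgebraicClosure ℚ) N p (JZero N))
    (κ : Type) [Field κ] (a : Nat.Primes → κ)
    (hFL : ∀ x : JZero N, ∃ L : IntermediateField ℚ (AlgebraicClosure ℚ),
      FiniteDimensional ℚ L ∧ ∀ σ : GalQ, (∀ y ∈ L, σ y = y) → σ • x = x)
    (hGH : ∀ (ℓ : Nat.Primes) (σ : GalQ) (x : JZero N),
      σ • heckeOperatorBar N ℓ x = heckeOperatorBar N ℓ (σ • x))
    (hocc : ∃ x : κ ⊗[ℤ] (Submodule.torsionBy ℤ (JZero N) ((p ^ m : ℕ) : ℤ)), x ≠ 0 ∧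
      ∀ ℓ : Nat.Primes, ¬ (ℓ : ℕ) ∣ N * p →
        (torsRestrict ((p ^ m : ℕ) : ℤ) (heckeOperatorBar N ℓ)).baseChange κ x = a ℓ • x) :
    ∃ (W : Type) (_ : AddCommGroup W) (_ : Module κ W), FiniteDimensional κ W ∧ Nontrivial W ∧
      ∃ ρ : GalQ →* Module.End κ W, GaloisFactorsThroughFiniteLevel ρ ∧
        (∀ ℓ : ℕ, ℓ.Prime → ¬ ℓ ∣ N * p →
          ∀ A : ValuationSubring (AlgebraicClosure ℚ), A.LiesOverPrime ℓ →
            ∀ σ ∈ A.inertiaSubgroupIn ℚ, ρ σ = 1) ∧
        (∀ ℓ : ℕ, (hℓ : ℓ.Prime) → ¬ ℓ ∣ N * p →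
          ∀ A : ValuationSubring (AlgebraicClosure ℚ), A.LiesOverPrime ℓ →
            ∀ σ : GalQ, A.IsFrobeniusAt σ ℓ →
              ρ σ * ρ σ - a ⟨ℓ, hℓ⟩ • ρ σ + (ℓ : κ) • (1 : Module.End κ W) = 0) := by
  have hsc := smulCommClass_of_galHecke N hcomm hGH
  have hspec := hS37 hsc
  exact eig_of_operatorwise N p m κ a hFL hGH
    (@unramified_of_specializationExists (JZero N) _ (heckeModuleBar N) _ hsc N p hspec)
    (@frobeniusQuadratic_of_specializationExists (JZero N) _ (heckeModuleBar N) _ hsc N p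
      hspec (heckeOperatorBar N) (heckeModuleBar_heckeGen_smul hcomm)) hocc

end Concrete

end Fermat.Agent.S29.helper405
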