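import Mathlib
import Fermat.Prelude.Def_CuspForm_HeckeAlgebra
import Fermat.Prelude.Def_FLTPrelim_Modularity
import Fermat.Agent.S49.helper529_Hecke
import Fermat.Agent.S22

/-!
# S29-INT: eigen-relations, eigencharacter and integrality of a normalised eigenform

For `N ≠ 0` and a weight-2 cusp form `g` on `Γ₀(N)` with `g.IsNormalizedEigenform`
(a condition on `q`-coefficients only) we prove

* `heckeTLin_apply_eq_smul` / `heckeULin_apply_eq_smul`: `g` is an eigenvector of every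
  `T_ℓ` (`ℓ ∤ N`) and every `U_q` (`q ∣ N`), with eigenvalue the `ℓ`-th `q`-coefficient;
* `apply_eq_eigVal_smul`: every element `T` of the Hecke algebra `heckeAlgebra N 2 S` acts on `g`
  by the scalar `eigVal g T := qCoeff (T g) 1`;
* `eigVal_mem_integralClosure`: that scalar is an algebraic integer (input: the landed S22,
  finiteness of the Hecke algebra over `ℤ`);
* `eigenCharacter`: the resulting ring homomorphism
  `heckeAlgebra N 2 S →+* integralClosure ℤ ℂ`;
* `qCoeff_mem_integralClosure`: EVERY `q`-coefficient of `g` is an algebraic integer.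
-/

set_option autoImplicit false

open CuspForm CongruenceSubgroup ModularFormClass

namespace Fermat.Agent.S29.helper7617

open Fermat.Agent.S49.helper529

variable {N : ℕ} {g : CuspForm (Gamma0 N) 2}

/-! ### `q`-coefficient identities -/

/-- `a_{ℓ^r m} = a_{ℓ^r} a_m` for `ℓ ∤ m`. -/
theorem qCoeff_pow_mul (hg : g.IsNormalizedEigenform) {ℓ : ℕ} (hℓ : ℓ.Prime) (r m : ℕ)
    (hm : ¬ ℓ ∣ m) :
    qCoeff g (ℓ ^ r * m) = qCoeff g (ℓ ^ r) * qCoeff g m :=
  hg.qCoeff_mul_of_coprime _ _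
    (Nat.Coprime.pow_left r ((Nat.Prime.coprime_iff_not_dvd hℓ).2 hm))

/-- The `T_ℓ`-eigen-relation on `q`-coefficients, `ℓ ∤ N`. -/
theorem qCoeff_rel_of_not_dvd (hg : g.IsNormalizedEigenform) {ℓ : ℕ} (hℓ : ℓ.Prime)
    (hℓN : ¬ ℓ ∣ N) (n : ℕ) :
    qCoeff g (n * ℓ) + (if ℓ ∣ n then (ℓ : ℂ) * qCoeff g (n / ℓ) else 0) =
      qCoeff g ℓ * qCoeff g n := by
  rcases Nat.eq_zero_or_pos n with rfl | hn
  · simp [qCoeff_zero_eq]
  obtain ⟨r, m, hm, rfl⟩ := Nat.exists_eq_pow_mul_and_not_dvd hn.ne' ℓ hℓ.ne_one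
  rcases r with _ | r
  · rw [pow_zero, one_mul, if_neg hm, add_zero, mul_comm m ℓ]
    have h := qCoeff_pow_mul hg hℓ 1 m hm
    rwa [pow_one] at h
  · have h1 : ℓ ^ (r + 1) * m * ℓ = ℓ ^ (r + 2) * m := by ring
    have h2 : ℓ ^ (r + 1) * m / ℓ = ℓ ^ r * m := by
      rw [pow_succ, mul_assoc, mul_comm ℓ m, ← mul_assoc]
      exact Nat.mul_div_cancel _ hℓ.pos
    have h3 : ℓ ∣ ℓ ^ (r + 1) * m := Dvd.dvd.mul_right (dvd_pow_self ℓ (Nat.succ_ne_zero r)) m
    rw [if_pos h3, h1, h2, qCoeff_pow_mul hg hℓ (r + 2) m hm, qCoeff_pow_mul hg hℓ r m hm,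
      qCoeff_pow_mul hg hℓ (r + 1) m hm, hg.qCoeff_prime_pow_of_not_dvd ℓ r hℓ hℓN]
    ring

/-- The `U_q`-eigen-relation on `q`-coefficients, `q ∣ N`. -/
theorem qCoeff_rel_of_dvd (hg : g.IsNormalizedEigenform) {q : ℕ} (hq : q.Prime)
    (hqN : q ∣ N) (n : ℕ) :
    qCoeff g (n * q) = qCoeff g q * qCoeff g n := by
  rcases Nat.eq_zero_or_pos n with rfl | hn
  · simp [qCoeff_zero_eq]
  obtain ⟨r, m, hm, rfl⟩ := Nat.exists_eq_pow_mul_and_not_dvd hn.ne' q hq.ne_one
  rcases r with _ | r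
  · rw [pow_zero, one_mul, mul_comm m q]
    have h := qCoeff_pow_mul hg hq 1 m hm
    rwa [pow_one] at h
  · have h1 : q ^ (r + 1) * m * q = q ^ (r + 2) * m := by ring
    rw [h1, qCoeff_pow_mul hg hq (r + 2) m hm, qCoeff_pow_mul hg hq (r + 1) m hm]
    rcases r with _ | r
    · have h := hg.qCoeff_prime_pow_of_dvd q 0 hq hqN
      rw [h]
      ring
    · rw [hg.qCoeff_prime_pow_of_dvd q (r + 1) hq hqN]
      ring

/-- A normalised eigenform is nonzero. -/
theorem ne_zero_of_isNormalizedEigenform (hg : g.IsNormalizedEigenform) : g ≠ 0 := by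
  intro h0
  have h1 := hg.qCoeff_one
  have h2 : qCoeff (⇑((0 : ℂ) • g)) 1 = 0 := by rw [qCoeff_smulC]; ring
  rw [zero_smul, ← h0, h1] at h2
  exact one_ne_zero h2

/-! ### Eigen-relations for the Hecke operators -/

/-- `T_ℓ g = a_ℓ • g` for `ℓ ∤ N`. -/
theorem heckeTLin_apply_eq_smul (hg : g.IsNormalizedEigenform) {ℓ : ℕ} (hℓ : ℓ.Prime)
    (hℓN : ¬ ℓ ∣ N) :
    CuspForm.heckeTLin 2 hℓ hℓN g = qCoeff g ℓ • g := by
  have : NeZero N := ⟨fun h => hℓN (h ▸ dvd_zero ℓ)⟩
  rw [← sub_eq_zero]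
  apply eq_zero_of_qCoeff_eq_zero
  intro n
  rw [qCoeff_subC, qCoeff_smulC, qCoeff_heckeTLin hℓ hℓN, qCoeff_rel_of_not_dvd hg hℓ hℓN n]
  ring

/-- `U_q g = a_q • g` for `q ∣ N`. -/
theorem heckeULin_apply_eq_smul [NeZero N] (hg : g.IsNormalizedEigenform) {q : ℕ}
    (hq : q.Prime) (hqN : q ∣ N) :
    CuspForm.heckeULin 2 hqN g = qCoeff g q • g := by
  rw [← sub_eq_zero]
  apply eq_zero_of_qCoeff_eq_zero
  intro n
  rw [qCoeff_subC, qCoeff_smulC, qCoeff_heckeULin hq.ne_zero hqN, qCoeff_rel_of_dvd hg hq hqN n]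
  ring

/-! ### The eigencharacter -/

/-- The eigenvalue of an endomorphism `T` on `g` (meaningful when `g` is an eigenvector of `T`):
the first `q`-coefficient of `T g`. -/
noncomputable def eigVal (g : CuspForm (Gamma0 N) 2)
    (T : Module.End ℂ (CuspForm (Gamma0 N) 2)) : ℂ :=
  qCoeff (T g) 1

theorem eigVal_eq_of_apply_eq_smul (hg : g.IsNormalizedEigenform)
    {T : Module.End ℂ (CuspForm (Gamma0 N) 2)} {c : ℂ} (h : T g = c • g) : eigVal g T = c := by
  unfold eigVal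
  rw [h, qCoeff_smulC, hg.qCoeff_one, mul_one]

/-- Every element of the Hecke algebra acts on a normalised eigenform by a scalar. -/
theorem exists_apply_eq_smul [NeZero N] (hg : g.IsNormalizedEigenform) (S : Set ℕ)
    {T : Module.End ℂ (CuspForm (Gamma0 N) 2)} (hT : T ∈ CuspForm.heckeAlgebra N 2 S) :
    ∃ c : ℂ, T g = c • g := by
  unfold CuspForm.heckeAlgebra at hT
  induction hT using Algebra.adjoin_induction with
  | mem x hx =>
    rcases hx with ⟨ℓ, hℓ, hℓN, -, rfl⟩ | ⟨q, hqN, hq, -, rfl⟩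
    · exact ⟨_, heckeTLin_apply_eq_smul hg hℓ hℓN⟩
    · exact ⟨_, heckeULin_apply_eq_smul hg hq hqN⟩
  | algebraMap r =>
    refine ⟨(r : ℂ), ?_⟩
    rw [Algebra.algebraMap_eq_smul_one, LinearMap.smul_apply, Module.End.one_apply]
    exact (Int.cast_smul_eq_zsmul ℂ r g).symm
  | add x y _ _ hx hy =>
    obtain ⟨c, hc⟩ := hx
    obtain ⟨d, hd⟩ := hy
    exact ⟨c + d, by rw [LinearMap.add_apply, hc, hd, add_smul]⟩
  | mul x y _ _ hx hy =>
    obtain ⟨c, hc⟩ := hx
    obtain ⟨d, hd⟩ := hy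
    exact ⟨d * c, by rw [Module.End.mul_apply, hd, map_smul, hc, smul_smul]⟩

/-- Every element of the Hecke algebra acts on a normalised eigenform by `eigVal`. -/
theorem apply_eq_eigVal_smul [NeZero N] (hg : g.IsNormalizedEigenform) (S : Set ℕ)
    {T : Module.End ℂ (CuspForm (Gamma0 N) 2)} (hT : T ∈ CuspForm.heckeAlgebra N 2 S) :
    T g = eigVal g T • g := by
  obtain ⟨c, hc⟩ := exists_apply_eq_smul hg S hT
  rw [eigVal_eq_of_apply_eq_smul hg hc, hc]

theorem eigVal_heckeTLin (hg : g.IsNormalizedEigenform) {ℓ : ℕ} (hℓ : ℓ.Prime)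
    (hℓN : ¬ ℓ ∣ N) : eigVal g (CuspForm.heckeTLin 2 hℓ hℓN) = qCoeff g ℓ :=
  eigVal_eq_of_apply_eq_smul hg (heckeTLin_apply_eq_smul hg hℓ hℓN)

theorem eigVal_heckeULin [NeZero N] (hg : g.IsNormalizedEigenform) {q : ℕ} (hq : q.Prime)
    (hqN : q ∣ N) : eigVal g (CuspForm.heckeULin 2 hqN) = qCoeff g q :=
  eigVal_eq_of_apply_eq_smul hg (heckeULin_apply_eq_smul hg hq hqN)

/-- The eigenvalue of a Hecke-algebra element on a normalised eigenform is an algebraic
integer.  Input: finiteness of the Hecke algebra over `ℤ` (S22). -/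
theorem eigVal_mem_integralClosure [NeZero N] (hg : g.IsNormalizedEigenform) (S : Set ℕ)
    {T : Module.End ℂ (CuspForm (Gamma0 N) 2)} (hT : T ∈ CuspForm.heckeAlgebra N 2 S) :
    eigVal g T ∈ integralClosure ℤ ℂ := by
  have : Module.Finite ℤ (CuspForm.heckeAlgebra N 2 S) := Fermat.Agent.S22.result N 2 S
  obtain ⟨P, hP, hP0⟩ :=
    IsIntegral.of_finite ℤ (⟨T, hT⟩ : CuspForm.heckeAlgebra N 2 S)
  have hP1 : Polynomial.aeval T P = 0 := by
    have h : Polynomial.aeval (⟨T, hT⟩ : CuspForm.heckeAlgebra N 2 S) P = 0 := by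
      rw [Polynomial.aeval_def]; exact hP0
    have h' := Polynomial.aeval_algHom_apply (CuspForm.heckeAlgebra N 2 S).val
      (⟨T, hT⟩ : CuspForm.heckeAlgebra N 2 S) P
    rw [h, map_zero] at h'
    exact h'
  have hev : Module.End.HasEigenvector T (eigVal g T) g :=
    ⟨Module.End.mem_eigenspace_iff.2 (apply_eq_eigVal_smul hg S hT),
      ne_zero_of_isNormalizedEigenform hg⟩
  have h2 := Module.End.aeval_apply_of_hasEigenvector (p := P.map (algebraMap ℤ ℂ)) hev
  rw [Polynomial.aeval_map_algebraMap, hP1, LinearMap.zero_apply] at h2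
  have h3 : Polynomial.eval (eigVal g T) (P.map (algebraMap ℤ ℂ)) = 0 := by
    by_contra hne
    exact ne_zero_of_isNormalizedEigenform hg ((smul_eq_zero.1 h2.symm).resolve_left hne)
  exact ⟨P, hP, by rw [← Polynomial.eval_map]; exact h3⟩

/-- The eigencharacter of a normalised eigenform on the Hecke algebra away from `S`,
valued in the algebraic integers. -/
noncomputable def eigenCharacter [NeZero N] (hg : g.IsNormalizedEigenform) (S : Set ℕ) :
    CuspForm.heckeAlgebra N 2 S →+* integralClosure ℤ ℂ where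
  toFun T := ⟨eigVal g (T : Module.End ℂ (CuspForm (Gamma0 N) 2)),
    eigVal_mem_integralClosure hg S T.2⟩
  map_one' := by
    apply Subtype.ext
    show eigVal g (1 : Module.End ℂ (CuspForm (Gamma0 N) 2)) = 1
    exact eigVal_eq_of_apply_eq_smul hg (by rw [Module.End.one_apply, one_smul])
  map_mul' T₁ T₂ := by
    apply Subtype.ext
    show eigVal g ((T₁ : Module.End ℂ (CuspForm (Gamma0 N) 2)) * T₂) = eigVal g T₁ * eigVal g T₂
    apply eigVal_eq_of_apply_eq_smul hg
    rw [Module.End.mul_apply, apply_eq_eigVal_smul hg S T₂.2, map_smul,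
      apply_eq_eigVal_smul hg S T₁.2, smul_smul, mul_comm]
  map_zero' := by
    apply Subtype.ext
    show eigVal g (0 : Module.End ℂ (CuspForm (Gamma0 N) 2)) = 0
    exact eigVal_eq_of_apply_eq_smul hg (by rw [LinearMap.zero_apply, zero_smul])
  map_add' T₁ T₂ := by
    apply Subtype.ext
    show eigVal g ((T₁ : Module.End ℂ (CuspForm (Gamma0 N) 2)) + T₂) = eigVal g T₁ + eigVal g T₂
    apply eigVal_eq_of_apply_eq_smul hg
    rw [LinearMap.add_apply, apply_eq_eigVal_smul hg S T₂.2, apply_eq_eigVal_smul hg S T₁.2,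
      add_smul]

theorem eigenCharacter_apply_coe [NeZero N] (hg : g.IsNormalizedEigenform) (S : Set ℕ)
    (T : CuspForm.heckeAlgebra N 2 S) :
    ((eigenCharacter hg S T : integralClosure ℤ ℂ) : ℂ) =
      eigVal g (T : Module.End ℂ (CuspForm (Gamma0 N) 2)) := rfl

/-- `T g = χ_g(T) • g` for every `T` in the Hecke algebra. -/
theorem apply_eq_eigenCharacter_smul [NeZero N] (hg : g.IsNormalizedEigenform) (S : Set ℕ)
    (T : CuspForm.heckeAlgebra N 2 S) :
    (T : Module.End ℂ (CuspForm (Gamma0 N) 2)) g =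
      ((eigenCharacter hg S T : integralClosure ℤ ℂ) : ℂ) • g :=
  apply_eq_eigVal_smul hg S T.2

/-- `χ_g(T_ℓ) = a_ℓ`. -/
theorem eigenCharacter_T [NeZero N] (hg : g.IsNormalizedEigenform) {S : Set ℕ} {ℓ : ℕ}
    (hℓ : ℓ.Prime) (hℓN : ¬ ℓ ∣ N) (hℓS : ℓ ∉ S) :
    ((eigenCharacter hg S (CuspForm.heckeAlgebra.T hℓ hℓN hℓS) : integralClosure ℤ ℂ) : ℂ) =
      qCoeff g ℓ :=
  eigVal_heckeTLin hg hℓ hℓN

/-- `χ_g(U_q) = a_q`. -/
theorem eigenCharacter_U [NeZero N] (hg : g.IsNormalizedEigenform) {S : Set ℕ} {q : ℕ}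
    (hq : q.Prime) (hqN : q ∣ N) (hqS : q ∉ S) :
    ((eigenCharacter hg S (CuspForm.heckeAlgebra.U hq hqN hqS) : integralClosure ℤ ℂ) : ℂ) =
      qCoeff g q :=
  eigVal_heckeULin hg hq hqN

/-! ### Integrality of all `q`-coefficients -/

/-- The prime-index coefficients of a normalised eigenform of level `N ≠ 0` are algebraic
integers. -/
theorem qCoeff_prime_mem_integralClosure [NeZero N] (hg : g.IsNormalizedEigenform) {ℓ : ℕ}
    (hℓ : ℓ.Prime) : qCoeff g ℓ ∈ integralClosure ℤ ℂ := by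
  by_cases hℓN : ℓ ∣ N
  · rw [← eigVal_heckeULin hg hℓ hℓN]
    exact eigVal_mem_integralClosure hg ∅
      (CuspForm.heckeULin_mem_heckeAlgebra hℓ hℓN (Set.notMem_empty ℓ))
  · rw [← eigVal_heckeTLin hg hℓ hℓN]
    exact eigVal_mem_integralClosure hg ∅
      (CuspForm.heckeTLin_mem_heckeAlgebra hℓ hℓN (Set.notMem_empty ℓ))

/-- **S29-INT.** Every `q`-coefficient of a normalised weight-2 eigenform of level `N ≠ 0`
is an algebraic integer. -/
theorem qCoeff_mem_integralClosure [NeZero N] (hg : g.IsNormalizedEigenform) (n : ℕ) :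
    qCoeff g n ∈ integralClosure ℤ ℂ := by
  induction n using Nat.strong_induction_on with
  | _ n ih =>
    rcases Nat.lt_or_ge n 2 with h | h
    · interval_cases n
      · rw [qCoeff_zero_eq]; exact zero_mem _
      · rw [hg.qCoeff_one]; exact one_mem _
    · obtain ⟨ℓ, hℓ, hℓn⟩ : ∃ ℓ : ℕ, ℓ.Prime ∧ ℓ ∣ n :=
        ⟨n.minFac, Nat.minFac_prime (by omega), Nat.minFac_dvd n⟩
      obtain ⟨r, m, hm, hn⟩ :=
        Nat.exists_eq_pow_mul_and_not_dvd (by omega : n ≠ 0) ℓ hℓ.ne_one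
      have hr : r ≠ 0 := by
        rintro rfl
        rw [pow_zero, one_mul] at hn
        exact hm (hn ▸ hℓn)
      have hm0 : m ≠ 0 := by
        rintro rfl
        omega
      have hpow : 2 ≤ ℓ ^ r :=
        le_trans hℓ.two_le (Nat.le_self_pow hr _)
      clear hℓn
      subst hn
      by_cases hm1 : m = 1
      · subst hm1
        rw [mul_one] at ih ⊢
        rcases r with _ | _ | r
        · exact absurd rfl hr
        · rw [pow_one]
          exact qCoeff_prime_mem_integralClosure hg hℓ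
        · have hlt1 : ℓ ^ (r + 1) < ℓ ^ (r + 1 + 1) :=
            Nat.pow_lt_pow_right hℓ.one_lt (by omega)
          have hlt0 : ℓ ^ r < ℓ ^ (r + 1 + 1) :=
            Nat.pow_lt_pow_right hℓ.one_lt (by omega)
          have hp := qCoeff_prime_mem_integralClosure hg hℓ
          by_cases hℓN : ℓ ∣ N
          · rw [hg.qCoeff_prime_pow_of_dvd _ r hℓ hℓN]
            exact mul_mem hp (ih _ hlt1)
          · rw [hg.qCoeff_prime_pow_of_not_dvd _ r hℓ hℓN]
            exact sub_mem (mul_mem hp (ih _ hlt1)) (mul_mem (natCast_mem _ _) (ih _ hlt0))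
      · have hm2 : 2 ≤ m := by omega
        have hlt1 : ℓ ^ r < ℓ ^ r * m := by nlinarith
        have hlt2 : m < ℓ ^ r * m := by nlinarith
        rw [qCoeff_pow_mul hg hℓ r m hm]
        exact mul_mem (ih _ hlt1) (ih _ hlt2)

/-- The clause of `ResidualGaloisRep.IsAttachedTo` about integrality, in the exact shape
consumed by the endgame. -/
theorem exists_integralClosure_eq_qCoeff [NeZero N] (hg : g.IsNormalizedEigenform) (n : ℕ) :
    ∃ a : integralClosure ℤ ℂ, (a : ℂ) = qCoeff g n :=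
  ⟨⟨_, qCoeff_mem_integralClosure hg n⟩, rfl⟩

end Fermat.Agent.S29.helper7617
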