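import Fermat.Agent.S29.helper9550_DimTwo

/-!
# S29, leaf M10b (continued): generator form and `Module.End` form of the dimension-two lemma

* `QuadRel.pow` : a quadratic relation `X² - a X + e = 0` for `ρ h` gives a quadratic relation
  `Y² - s Y + e ^ n = 0` for `ρ (h ^ n)` (Lucas sequences), so a relation at ONE generator of a
  cyclic subgroup gives relations at all its elements.
* `exists_matrix_rep_gen` : the dimension-two lemma under the generator hypothesis
  (only "generator-Chebotarev" is needed from arithmetic).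
* `exists_end_rep`, `exists_end_rep_gen` : the same with values in `Module.End F (Fin 2 → F)` and
  `LinearMap.charpoly`, plus `Module.finrank F (Fin 2 → F) = 2`.
-/

set_option autoImplicit false

namespace Fermat.Agent.S29.helper9550

open Polynomial

variable {F : Type*} [Field F] {G : Type*} [Group G]

/-- Lucas-sequence divisibility: `X² - a X + e` divides `X^(2k) - s X^k + e^k` for a suitable
scalar `s` (the `k`-th power sum of the two roots). -/
theorem poly_pow_rel (a e : F) (k : ℕ) :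
    ∃ s : F, (X ^ 2 - C a * X + C e : F[X]) ∣ X ^ k * X ^ k - C s * X ^ k + C (e ^ k) := by
  have h1 : ∀ k : ℕ, (∃ s : F, (X ^ 2 - C a * X + C e : F[X]) ∣ X ^ k + (C a - X) ^ k - C s) ∧
      (∃ s : F, (X ^ 2 - C a * X + C e : F[X]) ∣ X ^ (k + 1) + (C a - X) ^ (k + 1) - C s) := by
    intro k
    induction k with
    | zero =>
      refine ⟨⟨2, ⟨0, ?_⟩⟩, ⟨a, ⟨0, ?_⟩⟩⟩
      · simp only [pow_zero, mul_zero]
        rw [show (C (2 : F) : F[X]) = 2 from map_ofNat C 2]
        ring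
      · ring
    | succ k ih =>
      obtain ⟨⟨s0, q0, hq0⟩, ⟨s1, q1, hq1⟩⟩ := ih
      refine ⟨⟨s1, q1, hq1⟩, ⟨a * s1 - e * s0, ⟨C a * q1 - C e * q0 + (X ^ k + (C a - X) ^ k), ?_⟩⟩⟩
      simp only [map_sub, map_mul]
      linear_combination C a * hq1 - C e * hq0
  obtain ⟨⟨s, q, hq⟩, -⟩ := h1 k
  have hxy : X ^ k * (C a - X) ^ k = (C e - (X ^ 2 - C a * X + C e : F[X])) ^ k := by
    rw [← mul_pow]
    congr 1
    ring
  obtain ⟨r, hr⟩ : (X ^ 2 - C a * X + C e : F[X]) ∣
      (C e) ^ k - (C e - (X ^ 2 - C a * X + C e : F[X])) ^ k := by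
    have h2 := sub_dvd_pow_sub_pow (C e : F[X]) (C e - (X ^ 2 - C a * X + C e : F[X])) k
    rwa [sub_sub_cancel] at h2
  refine ⟨s, ⟨q * X ^ k + r, ?_⟩⟩
  rw [map_pow]
  linear_combination X ^ k * hq - hxy + hr

section Rel

variable {W : Type*} [AddCommGroup W] [Module F W]

theorem QuadRel.aeval_eq_zero {X₀ : Module.End F W} {a e : F} (h : QuadRel X₀ a e) :
    aeval X₀ (X ^ 2 - C a * X + C e : F[X]) = 0 := by
  unfold QuadRel at h
  rw [← h]
  simp [pow_two, Algebra.smul_def]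

/-- Powers of an endomorphism satisfying a quadratic relation satisfy quadratic relations. -/
theorem QuadRel.pow_end {X₀ : Module.End F W} {a e : F} (h : QuadRel X₀ a e) (k : ℕ) :
    ∃ s : F, QuadRel (X₀ ^ k) s (e ^ k) := by
  obtain ⟨s, q, hq⟩ := poly_pow_rel a e k
  refine ⟨s, ?_⟩
  have h2 := congrArg (aeval X₀) hq
  rw [map_mul, h.aeval_eq_zero, zero_mul] at h2
  unfold QuadRel
  rw [← h2]
  simp [Algebra.smul_def]

/-- Generator form: a relation at `h` gives a relation at every power `h ^ n`. -/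
theorem QuadRel.pow (ρ : G →* Module.End F W) (ε : G →* Fˣ) (h : G) {a : F}
    (hrel : QuadRel (ρ h) a (ε h)) (n : ℕ) :
    ∃ t : F, QuadRel (ρ (h ^ n)) t (ε (h ^ n)) := by
  obtain ⟨s, hs⟩ := hrel.pow_end n
  exact ⟨s, by rw [map_pow, map_pow, Units.val_pow_eq_pow_val]; exact hs⟩

end Rel

section Main

variable {M : Type*} [AddCommGroup M] [Module F M]

/-- **Dimension-two lemma, generator form.**  It suffices that every `g` acts on `M` (and has
the same `ε`) as a power of some `h` satisfying a quadratic relation. -/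
theorem exists_matrix_rep_gen [IsAlgClosed F] [FiniteDimensional F M] [Nontrivial M]
    (ρM : G →* Module.End F M) (ε : G →* Fˣ)
    (hgen : ∀ g, ∃ (h : G) (n : ℕ) (t : F),
      ρM g = ρM (h ^ n) ∧ ε g = ε (h ^ n) ∧ QuadRel (ρM h) t (ε h)) :
    ∃ ρ : G →* Matrix (Fin 2) (Fin 2) F,
      (∀ g t, QuadRel (ρM g) t (ε g) →
        (ρ g).charpoly = X ^ 2 - C t * X + C ((ε g : Fˣ) : F)) ∧
      (∀ g, ρM g = 1 → ε g = 1 → ρ g = 1) := by
  refine exists_matrix_rep ρM ε (fun g => ?_)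
  obtain ⟨h, n, t, h1, h2, h3⟩ := hgen g
  obtain ⟨s, hs⟩ := QuadRel.pow ρM ε h h3 n
  exact ⟨s, by rw [h1, h2]; exact hs⟩

/-- `Module.End` form of the dimension-two lemma: a representation on `Fin 2 → F`. -/
theorem exists_end_rep [IsAlgClosed F] [FiniteDimensional F M] [Nontrivial M]
    (ρM : G →* Module.End F M) (ε : G →* Fˣ) (hrel : ∀ g, ∃ t, QuadRel (ρM g) t (ε g)) :
    ∃ ρ : G →* Module.End F (Fin 2 → F),
      (∀ g t, QuadRel (ρM g) t (ε g) →
        LinearMap.charpoly (ρ g) = X ^ 2 - C t * X + C ((ε g : Fˣ) : F)) ∧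
      (∀ g, ρM g = 1 → ε g = 1 → ρ g = 1) := by
  obtain ⟨ρ, h1, h2⟩ := exists_matrix_rep ρM ε hrel
  refine ⟨(Matrix.toLinAlgEquiv' : Matrix (Fin 2) (Fin 2) F ≃ₐ[F] _).toAlgHom.toMonoidHom.comp ρ,
    fun g t ht => ?_, fun g hg hε => ?_⟩
  · have h3 : LinearMap.charpoly (Matrix.toLin' (ρ g)) = (ρ g).charpoly :=
      Matrix.charpoly_toLin' (ρ g)
    rw [← h1 g t ht, ← h3]
    rfl
  · change Matrix.toLinAlgEquiv' (ρ g) = 1
    rw [h2 g hg hε, map_one]

/-- `Module.End` form, generator hypothesis. -/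
theorem exists_end_rep_gen [IsAlgClosed F] [FiniteDimensional F M] [Nontrivial M]
    (ρM : G →* Module.End F M) (ε : G →* Fˣ)
    (hgen : ∀ g, ∃ (h : G) (n : ℕ) (t : F),
      ρM g = ρM (h ^ n) ∧ ε g = ε (h ^ n) ∧ QuadRel (ρM h) t (ε h)) :
    ∃ ρ : G →* Module.End F (Fin 2 → F),
      (∀ g t, QuadRel (ρM g) t (ε g) →
        LinearMap.charpoly (ρ g) = X ^ 2 - C t * X + C ((ε g : Fˣ) : F)) ∧
      (∀ g, ρM g = 1 → ε g = 1 → ρ g = 1) := by
  refine exists_end_rep ρM ε (fun g => ?_)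
  obtain ⟨h, n, t, h1, h2, h3⟩ := hgen g
  obtain ⟨s, hs⟩ := QuadRel.pow ρM ε h h3 n
  exact ⟨s, by rw [h1, h2]; exact hs⟩

theorem finrank_fin_two_fun : Module.finrank F (Fin 2 → F) = 2 := by
  rw [Module.finrank_pi, Fintype.card_fin]

end Main

end Fermat.Agent.S29.helper9550
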