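import Mathlib
import Fermat.Agent.Lib.helper54_Frobenius

/-!
# Generator-Chebotarev: bridge from the number-field core to the Prelude shape (helper9726)

`Stmt_GenChebCore` is the number-field statement (no `ℚ̄`, no valuation subrings):

> for a cyclic Galois extension `L/E` of number fields and a finite set `T` of rational primes
> there are a rational prime `ℓ ∉ T`, a prime `𝔓` of `𝓞 L` over `ℓ` and `φ ∈ Gal(L/E)` with
> `φ x ≡ x ^ ℓ (mod 𝔓)` for all `x ∈ 𝓞 L` such that `φ` generates `Gal(L/E)`.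

(So `𝔓 ∩ E` has degree one and `φ` is its Frobenius; "`𝔓 ∩ E` is inert in `L`".)

The main result `genCheb_of_core` turns it into the shape used with the Prelude's
`ValuationSubring.IsFrobeniusAt`: for every `σ ∈ Gal(ℚ̄/ℚ)`, every finite Galois `K/ℚ` inside `ℚ̄`
and every finite set `T` of primes there are a prime `ℓ ∉ T`, a valuation subring `A` of `ℚ̄` over
`ℓ` and a Frobenius element `τ` at `A` such that `τ|K` and `σ|K` generate the same subgroup of
`Gal(K/ℚ)`.  No class field theory and no `L`-functions are involved in this file: the only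
inputs are uniqueness of Frobenius elements at unramified primes and the Galois correspondence.
-/

set_option autoImplicit false

namespace Fermat.Agent.S29.helper9726

open NumberField

local notation "Qb" => AlgebraicClosure ℚ
local notation "GQ" => (AlgebraicClosure ℚ ≃ₐ[ℚ] AlgebraicClosure ℚ)

/-- **Generator-Chebotarev, number-field core.**  For a cyclic Galois extension `L/E` of number
fields and a finite set `T` of rational primes there are a rational prime `ℓ ∉ T`, a prime `𝔓` of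
`𝓞 L` containing `ℓ` and a generator `φ` of `Gal(L/E)` acting as `x ↦ x ^ ℓ` modulo `𝔓`. -/
def Stmt_GenChebCore : Prop :=
  ∀ (E L : Type) [Field E] [NumberField E] [Field L] [NumberField L] [Algebra E L]
    [IsGalois E L] [IsCyclic (L ≃ₐ[E] L)] (T : Finset ℕ),
    ∃ (ℓ : ℕ) (𝔓 : Ideal (𝓞 L)) (φ : L ≃ₐ[E] L), ℓ.Prime ∧ ℓ ∉ T ∧ 𝔓.IsPrime ∧
      (ℓ : 𝓞 L) ∈ 𝔓 ∧ (∀ x : 𝓞 L, φ • x - x ^ ℓ ∈ 𝔓) ∧ ∀ g : L ≃ₐ[E] L, g ∈ Subgroup.zpowers φ

/-! ### Frobenius elements at valuation subrings of `ℚ̄` -/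

/-- A Frobenius element at `A` sends `x ∈ A` to `x ^ ℓ` modulo the maximal ideal. -/
theorem frob_sub_pow_mem_nonunits {A : ValuationSubring Qb} {τ : GQ} {ℓ : ℕ}
    (h : A.IsFrobeniusAt τ ℓ) (x : Qb) (hx : x ∈ A) : τ x - x ^ ℓ ∈ A.nonunits := by
  obtain ⟨hτ, hfrob⟩ := h
  have h1 := hfrob (IsLocalRing.residue A ⟨x, hx⟩)
  rw [← IsLocalRing.ResidueField.residue_smul, ← map_pow, ← sub_eq_zero, ← map_sub,
    IsLocalRing.residue_eq_zero_iff] at h1
  exact ValuationSubring.coe_mem_nonunits_iff.mpr h1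

/-! ### Uniqueness of Frobenius elements at unramified primes of a number field -/

section NF

variable {K : Type*} [Field K] [NumberField K]

omit [NumberField K] in
/-- The contraction to `ℤ` of a prime of `𝓞 K` containing the rational prime `ℓ`. -/
theorem under_eq_span {ℓ : ℕ} (hℓ : ℓ.Prime) (𝔓 : Ideal (𝓞 K)) [𝔓.IsPrime]
    (hℓ𝔓 : (ℓ : 𝓞 K) ∈ 𝔓) : 𝔓.under ℤ = Ideal.span {(ℓ : ℤ)} := by
  have hmax : (Ideal.span {(ℓ : ℤ)}).IsMaximal :=
    PrincipalIdealRing.isMaximal_of_irreducible (Nat.prime_iff_prime_int.mp hℓ).irreducible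
  refine (hmax.eq_of_le (Ideal.IsPrime.ne_top inferInstance) ?_).symm
  rw [Ideal.span_singleton_le_iff_mem, Ideal.under_def, Ideal.mem_comap]
  simpa using hℓ𝔓

omit [NumberField K] in
theorem card_quot_under {ℓ : ℕ} (hℓ : ℓ.Prime) (𝔓 : Ideal (𝓞 K)) [𝔓.IsPrime]
    (hℓ𝔓 : (ℓ : 𝓞 K) ∈ 𝔓) : Nat.card (ℤ ⧸ 𝔓.under ℤ) = ℓ := by
  rw [under_eq_span hℓ 𝔓 hℓ𝔓]
  simp [Int.card_ideal_quot]

/-- Two automorphisms acting as `x ↦ x ^ ℓ` modulo a prime `𝔓` over a rational prime `ℓ` not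
dividing the discriminant agree on the ring of integers. -/
theorem smul_eq_of_frob {ℓ : ℕ} (hℓ : ℓ.Prime) (hdisc : ¬ (ℓ : ℤ) ∣ discr K)
    (𝔓 : Ideal (𝓞 K)) [𝔓.IsPrime] (hℓ𝔓 : (ℓ : 𝓞 K) ∈ 𝔓)
    (t₁ t₂ : K ≃ₐ[ℚ] K) (h₁ : ∀ x : 𝓞 K, t₁ • x - x ^ ℓ ∈ 𝔓)
    (h₂ : ∀ x : 𝓞 K, t₂ • x - x ^ ℓ ∈ 𝔓) (x : 𝓞 K) : t₁ • x = t₂ • x := by
  have hunr : Algebra.IsUnramifiedAt ℤ 𝔓 :=
    (NumberField.not_dvd_discr_iff_forall_mem K (𝓞 K) (Nat.prime_iff_prime_int.mp hℓ)).mp hdisc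
      𝔓 inferInstance (by simpa using hℓ𝔓)
  have hc := card_quot_under hℓ 𝔓 hℓ𝔓
  have H₁ : IsArithFrobAt ℤ t₁ 𝔓 := by
    intro y
    rw [hc]
    exact h₁ y
  have H₂ : IsArithFrobAt ℤ t₂ 𝔓 := by
    intro y
    rw [hc]
    exact h₂ y
  have hQ : 𝔓.primeCompl ≤ nonZeroDivisors (𝓞 K) := by
    intro y hy
    rw [mem_nonZeroDivisors_iff_ne_zero]
    rintro rfl
    exact hy 𝔓.zero_mem
  have := AlgHom.IsArithFrobAt.eq_of_isUnramifiedAt H₁ H₂ hQ
  exact DFunLike.congr_fun this x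

/-- An automorphism of `K` is determined by its action on the ring of integers. -/
theorem algEquiv_ext_of_smul {t₁ t₂ : K ≃ₐ[ℚ] K} (h : ∀ x : 𝓞 K, t₁ • x = t₂ • x) : t₁ = t₂ := by
  ext y
  obtain ⟨⟨n, d, hd⟩, hy⟩ := IsLocalization.surj (nonZeroDivisors (𝓞 K)) y
  have hd0 : ((d : 𝓞 K) : K) ≠ 0 :=
    RingOfIntegers.coe_ne_zero_iff.mpr (mem_nonZeroDivisors_iff_ne_zero.mp hd)
  have hy' : y = (n : K) / (d : K) := by
    rw [eq_div_iff hd0]
    exact hy
  have e1 : t₁ (n : K) = t₂ (n : K) := congrArg (fun z : 𝓞 K => (z : K)) (h n)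
  have e2 : t₁ (d : K) = t₂ (d : K) := congrArg (fun z : 𝓞 K => (z : K)) (h d)
  rw [hy', map_div₀, map_div₀, e1, e2]

/-- **Uniqueness of the Frobenius** at a prime over a rational prime not dividing the
discriminant. -/
theorem frob_unique {ℓ : ℕ} (hℓ : ℓ.Prime) (hdisc : ¬ (ℓ : ℤ) ∣ discr K)
    (𝔓 : Ideal (𝓞 K)) [𝔓.IsPrime] (hℓ𝔓 : (ℓ : 𝓞 K) ∈ 𝔓)
    (t₁ t₂ : K ≃ₐ[ℚ] K) (h₁ : ∀ x : 𝓞 K, t₁ • x - x ^ ℓ ∈ 𝔓)
    (h₂ : ∀ x : 𝓞 K, t₂ • x - x ^ ℓ ∈ 𝔓) : t₁ = t₂ :=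
  algEquiv_ext_of_smul (smul_eq_of_frob hℓ hdisc 𝔓 hℓ𝔓 t₁ t₂ h₁ h₂)

end NF

/-! ### The Galois correspondence for the cyclic subgroup generated by `g` -/

section Galois

variable {K : Type*} [Field K] [Algebra ℚ K] [FiniteDimensional ℚ K]

/-- Restriction of scalars `Gal(K/E) → Gal(K/ℚ)` as a monoid homomorphism. -/
noncomputable def resHom (E : IntermediateField ℚ K) : (K ≃ₐ[E] K) →* (K ≃ₐ[ℚ] K) :=
  (Subgroup.subtype _).comp (IntermediateField.fixingSubgroupEquiv E).symm.toMonoidHom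

omit [FiniteDimensional ℚ K] in
theorem resHom_apply (E : IntermediateField ℚ K) (φ : K ≃ₐ[E] K) (x : K) :
    resHom E φ x = φ x := rfl

omit [FiniteDimensional ℚ K] in
theorem range_resHom (E : IntermediateField ℚ K) : (resHom E).range = E.fixingSubgroup := by
  ext x
  constructor
  · rintro ⟨y, rfl⟩
    exact ((IntermediateField.fixingSubgroupEquiv E).symm y).2
  · intro hx
    refine ⟨IntermediateField.fixingSubgroupEquiv E ⟨x, hx⟩, ?_⟩
    simp [resHom]

/-- A generator of `Gal(K/E)`, `E` the fixed field of `⟨g⟩`, generates `⟨g⟩` in `Gal(K/ℚ)`. -/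
theorem zpowers_resHom_eq (g : K ≃ₐ[ℚ] K)
    (φ : K ≃ₐ[IntermediateField.fixedField (Subgroup.zpowers g)] K)
    (hφ : ∀ h : K ≃ₐ[IntermediateField.fixedField (Subgroup.zpowers g)] K,
      h ∈ Subgroup.zpowers φ) :
    Subgroup.zpowers (resHom _ φ) = Subgroup.zpowers g := by
  have htop : Subgroup.zpowers φ = ⊤ := (Subgroup.eq_top_iff' _).mpr hφ
  rw [← MonoidHom.map_zpowers, htop, ← MonoidHom.range_eq_map, range_resHom,
    IntermediateField.fixingSubgroup_fixedField]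

/-- `Gal(K/E)` is cyclic for `E` the fixed field of a cyclic subgroup. -/
theorem isCyclic_gal_fixedField (g : K ≃ₐ[ℚ] K) :
    IsCyclic (K ≃ₐ[IntermediateField.fixedField (Subgroup.zpowers g)] K) := by
  have hE := IntermediateField.fixingSubgroup_fixedField (Subgroup.zpowers g)
  let e : ↥(Subgroup.zpowers g) ≃*
      (K ≃ₐ[IntermediateField.fixedField (Subgroup.zpowers g)] K) :=
    (MulEquiv.subgroupCongr hE.symm).trans (IntermediateField.fixingSubgroupEquiv _)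
  exact isCyclic_of_surjective e e.surjective

end Galois

/-! ### Valuation subrings of `ℚ̄` over a prime of a number field inside `ℚ̄` -/

section Qbar

variable (K : IntermediateField ℚ Qb) [NumberField K]

/-- The embedding of the integers of `K` into `ℚ̄`. -/
noncomputable def toQb : 𝓞 K →+* Qb := (algebraMap K Qb).comp (algebraMap (𝓞 K) K)

omit [NumberField K] in
theorem toQb_apply (x : 𝓞 K) : toQb K x = ((x : K) : Qb) := rfl

omit [NumberField K] in
theorem toQb_injective : Function.Injective (toQb K) :=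
  (algebraMap K Qb).injective.comp RingOfIntegers.coe_injective

omit [NumberField K] in
theorem toQb_mem (A : ValuationSubring Qb) (x : 𝓞 K) : toQb K x ∈ A :=
  Fermat.Agent.Lib.helper54.mem_valuationSubring_of_isIntegral A _
    (map_isIntegral_int (algebraMap K Qb) (RingOfIntegers.isIntegral_coe x))

omit [NumberField K] in
/-- A valuation subring of `ℚ̄` whose maximal ideal contains a given proper ideal of `𝓞 K`. -/
theorem exists_valuationSubring_of_ideal (𝔓 : Ideal (𝓞 K)) (h𝔓 : 𝔓 ≠ ⊤) :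
    ∃ B : ValuationSubring Qb, ∀ x ∈ 𝔓, toQb K x ∈ B.nonunits := by
  set R : Subring Qb := (toQb K).range with hR
  set I : Ideal R := 𝔓.map (toQb K).rangeRestrict with hI
  have hItop : I ≠ ⊤ := by
    intro htop
    have h1 : (1 : R) ∈ I := by rw [htop]; trivial
    rw [hI, Ideal.mem_map_iff_of_surjective _ (toQb K).rangeRestrict_surjective] at h1
    obtain ⟨x, hx, hx1⟩ := h1
    have hx1' : toQb K x = 1 := congrArg Subtype.val hx1
    have : x = 1 := toQb_injective K (by rw [hx1', map_one])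
    exact h𝔓 ((Ideal.eq_top_iff_one _).mpr (this ▸ hx))
  obtain ⟨B, -, hB⟩ := Ideal.image_subset_nonunits_valuationSubring I hItop
  exact ⟨B, fun x hx => hB ⟨(toQb K).rangeRestrict x, Ideal.mem_map_of_mem _ hx, rfl⟩⟩

omit [NumberField K] in
/-- If the maximal ideal of `B` contains the maximal ideal `𝔓`, it cuts out exactly `𝔓`. -/
theorem mem_of_toQb_mem_nonunits (𝔓 : Ideal (𝓞 K)) [h𝔓 : 𝔓.IsMaximal] (B : ValuationSubring Qb)
    (hB : ∀ x ∈ 𝔓, toQb K x ∈ B.nonunits) (y : 𝓞 K) (hy : toQb K y ∈ B.nonunits) : y ∈ 𝔓 := by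
  by_contra hy𝔓
  obtain ⟨z, i, hi, hzi⟩ := h𝔓.exists_inv hy𝔓
  have h1 : toQb K z * toQb K y + toQb K i = 1 := by
    rw [← map_mul, ← map_add, hzi, map_one]
  have hv1 : B.valuation (toQb K z * toQb K y) < 1 := by
    rw [map_mul]
    have hz : B.valuation (toQb K z) ≤ 1 := (B.valuation_le_one_iff _).mpr (toQb_mem K B z)
    have hy' : B.valuation (toQb K y) < 1 := (B.mem_nonunits_iff).mp hy
    calc B.valuation (toQb K z) * B.valuation (toQb K y) ≤ 1 * B.valuation (toQb K y) :=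
          mul_le_mul_left hz _
      _ = B.valuation (toQb K y) := one_mul _
      _ < 1 := hy'
  have hv2 : B.valuation (toQb K i) < 1 := (B.mem_nonunits_iff).mp (hB i hi)
  have hv3 : B.valuation (1 : Qb) < 1 := by
    rw [← h1]
    exact lt_of_le_of_lt (Valuation.map_add _ _ _) (max_lt hv1 hv2)
  rw [map_one] at hv3
  exact lt_irrefl _ hv3

variable [IsGalois ℚ K]

omit [NumberField K] in
theorem toQb_restrictNormal_smul (τ : GQ) (x : 𝓞 K) :
    toQb K ((τ.restrictNormal K) • x) = τ (toQb K x) :=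
  AlgEquiv.restrictNormal_commutes τ K (x : K)

omit [NumberField K] in
/-- The restriction to `K` of a Frobenius element at a valuation subring dominating the maximal
ideal `𝔓` is a Frobenius at `𝔓`. -/
theorem restrictNormal_frob (𝔓 : Ideal (𝓞 K)) [𝔓.IsMaximal] (B : ValuationSubring Qb)
    (hB : ∀ x ∈ 𝔓, toQb K x ∈ B.nonunits) {τ : GQ} {ℓ : ℕ} (hτ : B.IsFrobeniusAt τ ℓ)
    (x : 𝓞 K) : (τ.restrictNormal K) • x - x ^ ℓ ∈ 𝔓 := by
  apply mem_of_toQb_mem_nonunits K 𝔓 B hB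
  rw [map_sub, map_pow, toQb_restrictNormal_smul]
  exact frob_sub_pow_mem_nonunits hτ _ (toQb_mem K B x)

end Qbar

/-! ### Main theorem -/

/-- **Generator-Chebotarev in the Prelude shape**, from the number-field core.  For every
`σ ∈ Gal(ℚ̄/ℚ)`, every finite Galois extension `K/ℚ` inside `ℚ̄` and every finite set `T` of
primes there are a prime `ℓ ∉ T`, a valuation subring `A` of `ℚ̄` over `ℓ` and a Frobenius element
`τ` at `A` such that `τ|K` and `σ|K` generate the same subgroup of `Gal(K/ℚ)`. -/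
theorem genCheb_of_core (hcore : Stmt_GenChebCore) (K : IntermediateField ℚ Qb)
    [FiniteDimensional ℚ K] [IsGalois ℚ K] (σ : GQ) (T : Finset ℕ) :
    ∃ (ℓ : ℕ) (A : ValuationSubring Qb) (τ : GQ), ℓ.Prime ∧ ℓ ∉ T ∧ A.LiesOverPrime ℓ ∧
      A.IsFrobeniusAt τ ℓ ∧
      Subgroup.zpowers (τ.restrictNormal K) = Subgroup.zpowers (σ.restrictNormal K) := by
  classical
  have : NumberField K := ⟨⟩
  set g : K ≃ₐ[ℚ] K := σ.restrictNormal K with hg
  set E : IntermediateField ℚ K := IntermediateField.fixedField (Subgroup.zpowers g) with hE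
  have : NumberField E := ⟨⟩
  have : IsCyclic (K ≃ₐ[E] K) := isCyclic_gal_fixedField g
  obtain ⟨ℓ, 𝔓, φ, hℓ, hℓT, h𝔓, hℓ𝔓, hφ, hgen⟩ :=
    hcore E K (T ∪ (discr K).natAbs.primeFactors)
  have hℓT' : ℓ ∉ T := fun h => hℓT (Finset.mem_union_left _ h)
  have hdisc : ¬ (ℓ : ℤ) ∣ discr K := by
    intro hdvd
    apply hℓT
    refine Finset.mem_union_right _ (Nat.mem_primeFactors.mpr ⟨hℓ, ?_, ?_⟩)
    · exact Int.natCast_dvd.mp hdvd
    · exact Int.natAbs_ne_zero.mpr (discr_ne_zero K)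
  have h𝔓0 : 𝔓 ≠ ⊥ := by
    rintro rfl
    have h0 : (ℓ : 𝓞 K) = 0 := by simpa using hℓ𝔓
    exact hℓ.ne_zero (by exact_mod_cast h0)
  have : 𝔓.IsMaximal := h𝔓.isMaximal h𝔓0
  obtain ⟨B, hB⟩ := exists_valuationSubring_of_ideal K 𝔓 h𝔓.ne_top
  have hBℓ : B.LiesOverPrime ℓ := by
    have := hB (ℓ : 𝓞 K) hℓ𝔓
    simpa [ValuationSubring.LiesOverPrime, toQb_apply] using this
  obtain ⟨τ, hτ⟩ := Fermat.Agent.Lib.helper54.exists_isFrobeniusAt hℓ B hBℓ
  refine ⟨ℓ, B, τ, hℓ, hℓT', hBℓ, hτ, ?_⟩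
  have hres : τ.restrictNormal K = resHom E φ :=
    frob_unique hℓ hdisc 𝔓 hℓ𝔓 _ _ (restrictNormal_frob K 𝔓 B hB hτ) (fun x => hφ x)
  rw [hres]
  exact zpowers_resHom_eq g φ hgen

/-! ### Consumer forms -/

/-- In a finite group, two elements generating the same cyclic subgroup are coprime powers of
each other. -/
theorem exists_coprime_pow_of_zpowers_eq {G : Type*} [Group G] [Finite G] {a b : G}
    (h : Subgroup.zpowers a = Subgroup.zpowers b) :
    ∃ n : ℕ, n.Coprime (orderOf b) ∧ a = b ^ n := by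
  have ha : a ∈ Subgroup.zpowers b := h ▸ Subgroup.mem_zpowers a
  obtain ⟨n, hn⟩ := (isOfFinOrder_of_finite b).mem_powers_iff_mem_zpowers.mpr ha
  have hn' : b ^ n = a := hn
  refine ⟨n, ?_, hn'.symm⟩
  have hord : orderOf a = orderOf b := by
    rw [← Nat.card_zpowers a, ← Nat.card_zpowers b, h]
  have hpos : 0 < orderOf b := orderOf_pos b
  rw [← hn', orderOf_pow] at hord
  have hg : (orderOf b).gcd n = 1 := by
    have h1 : orderOf b / (orderOf b).gcd n * (orderOf b).gcd n = orderOf b :=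
      Nat.div_mul_cancel (Nat.gcd_dvd_left _ _)
    rw [hord] at h1
    have h2 : orderOf b * (orderOf b).gcd n = orderOf b * 1 := by rw [h1, mul_one]
    exact Nat.eq_of_mul_eq_mul_left hpos h2
  exact (Nat.coprime_comm.mp hg)

/-- **Generator-Chebotarev, coprime-power form** (the surface announced in the S29 chat):
`τ|K = (σ|K) ^ n` with `n` prime to the order of `σ|K`. -/
theorem genCheb_coprime_of_core (hcore : Stmt_GenChebCore) (K : IntermediateField ℚ Qb)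
    [FiniteDimensional ℚ K] [IsGalois ℚ K] (σ : GQ) (T : Finset ℕ) :
    ∃ (ℓ : ℕ) (A : ValuationSubring Qb) (τ : GQ) (n : ℕ), ℓ.Prime ∧ ℓ ∉ T ∧
      A.LiesOverPrime ℓ ∧ A.IsFrobeniusAt τ ℓ ∧ n.Coprime (orderOf (σ.restrictNormal K)) ∧
      τ.restrictNormal K = (σ.restrictNormal K) ^ n := by
  obtain ⟨ℓ, A, τ, hℓ, hℓT, hA, hτ, hz⟩ := genCheb_of_core hcore K σ T
  obtain ⟨n, hn, hpow⟩ := exists_coprime_pow_of_zpowers_eq hz
  exact ⟨ℓ, A, τ, n, hℓ, hℓT, hA, hτ, hn, hpow⟩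

/-- **Generator-Chebotarev, pointwise form**: some power of a Frobenius element `τ` at a prime
outside `T` agrees with `σ` on `K`. -/
theorem genCheb_pow_of_core (hcore : Stmt_GenChebCore) (K : IntermediateField ℚ Qb)
    [FiniteDimensional ℚ K] [IsGalois ℚ K] (σ : GQ) (T : Finset ℕ) :
    ∃ (ℓ : ℕ) (A : ValuationSubring Qb) (τ : GQ) (n : ℕ), ℓ.Prime ∧ ℓ ∉ T ∧
      A.LiesOverPrime ℓ ∧ A.IsFrobeniusAt τ ℓ ∧ ∀ x ∈ K, (τ ^ n) x = σ x := by
  obtain ⟨ℓ, A, τ, hℓ, hℓT, hA, hτ, hz⟩ := genCheb_of_core hcore K σ T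
  obtain ⟨n, -, hpow⟩ := exists_coprime_pow_of_zpowers_eq hz.symm
  refine ⟨ℓ, A, τ, n, hℓ, hℓT, hA, hτ, fun x hx => ?_⟩
  have h1 : (τ ^ n).restrictNormal K = σ.restrictNormal K := by
    have h2 : (τ ^ n).restrictNormal K = (τ.restrictNormal K) ^ n :=
      map_pow (AlgEquiv.restrictNormalHom (F := ℚ) (K₁ := Qb) K) τ n
    rw [h2, hpow]
  have h3 := AlgEquiv.restrictNormal_commutes (τ ^ n) K ⟨x, hx⟩
  have h4 := AlgEquiv.restrictNormal_commutes σ K ⟨x, hx⟩
  rw [h1] at h3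
  exact h3.symm.trans h4

end Fermat.Agent.S29.helper9726
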