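import Fermat.Agent.S29.helper6752_Endgame
import Fermat.Agent.S29.helper9550_DimTwoGen
import Fermat.Agent.S29.helper9726_GenChebBridge
import Fermat.Agent.S29.helper405_Mid
import Fermat.Agent.S29.helper8527_FiniteLevel
import Fermat.Agent.S29.helper5500_GalHecke
import Fermat.Agent.S29.helper7617_Integrality

/-!
# S29: adapters discharging the input statements of `helper6752.result_of`

* `stmt_Dim2 : Stmt_Dim2`, from `helper9550.exists_end_rep_gen` (dimension-two lemma,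
  generator form, all characteristics).
* `stmt_CycFrob_of_core : helper9726.Stmt_GenChebCore → Stmt_CycFrob` (generator-Chebotarev in
  the shape consumed by the endgame, from the number-field core through the landed bridge).
* `stmt_Eig_of : Stmt_OpUN → Stmt_OpFQ → Stmt_Occ → Stmt_Eig` (the Galois module `W` of the
  endgame from the operator-wise unramifiedness and Eichler–Shimura relation on the `p`-power
  torsion of `JZero N` and ONE eigenvector, through the landed MID / FINLEVEL / GALHECKE / INT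
  modules).
* `result_of_four` : the frozen statement S29 from the four remaining open statements.
-/

set_option autoImplicit false

namespace Fermat.Agent.S29.helper6752

open Polynomial CongruenceSubgroup ModularCurve
open scoped TensorProduct

local notation "Qb" => AlgebraicClosure ℚ
local notation "GQ" => (AlgebraicClosure ℚ ≃ₐ[ℚ] AlgebraicClosure ℚ)
local notation "Zc" => integralClosure ℤ ℂ

/-- (DIM2) is a theorem: the dimension-two lemma in generator form. -/
theorem stmt_Dim2 : Stmt_Dim2 := by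
  intro K _ _ G _ V _ _ _ _ ρ ε hgen
  obtain ⟨ρ', h1, h2⟩ := helper9550.exists_end_rep_gen (F := K) (G := G) (M := V) ρ ε
    (fun g => by
      obtain ⟨h, n, c, e1, e2, e3⟩ := hgen g
      exact ⟨h, n, c, e1.symm, e2.symm, e3⟩)
  refine ⟨Fin 2 → K, inferInstance, inferInstance, inferInstance, ρ',
    helper9550.finrank_fin_two_fun, h2, fun g c hc => h1 g c hc⟩

/-- (CYC) from the number-field core of generator-Chebotarev, through the landed bridge. -/
theorem stmt_CycFrob_of_core (hcore : helper9726.Stmt_GenChebCore) : Stmt_CycFrob := by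
  intro L hL τ B
  let K : IntermediateField ℚ Qb := IntermediateField.normalClosure ℚ L Qb
  have : Normal ℚ Qb := helper405.normal_ratBar
  have : FiniteDimensional ℚ K := normalClosure.is_finiteDimensional ℚ L Qb
  have : Normal ℚ K := normalClosure.normal ℚ L Qb
  have : IsGalois ℚ K := ⟨⟩
  obtain ⟨ℓ, A, s, n, hℓ, hℓB, hA, hs, h⟩ := helper9726.genCheb_pow_of_core hcore K τ B
  exact ⟨ℓ, hℓ, hℓB, A, hA, s, hs, n, fun x hx => h x (IntermediateField.le_normalClosure L hx)⟩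

/-- (UN) operator-wise unramifiedness: inertia at `ℓ ∤ N p` fixes the `p`-power torsion of
`JZero N`. -/
def Stmt_OpUN : Prop :=
  ∀ (N : ℕ) [NeZero N] (p : ℕ), p.Prime → ∀ ℓ : ℕ, ℓ.Prime → ¬ ℓ ∣ N * p →
    ∀ A : ValuationSubring Qb, A.LiesOverPrime ℓ →
      ∀ σ ∈ A.inertiaSubgroupIn ℚ, ∀ x : JZero N, (∃ k : ℕ, p ^ k • x = 0) → σ • x = x

/-- (FQ) operator-wise Eichler–Shimura relation on the `p`-power torsion of `JZero N`. -/
def Stmt_OpFQ : Prop :=
  ∀ (N : ℕ) [NeZero N] (p : ℕ), p.Prime → ∀ ℓ : ℕ, (hℓ : ℓ.Prime) → ¬ ℓ ∣ N * p →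
    ∀ A : ValuationSubring Qb, A.LiesOverPrime ℓ →
      ∀ σ : GQ, A.IsFrobeniusAt σ ℓ → ∀ x : JZero N, (∃ k : ℕ, p ^ k • x = 0) →
        σ • σ • x - heckeOperatorBar N ⟨ℓ, hℓ⟩ (σ • x) + ℓ • x = 0

/-- (OCC) occurrence of the eigensystem of `g` modulo a prime of `Zc` over `p` in the
`p`-power torsion of `JZero N`. -/
def Stmt_Occ : Prop :=
  ∀ (N : ℕ) [NeZero N] (g : CuspForm (Gamma0 N) 2), g.IsNormalizedEigenform →
    ∀ (p : ℕ), p.Prime → ∀ (κ : Type) [Field κ] [IsAlgClosed κ] [CharP κ p] (ψ : Zc →+* κ),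
      Function.Surjective ψ →
      ∃ (m : ℕ) (x : κ ⊗[ℤ] (Submodule.torsionBy ℤ (JZero N) ((p ^ m : ℕ) : ℤ))), x ≠ 0 ∧
        ∀ (ℓ : Nat.Primes), ¬ (ℓ : ℕ) ∣ N * p → ∀ a : Zc,
          (a : ℂ) = ModularFormClass.qCoeff g ℓ →
          (helper405.torsRestrict ((p ^ m : ℕ) : ℤ) (heckeOperatorBar N ℓ)).baseChange κ x
            = ψ a • x

/-- (EIG) from (UN), (FQ), (OCC) and the landed MID / FINLEVEL / GALHECKE / INT modules. -/
theorem stmt_Eig_of (hUN : Stmt_OpUN) (hFQ : Stmt_OpFQ) (hOcc : Stmt_Occ) : Stmt_Eig := by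
  intro N hN g hg p hp κ _ _ _ ψ hψ
  have : NeZero N := ⟨hN⟩
  obtain ⟨m, x, hx, hxa⟩ := hOcc N g hg p hp κ ψ hψ
  have hint : ∀ n : ℕ, ∃ a : Zc, (a : ℂ) = ModularFormClass.qCoeff g n :=
    fun n => helper7617.exists_integralClosure_eq_qCoeff hg n
  choose a ha using hint
  obtain ⟨W, iW, iM, hfd, hnt, ρ, hlev, hone, hquad⟩ :=
    helper405.eig_of_operatorwise N p m κ (fun ℓ => ψ (a ℓ))
      (fun y => helper8527.exists_finiteLevel_point N y)
      (fun ℓ σ y => helper5500.galois_smul_heckeOperatorBar (N := N) ℓ σ y)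
      (hUN N p hp) (hFQ N p hp)
      ⟨x, hx, fun ℓ hℓ => hxa ℓ hℓ (a ℓ) (ha ℓ)⟩
  exact ⟨W, iW, iM, ρ, hfd, hnt, hlev, hone,
    fun ℓ hℓ hℓN A hA σ hσ => ⟨a ℓ, ha ℓ, hquad ℓ hℓ hℓN A hA σ hσ⟩⟩

/-- **Frozen S29 from the four remaining open statements.** -/
theorem result_of_four (hcore : helper9726.Stmt_GenChebCore) (hUN : Stmt_OpUN)
    (hFQ : Stmt_OpFQ) (hOcc : Stmt_Occ)
    {N : ℕ} {g : CuspForm (Gamma0 N) 2} (hg : g.IsNormalizedEigenform)
    {p : ℕ} (hp : p.Prime) {k : Type} [Field k] [CharP k p]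
    (φ : integralClosure ℤ ℂ →+* k) :
    ∃ ρ : ResidualGaloisRep k, ρ.IsAttachedTo g φ ∧
      ∀ ℓ : ℕ, ℓ.Prime → ¬ ℓ ∣ N * p → ρ.IsUnramifiedAt ℓ :=
  result_of (stmt_Eig_of hUN hFQ hOcc) (stmt_CycFrob_of_core hcore) stmt_Dim2 hg hp φ

end Fermat.Agent.S29.helper6752
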