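/-
# S29 (helper405): `helper6752.Stmt_Eig` from the two remaining construction Props

`Stmt_UnrES` : operator-wise unramifiedness + Eichler–Shimura relation on `JZero N [p]`.
`Stmt_Occ`   : ONE nonzero Hecke eigenvector in `κ ⊗[ℤ] JZero N [p]` with the eigenvalues of `g`.

`stmt_Eig_of : Stmt_UnrES → Stmt_Occ → helper6752.Stmt_Eig` (uses the landed FINLEVEL
`helper8527.exists_finiteLevel_point`, GALHECKE `helper5500.galois_smul_heckeOperatorBar`,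
INT `helper7617.exists_integralClosure_eq_qCoeff` and MID `exists_eig_of_module`), and
`result_of_open : Stmt_UnrES → Stmt_Occ → helper6752.Stmt_CycFrob → <frozen S29>`.
-/
import Mathlib
import Fermat.Agent.S29.helper405_Mid
import Fermat.Agent.S29.helper6752_Adapters
import Fermat.Agent.S29.helper8527_FiniteLevel
import Fermat.Agent.S29.helper5500_GalHecke
import Fermat.Agent.S29.helper7617_Integrality

set_option autoImplicit false

open scoped TensorProduct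

namespace Fermat.Agent.S29.helper405

section Torsion

variable {J : Type} [AddCommGroup J] [DistribMulAction GalQ J]

/-- **S29-MID, torsion form**: as `eig_of_operatorwise_general`, but the unramifiedness and
Eichler–Shimura hypotheses are only required on the `n`-torsion of `J` (the same `n` as in the
eigenvector hypothesis). -/
theorem eig_of_torsion (T : Nat.Primes → Module.End ℤ J) (N p : ℕ) (n : ℤ)
    (κ : Type) [Field κ] (a : Nat.Primes → κ)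
    (hFL : ∀ x : J, ∃ L : IntermediateField ℚ (AlgebraicClosure ℚ),
      FiniteDimensional ℚ L ∧ ∀ σ : GalQ, (∀ y ∈ L, σ y = y) → σ • x = x)
    (hGH : ∀ (ℓ : Nat.Primes) (σ : GalQ) (x : J), σ • T ℓ x = T ℓ (σ • x))
    (hUN : ∀ ℓ : ℕ, ℓ.Prime → ¬ ℓ ∣ N * p →
      ∀ A : ValuationSubring (AlgebraicClosure ℚ), A.LiesOverPrime ℓ →
        ∀ σ ∈ A.inertiaSubgroupIn ℚ, ∀ x : J, n • x = 0 → σ • x = x)
    (hFQ : ∀ ℓ : ℕ, (hℓ : ℓ.Prime) → ¬ ℓ ∣ N * p →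
      ∀ A : ValuationSubring (AlgebraicClosure ℚ), A.LiesOverPrime ℓ →
        ∀ σ : GalQ, A.IsFrobeniusAt σ ℓ → ∀ x : J, n • x = 0 →
          σ • σ • x - T ⟨ℓ, hℓ⟩ (σ • x) + ℓ • x = 0)
    (hocc : ∃ x : κ ⊗[ℤ] (Submodule.torsionBy ℤ J n), x ≠ 0 ∧
      ∀ ℓ : Nat.Primes, ¬ (ℓ : ℕ) ∣ N * p →
        (torsRestrict n (T ℓ)).baseChange κ x = a ℓ • x) :
    ∃ (W : Type) (_ : AddCommGroup W) (_ : Module κ W), FiniteDimensional κ W ∧ Nontrivial W ∧
      ∃ ρ : GalQ →* Module.End κ W, GaloisFactorsThroughFiniteLevel ρ ∧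
        (∀ ℓ : ℕ, ℓ.Prime → ¬ ℓ ∣ N * p →
          ∀ A : ValuationSubring (AlgebraicClosure ℚ), A.LiesOverPrime ℓ →
            ∀ σ ∈ A.inertiaSubgroupIn ℚ, ρ σ = 1) ∧
        (∀ ℓ : ℕ, (hℓ : ℓ.Prime) → ¬ ℓ ∣ N * p →
          ∀ A : ValuationSubring (AlgebraicClosure ℚ), A.LiesOverPrime ℓ →
            ∀ σ : GalQ, A.IsFrobeniusAt σ ℓ →
              ρ σ * ρ σ - a ⟨ℓ, hℓ⟩ • ρ σ + (ℓ : κ) • (1 : Module.End κ W) = 0) := by
  obtain ⟨x, hx, hxa⟩ := hocc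
  let act : GalQ →* Module.End ℤ (Submodule.torsionBy ℤ J n) := (torsRestrict n).comp (galEnd J)
  have hact : ∀ (σ : GalQ) (y : Submodule.torsionBy ℤ J n),
      ((act σ y : Submodule.torsionBy ℤ J n) : J) = σ • (y : J) :=
    fun σ y => rfl
  have htors : ∀ y : Submodule.torsionBy ℤ J n, n • (y : J) = 0 :=
    fun y => (Submodule.mem_torsionBy_iff _ _).1 y.2
  have hfin : OpenStab act := by
    intro y
    obtain ⟨L, hL, hσ⟩ := hFL (y : J)
    exact ⟨L, hL, fun σ hσL => Subtype.ext ((hact σ y).trans (hσ σ hσL))⟩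
  let T' : {ℓ : Nat.Primes // ¬ (ℓ : ℕ) ∣ N * p} → Module.End ℤ (Submodule.torsionBy ℤ J n) :=
    fun ℓ => torsRestrict n (T ℓ.1)
  have hTG : ∀ i σ, T' i * act σ = act σ * T' i := by
    intro i σ
    refine LinearMap.ext fun y => Subtype.ext ?_
    show T i.1 (σ • (y : J)) = σ • T i.1 (y : J)
    exact (hGH i.1 σ _).symm
  obtain ⟨W, iW, iM, hfd, hnt, ρ, hlev, hone, hquad⟩ :=
    exists_eig_of_module act hfin T' hTG (fun i => a i.1) x hx (fun i => hxa i.1 i.2)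
  refine ⟨W, iW, iM, hfd, hnt, ρ, hlev, ?_, ?_⟩
  · intro ℓ hℓ hℓN A hA σ hσ
    refine hone σ (LinearMap.ext fun y => Subtype.ext ?_)
    exact (hact σ y).trans (hUN ℓ hℓ hℓN A hA σ hσ _ (htors y))
  · intro ℓ hℓ hℓN A hA σ hσ
    have h := hquad σ ⟨⟨ℓ, hℓ⟩, hℓN⟩ (ℓ : ℤ) (LinearMap.ext fun y => Subtype.ext ?_)
    · rwa [Int.cast_natCast] at h
    · have := hFQ ℓ hℓ hℓN A hA σ hσ (y : J) (htors y)
      simp only [LinearMap.add_apply, LinearMap.sub_apply, Module.End.mul_apply,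
        LinearMap.smul_apply, Module.End.one_apply, LinearMap.zero_apply, Submodule.coe_add,
        Submodule.coe_sub, Submodule.coe_zero, hact, T',
        coe_torsRestrict_apply, natCast_zsmul]
      exact this

end Torsion

open ModularCurve

/-- (UES) Operator-wise unramifiedness and Eichler–Shimura relation on the `p`-torsion of
`JZero N`, for every level `N ≠ 0` and every prime `p`. -/
def Stmt_UnrES : Prop :=
  ∀ (N : ℕ) [NeZero N] (p : ℕ), p.Prime →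
    (∀ ℓ : ℕ, ℓ.Prime → ¬ ℓ ∣ N * p →
      ∀ A : ValuationSubring (AlgebraicClosure ℚ), A.LiesOverPrime ℓ →
        ∀ σ ∈ A.inertiaSubgroupIn ℚ, ∀ x : JZero N, p • x = 0 → σ • x = x) ∧
    (∀ ℓ : ℕ, (hℓ : ℓ.Prime) → ¬ ℓ ∣ N * p →
      ∀ A : ValuationSubring (AlgebraicClosure ℚ), A.LiesOverPrime ℓ →
        ∀ σ : GalQ, A.IsFrobeniusAt σ ℓ → ∀ x : JZero N, p • x = 0 →
          σ • σ • x - heckeOperatorBar N ⟨ℓ, hℓ⟩ (σ • x) + ℓ • x = 0)

/-- (OCC) Occurrence of the eigensystem of `g` modulo `ker ψ` in `κ ⊗[ℤ] JZero N [p]`: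
ONE nonzero common eigenvector of the Prelude Hecke operators `T_ℓ`, `ℓ ∤ N p`. -/
def Stmt_Occ : Prop :=
  ∀ (N : ℕ) [NeZero N] (g : CuspForm (CongruenceSubgroup.Gamma0 N) 2),
    g.IsNormalizedEigenform → ∀ (p : ℕ), p.Prime →
    ∀ (κ : Type) [Field κ] [IsAlgClosed κ] [CharP κ p] (ψ : integralClosure ℤ ℂ →+* κ),
      Function.Surjective ψ →
      ∃ x : κ ⊗[ℤ] (Submodule.torsionBy ℤ (JZero N) (p : ℤ)), x ≠ 0 ∧
        ∀ ℓ : Nat.Primes, ¬ (ℓ : ℕ) ∣ N * p →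
          ∀ a : integralClosure ℤ ℂ, (a : ℂ) = ModularFormClass.qCoeff g ℓ →
            (torsRestrict (p : ℤ) (heckeOperatorBar N ℓ)).baseChange κ x = ψ a • x

/-- **(EIG) from (UES) and (OCC).** -/
theorem stmt_Eig_of (hU : Stmt_UnrES) (hO : Stmt_Occ) : helper6752.Stmt_Eig := by
  intro N hN g hg p hp κ _ _ _ ψ hψ
  have : NeZero N := ⟨hN⟩
  obtain ⟨hUN, hFQ⟩ := hU N p hp
  obtain ⟨x, hx, hxa⟩ := hO N g hg p hp κ ψ hψ
  choose aInt haInt using fun ℓ : Nat.Primes =>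
    helper7617.exists_integralClosure_eq_qCoeff hg (ℓ : ℕ)
  obtain ⟨W, iW, iM, hfd, hnt, ρ, hlev, hunr, hfrob⟩ :=
    eig_of_torsion (J := JZero N) (heckeOperatorBar N) N p (p : ℤ) κ (fun ℓ => ψ (aInt ℓ))
      (helper8527.exists_finiteLevel_point N) (helper5500.galois_smul_heckeOperatorBar N)
      (fun ℓ hℓ hℓN A hA σ hσ y hy => hUN ℓ hℓ hℓN A hA σ hσ y (by rwa [natCast_zsmul] at hy))
      (fun ℓ hℓ hℓN A hA σ hσ y hy => hFQ ℓ hℓ hℓN A hA σ hσ y (by rwa [natCast_zsmul] at hy))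
      ⟨x, hx, fun ℓ hℓ => hxa ℓ hℓ (aInt ℓ) (haInt ℓ)⟩
  exact ⟨W, iW, iM, ρ, hfd, hnt, hlev, hunr, fun ℓ hℓ hℓN A hA σ hσ =>
    ⟨aInt ⟨ℓ, hℓ⟩, haInt ⟨ℓ, hℓ⟩, hfrob ℓ hℓ hℓN A hA σ hσ⟩⟩

/-- **Frozen S29 from the three remaining Props** (UES), (OCC), (CYC). -/
theorem result_of_open (hU : Stmt_UnrES) (hO : Stmt_Occ) (hCyc : helper6752.Stmt_CycFrob)
    {N : ℕ} {g : CuspForm (CongruenceSubgroup.Gamma0 N) 2} (hg : g.IsNormalizedEigenform)
    {p : ℕ} (hp : p.Prime) {k : Type} [Field k] [CharP k p]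
    (φ : integralClosure ℤ ℂ →+* k) :
    ∃ ρ : ResidualGaloisRep k, ρ.IsAttachedTo g φ ∧
      ∀ ℓ : ℕ, ℓ.Prime → ¬ ℓ ∣ N * p → ρ.IsUnramifiedAt ℓ :=
  helper6752.result_of (stmt_Eig_of hU hO) hCyc helper6752.stmt_Dim2 hg hp φ

end Fermat.Agent.S29.helper405
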