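/-
S29-MID, operator-wise form (helper2187; backup of board row 839).

From operator-wise facts on a `p`-torsion Galois module `P` (unramifiedness, Eichler-Shimura
quadratic relation, Galois-equivariance of the Hecke operators, open stabilisers) and ONE
Hecke eigenvector in `κ ⊗ P`, produce a nonzero finite-dimensional `κ`-representation of
`Gal(ℚ̄/ℚ)` of finite level, unramified outside `N p`, on which every Frobenius lift satisfies
`ρ σ ^ 2 - a ℓ • ρ σ + ℓ = 0`.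

No commutativity of the Hecke operators among themselves is used.
-/
import Mathlib
import Fermat.Prelude.Def_GaloisRep_Residual
import Fermat.Prelude.Def_ModularCurve_HeckeModule

set_option autoImplicit false

open scoped TensorProduct

noncomputable section

namespace Fermat.Agent.S29.helper2187

/-- The absolute Galois group of `ℚ`. -/
abbrev GQ : Type := AlgebraicClosure ℚ ≃ₐ[ℚ] AlgebraicClosure ℚ

/-! ### Abstract core -/

section Core

variable {P : Type} [AddCommGroup P] (r : GQ →* Module.End ℤ P)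
variable (κ : Type) [Field κ]

/-- The action of `GQ` on `κ ⊗ P`. -/
def actV : GQ →* Module.End κ (κ ⊗[ℤ] P) where
  toFun σ := (r σ).baseChange κ
  map_one' := by rw [map_one, LinearMap.baseChange_one]
  map_mul' σ τ := by rw [map_mul, LinearMap.baseChange_mul]

theorem actV_tmul (σ : GQ) (c : κ) (y : P) : actV r κ σ (c ⊗ₜ[ℤ] y) = c ⊗ₜ[ℤ] r σ y :=
  LinearMap.baseChange_tmul _ _ _

/-- `r` has open stabilisers. -/
def OpenStab : Prop :=
  ∀ y : P, ∃ L : IntermediateField ℚ (AlgebraicClosure ℚ), FiniteDimensional ℚ L ∧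
    ∀ σ : GQ, (∀ z ∈ L, σ z = z) → r σ y = y

variable {r}

theorem exists_level_actV (hfin : OpenStab r) (v : κ ⊗[ℤ] P) :
    ∃ L : IntermediateField ℚ (AlgebraicClosure ℚ), FiniteDimensional ℚ L ∧
      ∀ σ : GQ, (∀ z ∈ L, σ z = z) → actV r κ σ v = v := by
  induction v using TensorProduct.induction_on with
  | zero => exact ⟨⊥, inferInstance, fun σ _ => map_zero _⟩
  | tmul c y =>
    obtain ⟨L, hL, h⟩ := hfin y
    exact ⟨L, hL, fun σ hσ => by rw [actV_tmul, h σ hσ]⟩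
  | add v w hv hw =>
    obtain ⟨L₁, hL₁, h₁⟩ := hv
    obtain ⟨L₂, hL₂, h₂⟩ := hw
    refine ⟨L₁ ⊔ L₂, IntermediateField.finiteDimensional_sup L₁ L₂, fun σ hσ => ?_⟩
    rw [map_add, h₁ σ fun z hz => hσ z ((le_sup_left : L₁ ≤ L₁ ⊔ L₂) hz),
      h₂ σ fun z hz => hσ z ((le_sup_right : L₂ ≤ L₁ ⊔ L₂) hz)]

theorem exists_level_actV_finset (hfin : OpenStab r) {S : Set (κ ⊗[ℤ] P)} (hS : S.Finite) :
    ∃ L : IntermediateField ℚ (AlgebraicClosure ℚ), FiniteDimensional ℚ L ∧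
      ∀ σ : GQ, (∀ z ∈ L, σ z = z) → ∀ v ∈ S, actV r κ σ v = v := by
  induction S, hS using Set.Finite.induction_on with
  | empty => exact ⟨⊥, inferInstance, fun σ _ v hv => absurd hv (Set.notMem_empty v)⟩
  | @insert a S _ _ ih =>
    obtain ⟨L₁, hL₁, h₁⟩ := exists_level_actV κ hfin a
    obtain ⟨L₂, hL₂, h₂⟩ := ih
    refine ⟨L₁ ⊔ L₂, IntermediateField.finiteDimensional_sup L₁ L₂, fun σ hσ v hv => ?_⟩
    rcases hv with rfl | hv
    · exact h₁ σ fun z hz => hσ z ((le_sup_left : L₁ ≤ L₁ ⊔ L₂) hz)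
    · exact h₂ σ (fun z hz => hσ z ((le_sup_right : L₂ ≤ L₁ ⊔ L₂) hz)) v hv

/-- The orbit of a vector of `κ ⊗ P` is finite. -/
theorem finite_orbit (hfin : OpenStab r) (v : κ ⊗[ℤ] P) :
    (Set.range fun σ : GQ => actV r κ σ v).Finite := by
  obtain ⟨L, hL, h⟩ := exists_level_actV κ hfin v
  classical
  let res : GQ → (L →ₐ[ℚ] AlgebraicClosure ℚ) := fun σ => (σ : AlgebraicClosure ℚ →ₐ[ℚ] AlgebraicClosure ℚ).comp L.val
  let g : (L →ₐ[ℚ] AlgebraicClosure ℚ) → κ ⊗[ℤ] P := fun e =>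
    if h : ∃ σ : GQ, res σ = e then actV r κ h.choose v else 0
  have hfinite : Finite (L →ₐ[ℚ] AlgebraicClosure ℚ) := inferInstance
  refine (Set.finite_range g).subset ?_
  rintro _ ⟨σ, rfl⟩
  refine ⟨res σ, ?_⟩
  have hex : ∃ τ : GQ, res τ = res σ := ⟨σ, rfl⟩
  show g (res σ) = actV r κ σ v
  simp only [g, dif_pos hex]
  have hτ : res hex.choose = res σ := hex.choose_spec
  have hfix : ∀ z ∈ L, (hex.choose⁻¹ * σ) z = z := by
    intro z hz
    have hz' : hex.choose z = σ z :=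
      congrArg (fun e : L →ₐ[ℚ] AlgebraicClosure ℚ => e ⟨z, hz⟩) hτ
    show hex.choose⁻¹ (σ z) = z
    rw [← hz']
    exact hex.choose.symm_apply_apply z
  have := h _ hfix
  rw [map_mul, Module.End.mul_apply] at this
  calc actV r κ hex.choose v
      = actV r κ hex.choose (actV r κ hex.choose⁻¹ (actV r κ σ v)) := by rw [this]
    _ = actV r κ σ v := by
        rw [← Module.End.mul_apply, ← map_mul, mul_inv_cancel, map_one, Module.End.one_apply]

/-- The span of the orbit of `x`. -/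
def orbitSpan (r : GQ →* Module.End ℤ P) (x : κ ⊗[ℤ] P) : Submodule κ (κ ⊗[ℤ] P) :=
  Submodule.span κ (Set.range fun σ : GQ => actV r κ σ x)

theorem self_mem_orbitSpan (r : GQ →* Module.End ℤ P) (x : κ ⊗[ℤ] P) : x ∈ orbitSpan κ r x :=
  Submodule.subset_span ⟨1, by
    show actV r κ 1 x = x
    rw [map_one, Module.End.one_apply]⟩

theorem actV_mem_orbitSpan (r : GQ →* Module.End ℤ P) (x : κ ⊗[ℤ] P) (τ : GQ)
    {w : κ ⊗[ℤ] P} (hw : w ∈ orbitSpan κ r x) : actV r κ τ w ∈ orbitSpan κ r x := by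
  induction hw using Submodule.span_induction with
  | mem v hv =>
    obtain ⟨σ, rfl⟩ := hv
    refine Submodule.subset_span ⟨τ * σ, ?_⟩
    show actV r κ (τ * σ) x = actV r κ τ (actV r κ σ x)
    rw [map_mul, Module.End.mul_apply]
  | zero => rw [map_zero]; exact Submodule.zero_mem _
  | add v w _ _ hv hw => rw [map_add]; exact Submodule.add_mem _ hv hw
  | smul c v _ hv => rw [map_smul]; exact Submodule.smul_mem _ c hv

/-- The representation on the span of the orbit of `x`. -/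
def orbitRep (r : GQ →* Module.End ℤ P) (x : κ ⊗[ℤ] P) :
    GQ →* Module.End κ (orbitSpan κ r x) where
  toFun σ := (actV r κ σ).restrict fun _ hw => actV_mem_orbitSpan κ r x σ hw
  map_one' := by
    ext w
    simp [LinearMap.restrict_apply]
  map_mul' σ τ := by
    ext w
    simp [LinearMap.restrict_apply]

theorem coe_orbitRep_apply (r : GQ →* Module.End ℤ P) (x : κ ⊗[ℤ] P) (σ : GQ)
    (w : orbitSpan κ r x) :
    ((orbitRep κ r x σ w : orbitSpan κ r x) : κ ⊗[ℤ] P) = actV r κ σ (w : κ ⊗[ℤ] P) :=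
  rfl

theorem finiteDimensional_orbitSpan (hfin : OpenStab r) (x : κ ⊗[ℤ] P) :
    FiniteDimensional κ (orbitSpan κ r x) :=
  FiniteDimensional.span_of_finite κ (finite_orbit κ hfin x)

theorem nontrivial_orbitSpan (r : GQ →* Module.End ℤ P) {x : κ ⊗[ℤ] P} (hx : x ≠ 0) :
    Nontrivial (orbitSpan κ r x) :=
  ⟨⟨⟨x, self_mem_orbitSpan κ r x⟩, 0, fun h => hx (congrArg Subtype.val h)⟩⟩

theorem orbitRep_finiteLevel (hfin : OpenStab r) (x : κ ⊗[ℤ] P) :
    GaloisFactorsThroughFiniteLevel (orbitRep κ r x) := by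
  obtain ⟨L, hL, h⟩ := exists_level_actV_finset κ hfin (finite_orbit κ hfin x)
  refine ⟨L, hL, fun σ hσ => ?_⟩
  ext w
  rw [coe_orbitRep_apply, Module.End.one_apply]
  obtain ⟨w, hw⟩ := w
  show actV r κ σ w = w
  induction hw using Submodule.span_induction with
  | mem v hv => exact h σ hσ v hv
  | zero => rw [map_zero]
  | add v w _ _ hv hw => rw [map_add, hv, hw]
  | smul c v _ hv => rw [map_smul, hv]

/-- An element acting trivially on `P` acts trivially on the orbit span. -/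
theorem orbitRep_eq_one (r : GQ →* Module.End ℤ P) (x : κ ⊗[ℤ] P) {σ : GQ}
    (hσ : ∀ y : P, r σ y = y) : orbitRep κ r x σ = 1 := by
  have h1 : r σ = 1 := LinearMap.ext hσ
  ext w
  rw [coe_orbitRep_apply, Module.End.one_apply]
  show (r σ).baseChange κ (w : κ ⊗[ℤ] P) = w
  rw [h1, LinearMap.baseChange_one, Module.End.one_apply]

/-- Eigenvectors: if `T` commutes with the action and `x` is an eigenvector of `T ⊗ κ`, so is
every element of the orbit span. -/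
theorem baseChange_apply_of_mem_orbitSpan (r : GQ →* Module.End ℤ P) (T : Module.End ℤ P)
    (hT : ∀ (σ : GQ) (y : P), T (r σ y) = r σ (T y)) {x : κ ⊗[ℤ] P} {a : κ}
    (hx : T.baseChange κ x = a • x) {w : κ ⊗[ℤ] P} (hw : w ∈ orbitSpan κ r x) :
    T.baseChange κ w = a • w := by
  have hcomm : ∀ σ : GQ, T.baseChange κ ∘ₗ actV r κ σ = actV r κ σ ∘ₗ T.baseChange κ := by
    intro σ
    show T.baseChange κ ∘ₗ (r σ).baseChange κ = (r σ).baseChange κ ∘ₗ T.baseChange κ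
    rw [← LinearMap.baseChange_comp, ← LinearMap.baseChange_comp]
    congr 1
    exact LinearMap.ext fun y => hT σ y
  induction hw using Submodule.span_induction with
  | mem v hv =>
    obtain ⟨σ, rfl⟩ := hv
    have := congrArg (fun f : Module.End κ (κ ⊗[ℤ] P) => f x) (hcomm σ)
    simp only [LinearMap.comp_apply] at this
    rw [this, hx, map_smul]
  | zero => rw [map_zero, smul_zero]
  | add v w _ _ hv hw => rw [map_add, hv, hw, smul_add]
  | smul c v _ hv => rw [map_smul, hv, smul_comm]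

/-- The quadratic relation passes to `κ ⊗ P`. -/
theorem actV_quadratic (r : GQ →* Module.End ℤ P) (T : Module.End ℤ P) (σ : GQ) (ℓ : ℕ)
    (h : ∀ y : P, r σ (r σ y) - T (r σ y) + ℓ • y = 0) (v : κ ⊗[ℤ] P) :
    actV r κ σ (actV r κ σ v) - T.baseChange κ (actV r κ σ v) + (ℓ : κ) • v = 0 := by
  induction v using TensorProduct.induction_on with
  | zero => simp
  | tmul c y =>
    rw [actV_tmul, actV_tmul, LinearMap.baseChange_tmul, ← TensorProduct.tmul_sub]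
    have h1 : (ℓ : κ) • (c ⊗ₜ[ℤ] y) = c ⊗ₜ[ℤ] (ℓ • y) := by
      rw [TensorProduct.tmul_smul, Nat.cast_smul_eq_nsmul]
    rw [h1, ← TensorProduct.tmul_add, h y, TensorProduct.tmul_zero]
  | add v w hv hw =>
    have : actV r κ σ (actV r κ σ (v + w)) - T.baseChange κ (actV r κ σ (v + w))
        + (ℓ : κ) • (v + w)
        = (actV r κ σ (actV r κ σ v) - T.baseChange κ (actV r κ σ v) + (ℓ : κ) • v)
          + (actV r κ σ (actV r κ σ w) - T.baseChange κ (actV r κ σ w) + (ℓ : κ) • w) := by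
      simp only [map_add, smul_add]
      abel
    rw [this, hv, hw, add_zero]

/-- The quadratic relation on the orbit span of an eigenvector. -/
theorem orbitRep_quadratic (r : GQ →* Module.End ℤ P) (T : Module.End ℤ P)
    (hT : ∀ (σ : GQ) (y : P), T (r σ y) = r σ (T y)) {x : κ ⊗[ℤ] P} {a : κ}
    (hx : T.baseChange κ x = a • x) (σ : GQ) (ℓ : ℕ)
    (h : ∀ y : P, r σ (r σ y) - T (r σ y) + ℓ • y = 0) :
    orbitRep κ r x σ * orbitRep κ r x σ - a • orbitRep κ r x σ + (ℓ : κ) • 1 = 0 := by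
  ext w
  have hq := actV_quadratic κ r T σ ℓ h (w : κ ⊗[ℤ] P)
  have he := baseChange_apply_of_mem_orbitSpan κ r T hT hx
    (actV_mem_orbitSpan κ r x σ w.2)
  rw [he] at hq
  simp only [LinearMap.add_apply, LinearMap.sub_apply, LinearMap.smul_apply,
    Module.End.mul_apply, Module.End.one_apply, Submodule.coe_add, Submodule.coe_sub,
    Submodule.coe_smul, coe_orbitRep_apply, LinearMap.zero_apply, Submodule.coe_zero]
  exact hq

end Core

/-! ### Abstract MID theorem -/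

/-- **Abstract MID.** `P` an abelian group with a `ℤ`-linear action `r` of `GQ` having open
stabilisers, operators `T ℓ` commuting with the action, unramified outside `N p`, with the
Eichler-Shimura quadratic relation at every Frobenius lift, and ONE eigenvector in `κ ⊗ P`:
then there is a nonzero finite-dimensional `κ`-representation of finite level, unramified
outside `N p`, on which every Frobenius lift satisfies `ρ σ ^ 2 - a ℓ • ρ σ + ℓ = 0`. -/
theorem exists_rep_of_eigenvector {P : Type} [AddCommGroup P] (r : GQ →* Module.End ℤ P)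
    (hfin : OpenStab r) (N p : ℕ) (T : Nat.Primes → Module.End ℤ P)
    (hT : ∀ (ℓ : Nat.Primes) (σ : GQ) (y : P), T ℓ (r σ y) = r σ (T ℓ y))
    (hU : ∀ ℓ : ℕ, ℓ.Prime → ¬ ℓ ∣ N * p →
      ∀ A : ValuationSubring (AlgebraicClosure ℚ), A.LiesOverPrime ℓ →
        ∀ τ ∈ A.inertiaSubgroupIn ℚ, ∀ y : P, r τ y = y)
    (hES : ∀ (ℓ : ℕ) (hℓ : ℓ.Prime), ¬ ℓ ∣ N * p →
      ∀ A : ValuationSubring (AlgebraicClosure ℚ), A.LiesOverPrime ℓ →
        ∀ σ : GQ, A.IsFrobeniusAt σ ℓ →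
          ∀ y : P, r σ (r σ y) - T ⟨ℓ, hℓ⟩ (r σ y) + ℓ • y = 0)
    (κ : Type) [Field κ] (a : Nat.Primes → κ)
    (hocc : ∃ x : κ ⊗[ℤ] P, x ≠ 0 ∧
      ∀ ℓ : Nat.Primes, ¬ (ℓ : ℕ) ∣ N * p → (T ℓ).baseChange κ x = a ℓ • x) :
    ∃ (W : Type) (_ : AddCommGroup W) (_ : Module κ W), FiniteDimensional κ W ∧ Nontrivial W ∧
      ∃ ρ : GQ →* Module.End κ W, GaloisFactorsThroughFiniteLevel ρ ∧
        (∀ ℓ : ℕ, ℓ.Prime → ¬ ℓ ∣ N * p →
          ∀ A : ValuationSubring (AlgebraicClosure ℚ), A.LiesOverPrime ℓ →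
            ∀ σ ∈ A.inertiaSubgroupIn ℚ, ρ σ = 1) ∧
        (∀ (ℓ : ℕ) (hℓ : ℓ.Prime), ¬ ℓ ∣ N * p →
          ∀ A : ValuationSubring (AlgebraicClosure ℚ), A.LiesOverPrime ℓ →
            ∀ σ : GQ, A.IsFrobeniusAt σ ℓ →
              ρ σ * ρ σ - a ⟨ℓ, hℓ⟩ • ρ σ + (ℓ : κ) • 1 = 0) := by
  obtain ⟨x, hx0, hx⟩ := hocc
  refine ⟨orbitSpan κ r x, inferInstance, inferInstance, finiteDimensional_orbitSpan κ hfin x,
    nontrivial_orbitSpan κ r hx0, orbitRep κ r x, orbitRep_finiteLevel κ hfin x, ?_, ?_⟩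
  · intro ℓ hℓ hℓN A hA σ hσ
    exact orbitRep_eq_one κ r x (hU ℓ hℓ hℓN A hA σ hσ)
  · intro ℓ hℓ hℓN A hA σ hσ
    exact orbitRep_quadratic κ r (T ⟨ℓ, hℓ⟩) (hT ⟨ℓ, hℓ⟩) (hx ⟨ℓ, hℓ⟩ hℓN) σ ℓ
      (hES ℓ hℓ hℓN A hA σ hσ)

/-! ### The instance on `JZero N` -/

section JZero

open ModularCurve

variable (N p : ℕ) [NeZero N]

/-- **MID for a `p`-torsion Galois/Hecke module embedded in `JZero N`.** -/
theorem eig_of_embedding {P : Type} [AddCommGroup P] (ι : P →+ JZero N)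
    (hι : Function.Injective ι) (hιp : ∀ y : P, p • ι y = 0)
    (r : GQ →* Module.End ℤ P) (hr : ∀ (σ : GQ) (y : P), ι (r σ y) = σ • ι y)
    (T : Nat.Primes → Module.End ℤ P)
    (hTι : ∀ (ℓ : Nat.Primes) (y : P), ι (T ℓ y) = heckeOperatorBar N ℓ (ι y))
    (hU : ∀ ℓ : ℕ, ℓ.Prime → ¬ ℓ ∣ N * p →
      ∀ A : ValuationSubring (AlgebraicClosure ℚ), A.LiesOverPrime ℓ →
        ∀ τ ∈ A.inertiaSubgroupIn ℚ, ∀ x : JZero N, p • x = 0 → τ • x = x)
    (hES : ∀ (ℓ : ℕ) (hℓ : ℓ.Prime), ¬ ℓ ∣ N * p →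
      ∀ A : ValuationSubring (AlgebraicClosure ℚ), A.LiesOverPrime ℓ →
        ∀ σ : GQ, A.IsFrobeniusAt σ ℓ → ∀ x : JZero N, p • x = 0 →
          σ • σ • x - heckeOperatorBar N ⟨ℓ, hℓ⟩ (σ • x) + ℓ • x = 0)
    (hGH : ∀ (ℓ : Nat.Primes) (σ : GQ) (x : JZero N),
      σ • heckeOperatorBar N ℓ x = heckeOperatorBar N ℓ (σ • x))
    (hfin : ∀ x : JZero N, ∃ L : IntermediateField ℚ (AlgebraicClosure ℚ),
      FiniteDimensional ℚ L ∧ ∀ σ : GQ, (∀ z ∈ L, σ z = z) → σ • x = x)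
    (κ : Type) [Field κ] (a : Nat.Primes → κ)
    (hocc : ∃ x : κ ⊗[ℤ] P, x ≠ 0 ∧
      ∀ ℓ : Nat.Primes, ¬ (ℓ : ℕ) ∣ N * p → (T ℓ).baseChange κ x = a ℓ • x) :
    ∃ (W : Type) (_ : AddCommGroup W) (_ : Module κ W), FiniteDimensional κ W ∧ Nontrivial W ∧
      ∃ ρ : GQ →* Module.End κ W, GaloisFactorsThroughFiniteLevel ρ ∧
        (∀ ℓ : ℕ, ℓ.Prime → ¬ ℓ ∣ N * p →
          ∀ A : ValuationSubring (AlgebraicClosure ℚ), A.LiesOverPrime ℓ →
            ∀ σ ∈ A.inertiaSubgroupIn ℚ, ρ σ = 1) ∧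
        (∀ (ℓ : ℕ) (hℓ : ℓ.Prime), ¬ ℓ ∣ N * p →
          ∀ A : ValuationSubring (AlgebraicClosure ℚ), A.LiesOverPrime ℓ →
            ∀ σ : GQ, A.IsFrobeniusAt σ ℓ →
              ρ σ * ρ σ - a ⟨ℓ, hℓ⟩ • ρ σ + (ℓ : κ) • 1 = 0) := by
  refine exists_rep_of_eigenvector r ?_ N p T ?_ ?_ ?_ κ a hocc
  · intro y
    obtain ⟨L, hL, h⟩ := hfin (ι y)
    exact ⟨L, hL, fun σ hσ => hι (by rw [hr, h σ hσ])⟩
  · intro ℓ σ y
    apply hι
    rw [hTι, hr, hr, hTι, hGH]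
  · intro ℓ hℓ hℓN A hA τ hτ y
    apply hι
    rw [hr]
    exact hU ℓ hℓ hℓN A hA τ hτ (ι y) (hιp y)
  · intro ℓ hℓ hℓN A hA σ hσ y
    apply hι
    have h1 : ι (T ⟨ℓ, hℓ⟩ (r σ y)) = heckeOperatorBar N ⟨ℓ, hℓ⟩ (σ • ι y) := by
      rw [← hr]
      exact hTι ⟨ℓ, hℓ⟩ (r σ y)
    have h2 : ι (r σ (r σ y)) = σ • σ • ι y := by rw [hr, hr]
    rw [map_add, map_sub, map_nsmul, h1, h2, map_zero]
    exact hES ℓ hℓ hℓN A hA σ hσ (ι y) (hιp y)

/-- `J[p]` as a `ℤ`-submodule of `JZero N`. -/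
abbrev Jp : Submodule ℤ (JZero N) := Submodule.torsionBy ℤ (JZero N) (p : ℤ)

omit [NeZero N] in
variable {N p} in
theorem nsmul_eq_zero_of_mem_Jp {x : JZero N} (hx : x ∈ Jp N p) : p • x = 0 := by
  rw [Submodule.mem_torsionBy_iff] at hx
  rw [← natCast_zsmul]
  exact hx

omit [NeZero N] in
variable {N p} in
theorem mem_Jp_of_nsmul_eq_zero {x : JZero N} (hx : p • x = 0) : x ∈ Jp N p := by
  rw [Submodule.mem_torsionBy_iff, natCast_zsmul]
  exact hx

omit [NeZero N] in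
variable {N p} in
theorem galois_smul_mem_Jp (σ : GQ) {x : JZero N} (hx : x ∈ Jp N p) : σ • x ∈ Jp N p := by
  apply mem_Jp_of_nsmul_eq_zero
  have h := map_nsmul (DistribSMul.toAddMonoidHom (JZero N) σ) p x
  rw [nsmul_eq_zero_of_mem_Jp hx, map_zero] at h
  exact h.symm

variable {N p} in
theorem hecke_mem_Jp (ℓ : Nat.Primes) {x : JZero N} (hx : x ∈ Jp N p) :
    heckeOperatorBar N ℓ x ∈ Jp N p := by
  apply mem_Jp_of_nsmul_eq_zero
  rw [← map_nsmul, nsmul_eq_zero_of_mem_Jp hx, map_zero]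

/-- The Galois action on `J[p]`, as `ℤ`-linear maps. -/
def galJp : GQ →* Module.End ℤ (Jp N p) where
  toFun σ := ((DistribSMul.toAddMonoidHom (JZero N) σ).toIntLinearMap).restrict
    fun _ hx => galois_smul_mem_Jp σ hx
  map_one' := by
    ext x
    show (1 : GQ) • (x : JZero N) = x
    rw [one_smul]
  map_mul' σ τ := by
    ext x
    show (σ * τ) • (x : JZero N) = σ • τ • (x : JZero N)
    rw [mul_smul]

omit [NeZero N] in
theorem coe_galJp_apply (σ : GQ) (x : Jp N p) :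
    ((galJp N p σ x : Jp N p) : JZero N) = σ • (x : JZero N) :=
  rfl

/-- The Hecke operator `T_ℓ` on `J[p]`. -/
def heckeJp (ℓ : Nat.Primes) : Module.End ℤ (Jp N p) :=
  (heckeOperatorBar N ℓ).restrict fun _ hx => hecke_mem_Jp ℓ hx

theorem coe_heckeJp_apply (ℓ : Nat.Primes) (x : Jp N p) :
    ((heckeJp N p ℓ x : Jp N p) : JZero N) = heckeOperatorBar N ℓ (x : JZero N) :=
  rfl

/-- **S29-MID, operator-wise form.** From operator-wise unramifiedness and the Eichler-Shimura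
relation on `J[p]`, Galois-equivariance of the Prelude Hecke operators, open stabilisers and ONE
eigenvector in `κ ⊗ J[p]`: a nonzero finite-dimensional `κ`-representation of `Gal(ℚ̄/ℚ)` of
finite level, unramified outside `N p`, with the quadratic relation at every Frobenius lift. -/
theorem eig_of_operatorwise
    (hU : ∀ ℓ : ℕ, ℓ.Prime → ¬ ℓ ∣ N * p →
      ∀ A : ValuationSubring (AlgebraicClosure ℚ), A.LiesOverPrime ℓ →
        ∀ τ ∈ A.inertiaSubgroupIn ℚ, ∀ x : JZero N, p • x = 0 → τ • x = x)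
    (hES : ∀ (ℓ : ℕ) (hℓ : ℓ.Prime), ¬ ℓ ∣ N * p →
      ∀ A : ValuationSubring (AlgebraicClosure ℚ), A.LiesOverPrime ℓ →
        ∀ σ : GQ, A.IsFrobeniusAt σ ℓ → ∀ x : JZero N, p • x = 0 →
          σ • σ • x - heckeOperatorBar N ⟨ℓ, hℓ⟩ (σ • x) + ℓ • x = 0)
    (hGH : ∀ (ℓ : Nat.Primes) (σ : GQ) (x : JZero N),
      σ • heckeOperatorBar N ℓ x = heckeOperatorBar N ℓ (σ • x))
    (hfin : ∀ x : JZero N, ∃ L : IntermediateField ℚ (AlgebraicClosure ℚ),
      FiniteDimensional ℚ L ∧ ∀ σ : GQ, (∀ z ∈ L, σ z = z) → σ • x = x)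
    (κ : Type) [Field κ] (a : Nat.Primes → κ)
    (hocc : ∃ x : κ ⊗[ℤ] Jp N p, x ≠ 0 ∧
      ∀ ℓ : Nat.Primes, ¬ (ℓ : ℕ) ∣ N * p → (heckeJp N p ℓ).baseChange κ x = a ℓ • x) :
    ∃ (W : Type) (_ : AddCommGroup W) (_ : Module κ W), FiniteDimensional κ W ∧ Nontrivial W ∧
      ∃ ρ : GQ →* Module.End κ W, GaloisFactorsThroughFiniteLevel ρ ∧
        (∀ ℓ : ℕ, ℓ.Prime → ¬ ℓ ∣ N * p →
          ∀ A : ValuationSubring (AlgebraicClosure ℚ), A.LiesOverPrime ℓ →
            ∀ σ ∈ A.inertiaSubgroupIn ℚ, ρ σ = 1) ∧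
        (∀ (ℓ : ℕ) (hℓ : ℓ.Prime), ¬ ℓ ∣ N * p →
          ∀ A : ValuationSubring (AlgebraicClosure ℚ), A.LiesOverPrime ℓ →
            ∀ σ : GQ, A.IsFrobeniusAt σ ℓ →
              ρ σ * ρ σ - a ⟨ℓ, hℓ⟩ • ρ σ + (ℓ : κ) • 1 = 0) :=
  eig_of_embedding N p (Jp N p).subtype.toAddMonoidHom Subtype.val_injective
    (fun y => nsmul_eq_zero_of_mem_Jp y.2) (galJp N p) (fun _ _ => rfl) (heckeJp N p)
    (fun _ _ => rfl) hU hES hGH hfin κ a hocc

/-! #### The same on the Prelude torsion subgroup `Pic0.torsion` -/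

/-- The Prelude `p`-torsion subgroup of `JZero N`. -/
abbrev Jtors : AddSubgroup (JZero N) :=
  AlgebraicCurve.Pic0.torsion (AlgebraicClosure ℚ) (modularFunctionFieldBar N) p

omit [NeZero N] in
variable {N p} in
theorem nsmul_eq_zero_of_mem_Jtors {x : JZero N} (hx : x ∈ Jtors N p) : p • x = 0 := by
  rw [AlgebraicCurve.Pic0.mem_torsion] at hx
  rw [← natCast_zsmul]
  exact hx

omit [NeZero N] in
variable {N p} in
theorem mem_Jtors_of_nsmul_eq_zero {x : JZero N} (hx : p • x = 0) : x ∈ Jtors N p := by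
  rw [AlgebraicCurve.Pic0.mem_torsion, natCast_zsmul]
  exact hx

/-- The Galois action on the Prelude torsion subgroup, as `ℤ`-linear maps. -/
def galJtors : GQ →* Module.End ℤ (Jtors N p) where
  toFun σ := AddMonoidHom.toIntLinearMap
    (((DistribSMul.toAddMonoidHom (JZero N) σ).comp (Jtors N p).subtype).codRestrict (Jtors N p)
      fun x => by
        apply mem_Jtors_of_nsmul_eq_zero
        have h := map_nsmul (DistribSMul.toAddMonoidHom (JZero N) σ) p (x : JZero N)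
        rw [nsmul_eq_zero_of_mem_Jtors x.2, map_zero] at h
        exact h.symm)
  map_one' := by
    ext x
    show (1 : GQ) • (x : JZero N) = x
    rw [one_smul]
  map_mul' σ τ := by
    ext x
    show (σ * τ) • (x : JZero N) = σ • τ • (x : JZero N)
    rw [mul_smul]

omit [NeZero N] in
theorem coe_galJtors_apply (σ : GQ) (x : Jtors N p) :
    ((galJtors N p σ x : Jtors N p) : JZero N) = σ • (x : JZero N) :=
  rfl

/-- The Hecke operator `T_ℓ` on the Prelude torsion subgroup. -/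
def heckeJtors (ℓ : Nat.Primes) : Module.End ℤ (Jtors N p) :=
  AddMonoidHom.toIntLinearMap
    ((((heckeOperatorBar N ℓ).toAddMonoidHom).comp (Jtors N p).subtype).codRestrict (Jtors N p)
      fun x => by
        apply mem_Jtors_of_nsmul_eq_zero
        show p • heckeOperatorBar N ℓ (x : JZero N) = 0
        rw [← map_nsmul, nsmul_eq_zero_of_mem_Jtors x.2, map_zero])

theorem coe_heckeJtors_apply (ℓ : Nat.Primes) (x : Jtors N p) :
    ((heckeJtors N p ℓ x : Jtors N p) : JZero N) = heckeOperatorBar N ℓ (x : JZero N) :=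
  rfl

/-- **S29-MID, operator-wise form, on the Prelude torsion subgroup.** -/
theorem eig_of_operatorwise_torsion
    (hU : ∀ ℓ : ℕ, ℓ.Prime → ¬ ℓ ∣ N * p →
      ∀ A : ValuationSubring (AlgebraicClosure ℚ), A.LiesOverPrime ℓ →
        ∀ τ ∈ A.inertiaSubgroupIn ℚ, ∀ x : JZero N, p • x = 0 → τ • x = x)
    (hES : ∀ (ℓ : ℕ) (hℓ : ℓ.Prime), ¬ ℓ ∣ N * p →
      ∀ A : ValuationSubring (AlgebraicClosure ℚ), A.LiesOverPrime ℓ →
        ∀ σ : GQ, A.IsFrobeniusAt σ ℓ → ∀ x : JZero N, p • x = 0 →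
          σ • σ • x - heckeOperatorBar N ⟨ℓ, hℓ⟩ (σ • x) + ℓ • x = 0)
    (hGH : ∀ (ℓ : Nat.Primes) (σ : GQ) (x : JZero N),
      σ • heckeOperatorBar N ℓ x = heckeOperatorBar N ℓ (σ • x))
    (hfin : ∀ x : JZero N, ∃ L : IntermediateField ℚ (AlgebraicClosure ℚ),
      FiniteDimensional ℚ L ∧ ∀ σ : GQ, (∀ z ∈ L, σ z = z) → σ • x = x)
    (κ : Type) [Field κ] (a : Nat.Primes → κ)
    (hocc : ∃ x : κ ⊗[ℤ] Jtors N p, x ≠ 0 ∧
      ∀ ℓ : Nat.Primes, ¬ (ℓ : ℕ) ∣ N * p → (heckeJtors N p ℓ).baseChange κ x = a ℓ • x) :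
    ∃ (W : Type) (_ : AddCommGroup W) (_ : Module κ W), FiniteDimensional κ W ∧ Nontrivial W ∧
      ∃ ρ : GQ →* Module.End κ W, GaloisFactorsThroughFiniteLevel ρ ∧
        (∀ ℓ : ℕ, ℓ.Prime → ¬ ℓ ∣ N * p →
          ∀ A : ValuationSubring (AlgebraicClosure ℚ), A.LiesOverPrime ℓ →
            ∀ σ ∈ A.inertiaSubgroupIn ℚ, ρ σ = 1) ∧
        (∀ (ℓ : ℕ) (hℓ : ℓ.Prime), ¬ ℓ ∣ N * p →
          ∀ A : ValuationSubring (AlgebraicClosure ℚ), A.LiesOverPrime ℓ →
            ∀ σ : GQ, A.IsFrobeniusAt σ ℓ →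
              ρ σ * ρ σ - a ⟨ℓ, hℓ⟩ • ρ σ + (ℓ : κ) • 1 = 0) :=
  eig_of_embedding N p (Jtors N p).subtype Subtype.val_injective
    (fun y => nsmul_eq_zero_of_mem_Jtors y.2) (galJtors N p) (fun _ _ => rfl) (heckeJtors N p)
    (fun _ _ => rfl) hU hES hGH hfin κ a hocc

end JZero

end Fermat.Agent.S29.helper2187
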