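import Mathlib
import Fermat.Prelude.Def_GaloisRep_Residual
import Fermat.Prelude.Def_ModularCurve_HeckeModule
import Fermat.Agent.S29.helper6752_Adapters
import Fermat.Agent.S29.helper2187_MidOp
import Fermat.Agent.S29.helper5500_GalHecke
import Fermat.Agent.S29.helper8527_FiniteLevel
import Fermat.Agent.S29.helper7617_Integrality

/-!
# S29: captain's Spec (helper5782)

The frozen statement S29 is derived here from FOUR Prop-valued interfaces, all other
links of the chain being theorems already on main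
(`helper6752.result_of`, `helper6752.stmt_Dim2`, `helper2187.eig_of_operatorwise`,
`helper5500.galois_smul_heckeOperatorBar`, `helper8527.exists_finiteLevel_point`,
`helper7617.qCoeff_mem_integralClosure`):

* `helper6752.Stmt_CycFrob` (CYC): generator form of Chebotarev;
* `Stmt_U` (U): inertia at the primes not dividing `N p` acts trivially on `J₀(N)[p]`;
* `Stmt_ES` (ES): every Frobenius lift `σ` at a prime `ℓ` not dividing `N p` satisfies
  `σ² - T_ℓ σ + ℓ = 0` on `J₀(N)[p]` (operator-wise, Prelude `heckeOperatorBar`);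
* `Stmt_Occ` (OCC): the eigensystem of `g` modulo `ker ψ` occurs in `κ ⊗ J₀(N)[p]`.

`result_of` is the frozen statement verbatim; `result_of_tors` is the same with (OCC) stated
on the Prelude torsion subgroup `Pic0.torsion`.  The Props are stated for every level
`N ≠ 0`, every prime `p` (including `p = 2` and `p ∣ N`).
-/

set_option autoImplicit false

open scoped TensorProduct
open ModularCurve

namespace Fermat.Agent.S29.helper5782

/-- The absolute Galois group of `ℚ`. -/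
abbrev GQ : Type := AlgebraicClosure ℚ ≃ₐ[ℚ] AlgebraicClosure ℚ

/-- The ring of all algebraic integers of `ℂ`. -/
abbrev Zc : Type := integralClosure ℤ ℂ

/-- (U) Inertia at every prime `ℓ ∤ N p` acts trivially on the `p`-torsion of `J₀(N)`. -/
def Stmt_U : Prop :=
  ∀ (N : ℕ) [NeZero N] (p : ℕ), p.Prime → ∀ ℓ : ℕ, ℓ.Prime → ¬ ℓ ∣ N * p →
    ∀ A : ValuationSubring (AlgebraicClosure ℚ), A.LiesOverPrime ℓ →
      ∀ τ ∈ A.inertiaSubgroupIn ℚ, ∀ x : JZero N, p • x = 0 → τ • x = x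

/-- (ES) The Eichler–Shimura relation on the `p`-torsion of `J₀(N)`, operator-wise, at every
Frobenius lift at every prime `ℓ ∤ N p`. -/
def Stmt_ES : Prop :=
  ∀ (N : ℕ) [NeZero N] (p : ℕ), p.Prime → ∀ (ℓ : ℕ) (hℓ : ℓ.Prime), ¬ ℓ ∣ N * p →
    ∀ A : ValuationSubring (AlgebraicClosure ℚ), A.LiesOverPrime ℓ →
      ∀ σ : GQ, A.IsFrobeniusAt σ ℓ → ∀ x : JZero N, p • x = 0 →
        σ • σ • x - heckeOperatorBar N ⟨ℓ, hℓ⟩ (σ • x) + ℓ • x = 0

/-- (OCC) Occurrence of the eigensystem of `g` modulo `ker ψ` in `κ ⊗ J₀(N)[p]`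
(`J₀(N)[p]` as `Submodule.torsionBy`, shape of `helper2187.eig_of_operatorwise`). -/
def Stmt_Occ : Prop :=
  ∀ (N : ℕ) [NeZero N] (g : CuspForm (CongruenceSubgroup.Gamma0 N) 2)
    (hg : g.IsNormalizedEigenform) (p : ℕ), p.Prime →
    ∀ (κ : Type) [Field κ] [IsAlgClosed κ] [CharP κ p] (ψ : Zc →+* κ), Function.Surjective ψ →
      ∃ x : κ ⊗[ℤ] helper2187.Jp N p, x ≠ 0 ∧
        ∀ ℓ : Nat.Primes, ¬ (ℓ : ℕ) ∣ N * p →
          (helper2187.heckeJp N p ℓ).baseChange κ x =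
            ψ ⟨ModularFormClass.qCoeff g ℓ, helper7617.qCoeff_mem_integralClosure hg ℓ⟩ • x

/-- (OCC), stated on the Prelude torsion subgroup `Pic0.torsion`
(shape of `helper2187.eig_of_operatorwise_torsion`). -/
def Stmt_OccTors : Prop :=
  ∀ (N : ℕ) [NeZero N] (g : CuspForm (CongruenceSubgroup.Gamma0 N) 2)
    (hg : g.IsNormalizedEigenform) (p : ℕ), p.Prime →
    ∀ (κ : Type) [Field κ] [IsAlgClosed κ] [CharP κ p] (ψ : Zc →+* κ), Function.Surjective ψ →
      ∃ x : κ ⊗[ℤ] helper2187.Jtors N p, x ≠ 0 ∧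
        ∀ ℓ : Nat.Primes, ¬ (ℓ : ℕ) ∣ N * p →
          (helper2187.heckeJtors N p ℓ).baseChange κ x =
            ψ ⟨ModularFormClass.qCoeff g ℓ, helper7617.qCoeff_mem_integralClosure hg ℓ⟩ • x

/-- (EIG) of the endgame from (U), (ES), (OCC). -/
theorem stmt_Eig (hU : Stmt_U) (hES : Stmt_ES) (hOcc : Stmt_Occ) : helper6752.Stmt_Eig := by
  intro N hN g hg p hp κ _ _ _ ψ hψ
  have : NeZero N := ⟨hN⟩
  obtain ⟨W, iW1, iW2, hfd, hnt, ρ, hlev, hunr, hfrob⟩ :=
    helper2187.eig_of_operatorwise N p (hU N p hp) (hES N p hp)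
      (helper5500.galois_smul_heckeOperatorBar (N := N))
      (helper8527.exists_finiteLevel_point N) κ
      (fun ℓ => ψ ⟨ModularFormClass.qCoeff g ℓ, helper7617.qCoeff_mem_integralClosure hg ℓ⟩)
      (hOcc N g hg p hp κ ψ hψ)
  refine ⟨W, iW1, iW2, ρ, hfd, hnt, hlev, hunr, ?_⟩
  intro ℓ hℓ hℓNp A hA σ hσ
  exact ⟨⟨ModularFormClass.qCoeff g ℓ, helper7617.qCoeff_mem_integralClosure hg ℓ⟩, rfl,
    hfrob ℓ hℓ hℓNp A hA σ hσ⟩

/-- (EIG) of the endgame from (U), (ES), (OCC on `Pic0.torsion`). -/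
theorem stmt_Eig_tors (hU : Stmt_U) (hES : Stmt_ES) (hOcc : Stmt_OccTors) :
    helper6752.Stmt_Eig := by
  intro N hN g hg p hp κ _ _ _ ψ hψ
  have : NeZero N := ⟨hN⟩
  obtain ⟨W, iW1, iW2, hfd, hnt, ρ, hlev, hunr, hfrob⟩ :=
    helper2187.eig_of_operatorwise_torsion N p (hU N p hp) (hES N p hp)
      (helper5500.galois_smul_heckeOperatorBar (N := N))
      (helper8527.exists_finiteLevel_point N) κ
      (fun ℓ => ψ ⟨ModularFormClass.qCoeff g ℓ, helper7617.qCoeff_mem_integralClosure hg ℓ⟩)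
      (hOcc N g hg p hp κ ψ hψ)
  refine ⟨W, iW1, iW2, ρ, hfd, hnt, hlev, hunr, ?_⟩
  intro ℓ hℓ hℓNp A hA σ hσ
  exact ⟨⟨ModularFormClass.qCoeff g ℓ, helper7617.qCoeff_mem_integralClosure hg ℓ⟩, rfl,
    hfrob ℓ hℓ hℓNp A hA σ hσ⟩

/-- **S29 from the four open interfaces** (frozen statement verbatim). -/
theorem result_of (hCyc : helper6752.Stmt_CycFrob) (hU : Stmt_U) (hES : Stmt_ES)
    (hOcc : Stmt_Occ)
    {N : ℕ} {g : CuspForm (CongruenceSubgroup.Gamma0 N) 2} (hg : g.IsNormalizedEigenform)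
    {p : ℕ} (hp : p.Prime) {k : Type} [Field k] [CharP k p]
    (φ : integralClosure ℤ ℂ →+* k) :
    ∃ ρ : ResidualGaloisRep k, ρ.IsAttachedTo g φ ∧
      ∀ ℓ : ℕ, ℓ.Prime → ¬ ℓ ∣ N * p → ρ.IsUnramifiedAt ℓ :=
  helper6752.result_of (stmt_Eig hU hES hOcc) hCyc helper6752.stmt_Dim2 hg hp φ

/-- **S29 from the four open interfaces**, (OCC) on `Pic0.torsion`. -/
theorem result_of_tors (hCyc : helper6752.Stmt_CycFrob) (hU : Stmt_U) (hES : Stmt_ES)
    (hOcc : Stmt_OccTors)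
    {N : ℕ} {g : CuspForm (CongruenceSubgroup.Gamma0 N) 2} (hg : g.IsNormalizedEigenform)
    {p : ℕ} (hp : p.Prime) {k : Type} [Field k] [CharP k p]
    (φ : integralClosure ℤ ℂ →+* k) :
    ∃ ρ : ResidualGaloisRep k, ρ.IsAttachedTo g φ ∧
      ∀ ℓ : ℕ, ℓ.Prime → ¬ ℓ ∣ N * p → ρ.IsUnramifiedAt ℓ :=
  helper6752.result_of (stmt_Eig_tors hU hES hOcc) hCyc helper6752.stmt_Dim2 hg hp φ

end Fermat.Agent.S29.helper5782
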