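import Fermat.Agent.S29.helper5875_EigenOccur
import Fermat.Agent.S29.helper7617_Integrality
import Fermat.Agent.S21.helper21_Assembly
import Fermat.Agent.S16.helper262_PeriodHeckeHom

/-!
# S29-M6 (B): the eigensystem of a weight-two eigenform occurs in `Hom_par(Γ₀(N), κ)`

Let `N ≠ 0`, `g` a normalised weight-two eigenform on `Γ₀(N)`, `κ` ANY field and
`ψ : integralClosure ℤ ℂ →+* κ`.  Then there is a nonzero additive character
`c : Γ₀(N) → κ` which

* is a `κ`-linear combination of (reductions of) INTEGRAL parabolic homomorphisms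
  `Γ₀(N) → ℤ` (Prelude `ModularCurve.Period.parabolicHoms ℤ (Gamma0 N) ℤ`), and
* is an eigenvector of the coset-transfer Hecke operators of the landed
  `Fermat.Agent.S16.helper2138` (`heckeHomT`, `heckeHomU`) with eigenvalues `ψ (a_ℓ(g))`.

Ingredients: the abstract occurrence lemma `exists_eigen_functional_of_lattice`
(`helper5875_EigenOccur`), the lattice of period functionals `f ↦ periodMap N f γ` (Prelude
period map; finitely generated because `Γ₀(N)` is, separating by the injectivity part of
Eichler–Shimura, Hecke-stable by `helper262.periodMap_heckeTLin`), finiteness of the Hecke algebra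
over `ℤ` (landed S22) and the eigen-relations of `helper7617_Integrality`.
-/

set_option autoImplicit false

open ModularCurve ModularCurve.Period CongruenceSubgroup
open scoped MatrixGroups

namespace Fermat.Agent.S29.helper5875

open Fermat.Agent.S16.helper2138 (Corr corrT corrU heckeHomT heckeHomU heckeHomT_apply
  heckeHomU_apply repT)

section PeriodLattice

variable (N : ℕ) [NeZero N]

/-- The Prelude period map is `ℂ`-linear (landed S21, piece (A)). -/
theorem existsPeriodMapLinear_Gamma0 : ExistsPeriodMapLinear N :=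
  Fermat.Agent.S21.helper921.existsPeriodMapLinear_of_A (Fermat.Agent.S21.helper21.stmtA N)

/-- The period functional `f ↦ periodMap N f γ` on weight-two cusp forms. -/
noncomputable def perFun (γ : Gamma0 N) : CuspForm (Gamma0 N) 2 →ₗ[ℂ] ℂ where
  toFun f := periodMap N f (Additive.ofMul γ)
  map_add' f g := by
    obtain ⟨pml, h⟩ := existsPeriodMapLinear_Gamma0 N
    rw [← h, ← h, ← h, map_add]
    rfl
  map_smul' c f := by
    obtain ⟨pml, h⟩ := existsPeriodMapLinear_Gamma0 N
    rw [← h, ← h, map_smul]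
    rfl

@[simp] theorem perFun_apply (γ : Gamma0 N) (f : CuspForm (Gamma0 N) 2) :
    perFun N γ f = periodMap N f (Additive.ofMul γ) := rfl

theorem perFun_mul (γ δ : Gamma0 N) : perFun N (γ * δ) = perFun N γ + perFun N δ := by
  ext f
  simp only [perFun_apply, LinearMap.add_apply, ofMul_mul, map_add]

theorem perFun_one : perFun N 1 = 0 := by
  ext f
  simp only [perFun_apply, ofMul_one, map_zero, LinearMap.zero_apply]

theorem perFun_inv (γ : Gamma0 N) : perFun N γ⁻¹ = -perFun N γ := by
  ext f
  simp only [perFun_apply, ofMul_inv, map_neg, LinearMap.neg_apply]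

/-- The period functional of a parabolic element vanishes (landed S21, piece (B)). -/
theorem perFun_eq_zero_of_trace (γ : Gamma0 N)
    (hγ : ((γ : SL(2, ℤ)) : Matrix (Fin 2) (Fin 2) ℤ).trace ^ 2 = 4) : perFun N γ = 0 := by
  ext f
  exact Fermat.Agent.S21.helper21.stmtB N f γ hγ

/-- The period lattice: the `ℤ`-span of the period functionals. -/
noncomputable def perLattice : Submodule ℤ (CuspForm (Gamma0 N) 2 →ₗ[ℂ] ℂ) :=
  Submodule.span ℤ (Set.range (perFun N))

theorem perFun_mem_perLattice (γ : Gamma0 N) : perFun N γ ∈ perLattice N :=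
  Submodule.subset_span ⟨γ, rfl⟩

/-- The period lattice is finitely generated, because `Γ₀(N)` is. -/
theorem perLattice_fg : (perLattice N).FG := by
  classical
  obtain ⟨S, hS⟩ := Group.fg_def.mp (Fermat.Agent.S21.helper2438.fg_Gamma0 N)
  have key : ∀ γ ∈ Subgroup.closure (S : Set (Gamma0 N)),
      perFun N γ ∈ Submodule.span ℤ (perFun N '' (S : Set (Gamma0 N))) := by
    intro γ hγ
    induction hγ using Subgroup.closure_induction with
    | mem x hx => exact Submodule.subset_span ⟨x, hx, rfl⟩
    | one => rw [perFun_one]; exact Submodule.zero_mem _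
    | mul x y _ _ hx hy => rw [perFun_mul]; exact Submodule.add_mem _ hx hy
    | inv x _ hx => rw [perFun_inv]; exact Submodule.neg_mem _ hx
  have h : perLattice N = Submodule.span ℤ (perFun N '' (S : Set (Gamma0 N))) := by
    apply le_antisymm
    · refine Submodule.span_le.mpr ?_
      rintro _ ⟨γ, rfl⟩
      exact key γ (by rw [hS]; trivial)
    · exact Submodule.span_mono (Set.image_subset_range _ _)
  rw [h]
  exact Submodule.fg_span ((S.finite_toSet).image _)

/-- The period lattice separates cusp forms (injectivity half of Eichler–Shimura, landed S21). -/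
theorem perLattice_sep (f : CuspForm (Gamma0 N) 2) (h : ∀ φ ∈ perLattice N, φ f = 0) :
    f = 0 := by
  have h0 : periodMap N f = 0 := by
    refine AddMonoidHom.ext fun γ => ?_
    exact h _ (perFun_mem_perLattice N (Additive.toMul γ))
  apply Fermat.Agent.S21.helper21.stmtCplus N f
  rw [h0, map_zero, add_zero]

/-- `T_l` transposes to the coset transfer on period functionals. -/
theorem perFun_comp_heckeTLin {l : ℕ} [Fact l.Prime] (hl : l.Prime) (hlN : ¬ l ∣ N)
    (γ : Gamma0 N) :
    perFun N γ ∘ₗ CuspForm.heckeTLin 2 hl hlN = ∑ x, perFun N ((corrT N l hlN).g x γ) := by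
  ext f
  have h := Fermat.Agent.S16.helper262.periodMap_heckeTLin N l hlN f
  have h2 := DFunLike.congr_fun h (Additive.ofMul γ)
  rw [heckeHomT_apply] at h2
  rw [LinearMap.comp_apply, perFun_apply, LinearMap.sum_apply]
  exact h2

/-- `U_q` transposes to the coset transfer on period functionals. -/
theorem perFun_comp_heckeULin {q : ℕ} [NeZero q] (hq : q.Prime) (hqN : q ∣ N)
    (γ : Gamma0 N) :
    perFun N γ ∘ₗ CuspForm.heckeULin 2 hqN = ∑ j, perFun N ((corrU N q hqN).g j γ) := by
  have : Fact q.Prime := ⟨hq⟩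
  ext f
  have h := Fermat.Agent.S16.helper262.periodMap_heckeULin N q hqN f
  have h2 := DFunLike.congr_fun h (Additive.ofMul γ)
  rw [heckeHomU_apply] at h2
  rw [LinearMap.comp_apply, perFun_apply, LinearMap.sum_apply]
  exact h2

/-- The period lattice is stable under transposition by the Hecke algebra. -/
theorem perLattice_comp_mem (S : Set ℕ) {T : Module.End ℂ (CuspForm (Gamma0 N) 2)}
    (hT : T ∈ CuspForm.heckeAlgebra N 2 S) {φ : CuspForm (Gamma0 N) 2 →ₗ[ℂ] ℂ}
    (hφ : φ ∈ perLattice N) : φ ∘ₗ T ∈ perLattice N := by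
  unfold CuspForm.heckeAlgebra at hT
  induction hT using Algebra.adjoin_induction generalizing φ with
  | mem x hx =>
    have gen : ∀ γ, perFun N γ ∘ₗ x ∈ perLattice N := by
      intro γ
      rcases hx with ⟨ℓ, hℓ, hℓN, -, rfl⟩ | ⟨q, hqN, hq, -, rfl⟩
      · have : Fact ℓ.Prime := ⟨hℓ⟩
        rw [perFun_comp_heckeTLin]
        exact Submodule.sum_mem _ fun x _ => perFun_mem_perLattice N _
      · have : NeZero q := ⟨hq.ne_zero⟩
        rw [perFun_comp_heckeULin N hq]
        exact Submodule.sum_mem _ fun x _ => perFun_mem_perLattice N _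
    have hle : perLattice N ≤ Submodule.comap
        ((LinearMap.lcomp ℤ ℂ x).restrictScalars ℤ) (perLattice N) := by
      refine Submodule.span_le.mpr ?_
      rintro _ ⟨γ, rfl⟩
      exact gen γ
    exact hle hφ
  | algebraMap r =>
    have h : φ ∘ₗ (algebraMap ℤ (Module.End ℂ (CuspForm (Gamma0 N) 2)) r) = r • φ := by
      ext f
      simp
    rw [h]
    exact Submodule.smul_mem _ r hφ
  | add x y _ _ hx hy =>
    rw [LinearMap.comp_add]
    exact Submodule.add_mem _ (hx hφ) (hy hφ)
  | mul x y _ _ hx hy =>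
    rw [Module.End.mul_eq_comp, ← LinearMap.comp_assoc]
    exact hy (hx hφ)

/-- The tautological homomorphism `Γ₀(N) → perLattice N`, `γ ↦ (f ↦ periodMap N f γ)`. -/
noncomputable def perHom : Additive (Gamma0 N) →+ perLattice N where
  toFun γ := ⟨perFun N (Additive.toMul γ), perFun_mem_perLattice N _⟩
  map_zero' := Subtype.ext (perFun_one N)
  map_add' _ _ := Subtype.ext (perFun_mul N _ _)

@[simp] theorem coe_perHom (γ : Gamma0 N) :
    ((perHom N (Additive.ofMul γ) : perLattice N) : CuspForm (Gamma0 N) 2 →ₗ[ℂ] ℂ)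
      = perFun N γ := rfl

/-- `perHom` kills parabolic elements. -/
theorem perHom_eq_zero_of_trace (γ : Gamma0 N)
    (hγ : ((γ : SL(2, ℤ)) : Matrix (Fin 2) (Fin 2) ℤ).trace ^ 2 = 4) :
    perHom N (Additive.ofMul γ) = 0 :=
  Subtype.ext (perFun_eq_zero_of_trace N γ hγ)

/-- A nonzero additive functional on the period lattice restricts to a nonzero character of
`Γ₀(N)`. -/
theorem comp_perHom_ne_zero {B : Type*} [AddCommGroup B] (w : perLattice N →+ B) (hw : w ≠ 0) :
    w.comp (perHom N) ≠ 0 := by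
  intro h0
  apply hw
  have hle : perLattice N ≤
      Submodule.map (perLattice N).subtype (LinearMap.ker w.toIntLinearMap) := by
    refine Submodule.span_le.mpr ?_
    rintro _ ⟨γ, rfl⟩
    exact ⟨perHom N (Additive.ofMul γ), DFunLike.congr_fun h0 (Additive.ofMul γ), rfl⟩
  refine AddMonoidHom.ext fun φ => ?_
  obtain ⟨y, hy, hyφ⟩ := hle φ.2
  have hyφ' : y = φ := Subtype.ext hyφ
  rw [← hyφ']
  exact hy

/-- Every character of `Γ₀(N)` that factors through the period lattice is a linear combination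
of INTEGRAL parabolic homomorphisms. -/
theorem exists_integral_decomp {κ : Type*} [Ring κ] (w : perLattice N →+ κ) :
    ∃ (n : ℕ) (lam : Fin n → Additive (Gamma0 N) →+ ℤ) (k : Fin n → κ),
      (∀ i, lam i ∈ parabolicHoms ℤ (Gamma0 N) ℤ) ∧
        w.comp (perHom N) = ∑ i, k i • (Int.castAddHom κ).comp (lam i) := by
  classical
  have : Module.Finite ℤ (perLattice N) := Module.Finite.iff_fg.2 (perLattice_fg N)
  have : Module.Free ℤ (perLattice N) := inferInstance
  let b := Module.finBasis ℤ (perLattice N)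
  refine ⟨_, fun i => (b.coord i).toAddMonoidHom.comp (perHom N), fun i => w (b i), ?_, ?_⟩
  · intro i γ hγ
    show b.coord i (perHom N (Additive.ofMul γ)) = 0
    rw [perHom_eq_zero_of_trace N γ hγ, map_zero]
  · refine AddMonoidHom.ext fun γ => ?_
    rw [AddMonoidHom.comp_apply, AddMonoidHom.finsetSum_apply]
    conv_lhs => rw [← b.sum_repr (perHom N γ)]
    rw [map_sum]
    refine Finset.sum_congr rfl fun i _ => ?_
    rw [map_zsmul, zsmul_eq_mul]
    simp only [AddMonoidHom.smul_apply, AddMonoidHom.comp_apply, Int.coe_castAddHom,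
      LinearMap.toAddMonoidHom_coe, Module.Basis.coord_apply, smul_eq_mul]
    exact (Int.cast_commute _ _).eq

end PeriodLattice

section Main

variable {N : ℕ} [NeZero N] {g : CuspForm (Gamma0 N) 2}

/-- **S29-M6 (B): occurrence of the eigensystem in `Hom_par(Γ₀(N), κ)`.**
For a normalised weight-two eigenform `g` on `Γ₀(N)`, `N ≠ 0`, any field `κ` and any ring
homomorphism `ψ` from the algebraic integers to `κ` there is a NONZERO additive character
`c : Γ₀(N) → κ`, a `κ`-linear combination of integral parabolic homomorphisms, which is an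
eigenvector of the coset-transfer operators `T_l` (`l ∤ N`) and `U_q` (`q ∣ N`) with eigenvalues
`ψ (a_l g)`, `ψ (a_q g)`. -/
theorem exists_eigen_parabolicHom (hg : g.IsNormalizedEigenform) {κ : Type*} [Field κ]
    (ψ : integralClosure ℤ ℂ →+* κ) :
    ∃ c : Additive (Gamma0 N) →+ κ, c ≠ 0 ∧
      (∃ (n : ℕ) (lam : Fin n → Additive (Gamma0 N) →+ ℤ) (k : Fin n → κ),
        (∀ i, lam i ∈ parabolicHoms ℤ (Gamma0 N) ℤ) ∧
          c = ∑ i, k i • (Int.castAddHom κ).comp (lam i)) ∧
      (∀ (l : ℕ) [Fact l.Prime] (hlN : ¬ l ∣ N) (a : integralClosure ℤ ℂ),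
        (a : ℂ) = ModularFormClass.qCoeff g l → heckeHomT N l hlN κ c = ψ a • c) ∧
      (∀ (q : ℕ) [NeZero q] (_hq : q.Prime) (hqN : q ∣ N) (a : integralClosure ℤ ℂ),
        (a : ℂ) = ModularFormClass.qCoeff g q → heckeHomU N q hqN κ c = ψ a • c) := by
  classical
  have hfin : Module.Finite ℤ (CuspForm.heckeAlgebra N 2 ∅) := Fermat.Agent.S22.result N 2 ∅
  obtain ⟨w, hw0, hw⟩ := exists_eigen_functional_of_lattice (CuspForm.heckeAlgebra N 2 ∅)
    (fun S T => mul_comm S T) (perLattice N) (perLattice_fg N) (perLattice_sep N)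
    (fun T hT φ hφ => perLattice_comp_mem N ∅ hT hφ) g
    (helper7617.ne_zero_of_isNormalizedEigenform hg)
    (fun T hT => helper7617.exists_apply_eq_smul hg ∅ hT) ψ
  refine ⟨w.comp (perHom N), comp_perHom_ne_zero N w hw0, exists_integral_decomp N w, ?_, ?_⟩
  · intro l _ hlN a ha
    have hl : l.Prime := Fact.out
    refine AddMonoidHom.ext fun γ' => ?_
    obtain ⟨γ, rfl⟩ := Additive.ofMul.surjective γ'
    rw [heckeHomT_apply]
    have hTg : CuspForm.heckeTLin 2 hl hlN g = (a : ℂ) • g := by
      rw [ha]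
      exact helper7617.heckeTLin_apply_eq_smul hg hl hlN
    have h1 := hw _ (CuspForm.heckeTLin_mem_heckeAlgebra hl hlN (Set.notMem_empty l)) a hTg
      (perFun N γ) (perFun_mem_perLattice N γ)
    have h2 : ∀ (h : perFun N γ ∘ₗ CuspForm.heckeTLin 2 hl hlN ∈ perLattice N),
        w ⟨_, h⟩ = ∑ x, w (perHom N (Additive.ofMul ((corrT N l hlN).g x γ))) := by
      intro h
      rw [← map_sum]
      congr 1
      apply Subtype.ext
      rw [AddSubmonoidClass.coe_finsetSum]
      exact perFun_comp_heckeTLin N hl hlN γ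
    rw [h2] at h1
    exact h1
  · intro q _ hq hqN a ha
    refine AddMonoidHom.ext fun γ' => ?_
    obtain ⟨γ, rfl⟩ := Additive.ofMul.surjective γ'
    rw [heckeHomU_apply]
    have hTg : CuspForm.heckeULin 2 hqN g = (a : ℂ) • g := by
      rw [ha]
      exact helper7617.heckeULin_apply_eq_smul hg hq hqN
    have h1 := hw _ (CuspForm.heckeULin_mem_heckeAlgebra hq hqN (Set.notMem_empty q)) a hTg
      (perFun N γ) (perFun_mem_perLattice N γ)
    have h2 : ∀ (h : perFun N γ ∘ₗ CuspForm.heckeULin 2 hqN ∈ perLattice N),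
        w ⟨_, h⟩ = ∑ j, w (perHom N (Additive.ofMul ((corrU N q hqN).g j γ))) := by
      intro h
      rw [← map_sum]
      congr 1
      apply Subtype.ext
      rw [AddSubmonoidClass.coe_finsetSum]
      exact perFun_comp_heckeULin N hq hqN γ
    rw [h2] at h1
    exact h1

end Main

section Consumer

open P2MW.S_ModularForm_heckeT_slash_eq_self_of_mem_Gamma0.ModularForm.HeckeSlashInvariance
  (heckeRep)

variable (N : ℕ)

/-- The `κ`-span of the (coefficient-extended) INTEGRAL parabolic homomorphisms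
`Γ₀(N) → ℤ` inside `Hom(Γ₀(N), κ)`. -/
noncomputable def intParSpan (κ : Type*) [Field κ] : Submodule κ (Additive (Gamma0 N) →+ κ) :=
  Submodule.span κ (Set.range fun lam : parabolicHoms ℤ (Gamma0 N) ℤ =>
    (Int.castAddHom κ).comp (lam : Additive (Gamma0 N) →+ ℤ))

variable {N}

theorem castAddHom_comp_mem_intParSpan {κ : Type*} [Field κ]
    {lam : Additive (Gamma0 N) →+ ℤ} (hlam : lam ∈ parabolicHoms ℤ (Gamma0 N) ℤ) :
    (Int.castAddHom κ).comp lam ∈ intParSpan N κ :=
  Submodule.subset_span ⟨⟨lam, hlam⟩, rfl⟩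

/-- Elements of `intParSpan` are parabolic homomorphisms with values in `κ`. -/
theorem intParSpan_le_parabolicHoms (κ : Type*) [Field κ] :
    intParSpan N κ ≤ parabolicHoms κ (Gamma0 N) κ := by
  refine Submodule.span_le.mpr ?_
  rintro _ ⟨lam, rfl⟩ γ hγ
  show ((lam.1 (Additive.ofMul γ) : ℤ) : κ) = 0
  rw [lam.2 γ hγ, Int.cast_zero]

/-- **Definition-agnostic form of the transfer operator**: `heckeHomT` may be computed with ANY
family `g' x ∈ Γ₀(N)` satisfying the coset relation
`heckeRep l x * γ = g' x * heckeRep l (s x)`. -/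
theorem heckeHomT_apply_of_rel {l : ℕ} [Fact l.Prime] (hlN : ¬ l ∣ N) {A : Type*}
    [AddCommGroup A] (c : Additive (Gamma0 N) →+ A) (γ : Gamma0 N)
    (s : OnePoint (ZMod l) → OnePoint (ZMod l)) (g' : OnePoint (ZMod l) → Gamma0 N)
    (h : ∀ x, heckeRep l x * Matrix.SpecialLinearGroup.mapGL ℝ (γ : SL(2, ℤ))
      = Matrix.SpecialLinearGroup.mapGL ℝ (g' x : SL(2, ℤ)) * heckeRep l (s x)) :
    heckeHomT N l hlN A c (Additive.ofMul γ) = ∑ x, c (Additive.ofMul (g' x)) := by
  rw [heckeHomT_apply]
  refine Finset.sum_congr rfl fun x _ => ?_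
  have hx : (corrT N l hlN).α x * Matrix.SpecialLinearGroup.mapGL ℝ (γ : SL(2, ℤ))
      = Matrix.SpecialLinearGroup.mapGL ℝ (g' x : SL(2, ℤ)) * (corrT N l hlN).α (s x) := h x
  rw [((corrT N l hlN).uniq hx).2]

variable [NeZero N] {g : CuspForm (Gamma0 N) 2}

/-- **S29-M6 (B), span form** (`Stmt_Eigen` / (TH6) shape): a nonzero element of the `κ`-span of
the integral parabolic homomorphisms which is a `T_l`-eigenvector with eigenvalue `ψ (a_l g)` for
every prime `l ∤ N`, both for the landed `heckeHomT` and for every coset-transfer family. -/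
theorem exists_eigen_mem_intParSpan (hg : g.IsNormalizedEigenform) {κ : Type*} [Field κ]
    (ψ : integralClosure ℤ ℂ →+* κ) :
    ∃ c : Additive (Gamma0 N) →+ κ, c ≠ 0 ∧ c ∈ intParSpan N κ ∧
      c ∈ parabolicHoms κ (Gamma0 N) κ ∧
      (∀ (l : ℕ) [Fact l.Prime] (hlN : ¬ l ∣ N) (a : integralClosure ℤ ℂ),
        (a : ℂ) = ModularFormClass.qCoeff g l → heckeHomT N l hlN κ c = ψ a • c) ∧
      (∀ (l : ℕ) [Fact l.Prime] (_hlN : ¬ l ∣ N) (a : integralClosure ℤ ℂ),
        (a : ℂ) = ModularFormClass.qCoeff g l →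
        ∀ (γ : Gamma0 N) (s : OnePoint (ZMod l) → OnePoint (ZMod l))
          (g' : OnePoint (ZMod l) → Gamma0 N),
          (∀ x, heckeRep l x * Matrix.SpecialLinearGroup.mapGL ℝ (γ : SL(2, ℤ))
            = Matrix.SpecialLinearGroup.mapGL ℝ (g' x : SL(2, ℤ)) * heckeRep l (s x)) →
          ∑ x, c (Additive.ofMul (g' x)) = ψ a * c (Additive.ofMul γ)) := by
  obtain ⟨c, hc0, ⟨n, lam, k, hlam, hc⟩, hT, -⟩ := exists_eigen_parabolicHom hg ψ
  have hmem : c ∈ intParSpan N κ := by
    rw [hc]
    exact Submodule.sum_mem _ fun i _ =>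
      Submodule.smul_mem _ _ (castAddHom_comp_mem_intParSpan (hlam i))
  refine ⟨c, hc0, hmem, intParSpan_le_parabolicHoms κ hmem, hT, ?_⟩
  intro l _ hlN a ha γ s g' hrel
  rw [← heckeHomT_apply_of_rel hlN c γ s g' hrel, hT l hlN a ha]
  rfl

end Consumer

end Fermat.Agent.S29.helper5875
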