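/-
S29 — (OCC) from the Kummer correspondence (helper1590, backup hub, relation form).

`stmt_Occ_of_multSpec`: the occurrence Prop `helper405.Stmt_Occ` (one nonzero Hecke eigenvector
in `κ ⊗[ℤ] J₀(N)[p]` with the eigenvalues of `g`) follows from ONE Prop per `(N, p)`:
a multiplier relation `Mult` with `helper2756.MultSpec N p Mult` (the modulus-`p` analytic Kummer
dictionary: (TH2)–(TH5) of the analytic hub).

Chain (all other links are landed theorems):
* `helper2756.exists_k5`      : `ι : Λ →+ JZero N`, `p • ι = 0`, `ker ι = p Λ`, Hecke-equivariant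
                                 (`Λ` = integral parabolic homs);
* `helper8426.heckeInputsAlong`: the Prelude Hecke operators are the honest correspondences;
* `helper5875` period lattice + `exists_eigen_functional_of_lattice`: an eigen-functional `w` on
  the period lattice `perLattice N` (finite free over `ℤ`);
* `exists_eigenvector_of_functional` (this seat, Mathlib only): transport of `w` to a nonzero
  eigenvector of `κ ⊗[ℤ] J[p]` through `Module.Dual ℤ (perLattice N) → Λ → JZero N`.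
-/
import Fermat.Agent.S29.helper1590_OccAssembly
import Fermat.Agent.S29.helper405_EigStmt
import Fermat.Agent.S29.helper5875_EigenLattice
import Fermat.Agent.S31.helper2756_K5JZero
import Fermat.Agent.S37.helper8426_HeckeInputs
import Fermat.Agent.S29.helper5782_Spec
import Fermat.Agent.S29.helper4878_CycFrob

set_option autoImplicit false

open ModularCurve ModularCurve.Period CongruenceSubgroup AlgebraicCurve
open scoped MatrixGroups TensorProduct

namespace Fermat.Agent.S29.helper1590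

open Fermat.Agent.S29.helper5875 Fermat.Agent.S16.helper2138 Fermat.Agent.S31.helper2756

section PeriodLattice

variable (N : ℕ) [NeZero N]

/-- Every element of the period lattice is a period functional `perHom N γ`. -/
theorem exists_perHom_eq (y : perLattice N) : ∃ γ : Additive (Gamma0 N), perHom N γ = y := by
  have key : ∀ φ ∈ perLattice N, ∃ γ : Additive (Gamma0 N),
      ((perHom N γ : perLattice N) : CuspForm (Gamma0 N) 2 →ₗ[ℂ] ℂ) = φ := by
    intro φ hφ
    induction hφ using Submodule.span_induction with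
    | mem x hx =>
      obtain ⟨γ, rfl⟩ := hx
      exact ⟨Additive.ofMul γ, rfl⟩
    | zero => exact ⟨0, by rw [map_zero]; rfl⟩
    | add x y _ _ hx hy =>
      obtain ⟨a, ha⟩ := hx
      obtain ⟨b, hb⟩ := hy
      exact ⟨a + b, by rw [map_add, Submodule.coe_add, ha, hb]⟩
    | smul n x _ hx =>
      obtain ⟨a, ha⟩ := hx
      exact ⟨n • a, by rw [map_zsmul, Submodule.coe_smul, ha]⟩
  obtain ⟨γ, hγ⟩ := key y y.2
  exact ⟨γ, Subtype.ext hγ⟩

/-- The Hecke operator `T_ℓ` on the period lattice, by transposition: `φ ↦ φ ∘ T_ℓ`. -/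
noncomputable def perT {ℓ : ℕ} (hℓ : ℓ.Prime) (hℓN : ¬ ℓ ∣ N) : Module.End ℤ (perLattice N) where
  toFun φ := ⟨(φ : CuspForm (Gamma0 N) 2 →ₗ[ℂ] ℂ) ∘ₗ CuspForm.heckeTLin 2 hℓ hℓN,
    perLattice_comp_mem N ∅
      (CuspForm.heckeTLin_mem_heckeAlgebra hℓ hℓN (Set.notMem_empty ℓ)) φ.2⟩
  map_add' φ φ' := by
    apply Subtype.ext
    simp [LinearMap.add_comp]
  map_smul' n φ := by
    apply Subtype.ext
    ext x
    simp

theorem coe_perT {ℓ : ℕ} (hℓ : ℓ.Prime) (hℓN : ¬ ℓ ∣ N) (φ : perLattice N) :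
    ((perT N hℓ hℓN φ : perLattice N) : CuspForm (Gamma0 N) 2 →ₗ[ℂ] ℂ) =
      (φ : CuspForm (Gamma0 N) 2 →ₗ[ℂ] ℂ) ∘ₗ CuspForm.heckeTLin 2 hℓ hℓN := rfl

/-- `T_ℓ` on period functionals is the coset transfer. -/
theorem perT_perHom {ℓ : ℕ} [Fact ℓ.Prime] (hℓ : ℓ.Prime) (hℓN : ¬ ℓ ∣ N) (γ : Gamma0 N) :
    perT N hℓ hℓN (perHom N (Additive.ofMul γ)) =
      ∑ x, perHom N (Additive.ofMul ((corrT N ℓ hℓN).g x γ)) := by
  apply Subtype.ext
  rw [AddSubmonoidClass.coe_finsetSum, coe_perT]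
  exact perFun_comp_heckeTLin N hℓ hℓN γ

/-- A functional on the period lattice restricts to an integral parabolic homomorphism. -/
noncomputable def toPar : Module.Dual ℤ (perLattice N) →+ ↥(parabolicHoms ℤ (Gamma0 N) ℤ) where
  toFun φ := ⟨φ.toAddMonoidHom.comp (perHom N), fun γ hγ => by
    show φ (perHom N (Additive.ofMul γ)) = 0
    rw [perHom_eq_zero_of_trace N γ hγ, map_zero]⟩
  map_zero' := Subtype.ext (AddMonoidHom.ext fun _ => rfl)
  map_add' _ _ := Subtype.ext (AddMonoidHom.ext fun _ => rfl)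

theorem toPar_apply (φ : Module.Dual ℤ (perLattice N)) (γ : Additive (Gamma0 N)) :
    ((toPar N φ : ↥(parabolicHoms ℤ (Gamma0 N) ℤ)) : Additive (Gamma0 N) →+ ℤ) γ =
      φ (perHom N γ) := rfl

/-- `toPar` intertwines transposition by `T_ℓ` with the coset-transfer operator `heckeHomT`. -/
theorem toPar_comp_perT {ℓ : ℕ} [Fact ℓ.Prime] (hℓ : ℓ.Prime) (hℓN : ¬ ℓ ∣ N)
    (φ : Module.Dual ℤ (perLattice N)) :
    ((toPar N (φ ∘ₗ perT N hℓ hℓN) : ↥(parabolicHoms ℤ (Gamma0 N) ℤ)) :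
        Additive (Gamma0 N) →+ ℤ) =
      heckeHomT N ℓ hℓN ℤ ((toPar N φ : ↥(parabolicHoms ℤ (Gamma0 N) ℤ)) :
        Additive (Gamma0 N) →+ ℤ) := by
  refine AddMonoidHom.ext fun γ' => ?_
  obtain ⟨γ, rfl⟩ := Additive.ofMul.surjective γ'
  rw [heckeHomT_apply, toPar_apply, LinearMap.comp_apply, perT_perHom, map_sum]
  rfl

/-- If `toPar φ` is divisible by `n` in the parabolic lattice, then `φ` is divisible by `n`. -/
theorem exists_eq_nsmul_of_toPar {n : ℕ} (φ : Module.Dual ℤ (perLattice N))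
    (h : ∃ μ : ↥(parabolicHoms ℤ (Gamma0 N) ℤ), toPar N φ = n • μ) :
    ∃ φ' : Module.Dual ℤ (perLattice N), φ = n • φ' := by
  classical
  obtain ⟨μ, hμ⟩ := h
  have hdvd : ∀ y : perLattice N, (n : ℤ) ∣ φ y := by
    intro y
    obtain ⟨γ, rfl⟩ := exists_perHom_eq N y
    have h1 := congrArg
      (fun ψ : ↥(parabolicHoms ℤ (Gamma0 N) ℤ) => (ψ : Additive (Gamma0 N) →+ ℤ) γ) hμ
    simp only [toPar_apply, Submodule.coe_smul_of_tower, AddMonoidHom.smul_apply,
      nsmul_eq_mul] at h1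
    exact ⟨_, h1⟩
  have hfin : Module.Finite ℤ (perLattice N) := Module.Finite.iff_fg.2 (perLattice_fg N)
  have hfree : Module.Free ℤ (perLattice N) := inferInstance
  let b := Module.Free.chooseBasis ℤ (perLattice N)
  refine ⟨b.constr ℤ fun j => φ (b j) / (n : ℤ), ?_⟩
  apply b.ext
  intro j
  rw [LinearMap.smul_apply, Module.Basis.constr_basis, nsmul_eq_mul]
  exact (Int.mul_ediv_cancel' (hdvd (b j))).symm

end PeriodLattice

/-- **(OCC) from the modulus-`p` Kummer dictionary.**  If for every level `N ≠ 0` and every prime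
`p` there is a multiplier relation satisfying `helper2756.MultSpec N p`, then the eigensystem of
every normalised weight-two eigenform occurs in `κ ⊗[ℤ] J₀(N)[p]`. -/
theorem stmt_Occ_of_multSpec
    (hM : ∀ (N : ℕ) [NeZero N] (p : ℕ), p.Prime →
      ∃ Mult : modularFunctionFieldBar N → (Additive (Gamma0 N) →+ ℤ) → Prop,
        MultSpec N p Mult) :
    Fermat.Agent.S29.helper405.Stmt_Occ := by
  intro N _ g hg p hp κ _ _ _ ψ _
  classical
  have : Fact p.Prime := ⟨hp⟩
  obtain ⟨Mult, hMult⟩ := hM N p hp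
  obtain ⟨ι, hιp, hιker, hιT⟩ := exists_k5 (N := N) (n := p) hp.ne_zero hMult
  -- the eigen-functional on the period lattice
  have hfinA : Module.Finite ℤ (CuspForm.heckeAlgebra N 2 ∅) := Fermat.Agent.S22.result N 2 ∅
  obtain ⟨w, hw0, hw⟩ := exists_eigen_functional_of_lattice (CuspForm.heckeAlgebra N 2 ∅)
    (fun S T => mul_comm S T) (perLattice N) (perLattice_fg N) (perLattice_sep N)
    (fun T hT φ hφ => perLattice_comp_mem N ∅ hT hφ) g
    (helper7617.ne_zero_of_isNormalizedEigenform hg)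
    (fun T hT => helper7617.exists_apply_eq_smul hg ∅ hT) ψ
  have hfin : Module.Finite ℤ (perLattice N) := Module.Finite.iff_fg.2 (perLattice_fg N)
  have hfree : Module.Free ℤ (perLattice N) := inferInstance
  -- the index set of good primes
  let I : Type := {ℓ : Nat.Primes // ¬ (ℓ : ℕ) ∣ N * p}
  have hIN : ∀ i : I, ¬ ((i.1 : Nat.Primes) : ℕ) ∣ N := fun i h => i.2 (Dvd.dvd.mul_right h p)
  let aI : I → integralClosure ℤ ℂ := fun i =>
    ⟨ModularFormClass.qCoeff g ((i.1 : Nat.Primes) : ℕ),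
      helper7617.qCoeff_mem_integralClosure hg _⟩
  let τ : I → Module.End ℤ (perLattice N) := fun i => perT N i.1.2 (hIN i)
  let ι' : Module.Dual ℤ (perLattice N) →+ JZero N := ι.comp (toPar N)
  have hst : ∀ i : I, ∀ y ∈ Submodule.torsionBy ℤ (JZero N) (p : ℤ),
      heckeOperatorBar N i.1 y ∈ Submodule.torsionBy ℤ (JZero N) (p : ℤ) := by
    intro i y hy
    rw [Submodule.mem_torsionBy_iff] at hy ⊢
    rw [← map_zsmul, hy, map_zero]
  obtain ⟨x, hx0, hx⟩ := exists_eigenvector_of_functional (κ := κ) p ι'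
    (fun φ => hιp _)
    (fun φ hφ => exists_eq_nsmul_of_toPar N φ ((hιker _).1 hφ))
    τ (fun i => heckeOperatorBar N i.1) hst
    (fun i φ => by
      have : Fact ((i.1 : Nat.Primes) : ℕ).Prime := ⟨i.1.2⟩
      have : NeZero ((i.1 : Nat.Primes) : ℕ) := ⟨i.1.2.ne_zero⟩
      exact hιT _ i.1.2 (hIN i) (Fermat.Agent.S37.helper8426.heckeInputsAlong N _)
        (toPar N φ) (toPar N (φ ∘ₗ τ i)) (toPar_comp_perT N i.1.2 (hIN i) φ))
    (fun i => ψ (aI i)) w hw0
    (fun i y => by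
      have hTg : CuspForm.heckeTLin 2 i.1.2 (hIN i) g = ((aI i : integralClosure ℤ ℂ) : ℂ) • g :=
        helper7617.heckeTLin_apply_eq_smul hg i.1.2 (hIN i)
      exact hw _ (CuspForm.heckeTLin_mem_heckeAlgebra i.1.2 (hIN i) (Set.notMem_empty _))
        (aI i) hTg (y : CuspForm (Gamma0 N) 2 →ₗ[ℂ] ℂ) y.2)
  refine ⟨x, hx0, fun ℓ hℓ a ha => ?_⟩
  have ha' : a = aI ⟨ℓ, hℓ⟩ := Subtype.ext ha
  rw [ha']
  exact hx ⟨ℓ, hℓ⟩

/-- (OCC) in the shape of the captain's Spec (`helper5782.Stmt_Occ`, on `helper2187.Jp`). -/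
theorem stmt_Occ_spec_of (h : Fermat.Agent.S29.helper405.Stmt_Occ) :
    Fermat.Agent.S29.helper5782.Stmt_Occ := by
  intro N _ g hg p hp κ _ _ _ ψ hψ
  obtain ⟨x, hx0, hx⟩ := h N g hg p hp κ ψ hψ
  exact ⟨x, hx0, fun ℓ hℓ => hx ℓ hℓ _ rfl⟩

/-- (OCC), captain's shape, from the modulus-`p` Kummer dictionary. -/
theorem stmt_Occ_spec_of_multSpec
    (hM : ∀ (N : ℕ) [NeZero N] (p : ℕ), p.Prime →
      ∃ Mult : modularFunctionFieldBar N → (Additive (Gamma0 N) →+ ℤ) → Prop,
        MultSpec N p Mult) :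
    Fermat.Agent.S29.helper5782.Stmt_Occ :=
  stmt_Occ_spec_of (stmt_Occ_of_multSpec hM)

/-- **Frozen S29 from the TWO remaining Props**: (UES) operator-wise unramifiedness +
Eichler–Shimura on `J₀(N)[p]`, and the modulus-`p` Kummer dictionary `MultSpec`.
(CYC) is the landed `helper4878.stmt_CycFrob`. -/
theorem result_of_multSpec (hU : Fermat.Agent.S29.helper405.Stmt_UnrES)
    (hM : ∀ (N : ℕ) [NeZero N] (p : ℕ), p.Prime →
      ∃ Mult : modularFunctionFieldBar N → (Additive (Gamma0 N) →+ ℤ) → Prop,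
        MultSpec N p Mult)
    {N : ℕ} {g : CuspForm (CongruenceSubgroup.Gamma0 N) 2} (hg : g.IsNormalizedEigenform)
    {p : ℕ} (hp : p.Prime) {k : Type} [Field k] [CharP k p]
    (φ : integralClosure ℤ ℂ →+* k) :
    ∃ ρ : ResidualGaloisRep k, ρ.IsAttachedTo g φ ∧
      ∀ ℓ : ℕ, ℓ.Prime → ¬ ℓ ∣ N * p → ρ.IsUnramifiedAt ℓ :=
  Fermat.Agent.S29.helper405.result_of_open hU (stmt_Occ_of_multSpec hM)
    Fermat.Agent.S29.helper4878.stmt_CycFrob hg hp φ

end Fermat.Agent.S29.helper1590
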