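import Fermat.Agent.S29.helper1736_AnDivLocal
import Fermat.Agent.S29.helper1736_CuspGerm

/-!
# S29-ANDIV (helper1736): the cusp places

`dvd_ord_cusp_gen` : for an evaluation datum `(i0, e)` (`helper1200.IsEvGen`), if
`e (a / b) = (A / B) ^ n` with `A`, `B` holomorphic on the upper half plane, `A / B` invariant
under the conjugates of powers of `T` lying in `Γ₀(N)`, and every `(A / B) ∘ g` meromorphic in
`q^(1/N)` at `i∞`, then `n` divides the order of `a / b` at every pole of `j`.

The local data are those of `helper1200.localDatum_cusp_of_isEvGen` (landed S24 closure), made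
explicit: `Ω = cuspIF`, `w = cuspValIF`, `σ = cuspSigmaIF` (translation), `ι x = iotaG x.out`.
-/

set_option autoImplicit false
set_option linter.unusedSectionVars false

open Filter Topology UpperHalfPlane Complex ModularCurve CongruenceSubgroup AlgebraicCurve
  IntermediateField
open scoped MatrixGroups Manifold

namespace Fermat.Agent.S29.helper1736

open Fermat.Agent.S24 Fermat.Agent.S24.helper24 Fermat.Agent.S24.helper1200

/-- Iterates of the translation on classes of holomorphic functions. -/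
theorem holShift_pow_algebraMap (k : ℕ) (f : helper1200.Hol) :
    (holShiftData.σ ^ k) (algebraMap helper1200.Hol helper1200.Mer f)
      = algebraMap helper1200.Hol helper1200.Mer (compHol (ModularGroup.T ^ k) f) := by
  induction k with
  | zero =>
    rw [pow_zero, pow_zero, compHol_one]
    rfl
  | succ k ih =>
    have e : (holShiftData.σ ^ (k + 1)) (algebraMap helper1200.Hol helper1200.Mer f)
        = holShiftData.σ ((holShiftData.σ ^ k) (algebraMap helper1200.Hol helper1200.Mer f)) := by
      rw [pow_succ']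
      rfl
    rw [e, ih, holShiftData.hσ]
    show algebraMap helper1200.Hol helper1200.Mer
        (compHol ModularGroup.T (compHol (ModularGroup.T ^ k) f)) = _
    rw [compHol_compHol, ← pow_succ]

/-- **Cusp places** (generic evaluation datum). -/
theorem dvd_ord_cusp_gen {N : ℕ} [NeZero N] {i0 : Kbar →+* ℂ}
    {e : helper3176.AN N →+* (ℍ → ℂ)} (he : IsEvGen N i0 e) (n : ℕ)
    (a b : helper3176.AN N) (ha : a ≠ 0) (hb : b ≠ 0) (A B : ℍ → ℂ) (hA : MDiff A)
    (hB : MDiff B) (hB0 : B ≠ 0)
    (hroot : ∀ τ : ℍ, A τ ^ n * e b τ = B τ ^ n * e a τ)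
    (hpar : ∀ (g : SL(2, ℤ)) (k : ℤ), g⁻¹ * ModularGroup.T ^ k * g ∈ Gamma0 N →
      ∀ τ : ℍ, A ((g⁻¹ * ModularGroup.T ^ k * g) • τ) * B τ
        = A τ * B ((g⁻¹ * ModularGroup.T ^ k * g) • τ))
    (hcusp : ∀ g : SL(2, ℤ), ∃ H : ℂ → ℂ, MeromorphicAt H 0 ∧
      ∀ᶠ τ : ℍ in atImInfty, A (g • τ) = H (Function.Periodic.qParam (N : ℝ) (τ : ℂ)) * B (g • τ))
    (v : Place Kbar (FN N)) (hv : v.ord (jBar N) < 0) :
    (n : ℤ) ∣ v.ord ((a : FN N) / (b : FN N)) := by
  classical
  -- the `ℚ̄`-algebra structure and the cusp field, as in `localDatum_cusp_of_isEvGen`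
  let alg : Algebra Kbar helper1200.Mer :=
    ((algebraMap helper1200.Hol helper1200.Mer).comp (constHol.comp i0)).toAlgebra
  have halg : ∀ c : Kbar, algebraMap Kbar helper1200.Mer c
      = algebraMap helper1200.Hol helper1200.Mer (constHol (i0 c)) := fun _ => rfl
  have hK : ConstantsAreConst holEv helper1200.Mer Kbar :=
    fun c => ⟨constHol (i0 c), i0 c, halg c, fun τ => rfl⟩
  have hid := identityAtCusp_holEv
  have hcomm : ∀ (g : SL(2, ℤ)) (c : Kbar),
      he.iotaG g (algebraMap Kbar (FN N) c) = algebraMap Kbar helper1200.Mer c := by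
    intro g c
    have h1 : he.iotaG g ((algebraMap Kbar (helper3176.AN N) c : helper3176.AN N) : FN N)
        = he.phi g (algebraMap Kbar (helper3176.AN N) c) := he.iotaG_coe g _
    rw [show ((algebraMap Kbar (helper3176.AN N) c : helper3176.AN N) : FN N)
      = algebraMap Kbar (FN N) c from rfl] at h1
    rw [h1, he.phi_apply, halg]
    congr 1
    apply Subtype.ext
    funext τ
    rw [compHol_apply, he.evHol_apply, he.const c]
    rfl
  let ι : XN N → (FN N →ₐ[Kbar] helper1200.Mer) := fun x =>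
    { he.iotaG x.out with commutes' := fun c => hcomm x.out c }
  have hι_apply : ∀ x f, ι x f = he.iotaG x.out f := fun _ _ => rfl
  have hι : Function.Injective ι := by
    intro x x' hxx'
    have h1 : he.iotaG x.out = he.iotaG x'.out := by
      ext f
      rw [← hι_apply, ← hι_apply, hxx']
    have h2 := he.mem_of_iotaG_eq h1
    have h3 : (QuotientGroup.mk x.out : XN N) = QuotientGroup.mk x'.out := QuotientGroup.eq.mpr h2
    rwa [QuotientGroup.out_eq', QuotientGroup.out_eq'] at h3
  have hmem : ∀ x f, ∃ H, IsCuspGerm holEv helper1200.Mer N (ι x f) H :=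
    fun x f => he.isCuspGerm_iotaG x.out f
  have hξ : ∀ x, ι x (jBar N)⁻¹ = (algebraMap helper1200.Hol helper1200.Mer jHol)⁻¹ := by
    intro x
    rw [hι_apply, map_inv₀, he.iotaG_jBar]
  have hρ : ∀ x f, holShiftData.σ (ι x f) = ι (ModularGroup.T⁻¹ • x) f := by
    intro x f
    rw [hι_apply, hι_apply, he.sigma_iotaG]
    have h1 : (QuotientGroup.mk (ModularGroup.T⁻¹ * x.out) : XN N)
        = QuotientGroup.mk (ModularGroup.T⁻¹ • x).out := by
      rw [QuotientGroup.out_eq']
      conv_rhs => rw [← QuotientGroup.out_eq' x]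
      rfl
    rw [he.iotaG_eq_of_mem (QuotientGroup.eq.mp h1)]
  -- the explicit local datum
  let Ω := cuspIF holEv helper1200.Mer N hid hK
  let w : AddValuation Ω (WithTop ℤ) := cuspValIF holEv helper1200.Mer N hid hK
  let ι' : XN N → (FN N →ₐ[Kbar] Ω) := fun i => (ι i).codRestrict Ω.toSubalgebra (hmem i)
  let σ : Ω ≃ₐ[Kbar] Ω := cuspSigmaIF holEv helper1200.Mer N hid hK holShiftData
  let ξ' : Ω := ⟨(algebraMap helper1200.Hol helper1200.Mer jHol)⁻¹, _, isCuspGerm_jHol_inv N⟩
  have h1 : ∀ c : Kbar, c ≠ 0 → w (algebraMap Kbar Ω c) = 0 := by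
    intro c hc
    exact cuspOrd_algebraMap hid hK hc
  have h2 : Function.Injective ι' := by
    intro i i' hii'
    apply hι
    ext f
    have := congrArg (fun φ : FN N →ₐ[Kbar] Ω => ((φ f : Ω) : helper1200.Mer)) hii'
    exact this
  have h3 : ∀ i, ι' i (jBar N)⁻¹ = ξ' := fun i => Subtype.ext (hξ i)
  have h4 : w ξ' = ((N : ℤ) : WithTop ℤ) := by
    show cuspOrd holEv helper1200.Mer N ((algebraMap helper1200.Hol helper1200.Mer jHol)⁻¹) = _
    exact ((isCuspGerm_jHol_inv N).cuspOrd_eq hid).trans (meromorphicOrderAt_JcInv_pow N)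
  have h5 : ∀ z, w (σ z) = w z := by
    intro z
    obtain ⟨H, hH⟩ := z.2
    exact hH.cuspOrd_sigma hid holShiftData
  have h6 : ∀ i f, σ (ι' i f) = ι' (ModularGroup.T⁻¹ • i) f := fun i f => Subtype.ext (hρ i f)
  have h7 : ∀ (k : ℕ) (z : Ω), z ≠ 0 → (σ ^ k) z = z →
      ∃ l : ℤ, w z = (((N / Nat.gcd k N : ℕ) * l : ℤ) : WithTop ℤ) := by
    intro k z hz hk
    obtain ⟨H, hH⟩ := z.2
    have hz' : (z : helper1200.Mer) ≠ 0 := fun h => hz (Subtype.ext h)
    have hk' : (holShiftData.σ ^ k) (z : helper1200.Mer) = z := by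
      rw [← coe_cuspSigmaIF_pow hid hK holShiftData k z, hk]
    exact hH.exists_cuspOrd_eq_of_fixed hid holShiftData hz' k hk'
  -- the function and the family of roots
  have haF : (a : FN N) ≠ 0 := fun h => ha (Subtype.ext h)
  have hbF : (b : FN N) ≠ 0 := fun h => hb (Subtype.ext h)
  have hu : (a : FN N) / (b : FN N) ≠ 0 := div_ne_zero haF hbF
  let A' : helper1200.Hol := ⟨A, mem_Hol_of_mdiff hA⟩
  let B' : helper1200.Hol := ⟨B, mem_Hol_of_mdiff hB⟩
  have hB'0 : B' ≠ 0 := fun h => hB0 (congrArg Subtype.val h)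
  have hBg : ∀ g : SL(2, ℤ), algebraMap helper1200.Hol helper1200.Mer (compHol g B') ≠ 0 := by
    intro g h
    have h' : compHol g B' = 0 :=
      IsFractionRing.injective helper1200.Hol helper1200.Mer (h.trans (map_zero _).symm)
    exact hB'0 (compHol_injective g (h'.trans (map_zero _).symm))
  let Wm : SL(2, ℤ) → helper1200.Mer := fun g =>
    algebraMap helper1200.Hol helper1200.Mer (compHol g⁻¹ A')
      / algebraMap helper1200.Hol helper1200.Mer (compHol g⁻¹ B')
  have hWm_mem : ∀ g : SL(2, ℤ), Wm g ∈ Ω := by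
    intro g
    obtain ⟨H, hH, hHev⟩ := hcusp g⁻¹
    refine ⟨H, hH, compHol g⁻¹ A', compHol g⁻¹ B', ?_, ?_, ?_⟩
    · intro h
      exact hB'0 (compHol_injective g⁻¹ (h.trans (map_zero _).symm))
    · show _ = Wm g * _
      rw [div_mul_cancel₀ _ (hBg g⁻¹)]
    · filter_upwards [hHev] with τ hτ
      exact hτ
  let W : XN N → Ω := fun x => ⟨Wm x.out, hWm_mem x.out⟩
  have hebg : ∀ g : SL(2, ℤ),
      algebraMap helper1200.Hol helper1200.Mer (compHol g (he.evHol b)) ≠ 0 := by
    intro g h
    have h' : compHol g (he.evHol b) = 0 :=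
      IsFractionRing.injective helper1200.Hol helper1200.Mer (h.trans (map_zero _).symm)
    have h'' : he.evHol b = 0 := compHol_injective g (h'.trans (map_zero _).symm)
    exact hb (he.evHol_injective (h''.trans (map_zero _).symm))
  have hW : ∀ x, W x ^ n = ι' x ((a : FN N) / (b : FN N)) := by
    intro x
    apply Subtype.ext
    show Wm x.out ^ n = he.iotaG x.out ((a : FN N) / (b : FN N))
    rw [map_div₀, he.iotaG_coe, he.iotaG_coe, he.phi_apply, he.phi_apply]
    show (algebraMap helper1200.Hol helper1200.Mer (compHol x.out⁻¹ A')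
        / algebraMap helper1200.Hol helper1200.Mer (compHol x.out⁻¹ B')) ^ n = _
    rw [div_pow, div_eq_div_iff (pow_ne_zero n (hBg x.out⁻¹)) (hebg x.out⁻¹)]
    have hrootHol : A' ^ n * he.evHol b = B' ^ n * he.evHol a := by
      apply Subtype.ext
      funext τ
      exact hroot τ
    have h := congrArg (fun f => algebraMap helper1200.Hol helper1200.Mer (compHol x.out⁻¹ f))
      hrootHol
    simp only [map_mul, map_pow] at h
    rw [h]
    ring
  have hfix : ∀ (x : XN N) (k : ℕ), ModularGroup.T ^ k • x = x → (σ ^ k) (W x) = W x := by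
    intro x k hk
    apply Subtype.ext
    rw [coe_cuspSigmaIF_pow hid hK holShiftData k (W x)]
    show (holShiftData.σ ^ k) (Wm x.out) = Wm x.out
    show (holShiftData.σ ^ k) (algebraMap helper1200.Hol helper1200.Mer (compHol x.out⁻¹ A')
        / algebraMap helper1200.Hol helper1200.Mer (compHol x.out⁻¹ B')) = _
    rw [map_div₀, holShift_pow_algebraMap, holShift_pow_algebraMap, compHol_compHol,
      compHol_compHol]
    have hBk : algebraMap helper1200.Hol helper1200.Mer
        (compHol (x.out⁻¹ * ModularGroup.T ^ k) B') ≠ 0 := hBg _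
    show _ = algebraMap helper1200.Hol helper1200.Mer (compHol x.out⁻¹ A')
        / algebraMap helper1200.Hol helper1200.Mer (compHol x.out⁻¹ B')
    rw [div_eq_div_iff hBk (hBg x.out⁻¹), ← map_mul, ← map_mul]
    congr 1
    apply Subtype.ext
    funext τ
    show A ((x.out⁻¹ * ModularGroup.T ^ k) • τ) * B (x.out⁻¹ • τ)
      = A (x.out⁻¹ • τ) * B ((x.out⁻¹ * ModularGroup.T ^ k) • τ)
    have hmemγ : x.out⁻¹ * ModularGroup.T ^ (k : ℤ) * x.out ∈ Gamma0 N := by
      have hx : (QuotientGroup.mk x.out : XN N) = x := QuotientGroup.out_eq' x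
      have h1 : (QuotientGroup.mk x.out : XN N)
          = QuotientGroup.mk (ModularGroup.T ^ k * x.out) := by
        rw [hx]
        conv_lhs => rw [← hk, ← hx]
        rfl
      have h2 := QuotientGroup.eq.mp h1
      rw [zpow_natCast, mul_assoc]
      exact h2
    have h := hpar x.out (k : ℤ) hmemγ (x.out⁻¹ • τ)
    have h3 : (x.out⁻¹ * ModularGroup.T ^ (k : ℤ) * x.out) • x.out⁻¹ • τ
        = (x.out⁻¹ * ModularGroup.T ^ k) • τ := by
      rw [zpow_natCast, ← mul_smul]
      congr 1
      group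
    rw [h3] at h
    exact h
  -- conclusion
  have hvpos : 0 < v.ord (jBar N)⁻¹ := by
    rw [v.ord_inv]
    omega
  exact dvd_ord_of_localData N (jBar N)⁻¹
    (helper1635.transcendental_inv (leaf_JTranscendental N))
    (helper1635.adjoin_inv (K := Kbar) (jBar N)) w ι' σ ξ' N ModularGroup.T h1 h2 h3
    (NeZero.pos N) h4 h5 (Or.inr h6) h7 n _ hu W hW hfix v hvpos

end Fermat.Agent.S29.helper1736
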