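import Fermat.Agent.S29.helper1736_AnDivNorm
import Fermat.Agent.S29.helper1736_AnDivCusp

/-!
# S29-ANDIV (helper1736): divisor divisibility from an analytic root — final statement

`dvd_ord_of_analytic_root` : let `u = a / b` (`a b : AN N = ℚ̄[j(q^d) : d ∣ N]`) be a nonzero
element of the function field `FN N` of `X₀(N)` over `ℚ̄`, and let `A`, `B` be holomorphic
functions on the upper half plane, `B ≠ 0`, with `(A / B) ^ n = ev u`
(`ev = helper6180.ev N`, the evaluation of the landed S24 closure), such that `A / B` is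
invariant under the elements of finite order of `Γ₀(N)` and under the conjugates of powers of
`T` lying in `Γ₀(N)`.  Then `n ∣ ord_v u` for EVERY place `v` of `FN N`.

This is the ANDIV statement of helper6324 (chat message 144) WITHOUT the hypothesis `hcusp`
("`(A / B) ∘ g` is meromorphic in `q^(1/N)` at `i∞`"), which is proved in
`helper1736_CuspGerm.ratioCuspMer_of_root`.  Any modulus `n` (for `n = 0` the statement is
trivial).
-/

set_option autoImplicit false

open Filter Topology UpperHalfPlane CongruenceSubgroup ModularCurve AlgebraicCurve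
open scoped MatrixGroups Manifold

namespace Fermat.Agent.S29.helper1736

open Fermat.Agent.S24 Fermat.Agent.S24.helper24

/-- **ANDIV, cusp half** (shape of chat message 144, with `RatioInv` / `RatioCuspMer`
unfolded). -/
theorem dvd_ord_cusp_ev (N : ℕ) [NeZero N] (n : ℕ) (a b : helper3176.AN N) (ha : a ≠ 0)
    (hb : b ≠ 0) (A B : ℍ → ℂ) (hA : MDiff A) (hB : MDiff B) (hB0 : B ≠ 0)
    (hroot : ∀ τ : ℍ, A τ ^ n * helper6180.ev N b τ = B τ ^ n * helper6180.ev N a τ)
    (hpar : ∀ (g : SL(2, ℤ)) (k : ℤ), g⁻¹ * ModularGroup.T ^ k * g ∈ Gamma0 N →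
      ∀ τ : ℍ, A ((g⁻¹ * ModularGroup.T ^ k * g) • τ) * B τ
        = A τ * B ((g⁻¹ * ModularGroup.T ^ k * g) • τ))
    (hcusp : ∀ g : SL(2, ℤ), ∃ H : ℂ → ℂ, MeromorphicAt H 0 ∧
      ∀ᶠ τ : ℍ in atImInfty, A (g • τ) = H (Function.Periodic.qParam (N : ℝ) (τ : ℂ)) * B (g • τ))
    (v : AlgebraicCurve.Place Kbar (FN N)) (hv : v.ord (jBar N) < 0) :
    (n : ℤ) ∣ v.ord ((a : FN N) / (b : FN N)) :=
  dvd_ord_cusp_gen (isEvGen_evHom N) n a b ha hb A B hA hB hB0 hroot hpar hcusp v hv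

/-- **ANDIV, cusp half, without `hcusp`** (`n ≥ 1`). -/
theorem dvd_ord_cusp_ev' (N : ℕ) [NeZero N] (n : ℕ) (hn : 0 < n) (a b : helper3176.AN N)
    (ha : a ≠ 0) (hb : b ≠ 0) (A B : ℍ → ℂ) (hA : MDiff A) (hB : MDiff B) (hB0 : B ≠ 0)
    (hroot : ∀ τ : ℍ, A τ ^ n * helper6180.ev N b τ = B τ ^ n * helper6180.ev N a τ)
    (hpar : ∀ (g : SL(2, ℤ)) (k : ℤ), g⁻¹ * ModularGroup.T ^ k * g ∈ Gamma0 N →
      ∀ τ : ℍ, A ((g⁻¹ * ModularGroup.T ^ k * g) • τ) * B τ
        = A τ * B ((g⁻¹ * ModularGroup.T ^ k * g) • τ))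
    (v : AlgebraicCurve.Place Kbar (FN N)) (hv : v.ord (jBar N) < 0) :
    (n : ℤ) ∣ v.ord ((a : FN N) / (b : FN N)) :=
  dvd_ord_cusp_ev N n a b ha hb A B hA hB hB0 hroot hpar
    (fun g => ratioCuspMer_of_root N n hn a b ha hb A B hA hB hB0 hroot hpar g) v hv

/-- **ANDIV: divisor divisibility from an analytic `n`-th root**, every place, any modulus `n`,
no growth hypothesis. -/
theorem dvd_ord_of_analytic_root (N : ℕ) [NeZero N] (n : ℕ) (a b : helper3176.AN N)
    (ha : a ≠ 0) (hb : b ≠ 0) (A B : ℍ → ℂ) (hA : MDiff A) (hB : MDiff B) (hB0 : B ≠ 0)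
    (hroot : ∀ τ : ℍ, A τ ^ n * helper6180.ev N b τ = B τ ^ n * helper6180.ev N a τ)
    (hfin : ∀ γ ∈ Gamma0 N, IsOfFinOrder γ → ∀ τ : ℍ, A (γ • τ) * B τ = A τ * B (γ • τ))
    (hpar : ∀ (g : SL(2, ℤ)) (k : ℤ), g⁻¹ * ModularGroup.T ^ k * g ∈ Gamma0 N →
      ∀ τ : ℍ, A ((g⁻¹ * ModularGroup.T ^ k * g) • τ) * B τ
        = A τ * B ((g⁻¹ * ModularGroup.T ^ k * g) • τ))
    (v : AlgebraicCurve.Place Kbar (FN N)) :
    (n : ℤ) ∣ v.ord ((a : FN N) / (b : FN N)) := by
  rcases Nat.eq_zero_or_pos n with hn0 | hn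
  · -- `n = 0`: then `a = b`
    subst hn0
    have hab : a = b := by
      apply helper6180.ev_injective N
      funext τ
      have h := hroot τ
      simp only [pow_zero, one_mul] at h
      exact h.symm
    have hbF : (b : FN N) ≠ 0 := fun h => hb (Subtype.ext h)
    rw [hab, div_self hbF]
    simp
  · rcases lt_or_ge (v.ord (jBar N)) 0 with hv | hv
    · exact dvd_ord_cusp_ev' N n hn a b ha hb A B hA hB hB0 hroot hpar v hv
    · exact dvd_ord_finite_ev N n a b ha hb A B hA hB hB0 hroot hfin v hv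

end Fermat.Agent.S29.helper1736
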