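import Mathlib
import Fermat.Agent.S24.helper384_Count
import Fermat.Agent.S24.helper264_LocAdapter

/-!
# S29-ANDIV, abstract core (helper1736)

Refinement of the S24 orbit counting lemma (`helper384.card_zeros_eq_card_orbits`) into a
dictionary statement, and its consequence for `p`-th roots:

* `zero_place_dict` : under the hypotheses of the orbit counting lemma, every place `v` which is
  a zero of `x` is the place of one of the valuations `w g`, and `w g = κ * ord_v` where
  `κ * |orbit of g| = e₀`;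
* `dvd_ord_of_root` : in the shape of `helper24.Stmt_LOC` (embeddings `ι i : F →ₐ[K] Ω` into a
  valued field, permuted by an automorphism `σ` with the divisibility property): if `u : F` has,
  for every `i`, a `p`-th root `W i` of `ι i u` in `Ω` which is fixed by `σ ^ k` whenever
  `ρ ^ k` fixes `i`, then `p ∣ ord_v u` for every zero `v` of `y`.
-/

set_option autoImplicit false

open AlgebraicCurve IntermediateField

namespace Fermat.Agent.S29.helper1736

open Fermat.Agent.S24

section Core

variable {K F : Type*} [Field K] [Field F] [Algebra K F]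

/-- **Dictionary form of the orbit counting lemma.** Under the hypotheses of
`helper384.card_zeros_eq_card_orbits`, every zero `v` of `x` is the place of some `w g`,
with `w g f = ord_v f * κ` and `|orbit of g| * κ = e₀`. -/
theorem zero_place_dict (x : F) [FiniteDimensional K⟮x⟯ F] [CharZero K] (hx0 : x ≠ 0)
    (hfund : ∃ s : Finset (Place K F), (∀ v, v ∈ s ↔ 0 < v.ord x) ∧
      ∑ v ∈ s, v.ord x = Module.finrank K⟮x⟯ F)
    {X O : Type*} [Fintype X] [Finite O]
    (hcard : Fintype.card X = Module.finrank K⟮x⟯ F)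
    (w : X → F → ℤ)
    (hw_mul : ∀ g (a b : F), a ≠ 0 → b ≠ 0 → w g (a * b) = w g a + w g b)
    (hw_add : ∀ g (a b : F), a ≠ 0 → b ≠ 0 → a + b ≠ 0 → min (w g a) (w g b) ≤ w g (a + b))
    (hw_const : ∀ g (c : K), w g (algebraMap K F c) = 0)
    (e₀ : ℤ) (he₀ : 0 < e₀) (hw_x : ∀ g, w g x = e₀)
    (hnorm : ∀ (f : F), f ≠ 0 → ∀ g₀ : X,
      ∑ g, w g f = w g₀ (algebraMap K⟮x⟯ F (Algebra.norm K⟮x⟯ f)))
    (orb : X → O) (horb : Function.Surjective orb)
    (hw_orb : ∀ g g', orb g = orb g' → ∀ f, w g f = w g' f)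
    (hw_div : ∀ g (f : F), f ≠ 0 →
      e₀ ∣ (Nat.card {g' // orb g' = orb g} : ℤ) * w g f)
    (v : Place K F) (hv : 0 < v.ord x) :
    ∃ (g : X) (κ : ℤ), 0 < κ ∧ (Nat.card {g' // orb g' = orb g} : ℤ) * κ = e₀ ∧
      ∀ f : F, f ≠ 0 → w g f = v.ord f * κ := by
  classical
  obtain ⟨s, hs, hsum⟩ := hfund
  have hwx : ∀ g, 0 < w g x := fun g => by rw [hw_x]; exact he₀
  -- the places attached to the valuations
  let V : X → Place K F := fun g =>
    helper384.ivPlace (w g) (hw_mul g) (hw_add g) (hw_const g) x hx0 (hwx g)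
  have hκ : ∀ g, ∃ κ : ℤ, 0 < κ ∧ ∀ f : F, f ≠ 0 → w g f = (V g).ord f * κ := fun g =>
    helper384.ivPlace_ord (w g) (hw_mul g) (hw_add g) (hw_const g) x hx0 (hwx g)
  choose κ hκpos hκ using hκ
  have hVx : ∀ g, 0 < (V g).ord x := by
    intro g
    have h := hκ g x hx0
    rw [hw_x] at h
    by_contra hle
    rw [not_lt] at hle
    have := mul_nonpos_of_nonpos_of_nonneg hle (hκpos g).le
    omega
  have hVorb : ∀ g g', orb g = orb g' → V g = V g' := by
    intro g g' h
    apply Place.ext
    ext f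
    show f ∈ helper384.ivSubring (w g) (hw_mul g) (hw_add g)
      ↔ f ∈ helper384.ivSubring (w g') (hw_mul g') (hw_add g')
    simp only [helper384.mem_ivSubring, hw_orb g g' h f]
  -- surjectivity onto the zeros of `x`
  have hsurj : ∀ v₀ : Place K F, 0 < v₀.ord x → ∃ g, V g = v₀ := by
    intro v₀ hv₀
    by_contra hcon
    push Not at hcon
    obtain ⟨b, hb, hbv, hbV⟩ :=
      helper384.exists_integral_avoiding x v₀ hv₀ Finset.univ V hVx (fun g _ => hcon g)
    have hb0 : b ≠ 0 := by
      rintro rfl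
      simp at hbv
    obtain ⟨h, hhA, hh0, hnm⟩ := helper384.norm_eq_mul_of_integral x v₀ hv₀ b hb hb0 hbv
    have hXne : Nonempty X := by
      have : 0 < Fintype.card X := by rw [hcard]; exact Module.finrank_pos
      exact Fintype.card_pos_iff.mp this
    obtain ⟨g₀⟩ := hXne
    have h1 := hnorm b hb0 g₀
    rw [hnm, hw_mul g₀ h x hh0 hx0, hw_x] at h1
    have h2 : ∑ g, w g b = 0 := Finset.sum_eq_zero (fun g _ => by
      rw [hκ g b hb0, hbV g (Finset.mem_univ g), zero_mul])
    have h3 : 0 ≤ w g₀ h := by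
      have hxmem : x ∈ (V g₀).toValuationSubring := helper384.mem_of_ord_nonneg _ (hVx g₀).le
      have hmem := helper384.mem_place_of_mem_adjoin x (V g₀) hxmem hhA
      exact (hmem : h = 0 ∨ 0 ≤ w g₀ h).resolve_left hh0
    omega
  -- orbits
  have : Fintype O := Fintype.ofFinite O
  let Φ : O → Place K F := fun o => V (Function.surjInv horb o)
  have hΦ : ∀ g, Φ (orb g) = V g := fun g =>
    hVorb _ _ (Function.surjInv_eq horb (orb g))
  have hΦmem : ∀ o, Φ o ∈ s := fun o => (hs _).mpr (hVx _)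
  have hΦsurj : ∀ v ∈ s, ∃ o, Φ o = v := by
    intro v hv
    obtain ⟨g, hg⟩ := hsurj v ((hs v).mp hv)
    exact ⟨orb g, (hΦ g).trans hg⟩
  have he : ∀ o, (Φ o).ord x ≤ (Nat.card {g' // orb g' = o} : ℤ) := by
    intro o
    set g := Function.surjInv horb o with hg
    have hgo : orb g = o := Function.surjInv_eq horb o
    obtain ⟨π, hπ⟩ := IsDiscreteValuationRing.exists_irreducible (V g).toValuationSubring
    have hπ0 : (π : F) ≠ 0 := fun h => hπ.ne_zero (Subtype.ext h)
    have hπ1 : (V g).ord (π : F) = 1 := (V g).ord_coe_irreducible hπ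
    have h1 := hw_div g (π : F) hπ0
    rw [hκ g _ hπ0, hπ1, one_mul, ← hw_x g, hκ g x hx0, hgo] at h1
    have h2 : (V g).ord x ∣ (Nat.card {g' // orb g' = o} : ℤ) :=
      Int.dvd_of_mul_dvd_mul_right (hκpos g).ne' h1
    have hpos : 0 < (Nat.card {g' // orb g' = o} : ℤ) := by
      have : Nonempty {g' // orb g' = o} := ⟨⟨g, hgo⟩⟩
      exact_mod_cast Nat.card_pos
    exact Int.le_of_dvd hpos h2
  -- the counting
  have hS2 : ∑ o : O, (Nat.card {g' // orb g' = o} : ℤ) = Fintype.card X := by
    have h := Finset.card_eq_sum_card_fiberwise (s := (Finset.univ : Finset X))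
      (t := (Finset.univ : Finset O)) (f := orb) (fun g _ => Finset.mem_univ _)
    rw [Finset.card_univ] at h
    rw [h]
    push_cast
    refine Finset.sum_congr rfl (fun o _ => ?_)
    rw [Nat.card_eq_fintype_card, Fintype.card_subtype]
  have hS4 : ∑ o : O, (Φ o).ord x
      = ∑ v ∈ s, ((Finset.univ.filter (fun o => Φ o = v)).card : ℤ) * v.ord x := by
    rw [← Finset.sum_fiberwise_of_maps_to (s := (Finset.univ : Finset O)) (t := s) (g := Φ)
      (fun o _ => hΦmem o)]
    refine Finset.sum_congr rfl (fun v _ => ?_)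
    rw [Finset.sum_congr rfl (fun o ho => by rw [(Finset.mem_filter.mp ho).2]),
      Finset.sum_const, nsmul_eq_mul]
  have hc1 : ∀ v ∈ s, 1 ≤ (Finset.univ.filter (fun o => Φ o = v)).card := by
    intro v hv
    obtain ⟨o, ho⟩ := hΦsurj v hv
    exact Finset.card_pos.mpr ⟨o, Finset.mem_filter.mpr ⟨Finset.mem_univ _, ho⟩⟩
  have hS5 : ∑ v ∈ s, v.ord x ≤ ∑ o : O, (Φ o).ord x := by
    rw [hS4]
    refine Finset.sum_le_sum (fun v hv => ?_)
    have h1 : (1 : ℤ) ≤ ((Finset.univ.filter (fun o => Φ o = v)).card : ℤ) := by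
      exact_mod_cast hc1 v hv
    have h2 : 0 < v.ord x := (hs v).mp hv
    nlinarith
  -- termwise equality
  have heq : ∀ o, (Φ o).ord x = (Nat.card {g' // orb g' = o} : ℤ) := by
    have hsumeq : ∑ o : O, ((Nat.card {g' // orb g' = o} : ℤ) - (Φ o).ord x) = 0 := by
      apply le_antisymm
      · rw [Finset.sum_sub_distrib, hS2, hcard, ← hsum]
        omega
      · exact Finset.sum_nonneg (fun o _ => by have := he o; omega)
    have hz := (Finset.sum_eq_zero_iff_of_nonneg (fun o _ => by have := he o; omega)).mp hsumeq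
    intro o
    have := hz o (Finset.mem_univ o)
    omega
  -- conclusion
  obtain ⟨g, hg⟩ := hsurj v hv
  refine ⟨g, κ g, hκpos g, ?_, fun f hf => by rw [hκ g f hf, hg]⟩
  have h1 : (Φ (orb g)).ord x = (Nat.card {g' // orb g' = orb g} : ℤ) := heq (orb g)
  rw [hΦ g] at h1
  rw [← h1, ← hw_x g, hκ g x hx0]

end Core

section Valuation

variable {Ω : Type*} [Field Ω] (w : AddValuation Ω (WithTop ℤ))

theorem valInt_pow {a : Ω} (ha : a ≠ 0) (n : ℕ) :
    helper264.valInt w (a ^ n) = n * helper264.valInt w a := by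
  induction n with
  | zero =>
    simp only [pow_zero, Nat.cast_zero, zero_mul]
    unfold helper264.valInt
    rw [AddValuation.map_one]; rfl
  | succ n ih =>
    rw [pow_succ, helper264.valInt_mul w (pow_ne_zero n ha) ha, ih]
    push_cast
    ring

end Valuation

/-- **Divisibility of orders from local `p`-th roots** (shape of `helper24.Stmt_LOC`):
given `n = [F : K(y)]` distinct `K`-embeddings `ι i` of `F` into a discretely valued field `Ω`,
all sending `y` to the same element of valuation `m > 0`, permuted by an automorphism `σ` of `Ω`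
with the divisibility property `hdiv`; if `ι i u` has a `p`-th root `W i` in `Ω` which is fixed
by `σ ^ k` whenever `ρ ^ k` fixes `i`, then `p` divides the order of `u` at every zero of `y`. -/
theorem dvd_ord_of_root {K F : Type*} [Field K] [Field F] [Algebra K F] [CharZero K]
    {Ω : Type*} [Field Ω] [Algebra K Ω] (y : F) (hy0 : y ≠ 0)
    [FiniteDimensional K⟮y⟯ F]
    (hfund : ∃ s : Finset (Place K F), (∀ v, v ∈ s ↔ 0 < v.ord y) ∧
      ∑ v ∈ s, v.ord y = Module.finrank K⟮y⟯ F)
    (w : AddValuation Ω (WithTop ℤ))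
    (hwK : ∀ a : K, a ≠ 0 → w (algebraMap K Ω a) = 0)
    {X : Type*} [Fintype X] (hcard : Fintype.card X = Module.finrank K⟮y⟯ F)
    (ι : X → (F →ₐ[K] Ω)) (hinj : Function.Injective ι)
    (ξ : Ω) (hξ : ∀ i, ι i y = ξ) (m : ℕ) (hm : 0 < m) (hwξ : w ξ = ((m : ℤ) : WithTop ℤ))
    (σ : Ω ≃ₐ[K] Ω) (hσ : ∀ z, w (σ z) = w z)
    (ρ : Equiv.Perm X) (hρ : ∀ i f, σ (ι i f) = ι (ρ i) f)
    (hdiv : ∀ (k : ℕ) (z : Ω), z ≠ 0 → (σ ^ k) z = z →
      ∃ l : ℤ, w z = (((m / Nat.gcd k m : ℕ) * l : ℤ) : WithTop ℤ))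
    (p : ℕ) (u : F) (hu : u ≠ 0) (W : X → Ω) (hW : ∀ i, W i ^ p = ι i u)
    (hfix : ∀ (i : X) (k : ℕ), (ρ ^ k) i = i → (σ ^ k) (W i) = W i)
    (v : Place K F) (hv : 0 < v.ord y) : (p : ℤ) ∣ v.ord u := by
  classical
  have hne : ∀ (g : X) (f : F), f ≠ 0 → ι g f ≠ 0 := fun g f hf =>
    (map_ne_zero_iff (ι g) (ι g).toRingHom.injective).2 hf
  -- invariance of the valuations under `ρ`
  have hρw : ∀ (τ : Equiv.Perm X), τ ∈ Subgroup.zpowers ρ →
      ∀ i f, w (ι (τ i) f) = w (ι i f) := by
    let H : Subgroup (Equiv.Perm X) :=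
      { carrier := {τ | ∀ i f, w (ι (τ i) f) = w (ι i f)}
        mul_mem' := by
          intro a b ha hb i f
          show w (ι (a (b i)) f) = w (ι i f)
          rw [ha, hb]
        one_mem' := fun i f => rfl
        inv_mem' := by
          intro a ha i f
          have := ha (a⁻¹ i) f
          rw [show a (a⁻¹ i) = i from Equiv.apply_symm_apply a i] at this
          exact this.symm }
    have hρH : ρ ∈ H := fun i f => by rw [← hρ, hσ]
    intro τ hτ
    exact (Subgroup.zpowers_le.2 hρH) hτ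
  have hσpow : ∀ (k : ℕ) (i : X) (f : F), (σ ^ k) (ι i f) = ι ((ρ ^ k) i) f := by
    intro k
    induction k with
    | zero => intro i f; rfl
    | succ k ih =>
      intro i f
      rw [pow_succ', pow_succ']
      show σ ((σ ^ k) (ι i f)) = ι (ρ ((ρ ^ k) i)) f
      rw [ih, hρ]
  obtain ⟨g, κ, hκpos, hκm, hκ⟩ := zero_place_dict (K := K) y hy0 hfund
    (X := X) (O := MulAction.orbitRel.Quotient (Subgroup.zpowers ρ) X) hcard
    (fun g f => helper264.valInt w (ι g f)) (by
      intro g a b ha hb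
      show helper264.valInt w (ι g (a * b)) = _
      rw [map_mul]
      exact helper264.valInt_mul w (hne g a ha) (hne g b hb)) (by
      intro g a b ha hb hab
      show _ ≤ helper264.valInt w (ι g (a + b))
      rw [map_add]
      refine helper264.valInt_add w (hne g a ha) (hne g b hb) ?_
      rw [← map_add]
      exact hne g _ hab) (by
      intro g c
      show helper264.valInt w (ι g (algebraMap K F c)) = 0
      rw [AlgHom.commutes]
      by_cases hc : c = 0
      · rw [hc, map_zero]; exact helper264.valInt_zero w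
      · unfold helper264.valInt
        rw [hwK c hc]; rfl) (m : ℤ) (by exact_mod_cast hm) (by
      intro g
      show helper264.valInt w (ι g y) = m
      unfold helper264.valInt
      rw [hξ g, hwξ]; rfl) (by
      intro f hf g₀
      show ∑ g, helper264.valInt w (ι g f) = helper264.valInt w (ι g₀ _)
      rw [← helper264.prod_algHom_eq_norm_adjoin y ι hinj hcard
          (fun g g' => by rw [hξ g, hξ g']) g₀ f,
        helper264.valInt_prod w Finset.univ (fun g => ι g f) (fun g _ => hne g f hf)])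
    (fun g => Quotient.mk'' g) Quotient.mk''_surjective (by
      intro g g' h f
      show helper264.valInt w (ι g f) = helper264.valInt w (ι g' f)
      rw [Quotient.eq''] at h
      have h' : g ∈ MulAction.orbit (Subgroup.zpowers ρ) g' := MulAction.orbitRel_apply.1 h
      obtain ⟨⟨τ, hτ⟩, rfl⟩ := h'
      exact helper264.valInt_eq_of_eq w (hρw τ hτ g' f)) (by
      intro g f hf
      show (m : ℤ) ∣ _ * helper264.valInt w (ι g f)
      set q := Nat.card {g' : X // (Quotient.mk'' g' : MulAction.orbitRel.Quotient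
          (Subgroup.zpowers ρ) X) = Quotient.mk'' g} with hq
      have hfix' : (σ ^ q) (ι g f) = ι g f := by
        rw [hσpow, hq, helper264.pow_card_orbitClass_apply]
      obtain ⟨l, hl⟩ := hdiv q (ι g f) (hne g f hf) hfix'
      rw [← helper264.coe_valInt w (hne g f hf)] at hl
      have hl' : helper264.valInt w (ι g f) = ((m / Nat.gcd q m : ℕ) : ℤ) * l := by
        exact_mod_cast hl
      rw [hl']
      obtain ⟨a, ha⟩ := Nat.gcd_dvd_left q m
      obtain ⟨b, hb⟩ := Nat.gcd_dvd_right q m
      have hgpos : 0 < Nat.gcd q m := Nat.gcd_pos_of_pos_right q hm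
      have hmdiv : m / Nat.gcd q m = b := Nat.div_eq_of_eq_mul_right hgpos hb
      rw [hmdiv]
      refine ⟨(a : ℤ) * l, ?_⟩
      have : (q : ℤ) * ((b : ℤ) * l) = ((q * b : ℕ) : ℤ) * l := by push_cast; ring
      rw [this]
      have h3 : q * b = m * a := by
        conv_lhs => rw [ha]
        conv_rhs => rw [hb]
        ring
      rw [h3]
      push_cast; ring) v hv
  -- now the `p`-th root
  set q := Nat.card {g' : X // (Quotient.mk'' g' : MulAction.orbitRel.Quotient
      (Subgroup.zpowers ρ) X) = Quotient.mk'' g} with hq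
  have hκm' : (q : ℤ) * κ = (m : ℤ) := hκm
  rcases Nat.eq_zero_or_pos p with hp0 | hppos
  · -- `p = 0`: then `u = 1`
    subst hp0
    have h1 : ι g u = 1 := by rw [← hW g, pow_zero]
    have h2 : u = 1 := (ι g).toRingHom.injective (by rw [AlgHom.toRingHom_eq_coe, RingHom.coe_coe, h1, map_one])
    rw [h2]
    simp
  have hWne : W g ≠ 0 := by
    intro h0
    have := hW g
    rw [h0, zero_pow hppos.ne'] at this
    exact hne g u hu this.symm
  have hqfix : (σ ^ q) (W g) = W g :=
    hfix g q (by rw [hq]; exact helper264.pow_card_orbitClass_apply ρ g)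
  obtain ⟨l, hl⟩ := hdiv q (W g) hWne hqfix
  rw [← helper264.coe_valInt w hWne] at hl
  have hl' : helper264.valInt w (W g) = ((m / Nat.gcd q m : ℕ) : ℤ) * l := by
    exact_mod_cast hl
  -- `q ∣ m`, so `m / gcd q m = κ`
  have hqpos : 0 < q := by
    have : Nonempty {g' : X // (Quotient.mk'' g' : MulAction.orbitRel.Quotient
        (Subgroup.zpowers ρ) X) = Quotient.mk'' g} := ⟨⟨g, rfl⟩⟩
    rw [hq]
    exact Nat.card_pos
  have hκnat : ∃ κ' : ℕ, (κ' : ℤ) = κ := ⟨κ.toNat, Int.toNat_of_nonneg hκpos.le⟩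
  obtain ⟨κ', rfl⟩ := hκnat
  have hqm : q * κ' = m := by exact_mod_cast hκm'
  have hgcd : Nat.gcd q m = q := Nat.gcd_eq_left ⟨κ', hqm.symm⟩
  have hdivm : m / Nat.gcd q m = κ' := by
    rw [hgcd]
    exact Nat.div_eq_of_eq_mul_right hqpos hqm.symm
  rw [hdivm] at hl'
  have h1 : helper264.valInt w (ι g u) = (p : ℤ) * helper264.valInt w (W g) := by
    rw [← hW g, valInt_pow w hWne]
  have h2 : helper264.valInt w (ι g u) = v.ord u * (κ' : ℤ) := hκ u hu
  have hκ'pos : (0 : ℤ) < (κ' : ℤ) := hκpos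
  refine ⟨l, ?_⟩
  have h3 : v.ord u * (κ' : ℤ) = ((p : ℤ) * l) * (κ' : ℤ) := by
    rw [← h2, h1, hl']; ring
  exact mul_right_cancel₀ hκ'pos.ne' h3

end Fermat.Agent.S29.helper1736
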