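import Fermat.Agent.S29.helper1736_AnDivLocal

/-!
# S29-ANDIV (helper1736): the finite places

`dvd_ord_finite` : for a function-level evaluation datum `(i0, e)` (the hypotheses of
`helper580.Stmt_EvFun` at level `N`), if `ev (a / b) = (A / B) ^ p` with `A`, `B` holomorphic on
the upper half plane and `A / B` invariant under the elements of finite order of `Γ₀(N)`, then
`p` divides the order of `a / b` at every place of the function field which is not a pole of `j`.
-/

set_option autoImplicit false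
set_option linter.style.haveILetI false

open UpperHalfPlane CongruenceSubgroup ModularCurve AlgebraicCurve IntermediateField
open scoped MatrixGroups Manifold

namespace Fermat.Agent.S29.helper1736

open Fermat.Agent.S24 Fermat.Agent.S24.helper24 Fermat.Agent.S24.helper580

theorem isOfFinOrder_S : IsOfFinOrder ModularGroup.S := by
  rw [isOfFinOrder_iff_pow_eq_one]
  refine ⟨4, by norm_num, ?_⟩
  have h : ModularGroup.S ^ 4 = (ModularGroup.S ^ 2) ^ 2 := by rw [← pow_mul]
  rw [h, helper580.S_pow_two]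
  simp

theorem isOfFinOrder_ST : IsOfFinOrder (ModularGroup.S * ModularGroup.T) := by
  rw [isOfFinOrder_iff_pow_eq_one]
  refine ⟨6, by norm_num, ?_⟩
  have h : (ModularGroup.S * ModularGroup.T) ^ 6 = ((ModularGroup.S * ModularGroup.T) ^ 3) ^ 2 := by
    rw [← pow_mul]
  rw [h, helper580.ST_pow_three]
  simp

theorem isOfFinOrder_conj {G : Type*} [Group G] {h : G} (hh : IsOfFinOrder h) (x : G) :
    IsOfFinOrder (x⁻¹ * h * x) := by
  rw [isOfFinOrder_iff_pow_eq_one] at hh ⊢
  obtain ⟨n, hn, hpow⟩ := hh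
  refine ⟨n, hn, ?_⟩
  have h2 : (x⁻¹ * h * x) ^ n = x⁻¹ * h ^ n * x := by
    have := conj_pow (a := x⁻¹) (b := h) (i := n)
    rwa [inv_inv] at this
  rw [h2, hpow, mul_one, inv_mul_cancel]

/-- **Finite places.** -/
theorem dvd_ord_finite (N : ℕ) [NeZero N] (i0 : Kbar →+* ℂ) (e : helper3176.AN N →+* (ℍ → ℂ))
    (hinj : Function.Injective e) (hmd : ∀ a, MDifferentiable 𝓘(ℂ) 𝓘(ℂ) (e a))
    (hconst : ∀ c : Kbar, e (algebraMap Kbar (helper3176.AN N) c) = fun _ => i0 c)
    (hj : e ⟨jBar N, helper3176.jBar_mem_AN N⟩ = jFun)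
    (hinv : ∀ γ ∈ Gamma0 N, ∀ (a : helper3176.AN N) (τ : ℍ), e a (γ • τ) = e a τ)
    (hsep : ∀ g : SL(2, ℤ), (∀ (a : helper3176.AN N) (τ : ℍ), e a (g • τ) = e a τ) → g ∈ Gamma0 N)
    (p : ℕ) (a b : helper3176.AN N) (ha : a ≠ 0) (hb : b ≠ 0) (A B : Hol) (hB : B ≠ 0)
    (hroot : A ^ p * eHol e hmd b = B ^ p * eHol e hmd a)
    (hWinv : ∀ γ ∈ Gamma0 N, IsOfFinOrder γ → pullHol γ A * B = A * pullHol γ B)
    (v : Place Kbar (FN N)) (hv : 0 ≤ v.ord (jBar N)) :
    (p : ℤ) ∣ v.ord ((a : FN N) / (b : FN N)) := by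
  classical
  letI : Algebra Kbar Mer := algK i0
  obtain ⟨ev, hev⟩ := helper3176.exists_algHom_extension N (eMerAlg i0 e hmd hconst)
    (eMer_injective e hmd hinj)
  have hev' : ∀ a : helper3176.AN N, ev (a : FN N) = algebraMap Hol Mer (eHol e hmd a) := hev
  -- the facts of the meromorphic package (as in `helper580.stmt_MerPackage`)
  have hmul : ∀ (g h : SL(2, ℤ)) (z : Mer), actK i0 (g * h) z = actK i0 g (actK i0 h z) := by
    intro g h z
    show pull (g * h)⁻¹ z = pull g⁻¹ (pull h⁻¹ z)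
    rw [pull_pull, mul_inv_rev]
  have hconstM : ∀ (τ : ℍ) (a : Kbar), a ≠ 0 → ordAt τ (algebraMap Kbar Mer a) = 0 := by
    intro τ a ha
    show ordAt τ (algebraMap ℂ Mer (i0 a)) = 0
    exact ordAt_const τ ((map_ne_zero i0).mpr ha)
  have hord : ∀ (g : SL(2, ℤ)) (τ : ℍ) (z : Mer), g • τ = τ →
      ordAt τ (actK i0 g z) = ordAt τ z := by
    intro g τ z hfix
    show ordAt τ (pull g⁻¹ z) = ordAt τ z
    rw [ordAt_pull, inv_smul_eq_iff.mpr hfix.symm]
  have hinvM : ∀ γ ∈ Gamma0 N, ∀ f : FN N, actK i0 γ (ev f) = ev f := by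
    intro γ hγ
    have key : ((actK i0 γ : Mer ≃ₐ[Kbar] Mer) : Mer →+* Mer).comp (ev : FN N →+* Mer)
        = (ev : FN N →+* Mer) := by
      refine helper3176.ringHom_ext_of_AN N fun a => ?_
      show pull γ⁻¹ (ev (a : FN N)) = ev (a : FN N)
      rw [hev' a, pull_algebraMap]
      congr 1
      exact Hol.ext fun τ => hinv γ⁻¹ (inv_mem hγ) a τ
    intro f
    exact congrArg (fun φ : FN N →+* Mer => φ f) key
  have hsepM : ∀ g : SL(2, ℤ), (∀ f : FN N, actK i0 g (ev f) = ev f) → g ∈ Gamma0 N := by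
    intro g hg
    have h1 : g⁻¹ ∈ Gamma0 N := by
      apply hsep
      intro a τ
      have h2 : pull g⁻¹ (ev (a : FN N)) = ev (a : FN N) := hg (a : FN N)
      rw [hev' a, pull_algebraMap] at h2
      have h3 : pullHol g⁻¹ (eHol e hmd a) = eHol e hmd a := IsFractionRing.injective Hol Mer h2
      exact congrFun (congrArg Subtype.val h3) τ
    exact inv_mem_iff.mp h1
  have hjM : ∀ g : SL(2, ℤ), actK i0 g (ev (jBar N)) = ev (jBar N) := by
    intro g
    show pull g⁻¹ (ev (jBar N)) = ev (jBar N)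
    have h1 := hev' ⟨jBar N, helper3176.jBar_mem_AN N⟩
    have h1' : ev (jBar N)
        = algebraMap Hol Mer (eHol e hmd ⟨jBar N, helper3176.jBar_mem_AN N⟩) := h1
    rw [h1', pull_algebraMap]
    congr 1
    refine Hol.ext fun τ => ?_
    rw [pullHol_apply, eHol_apply, eHol_apply, hj]
    exact helper454.jInvariant g⁻¹ τ
  have hval : ∀ (τ : ℍ) (c : Kbar), jFun τ = i0 c →
      ordAt τ (ev (jBar N) - algebraMap Kbar Mer c)
        = (analyticOrderAt (fun z : ℂ => jFun (ofComplex z) - jFun τ) (τ : ℂ)).map (↑) := by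
    intro τ c hτ
    have h1 : ev (jBar N)
        = algebraMap Hol Mer (eHol e hmd ⟨jBar N, helper3176.jBar_mem_AN N⟩) :=
      hev' ⟨jBar N, helper3176.jBar_mem_AN N⟩
    have h2 : algebraMap Kbar Mer c = algebraMap Hol Mer (algebraMap ℂ Hol (i0 c)) := by
      rw [← IsScalarTower.algebraMap_apply ℂ Hol Mer]
      rfl
    rw [h1, h2, ← map_sub, ordAt_algebraMap_eq_analyticOrderAt]
    have h3 : (((eHol e hmd ⟨jBar N, helper3176.jBar_mem_AN N⟩ - algebraMap ℂ Hol (i0 c) : Hol)
        : ℍ → ℂ) ∘ ofComplex) = fun z : ℂ => jFun (ofComplex z) - jFun τ := by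
      funext z
      show e ⟨jBar N, helper3176.jBar_mem_AN N⟩ (ofComplex z) - i0 c = jFun (ofComplex z) - jFun τ
      rw [hj, hτ]
    rw [h3]
  -- the function and its root
  have haF : (a : FN N) ≠ 0 := fun h => ha (Subtype.ext h)
  have hbF : (b : FN N) ≠ 0 := fun h => hb (Subtype.ext h)
  have hu : (a : FN N) / (b : FN N) ≠ 0 := div_ne_zero haF hbF
  have hBM : algebraMap Hol Mer B ≠ 0 := fun h =>
    hB (IsFractionRing.injective Hol Mer (h.trans (map_zero _).symm))
  have hebM : algebraMap Hol Mer (eHol e hmd b) ≠ 0 := by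
    intro h
    have h1 : eHol e hmd b = 0 := IsFractionRing.injective Hol Mer (h.trans (map_zero _).symm)
    have h2 : e b = e 0 := by
      rw [map_zero]
      exact congrArg Subtype.val h1
    exact hb (hinj h2)
  have hW : (algebraMap Hol Mer A / algebraMap Hol Mer B) ^ p
      = ev ((a : FN N) / (b : FN N)) := by
    rw [map_div₀, hev' a, hev' b, div_pow, div_eq_div_iff (pow_ne_zero p hBM) hebM]
    have h := congrArg (algebraMap Hol Mer) hroot
    rw [map_mul, map_mul, map_pow, map_pow] at h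
    rw [h, mul_comm]
  have hWpull : ∀ γ ∈ Gamma0 N, IsOfFinOrder γ →
      pull γ (algebraMap Hol Mer A / algebraMap Hol Mer B)
        = algebraMap Hol Mer A / algebraMap Hol Mer B := by
    intro γ hγ hfin
    have hpB : algebraMap Hol Mer (pullHol γ B) ≠ 0 := by
      intro h
      have h1 : pullHol γ B = 0 := IsFractionRing.injective Hol Mer (h.trans (map_zero _).symm)
      exact hB ((pullHol γ).injective (h1.trans (map_zero _).symm))
    rw [map_div₀, pull_algebraMap, pull_algebraMap, div_eq_div_iff hpB hBM]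
    have h := congrArg (algebraMap Hol Mer) (hWinv γ hγ hfin)
    rw [map_mul, map_mul] at h
    exact h
  -- the common argument at a point `τ₀` fixed by `g₀`
  have key : ∀ (c : Kbar) (τ₀ : ℍ) (g₀ : SL(2, ℤ)) (m : ℕ), 0 < m → g₀ • τ₀ = τ₀ →
      IsOfFinOrder g₀ →
      ordAt τ₀ (ev (jBar N) - algebraMap Kbar Mer c) = ((m : ℤ) : WithTop ℤ) →
      helper481.HDiv (ordAt τ₀) (actK i0 g₀) m →
      0 < v.ord (jBar N - algebraMap Kbar (FN N) c) →
      (p : ℤ) ∣ v.ord ((a : FN N) / (b : FN N)) := by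
    intro c τ₀ g₀ m hm hfix hfin hvalm hdiv hvc
    refine dvd_ord_of_localData N (jBar N - algebraMap Kbar (FN N) c)
      (helper1635.transcendental_sub_algebraMap (leaf_JTranscendental N) c)
      (helper1635.adjoin_sub_algebraMap (K := Kbar) (jBar N) c)
      (ordAt τ₀) (helper481.iotaOf (actK i0) ev) (actK i0 g₀)
      (ev (jBar N) - algebraMap Kbar Mer c) m g₀ (hconstM τ₀)
      (helper481.iotaOf_injective (actK i0) ev hmul hsepM)
      (helper481.iotaOf_j (actK i0) ev hjM c) hm hvalm (fun z => hord g₀ τ₀ z hfix)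
      (Or.inl (helper481.act_iotaOf (actK i0) ev hmul hinvM g₀)) hdiv p _ hu
      (fun x => actK i0 (Quotient.out x) (algebraMap Hol Mer A / algebraMap Hol Mer B))
      (fun x => by rw [helper481.iotaOf_apply, ← hW, map_pow]) ?_ v hvc
    intro x k hk
    rw [actK_pow_apply, iterate_pull, actK_apply, pull_pull]
    have hmem : (Quotient.out x)⁻¹ * g₀⁻¹ ^ k * Quotient.out x ∈ Gamma0 N := by
      have hx : (QuotientGroup.mk (Quotient.out x) : XN N) = x := Quotient.out_eq x
      have h1 : (QuotientGroup.mk (g₀ ^ k * Quotient.out x) : XN N)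
          = QuotientGroup.mk (Quotient.out x) := by
        rw [hx]
        conv_rhs => rw [← hk, ← hx]
        rfl
      have h2 := QuotientGroup.eq.mp h1
      have h3 : (g₀ ^ k * Quotient.out x)⁻¹ * Quotient.out x
          = (Quotient.out x)⁻¹ * g₀⁻¹ ^ k * Quotient.out x := by
        rw [mul_inv_rev, inv_pow]
      rwa [h3] at h2
    have hfin' : IsOfFinOrder ((Quotient.out x)⁻¹ * g₀⁻¹ ^ k * Quotient.out x) :=
      isOfFinOrder_conj hfin.inv.pow _
    have h4 : (Quotient.out x)⁻¹ * g₀⁻¹ ^ k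
        = ((Quotient.out x)⁻¹ * g₀⁻¹ ^ k * Quotient.out x) * (Quotient.out x)⁻¹ := by
      group
    rw [h4, ← pull_pull, hWpull _ hmem hfin']
  -- the three kinds of finite points
  haveI : FiniteDimensional Kbar⟮jBar N⟯ (FN N) := (stmt_JFinrank N).1
  rcases leaf_Center Kbar (FN N) (jBar N) (leaf_JTranscendental N) v with hneg | ⟨c, hc⟩
  · omega
  by_cases hc0 : c = 0
  · -- `j = 0`
    obtain ⟨-, ⟨τ₀, hfix, hτ₀, hord3⟩⟩ := helper2064.stmt_JElliptic
    have hτ₀' : jFun τ₀ = i0 c := by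
      rw [hτ₀, hc0]
      exact (map_zero i0).symm
    have hv3 := hval τ₀ c hτ₀'
    rw [hord3] at hv3
    exact key c τ₀ (ModularGroup.S * ModularGroup.T) 3 (by norm_num) hfix isOfFinOrder_ST
      (by rw [hv3]; rfl) (hDiv_ST i0 τ₀ hfix) hc
  by_cases hc1728 : c = 1728
  · -- `j = 1728`
    obtain ⟨⟨τ₀, hfix, hτ₀, hord2⟩, -⟩ := helper2064.stmt_JElliptic
    have hτ₀' : jFun τ₀ = i0 c := by
      rw [hτ₀, hc1728]
      exact (map_ofNat i0 1728).symm
    have hv2 := hval τ₀ c hτ₀'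
    rw [hord2] at hv2
    exact key c τ₀ ModularGroup.S 2 (by norm_num) hfix isOfFinOrder_S
      (by rw [hv2]; rfl) (hDiv_S i0 τ₀ hfix) hc
  · -- generic value
    obtain ⟨τ₀, hτ₀⟩ := helper2064.stmt_JSurj (i0 c)
    have h0 : jFun τ₀ ≠ 0 := by
      rw [hτ₀]
      exact (map_ne_zero i0).mpr hc0
    have h1 : jFun τ₀ ≠ 1728 := by
      rw [hτ₀]
      intro h
      apply hc1728
      apply i0.injective
      rw [h]
      exact (map_ofNat i0 1728).symm
    have hv1 := hval τ₀ c hτ₀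
    rw [helper2064.stmt_JGeneric τ₀ h0 h1] at hv1
    exact key c τ₀ 1 1 Nat.one_pos (one_smul _ _) (isOfFinOrder_iff_pow_eq_one.mpr ⟨1, Nat.one_pos, one_pow 1⟩)
      (by rw [hv1]; rfl) (helper481.hDiv_one _ _) hc

end Fermat.Agent.S29.helper1736
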