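import Fermat.Agent.S29.helper1736_AnDivCore
import Fermat.Agent.S24.helper1200_Final

/-!
# S29-ANDIV (helper1736): the consumer lemma at the level of a local datum

`dvd_ord_of_localData` : given the data of a `helper24.LocalDatum N y m g` (explicitly, not
existentially) and a family `W i` of `p`-th roots of `ι i u` in `Ω`, with `W i` fixed by `σ ^ k`
whenever `g ^ k • i = i`, the order of `u` at every zero of `y` is divisible by `p`.
Here `y` generates the same subfield as `j` (`y = j - c` or `y = 1 / j`).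
-/

set_option autoImplicit false

open ModularCurve AlgebraicCurve IntermediateField CongruenceSubgroup
open scoped MatrixGroups

namespace Fermat.Agent.S29.helper1736

open Fermat.Agent.S24 Fermat.Agent.S24.helper24

/-- `[F_N : ℚ̄(j)] = [SL₂(ℤ) : Γ₀(N)]` (landed S24 modules). -/
theorem stmt_JFinrank : Stmt_JFinrank :=
  helper6180.stmt_JFinrank_of_localInf helper1200.stmt_LocalInf

theorem toPerm_pow_apply {G X : Type*} [Group G] [MulAction G X] (g : G) (k : ℕ) (i : X) :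
    ((MulAction.toPerm g : Equiv.Perm X) ^ k) i = g ^ k • i := by
  induction k generalizing i with
  | zero => simp
  | succ k ih =>
    rw [pow_succ, Equiv.Perm.mul_apply, ih, MulAction.toPerm_apply, pow_succ, mul_smul]

/-- **Consumer lemma for a local datum.** -/
theorem dvd_ord_of_localData (N : ℕ) [NeZero N] (y : FN N) (hy : Transcendental Kbar y)
    (hyj : Kbar⟮y⟯ = Kbar⟮jBar N⟯)
    {Ω : Type*} [Field Ω] [Algebra Kbar Ω] (w : AddValuation Ω (WithTop ℤ))
    (ι : XN N → (FN N →ₐ[Kbar] Ω)) (σ : Ω ≃ₐ[Kbar] Ω) (ξ : Ω) (m : ℕ) (g : SL(2, ℤ))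
    (hwK : ∀ a : Kbar, a ≠ 0 → w (algebraMap Kbar Ω a) = 0)
    (hι : Function.Injective ι) (hξ : ∀ i, ι i y = ξ) (hm : 0 < m)
    (hwξ : w ξ = ((m : ℤ) : WithTop ℤ)) (hwσ : ∀ z, w (σ z) = w z)
    (hσ : (∀ i f, σ (ι i f) = ι (g • i) f) ∨ (∀ i f, σ (ι i f) = ι (g⁻¹ • i) f))
    (hdiv : ∀ (k : ℕ) (z : Ω), z ≠ 0 → (σ ^ k) z = z →
      ∃ l : ℤ, w z = (((m / Nat.gcd k m : ℕ) * l : ℤ) : WithTop ℤ))
    (p : ℕ) (u : FN N) (hu : u ≠ 0) (W : XN N → Ω) (hW : ∀ i, W i ^ p = ι i u)
    (hfix : ∀ (i : XN N) (k : ℕ), g ^ k • i = i → (σ ^ k) (W i) = W i)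
    (v : Place Kbar (FN N)) (hv : 0 < v.ord y) : (p : ℤ) ∣ v.ord u := by
  haveI : FiniteDimensional Kbar⟮jBar N⟯ (FN N) := (stmt_JFinrank N).1
  have hn : Module.finrank Kbar⟮jBar N⟯ (FN N) = Nat.card (XN N) := (stmt_JFinrank N).2
  haveI : FiniteDimensional Kbar⟮y⟯ (FN N) := helper1635.finiteDimensional_of_eq hyj.symm
  have hcard : Nat.card (XN N) = Module.finrank Kbar⟮y⟯ (FN N) := by
    rw [helper1635.finrank_of_eq hyj, hn]
  have hpos : 0 < Module.finrank Kbar⟮y⟯ (FN N) := Module.finrank_pos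
  haveI : Finite (XN N) := Nat.finite_of_card_ne_zero (by omega)
  letI : Fintype (XN N) := Fintype.ofFinite _
  have hcard' : Fintype.card (XN N) = Module.finrank Kbar⟮y⟯ (FN N) := by
    rw [← Nat.card_eq_fintype_card]; exact hcard
  have hy0 : y ≠ 0 := by
    rintro rfl
    exact hy (isAlgebraic_zero)
  have hfund := leaf_FundId Kbar (FN N) y hy
  rcases hσ with hσ | hσ
  · exact dvd_ord_of_root (K := Kbar) y hy0 hfund w hwK hcard' ι hι ξ hξ m hm hwξ σ hwσ
      (MulAction.toPerm g) (fun i f => by simpa using hσ i f) hdiv p u hu W hW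
      (fun i k hk => hfix i k (by rw [← toPerm_pow_apply]; exact hk)) v hv
  · refine dvd_ord_of_root (K := Kbar) y hy0 hfund w hwK hcard' ι hι ξ hξ m hm hwξ σ hwσ
      (MulAction.toPerm g⁻¹) (fun i f => by simpa using hσ i f) hdiv p u hu W hW
      (fun i k hk => hfix i k ?_) v hv
    rw [toPerm_pow_apply] at hk
    have h2 : g ^ k • (g⁻¹ ^ k • i) = g ^ k • i := by rw [hk]
    rw [← mul_smul, inv_pow, mul_inv_cancel, one_smul] at h2
    exact h2.symm

end Fermat.Agent.S29.helper1736
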