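import Fermat.Agent.S29.helper1736_AnDivFinite
import Fermat.Agent.S24.helper6180_EvFun

/-!
# S29-ANDIV (helper1736): the finite half in the owner's function-level shape

`dvd_ord_finite_ev` : exact statement (FINITE) of the split fixed by the ANDIV owner helper6324
(chat message 144): for the evaluation `helper6180.ev N` of the landed S24 closure,
`u = a / b` with `a b : AN N`, and holomorphic `A B : ℍ → ℂ` with `(A / B) ^ n = ev (a / b)` and
`A / B` invariant under the elements of finite order of `Γ₀(N)`, the order of `u` at every place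
which is not a pole of `j` is divisible by `n`.
-/

set_option autoImplicit false

open UpperHalfPlane CongruenceSubgroup ModularCurve AlgebraicCurve
open scoped MatrixGroups Manifold

namespace Fermat.Agent.S29.helper1736

open Fermat.Agent.S24 Fermat.Agent.S24.helper24

/-- **ANDIV, finite half** (shape of chat message 144). -/
theorem dvd_ord_finite_ev (N : ℕ) [NeZero N] (n : ℕ) (a b : helper3176.AN N) (ha : a ≠ 0)
    (hb : b ≠ 0) (A B : ℍ → ℂ) (hA : MDiff A) (hB : MDiff B) (hB0 : B ≠ 0)
    (hroot : ∀ τ : ℍ, A τ ^ n * helper6180.ev N b τ = B τ ^ n * helper6180.ev N a τ)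
    (hfin : ∀ γ ∈ Gamma0 N, IsOfFinOrder γ → ∀ τ : ℍ, A (γ • τ) * B τ = A τ * B (γ • τ))
    (v : AlgebraicCurve.Place Kbar (FN N)) (hv : 0 ≤ v.ord (jBar N)) :
    (n : ℤ) ∣ v.ord ((a : FN N) / (b : FN N)) := by
  have hmd : ∀ a, MDifferentiable 𝓘(ℂ) 𝓘(ℂ) (helper6180.evHom N a) := helper6180.mdiff_ev N
  refine dvd_ord_finite N helper6180.i0 (helper6180.evHom N) (helper6180.ev_injective N) hmd
    (helper6180.ev_algebraMap N) (helper6180.ev_jBar N)
    (fun γ hγ a τ => helper6180.ev_smul_of_mem_Gamma0 N a γ hγ τ)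
    (fun g h => helper6180.mem_Gamma0_of_ev_smul N g h) n a b ha hb
    (helper580.Hol.mk A hA) (helper580.Hol.mk B hB) ?_ ?_ ?_ v hv
  · intro h
    exact hB0 (congrArg Subtype.val h)
  · exact helper580.Hol.ext fun τ => hroot τ
  · intro γ hγ hfin'
    exact helper580.Hol.ext fun τ => hfin γ hγ hfin' τ

end Fermat.Agent.S29.helper1736
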