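import Mathlib

/-!
# S29-ANDIV (helper1736): a root of a cusp-meromorphic function is cusp-meromorphic

Pure complex analysis (Mathlib only).  Let `A`, `B` be holomorphic on the upper half plane,
`B ≠ 0`, such that `(A / B) ^ n` is, near `i∞`, a meromorphic function `Ha / Hb` of the local
parameter `t = exp (2πiτ/N)`, and such that `A / B` is invariant under `τ ↦ τ + N`.
Then `A / B` itself is a meromorphic function of `t` near `i∞`
(`exists_germ_of_pow_eq`).  No growth hypothesis on `A`, `B` is needed.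
-/

set_option autoImplicit false

open Filter Topology UpperHalfPlane Complex
open scoped MatrixGroups Manifold

namespace Fermat.Agent.S29.helper1736

noncomputable section

/-- Finite pigeonhole for filters. -/
theorem exists_frequently_of_eventually_exists_finset {α ι : Type*} {l : Filter α} [l.NeBot]
    (s : Finset ι) {p : ι → α → Prop} (h : ∀ᶠ x in l, ∃ i ∈ s, p i x) :
    ∃ i ∈ s, ∃ᶠ x in l, p i x := by
  by_contra hcon
  have h2 : ∀ᶠ x in l, ∀ i ∈ s, ¬ p i x :=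
    (Filter.eventually_all_finset s).mpr fun i hi =>
      Filter.not_frequently.mp fun hf => hcon ⟨i, hi, hf⟩
  obtain ⟨x, ⟨i, hi, hp⟩, hx⟩ := (h.and h2).exists
  exact hx i hi hp

/-- An analytic germ which does not vanish at `0` has an analytic `n`-th root near `0`. -/
theorem exists_analytic_root {G : ℂ → ℂ} (hG : AnalyticAt ℂ G 0) (hG0 : G 0 ≠ 0) (n : ℕ)
    (hn : 0 < n) :
    ∃ G₁ : ℂ → ℂ, AnalyticAt ℂ G₁ 0 ∧ G₁ 0 ≠ 0 ∧ ∀ᶠ t in 𝓝 (0 : ℂ), G₁ t ^ n = G t := by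
  have hn0 : n ≠ 0 := hn.ne'
  have hnC : (n : ℂ) ≠ 0 := Nat.cast_ne_zero.mpr hn0
  set c : ℂ := G 0 ^ ((n : ℂ)⁻¹) with hc
  have hcn : c ^ n = G 0 := Complex.cpow_nat_inv_pow (G 0) hn0
  have hc0 : c ≠ 0 := by
    intro h0
    rw [h0, zero_pow hn0] at hcn
    exact hG0 hcn.symm
  have hq : AnalyticAt ℂ (fun t => G t / G 0) 0 := hG.fun_div analyticAt_const hG0
  have hlog : AnalyticAt ℂ (fun t => Complex.log (G t / G 0)) 0 :=
    hq.clog (by simp [div_self hG0])
  have hdiv : AnalyticAt ℂ (fun t => Complex.log (G t / G 0) / n) 0 :=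
    hlog.fun_div analyticAt_const hnC
  have hexp : AnalyticAt ℂ (fun t => Complex.exp (Complex.log (G t / G 0) / n)) 0 := hdiv.cexp'
  refine ⟨fun t => c * Complex.exp (Complex.log (G t / G 0) / n), analyticAt_const.fun_mul hexp,
    ?_, ?_⟩
  · exact mul_ne_zero hc0 (Complex.exp_ne_zero _)
  · filter_upwards [hG.continuousAt.eventually_ne hG0] with t ht
    have hne : G t / G 0 ≠ 0 := div_ne_zero ht hG0
    have h1 : (n : ℂ) * (Complex.log (G t / G 0) / n) = Complex.log (G t / G 0) := by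
      field_simp
    rw [mul_pow, hcn, ← Complex.exp_nat_mul, h1, Complex.exp_log hne]
    field_simp

/-- A holomorphic function on the upper half plane which is not identically zero does not
vanish identically on any half plane `Im τ > c`. -/
theorem exists_ne_zero_of_im_gt {f : ℍ → ℂ} (hf : MDiff f) (hf0 : f ≠ 0) (c : ℝ) :
    ∃ τ : ℍ, c < τ.im ∧ f τ ≠ 0 := by
  by_contra hcon
  push Not at hcon
  apply hf0
  have hd : DifferentiableOn ℂ (f ∘ ofComplex) {z : ℂ | 0 < z.im} :=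
    UpperHalfPlane.mdifferentiable_iff.mp hf
  have han := hd.analyticOnNhd isOpen_upperHalfPlaneSet
  have hz₀ : ((max c 0 + 1 : ℝ) : ℂ) * Complex.I ∈ {z : ℂ | 0 < z.im} := by
    show 0 < (((max c 0 + 1 : ℝ) : ℂ) * Complex.I).im
    rw [Complex.mul_im, Complex.ofReal_re, Complex.I_im, Complex.ofReal_im, Complex.I_re]
    have := le_max_right c 0
    linarith
  have hev : (f ∘ ofComplex) =ᶠ[𝓝 (((max c 0 + 1 : ℝ) : ℂ) * Complex.I)] 0 := by
    have hopen : IsOpen {z : ℂ | max c 0 < z.im} :=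
      isOpen_lt continuous_const Complex.continuous_im
    have hmem : ((max c 0 + 1 : ℝ) : ℂ) * Complex.I ∈ {z : ℂ | max c 0 < z.im} := by
      show max c 0 < (((max c 0 + 1 : ℝ) : ℂ) * Complex.I).im
      rw [Complex.mul_im, Complex.ofReal_re, Complex.I_im, Complex.ofReal_im, Complex.I_re]
      linarith
    filter_upwards [hopen.mem_nhds hmem] with z hz
    have hz0 : 0 < z.im := lt_of_le_of_lt (le_max_right c 0) hz
    have him : (ofComplex z).im = z.im := by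
      rw [ofComplex_apply_of_im_pos hz0]
      rfl
    exact hcon (ofComplex z) (by rw [him]; exact lt_of_le_of_lt (le_max_left c 0) hz)
  have h0 := han.eqOn_zero_of_preconnected_of_eventuallyEq_zero
    (convex_halfSpace_im_gt 0).isPreconnected hz₀ hev
  funext τ
  have h1 := h0 τ.im_pos
  simpa [ofComplex_apply] using h1

theorem mdiff_comp_smul_SL (g : SL(2, ℤ)) {f : ℍ → ℂ} (hf : MDiff f) :
    MDiff (fun τ : ℍ => f (g • τ)) :=
  hf.comp (UpperHalfPlane.mdifferentiable_smul (g := (g : GL (Fin 2) ℝ)) (by simp))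


/-- The local parameter `t = exp (2πiτ/N)` tends to `0` (through nonzero values) at `i∞`. -/
theorem tendsto_qParam_atImInfty (N : ℕ) [NeZero N] :
    Tendsto (fun τ : ℍ => Function.Periodic.qParam (N : ℝ) (τ : ℂ)) atImInfty (𝓝[≠] 0) :=
  (Function.Periodic.qParam_tendsto (Nat.cast_pos.mpr (NeZero.pos N))).comp tendsto_coe_atImInfty

theorem coe_T_pow_smul (N : ℕ) (τ : ℍ) :
    ((ModularGroup.T ^ N • τ : ℍ) : ℂ) = (N : ℂ) + (τ : ℂ) := by
  have h := UpperHalfPlane.modular_T_zpow_smul τ (N : ℤ)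
  rw [zpow_natCast] at h
  rw [h, UpperHalfPlane.coe_vadd]
  push_cast
  rfl

theorem im_T_pow_smul (N : ℕ) (τ : ℍ) : (ModularGroup.T ^ N • τ : ℍ).im = τ.im := by
  have h := UpperHalfPlane.modular_T_zpow_smul τ (N : ℤ)
  rw [zpow_natCast] at h
  rw [h, UpperHalfPlane.vadd_im]

theorem qParam_T_pow_smul (N : ℕ) [NeZero N] (τ : ℍ) :
    Function.Periodic.qParam (N : ℝ) ((ModularGroup.T ^ N • τ : ℍ) : ℂ)
      = Function.Periodic.qParam (N : ℝ) (τ : ℂ) := by
  have hN0 : (N : ℂ) ≠ 0 := Nat.cast_ne_zero.mpr (NeZero.ne N)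
  rw [coe_T_pow_smul]
  unfold Function.Periodic.qParam
  have h1 : 2 * (Real.pi : ℂ) * Complex.I * ((N : ℂ) + (τ : ℂ)) / ((N : ℝ) : ℂ)
      = 2 * (Real.pi : ℂ) * Complex.I * (τ : ℂ) / ((N : ℝ) : ℂ) + 2 * (Real.pi : ℂ) * Complex.I := by
    push_cast
    field_simp
    ring
  rw [h1]
  exact Complex.exp_periodic _

/-- **A root of a cusp-meromorphic function is cusp-meromorphic.** -/
theorem exists_germ_of_pow_eq (N : ℕ) [NeZero N] (n : ℕ) (hn : 0 < n) (A B : ℍ → ℂ)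
    (hA : MDiff A) (hB : MDiff B) (hB0 : B ≠ 0)
    (Ha Hb : ℂ → ℂ) (hHa : MeromorphicAt Ha 0) (hHb : MeromorphicAt Hb 0)
    (hHa0 : ∀ᶠ t in 𝓝[≠] (0 : ℂ), Ha t ≠ 0) (hHb0 : ∀ᶠ t in 𝓝[≠] (0 : ℂ), Hb t ≠ 0)
    (hroot : ∀ᶠ τ : ℍ in atImInfty,
      A τ ^ n * Hb (Function.Periodic.qParam (N : ℝ) (τ : ℂ))
        = B τ ^ n * Ha (Function.Periodic.qParam (N : ℝ) (τ : ℂ)))
    (hper : ∀ τ : ℍ, A (ModularGroup.T ^ N • τ) * B τ = A τ * B (ModularGroup.T ^ N • τ)) :
    ∃ H : ℂ → ℂ, MeromorphicAt H 0 ∧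
      ∀ᶠ τ : ℍ in atImInfty, A τ = H (Function.Periodic.qParam (N : ℝ) (τ : ℂ)) * B τ := by
  classical
  have hn0 : n ≠ 0 := hn.ne'
  have hnC : (n : ℂ) ≠ 0 := Nat.cast_ne_zero.mpr hn0
  have hN0 : (N : ℂ) ≠ 0 := Nat.cast_ne_zero.mpr (NeZero.ne N)
  have htend := tendsto_qParam_atImInfty N
  have htend' : Tendsto (fun τ : ℍ => Function.Periodic.qParam (N : ℝ) (τ : ℂ)) atImInfty (𝓝 0) :=
    htend.mono_right nhdsWithin_le_nhds
  -- the quotient germ and its order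
  have hH : MeromorphicAt (fun t => Ha t / Hb t) 0 := hHa.fun_div hHb
  have hHne : ∀ᶠ t in 𝓝[≠] (0 : ℂ), Ha t / Hb t ≠ 0 := by
    filter_upwards [hHa0, hHb0] with t h1 h2 using div_ne_zero h1 h2
  have hord : meromorphicOrderAt (fun t => Ha t / Hb t) 0 ≠ ⊤ := by
    intro htop
    rw [meromorphicOrderAt_eq_top_iff] at htop
    obtain ⟨t, h1, h2⟩ := (hHne.and htop).exists
    exact h1 h2
  obtain ⟨m, hm⟩ := WithTop.ne_top_iff_exists.mp hord
  obtain ⟨G, hG, hG0, hGeq⟩ := (meromorphicOrderAt_eq_int_iff hH).mp hm.symm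
  obtain ⟨G₁, hG₁, hG₁0, hG₁eq⟩ := exists_analytic_root hG hG0 n hn
  -- the exponential factor
  set E : ℂ → ℂ := fun z => Complex.exp (2 * (Real.pi : ℂ) * Complex.I * (m : ℂ) * z / ((N : ℂ) * (n : ℂ)))
    with hE
  have hEn : ∀ z : ℂ, E z ^ n = Function.Periodic.qParam (N : ℝ) z ^ m := by
    intro z
    unfold Function.Periodic.qParam
    rw [hE]
    show Complex.exp _ ^ n = _
    rw [← Complex.exp_nat_mul, ← Complex.exp_int_mul]
    congr 1
    push_cast
    field_simp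
  have hEd : Differentiable ℂ E := by
    rw [hE]
    fun_prop
  have hE0 : ∀ z : ℂ, E z ≠ 0 := fun z => Complex.exp_ne_zero _
  -- facts near the cusp
  have hev : ∀ᶠ τ : ℍ in atImInfty,
      (A τ ^ n * Hb (Function.Periodic.qParam (N : ℝ) (τ : ℂ))
        = B τ ^ n * Ha (Function.Periodic.qParam (N : ℝ) (τ : ℂ))) ∧
      (Ha (Function.Periodic.qParam (N : ℝ) (τ : ℂ)) / Hb (Function.Periodic.qParam (N : ℝ) (τ : ℂ))
        = Function.Periodic.qParam (N : ℝ) (τ : ℂ) ^ m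
          * G (Function.Periodic.qParam (N : ℝ) (τ : ℂ))) ∧
      Hb (Function.Periodic.qParam (N : ℝ) (τ : ℂ)) ≠ 0 ∧
      G₁ (Function.Periodic.qParam (N : ℝ) (τ : ℂ)) ^ n
        = G (Function.Periodic.qParam (N : ℝ) (τ : ℂ)) ∧
      AnalyticAt ℂ G₁ (Function.Periodic.qParam (N : ℝ) (τ : ℂ)) ∧
      G₁ (Function.Periodic.qParam (N : ℝ) (τ : ℂ)) ≠ 0 := by
    filter_upwards [hroot, htend.eventually hGeq, htend.eventually hHb0,
      htend'.eventually hG₁eq, htend'.eventually hG₁.eventually_analyticAt,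
      htend'.eventually (hG₁.continuousAt.eventually_ne hG₁0)] with τ h1 h2 h3 h4 h5 h6
    refine ⟨h1, ?_, h3, h4, h5, h6⟩
    simpa using h2
  obtain ⟨c, hc⟩ := (atImInfty_mem _).mp hev
  -- the `n`-th powers agree near the cusp
  have hpow : ∀ τ : ℍ, c ≤ τ.im →
      A τ ^ n = (B τ * G₁ (Function.Periodic.qParam (N : ℝ) (τ : ℂ)) * E (τ : ℂ)) ^ n := by
    intro τ hτ
    obtain ⟨h1, h2, h3, h4, -, -⟩ := hc τ hτ
    rw [mul_pow, mul_pow, hEn, h4]
    rw [div_eq_iff h3] at h2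
    rw [h2] at h1
    have h5 : A τ ^ n * Hb (Function.Periodic.qParam (N : ℝ) (τ : ℂ))
        = (B τ ^ n * G (Function.Periodic.qParam (N : ℝ) (τ : ℂ))
            * Function.Periodic.qParam (N : ℝ) (τ : ℂ) ^ m)
          * Hb (Function.Periodic.qParam (N : ℝ) (τ : ℂ)) := by
      rw [h1]; ring
    exact mul_right_cancel₀ h3 h5
  -- the half plane
  set c₀ : ℝ := max c 0 with hc₀
  set U : Set ℂ := {z : ℂ | c₀ < z.im} with hU
  have hUopen : IsOpen U := isOpen_lt continuous_const Complex.continuous_im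
  have hUconn : IsPreconnected U := (convex_halfSpace_im_gt c₀).isPreconnected
  have hUpos : ∀ z ∈ U, 0 < z.im := fun z hz => lt_of_le_of_lt (le_max_right c 0) hz
  have hUc : ∀ z ∈ U, c ≤ z.im := fun z hz => (lt_of_le_of_lt (le_max_left c 0) hz).le
  have hcoe : ∀ z ∈ U, ((ofComplex z : ℍ) : ℂ) = z := by
    intro z hz
    rw [ofComplex_apply_of_im_pos (hUpos z hz)]
  have him : ∀ z ∈ U, (ofComplex z : ℍ).im = z.im := by
    intro z hz
    rw [ofComplex_apply_of_im_pos (hUpos z hz)]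
    rfl
  -- the factors
  set F : ℂ → ℂ → ℂ := fun ζ z =>
    A (ofComplex z) - ζ * (B (ofComplex z) * G₁ (Function.Periodic.qParam (N : ℝ) z) * E z) with hF
  have hAd : DifferentiableOn ℂ (A ∘ ofComplex) {z : ℂ | 0 < z.im} :=
    UpperHalfPlane.mdifferentiable_iff.mp hA
  have hBd : DifferentiableOn ℂ (B ∘ ofComplex) {z : ℂ | 0 < z.im} :=
    UpperHalfPlane.mdifferentiable_iff.mp hB
  have hFan : ∀ ζ : ℂ, AnalyticOnNhd ℂ (F ζ) U := by
    intro ζ
    refine DifferentiableOn.analyticOnNhd (fun z hz => DifferentiableAt.differentiableWithinAt ?_)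
      hUopen
    have h1 : DifferentiableAt ℂ (A ∘ ofComplex) z :=
      (hAd z (hUpos z hz)).differentiableAt (isOpen_upperHalfPlaneSet.mem_nhds (hUpos z hz))
    have h2 : DifferentiableAt ℂ (B ∘ ofComplex) z :=
      (hBd z (hUpos z hz)).differentiableAt (isOpen_upperHalfPlaneSet.mem_nhds (hUpos z hz))
    have h3 : AnalyticAt ℂ G₁ (Function.Periodic.qParam (N : ℝ) z) := by
      have := (hc (ofComplex z) (by rw [him z hz]; exact hUc z hz)).2.2.2.2.1
      rwa [hcoe z hz] at this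
    have h4 : DifferentiableAt ℂ (fun z => G₁ (Function.Periodic.qParam (N : ℝ) z)) z :=
      DifferentiableAt.comp (g := G₁) (f := Function.Periodic.qParam (N : ℝ)) z
        h3.differentiableAt (Function.Periodic.differentiable_qParam z)
    have h5 : DifferentiableAt ℂ E z := hEd z
    exact h1.sub ((differentiableAt_const ζ).mul ((h2.mul h4).mul h5))
  have hprod : ∀ z ∈ U, ∏ ζ ∈ Polynomial.nthRootsFinset n (1 : ℂ), F ζ z = 0 := by
    intro z hz
    have h1 := hpow (ofComplex z) (by rw [him z hz]; exact hUc z hz)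
    rw [hcoe z hz] at h1
    have h2 := (Complex.isPrimitiveRoot_exp n hn0).pow_sub_pow_eq_prod_sub_mul
      (A (ofComplex z)) (B (ofComplex z) * G₁ (Function.Periodic.qParam (N : ℝ) z) * E z) hn
    rw [h1, sub_self] at h2
    exact h2.symm
  -- one factor vanishes identically
  have hz₀ : ((c₀ + 1 : ℝ) : ℂ) * Complex.I ∈ U := by
    show c₀ < (((c₀ + 1 : ℝ) : ℂ) * Complex.I).im
    rw [Complex.mul_im, Complex.ofReal_re, Complex.I_im, Complex.ofReal_im, Complex.I_re]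
    linarith
  have hex : ∀ᶠ z in 𝓝[≠] (((c₀ + 1 : ℝ) : ℂ) * Complex.I),
      ∃ ζ ∈ Polynomial.nthRootsFinset n (1 : ℂ), F ζ z = 0 := by
    have h1 : ∀ᶠ z in 𝓝 (((c₀ + 1 : ℝ) : ℂ) * Complex.I), z ∈ U := hUopen.mem_nhds hz₀
    filter_upwards [h1.filter_mono nhdsWithin_le_nhds] with z hz
    exact Finset.prod_eq_zero_iff.mp (hprod z hz)
  obtain ⟨ζ, hζ, hfreq⟩ := exists_frequently_of_eventually_exists_finset _ hex
  have hzero := (hFan ζ).eqOn_zero_of_preconnected_of_frequently_eq_zero hUconn hz₀ hfreq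
  have hζn : ζ ^ n = 1 := (Polynomial.mem_nthRootsFinset hn 1).mp hζ
  have hζ0 : ζ ≠ 0 := by
    intro h0
    rw [h0, zero_pow hn0] at hζn
    exact zero_ne_one hζn
  have key : ∀ τ : ℍ, c₀ < τ.im →
      A τ = ζ * (B τ * G₁ (Function.Periodic.qParam (N : ℝ) (τ : ℂ)) * E (τ : ℂ)) := by
    intro τ hτ
    have h1 : F ζ (τ : ℂ) = 0 := hzero (show (τ : ℂ) ∈ U from hτ)
    rw [hF] at h1
    simp only [ofComplex_apply] at h1
    exact sub_eq_zero.mp h1
  -- periodicity forces `n ∣ m`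
  have hBT : MDiff (fun τ : ℍ => B (ModularGroup.T ^ N • τ)) := mdiff_comp_smul_SL _ hB
  have hBT0 : (fun τ : ℍ => B (ModularGroup.T ^ N • τ)) ≠ 0 := by
    intro h0
    apply hB0
    funext τ
    have h1 := congrFun h0 ((ModularGroup.T ^ N)⁻¹ • τ)
    simp only [smul_inv_smul] at h1
    exact h1
  have hP0 : (B * fun τ : ℍ => B (ModularGroup.T ^ N • τ)) ≠ 0 := by
    intro h0
    rcases (UpperHalfPlane.mul_eq_zero_iff hB hBT).mp h0 with h1 | h1
    · exact hB0 h1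
    · exact hBT0 h1
  obtain ⟨τ₁, hτ₁, hP⟩ := exists_ne_zero_of_im_gt (hB.mul hBT) hP0 c₀
  have hB1 : B τ₁ ≠ 0 := left_ne_zero_of_mul hP
  have hB2 : B (ModularGroup.T ^ N • τ₁) ≠ 0 := right_ne_zero_of_mul hP
  have hG1 : G₁ (Function.Periodic.qParam (N : ℝ) (τ₁ : ℂ)) ≠ 0 :=
    (hc τ₁ ((lt_of_le_of_lt (le_max_left c 0) hτ₁).le)).2.2.2.2.2
  have hk1 := key τ₁ hτ₁
  have hk2 := key (ModularGroup.T ^ N • τ₁) (by rw [im_T_pow_smul]; exact hτ₁)
  rw [qParam_T_pow_smul, coe_T_pow_smul] at hk2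
  have hEshift : E ((N : ℂ) + (τ₁ : ℂ))
      = E (τ₁ : ℂ) * Complex.exp (2 * (Real.pi : ℂ) * Complex.I * (m : ℂ) / (n : ℂ)) := by
    rw [hE]
    show Complex.exp _ = Complex.exp _ * Complex.exp _
    rw [← Complex.exp_add]
    congr 1
    field_simp
    ring
  have hω : Complex.exp (2 * (Real.pi : ℂ) * Complex.I * (m : ℂ) / (n : ℂ)) = 1 := by
    have h1 := hper τ₁
    rw [hk2, hk1, hEshift] at h1
    have h2 : (ζ * B τ₁ * B (ModularGroup.T ^ N • τ₁)
          * G₁ (Function.Periodic.qParam (N : ℝ) (τ₁ : ℂ)) * E (τ₁ : ℂ))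
          * Complex.exp (2 * (Real.pi : ℂ) * Complex.I * (m : ℂ) / (n : ℂ))
        = (ζ * B τ₁ * B (ModularGroup.T ^ N • τ₁)
          * G₁ (Function.Periodic.qParam (N : ℝ) (τ₁ : ℂ)) * E (τ₁ : ℂ)) * 1 := by
      rw [mul_one]
      linear_combination h1
    exact mul_left_cancel₀ (mul_ne_zero (mul_ne_zero (mul_ne_zero (mul_ne_zero hζ0 hB1) hB2) hG1)
      (hE0 _)) h2
  obtain ⟨k, hk⟩ := Complex.exp_eq_one_iff.mp hω
  have hmk : (m : ℂ) = (k : ℂ) * (n : ℂ) := by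
    have h2pi : (2 * (Real.pi : ℂ) * Complex.I) ≠ 0 := Complex.two_pi_I_ne_zero
    have h1 : 2 * (Real.pi : ℂ) * Complex.I * (m : ℂ)
        = (k : ℂ) * (n : ℂ) * (2 * (Real.pi : ℂ) * Complex.I) := by
      rw [div_eq_iff hnC] at hk
      rw [hk]; ring
    have h2 : (2 * (Real.pi : ℂ) * Complex.I) * (m : ℂ)
        = (2 * (Real.pi : ℂ) * Complex.I) * ((k : ℂ) * (n : ℂ)) := by
      rw [h1]; ring
    exact mul_left_cancel₀ h2pi h2
  -- the germ
  have hEk : ∀ z : ℂ, E z = Function.Periodic.qParam (N : ℝ) z ^ k := by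
    intro z
    unfold Function.Periodic.qParam
    rw [hE]
    show Complex.exp _ = _
    rw [← Complex.exp_int_mul]
    congr 1
    rw [hmk]
    push_cast
    field_simp
  refine ⟨fun t => ζ * G₁ t * t ^ k, ?_, ?_⟩
  · exact ((MeromorphicAt.const ζ 0).fun_mul hG₁.meromorphicAt).fun_mul
      ((MeromorphicAt.id (0 : ℂ)).fun_zpow k)
  · refine (atImInfty_mem _).mpr ⟨c₀ + 1, fun τ hτ => ?_⟩
    have hτ' : c₀ < τ.im := by linarith
    show A τ = ζ * G₁ (Function.Periodic.qParam (N : ℝ) (τ : ℂ))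
      * Function.Periodic.qParam (N : ℝ) (τ : ℂ) ^ k * B τ
    rw [key τ hτ', hEk]
    ring

end

end Fermat.Agent.S29.helper1736
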