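import Fermat.Agent.S29.helper2122_SurjAsm
import Fermat.Agent.S29.helper1736_AnDiv
import Fermat.Agent.S29.helper288_RatioInFC
import Fermat.Agent.S29.helper3932_DescC
import Fermat.Agent.S29.helper8217_KummerClass

/-!
# S29 / TH4-ASM (helper2122), part 2: instances of the interfaces and the pair-form tail

* `anDiv` : the interface `AnDiv N n` of `helper2122_SurjAsm` holds (ANDIV of
  `helper1736_AnDiv`);
* `surjAt_of_pair` : **the universal tail of TH4**, in pair form and without any growth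
  hypothesis: from `a b : AN N` and holomorphic `A`, `B` with `(A / B) ^ n = ev (a / b)` and
  `A / B` of multiplier `χ` we get `SurjAt N n χ`;
* `surjAt`, `surjAt_parabolic` : **TH4 without hypotheses** (relation form), from the three
  landed inputs `helper288.ratioInFC`, `helper3932.descC` and `anDiv`;
* `exists_pair_of_surjAt` : from the relation form to the pair form;
* `exists_root_pair` : **TH4 without hypotheses, pair form** (the `surj` field of the
  multiplier relation): for every `n ≠ 0`, every `n`-th root of unity `ζ` and every parabolic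
  `lam : Γ₀(N) → ℤ` there are `a b : AN N` and holomorphic `A`, `B` with
  `(A / B) ^ n = ev (a / b)`, `A / B` of multiplier `ζ ^ lam`, and `a / b` an `n`-Kummer element.
-/

set_option autoImplicit false

open ModularCurve CongruenceSubgroup UpperHalfPlane
open scoped MatrixGroups Manifold

noncomputable section

namespace Fermat.Agent.S29.helper2122

open Fermat.Agent.S24 Fermat.Agent.S24.helper24 Fermat.Agent.S24.helper580
open Fermat.Agent.S29.helper580

/-- The interface (ANDIV) of `helper2122_SurjAsm` holds. -/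
theorem anDiv (N : ℕ) [NeZero N] (n : ℕ) : AnDiv N n :=
  fun a b ha hb A B hA hB hB0 h1 h2 h3 _ v =>
    Fermat.Agent.S29.helper1736.dvd_ord_of_analytic_root N n a b ha hb A B hA hB hB0 h1 h2 h3 v

/-- **Universal tail of TH4 (pair form).** Let `a b : AN N` be nonzero and let `A`, `B` be
holomorphic functions on the upper half plane, `B ≠ 0`, with `A ^ n * ev b = B ^ n * ev a` and
`A (γ τ) * B τ = χ γ * A τ * B (γ τ)` for `γ ∈ Γ₀(N)`, where `χ` is trivial on the elements of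
trace `±2` and of finite order.  Then `SurjAt N n χ` holds with `u₀ = a / b`. -/
theorem surjAt_of_pair (N : ℕ) [NeZero N] (n : ℕ) {χ : ↥(Gamma0 N) →* ℂˣ}
    (hχtr : ∀ γ : ↥(Gamma0 N),
      ((γ : SL(2, ℤ)) : Matrix (Fin 2) (Fin 2) ℤ).trace ^ 2 = 4 → χ γ = 1)
    (hχfin : ∀ γ : ↥(Gamma0 N), IsOfFinOrder (γ : SL(2, ℤ)) → χ γ = 1)
    (a b : helper3176.AN N) (ha : a ≠ 0) (hb : b ≠ 0) (A B : ℍ → ℂ) (hA : MDiff A) (hB : MDiff B)
    (hB0 : B ≠ 0)
    (hroot : ∀ τ : ℍ, A τ ^ n * helper6180.ev N b τ = B τ ^ n * helper6180.ev N a τ)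
    (hmult : ∀ (γ : ↥(Gamma0 N)) (τ : ℍ),
      A ((γ : SL(2, ℤ)) • τ) * B τ = (χ γ : ℂ) * A τ * B ((γ : SL(2, ℤ)) • τ)) :
    SurjAt N n χ := by
  have hinj : Function.Injective (algebraMap Hol Mer) := IsFractionRing.injective Hol Mer
  have hbF : ((b : FN N)) ≠ 0 := fun h => hb (Subtype.ext h)
  have haF : ((a : FN N)) ≠ 0 := fun h => ha (Subtype.ext h)
  set AH : Hol := ⟨A, hA⟩ with hAH
  set BH : Hol := ⟨B, hB⟩ with hBH
  have hBH0 : BH ≠ 0 := by
    intro h
    apply hB0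
    exact congrArg Subtype.val h
  have hBM : algebraMap Hol Mer BH ≠ 0 := by
    rw [Ne, ← map_zero (algebraMap Hol Mer)]
    exact fun h => hBH0 (hinj h)
  have hEb : algebraMap Hol Mer (evHolBar N b) ≠ 0 := by
    rw [← evC_baseChangeC]
    exact evC_ne_zero N (fun h => hbF (baseChangeC_injective N (by rw [h, map_zero])))
  refine ⟨(a : FN N) / (b : FN N), div_ne_zero haF hbF, ?_,
    algebraMap Hol Mer AH / algebraMap Hol Mer BH, ?_, ?_⟩
  · -- the orders
    intro v
    refine Fermat.Agent.S29.helper1736.dvd_ord_of_analytic_root N n a b ha hb A B hA hB hB0 hroot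
      ?_ ?_ v
    · intro γ hγ hfin τ
      have h1 := hmult ⟨γ, hγ⟩ τ
      rw [hχfin ⟨γ, hγ⟩ hfin, Units.val_one, one_mul] at h1
      exact h1
    · intro g k hγ τ
      have htr : (((g⁻¹ * ModularGroup.T ^ k * g : SL(2, ℤ)) :
          Matrix (Fin 2) (Fin 2) ℤ)).trace ^ 2 = 4 := by
        have := trace_sq_conj_T_zpow g⁻¹ k
        rwa [inv_inv] at this
      have h1 := hmult ⟨_, hγ⟩ τ
      rw [hχtr ⟨_, hγ⟩ htr, Units.val_one, one_mul] at h1
      exact h1
  · -- the root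
    have hHol : AH ^ n * evHolBar N b = BH ^ n * evHolBar N a := by
      refine Hol.ext fun τ => ?_
      exact hroot τ
    have h1 := congrArg (algebraMap Hol Mer) hHol
    rw [map_mul, map_mul, map_pow, map_pow] at h1
    rw [map_div₀, map_div₀, evC_baseChangeC, evC_baseChangeC, div_pow]
    have hBn : algebraMap Hol Mer BH ^ n ≠ 0 := pow_ne_zero n hBM
    rw [div_eq_div_iff hBn hEb, h1, mul_comm]
  · -- the multiplier
    intro γ
    have hHol : pullHol (γ : SL(2, ℤ)) AH * BH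
        = (χ γ : ℂ) • (AH * pullHol (γ : SL(2, ℤ)) BH) := by
      refine Hol.ext fun τ => ?_
      show A ((γ : SL(2, ℤ)) • τ) * B τ = (χ γ : ℂ) * (A τ * B ((γ : SL(2, ℤ)) • τ))
      rw [hmult γ τ, mul_assoc]
    have h1 := congrArg (algebraMap Hol Mer) hHol
    rw [map_mul, Algebra.smul_def, map_mul, map_mul, ← IsScalarTower.algebraMap_apply] at h1
    have hpB : algebraMap Hol Mer (pullHol (γ : SL(2, ℤ)) BH) ≠ 0 := by
      rw [Ne, ← map_zero (algebraMap Hol Mer)]
      intro h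
      have h2 := hinj h
      apply hBH0
      have h3 : pullHol (γ : SL(2, ℤ)) BH = pullHol (γ : SL(2, ℤ)) 0 := by rw [h2, map_zero]
      exact (pullHol (γ : SL(2, ℤ))).injective h3
    rw [map_div₀, pull_algebraMap, pull_algebraMap, div_eq_iff hpB]
    have h2 : algebraMap Hol Mer (pullHol (γ : SL(2, ℤ)) AH)
        = algebraMap ℂ Mer (χ γ : ℂ)
          * (algebraMap Hol Mer AH * algebraMap Hol Mer (pullHol (γ : SL(2, ℤ)) BH))
          / algebraMap Hol Mer BH := by
      rw [eq_div_iff hBM, h1]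
    rw [h2]
    field_simp

/-! ### The statements without hypotheses -/

/-- **TH4, relation form.** For a character `χ` of `Γ₀(N)` of exponent `n`, trivial on the
elements of trace `±2` and on the elements of finite order, `SurjAt N n χ` holds. -/
theorem surjAt (N : ℕ) [NeZero N] {n : ℕ} (hn : 0 < n) (χ : ↥(Gamma0 N) →* ℂˣ)
    (hχn : ∀ γ, χ γ ^ n = 1)
    (hχtr : ∀ γ : ↥(Gamma0 N),
      ((γ : SL(2, ℤ)) : Matrix (Fin 2) (Fin 2) ℤ).trace ^ 2 = 4 → χ γ = 1)
    (hχfin : ∀ γ : ↥(Gamma0 N), IsOfFinOrder (γ : SL(2, ℤ)) → χ γ = 1) :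
    SurjAt N n χ :=
  surjAt_of (Fermat.Agent.S29.helper288.ratioInFC N) (Fermat.Agent.S29.helper3932.descC N n)
    (anDiv N n) hn χ hχn hχtr hχfin

/-- **TH4, relation form, for the character `ζ ^ lam` of a parabolic homomorphism.** -/
theorem surjAt_parabolic (N : ℕ) [NeZero N] {n : ℕ} (hn : 0 < n) (ζ : ℂˣ) (hζ : ζ ^ n = 1)
    (lam : Additive ↥(Gamma0 N) →+ ℤ) (hlam : lam ∈ Period.parabolicHoms ℤ (Gamma0 N) ℤ) :
    SurjAt N n (chiOf N ζ lam) :=
  surjAt_chiOf (Fermat.Agent.S29.helper288.ratioInFC N) (Fermat.Agent.S29.helper3932.descC N n)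
    (anDiv N n) hn ζ hζ lam hlam

/-- **From the relation form to the pair form.** -/
theorem exists_pair_of_surjAt (N : ℕ) [NeZero N] {n : ℕ} {χ : ↥(Gamma0 N) →* ℂˣ}
    (h : SurjAt N n χ) :
    ∃ (a b : helper3176.AN N) (A B : ℍ → ℂ), a ≠ 0 ∧ b ≠ 0 ∧ MDiff A ∧ MDiff B ∧ B ≠ 0 ∧
      (∀ τ : ℍ, A τ ^ n * helper6180.ev N b τ = B τ ^ n * helper6180.ev N a τ) ∧
      (∀ (γ : ↥(Gamma0 N)) (τ : ℍ),
        A ((γ : SL(2, ℤ)) • τ) * B τ = (χ γ : ℂ) * A τ * B ((γ : SL(2, ℤ)) • τ)) ∧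
      Fermat.Agent.S29.helper8217.IsKummer Kbar n ((a : FN N) / (b : FN N)) := by
  have hinj : Function.Injective (algebraMap Hol Mer) := IsFractionRing.injective Hol Mer
  obtain ⟨u₀, hu₀, hord, W, hpow, hmul⟩ := h
  obtain ⟨a, b, hbF, hu⟩ := helper3176.exists_div_AN N u₀
  have hb : b ≠ 0 := by
    rintro rfl
    exact hbF rfl
  have ha : a ≠ 0 := by
    rintro rfl
    apply hu₀
    rw [hu]
    simp
  obtain ⟨AH, BH, hBH, hW⟩ := IsFractionRing.div_surjective (A := Hol) W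
  have hBH0 : BH ≠ 0 := nonZeroDivisors.ne_zero hBH
  have hBM : algebraMap Hol Mer BH ≠ 0 := by
    rw [Ne, ← map_zero (algebraMap Hol Mer)]
    exact fun h => hBH0 (hinj h)
  have hEb : algebraMap Hol Mer (evHolBar N b) ≠ 0 := by
    rw [← evC_baseChangeC]
    exact evC_ne_zero N (fun h => hbF (baseChangeC_injective N (by rw [h, map_zero])))
  -- the root identity in `Hol`
  have hroot : AH ^ n * evHolBar N b = BH ^ n * evHolBar N a := by
    apply hinj
    rw [map_mul, map_mul, map_pow, map_pow]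
    have h1 := hpow
    rw [← hW, hu, map_div₀, map_div₀, evC_baseChangeC, evC_baseChangeC, div_pow,
      div_eq_div_iff (pow_ne_zero n hBM) hEb] at h1
    rw [h1, mul_comm]
  -- the multiplier identity in `Hol`
  have hmultH : ∀ γ : ↥(Gamma0 N), pullHol (γ : SL(2, ℤ)) AH * BH
      = (χ γ : ℂ) • (AH * pullHol (γ : SL(2, ℤ)) BH) := by
    intro γ
    apply hinj
    have hpB : algebraMap Hol Mer (pullHol (γ : SL(2, ℤ)) BH) ≠ 0 := by
      rw [Ne, ← map_zero (algebraMap Hol Mer)]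
      intro h
      have h2 := hinj h
      apply hBH0
      have h3 : pullHol (γ : SL(2, ℤ)) BH = pullHol (γ : SL(2, ℤ)) 0 := by rw [h2, map_zero]
      exact (pullHol (γ : SL(2, ℤ))).injective h3
    have h1 := hmul γ
    rw [← hW, map_div₀, pull_algebraMap, pull_algebraMap, div_eq_iff hpB] at h1
    rw [map_mul, Algebra.smul_def, map_mul, map_mul, ← IsScalarTower.algebraMap_apply, h1]
    field_simp
  refine ⟨a, b, (AH : ℍ → ℂ), (BH : ℍ → ℂ), ha, hb, AH.2, BH.2, ?_, ?_, ?_, ?_⟩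
  · intro h
    exact hBH0 (Subtype.ext h)
  · intro τ
    exact congrArg (fun f : Hol => (f : ℍ → ℂ) τ) hroot
  · intro γ τ
    have h1 := congrArg (fun f : Hol => (f : ℍ → ℂ) τ) (hmultH γ)
    have h2 : (AH : ℍ → ℂ) ((γ : SL(2, ℤ)) • τ) * (BH : ℍ → ℂ) τ
        = (χ γ : ℂ) * ((AH : ℍ → ℂ) τ * (BH : ℍ → ℂ) ((γ : SL(2, ℤ)) • τ)) := h1
    rw [h2, mul_assoc]
  · rw [← hu]
    exact ⟨hu₀, hord⟩

/-- **TH4 without hypotheses, pair form** (the `surj` field of the multiplier relation).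
For every `n ≠ 0`, every `n`-th root of unity `ζ` and every parabolic homomorphism
`lam : Γ₀(N) → ℤ` there are `a b : AN N` and holomorphic functions `A`, `B` on the upper half
plane with `(A / B) ^ n = ev (a / b)`, with `A / B` of multiplier `γ ↦ ζ ^ lam γ`, and with
`a / b` an `n`-Kummer element of the function field of `X₀(N)` over `ℚ̄`. -/
theorem exists_root_pair (N : ℕ) [NeZero N] {n : ℕ} (hn : n ≠ 0) (ζ : ℂˣ) (hζ : ζ ^ n = 1)
    (lam : Additive ↥(Gamma0 N) →+ ℤ) (hlam : lam ∈ Period.parabolicHoms ℤ (Gamma0 N) ℤ) :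
    ∃ (a b : helper3176.AN N) (A B : ℍ → ℂ), a ≠ 0 ∧ b ≠ 0 ∧ MDiff A ∧ MDiff B ∧ B ≠ 0 ∧
      (∀ τ : ℍ, A τ ^ n * helper6180.ev N b τ = B τ ^ n * helper6180.ev N a τ) ∧
      (∀ (γ : ↥(Gamma0 N)) (τ : ℍ),
        A ((γ : SL(2, ℤ)) • τ) * B τ
          = ((ζ ^ lam (Additive.ofMul γ) : ℂˣ) : ℂ) * A τ * B ((γ : SL(2, ℤ)) • τ)) ∧
      Fermat.Agent.S29.helper8217.IsKummer Kbar n ((a : FN N) / (b : FN N)) :=
  exists_pair_of_surjAt N (surjAt_parabolic N (Nat.pos_of_ne_zero hn) ζ hζ lam hlam)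

end Fermat.Agent.S29.helper2122
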