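import Mathlib
import Fermat.Agent.S29.helper141_LinearZeta

set_option autoImplicit false

open NumberField Ideal
open scoped Pointwise

namespace Fermat.Agent.S29.helper2247

section Abstract

variable {A B C : Type*} [CommRing A] [CommRing B] [CommRing C]
  [Algebra A B] [Algebra B C] [Algebra A C] [IsScalarTower A B C]
  {G : Type*} [Group G] [Finite G] [MulSemiringAction G C] [IsGaloisGroup G A C]

/-- With trivial inertia, the decomposition group has `f` elements. -/
theorem card_stabilizer_of_inertia_eq_bot (p : Ideal A) [p.IsPrime] [PerfectField p.ResidueField]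
    (P : Ideal C) [P.IsPrime] [P.LiesOver p] (hI : P.inertia G = ⊥) :
    Nat.card (MulAction.stabilizer G P) = P.inertiaDeg A := by
  rw [Ideal.card_stabilizer_eq_card_inertia_mul_finrank p P, hI]
  simp

theorem stabilizer_subgroup_eq (H : Subgroup G) (P : Ideal C) :
    MulAction.stabilizer H P = (MulAction.stabilizer G P).subgroupOf H := by
  simp [Subgroup.ext_iff, Subgroup.mem_subgroupOf]

theorem card_subgroupOf_eq_iff_le (S H : Subgroup G) :
    Nat.card (S.subgroupOf H) = Nat.card S ↔ S ≤ H := by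
  have h1 : Nat.card (S.subgroupOf H) = Nat.card (S ⊓ H : Subgroup G) := by
    rw [← Subgroup.inf_subgroupOf_right]
    exact Nat.card_congr (Subgroup.subgroupOfEquivOfLe inf_le_right).toEquiv
  rw [h1]
  constructor
  · intro h
    have := Subgroup.eq_of_le_of_card_ge (inf_le_left : S ⊓ H ≤ S) h.ge
    exact inf_eq_left.mp this
  · intro h
    rw [inf_eq_left.mpr h]

/-- Key equivalence: with trivial inertia, the prime below `P` in the fixed ring of `H` has
residue degree one iff the decomposition group of `P` is contained in `H`. -/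
theorem inertiaDeg_eq_one_iff (H : Subgroup G) [IsGaloisGroup H B C]
    [Module.Finite B C]
    (p : Ideal A) [p.IsPrime] [PerfectField p.ResidueField]
    (Q : Ideal B) [Q.IsPrime] [Q.LiesOver p] [PerfectField Q.ResidueField]
    (P : Ideal C) [P.IsPrime] [P.LiesOver Q] [P.LiesOver p]
    (hI : P.inertia G = ⊥) :
    Q.inertiaDeg A = 1 ↔ MulAction.stabilizer G P ≤ H := by
  have hG : Nat.card (MulAction.stabilizer G P) = P.inertiaDeg A :=
    card_stabilizer_of_inertia_eq_bot p P hI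
  have hIH : P.inertia H = ⊥ := by
    rw [Subgroup.eq_bot_iff_forall]
    intro h hh
    have h1 : (h : G) ∈ P.inertia G := fun x => hh x
    rw [hI, Subgroup.mem_bot] at h1
    exact Subtype.ext h1
  have hH : Nat.card (MulAction.stabilizer H P) = P.inertiaDeg B :=
    card_stabilizer_of_inertia_eq_bot Q P hIH
  rw [stabilizer_subgroup_eq] at hH
  have htower : P.inertiaDeg A = Q.inertiaDeg A * P.inertiaDeg B :=
    Ideal.inertiaDeg_tower Q P
  have hpos : 0 < P.inertiaDeg B := Ideal.inertiaDeg_pos P B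
  rw [← card_subgroupOf_eq_iff_le, hH, hG, htower]
  constructor
  · intro h
    rw [h, one_mul]
  · intro h
    exact Nat.eq_of_mul_eq_mul_right hpos (by rw [one_mul]; exact h.symm)

/-- Fibre count: the primes of `C` above a prime `Q` of the fixed ring of `H` form one
`H`-orbit. -/
theorem card_primesOver_mul_card_stabilizer (H : Subgroup G) [IsGaloisGroup H B C]
    (Q : Ideal B) (P : Ideal C) [P.IsPrime] [P.LiesOver Q] :
    Nat.card (Q.primesOver C) * Nat.card (MulAction.stabilizer H P) = Nat.card H := by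
  rw [← Algebra.IsInvariant.orbit_eq_primesOver B C H Q P, ← Nat.card_prod]
  exact Nat.card_congr (MulAction.orbitProdStabilizerEquivGroup H P)

/-- The counting identity. -/
theorem card_stabilizer_le_mul (H : Subgroup G) [IsGaloisGroup H B C]
    [Module.Finite B C] [FaithfulSMul B C]
    (p : Ideal A) [p.IsPrime] [PerfectField p.ResidueField]
    [Finite (p.primesOver B)]
    (hperf : ∀ (Q : Ideal B) [Q.IsPrime] [Q.LiesOver p], PerfectField Q.ResidueField)
    (f : ℕ) (hf : ∀ P ∈ p.primesOver C, P.inertiaDeg A = f)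
    (hI : ∀ P ∈ p.primesOver C, P.inertia G = ⊥) :
    Nat.card {P : Ideal C // P ∈ p.primesOver C ∧ MulAction.stabilizer G P ≤ H} * f =
      Nat.card {Q : Ideal B // Q ∈ p.primesOver B ∧ Q.inertiaDeg A = 1} * Nat.card H := by
  classical
  set X' := {P : Ideal C // P ∈ p.primesOver C ∧ MulAction.stabilizer G P ≤ H} with hX'
  set Y := {Q : Ideal B // Q ∈ p.primesOver B ∧ Q.inertiaDeg A = 1} with hY
  have hYfin : Finite Y := by
    have : Finite {Q : Ideal B // Q ∈ p.primesOver B} := ‹Finite (p.primesOver B)›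
    exact Finite.of_injective (fun y : Y => (⟨y.1, y.2.1⟩ : {Q : Ideal B // Q ∈ p.primesOver B}))
      (fun a b h => Subtype.ext (by simpa using congrArg Subtype.val h))
  have : Fintype Y := Fintype.ofFinite Y
  -- the map `P ↦ P ∩ B`
  have hφ : ∀ x : X', (x.1.under B) ∈ p.primesOver B ∧ (x.1.under B).inertiaDeg A = 1 := by
    intro x
    obtain ⟨P, ⟨hPprime, hPp⟩, hstab⟩ := x
    have := hPprime
    have := hPp
    have : (P.under B).LiesOver p := Ideal.LiesOver.tower_bot P (P.under B) p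
    have := hperf (P.under B)
    exact ⟨⟨inferInstance, inferInstance⟩,
      (inertiaDeg_eq_one_iff H p (P.under B) P (hI P ⟨hPprime, hPp⟩)).mpr hstab⟩
  let φ : X' → Y := fun x => ⟨x.1.under B, hφ x⟩
  have hfib : ∀ y : Y, Nat.card {x : X' // φ x = y} * f = Nat.card H := by
    intro y
    obtain ⟨Q, ⟨hQprime, hQp⟩, hQdeg⟩ := y
    have := hQprime
    have := hQp
    have := hperf Q
    -- the fibre is the set of primes above `Q`
    have e : {x : X' // φ x = ⟨Q, ⟨hQprime, hQp⟩, hQdeg⟩} ≃ Q.primesOver C :=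
      { toFun := fun x => ⟨x.1.1, x.1.2.1.1, ⟨by
          have := congrArg Subtype.val x.2
          exact this.symm⟩⟩
        invFun := fun P => by
          have := P.2.1
          have := P.2.2
          have : P.1.LiesOver p := Ideal.LiesOver.trans P.1 Q p
          have hPmem : P.1 ∈ p.primesOver C := ⟨inferInstance, inferInstance⟩
          exact ⟨⟨P.1, hPmem, (inertiaDeg_eq_one_iff H p Q P.1 (hI P.1 hPmem)).mp hQdeg⟩,
            Subtype.ext (Ideal.over_def P.1 Q).symm⟩
        left_inv := fun x => rfl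
        right_inv := fun P => rfl }
    rw [Nat.card_congr e]
    obtain ⟨⟨P, hPprime, hPQ⟩⟩ : Nonempty (Q.primesOver C) := inferInstance
    have := hPprime
    have := hPQ
    have : P.LiesOver p := Ideal.LiesOver.trans P Q p
    have hPmem : P ∈ p.primesOver C := ⟨inferInstance, inferInstance⟩
    have hIH : P.inertia H = ⊥ := by
      rw [Subgroup.eq_bot_iff_forall]
      intro h hh
      have h1 : (h : G) ∈ P.inertia G := fun x => hh x
      rw [hI P hPmem, Subgroup.mem_bot] at h1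
      exact Subtype.ext h1
    have hH : Nat.card (MulAction.stabilizer H P) = P.inertiaDeg B :=
      card_stabilizer_of_inertia_eq_bot Q P hIH
    have htower : P.inertiaDeg A = Q.inertiaDeg A * P.inertiaDeg B :=
      Ideal.inertiaDeg_tower Q P
    rw [hQdeg, one_mul, hf P hPmem] at htower
    rw [htower, ← hH]
    exact card_primesOver_mul_card_stabilizer H Q P
  calc Nat.card X' * f = Nat.card (Σ y : Y, {x : X' // φ x = y}) * f := by
        rw [Nat.card_congr (Equiv.sigmaFiberEquiv φ)]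
    _ = (∑ y : Y, Nat.card {x : X' // φ x = y}) * f := by
        have : ∀ y : Y, Finite {x : X' // φ x = y} := by
          intro y
          apply Nat.finite_of_card_ne_zero
          intro h0
          have := hfib y
          rw [h0, zero_mul] at this
          exact (Nat.card_pos (α := H)).ne' this.symm
        rw [Nat.card_sigma]
    _ = ∑ y : Y, Nat.card H := by
        rw [Finset.sum_mul]
        exact Finset.sum_congr rfl (fun y _ => hfib y)
    _ = Nat.card Y * Nat.card H := by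
        rw [Finset.sum_const, Finset.card_univ, smul_eq_mul, Nat.card_eq_fintype_card (α := Y)]

end Abstract

section GroupLemmas

variable {G : Type*} [Group G] [Finite G]

theorem le_zpowers_pow_iff (g : G) (S : Subgroup G) (hS : S ≤ Subgroup.zpowers g) {d : ℕ}
    (hd : d ∣ orderOf g) :
    S ≤ Subgroup.zpowers (g ^ d) ↔ Nat.card S ∣ orderOf g / d := by
  have hm : 0 < orderOf g := orderOf_pos g
  have hd0 : d ≠ 0 := by
    rintro rfl
    rw [zero_dvd_iff] at hd
    omega
  constructor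
  · intro h
    have := Subgroup.card_dvd_of_le h
    rwa [Nat.card_zpowers, orderOf_pow_of_dvd hd0 hd] at this
  · intro h x hx
    obtain ⟨j, rfl⟩ : ∃ j : ℕ, g ^ j = x := by
      have := hS hx
      rw [← mem_powers_iff_mem_zpowers] at this
      exact this
    have h1 : (g ^ j) ^ Nat.card S = 1 := by
      have := pow_card_eq_one' (G := S) (x := ⟨g ^ j, hx⟩)
      exact congrArg Subtype.val this
    rw [← pow_mul, ← orderOf_dvd_iff_pow_eq_one] at h1
    obtain ⟨t, ht⟩ := h
    have hmd : orderOf g = d * (Nat.card S * t) := by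
      rw [← ht, Nat.mul_div_cancel' hd]
    have hn : 0 < Nat.card S := Nat.card_pos
    have h2 : d ∣ j := by
      have h3 : Nat.card S * (d * t) ∣ Nat.card S * j := by
        rw [hmd] at h1
        have : d * (Nat.card S * t) = Nat.card S * (d * t) := by ring
        rw [this, mul_comm j] at h1
        exact h1
      have h4 := (Nat.mul_dvd_mul_iff_left hn).mp h3
      exact (Dvd.intro _ rfl).trans h4
    obtain ⟨c, rfl⟩ := h2
    rw [pow_mul]
    exact Subgroup.pow_mem _ (Subgroup.mem_zpowers _) _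

theorem sum_moebius_le_zpowers (g : G) (S : Subgroup G) [DecidablePred fun d : ℕ => S ≤ Subgroup.zpowers (g ^ d)]
    [Decidable (S = Subgroup.zpowers g)] :
    ∑ d ∈ (orderOf g).divisors,
        (ArithmeticFunction.moebius d : ℤ) * (if S ≤ Subgroup.zpowers (g ^ d) then 1 else 0) =
      if S = Subgroup.zpowers g then 1 else 0 := by
  have hm : 0 < orderOf g := orderOf_pos g
  by_cases hS : S ≤ Subgroup.zpowers g
  · have hn : 0 < Nat.card S := Nat.card_pos
    have hnm : Nat.card S ∣ orderOf g := by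
      have := Subgroup.card_dvd_of_le hS
      rwa [Nat.card_zpowers] at this
    set k := orderOf g / Nat.card S with hk
    have hkm : k ∣ orderOf g := Nat.div_dvd_of_dvd hnm
    have h1 : ∀ d ∈ (orderOf g).divisors,
        (ArithmeticFunction.moebius d : ℤ) * (if S ≤ Subgroup.zpowers (g ^ d) then 1 else 0) =
          if d ∣ k then (ArithmeticFunction.moebius d : ℤ) else 0 := by
      intro d hd
      have hdm : d ∣ orderOf g := Nat.dvd_of_mem_divisors hd
      have : S ≤ Subgroup.zpowers (g ^ d) ↔ d ∣ k := by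
        rw [le_zpowers_pow_iff g S hS hdm, hk, Nat.dvd_div_iff_mul_dvd hdm,
          Nat.dvd_div_iff_mul_dvd hnm, mul_comm]
      simp only [this]
      split_ifs <;> simp
    rw [Finset.sum_congr rfl h1, ← Finset.sum_filter, Nat.divisors_filter_dvd_of_dvd hm.ne' hkm]
    have h2 : ∑ d ∈ k.divisors, (ArithmeticFunction.moebius d : ℤ) =
        (1 : ArithmeticFunction ℤ) k := by
      rw [← ArithmeticFunction.moebius_mul_coe_zeta, ArithmeticFunction.coe_mul_zeta_apply]
    rw [h2, ArithmeticFunction.one_apply]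
    have h3 : k = 1 ↔ S = Subgroup.zpowers g := by
      constructor
      · intro h
        apply Subgroup.eq_of_le_of_card_ge hS
        rw [Nat.card_zpowers]
        have : orderOf g = Nat.card S * k := (Nat.mul_div_cancel' hnm).symm
        rw [this, h, mul_one]
      · intro h
        rw [hk]
        have : Nat.card S = orderOf g := by rw [h, Nat.card_zpowers]
        rw [this, Nat.div_self hm]
    simp only [h3]
  · have h1 : ∀ d ∈ (orderOf g).divisors,
        (ArithmeticFunction.moebius d : ℤ) * (if S ≤ Subgroup.zpowers (g ^ d) then 1 else 0) = 0 := by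
      intro d _
      have : ¬ S ≤ Subgroup.zpowers (g ^ d) := fun h =>
        hS (h.trans (Subgroup.zpowers_le.mpr (Subgroup.pow_mem _ (Subgroup.mem_zpowers g) d)))
      simp [this]
    rw [Finset.sum_eq_zero h1]
    have : S ≠ Subgroup.zpowers g := fun h => hS h.le
    simp [this]

theorem sum_moebius_mul_div (m : ℕ) (hm : 0 < m) :
    ∑ d ∈ m.divisors, (ArithmeticFunction.moebius d : ℤ) * ((m / d : ℕ) : ℤ) = (m.totient : ℤ) := by
  have h := (ArithmeticFunction.sum_eq_iff_sum_mul_moebius_eq (R := ℤ)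
    (f := fun n => (n.totient : ℤ)) (g := fun n => (n : ℤ))).mp
    (fun n _ => by
      have := Nat.sum_totient n
      exact_mod_cast this) m hm
  rw [← h]
  exact (Nat.sum_divisorsAntidiagonal
    (fun x y => (ArithmeticFunction.moebius x : ℤ) * (y : ℤ)) (n := m)).symm

end GroupLemmas

section NumberFieldPart

variable (K : Type) [Field K] [NumberField K]

/-- Ideals of prime norm `ℓ` are exactly the degree-one primes above `ℓ`. -/
theorem absNorm_eq_prime_iff {ℓ : ℕ} (hℓ : ℓ.Prime) (I : Ideal (𝓞 K)) :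
    Ideal.absNorm I = ℓ ↔
      I ∈ (span {(ℓ : ℤ)}).primesOver (𝓞 K) ∧ I.inertiaDeg ℤ = 1 := by
  constructor
  · intro h
    have hprime : I.IsPrime :=
      Ideal.isPrime_of_irreducible_absNorm (by rw [h]; exact hℓ)
    have hover : I.LiesOver (span {(ℓ : ℤ)}) := by
      constructor
      have := Ideal.span_singleton_absNorm (I := I) (by rw [h]; exact hℓ)
      rw [h] at this
      exact this
    refine ⟨⟨hprime, hover⟩, ?_⟩
    have h1 := Ideal.pow_inertiaDeg ℓ I
    rw [h] at h1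
    exact Nat.pow_right_injective hℓ.two_le (by simpa using h1)
  · rintro ⟨⟨hprime, hover⟩, hdeg⟩
    have h1 := Ideal.pow_inertiaDeg ℓ I
    rw [hdeg, pow_one] at h1
    exact h1.symm

theorem normCount_eq_card_degOne {ℓ : ℕ} (hℓ : ℓ.Prime) :
    helper141.normCount K ℓ =
      Nat.card {Q : Ideal (𝓞 K) // Q ∈ (span {(ℓ : ℤ)}).primesOver (𝓞 K) ∧ Q.inertiaDeg ℤ = 1} :=
  Nat.card_congr (Equiv.subtypeEquivRight (absNorm_eq_prime_iff K hℓ))

variable [IsGalois ℚ K]

theorem isGaloisGroup_subgroup_ringOfIntegers (H : Subgroup (K ≃ₐ[ℚ] K)) :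
    IsGaloisGroup H (𝓞 (FixedPoints.intermediateField H : IntermediateField ℚ K)) (𝓞 K) :=
  IsGaloisGroup.of_isFractionRing H
    (𝓞 (FixedPoints.intermediateField H : IntermediateField ℚ K)) (𝓞 K)
    (FixedPoints.intermediateField H : IntermediateField ℚ K) K

/-- The counting identity for the fixed field of `H`, at a prime with trivial inertia. -/
theorem card_stabilizer_le_mul_inertiaDegIn (H : Subgroup (K ≃ₐ[ℚ] K)) {ℓ : ℕ} (hℓ : ℓ.Prime)
    (hI : ∀ P ∈ (span {(ℓ : ℤ)}).primesOver (𝓞 K), P.inertia (K ≃ₐ[ℚ] K) = ⊥) :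
    Nat.card {P : Ideal (𝓞 K) // P ∈ (span {(ℓ : ℤ)}).primesOver (𝓞 K) ∧
        MulAction.stabilizer (K ≃ₐ[ℚ] K) P ≤ H} * (span {(ℓ : ℤ)}).inertiaDegIn (𝓞 K) =
      helper141.normCount (FixedPoints.intermediateField H : IntermediateField ℚ K) ℓ *
        Nat.card H := by
  have : Fact ℓ.Prime := ⟨hℓ⟩
  have := isGaloisGroup_subgroup_ringOfIntegers K H
  rw [normCount_eq_card_degOne _ hℓ]
  refine card_stabilizer_le_mul (A := ℤ)
    (B := 𝓞 (FixedPoints.intermediateField H : IntermediateField ℚ K)) (C := 𝓞 K)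
    (G := K ≃ₐ[ℚ] K) H (span {(ℓ : ℤ)}) (fun Q _ _ => inferInstance) _ ?_ hI
  intro P hP
  have := hP.1
  have := hP.2
  exact (Ideal.inertiaDegIn_eq_inertiaDeg (span {(ℓ : ℤ)}) P (K ≃ₐ[ℚ] K)).symm

/-- Outside a finite set of primes all inertia groups are trivial. -/
theorem exists_finset_inertia_eq_bot :
    ∃ R : Finset ℕ, ∀ ℓ : ℕ, ℓ.Prime → ℓ ∉ R →
      ∀ P ∈ (span {(ℓ : ℤ)}).primesOver (𝓞 K), P.inertia (K ≃ₐ[ℚ] K) = ⊥ := by
  classical
  have hex : ∀ σ : K ≃ₐ[ℚ] K, ∃ x : 𝓞 K, σ ≠ 1 → σ • x ≠ x := by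
    intro σ
    by_cases h : σ = 1
    · exact ⟨0, fun h' => (h' h).elim⟩
    · by_contra hcon
      push Not at hcon
      apply h
      have hfaith : FaithfulSMul (K ≃ₐ[ℚ] K) (𝓞 K) := IsGaloisGroup.faithful ℤ
      apply hfaith.eq_of_smul_eq_smul
      intro x
      rw [one_smul]
      exact (hcon x).2
  choose x hx using hex
  have : Fintype (K ≃ₐ[ℚ] K) := Fintype.ofFinite _
  refine ⟨Finset.univ.biUnion
    (fun σ => (Algebra.norm ℤ (σ • x σ - x σ)).natAbs.primeFactors), ?_⟩
  intro ℓ hℓ hR P hP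
  have := hP.1
  have := hP.2
  rw [Subgroup.eq_bot_iff_forall]
  intro σ hσ
  by_contra hne
  apply hR
  rw [Finset.mem_biUnion]
  refine ⟨σ, Finset.mem_univ _, ?_⟩
  have ha : σ • x σ - x σ ≠ 0 := sub_ne_zero.mpr (hx σ hne)
  have hmem : σ • x σ - x σ ∈ P := hσ (x σ)
  have hnorm : Algebra.norm ℤ (σ • x σ - x σ) ≠ 0 := Algebra.norm_ne_zero_iff.mpr ha
  rw [Nat.mem_primeFactors]
  refine ⟨hℓ, ?_, Int.natAbs_ne_zero.mpr hnorm⟩
  have h1 : (Ideal.absNorm P : ℤ) ∣ Algebra.norm ℤ (σ • x σ - x σ) :=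
    Ideal.absNorm_dvd_norm_of_mem hmem
  have h2 : ℓ ∣ Ideal.absNorm P := by
    rw [← Ideal.pow_inertiaDeg ℓ P]
    exact dvd_pow_self _ (Ideal.inertiaDeg_pos P ℤ).ne'
  exact Int.natCast_dvd.mp ((Int.natCast_dvd_natCast.mpr h2).trans h1)

/-- Generator-Chebotarev, decomposition-group form: for every element `g` of the Galois group of
a finite Galois extension `K/ℚ` and every finite set `T` of primes there is a prime `ℓ ∉ T` and a
prime `P` of `K` above `ℓ`, with trivial inertia, whose decomposition group is exactly `⟨g⟩`. -/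
theorem exists_prime_stabilizer_eq_zpowers (g : K ≃ₐ[ℚ] K) (T : Finset ℕ) :
    ∃ (ℓ : ℕ) (P : Ideal (𝓞 K)), ℓ.Prime ∧ ℓ ∉ T ∧ P ∈ (span {(ℓ : ℤ)}).primesOver (𝓞 K) ∧
      P.inertia (K ≃ₐ[ℚ] K) = ⊥ ∧
      MulAction.stabilizer (K ≃ₐ[ℚ] K) P = Subgroup.zpowers g := by
  classical
  obtain ⟨R, hR⟩ := exists_finset_inertia_eq_bot K
  set m := orderOf g with hm
  have hm0 : 0 < m := orderOf_pos g
  have hc : 0 < ∑ d : {d : ℕ // d ∈ m.divisors},
      (ArithmeticFunction.moebius d.1 : ℤ) * ((m / d.1 : ℕ) : ℤ) := by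
    rw [Finset.sum_coe_sort m.divisors
      (fun d => (ArithmeticFunction.moebius d : ℤ) * ((m / d : ℕ) : ℤ)),
      sum_moebius_mul_div m hm0]
    exact_mod_cast Nat.totient_pos.mpr hm0
  obtain ⟨ℓ, hℓ, hℓT, hpos⟩ := helper141.exists_prime_linear_form_pos
    (fun d : {d : ℕ // d ∈ m.divisors} =>
      ↥(FixedPoints.intermediateField (Subgroup.zpowers (g ^ d.1)) : IntermediateField ℚ K))
    (fun d => (ArithmeticFunction.moebius d.1 : ℤ) * ((m / d.1 : ℕ) : ℤ)) hc (T ∪ R)
  have hℓT' : ℓ ∉ T := fun h => hℓT (Finset.mem_union_left _ h)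
  have hℓR : ℓ ∉ R := fun h => hℓT (Finset.mem_union_right _ h)
  have hI := hR ℓ hℓ hℓR
  refine ⟨ℓ, ?_⟩
  by_contra hcon
  push Not at hcon
  have hne : ∀ P ∈ (span {(ℓ : ℤ)}).primesOver (𝓞 K),
      MulAction.stabilizer (K ≃ₐ[ℚ] K) P ≠ Subgroup.zpowers g :=
    fun P hP => hcon P hℓ hℓT' hP (hI P hP)
  have : Fact ℓ.Prime := ⟨hℓ⟩
  have hfin : ((span {(ℓ : ℤ)}).primesOver (𝓞 K)).Finite :=
    Set.toFinite _
  set Xf : Finset (Ideal (𝓞 K)) := hfin.toFinset with hXf
  set f := (span {(ℓ : ℤ)}).inertiaDegIn (𝓞 K) with hf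
  have hN : ∀ d : {d : ℕ // d ∈ m.divisors},
      (helper141.normCount (FixedPoints.intermediateField (Subgroup.zpowers (g ^ d.1)) :
          IntermediateField ℚ K) ℓ : ℤ) * ((m / d.1 : ℕ) : ℤ) =
        ((Xf.filter (fun P => MulAction.stabilizer (K ≃ₐ[ℚ] K) P ≤
          Subgroup.zpowers (g ^ d.1))).card : ℤ) * (f : ℤ) := by
    intro d
    have h1 := card_stabilizer_le_mul_inertiaDegIn K (Subgroup.zpowers (g ^ d.1)) hℓ hI
    have hd : d.1 ∣ m := Nat.dvd_of_mem_divisors d.2
    have hd0 : d.1 ≠ 0 := by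
      intro h0
      rw [h0, zero_dvd_iff] at hd
      omega
    have h2 : Nat.card (Subgroup.zpowers (g ^ d.1)) = m / d.1 := by
      rw [Nat.card_zpowers, orderOf_pow_of_dvd hd0 hd]
    have h3 : Nat.card {P : Ideal (𝓞 K) // P ∈ (span {(ℓ : ℤ)}).primesOver (𝓞 K) ∧
        MulAction.stabilizer (K ≃ₐ[ℚ] K) P ≤ Subgroup.zpowers (g ^ d.1)} =
        (Xf.filter (fun P => MulAction.stabilizer (K ≃ₐ[ℚ] K) P ≤
          Subgroup.zpowers (g ^ d.1))).card := by
      rw [← Nat.card_eq_finsetCard]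
      exact Nat.card_congr (Equiv.subtypeEquivRight (fun P => by
        rw [Finset.mem_filter, hXf, Set.Finite.mem_toFinset]))
    rw [h2, h3] at h1
    exact_mod_cast h1.symm
  have hzero : ∑ d : {d : ℕ // d ∈ m.divisors},
      ((ArithmeticFunction.moebius d.1 : ℤ) * ((m / d.1 : ℕ) : ℤ)) *
        (helper141.normCount (FixedPoints.intermediateField (Subgroup.zpowers (g ^ d.1)) :
          IntermediateField ℚ K) ℓ : ℤ) = 0 := by
    have h1 : ∀ d : {d : ℕ // d ∈ m.divisors},
        ((ArithmeticFunction.moebius d.1 : ℤ) * ((m / d.1 : ℕ) : ℤ)) *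
          (helper141.normCount (FixedPoints.intermediateField (Subgroup.zpowers (g ^ d.1)) :
            IntermediateField ℚ K) ℓ : ℤ) =
        (f : ℤ) * ∑ P ∈ Xf, (ArithmeticFunction.moebius d.1 : ℤ) *
          (if MulAction.stabilizer (K ≃ₐ[ℚ] K) P ≤ Subgroup.zpowers (g ^ d.1) then 1 else 0) := by
      intro d
      rw [mul_assoc, mul_comm ((m / d.1 : ℕ) : ℤ), hN d, Finset.card_filter, ← Finset.mul_sum]
      push_cast
      ring
    rw [Finset.sum_congr rfl (fun d _ => h1 d), ← Finset.mul_sum,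
      Finset.sum_coe_sort m.divisors (fun d => ∑ P ∈ Xf, (ArithmeticFunction.moebius d : ℤ) *
        (if MulAction.stabilizer (K ≃ₐ[ℚ] K) P ≤ Subgroup.zpowers (g ^ d) then 1 else 0)),
      Finset.sum_comm, Finset.sum_eq_zero, mul_zero]
    intro P hP
    rw [sum_moebius_le_zpowers g (MulAction.stabilizer (K ≃ₐ[ℚ] K) P),
      if_neg (hne P (hfin.mem_toFinset.mp hP))]
  rw [hzero] at hpos
  exact lt_irrefl _ hpos

open Polynomial in
/-- With trivial inertia, any Frobenius element at `P` generates the decomposition group. -/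
theorem zpowers_eq_stabilizer_of_frobenius {ℓ : ℕ} (hℓ : ℓ.Prime) (P : Ideal (𝓞 K))
    (hP : P ∈ (span {(ℓ : ℤ)}).primesOver (𝓞 K)) (hI : P.inertia (K ≃ₐ[ℚ] K) = ⊥)
    (τ : K ≃ₐ[ℚ] K) (hτ : ∀ x : 𝓞 K, τ • x - x ^ ℓ ∈ P) :
    Subgroup.zpowers τ = MulAction.stabilizer (K ≃ₐ[ℚ] K) P := by
  have := hP.1
  have := hP.2
  have : Fact ℓ.Prime := ⟨hℓ⟩
  have hτP : τ • P = P := by
    apply smul_eq_of_smul_le
    rw [Ideal.pointwise_smul_subset_iff]
    intro x hx
    rw [Ideal.mem_inv_pointwise_smul_iff]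
    have e : τ • x = (τ • x - x ^ ℓ) + x ^ ℓ := by ring
    rw [e]
    exact P.add_mem (hτ x) (P.pow_mem_of_mem hx ℓ hℓ.pos)
  have hle : Subgroup.zpowers τ ≤ MulAction.stabilizer (K ≃ₐ[ℚ] K) P :=
    Subgroup.zpowers_le.mpr hτP
  apply Subgroup.eq_of_le_of_card_ge hle
  rw [Nat.card_zpowers, card_stabilizer_of_inertia_eq_bot (span {(ℓ : ℤ)}) P hI]
  set k := orderOf τ with hk
  have hk0 : 0 < k := orderOf_pos τ
  have hpow : ∀ (n : ℕ) (x : 𝓞 K), τ ^ n • x - x ^ (ℓ ^ n) ∈ P := by
    intro n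
    induction n with
    | zero => intro x; simp
    | succ n ih =>
      intro x
      have e : τ ^ (n + 1) • x - x ^ (ℓ ^ (n + 1)) =
          τ • (τ ^ n • x - x ^ (ℓ ^ n)) + (τ • (x ^ (ℓ ^ n)) - (x ^ (ℓ ^ n)) ^ ℓ) := by
        rw [pow_succ', mul_smul, smul_sub, pow_succ, pow_mul]
        ring
      rw [e]
      refine P.add_mem ?_ (hτ _)
      have h1 : τ • (τ ^ n • x - x ^ (ℓ ^ n)) ∈ τ • P :=
        Ideal.smul_mem_pointwise_smul _ _ _ (ih x)
      rwa [hτP] at h1
  have hall : ∀ y : 𝓞 K ⧸ P, y ^ (ℓ ^ k) = y := by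
    intro y
    obtain ⟨x, rfl⟩ := Ideal.Quotient.mk_surjective y
    have h1 := hpow k x
    rw [hk, pow_orderOf_eq_one, one_smul] at h1
    rw [← map_pow, eq_comm, Ideal.Quotient.eq]
    exact h1
  have hPbot : P ≠ ⊥ := by
    intro hbot
    have h1 : Ideal.absNorm P ≠ 0 := by
      rw [← Ideal.pow_inertiaDeg ℓ P]
      exact pow_ne_zero _ hℓ.ne_zero
    exact h1 (by rw [hbot, Ideal.absNorm_bot])
  have hmax : P.IsMaximal := Ring.DimensionLEOne.maximalOfPrime hPbot inferInstance
  let _ := Ideal.Quotient.field P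
  have hcard : Nat.card (𝓞 K ⧸ P) = ℓ ^ P.inertiaDeg ℤ := by
    rw [Ideal.pow_inertiaDeg ℓ P, Ideal.absNorm_apply, Submodule.cardQuot_apply]
  have hfinite : Finite (𝓞 K ⧸ P) := by
    apply Nat.finite_of_card_ne_zero
    rw [hcard]
    exact pow_ne_zero _ hℓ.ne_zero
  have : Fintype (𝓞 K ⧸ P) := Fintype.ofFinite _
  have hne : (X ^ ℓ ^ k - X : (𝓞 K ⧸ P)[X]) ≠ 0 :=
    FiniteField.X_pow_card_pow_sub_X_ne_zero _ hk0.ne' hℓ.one_lt
  have hroots := Polynomial.card_le_degree_of_subset_roots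
    (p := (X ^ ℓ ^ k - X : (𝓞 K ⧸ P)[X])) (Z := Finset.univ) (by
      intro y _
      rw [Polynomial.mem_roots hne]
      simp [hall y])
  rw [FiniteField.X_pow_card_pow_sub_X_natDegree_eq _ hk0.ne' hℓ.one_lt, Finset.card_univ,
    ← Nat.card_eq_fintype_card, hcard] at hroots
  exact (Nat.pow_le_pow_iff_right hℓ.one_lt).mp hroots

/-- **Generator-Chebotarev, number-field core.**  For every element `g` of the Galois group of a
finite Galois extension `K/ℚ` and every finite set `T` of primes there are a prime `ℓ ∉ T` and a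
prime `P` of `K` above `ℓ` such that every Frobenius element at `P` generates the cyclic
subgroup `⟨g⟩`. -/
theorem exists_prime_frobenius_generator (g : K ≃ₐ[ℚ] K) (T : Finset ℕ) :
    ∃ (ℓ : ℕ) (P : Ideal (𝓞 K)), ℓ.Prime ∧ ℓ ∉ T ∧ P.IsPrime ∧ (ℓ : 𝓞 K) ∈ P ∧
      ∀ τ : K ≃ₐ[ℚ] K, (∀ x : 𝓞 K, τ • x - x ^ ℓ ∈ P) →
        Subgroup.zpowers τ = Subgroup.zpowers g := by
  obtain ⟨ℓ, P, hℓ, hℓT, hP, hI, hstab⟩ := exists_prime_stabilizer_eq_zpowers K g T
  refine ⟨ℓ, P, hℓ, hℓT, hP.1, ?_, ?_⟩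
  · have h := hP.2.over
    have h1 : (ℓ : ℤ) ∈ P.under ℤ := by
      rw [← h]
      exact Ideal.mem_span_singleton_self _
    rw [Ideal.under_def, Ideal.mem_comap] at h1
    simpa using h1
  · intro τ hτ
    rw [← hstab]
    exact zpowers_eq_stabilizer_of_frobenius K hℓ P hP hI τ hτ

end NumberFieldPart

end Fermat.Agent.S29.helper2247
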