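/-
S29, leaf DIM2 (board #709; route #1370 M10b, #1710 (B)).

Dimension-two lemma, valid in every characteristic, and the abstract extraction of a
two-dimensional representation with prescribed characteristic polynomials from any nonzero
finite-dimensional representation all of whose elements satisfy a quadratic relation
`X ^ 2 - t X + eps g` whose constant term is a character `eps`.

Main statement (consumed by the assembly of S29): `exists_two_dim_rep`.

Proof idea (elementary, no Burnside, no restriction on the characteristic).  From the relations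
and multiplicativity of `eps` one gets `t g - ρ g = eps g • ρ g⁻¹`, hence the polarised identity
`ρ g ρ h + ρ h ρ g = t g ρ h + t h ρ g + (t (g h) - t g t h)`.  If `W` is irreducible, `ρ g v = lam v`
with `v ≠ 0`, then `(ρ g - (t g - lam)) W ⊆ K v`.  For a non-scalar `ρ g` this bounds both the range
and the kernel of `ρ g - (t g - lam)` by one, so `dim W ≤ 2`.  In dimension two, Cayley-Hamilton
identifies trace and determinant with `t` and `eps` on non-scalar elements; scalar elements are
handled through multiplicativity of `eps` against one non-scalar element.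
-/
import Mathlib

set_option autoImplicit false

open Polynomial Module

namespace Fermat.Agent.S29.helper2519

section Polarization

variable {K : Type*} [Field K] {G : Type*} [Group G] {W : Type*} [AddCommGroup W] [Module K W]

/-- From the quadratic relation: `t g - ρ g = eps g • ρ g⁻¹`. -/
theorem smul_one_sub_eq (ρ : G →* Module.End K W) (eps : G → K) (t : G → K)
    (hrel : ∀ g, ρ g * ρ g - t g • ρ g + eps g • (1 : Module.End K W) = 0) (g : G) :
    t g • (1 : Module.End K W) - ρ g = eps g • ρ g⁻¹ := by
  have h1 : ρ g⁻¹ * (ρ g * ρ g - t g • ρ g + eps g • (1 : Module.End K W)) = 0 := by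
    rw [hrel g, mul_zero]
  have h2 : ρ g⁻¹ * ρ g = 1 := by rw [← map_mul, inv_mul_cancel, map_one]
  rw [mul_add, mul_sub, ← mul_assoc, h2, one_mul, mul_smul_comm, h2, mul_smul_comm, mul_one] at h1
  have h3 : t g • (1 : Module.End K W) - ρ g - eps g • ρ g⁻¹ =
      -(ρ g - t g • (1 : Module.End K W) + eps g • ρ g⁻¹) := by module
  rw [← sub_eq_zero, h3, h1, neg_zero]

/-- The polarised identity. -/
theorem polarization (ρ : G →* Module.End K W) (eps : G →* Kˣ) (t : G → K)
    (hrel : ∀ g, ρ g * ρ g - t g • ρ g + (eps g : K) • (1 : Module.End K W) = 0) (g h : G) :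
    ρ g * ρ h + ρ h * ρ g =
      t g • ρ h + t h • ρ g + (t (g * h) - t g * t h) • (1 : Module.End K W) := by
  have hg := smul_one_sub_eq ρ (fun g => (eps g : K)) t hrel g
  have hh := smul_one_sub_eq ρ (fun g => (eps g : K)) t hrel h
  have hgh := smul_one_sub_eq ρ (fun g => (eps g : K)) t hrel (g * h)
  have key : (t h • (1 : Module.End K W) - ρ h) * (t g • (1 : Module.End K W) - ρ g) =
      t (g * h) • (1 : Module.End K W) - ρ g * ρ h := by
    rw [hg, hh, ← map_mul ρ g h, hgh]
    simp only [smul_mul_assoc, mul_smul_comm, smul_smul, ← map_mul ρ, mul_inv_rev]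
    rw [map_mul eps, Units.val_mul, mul_comm]
  have hexp : (t h • (1 : Module.End K W) - ρ h) * (t g • (1 : Module.End K W) - ρ g) =
      (t g * t h) • (1 : Module.End K W) - t h • ρ g - t g • ρ h + ρ h * ρ g := by
    simp only [sub_mul, mul_sub, smul_mul_assoc, mul_smul_comm, one_mul, mul_one]
    module
  rw [hexp] at key
  rw [sub_smul, ← sub_eq_zero]
  rw [← sub_eq_zero] at key
  rw [← key]
  module

end Polarization

section Irreducible

variable {K : Type*} [Field K] {G : Type*} [Group G] {W : Type*} [AddCommGroup W] [Module K W]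

/-- In an irreducible representation the orbit of a nonzero vector spans everything. -/
theorem span_orbit_eq_top (ρ : G →* Module.End K W)
    (hirr : ∀ U : Submodule K W, (∀ g, ∀ x ∈ U, ρ g x ∈ U) → U = ⊥ ∨ U = ⊤)
    {v : W} (hv : v ≠ 0) :
    Submodule.span K (Set.range fun h : G => ρ h v) = ⊤ := by
  have hmem : v ∈ Submodule.span K (Set.range fun h : G => ρ h v) :=
    Submodule.subset_span ⟨1, by simp⟩
  refine (hirr _ ?_).resolve_left ?_
  · intro g x hx
    have hle : Submodule.map (ρ g) (Submodule.span K (Set.range fun h : G => ρ h v)) ≤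
        Submodule.span K (Set.range fun h : G => ρ h v) := by
      rw [Submodule.map_span, Submodule.span_le]
      rintro _ ⟨_, ⟨h, rfl⟩, rfl⟩
      refine Submodule.subset_span ⟨g * h, ?_⟩
      simp [map_mul]
    exact hle (Submodule.mem_map_of_mem hx)
  · intro hbot
    rw [hbot, Submodule.mem_bot] at hmem
    exact hv hmem

/-- Key lemma: if `v ≠ 0` is an eigenvector of `ρ g` with eigenvalue `lam` in an irreducible
representation satisfying the quadratic relations, then `ρ g - (t g - lam)` maps everything
into the line `K v`. -/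
theorem sub_smul_mem_span (ρ : G →* Module.End K W) (eps : G →* Kˣ) (t : G → K)
    (hrel : ∀ g, ρ g * ρ g - t g • ρ g + (eps g : K) • (1 : Module.End K W) = 0)
    (hirr : ∀ U : Submodule K W, (∀ g, ∀ x ∈ U, ρ g x ∈ U) → U = ⊥ ∨ U = ⊤)
    (g : G) (lam : K) {v : W} (hv : v ≠ 0) (hgv : ρ g v = lam • v) (w : W) :
    ρ g w - (t g - lam) • w ∈ Submodule.span K {v} := by
  have htop := span_orbit_eq_top ρ hirr hv
  have hle : Submodule.span K (Set.range fun h : G => ρ h v) ≤
      Submodule.comap (ρ g - (t g - lam) • (1 : Module.End K W)) (Submodule.span K {v}) := by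
    rw [Submodule.span_le]
    rintro _ ⟨h, rfl⟩
    simp only [SetLike.mem_coe, Submodule.mem_comap, LinearMap.sub_apply, LinearMap.smul_apply,
      Module.End.one_apply]
    have hpol := congrArg (fun f : Module.End K W => f v) (polarization ρ eps t hrel g h)
    simp only [LinearMap.add_apply, Module.End.mul_apply, LinearMap.smul_apply,
      Module.End.one_apply, hgv, map_smul] at hpol
    have : ρ g (ρ h v) - (t g - lam) • ρ h v = (t h * lam + (t (g * h) - t g * t h)) • v := by
      have h2 : ρ g (ρ h v) = t g • ρ h v + t h • lam • v + (t (g * h) - t g * t h) • v -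
          lam • ρ h v := by
        rw [← hpol]; abel
      rw [h2]; module
    rw [this]
    exact Submodule.smul_mem _ _ (Submodule.mem_span_singleton_self v)
  have hw : w ∈ Submodule.span K (Set.range fun h : G => ρ h v) := by rw [htop]; trivial
  have := hle hw
  simpa only [Submodule.mem_comap, LinearMap.sub_apply, LinearMap.smul_apply,
    Module.End.one_apply] using this

/-- If every `ρ g` is a scalar and the representation is irreducible, the dimension is at most
one. -/
theorem finrank_le_one_of_forall_scalar [FiniteDimensional K W] (ρ : G →* Module.End K W)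
    (hirr : ∀ U : Submodule K W, (∀ g, ∀ x ∈ U, ρ g x ∈ U) → U = ⊥ ∨ U = ⊤)
    (hsc : ∀ g, ∃ c : K, ρ g = c • (1 : Module.End K W)) :
    Module.finrank K W ≤ 1 := by
  by_cases hW : ∀ v : W, v = 0
  · refine finrank_le_one (0 : W) fun w => ⟨0, ?_⟩
    rw [hW w, smul_zero]
  · push Not at hW
    obtain ⟨v, hv⟩ := hW
    have htop : Submodule.span K {v} = ⊤ := by
      refine (hirr _ ?_).resolve_left ?_
      · intro g x hx
        obtain ⟨c, hc⟩ := hsc g
        rw [hc, LinearMap.smul_apply, Module.End.one_apply]
        exact Submodule.smul_mem _ _ hx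
      · intro hbot
        have : v ∈ Submodule.span K {v} := Submodule.mem_span_singleton_self v
        rw [hbot, Submodule.mem_bot] at this
        exact hv this
    refine finrank_le_one v fun w => ?_
    have hw : w ∈ Submodule.span K {v} := by rw [htop]; trivial
    exact Submodule.mem_span_singleton.mp hw

/-- **Dimension bound**: an irreducible representation over an algebraically closed field all of
whose elements satisfy quadratic relations with multiplicative constant term has dimension at
most two (any characteristic). -/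
theorem finrank_le_two [IsAlgClosed K] [FiniteDimensional K W] (ρ : G →* Module.End K W)
    (eps : G →* Kˣ) (t : G → K)
    (hrel : ∀ g, ρ g * ρ g - t g • ρ g + (eps g : K) • (1 : Module.End K W) = 0)
    (hirr : ∀ U : Submodule K W, (∀ g, ∀ x ∈ U, ρ g x ∈ U) → U = ⊥ ∨ U = ⊤) :
    Module.finrank K W ≤ 2 := by
  by_cases hsc : ∀ g, ∃ c : K, ρ g = c • (1 : Module.End K W)
  · exact (finrank_le_one_of_forall_scalar ρ hirr hsc).trans one_le_two
  push Not at hsc
  obtain ⟨g, hg⟩ := hsc
  have hnt : Nontrivial W := by
    by_contra hnt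
    rw [not_nontrivial_iff_subsingleton] at hnt
    exact hg 0 (LinearMap.ext fun x => Subsingleton.elim _ _)
  obtain ⟨lam, hlam⟩ := Module.End.exists_eigenvalue (ρ g)
  obtain ⟨v, hv⟩ := hlam.exists_hasEigenvector
  have hgv : ρ g v = lam • v := hv.apply_eq_smul
  have hv0 : v ≠ 0 := hv.2
  set mu : K := t g - lam with hmu
  have hP : ∀ w, ρ g w - mu • w ∈ Submodule.span K {v} :=
    sub_smul_mem_span ρ eps t hrel hirr g lam hv0 hgv
  -- some vector is not killed by `ρ g - lam`
  obtain ⟨x₀, hx₀⟩ : ∃ x₀ : W, ρ g x₀ - lam • x₀ ≠ 0 := by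
    by_contra hcon
    push Not at hcon
    refine hg lam (LinearMap.ext fun x => ?_)
    rw [LinearMap.smul_apply, Module.End.one_apply]
    exact sub_eq_zero.mp (hcon x)
  set P : Module.End K W := ρ g - mu • (1 : Module.End K W) with hPdef
  have hPapp : ∀ w, P w = ρ g w - mu • w := fun w => by
    simp [hPdef]
  have hrange : Module.finrank K (LinearMap.range P) ≤ 1 := by
    have hle : LinearMap.range P ≤ Submodule.span K {v} := by
      rintro _ ⟨w, rfl⟩
      rw [hPapp]; exact hP w
    exact (Submodule.finrank_mono hle).trans (finrank_span_singleton hv0).le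
  have hker : Module.finrank K (LinearMap.ker P) ≤ 1 := by
    by_cases hk : ∀ w : LinearMap.ker P, w = 0
    · refine finrank_le_one (0 : LinearMap.ker P) fun w => ⟨0, ?_⟩
      rw [hk w, smul_zero]
    push Not at hk
    obtain ⟨⟨w₀, hw₀mem⟩, hw₀⟩ := hk
    have hw₀0 : w₀ ≠ 0 := fun h => hw₀ (Subtype.ext h)
    have hgw₀ : ρ g w₀ = mu • w₀ := by
      have := LinearMap.mem_ker.mp hw₀mem
      rw [hPapp] at this
      exact sub_eq_zero.mp this
    have hQ₀ := sub_smul_mem_span ρ eps t hrel hirr g mu hw₀0 hgw₀ x₀
    have hmu' : t g - mu = lam := by rw [hmu]; ring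
    rw [hmu'] at hQ₀
    obtain ⟨a, ha⟩ := Submodule.mem_span_singleton.mp hQ₀
    have ha0 : a ≠ 0 := by
      rintro rfl
      rw [zero_smul] at ha
      exact hx₀ ha.symm
    refine finrank_le_one (⟨w₀, hw₀mem⟩ : LinearMap.ker P) fun w => ?_
    obtain ⟨w, hwmem⟩ := w
    by_cases hw0 : w = 0
    · exact ⟨0, Subtype.ext (by simp [hw0])⟩
    have hgw : ρ g w = mu • w := by
      have := LinearMap.mem_ker.mp hwmem
      rw [hPapp] at this
      exact sub_eq_zero.mp this
    have hQ := sub_smul_mem_span ρ eps t hrel hirr g mu hw0 hgw x₀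
    rw [hmu'] at hQ
    obtain ⟨b, hb⟩ := Submodule.mem_span_singleton.mp hQ
    have hb0 : b ≠ 0 := by
      rintro rfl
      rw [zero_smul] at hb
      exact hx₀ hb.symm
    refine ⟨b⁻¹ * a, Subtype.ext ?_⟩
    simp only [SetLike.mk_smul_mk]
    rw [mul_smul, ha, ← hb, smul_smul, inv_mul_cancel₀ hb0, one_smul]
  have := LinearMap.finrank_range_add_finrank_ker P
  omega

end Irreducible

section DimTwo

variable {K : Type*} [Field K] {W : Type*} [AddCommGroup W] [Module K W]

/-- Characteristic polynomial of an endomorphism of a two-dimensional space. -/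
theorem charpoly_eq_of_finrank_two [FiniteDimensional K W] (h2 : Module.finrank K W = 2)
    (f : Module.End K W) :
    LinearMap.charpoly f = X ^ 2 - C (LinearMap.trace K W f) * X + C (LinearMap.det f) := by
  let b : Basis (Fin 2) K W := Module.finBasisOfFinrankEq K W h2
  rw [← LinearMap.charpoly_toMatrix f b, Matrix.charpoly_fin_two,
    LinearMap.trace_eq_matrix_trace K b f, ← LinearMap.det_toMatrix b f]

/-- Cayley-Hamilton in dimension two. -/
theorem sq_sub_trace_add_det (h2 : Module.finrank K W = 2) (f : Module.End K W) :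
    f * f - LinearMap.trace K W f • f + LinearMap.det f • (1 : Module.End K W) = 0 := by
  have : Module.Finite K W := Module.finite_of_finrank_eq_succ h2
  have h := LinearMap.aeval_self_charpoly f
  rw [charpoly_eq_of_finrank_two h2 f] at h
  simpa [pow_two, Algebra.smul_def] using h

/-- A non-scalar endomorphism of a two-dimensional space satisfying `f² - t f + e = 0` has
trace `t` and determinant `e`. -/
theorem trace_det_of_nonscalar (h2 : Module.finrank K W = 2) (f : Module.End K W)
    (hf : ∀ c : K, f ≠ c • (1 : Module.End K W)) (t e : K)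
    (h : f * f - t • f + e • (1 : Module.End K W) = 0) :
    LinearMap.trace K W f = t ∧ LinearMap.det f = e := by
  have : Module.Finite K W := Module.finite_of_finrank_eq_succ h2
  have : Nontrivial W := Module.nontrivial_of_finrank_pos (R := K) (by rw [h2]; norm_num)
  have hCH := sq_sub_trace_add_det h2 f
  have hdiff : (LinearMap.trace K W f - t) • f =
      (LinearMap.det f - e) • (1 : Module.End K W) := by
    have h3 : (LinearMap.trace K W f - t) • f - (LinearMap.det f - e) • (1 : Module.End K W) =
        (f * f - t • f + e • (1 : Module.End K W)) -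
          (f * f - LinearMap.trace K W f • f + LinearMap.det f • (1 : Module.End K W)) := by
      module
    rw [← sub_eq_zero, h3, h, hCH, sub_zero]
  have htr : LinearMap.trace K W f = t := by
    by_contra hne
    have hne' : LinearMap.trace K W f - t ≠ 0 := sub_ne_zero.mpr hne
    refine hf ((LinearMap.trace K W f - t)⁻¹ * (LinearMap.det f - e)) ?_
    rw [mul_smul, ← hdiff, smul_smul, inv_mul_cancel₀ hne', one_smul]
  refine ⟨htr, ?_⟩
  rw [htr, sub_self, zero_smul] at hdiff
  have h1 : (1 : Module.End K W) ≠ 0 := one_ne_zero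
  have := (smul_eq_zero.mp hdiff.symm).resolve_right h1
  exact sub_eq_zero.mp this

end DimTwo

section Main

variable {K : Type*} [Field K] {G : Type*} [Group G] {W : Type*} [AddCommGroup W] [Module K W]

/-- `ρ g` is injective. -/
theorem rho_apply_eq_zero (ρ : G →* Module.End K W) (g : G) {x : W} (hx : ρ g x = 0) : x = 0 := by
  have h : ρ g⁻¹ (ρ g x) = x := by
    rw [← Module.End.mul_apply, ← map_mul, inv_mul_cancel, map_one, Module.End.one_apply]
  rw [← h, hx, map_zero]

/-- The linear coefficient of a quadratic relation satisfied by `ρ g` is unique. -/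
theorem rel_unique [Nontrivial W] (ρ : G →* Module.End K W) (g : G) (t t' e : K)
    (h : ρ g * ρ g - t • ρ g + e • (1 : Module.End K W) = 0)
    (h' : ρ g * ρ g - t' • ρ g + e • (1 : Module.End K W) = 0) : t = t' := by
  obtain ⟨x, hx⟩ := exists_ne (0 : W)
  have h3 : (t - t') • ρ g = 0 := by
    have : (t - t') • ρ g = (ρ g * ρ g - t' • ρ g + e • (1 : Module.End K W)) -
        (ρ g * ρ g - t • ρ g + e • (1 : Module.End K W)) := by module
    rw [this, h, h', sub_zero]
  have h4 : ρ g ((t - t') • x) = 0 := by
    rw [map_smul, ← LinearMap.smul_apply, h3, LinearMap.zero_apply]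
  have h5 := rho_apply_eq_zero ρ g h4
  exact sub_eq_zero.mp ((smul_eq_zero.mp h5).resolve_right hx)

/-- **Dimension-two lemma.**  In an irreducible two-dimensional representation over an
algebraically closed field satisfying the quadratic relations with multiplicative constant
term, the characteristic polynomial of every `ρ g` is `X² - t g X + eps g`. -/
theorem charpoly_of_irreducible_finrank_two [IsAlgClosed K] [FiniteDimensional K W]
    (h2 : Module.finrank K W = 2)
    (ρ : G →* Module.End K W) (eps : G →* Kˣ) (t : G → K)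
    (hrel : ∀ g, ρ g * ρ g - t g • ρ g + (eps g : K) • (1 : Module.End K W) = 0)
    (hirr : ∀ U : Submodule K W, (∀ g, ∀ x ∈ U, ρ g x ∈ U) → U = ⊥ ∨ U = ⊤) (g : G) :
    LinearMap.charpoly (ρ g) = X ^ 2 - C (t g) * X + C (eps g : K) := by
  have : Nontrivial W := Module.nontrivial_of_finrank_pos (R := K) (by rw [h2]; norm_num)
  rw [charpoly_eq_of_finrank_two h2]
  by_cases hg : ∀ c : K, ρ g ≠ c • (1 : Module.End K W)
  · obtain ⟨h1, h3⟩ := trace_det_of_nonscalar h2 (ρ g) hg (t g) (eps g) (hrel g)
    rw [h1, h3]
  push Not at hg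
  obtain ⟨c, hc⟩ := hg
  -- a non-scalar element exists
  obtain ⟨h, hh⟩ : ∃ h : G, ∀ c : K, ρ h ≠ c • (1 : Module.End K W) := by
    by_contra hcon
    push Not at hcon
    have := finrank_le_one_of_forall_scalar ρ hirr hcon
    omega
  have hc0 : c ≠ 0 := by
    rintro rfl
    obtain ⟨x, hx⟩ := exists_ne (0 : W)
    refine hx (rho_apply_eq_zero ρ g ?_)
    rw [hc, zero_smul, LinearMap.zero_apply]
  have hgh : ρ (g * h) = c • ρ h := by
    rw [map_mul, hc, smul_mul_assoc, one_mul]
  have hgh' : ∀ d : K, ρ (g * h) ≠ d • (1 : Module.End K W) := by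
    intro d hd
    refine hh (c⁻¹ * d) ?_
    rw [mul_smul, ← hd, hgh, smul_smul, inv_mul_cancel₀ hc0, one_smul]
  obtain ⟨-, hdet_h⟩ := trace_det_of_nonscalar h2 (ρ h) hh (t h) (eps h) (hrel h)
  obtain ⟨-, hdet_gh⟩ := trace_det_of_nonscalar h2 (ρ (g * h)) hgh' (t (g * h)) (eps (g * h))
    (hrel (g * h))
  rw [hgh, LinearMap.det_smul, h2, hdet_h, map_mul, Units.val_mul] at hdet_gh
  have heps : (eps g : K) = c ^ 2 :=
    (mul_right_cancel₀ (Units.ne_zero (eps h)) hdet_gh).symm
  -- relation at g
  have hrelg := hrel g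
  rw [hc, heps] at hrelg
  have h4 : (c * c - t g * c + c ^ 2) • (1 : Module.End K W) = 0 := by
    rw [← hrelg]
    simp only [smul_mul_assoc, mul_smul_comm, one_mul, smul_smul]
    module
  have h5 : c * c - t g * c + c ^ 2 = 0 :=
    (smul_eq_zero.mp h4).resolve_right one_ne_zero
  have ht : t g = 2 * c := by
    have h6 : c * (t g - 2 * c) = 0 := by linear_combination -h5
    have := (mul_eq_zero.mp h6).resolve_left hc0
    exact sub_eq_zero.mp this
  rw [hc, map_smul, LinearMap.det_smul, h2, LinearMap.trace_one, h2, heps, ht]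
  simp [mul_comm]

end Main

section Extraction

variable {K : Type*} [Field K] {G : Type*} [Group G] {V : Type*} [AddCommGroup V] [Module K V]

/-- The restriction of a representation to an invariant subspace. -/
def restrictRep (ρ : G →* Module.End K V) (U : Submodule K V)
    (hU : ∀ g, ∀ x ∈ U, ρ g x ∈ U) : G →* Module.End K U where
  toFun g := (ρ g).restrict (hU g)
  map_one' := by
    ext x
    simp
  map_mul' g h := by
    ext x
    simp [map_mul]

@[simp]
theorem restrictRep_apply_coe (ρ : G →* Module.End K V) (U : Submodule K V)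
    (hU : ∀ g, ∀ x ∈ U, ρ g x ∈ U) (g : G) (x : U) :
    ((restrictRep ρ U hU g x : U) : V) = ρ g x := rfl

theorem restrictRep_rel (ρ : G →* Module.End K V) (U : Submodule K V)
    (hU : ∀ g, ∀ x ∈ U, ρ g x ∈ U) (g : G) (t e : K)
    (h : ρ g * ρ g - t • ρ g + e • (1 : Module.End K V) = 0) :
    restrictRep ρ U hU g * restrictRep ρ U hU g - t • restrictRep ρ U hU g +
      e • (1 : Module.End K U) = 0 := by
  ext x
  have := congrArg (fun f : Module.End K V => f (x : V)) h
  simpa using this

theorem restrictRep_eq_one (ρ : G →* Module.End K V) (U : Submodule K V)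
    (hU : ∀ g, ∀ x ∈ U, ρ g x ∈ U) (g : G) (h : ρ g = 1) : restrictRep ρ U hU g = 1 := by
  ext x
  simp [h]

/-- A nonzero finite-dimensional representation contains a minimal nonzero invariant
subspace. -/
theorem exists_minimal_invariant [FiniteDimensional K V] [Nontrivial V]
    (ρ : G →* Module.End K V) :
    ∃ U : Submodule K V, U ≠ ⊥ ∧ (∀ g, ∀ x ∈ U, ρ g x ∈ U) ∧
      ∀ U' : Submodule K V, U' ≤ U → (∀ g, ∀ x ∈ U', ρ g x ∈ U') → U' = ⊥ ∨ U' = U := by
  have hne : ({U : Submodule K V | U ≠ ⊥ ∧ ∀ g, ∀ x ∈ U, ρ g x ∈ U}).Nonempty :=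
    ⟨⊤, top_ne_bot, fun _ _ _ => Submodule.mem_top⟩
  obtain ⟨U, ⟨hU0, hUinv⟩, hmin⟩ := IsArtinian.set_has_minimal _ hne
  refine ⟨U, hU0, hUinv, fun U' hle hinv => ?_⟩
  by_cases h0 : U' = ⊥
  · exact Or.inl h0
  · exact Or.inr (eq_of_le_of_not_lt hle (hmin U' ⟨h0, hinv⟩))

/-- The restriction to a minimal invariant subspace is irreducible. -/
theorem restrictRep_irreducible (ρ : G →* Module.End K V) (U : Submodule K V)
    (hU : ∀ g, ∀ x ∈ U, ρ g x ∈ U)
    (hmin : ∀ U' : Submodule K V, U' ≤ U → (∀ g, ∀ x ∈ U', ρ g x ∈ U') → U' = ⊥ ∨ U' = U)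
    (U' : Submodule K U) (hU' : ∀ g, ∀ x ∈ U', restrictRep ρ U hU g x ∈ U') :
    U' = ⊥ ∨ U' = ⊤ := by
  have hle : Submodule.map U.subtype U' ≤ U := by
    rintro _ ⟨y, -, rfl⟩
    exact y.2
  have hinv : ∀ g, ∀ x ∈ Submodule.map U.subtype U', ρ g x ∈ Submodule.map U.subtype U' := by
    rintro g _ ⟨y, hy, rfl⟩
    exact ⟨restrictRep ρ U hU g y, hU' g y hy, rfl⟩
  rcases hmin _ hle hinv with h | h
  · left
    rw [eq_bot_iff]
    intro y hy
    have : (y : V) ∈ Submodule.map U.subtype U' := ⟨y, hy, rfl⟩
    rw [h, Submodule.mem_bot] at this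
    rw [Submodule.mem_bot]
    exact Subtype.ext this
  · right
    rw [eq_top_iff]
    intro y _
    have : (y : V) ∈ Submodule.map U.subtype U' := by rw [h]; exact y.2
    obtain ⟨y', hy', hyy'⟩ := this
    have : y' = y := Subtype.ext hyy'
    rwa [← this]

/-- The diagonal representation `χ ⊕ ψ` on `Fin 2 → K`. -/
def diagRep (χ ψ : G →* K) : G →* Module.End K (Fin 2 → K) where
  toFun g := Matrix.toLin' (Matrix.diagonal ![χ g, ψ g])
  map_one' := by
    have : (![χ 1, ψ 1] : Fin 2 → K) = fun _ => 1 := by
      ext i; fin_cases i <;> simp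
    rw [this, Matrix.diagonal_one, Matrix.toLin'_one]; rfl
  map_mul' g h := by
    have : (![χ (g * h), ψ (g * h)] : Fin 2 → K) = fun i => ![χ g, ψ g] i * ![χ h, ψ h] i := by
      ext i; fin_cases i <;> simp
    rw [this, ← Matrix.diagonal_mul_diagonal, Matrix.toLin'_mul]; rfl

theorem diagRep_charpoly (χ ψ : G →* K) (g : G) :
    LinearMap.charpoly (diagRep χ ψ g) = X ^ 2 - C (χ g + ψ g) * X + C (χ g * ψ g) := by
  simp [diagRep, Matrix.charpoly_fin_two]

theorem diagRep_eq_one (χ ψ : G →* K) (g : G) (h1 : χ g = 1) (h2 : ψ g = 1) :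
    diagRep χ ψ g = 1 := by
  have : (![χ g, ψ g] : Fin 2 → K) = fun _ => 1 := by
    ext i; fin_cases i <;> simp [h1, h2]
  simp only [diagRep, MonoidHom.coe_mk, OneHom.coe_mk]
  rw [this, Matrix.diagonal_one, Matrix.toLin'_one]; rfl

end Extraction

section MainTheorem

/-- **Extraction of a two-dimensional representation.**  Let `K` be an algebraically closed
field (any characteristic), `ρ` a nonzero finite-dimensional representation of a group `G` and
`eps : G →* Kˣ` a character such that every `ρ g` is killed by some quadratic polynomial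
`X² - t X + eps g`.  Then there is a two-dimensional representation `ρ'` of `G` such that
* `ρ' g = 1` as soon as `ρ g = 1` and `eps g = 1`;
* whenever `ρ g` is killed by `X² - t X + eps g`, the characteristic polynomial of `ρ' g` is
  `X² - t X + eps g`. -/
theorem exists_two_dim_rep
    {K : Type} [Field K] [IsAlgClosed K] {G : Type*} [Group G]
    {V : Type} [AddCommGroup V] [Module K V] [FiniteDimensional K V] [Nontrivial V]
    (ρ : G →* Module.End K V) (eps : G →* Kˣ)
    (hrel : ∀ g, ∃ t : K, ρ g * ρ g - t • ρ g + (eps g : K) • (1 : Module.End K V) = 0) :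
    ∃ (W : Type) (_ : AddCommGroup W) (_ : Module K W) (_ : Module.Finite K W)
      (ρ' : G →* Module.End K W),
      Module.finrank K W = 2 ∧
      (∀ g, ρ g = 1 → eps g = 1 → ρ' g = 1) ∧
      (∀ g (t : K), ρ g * ρ g - t • ρ g + (eps g : K) • (1 : Module.End K V) = 0 →
        LinearMap.charpoly (ρ' g) = X ^ 2 - C t * X + C (eps g : K)) := by
  obtain ⟨U, hU0, hUinv, hmin⟩ := exists_minimal_invariant ρ
  choose t ht using hrel
  set ρU := restrictRep ρ U hUinv with hρU
  have hrelU : ∀ g, ρU g * ρU g - t g • ρU g + (eps g : K) • (1 : Module.End K U) = 0 :=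
    fun g => restrictRep_rel ρ U hUinv g (t g) (eps g) (ht g)
  have hirr : ∀ U' : Submodule K U, (∀ g, ∀ x ∈ U', ρU g x ∈ U') → U' = ⊥ ∨ U' = ⊤ :=
    fun U' hU' => restrictRep_irreducible ρ U hUinv hmin U' hU'
  have hnt : Nontrivial U := Submodule.nontrivial_iff_ne_bot.mpr hU0
  have hle2 := finrank_le_two ρU eps t hrelU hirr
  have hpos : 0 < Module.finrank K U := Module.finrank_pos
  have huniq : ∀ g (t' : K),
      ρ g * ρ g - t' • ρ g + (eps g : K) • (1 : Module.End K V) = 0 → t' = t g :=
    fun g t' h => rel_unique ρU g t' (t g) (eps g)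
      (restrictRep_rel ρ U hUinv g t' (eps g) h) (hrelU g)
  rcases Nat.lt_or_ge (Module.finrank K U) 2 with h1 | h2
  · -- dimension one: output `χ ⊕ eps / χ`
    have h1' : Module.finrank K U = 1 := by omega
    let χ : G →* K := (LinearMap.det : Module.End K U →* K).comp ρU
    have hχ : ∀ g, ρU g = χ g • (1 : Module.End K U) := by
      intro g
      obtain ⟨v, -, hv⟩ := finrank_eq_one_iff'.mp h1'
      obtain ⟨c, hc⟩ := hv (ρU g v)
      have hsc : ρU g = c • (1 : Module.End K U) := by
        refine LinearMap.ext fun w => ?_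
        obtain ⟨d, rfl⟩ := hv w
        rw [map_smul, ← hc, LinearMap.smul_apply, Module.End.one_apply, smul_comm]
      have hχc : χ g = c := by
        change LinearMap.det (ρU g) = c
        rw [hsc, LinearMap.det_smul, h1', pow_one, map_one, mul_one]
      rw [hχc]; exact hsc
    have hχ0 : ∀ g, χ g ≠ 0 := by
      intro g h0
      have : χ g * χ g⁻¹ = 1 := by rw [← map_mul, mul_inv_cancel, map_one]
      rw [h0, zero_mul] at this
      exact zero_ne_one this
    let ψ : G →* K :=
      { toFun := fun g => (eps g : K) * (χ g)⁻¹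
        map_one' := by simp
        map_mul' := fun g h => by
          simp only [map_mul, Units.val_mul, mul_inv]
          ring }
    refine ⟨Fin 2 → K, inferInstance, inferInstance, inferInstance, diagRep χ ψ,
      Module.finrank_fin_fun K, ?_, ?_⟩
    · intro g hg heg
      have hχ1 : χ g = 1 := by
        change LinearMap.det (ρU g) = 1
        rw [hρU, restrictRep_eq_one ρ U hUinv g hg, map_one]
      apply diagRep_eq_one _ _ _ hχ1
      change (eps g : K) * (χ g)⁻¹ = 1
      rw [hχ1, heg]; simp
    · intro g t' h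
      rw [diagRep_charpoly]
      have hrg := restrictRep_rel ρ U hUinv g t' (eps g) h
      rw [← hρU, hχ g] at hrg
      have h4 : (χ g * χ g - t' * χ g + (eps g : K)) • (1 : Module.End K U) = 0 := by
        rw [← hrg]
        simp only [smul_mul_assoc, mul_smul_comm, one_mul, smul_smul]
        module
      have h5 : χ g * χ g - t' * χ g + (eps g : K) = 0 :=
        (smul_eq_zero.mp h4).resolve_right one_ne_zero
      have hsum : χ g + ψ g = t' := by
        change χ g + (eps g : K) * (χ g)⁻¹ = t'
        field_simp [hχ0 g]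
        linear_combination h5
      have hprod : χ g * ψ g = (eps g : K) := by
        change χ g * ((eps g : K) * (χ g)⁻¹) = (eps g : K)
        field_simp [hχ0 g]
      rw [hsum, hprod]
  · -- dimension two: the minimal invariant subspace itself
    have h2' : Module.finrank K U = 2 := le_antisymm hle2 h2
    refine ⟨U, inferInstance, inferInstance, inferInstance, ρU, h2', ?_, ?_⟩
    · intro g hg _
      exact restrictRep_eq_one ρ U hUinv g hg
    · intro g t' h
      rw [huniq g t' h]
      exact charpoly_of_irreducible_finrank_two h2' ρU eps t hrelU hirr g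

end MainTheorem

end Fermat.Agent.S29.helper2519
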