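/-
S29-DIM2, part 1 (helper2632): Burnside's theorem on irreducible matrix algebras over an
algebraically closed field (via the Jacobson density theorem of Mathlib). Mathlib only.
-/
import Mathlib

set_option autoImplicit false

noncomputable section

namespace Fermat.Agent.S29.helper2632

open Module Polynomial

section Burnside

variable {K V : Type*} [Field K] [AddCommGroup V] [Module K V]

/-- **Burnside's theorem**: a subalgebra of `End K V` acting irreducibly on a finite-dimensional
space over an algebraically closed field is everything. -/
theorem burnside [IsAlgClosed K] [FiniteDimensional K V] [Nontrivial V]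
    (A : Subalgebra K (Module.End K V))
    (hirr : ∀ U : Submodule K V, (∀ a ∈ A, ∀ u ∈ U, a u ∈ U) → U = ⊥ ∨ U = ⊤) : A = ⊤ := by
  classical
  -- `V` is a simple `A`-module
  have hsimple : IsSimpleModule (↥A) V := by
    rw [isSimpleModule_iff_toSpanSingleton_surjective]
    refine ⟨inferInstance, fun v hv w => ?_⟩
    -- the orbit `A v` is an invariant subspace
    let U : Submodule K V :=
      { carrier := {u | ∃ a : A, (a : Module.End K V) v = u}
        add_mem' := by
          rintro _ _ ⟨a, rfl⟩ ⟨b, rfl⟩
          exact ⟨a + b, by simp⟩
        zero_mem' := ⟨0, by simp⟩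
        smul_mem' := by
          rintro c _ ⟨a, rfl⟩
          exact ⟨c • a, by simp⟩ }
    have hU : ∀ a ∈ A, ∀ u ∈ U, a u ∈ U := by
      rintro a ha _ ⟨b, rfl⟩
      exact ⟨⟨a, ha⟩ * b, by simp⟩
    have hvU : v ∈ U := ⟨1, by simp⟩
    rcases hirr U hU with h | h
    · rw [h] at hvU
      exact absurd ((Submodule.mem_bot K).1 hvU) hv
    · have hw : w ∈ U := by rw [h]; trivial
      obtain ⟨a, ha⟩ := hw
      exact ⟨a, ha⟩
  -- Schur: `A`-endomorphisms are scalars
  have hschur : ∀ φ : Module.End (↥A) V, ∃ c : K, ∀ v, φ v = c • v := by
    intro φ
    -- `φ` is `K`-linear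
    let φK : Module.End K V :=
      { toFun := φ
        map_add' := φ.map_add
        map_smul' := by
          intro c v
          have h := φ.map_smul (algebraMap K A c) v
          have e : ∀ x : V, (algebraMap K A c) • x = c • x := by
            intro x
            change ((algebraMap K A c : A) : Module.End K V) x = c • x
            simp [Algebra.algebraMap_eq_smul_one]
          rw [e, e] at h
          exact h }
    obtain ⟨c, hc⟩ := Module.End.exists_eigenvalue φK
    obtain ⟨v, hv⟩ := hc.exists_hasEigenvector
    refine ⟨c, ?_⟩
    let U : Submodule K V := LinearMap.ker (φK - c • (1 : Module.End K V))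
    have hU : ∀ a ∈ A, ∀ u ∈ U, a u ∈ U := by
      intro a ha u hu
      have hu' : φ u = c • u := by
        have := LinearMap.mem_ker.1 hu
        simpa [φK, sub_eq_zero] using this
      have h1 : φ (a u) = a (φ u) := φ.map_smul (⟨a, ha⟩ : A) u
      refine LinearMap.mem_ker.2 ?_
      change φ (a u) - c • a u = 0
      rw [h1, hu', map_smul, sub_self]
    have hvU : v ∈ U := by
      refine LinearMap.mem_ker.2 ?_
      have := hv.apply_eq_smul
      simp [this]
    rcases hirr U hU with h | h
    · rw [h] at hvU
      exact absurd ((Submodule.mem_bot K).1 hvU) hv.2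
    · intro w
      have hw : w ∈ U := by rw [h]; trivial
      have := LinearMap.mem_ker.1 hw
      simpa [φK, sub_eq_zero] using this
  refine eq_top_iff.2 fun X _ => ?_
  -- `X` commutes with the `A`-endomorphisms, so density applies
  let f : Module.End (Module.End (↥A) V) V :=
    { toFun := X
      map_add' := X.map_add
      map_smul' := by
        intro φ v
        obtain ⟨c, hc⟩ := hschur φ
        change X (φ v) = φ (X v)
        rw [hc, hc, map_smul] }
  let b := Module.finBasis K V
  obtain ⟨r, hr⟩ := jacobson_density f (Finset.univ.image b)
  have hXr : X = (r : Module.End K V) := by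
    refine b.ext fun i => ?_
    exact hr (b i) (Finset.mem_image_of_mem _ (Finset.mem_univ i))
  rw [hXr]
  exact r.2

end Burnside

end Fermat.Agent.S29.helper2632
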