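/-
S29-DIM2 (helper2632): the dimension-2 lemma for representations whose elements satisfy
quadratic relations `g^2 - t(g) g + eps(g) = 0` with `eps` a character.
Valid in every characteristic; the relation is only needed for one generator of each cyclic
subgroup (so only a "generator Chebotarev" statement is needed by the consumer).
Mathlib only (+ Burnside from `helper2632_Burnside`).
-/
import Mathlib
import Fermat.Agent.S29.helper2632_Burnside

set_option autoImplicit false

noncomputable section

namespace Fermat.Agent.S29.helper2632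

open Module Polynomial

/-! ### Lucas: powers of a root of a quadratic -/

/-- In `K[X]`: `X^2 - cX + e` divides `X^(2n) - s X^n + e^n` for a suitable scalar `s`. -/
theorem lucas_dvd {K : Type*} [Field K] (c e : K) (n : ℕ) :
    ∃ s : K, (X ^ 2 - C c * X + C e : K[X]) ∣ X ^ n * X ^ n - C s * X ^ n + C (e ^ n) := by
  obtain ⟨P, hP⟩ : ∃ P : K[X], P = X ^ 2 - C c * X + C e := ⟨_, rfl⟩
  rw [← hP]
  let x : AdjoinRoot P := AdjoinRoot.root P
  let o : K →+* AdjoinRoot P := AdjoinRoot.of P
  have hx : x ^ 2 - o c * x + o e = 0 := by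
    have h := AdjoinRoot.eval₂_root P
    rw [show P.eval₂ (AdjoinRoot.of P) (AdjoinRoot.root P)
        = (X ^ 2 - C c * X + C e : K[X]).eval₂ (AdjoinRoot.of P) (AdjoinRoot.root P) from by
      rw [← hP]] at h
    simpa [eval₂_add, eval₂_sub, eval₂_mul, eval₂_pow, eval₂_X, eval₂_C] using h
  obtain ⟨y, hy⟩ : ∃ y : AdjoinRoot P, y = o c - x := ⟨_, rfl⟩
  have hxy : x * y = o e := by rw [hy]; linear_combination -hx
  have hs : ∀ m : ℕ, ∃ s : K, x ^ m + y ^ m = o s := by
    intro m
    induction m using Nat.twoStepInduction with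
    | zero => exact ⟨2, by rw [pow_zero, pow_zero, map_ofNat]; norm_num⟩
    | one => exact ⟨c, by rw [hy]; ring⟩
    | more m h0 h1 =>
      obtain ⟨s0, hs0⟩ := h0
      obtain ⟨s1, hs1⟩ := h1
      refine ⟨c * s1 - e * s0, ?_⟩
      have e1 : x ^ (m + 2) + y ^ (m + 2)
          = (x + y) * (x ^ (m + 1) + y ^ (m + 1)) - x * y * (x ^ m + y ^ m) := by ring
      have e2 : x + y = o c := by rw [hy]; ring
      rw [e1, e2, hxy, hs0, hs1]
      simp [map_sub, map_mul]
  obtain ⟨s, hs'⟩ := hs n
  refine ⟨s, ?_⟩
  rw [← AdjoinRoot.mk_eq_zero]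
  have : x ^ n * x ^ n - o s * x ^ n + o (e ^ n) = 0 := by
    rw [← hs', map_pow, ← hxy]; ring
  simpa [x, o, AdjoinRoot.mk_X, AdjoinRoot.mk_C] using this

/-- Powers of an element satisfying `a^2 - c a + e = 0` satisfy `b^2 - s b + e^n = 0`. -/
theorem pow_quadratic {K R : Type*} [Field K] [Ring R] [Algebra K R] (a : R) (c e : K)
    (h : a * a - c • a + e • (1 : R) = 0) (n : ℕ) :
    ∃ s : K, a ^ n * a ^ n - s • a ^ n + e ^ n • (1 : R) = 0 := by
  obtain ⟨s, q, hq⟩ := lucas_dvd c e n
  refine ⟨s, ?_⟩
  have h1 := congrArg (aeval a) hq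
  have h2 : aeval a (X ^ 2 - C c * X + C e : K[X]) = 0 := by
    simp only [map_add, map_sub, map_mul, map_pow, aeval_X, aeval_C]
    rw [← h]
    simp [Algebra.smul_def, pow_two]
  rw [map_mul, h2, zero_mul] at h1
  rw [← h1]
  simp [Algebra.smul_def]

/-! ### The polarised relation -/

theorem rel_iff {E : Type*} [AddCommGroup E] (x y z : E) : x - y + z = 0 ↔ x = y - z := by
  constructor
  · intro h
    rw [eq_sub_iff_add_eq, ← sub_eq_zero, ← h]; abel
  · intro h
    rw [h]; abel

/-- If every `ρ g` satisfies `ρ g ^ 2 = t g • ρ g - ε g`, with `ε` multiplicative, then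
`ρ g * ρ h + ρ h * ρ g = t g • ρ h + t h • ρ g + (t (g h) - t g * t h)`. -/
theorem star_identity {K E : Type*} [Field K] [Ring E] [Algebra K E] {G : Type*} [Group G]
    (ρ : G →* E) (ε : G →* K) (t : G → K)
    (ht : ∀ g, ρ g * ρ g = t g • ρ g - ε g • (1 : E)) (g h : G) :
    ρ g * ρ h + ρ h * ρ g = t g • ρ h + t h • ρ g + (t (g * h) - t g * t h) • (1 : E) := by
  obtain ⟨a, ha⟩ : ∃ a : E, a = ρ g := ⟨_, rfl⟩
  obtain ⟨b, hb⟩ : ∃ b : E, b = ρ h := ⟨_, rfl⟩
  obtain ⟨a', ha'⟩ : ∃ a' : E, a' = ρ g⁻¹ := ⟨_, rfl⟩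
  obtain ⟨b', hb'⟩ : ∃ b' : E, b' = ρ h⁻¹ := ⟨_, rfl⟩
  have haa' : a * a' = 1 := by rw [ha, ha', ← map_mul, mul_inv_cancel, map_one]
  have hbb' : b * b' = 1 := by rw [hb, hb', ← map_mul, mul_inv_cancel, map_one]
  have hg : a * a = t g • a - ε g • (1 : E) := by rw [ha]; exact ht g
  have hh : b * b = t h • b - ε h • (1 : E) := by rw [hb]; exact ht h
  have hgh : (a * b) * (a * b) = t (g * h) • (a * b) - (ε g * ε h) • (1 : E) := by
    rw [ha, hb, ← map_mul ρ, ← map_mul ε]; exact ht (g * h)
  -- `ε g • a⁻¹ = t g - a`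
  have h1 : ε g • a' = t g • (1 : E) - a := by
    have h := congrArg (· * a') hg
    simp only [mul_assoc, haa', mul_one, sub_mul, smul_mul_assoc, one_mul] at h
    rw [h]; abel
  have h2 : ε h • b' = t h • (1 : E) - b := by
    have h := congrArg (· * b') hh
    simp only [mul_assoc, hbb', mul_one, sub_mul, smul_mul_assoc, one_mul] at h
    rw [h]; abel
  have h3 : (ε g * ε h) • (b' * a') = t (g * h) • (1 : E) - a * b := by
    have h := congrArg (· * (b' * a')) hgh
    have e1 : a * b * b' * a' = 1 := by rw [mul_assoc a b b', hbb', mul_one, haa']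
    have e2 : a * b * a * b * b' * a' = a * b := by
      rw [mul_assoc (a * b * a) b b', hbb', mul_one, mul_assoc (a * b) a a', haa', mul_one]
    simp only [mul_assoc, sub_mul, smul_mul_assoc, one_mul] at h
    simp only [← mul_assoc] at h
    rw [e2, e1] at h
    rw [h]; abel
  have h4 : (t h • (1 : E) - b) * (t g • (1 : E) - a) = t (g * h) • (1 : E) - a * b := by
    rw [← h2, ← h1, smul_mul_smul_comm, mul_comm (ε h) (ε g), h3]
  have h5 : (t h • (1 : E) - b) * (t g • (1 : E) - a)
      = (t h * t g) • (1 : E) - t h • a - t g • b + b * a := by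
    simp only [sub_mul, mul_sub, smul_mul_assoc, mul_smul_comm, one_mul, mul_one]
    module
  have h6 := h4.symm.trans h5
  have h7 : b * a = t (g * h) • (1 : E) - a * b - (t h * t g) • (1 : E) + t h • a + t g • b := by
    rw [h6]; abel
  rw [← ha, ← hb, h7]
  module

/-! ### Irreducible representations with quadratic relations -/

section Irr

variable {K W G : Type*} [Field K] [AddCommGroup W] [Module K W] [Group G]

/-- Irreducibility of a representation given by a monoid hom into `End K W`. -/
def Irr (ρ : G →* Module.End K W) : Prop :=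
  ∀ U : Submodule K W, (∀ g : G, ∀ u ∈ U, ρ g u ∈ U) → U = ⊥ ∨ U = ⊤

/-- Burnside for a group: the operators `ρ g` span `End K W`. -/
theorem span_range_eq_top [IsAlgClosed K] [FiniteDimensional K W] [Nontrivial W]
    (ρ : G →* Module.End K W) (hirr : Irr ρ) :
    Submodule.span K (Set.range ρ) = ⊤ := by
  have hA := burnside (Algebra.adjoin K (Set.range ρ))
    (fun U hU => hirr U (fun g u hu => hU (ρ g) (Algebra.subset_adjoin ⟨g, rfl⟩) u hu))
  have h := Algebra.adjoin_eq_span K (Set.range ρ)
  rw [hA] at h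
  have hcl : (Submonoid.closure (Set.range ρ) : Set (Module.End K W)) = Set.range ρ := by
    rw [← MonoidHom.coe_mrange, Submonoid.closure_eq]
  rw [hcl, Algebra.top_toSubmodule] at h
  exact h.symm

/-- The bilinear identity on all of `End K W` (existential form). -/
theorem bilinear_identity [IsAlgClosed K] [FiniteDimensional K W] [Nontrivial W]
    (ρ : G →* Module.End K W) (ε : G →* K) (hirr : Irr ρ)
    (hQ : ∀ g, ∃ c : K, ρ g * ρ g - c • ρ g + ε g • (1 : Module.End K W) = 0)
    (X : Module.End K W) :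
    ∃ α : K, ∀ Y : Module.End K W, ∃ β γ : K,
      X * Y + Y * X = α • Y + β • X + γ • (1 : Module.End K W) := by
  choose t ht' using hQ
  have ht : ∀ g, ρ g * ρ g = t g • ρ g - ε g • (1 : Module.End K W) := by
    intro g
    exact (rel_iff _ _ _).1 (ht' g)
  have hstar := star_identity ρ ε t ht
  have hspan := span_range_eq_top ρ hirr
  -- first variable
  have P1 : ∀ X : Module.End K W, ∃ α : K, ∀ h : G, ∃ γ : K,
      X * ρ h + ρ h * X = α • ρ h + t h • X + γ • (1 : Module.End K W) := by
    intro X
    have hX : X ∈ Submodule.span K (Set.range ρ) := by rw [hspan]; trivial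
    induction hX using Submodule.span_induction with
    | mem x hx =>
      obtain ⟨g, rfl⟩ := hx
      exact ⟨t g, fun h => ⟨t (g * h) - t g * t h, hstar g h⟩⟩
    | zero => exact ⟨0, fun h => ⟨0, by simp⟩⟩
    | add x y _ _ hx hy =>
      obtain ⟨α, hα⟩ := hx
      obtain ⟨α', hα'⟩ := hy
      refine ⟨α + α', fun h => ?_⟩
      obtain ⟨γ, hγ⟩ := hα h
      obtain ⟨γ', hγ'⟩ := hα' h
      refine ⟨γ + γ', ?_⟩
      rw [add_mul, mul_add, add_add_add_comm, hγ, hγ']
      module
    | smul c x _ hx =>
      obtain ⟨α, hα⟩ := hx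
      refine ⟨c * α, fun h => ?_⟩
      obtain ⟨γ, hγ⟩ := hα h
      refine ⟨c * γ, ?_⟩
      rw [smul_mul_assoc, mul_smul_comm, ← smul_add, hγ]
      module
  obtain ⟨α, hα⟩ := P1 X
  refine ⟨α, fun Y => ?_⟩
  have hY : Y ∈ Submodule.span K (Set.range ρ) := by rw [hspan]; trivial
  induction hY using Submodule.span_induction with
  | mem y hy =>
    obtain ⟨h, rfl⟩ := hy
    obtain ⟨γ, hγ⟩ := hα h
    exact ⟨t h, γ, hγ⟩
  | zero => exact ⟨0, 0, by simp⟩
  | add x y _ _ hx hy =>
    obtain ⟨β, γ, h1⟩ := hx
    obtain ⟨β', γ', h2⟩ := hy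
    refine ⟨β + β', γ + γ', ?_⟩
    rw [mul_add, add_mul, add_add_add_comm, h1, h2]
    module
  | smul c x _ hx =>
    obtain ⟨β, γ, h1⟩ := hx
    refine ⟨c * β, c * γ, ?_⟩
    rw [mul_smul_comm, smul_mul_assoc, ← smul_add, h1]
    module

/-- The dimension bound: an irreducible representation all of whose elements satisfy
`g^2 - c g + ε(g) = 0` (with `ε` a character) has dimension at most `2`.  Any characteristic. -/
theorem finrank_le_two [IsAlgClosed K] [FiniteDimensional K W] [Nontrivial W]
    (ρ : G →* Module.End K W) (ε : G →* K) (hirr : Irr ρ)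
    (hQ : ∀ g, ∃ c : K, ρ g * ρ g - c • ρ g + ε g • (1 : Module.End K W) = 0) :
    Module.finrank K W ≤ 2 := by
  classical
  by_contra hlt
  have hn : 3 ≤ Module.finrank K W := by omega
  let b := Module.finBasis K W
  let e := LinearMap.toMatrixAlgEquiv b
  let i0 : Fin (Module.finrank K W) := ⟨0, by omega⟩
  let i1 : Fin (Module.finrank K W) := ⟨1, by omega⟩
  let i2 : Fin (Module.finrank K W) := ⟨2, by omega⟩
  have h01 : i0 ≠ i1 := by simp [i0, i1, Fin.ext_iff]
  have h12 : i1 ≠ i2 := by simp [i1, i2, Fin.ext_iff]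
  have h02 : i0 ≠ i2 := by simp [i0, i2, Fin.ext_iff]
  obtain ⟨α, hα⟩ := bilinear_identity ρ ε hirr hQ (e.symm (Matrix.single i0 i1 (1 : K)))
  obtain ⟨β, γ, h⟩ := hα (e.symm (Matrix.single i1 i2 (1 : K)))
  have h' := congrArg e h
  simp only [map_add, map_mul, map_smul, map_one, AlgEquiv.apply_symm_apply] at h'
  rw [Matrix.single_mul_single_same, Matrix.single_mul_single_of_ne _ _ _ _ h02.symm] at h'
  have h'' := congrFun (congrFun h' i0) i2
  simp [h12, h02, h01.symm] at h''

/-- If every `ρ g` is a scalar, an irreducible representation is one-dimensional. -/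
theorem finrank_eq_one_of_scalar [Nontrivial W]
    (ρ : G →* Module.End K W) (hirr : Irr ρ)
    (hs : ∀ g, ∃ c : K, ρ g = c • (1 : Module.End K W)) : Module.finrank K W = 1 := by
  obtain ⟨v, hv⟩ := exists_ne (0 : W)
  have hU : ∀ g : G, ∀ u ∈ Submodule.span K {v}, ρ g u ∈ Submodule.span K {v} := by
    intro g u hu
    obtain ⟨c, hc⟩ := hs g
    rw [hc]
    simpa using Submodule.smul_mem _ c hu
  rcases hirr _ hU with h | h
  · exact absurd (Submodule.span_singleton_eq_bot.1 h) hv
  · rw [← finrank_top K W, ← h, finrank_span_singleton hv]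

/-- Cayley–Hamilton for `2 × 2` matrices, in the form used below. -/
theorem cayley_hamilton_two (N : Matrix (Fin 2) (Fin 2) K) :
    N * N = N.trace • N - N.det • (1 : Matrix (Fin 2) (Fin 2) K) := by
  ext i j
  fin_cases i <;> fin_cases j <;>
    simp [Matrix.mul_apply, Fin.sum_univ_two, Matrix.trace, Matrix.det_fin_two] <;> ring

/-- In dimension two the relations pin down the characteristic polynomial. -/
theorem charpoly_of_finrank_two [FiniteDimensional K W] [Nontrivial W]
    (ρ : G →* Module.End K W) (ε : G →* K) (hirr : Irr ρ)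
    (hQ : ∀ g, ∃ c : K, ρ g * ρ g - c • ρ g + ε g • (1 : Module.End K W) = 0)
    (hW : Module.finrank K W = 2) (g : G) (c : K)
    (hrel : ρ g * ρ g - c • ρ g + ε g • (1 : Module.End K W) = 0) :
    (ρ g).charpoly = X ^ 2 - C c * X + C (ε g) := by
  classical
  let b := Module.finBasisOfFinrankEq K W hW
  let e := LinearMap.toMatrixAlgEquiv b
  -- transported relations
  have hM : ∀ (g : G) (c : K), ρ g * ρ g - c • ρ g + ε g • (1 : Module.End K W) = 0 →
      e (ρ g) * e (ρ g) = c • e (ρ g) - ε g • (1 : Matrix (Fin 2) (Fin 2) K) := by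
    intro g c h
    have h' := congrArg e h
    simp only [map_add, map_sub, map_mul, map_smul, map_one, map_zero] at h'
    exact (rel_iff _ _ _).1 h'
  have hinv : ∀ g : G, e (ρ g) * e (ρ g⁻¹) = 1 := by
    intro g
    rw [← map_mul, ← map_mul, mul_inv_cancel, map_one, map_one]
  have hε : ∀ g : G, ε g ≠ 0 := by
    intro g h0
    have := map_mul ε g g⁻¹
    rw [mul_inv_cancel, map_one, h0, zero_mul] at this
    exact one_ne_zero this
  -- key: both trace and determinant are determined for non-scalar elements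
  have key : ∀ (g : G) (c : K), ρ g * ρ g - c • ρ g + ε g • (1 : Module.End K W) = 0 →
      ((e (ρ g)).trace - c) • e (ρ g) = ((e (ρ g)).det - ε g) • (1 : Matrix (Fin 2) (Fin 2) K) := by
    intro g c h
    have h1 := hM g c h
    have h2 := cayley_hamilton_two (e (ρ g))
    rw [h1] at h2
    rw [sub_smul, sub_smul, sub_eq_sub_iff_add_eq_add]
    rw [sub_eq_sub_iff_add_eq_add] at h2
    rw [← h2, add_comm]
  have hdet_ns : ∀ g : G, (∀ l : K, e (ρ g) ≠ l • (1 : Matrix (Fin 2) (Fin 2) K)) →
      (e (ρ g)).det = ε g := by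
    intro g hns
    obtain ⟨c, hc⟩ := hQ g
    have hk := key g c hc
    by_cases htr : (e (ρ g)).trace - c = 0
    · rw [htr, zero_smul] at hk
      have h00 := congrFun (congrFun hk 0) 0
      simp at h00
      exact (sub_eq_zero.1 h00.symm)
    · exfalso
      refine hns (((e (ρ g)).trace - c)⁻¹ * ((e (ρ g)).det - ε g)) ?_
      rw [mul_smul, ← hk, smul_smul, inv_mul_cancel₀ htr, one_smul]
  -- a non-scalar element exists
  have hex : ∃ h0 : G, ∀ l : K, e (ρ h0) ≠ l • (1 : Matrix (Fin 2) (Fin 2) K) := by
    by_contra hcon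
    push Not at hcon
    have : Module.finrank K W = 1 := by
      refine finrank_eq_one_of_scalar ρ hirr (fun g => ?_)
      obtain ⟨l, hl⟩ := hcon g
      refine ⟨l, e.injective ?_⟩
      rw [hl, map_smul, map_one]
    omega
  obtain ⟨h0, hh0⟩ := hex
  have hdet : ∀ g : G, (e (ρ g)).det = ε g := by
    intro g
    by_cases hns : ∀ l : K, e (ρ g) ≠ l • (1 : Matrix (Fin 2) (Fin 2) K)
    · exact hdet_ns g hns
    · push Not at hns
      obtain ⟨l, hl⟩ := hns
      have hl0 : l ≠ 0 := by
        intro h0'
        have := hinv g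
        rw [hl, h0', zero_smul, zero_mul] at this
        exact zero_ne_one this
      have hns' : ∀ m : K, e (ρ (g * h0)) ≠ m • (1 : Matrix (Fin 2) (Fin 2) K) := by
        intro m hm
        rw [map_mul, map_mul, hl, smul_mul_assoc, one_mul] at hm
        refine hh0 (l⁻¹ * m) ?_
        rw [mul_smul, ← hm, smul_smul, inv_mul_cancel₀ hl0, one_smul]
      have h1 := hdet_ns (g * h0) hns'
      have h2 := hdet_ns h0 hh0
      rw [map_mul, map_mul, Matrix.det_mul, h2, map_mul] at h1
      exact mul_right_cancel₀ (hε h0) h1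
  have htr : (e (ρ g)).trace = c := by
    have hk := key g c hrel
    rw [hdet g, sub_self, zero_smul] at hk
    by_contra hne
    have hz : e (ρ g) = 0 := by
      have := smul_eq_zero.1 hk
      rcases this with h | h
      · exact absurd (sub_eq_zero.1 h) hne
      · exact h
    have := hinv g
    rw [hz, zero_mul] at this
    exact zero_ne_one this
  have hch : (ρ g).charpoly = (e (ρ g)).charpoly := (LinearMap.charpoly_toMatrix (ρ g) b).symm
  rw [hch, Matrix.charpoly_fin_two, htr, hdet g]

end Irr

/-! ### The one-dimensional case: `χ ⊕ ε/χ` -/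

section Diag

variable {K G : Type*} [Field K] [Group G]

/-- The representation `χ ⊕ ε χ⁻¹` on `K^2`. -/
def diagHom (χ ε : G →* K) : G →* Module.End K (Fin 2 → K) where
  toFun g := Matrix.toLin' (Matrix.diagonal ![χ g, ε g * (χ g)⁻¹])
  map_one' := by
    have : (![χ 1, ε 1 * (χ 1)⁻¹] : Fin 2 → K) = fun _ => 1 := by
      ext i; fin_cases i <;> simp
    rw [this, Matrix.diagonal_one, Matrix.toLin'_one]; rfl
  map_mul' g h := by
    have : (![χ (g * h), ε (g * h) * (χ (g * h))⁻¹] : Fin 2 → K)
        = fun i => ![χ g, ε g * (χ g)⁻¹] i * ![χ h, ε h * (χ h)⁻¹] i := by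
      ext i; fin_cases i
      · simp
      · simp; ring
    rw [this, ← Matrix.diagonal_mul_diagonal, Matrix.toLin'_mul]; rfl

theorem diagHom_charpoly (χ ε : G →* K) (g : G) (hχ : χ g ≠ 0) :
    (diagHom χ ε g).charpoly = X ^ 2 - C (χ g + ε g * (χ g)⁻¹) * X + C (ε g) := by
  have hab : χ g * (ε g * (χ g)⁻¹) = ε g := by field_simp
  change (Matrix.toLin' (Matrix.diagonal ![χ g, ε g * (χ g)⁻¹])).charpoly = _
  rw [Matrix.charpoly_toLin', Matrix.charpoly_diagonal, Fin.prod_univ_two]
  simp only [Matrix.cons_val_zero, Matrix.cons_val_one]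
  have key : ∀ a b : K, (X - C a) * (X - C b) = X ^ 2 - C (a + b) * X + C (a * b) := by
    intro a b
    simp only [map_add, map_mul]
    ring
  rw [key, hab]

theorem diagHom_eq_one (χ ε : G →* K) (g : G) (h1 : χ g = 1) (h2 : ε g = 1) :
    diagHom χ ε g = 1 := by
  have : (![χ g, ε g * (χ g)⁻¹] : Fin 2 → K) = fun _ => 1 := by
    ext i; fin_cases i <;> simp [h1, h2]
  change Matrix.toLin' (Matrix.diagonal ![χ g, ε g * (χ g)⁻¹]) = 1
  rw [this, Matrix.diagonal_one, Matrix.toLin'_one]; rfl

end Diag

/-! ### Restriction to an invariant subspace -/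

section Reduce

variable {K V G : Type*} [Field K] [AddCommGroup V] [Module K V] [Group G]

/-- Restriction of a representation to an invariant subspace. -/
def restrictHom (ρ : G →* Module.End K V) (W : Submodule K V)
    (hW : ∀ g : G, ∀ u ∈ W, ρ g u ∈ W) : G →* Module.End K W where
  toFun g := (ρ g).restrict (hW g)
  map_one' := by ext u; simp
  map_mul' g h := by ext u; simp

theorem restrictHom_apply (ρ : G →* Module.End K V) (W : Submodule K V)
    (hW : ∀ g : G, ∀ u ∈ W, ρ g u ∈ W) (g : G) (u : W) :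
    ((restrictHom ρ W hW g u : W) : V) = ρ g (u : V) := rfl

theorem restrictHom_rel (ρ : G →* Module.End K V) (W : Submodule K V)
    (hW : ∀ g : G, ∀ u ∈ W, ρ g u ∈ W) (g : G) (c e : K)
    (h : ρ g * ρ g - c • ρ g + e • (1 : Module.End K V) = 0) :
    restrictHom ρ W hW g * restrictHom ρ W hW g - c • restrictHom ρ W hW g
      + e • (1 : Module.End K W) = 0 := by
  ext u
  have := congrArg (fun f : Module.End K V => f (u : V)) h
  simpa [restrictHom_apply] using this

theorem restrictHom_eq_one (ρ : G →* Module.End K V) (W : Submodule K V)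
    (hW : ∀ g : G, ∀ u ∈ W, ρ g u ∈ W) (g : G) (h : ρ g = 1) :
    restrictHom ρ W hW g = 1 := by
  ext u
  simp [restrictHom_apply, h]

/-- A nonzero finite-dimensional representation has an irreducible subrepresentation. -/
theorem exists_irr_sub [FiniteDimensional K V] [Nontrivial V] (ρ : G →* Module.End K V) :
    ∃ (W : Submodule K V) (hW : ∀ g : G, ∀ u ∈ W, ρ g u ∈ W),
      W ≠ ⊥ ∧ Irr (restrictHom ρ W hW) := by
  let S : Set (Submodule K V) := {U | U ≠ ⊥ ∧ ∀ g : G, ∀ u ∈ U, ρ g u ∈ U}
  have hS : S.Nonempty := ⟨⊤, top_ne_bot, fun _ _ _ => trivial⟩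
  obtain ⟨W, hWS, hmin⟩ := (wellFounded_lt (α := Submodule K V)).has_min S hS
  refine ⟨W, hWS.2, hWS.1, fun U hU => ?_⟩
  by_cases hbot : U = ⊥
  · exact Or.inl hbot
  right
  have hU' : ∀ g : G, ∀ u ∈ U.map W.subtype, ρ g u ∈ U.map W.subtype := by
    rintro g _ ⟨u, hu, rfl⟩
    exact ⟨restrictHom ρ W hWS.2 g u, hU g u hu, rfl⟩
  have hne : U.map W.subtype ≠ ⊥ := by
    intro h
    exact hbot (Submodule.map_injective_of_injective W.injective_subtype
      (h.trans (Submodule.map_bot _).symm))
  have hle : U.map W.subtype ≤ W := Submodule.map_subtype_le W U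
  have heq : U.map W.subtype = W := by
    by_contra hne'
    exact hmin _ ⟨hne, hU'⟩ (lt_of_le_of_ne hle hne')
  apply Submodule.map_injective_of_injective W.injective_subtype
  rw [Submodule.map_subtype_top]
  exact heq

end Reduce

/-! ### The package -/

/-- **Dimension-two package.**  Let `V` be a nonzero finite-dimensional representation of a group
`G` over an algebraically closed field `K` (any characteristic) and `eps : G →* K` a character.
Assume every `g` is a power `h ^ n` of an element `h` satisfying a quadratic relation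
`h^2 - c h + eps h = 0` on `V`.  Then there is a two-dimensional representation `rho2` such that
every `g` satisfying `g^2 - c g + eps g = 0` on `V` has
`charpoly (rho2 g) = X^2 - c X + eps g`, and `rho2 g = 1` whenever `rho g = 1` and `eps g = 1`. -/
theorem exists_two_dim (K : Type*) [Field K] [IsAlgClosed K] {G : Type*} [Group G]
    {V : Type*} [AddCommGroup V] [Module K V] [FiniteDimensional K V] [Nontrivial V]
    (rho : G →* Module.End K V) (eps : G →* K)
    (H : ∀ g : G, ∃ (h : G) (n : ℕ) (c : K), h ^ n = g ∧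
      rho h * rho h - c • rho h + eps h • (1 : Module.End K V) = 0) :
    ∃ rho2 : G →* Module.End K (Fin 2 → K),
      (∀ (g : G) (c : K), rho g * rho g - c • rho g + eps g • (1 : Module.End K V) = 0 →
        (rho2 g).charpoly = X ^ 2 - C c * X + C (eps g)) ∧
      (∀ g : G, rho g = 1 → eps g = 1 → rho2 g = 1) := by
  classical
  obtain ⟨W, hW, hne, hirr⟩ := exists_irr_sub rho
  have : Nontrivial W := Submodule.nontrivial_iff_ne_bot.2 hne
  have hQ : ∀ g : G, ∃ c : K, restrictHom rho W hW g * restrictHom rho W hW g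
      - c • restrictHom rho W hW g + eps g • (1 : Module.End K W) = 0 := by
    intro g
    obtain ⟨h, n, c, rfl, hc⟩ := H g
    obtain ⟨s, hs⟩ := pow_quadratic (restrictHom rho W hW h) c (eps h)
      (restrictHom_rel rho W hW h c (eps h) hc) n
    exact ⟨s, by rw [map_pow, map_pow]; exact hs⟩
  have hεne : ∀ g : G, eps g ≠ 0 := by
    intro g h0
    have := map_mul eps g g⁻¹
    rw [mul_inv_cancel, map_one, h0, zero_mul] at this
    exact one_ne_zero this
  have h2 := finrank_le_two (restrictHom rho W hW) eps hirr hQ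
  have h1 : 0 < Module.finrank K W := Module.finrank_pos
  rcases (by omega : Module.finrank K W = 1 ∨ Module.finrank K W = 2) with hd | hd
  · -- one-dimensional: a character `χ`
    let b := Module.finBasisOfFinrankEq K W hd
    let χ : G →* K := LinearMap.det.comp (restrictHom rho W hW)
    have hχ : ∀ g : G, restrictHom rho W hW g = χ g • (1 : Module.End K W) := by
      intro g
      apply (LinearMap.toMatrix b b).injective
      have hdet := LinearMap.det_toMatrix b (restrictHom rho W hW g)
      ext i j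
      have hi : i = 0 := Subsingleton.elim _ _
      have hj : j = 0 := Subsingleton.elim _ _
      subst hi hj
      rw [Matrix.det_unique] at hdet
      simp only [map_smul, Matrix.smul_apply, smul_eq_mul]
      rw [show (LinearMap.toMatrix b b) (1 : Module.End K W) = 1 from LinearMap.toMatrix_one b]
      simp only [Matrix.one_apply_eq, mul_one]
      exact hdet
    have hχne : ∀ g : G, χ g ≠ 0 := by
      intro g h0
      have := map_mul χ g g⁻¹
      rw [mul_inv_cancel, map_one, h0, zero_mul] at this
      exact one_ne_zero this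
    refine ⟨diagHom χ eps, fun g c hrel => ?_, fun g hg1 hε1 => ?_⟩
    · have hr := restrictHom_rel rho W hW g c (eps g) hrel
      rw [hχ g] at hr
      have hr' : (χ g * χ g - c * χ g + eps g) • (1 : Module.End K W) = 0 := by
        rw [← hr]
        simp only [smul_mul_assoc, mul_smul_comm, one_mul, smul_smul, add_smul, sub_smul]
      have hr'' : χ g * χ g - c * χ g + eps g = 0 := by
        rcases smul_eq_zero.1 hr' with h | h
        · exact h
        · exact absurd h one_ne_zero
      rw [diagHom_charpoly χ eps g (hχne g)]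
      have hc : c = χ g + eps g * (χ g)⁻¹ := by
        have := hχne g
        field_simp
        linear_combination -hr''
      rw [hc]
    · have h1' : χ g = 1 := by
        change LinearMap.det (restrictHom rho W hW g) = 1
        rw [restrictHom_eq_one rho W hW g hg1, map_one]
      exact diagHom_eq_one χ eps g h1' hε1
  · -- two-dimensional: the constituent itself
    let e : W ≃ₗ[K] (Fin 2 → K) := (Module.finBasisOfFinrankEq K W hd).equivFun
    refine ⟨(e.conjRingEquiv : Module.End K W →+* Module.End K (Fin 2 → K)).toMonoidHom.comp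
      (restrictHom rho W hW), fun g c hrel => ?_, fun g hg1 _ => ?_⟩
    · have hr := restrictHom_rel rho W hW g c (eps g) hrel
      have := charpoly_of_finrank_two (restrictHom rho W hW) eps hirr hQ hd g c hr
      rw [← this]
      exact LinearEquiv.charpoly_conj e (restrictHom rho W hW g)
    · change e.conjRingEquiv (restrictHom rho W hW g) = 1
      rw [restrictHom_eq_one rho W hW g hg1, map_one]

end Fermat.Agent.S29.helper2632
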