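/-
S29, module M11 (abstract final assembly), helper2802: BACKUP entry point of the endgame
(the owner's copy is `helper6752_Endgame`); the inputs are stated in the providers' shapes.

Pure algebra + Prelude `ResidualGaloisRep` API; no modular curves.

* `ker_isMaximal`, `exists_root_quotient`: a ring hom `φ : Z̄ →+* k` into a field of
  characteristic `p` factors through the ALGEBRAICALLY CLOSED field `Z̄ ⧸ ker φ`.
* `chi p : GQ →* (ZMod p)ˣ`, `cyclo p K : GQ →* Kˣ`: the mod-`p` cyclotomic character, with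
  `chi_frobenius` / `cyclo_frobenius` (value `ℓ` at every Frobenius lift at `ℓ ≠ p`),
  `chi_inertia` (trivial on inertia at `ℓ ≠ p`) and `chi_finiteLevel`.
* `isAttachedTo_baseChangeAlong`, `isUnramifiedAt_baseChangeAlong`.
* `Stmt_GenCheb` (generator-Chebotarev for finite GALOIS levels), `QuadDatum` (nonzero
  finite-dimensional Galois module with the quadratic relation at Frobenius lifts),
  `FrobDatum`, and the assembly `exists_residualRep_of_quadDatum`, `result_of`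
  (conclusion = the frozen S29 statement).  The dimension-two lemma is consumed from
  `helper9550_DimTwoGen`.
-/
import Fermat.Statements.S29
import Fermat.Agent.S29.helper9550_DimTwoGen

set_option autoImplicit false

open Polynomial

namespace Fermat.Agent.S29.helper2802

/-- The absolute Galois group of `ℚ` (same expression as in the frozen statement). -/
abbrev GQ : Type := AlgebraicClosure ℚ ≃ₐ[ℚ] AlgebraicClosure ℚ

/-- `ℚ̄`. -/
abbrev Qb : Type := AlgebraicClosure ℚ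

/-- The ring of all algebraic integers in `ℂ` (same expression as in the frozen statement). -/
abbrev Zb : Type := integralClosure ℤ ℂ

/-! ### The image field of `φ : Z̄ →+* k` is algebraically closed -/

section AlgClosed

variable {p : ℕ} {k : Type} [Field k] [CharP k p]

theorem ker_isMaximal (hp : p.Prime) (φ : Zb →+* k) : (RingHom.ker φ).IsMaximal := by
  have : Fact p.Prime := ⟨hp⟩
  have hprime : (RingHom.ker φ).IsPrime := RingHom.ker_isPrime φ
  apply Ideal.Quotient.maximal_of_isField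
  have : CharP (Zb ⧸ RingHom.ker φ) p :=
    (RingHom.kerLift φ).charP (RingHom.kerLift_injective φ) p
  let _ : Algebra (ZMod p) (Zb ⧸ RingHom.ker φ) := ZMod.algebra _ p
  have : Algebra.IsIntegral (ZMod p) (Zb ⧸ RingHom.ker φ) := by
    refine ⟨fun x => ?_⟩
    obtain ⟨a, rfl⟩ := Ideal.Quotient.mk_surjective x
    have ha : IsIntegral ℤ a := Algebra.IsIntegral.isIntegral a
    have h1 : IsIntegral ℤ (Ideal.Quotient.mk (RingHom.ker φ) a) :=
      ha.map (Ideal.Quotient.mkₐ ℤ (RingHom.ker φ))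
    exact h1.tower_top
  exact isField_of_isIntegral_of_isField' (R := ZMod p) (Field.toIsField (ZMod p))

/-- Every monic non-constant polynomial over `Z̄ ⧸ I` has a root (for any ideal `I`). -/
theorem exists_root_quotient (I : Ideal Zb) (f : (Zb ⧸ I)[X]) (hf : f.Monic)
    (hdeg : f.natDegree ≠ 0) : ∃ x, f.eval x = 0 := by
  have hmem : f ∈ Polynomial.lifts (Ideal.Quotient.mk I) := by
    rw [Polynomial.lifts_iff_coeff_lifts]
    intro n
    exact Ideal.Quotient.mk_surjective _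
  obtain ⟨F, hFmap, hFdeg, hFmonic⟩ := Polynomial.lifts_and_natDegree_eq_and_monic hmem hf
  have hFC : (F.map (algebraMap Zb ℂ)).degree ≠ 0 := by
    have hm : (F.map (algebraMap Zb ℂ)).Monic := hFmonic.map _
    have hnd : (F.map (algebraMap Zb ℂ)).natDegree = F.natDegree := hFmonic.natDegree_map _
    intro h0
    have := Polynomial.natDegree_eq_zero_iff_degree_le_zero.mpr h0.le
    rw [hnd, hFdeg] at this
    exact hdeg this
  obtain ⟨z, hz⟩ := IsAlgClosed.exists_root (F.map (algebraMap Zb ℂ)) hFC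
  have hzint : IsIntegral Zb z := ⟨F, hFmonic, by rwa [Polynomial.IsRoot.def, Polynomial.eval_map] at hz⟩
  have hzint' : IsIntegral ℤ z := isIntegral_trans z hzint
  let z' : Zb := ⟨z, hzint'⟩
  refine ⟨Ideal.Quotient.mk I z', ?_⟩
  have h0 : F.eval z' = 0 := by
    apply Subtype.val_injective
    have h1 : (algebraMap Zb ℂ) (F.eval z') = F.eval₂ (algebraMap Zb ℂ) ((algebraMap Zb ℂ) z') :=
      (Polynomial.eval₂_at_apply (algebraMap Zb ℂ) z').symm
    have h2 : F.eval₂ (algebraMap Zb ℂ) z = 0 := by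
      rwa [Polynomial.IsRoot.def, Polynomial.eval_map] at hz
    exact h1.trans h2
  rw [← hFmap, Polynomial.eval_map, Polynomial.eval₂_at_apply, h0, map_zero]

end AlgClosed

/-! ### The mod-`p` cyclotomic character -/

section Cyclo

/-- A root of unity lies in every valuation subring. -/
theorem mem_of_pow_eq_one (A : ValuationSubring Qb) {x : Qb} {n : ℕ} (hn : n ≠ 0)
    (h : x ^ n = 1) : x ∈ A := by
  rcases A.mem_or_inv_mem x with hx | hx
  · exact hx
  · have h1 : x ^ (n - 1) * x = 1 := by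
      rw [← pow_succ, Nat.sub_add_cancel (Nat.one_le_iff_ne_zero.mpr hn), h]
    have h2 : x = x⁻¹ ^ (n - 1) := by
      rw [inv_pow]
      exact eq_inv_of_mul_eq_one_right h1
    rw [h2]
    exact pow_mem hx _

/-- Differences of distinct powers of a primitive `p`-th root of unity are units as soon as
`p` is a unit. -/
theorem isUnit_pow_sub_pow {R : Type*} [CommRing R] [IsDomain R] {ζ : R} {p : ℕ}
    (hp : p.Prime) (hζ : IsPrimitiveRoot ζ p) (hpu : IsUnit (p : R)) {a b : ℕ} (hab : a < b)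
    (hb : b < p) : IsUnit (ζ ^ b - ζ ^ a) := by
  have hζu : IsUnit ζ := hζ.isUnit hp.ne_zero
  obtain ⟨n, rfl⟩ : ∃ n, p = n + 1 := ⟨p - 1, (Nat.succ_pred_eq_of_pos hp.pos).symm⟩
  have hprod := hζ.prod_one_sub_pow_eq_order
  have hk : b - a - 1 ∈ Finset.range n := by
    rw [Finset.mem_range]; omega
  have hdvd : (1 - ζ ^ (b - a - 1 + 1)) ∣ ((n + 1 : ℕ) : R) := by
    have := Finset.dvd_prod_of_mem (fun k => (1 - ζ ^ (k + 1))) hk
    rw [hprod] at this
    simpa using this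
  have hu : IsUnit (1 - ζ ^ (b - a - 1 + 1)) := isUnit_of_dvd_unit hdvd hpu
  have hba : b - a - 1 + 1 = b - a := by omega
  rw [hba] at hu
  have heq : ζ ^ b - ζ ^ a = -(ζ ^ a * (1 - ζ ^ (b - a))) := by
    have : ζ ^ b = ζ ^ a * ζ ^ (b - a) := by rw [← pow_add]; congr 1; omega
    rw [this]; ring
  rw [heq]
  exact ((hζu.pow a).mul hu).neg

variable (p : ℕ) [Fact p.Prime]

theorem card_rootsOfUnity_Qb :
    haveI : NeZero p := ⟨(Fact.out : p.Prime).ne_zero⟩
    Nat.card (rootsOfUnity p Qb) = p :=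
  haveI : NeZero p := ⟨(Fact.out : p.Prime).ne_zero⟩
  haveI : NeZero (p : Qb) := ⟨Nat.cast_ne_zero.mpr (NeZero.ne p)⟩
  HasEnoughRootsOfUnity.natCard_rootsOfUnity Qb p

/-- The mod-`p` cyclotomic character of `Gal(ℚ̄/ℚ)`, as a monoid hom. -/
noncomputable def chi : GQ →* (ZMod p)ˣ :=
  have : NeZero p := ⟨(Fact.out : p.Prime).ne_zero⟩
  MonoidHom.mk'
    (fun σ => modularCyclotomicCharacter Qb (card_rootsOfUnity_Qb p) (σ : Qb ≃+* Qb))
    (fun a b => by rw [← map_mul]; congr 1)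

/-- The defining property of `chi` on `p`-th roots of unity. -/
theorem chi_spec (σ : GQ) {t : Qb} (ht : t ^ p = 1) :
    σ t = t ^ ((chi p σ : (ZMod p)ˣ) : ZMod p).val := by
  have : NeZero p := ⟨(Fact.out : p.Prime).ne_zero⟩
  have hu : IsUnit t := IsUnit.of_pow_eq_one ht (NeZero.ne p)
  obtain ⟨u, rfl⟩ := hu
  have hmem : u ∈ rootsOfUnity p Qb := by
    rw [mem_rootsOfUnity]; exact Units.ext (by simpa using ht)
  exact modularCyclotomicCharacter.spec Qb (card_rootsOfUnity_Qb p) (σ : Qb ≃+* Qb) hmem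

theorem exists_primitiveRoot_Qb : ∃ ζ : Qb, IsPrimitiveRoot ζ p := by
  have : NeZero p := ⟨(Fact.out : p.Prime).ne_zero⟩
  have : NeZero (p : Qb) := ⟨Nat.cast_ne_zero.mpr (NeZero.ne p)⟩
  exact HasEnoughRootsOfUnity.exists_primitiveRoot Qb p

/-- `chi σ` is determined by the action of `σ` on one primitive `p`-th root of unity. -/
theorem chi_eq_of_map_eq_pow (σ : GQ) {ζ : Qb} (hζ : IsPrimitiveRoot ζ p) {e : ℕ}
    (h : σ ζ = ζ ^ e) : ((chi p σ : (ZMod p)ˣ) : ZMod p) = (e : ZMod p) := by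
  have : NeZero p := ⟨(Fact.out : p.Prime).ne_zero⟩
  have h1 := chi_spec p σ hζ.pow_eq_one
  rw [h] at h1
  have hfin : IsOfFinOrder ζ :=
    isOfFinOrder_iff_pow_eq_one.mpr ⟨p, (Fact.out : p.Prime).pos, hζ.pow_eq_one⟩
  have h2 : e ≡ ((chi p σ : (ZMod p)ˣ) : ZMod p).val [MOD p] := by
    have := hfin.pow_eq_pow_iff_modEq.mp h1
    rwa [← hζ.eq_orderOf] at this
  have h3 := (ZMod.natCast_eq_natCast_iff _ _ _).mpr h2
  rw [ZMod.natCast_zmod_val] at h3
  exact h3.symm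

/-- Key local computation: if `σ` lies in the decomposition group of `A` (over `ℓ ≠ p`) and
acts on the residue field of `A` as `x ↦ x ^ e` on the image of a primitive `p`-th root of
unity, then `chi σ = e`. -/
theorem chi_eq_of_residue {ℓ : ℕ} (hℓ : ℓ.Prime) (hℓp : ℓ ≠ p) (A : ValuationSubring Qb)
    (hA : A.LiesOverPrime ℓ) (σ : GQ) (hσ : σ ∈ A.decompositionSubgroup ℚ) (e : ℕ)
    (h : ∀ x : IsLocalRing.ResidueField A,
      (⟨σ, hσ⟩ : A.decompositionSubgroup ℚ) • x = x ^ e) :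
    ((chi p σ : (ZMod p)ˣ) : ZMod p) = (e : ZMod p) := by
  have hp : p.Prime := Fact.out
  have : NeZero p := ⟨hp.ne_zero⟩
  obtain ⟨ζ, hζ⟩ := exists_primitiveRoot_Qb p
  have hζA : ζ ∈ A := mem_of_pow_eq_one A hp.ne_zero hζ.pow_eq_one
  let ζA : A := ⟨ζ, hζA⟩
  have hζAprim : IsPrimitiveRoot ζA p :=
    IsPrimitiveRoot.of_map_of_injective (f := A.subtype) hζ Subtype.val_injective
  -- `p` is a unit of `A`
  have hpu : IsUnit ((p : ℕ) : A) := by
    rw [← IsLocalRing.notMem_maximalIdeal]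
    intro hpm
    have hℓm : ((ℓ : ℕ) : A) ∈ IsLocalRing.maximalIdeal A := by
      rw [← ValuationSubring.coe_mem_nonunits_iff]
      have hcoe : (((ℓ : ℕ) : A) : Qb) = (ℓ : Qb) := by simp
      rw [hcoe]
      exact hA
    have hcop : Nat.Coprime p ℓ := (Nat.coprime_primes hp hℓ).mpr (Ne.symm hℓp)
    have hgcd := Nat.gcd_eq_gcd_ab p ℓ
    rw [hcop.gcd_eq_one] at hgcd
    have h1 : (1 : A) = (p : A) * ((Nat.gcdA p ℓ : ℤ) : A) + (ℓ : A) * ((Nat.gcdB p ℓ : ℤ) : A) := by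
      have := congrArg (fun z : ℤ => (z : A)) hgcd
      simpa using this
    have h2 : (1 : A) ∈ IsLocalRing.maximalIdeal A := by
      rw [h1]
      exact Ideal.add_mem _ (Ideal.mul_mem_right _ _ hpm) (Ideal.mul_mem_right _ _ hℓm)
    exact (Ideal.ne_top_iff_one _).mp (IsLocalRing.maximalIdeal.isMaximal A).ne_top h2
  -- the relation in the residue field
  set m : ℕ := ((chi p σ : (ZMod p)ˣ) : ZMod p).val with hm
  have hσζ : σ ζ = ζ ^ m := chi_spec p σ hζ.pow_eq_one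
  have hsmul : (⟨σ, hσ⟩ : A.decompositionSubgroup ℚ) • ζA = ζA ^ m := by
    apply Subtype.ext
    show σ ζ = _
    rw [hσζ]; rfl
  have hres : IsLocalRing.residue A (ζA ^ m - ζA ^ e) = 0 := by
    rw [map_sub, ← hsmul, IsLocalRing.ResidueField.residue_smul, h, map_pow, sub_self]
  have hnu : ¬ IsUnit (ζA ^ m - ζA ^ e) := by
    rw [← IsLocalRing.notMem_maximalIdeal, not_not, ← IsLocalRing.residue_eq_zero_iff]
    exact hres
  -- reduce the exponents mod p
  have hmod : ∀ i : ℕ, ζA ^ i = ζA ^ (i % p) := fun i => by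
    conv_lhs => rw [← Nat.div_add_mod i p, pow_add, pow_mul, hζAprim.pow_eq_one, one_pow, one_mul]
  have hlt : ∀ i : ℕ, i % p < p := fun i => Nat.mod_lt _ hp.pos
  have hcong : m % p = e % p := by
    by_contra hne
    rcases lt_or_gt_of_ne hne with hlt' | hlt'
    · apply hnu
      have := isUnit_pow_sub_pow hp hζAprim hpu hlt' (hlt e)
      rw [hmod m, hmod e]
      have h3 : ζA ^ (m % p) - ζA ^ (e % p) = -(ζA ^ (e % p) - ζA ^ (m % p)) := by ring
      rw [h3]
      exact this.neg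
    · apply hnu
      have := isUnit_pow_sub_pow hp hζAprim hpu hlt' (hlt m)
      rw [hmod m, hmod e]
      exact this
  have h4 : (m : ZMod p) = (e : ZMod p) := (ZMod.natCast_eq_natCast_iff' m e p).mpr hcong
  rw [hm, ZMod.natCast_zmod_val] at h4
  exact h4

/-- `chi` takes the value `ℓ` at every Frobenius lift at `ℓ ≠ p`. -/
theorem chi_frobenius {ℓ : ℕ} (hℓ : ℓ.Prime) (hℓp : ℓ ≠ p) (A : ValuationSubring Qb)
    (hA : A.LiesOverPrime ℓ) (σ : GQ) (hσ : A.IsFrobeniusAt σ ℓ) :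
    ((chi p σ : (ZMod p)ˣ) : ZMod p) = (ℓ : ZMod p) :=
  chi_eq_of_residue p hℓ hℓp A hA σ hσ.mem_decompositionSubgroup ℓ hσ.smul_residue_eq

/-- `chi` is trivial on inertia at `ℓ ≠ p`. -/
theorem chi_inertia {ℓ : ℕ} (hℓ : ℓ.Prime) (hℓp : ℓ ≠ p) (A : ValuationSubring Qb)
    (hA : A.LiesOverPrime ℓ) (σ : GQ) (hσ : σ ∈ A.inertiaSubgroupIn ℚ) : chi p σ = 1 := by
  obtain ⟨τ, hτ, rfl⟩ := hσ
  have hτ' : MulSemiringAction.toRingAut (A.decompositionSubgroup ℚ)
      (IsLocalRing.ResidueField A) τ = 1 := hτ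
  have h := chi_eq_of_residue p hℓ hℓp A hA τ.1 τ.2 1 (fun x => by
    have := congrArg (fun f : RingAut (IsLocalRing.ResidueField A) => f x) hτ'
    rw [pow_one]
    exact this)
  apply Units.ext
  rw [Units.val_one, ← Nat.cast_one]
  exact h

/-- `chi` factors through a finite level. -/
theorem chi_finiteLevel : ∃ L : IntermediateField ℚ Qb, FiniteDimensional ℚ L ∧
    ∀ σ : GQ, (∀ x ∈ L, σ x = x) → chi p σ = 1 := by
  obtain ⟨ζ, hζ⟩ := exists_primitiveRoot_Qb p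
  have hint : IsIntegral ℚ ζ :=
    (hζ.isIntegral (Fact.out : p.Prime).pos).tower_top
  refine ⟨IntermediateField.adjoin ℚ {ζ}, IntermediateField.adjoin.finiteDimensional hint,
    fun σ hσ => ?_⟩
  have h1 : σ ζ = ζ ^ 1 := by
    rw [pow_one]
    exact hσ ζ (IntermediateField.mem_adjoin_simple_self ℚ ζ)
  have h := chi_eq_of_map_eq_pow p σ hζ h1
  apply Units.ext
  rw [Units.val_one, ← Nat.cast_one]
  exact h

variable (K : Type*) [Field K] [CharP K p]

/-- The mod-`p` cyclotomic character with values in any field of characteristic `p`. -/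
noncomputable def cyclo : GQ →* Kˣ :=
  (Units.map (ZMod.castHom (dvd_refl p) K).toMonoidHom).comp (chi p)

theorem cyclo_val (σ : GQ) :
    ((cyclo p K σ : Kˣ) : K) = ZMod.castHom (dvd_refl p) K ((chi p σ : (ZMod p)ˣ) : ZMod p) :=
  rfl

theorem cyclo_frobenius {ℓ : ℕ} (hℓ : ℓ.Prime) (hℓp : ℓ ≠ p) (A : ValuationSubring Qb)
    (hA : A.LiesOverPrime ℓ) (σ : GQ) (hσ : A.IsFrobeniusAt σ ℓ) :
    ((cyclo p K σ : Kˣ) : K) = (ℓ : K) := by
  rw [cyclo_val, chi_frobenius p hℓ hℓp A hA σ hσ, map_natCast]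

theorem cyclo_eq_one_of_chi {σ : GQ} (h : chi p σ = 1) : cyclo p K σ = 1 := by
  unfold cyclo
  rw [MonoidHom.comp_apply, h, map_one]

end Cyclo

/-! ### Base change of the two properties -/

section BaseChange

variable {K k : Type} [Field K] [Field k]

theorem isAttachedTo_baseChangeAlong (j : K →+* k) (r : ResidualGaloisRep K) {N : ℕ}
    (g : CuspForm (CongruenceSubgroup.Gamma0 N) 2) (ψ : Zb →+* K)
    (h : r.IsAttachedTo g ψ) : (r.baseChangeAlong j).IsAttachedTo g (j.comp ψ) := by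
  intro ℓ hℓ hN hk A hA σ hσ
  have hK : (ℓ : K) ≠ 0 := fun h0 => hk (by rw [← map_natCast j, h0, map_zero])
  obtain ⟨a, ha, hc⟩ := h ℓ hℓ hN hK A hA σ hσ
  refine ⟨a, ha, ?_⟩
  let _ : Algebra K k := j.toAlgebra
  have h1 : LinearMap.charpoly ((r.ρ σ).baseChange k) = (LinearMap.charpoly (r.ρ σ)).map j :=
    LinearMap.charpoly_baseChange (r.ρ σ) k
  have h2 : LinearMap.charpoly ((r.baseChangeAlong j).ρ σ) =
      LinearMap.charpoly ((r.ρ σ).baseChange k) := rfl
  rw [h2, h1, hc]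
  simp [Polynomial.map_sub, Polynomial.map_add, Polynomial.map_mul, Polynomial.map_pow]

theorem isUnramifiedAt_baseChangeAlong (j : K →+* k) (r : ResidualGaloisRep K) {q : ℕ}
    (h : r.IsUnramifiedAt q) : (r.baseChangeAlong j).IsUnramifiedAt q := by
  intro A hA σ hσ
  let _ : Algebra K k := j.toAlgebra
  have h2 : (r.baseChangeAlong j).ρ σ = (r.ρ σ).baseChange k := rfl
  rw [h2, h A hA σ hσ, LinearMap.baseChange_one]
  rfl

end BaseChange

/-! ### The assembly -/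

section Assembly

theorem isAlgClosure_Qb : IsAlgClosure ℚ Qb :=
  ⟨inferInstance, AlgebraicClosure.isAlgebraic ℚ⟩

theorem normal_Qb : Normal ℚ Qb :=
  haveI := isAlgClosure_Qb
  IsAlgClosure.normal ℚ Qb

/-- **Generator form of Chebotarev** (existence only): for a finite Galois level `L ⊆ ℚ̄`, an
element `σ` of `Gal(ℚ̄/ℚ)` and a finite set `S` of numbers, there are a prime `q ∉ S`, a place
`A` of `ℚ̄` over `q`, a Frobenius lift `τ` at `A` and an exponent `n` such that `σ` and `τ ^ n`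
agree on `L`. -/
def Stmt_GenCheb : Prop :=
  ∀ (L : IntermediateField ℚ Qb), FiniteDimensional ℚ L → IsGalois ℚ L →
    ∀ (σ : GQ) (S : Finset ℕ), ∃ (q : ℕ) (A : ValuationSubring Qb) (τ : GQ) (n : ℕ),
      q.Prime ∧ q ∉ S ∧ A.LiesOverPrime q ∧ A.IsFrobeniusAt τ q ∧ ∀ x ∈ L, σ x = (τ ^ n) x

/-- **The datum the modular side has to deliver** (over a coefficient field `K`, for a system
of eigenvalues `a : ℕ → K`): a NONZERO finite-dimensional `K`-representation of `Gal(ℚ̄/ℚ)` of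
finite level, on which inertia at every prime `ℓ ∤ N p` acts trivially and every Frobenius lift
`σ` at such a prime satisfies `σ² - a ℓ • σ + ℓ = 0`.  No dimension, irreducibility or
semisimplicity statement is required. -/
def QuadDatum (N p : ℕ) (K : Type) [Field K] (a : ℕ → K) : Prop :=
  ∃ (E : Type) (_ : AddCommGroup E) (_ : Module K E), FiniteDimensional K E ∧ Nontrivial E ∧
    ∃ ρ : GQ →* Module.End K E, GaloisFactorsThroughFiniteLevel ρ ∧
      (∀ ℓ : ℕ, ℓ.Prime → ¬ ℓ ∣ N * p → ∀ A : ValuationSubring Qb, A.LiesOverPrime ℓ →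
        ∀ σ ∈ A.inertiaSubgroupIn ℚ, ρ σ = 1) ∧
      (∀ ℓ : ℕ, ℓ.Prime → ¬ ℓ ∣ N * p → ∀ A : ValuationSubring Qb, A.LiesOverPrime ℓ →
        ∀ σ : GQ, A.IsFrobeniusAt σ ℓ →
          ρ σ * ρ σ - a ℓ • ρ σ + (ℓ : K) • (1 : Module.End K E) = 0)

/-- The same datum with the eigenvalues indexed by `Nat.Primes` (the shape produced by the
operator-wise eigen-module constructions) gives a `QuadDatum`. -/
theorem quadDatum_of_primes {N p : ℕ} {K : Type} [Field K] (a : Nat.Primes → K)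
    (h : ∃ (E : Type) (_ : AddCommGroup E) (_ : Module K E), FiniteDimensional K E ∧
      Nontrivial E ∧ ∃ ρ : GQ →* Module.End K E, GaloisFactorsThroughFiniteLevel ρ ∧
        (∀ ℓ : ℕ, ℓ.Prime → ¬ ℓ ∣ N * p → ∀ A : ValuationSubring Qb, A.LiesOverPrime ℓ →
          ∀ σ ∈ A.inertiaSubgroupIn ℚ, ρ σ = 1) ∧
        (∀ (ℓ : ℕ) (hℓ : ℓ.Prime), ¬ ℓ ∣ N * p → ∀ A : ValuationSubring Qb,
          A.LiesOverPrime ℓ → ∀ σ : GQ, A.IsFrobeniusAt σ ℓ →
            ρ σ * ρ σ - a ⟨ℓ, hℓ⟩ • ρ σ + (ℓ : K) • (1 : Module.End K E) = 0)) :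
    QuadDatum N p K (fun ℓ => if hℓ : ℓ.Prime then a ⟨ℓ, hℓ⟩ else 0) := by
  obtain ⟨E, i1, i2, hfd, hnt, ρ, hfin, hunr, hES⟩ := h
  refine ⟨E, i1, i2, hfd, hnt, ρ, hfin, hunr, fun ℓ hℓ hℓN A hA σ hσ => ?_⟩
  have h1 : (fun ℓ : ℕ => if hℓ : ℓ.Prime then a ⟨ℓ, hℓ⟩ else 0) ℓ = a ⟨ℓ, hℓ⟩ := dif_pos hℓ
  rw [h1]
  exact hES ℓ hℓ hℓN A hA σ hσ

/-- **Core of the assembly.**  Over an algebraically closed field of characteristic `p`, a
`QuadDatum` gives a two-dimensional residual representation with the prescribed characteristic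
polynomial at EVERY Frobenius lift at every prime `ℓ ∤ N p`, unramified at those primes. -/
theorem exists_residualRep_of_quadDatum (hCheb : Stmt_GenCheb) {N p : ℕ} (hp : p.Prime)
    (hN : N ≠ 0) {K : Type} [Field K] [IsAlgClosed K] [CharP K p] (a : ℕ → K)
    (h : QuadDatum N p K a) :
    ∃ r : ResidualGaloisRep K,
      (∀ ℓ : ℕ, ℓ.Prime → ¬ ℓ ∣ N * p → ∀ A : ValuationSubring Qb, A.LiesOverPrime ℓ →
        ∀ σ : GQ, A.IsFrobeniusAt σ ℓ →
          LinearMap.charpoly (r.ρ σ) = X ^ 2 - C (a ℓ) * X + C (ℓ : K)) ∧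
      ∀ ℓ : ℕ, ℓ.Prime → ¬ ℓ ∣ N * p → r.IsUnramifiedAt ℓ := by
  have : Fact p.Prime := ⟨hp⟩
  have := normal_Qb
  obtain ⟨E, _, _, hfd, hnt, ρ, ⟨L₁, hL₁fd, hL₁⟩, hunr, hES⟩ := h
  obtain ⟨L₂, hL₂fd, hL₂⟩ := chi_finiteLevel p
  have hneq : ∀ ℓ : ℕ, ¬ ℓ ∣ N * p → ℓ ≠ p := fun ℓ h1 h2 => h1 (h2 ▸ dvd_mul_left _ _)
  -- the relation at Frobenius lifts, with constant term the cyclotomic character
  have hquad : ∀ ℓ : ℕ, ℓ.Prime → ¬ ℓ ∣ N * p → ∀ A : ValuationSubring Qb, A.LiesOverPrime ℓ →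
      ∀ σ : GQ, A.IsFrobeniusAt σ ℓ →
        helper9550.QuadRel (ρ σ) (a ℓ) ((cyclo p K σ : Kˣ) : K) := by
    intro ℓ hℓ hℓN A hA σ hσ
    unfold helper9550.QuadRel
    rw [cyclo_frobenius p K hℓ (hneq ℓ hℓN) A hA σ hσ]
    exact hES ℓ hℓ hℓN A hA σ hσ
  -- a finite Galois level containing the level of `ρ` and the `p`-th roots of unity
  have : FiniteDimensional ℚ (L₁ ⊔ L₂ : IntermediateField ℚ Qb) :=
    IntermediateField.finiteDimensional_sup L₁ L₂
  let L : IntermediateField ℚ Qb :=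
    IntermediateField.normalClosure ℚ (L₁ ⊔ L₂ : IntermediateField ℚ Qb) Qb
  have hLfd : FiniteDimensional ℚ L := normalClosure.is_finiteDimensional ℚ _ Qb
  have hLnorm : Normal ℚ L := normalClosure.normal ℚ _ Qb
  have hLgal : IsGalois ℚ L := ⟨⟩
  have hLle : (L₁ ⊔ L₂ : IntermediateField ℚ Qb) ≤ L := IntermediateField.le_normalClosure _
  have hgen : ∀ g : GQ, ∃ (h : GQ) (n : ℕ) (t : K),
      ρ g = ρ (h ^ n) ∧ cyclo p K g = cyclo p K (h ^ n) ∧
        helper9550.QuadRel (ρ h) t ((cyclo p K h : Kˣ) : K) := by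
    intro g
    obtain ⟨q, A, τ, n, hq, hqS, hA, hτ, hagree⟩ := hCheb L hLfd hLgal g (N * p).primeFactors
    have hqN : ¬ q ∣ N * p := fun hd =>
      hqS (Nat.mem_primeFactors.mpr ⟨hq, hd, mul_ne_zero hN hp.ne_zero⟩)
    have hfix : ∀ x ∈ (L₁ ⊔ L₂ : IntermediateField ℚ Qb), ((τ ^ n)⁻¹ * g) x = x := by
      intro x hx
      rw [AlgEquiv.mul_apply, hagree x (hLle hx)]
      exact (τ ^ n).symm_apply_apply x
    have h1 : ρ ((τ ^ n)⁻¹ * g) = 1 :=
      hL₁ _ (fun x hx => hfix x ((le_sup_left : L₁ ≤ L₁ ⊔ L₂) hx))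
    have h2 : chi p ((τ ^ n)⁻¹ * g) = 1 :=
      hL₂ _ (fun x hx => hfix x ((le_sup_right : L₂ ≤ L₁ ⊔ L₂) hx))
    refine ⟨τ, n, a q, ?_, ?_, hquad q hq hqN A hA τ hτ⟩
    · have h3 : ρ g = ρ (τ ^ n) * ρ ((τ ^ n)⁻¹ * g) := by
        rw [← map_mul, mul_inv_cancel_left]
      rw [h3, h1, mul_one]
    · have h3 : cyclo p K g = cyclo p K (τ ^ n) * cyclo p K ((τ ^ n)⁻¹ * g) := by
        rw [← map_mul, mul_inv_cancel_left]
      rw [h3, cyclo_eq_one_of_chi p K h2, mul_one]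
  obtain ⟨ρ2, hcp, hone⟩ := helper9550.exists_end_rep_gen ρ (cyclo p K) hgen
  refine ⟨{ V := Fin 2 → K
            finrank_eq := helper9550.finrank_fin_two_fun
            ρ := ρ2
            factorsThroughFiniteLevel := ⟨L₁ ⊔ L₂, inferInstance, fun σ hσ =>
              hone σ (hL₁ σ fun x hx => hσ x ((le_sup_left : L₁ ≤ L₁ ⊔ L₂) hx))
                (cyclo_eq_one_of_chi p K
                  (hL₂ σ fun x hx => hσ x ((le_sup_right : L₂ ≤ L₁ ⊔ L₂) hx)))⟩ }, ?_, ?_⟩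
  · intro ℓ hℓ hℓN A hA σ hσ
    have h4 := hcp σ (a ℓ) (hquad ℓ hℓ hℓN A hA σ hσ)
    rw [cyclo_frobenius p K hℓ (hneq ℓ hℓN) A hA σ hσ] at h4
    exact h4
  · intro ℓ hℓ hℓN A hA σ hσ
    exact hone σ (hunr ℓ hℓ hℓN A hA σ hσ)
      (cyclo_eq_one_of_chi p K (chi_inertia p hℓ (hneq ℓ hℓN) A hA σ hσ))

/-- **The datum for an eigenform `g` and `ψ : Z̄ →+* K`**: algebraic integers `aZ ℓ` with
`aZ ℓ = a_ℓ(g)` for the primes `ℓ ∤ N p`, and a `QuadDatum` for the eigenvalues `ψ (aZ ℓ)`. -/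
def FrobDatum (N p : ℕ) (g : CuspForm (CongruenceSubgroup.Gamma0 N) 2) (K : Type) [Field K]
    (ψ : Zb →+* K) : Prop :=
  ∃ aZ : ℕ → Zb,
    (∀ ℓ : ℕ, ℓ.Prime → ¬ ℓ ∣ N * p → ((aZ ℓ : Zb) : ℂ) = ModularFormClass.qCoeff g ℓ) ∧
    QuadDatum N p K (fun ℓ => ψ (aZ ℓ))

/-- Over an algebraically closed coefficient field of characteristic `p`: a `FrobDatum` gives
the residual representation attached to `g`. -/
theorem exists_residualRep_of_frobDatum (hCheb : Stmt_GenCheb) {N p : ℕ} (hp : p.Prime)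
    (hN : N ≠ 0) {K : Type} [Field K] [IsAlgClosed K] [CharP K p]
    (g : CuspForm (CongruenceSubgroup.Gamma0 N) 2) (ψ : Zb →+* K) (h : FrobDatum N p g K ψ) :
    ∃ r : ResidualGaloisRep K, r.IsAttachedTo g ψ ∧
      ∀ ℓ : ℕ, ℓ.Prime → ¬ ℓ ∣ N * p → r.IsUnramifiedAt ℓ := by
  obtain ⟨aZ, haZ, hQ⟩ := h
  obtain ⟨r, hr1, hr2⟩ := exists_residualRep_of_quadDatum hCheb hp hN _ hQ
  refine ⟨r, ?_, hr2⟩
  intro ℓ hℓ hℓN hℓK A hA σ hσ
  have hℓp : ℓ ≠ p := fun h => hℓK (by rw [h]; exact CharP.cast_eq_zero K p)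
  have hℓNp : ¬ ℓ ∣ N * p := fun hd =>
    (hℓ.dvd_mul.mp hd).elim hℓN (fun h2 => hℓp ((Nat.prime_dvd_prime_iff_eq hℓ hp).mp h2))
  exact ⟨aZ ℓ, haZ ℓ hℓ hℓNp, hr1 ℓ hℓ hℓNp A hA σ hσ⟩

/-- **Final assembly of S29** (the conclusion is the frozen statement verbatim).  Inputs:
generator-Chebotarev, and for `N ≠ 0` a `FrobDatum` over every ALGEBRAICALLY CLOSED field `K`
of characteristic `p` and every `ψ : Z̄ →+* K`. -/
theorem result_of (hCheb : Stmt_GenCheb) {N : ℕ}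
    {g : CuspForm (CongruenceSubgroup.Gamma0 N) 2} {p : ℕ} (hp : p.Prime)
    (hE : N ≠ 0 → ∀ (K : Type) [Field K] [IsAlgClosed K] [CharP K p] (ψ : Zb →+* K),
      FrobDatum N p g K ψ)
    {k : Type} [Field k] [CharP k p] (φ : integralClosure ℤ ℂ →+* k) :
    ∃ ρ : ResidualGaloisRep k, ρ.IsAttachedTo g φ ∧
      ∀ ℓ : ℕ, ℓ.Prime → ¬ ℓ ∣ N * p → ρ.IsUnramifiedAt ℓ := by
  by_cases hN : N = 0
  · subst hN
    refine ⟨{ V := Fin 2 → k
              finrank_eq := helper9550.finrank_fin_two_fun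
              ρ := 1
              factorsThroughFiniteLevel := ⟨⊥, inferInstance, fun _ _ => rfl⟩ }, ?_, ?_⟩
    · intro ℓ _ hℓN
      exact absurd (dvd_zero ℓ) hℓN
    · intro ℓ _ hℓN
      exact absurd (by rw [zero_mul]; exact dvd_zero ℓ) hℓN
  · have hmax := ker_isMaximal hp φ
    let K : Type := Zb ⧸ RingHom.ker φ
    let _ : Field K := Ideal.Quotient.field (RingHom.ker φ)
    have hchar : CharP K p := (RingHom.kerLift φ).charP (RingHom.kerLift_injective φ) p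
    have hclosed : IsAlgClosed K := IsAlgClosed.of_exists_root K (fun f hf hirr =>
      exists_root_quotient (RingHom.ker φ) f hf hirr.natDegree_pos.ne')
    obtain ⟨r, hr1, hr2⟩ := exists_residualRep_of_frobDatum hCheb hp hN g
      (Ideal.Quotient.mk (RingHom.ker φ)) (hE hN K _)
    refine ⟨r.baseChangeAlong (RingHom.kerLift φ), ?_, fun ℓ hℓ hℓN =>
      isUnramifiedAt_baseChangeAlong _ r (hr2 ℓ hℓ hℓN)⟩
    have h1 := isAttachedTo_baseChangeAlong (RingHom.kerLift φ) r g _ hr1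
    have hcomp : (RingHom.kerLift φ).comp (Ideal.Quotient.mk (RingHom.ker φ)) = φ :=
      RingHom.ext fun x => RingHom.kerLift_mk φ x
    rwa [hcomp] at h1

end Assembly

end Fermat.Agent.S29.helper2802
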