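/-
S29: adapters between the two compiled endgames (`helper6752_Endgame`, owner copy, and
`helper2802_Assembly`, backup copy).  The input Props of the owner copy follow from the
provider-shaped inputs of the backup copy:

* `stmt_CycFrob_of_genCheb` : generator-Chebotarev for finite GALOIS levels (the shape of the
  Chebotarev squad) gives `helper6752.Stmt_CycFrob` (arbitrary finite levels), via the normal
  closure.
* `stmt_Eig_of_frobDatum` : `FrobDatum` for all data gives `helper6752.Stmt_Eig`.
-/
import Fermat.Agent.S29.helper2802_Assembly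
import Fermat.Agent.S29.helper6752_Endgame

set_option autoImplicit false

namespace Fermat.Agent.S29.helper2802

/-- Generator-Chebotarev for finite Galois levels implies the form for arbitrary finite
levels consumed by `helper6752.result_of`. -/
theorem stmt_CycFrob_of_genCheb (h : Stmt_GenCheb) : helper6752.Stmt_CycFrob := by
  intro L hL τ B
  have := normal_Qb
  have hfd : FiniteDimensional ℚ (IntermediateField.normalClosure ℚ L Qb) :=
    normalClosure.is_finiteDimensional ℚ _ Qb
  have hnorm : Normal ℚ (IntermediateField.normalClosure ℚ L Qb) := normalClosure.normal ℚ _ Qb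
  have hgal : IsGalois ℚ (IntermediateField.normalClosure ℚ L Qb) := ⟨⟩
  obtain ⟨q, A, s, n, hq, hqB, hA, hs, hag⟩ :=
    h (IntermediateField.normalClosure ℚ L Qb) hfd hgal τ B
  exact ⟨q, hq, hqB, A, hA, s, hs, n, fun x hx =>
    (hag x (IntermediateField.le_normalClosure L hx)).symm⟩

/-- `FrobDatum` for all levels, eigenforms, primes and residue fields gives
`helper6752.Stmt_Eig`. -/
theorem stmt_Eig_of_frobDatum
    (h : ∀ (N : ℕ), N ≠ 0 → ∀ (g : CuspForm (CongruenceSubgroup.Gamma0 N) 2),
      g.IsNormalizedEigenform → ∀ (p : ℕ), p.Prime →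
      ∀ (κ : Type) [Field κ] [IsAlgClosed κ] [CharP κ p] (ψ : Zb →+* κ),
        Function.Surjective ψ → FrobDatum N p g κ ψ) :
    helper6752.Stmt_Eig := by
  intro N hN g hg p hp κ _ _ _ ψ hψ
  obtain ⟨aZ, haZ, E, i1, i2, hfd, hnt, ρ, hfin, hunr, hES⟩ := h N hN g hg p hp κ ψ hψ
  exact ⟨E, i1, i2, ρ, hfd, hnt, hfin, hunr, fun ℓ hℓ hℓN A hA σ hσ =>
    ⟨aZ ℓ, haZ ℓ hℓ hℓN, hES ℓ hℓ hℓN A hA σ hσ⟩⟩

end Fermat.Agent.S29.helper2802
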