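/-
S29-HCOMM, modular fact (G) (helper2882): the function field of level `N` is generated over `ℚ̄`
by `j` and `j(q^N)`:

  `adjoin_jBar_jTop     : ℚ̄⟮j⟯⟮j(q^N)⟯ = ⊤`,
  `adjoin_pair_eq_top   : ℚ̄⟮j, j(q^N)⟯ = ⊤`,
  `mem_subfield_of_gen` : a subfield of `F_N` containing the constants, `j` and `j(q^N)` is
                          everything.

Proof: the conjugate embeddings `IsEvGen.iotaG g : F_N →+* Mer` of the landed S24 cusp datum
(`helper1200_CuspLocal`) agree on `ℚ̄` and on `j`, and are pairwise distinct on `j(q^N)` for `g`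
in distinct cosets of `Γ₀(N)`; so the minimal polynomial of `j(q^N)` over `ℚ̄(j)` has at least
`[SL₂(ℤ) : Γ₀(N)] = [F_N : ℚ̄(j)]` roots.
-/
import Fermat.Agent.S24.helper1200_StmtLocalInf
import Fermat.Agent.S37.helper5162_HeckeInputsModular

set_option autoImplicit false
set_option linter.style.haveILetI false

open ModularCurve AlgebraicCurve IntermediateField CongruenceSubgroup UpperHalfPlane
open scoped MatrixGroups

namespace Fermat.Agent.S29.helper2882

open Fermat.Agent.S24.helper24 Fermat.Agent.S24.helper1200 Fermat.Agent.S24.helper3176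

noncomputable section

/-- The top generator `j(q^N)` of the function field of level `N`. -/
def jTop (N : ℕ) [NeZero N] : FN N := jBarD N N dvd_rfl

theorem coe_jTop (N : ℕ) [NeZero N] : ((jTop N : FN N) : LaurentSeries Kbar) = jSeries N := rfl

section Embeddings

variable {N : ℕ} [NeZero N] {i0 : Kbar →+* ℂ} {ev : AN N →+* (ℍ → ℂ)}

/-- All conjugate embeddings agree on constants. -/
theorem iotaG_algebraMap (h : IsEvGen N i0 ev) (g : SL(2, ℤ)) (c : Kbar) :
    h.iotaG g (algebraMap Kbar (FN N) c) = algebraMap Hol Mer (constHol (i0 c)) := by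
  have h1 : h.iotaG g ((algebraMap Kbar (AN N) c : AN N) : FN N)
      = h.phi g (algebraMap Kbar (AN N) c) := h.iotaG_coe g _
  rw [show ((algebraMap Kbar (AN N) c : AN N) : FN N) = algebraMap Kbar (FN N) c from rfl] at h1
  rw [h1, h.phi_apply]
  congr 1
  apply Subtype.ext
  funext τ
  rw [compHol_apply, h.evHol_apply, h.const c]
  rfl

/-- Two conjugate embeddings that agree on `j(q^N)` belong to the same coset of `Γ₀(N)`. -/
theorem mem_Gamma0_of_iotaG_jTop_eq (h : IsEvGen N i0 ev) {g g' : SL(2, ℤ)}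
    (hgg' : h.iotaG g (jTop N) = h.iotaG g' (jTop N)) : g⁻¹ * g' ∈ Gamma0 N := by
  have h1 : h.phi g ⟨jBarD N N dvd_rfl, jBarD_mem_AN N N dvd_rfl⟩
      = h.phi g' ⟨jBarD N N dvd_rfl, jBarD_mem_AN N N dvd_rfl⟩ := by
    rw [← h.iotaG_coe, ← h.iotaG_coe]
    exact hgg'
  rw [h.phi_apply, h.phi_apply] at h1
  have h2 := IsFractionRing.injective Hol Mer h1
  have h3 : ∀ τ : ℍ, Fermat.Agent.S24.helper288.jFn (ofComplex ((N : ℂ) * ((g⁻¹ • τ : ℍ) : ℂ)))
      = Fermat.Agent.S24.helper288.jFn (ofComplex ((N : ℂ) * ((g'⁻¹ • τ : ℍ) : ℂ))) := by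
    intro τ
    have h4 := congrArg (fun φ : Hol => (φ : ℍ → ℂ) τ) h2
    simp only [compHol_apply, h.evHol_apply] at h4
    rw [h.gen N dvd_rfl] at h4
    rw [jFn_eq_jFun]
    exact h4
  have h5 := Fermat.Agent.S24.helper288.mul_inv_mem_Gamma0_of_jFn_eq N g⁻¹ g'⁻¹ h3
  simpa using h5

/-- All conjugate embeddings agree on `ℚ̄(j)`. -/
theorem iotaG_eq_of_mem_adjoin (h : IsEvGen N i0 ev) (g g' : SL(2, ℤ)) {y : FN N}
    (hy : y ∈ Kbar⟮jBar N⟯) : h.iotaG g y = h.iotaG g' y := by
  have hle : (Kbar⟮jBar N⟯).toSubfield ≤ RingHom.eqLocusField (h.iotaG g) (h.iotaG g') := by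
    rw [IntermediateField.adjoin_toSubfield, Subfield.closure_le]
    rintro x (⟨c, rfl⟩ | hx)
    · show h.iotaG g _ = h.iotaG g' _
      rw [iotaG_algebraMap, iotaG_algebraMap]
    · rw [Set.mem_singleton_iff] at hx
      subst hx
      show h.iotaG g _ = h.iotaG g' _
      rw [h.iotaG_jBar, h.iotaG_jBar]
  exact hle hy

end Embeddings

/-- **(G)** `F_N = ℚ̄(j)(j(q^N))`. -/
theorem adjoin_jBar_jTop (N : ℕ) [NeZero N] : Kbar⟮jBar N⟯⟮jTop N⟯ = ⊤ := by
  classical
  obtain ⟨i0, ev, h1, h2, h3⟩ := Fermat.Agent.S24.helper1200.stmt_EvGen N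
  have h : IsEvGen N i0 ev := ⟨h1, h2, h3⟩
  haveI : FiniteDimensional Kbar⟮jBar N⟯ (FN N) :=
    (Fermat.Agent.S37.helper5162.stmt_JFinrank N).1
  have hfr : Module.finrank Kbar⟮jBar N⟯ (FN N) = Nat.card (XN N) :=
    (Fermat.Agent.S37.helper5162.stmt_JFinrank N).2
  rw [Field.primitive_element_iff_minpoly_natDegree_eq]
  refine le_antisymm (minpoly.natDegree_le (jTop N)) ?_
  rw [hfr]
  set m := minpoly Kbar⟮jBar N⟯ (jTop N) with hm
  let ρ : Kbar⟮jBar N⟯ →+* Mer := (h.iotaG 1).comp (algebraMap Kbar⟮jBar N⟯ (FN N))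
  have hm0 : m.map ρ ≠ 0 :=
    (Polynomial.map_ne_zero_iff ρ.injective).mpr
      (minpoly.ne_zero (IsIntegral.of_finite Kbar⟮jBar N⟯ (jTop N)))
  let f : XN N → Mer := fun c => h.iotaG (Quotient.out c) (jTop N)
  have hf : Function.Injective f := by
    intro c c' hcc'
    have hmem := mem_Gamma0_of_iotaG_jTop_eq h hcc'
    rw [← QuotientGroup.out_eq' c, ← QuotientGroup.out_eq' c']
    exact QuotientGroup.eq.mpr hmem
  have hroot : ∀ c, f c ∈ (m.map ρ).roots := by
    intro c
    rw [Polynomial.mem_roots hm0, Polynomial.IsRoot, Polynomial.eval_map]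
    have hcomp : ρ = (h.iotaG (Quotient.out c)).comp (algebraMap Kbar⟮jBar N⟯ (FN N)) := by
      ext y
      exact iotaG_eq_of_mem_adjoin h 1 (Quotient.out c) y.2
    have hev : Polynomial.eval₂ ρ (f c) m
        = h.iotaG (Quotient.out c) (Polynomial.aeval (jTop N) m) := by
      rw [Polynomial.aeval_def, Polynomial.hom_eval₂, hcomp]
    rw [hev, hm, minpoly.aeval, map_zero]
  haveI : Fintype (XN N) := Fintype.ofFinite _
  have hcard := Polynomial.card_le_degree_of_subset_roots (p := m.map ρ)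
    (Z := Finset.univ.image f) (fun x hx => by
      obtain ⟨c, -, rfl⟩ := Finset.mem_image.mp hx
      exact hroot c)
  rw [Finset.card_image_of_injective _ hf, Finset.card_univ,
    Polynomial.natDegree_map_eq_of_injective ρ.injective] at hcard
  rw [Nat.card_eq_fintype_card]
  exact hcard

/-- **(G)** `F_N = ℚ̄(j, j(q^N))`. -/
theorem adjoin_pair_eq_top (N : ℕ) [NeZero N] :
    IntermediateField.adjoin Kbar {jBar N, jTop N} = ⊤ := by
  rw [← IntermediateField.adjoin_simple_adjoin_simple, adjoin_jBar_jTop,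
    IntermediateField.restrictScalars_top]

/-- A subfield of `F_N` containing the constants, `j` and `j(q^N)` is everything. -/
theorem mem_subfield_of_gen (N : ℕ) [NeZero N] (S : Subfield (FN N))
    (hc : ∀ c : Kbar, algebraMap Kbar (FN N) c ∈ S) (hj : jBar N ∈ S) (hjT : jTop N ∈ S)
    (z : FN N) : z ∈ S := by
  have hle : IntermediateField.adjoin Kbar {jBar N, jTop N} ≤ S.toIntermediateField hc := by
    rw [IntermediateField.adjoin_le_iff]
    rintro x (rfl | hx)
    · exact hj
    · rw [Set.mem_singleton_iff] at hx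
      subst hx
      exact hjT
  rw [adjoin_pair_eq_top] at hle
  exact hle (IntermediateField.mem_top (F := Kbar) (E := FN N) (x := z))

end

end Fermat.Agent.S29.helper2882
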