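/-
S29-HCOMM (helper2882, backup of board row 795): the Hecke operators of the Prelude commute,

  `heckeOperatorsCommuteBar (N : ℕ) [NeZero N] : ModularCurve.HeckeOperatorsCommuteBar N`,

on top of the generic cartesian base change of `helper2378_BaseChange` (owner of the row).

Contents.
* Generic: restriction of places / push-forward / pull-back of divisors along a composite of
  algebra homomorphisms (`restrictAlong_comp`, `pushforwardAlong_comp`, `pullbackAlong_comp`);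
  separating functions on a fibre (`exists_sep`, from the S27 weak approximation); the tower
  formula `finrank_adjoin_mul_finrankAlong`; the span form of "generated as a field"
  (`exists_sum_of_subfield_gen`).
* Modular: the inclusions `incl : F_M → F_M'` for `M ∣ M'`, the maps `vmap : f(q) ↦ f(q^m)`,
  their degrees (`card_mul_finrankAlong_incl`), the cartesian square of levels
  `N, Nℓ, Nℓ', Nℓℓ'` for primes `ℓ ≠ ℓ'` (`modular_baseChange`), the formula
  `T_ℓ' ∘ T_ℓ = incl_* ∘ (q ↦ q^(ℓℓ'))^*` on divisors (`heckeDiv_comp`) and the final theorem.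
-/
import Fermat.Agent.S29.helper2882_Generation
import Fermat.Agent.S29.helper2378_BaseChange
import Fermat.Agent.S37.helper8426_RelNorm
import Fermat.Agent.S27.helper1070_Approx
import Fermat.Agent.S24.helper34_StmtIndex
import Fermat.Prelude.Def_ModularCurve_HeckeModule

set_option autoImplicit false
set_option linter.style.haveILetI false

open ModularCurve AlgebraicCurve IntermediateField

namespace Fermat.Agent.S29.helper2882

noncomputable section

/-! ## Generic: composites of algebra homomorphisms -/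

section Tower

variable {K E F₁ F : Type*} [Field K] [Field E] [Field F₁] [Field F]
  [Algebra K E] [Algebra K F₁] [Algebra K F]

/-- Restricting a place along a composite is restricting twice. -/
theorem restrictAlong_comp (φ : E →ₐ[K] F₁) (ψ : F₁ →ₐ[K] F)
    (hφ : φ.toRingHom.IsIntegral) (hψ : ψ.toRingHom.IsIntegral)
    (hψφ : (ψ.comp φ).toRingHom.IsIntegral) (w : Place K F) :
    w.restrictAlong (ψ.comp φ) hψφ = (w.restrictAlong ψ hψ).restrictAlong φ hφ := by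
  apply Place.ext
  rfl

/-- Inertia degrees are one when the residue fields upstairs are `K`. -/
theorem inertiaDegAlong_eq_one (φ : E →ₐ[K] F₁) (hφ : φ.toRingHom.IsIntegral)
    (hres : ∀ w : Place K F₁, Function.Surjective (algebraMap K w.ResidueField))
    (w : Place K F₁) : w.inertiaDegAlong φ hφ = 1 := by
  letI := algebraAlong φ
  haveI := isScalarTower_along φ
  haveI := isIntegral_along φ hφ
  exact Fermat.Agent.S37.helper8426.place_inertiaDeg_eq_one hres w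

/-- Push-forward of divisors along a composite (all residue fields equal to `K`). -/
theorem pushforwardAlong_comp (φ : E →ₐ[K] F₁) (ψ : F₁ →ₐ[K] F)
    (hφ : φ.toRingHom.IsIntegral) (hψ : ψ.toRingHom.IsIntegral)
    (hψφ : (ψ.comp φ).toRingHom.IsIntegral)
    (hres₁ : ∀ w : Place K F₁, Function.Surjective (algebraMap K w.ResidueField))
    (hres : ∀ w : Place K F, Function.Surjective (algebraMap K w.ResidueField))
    (D : Divisor K F) :
    Divisor.pushforwardAlong (ψ.comp φ) hψφ D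
      = Divisor.pushforwardAlong φ hφ (Divisor.pushforwardAlong ψ hψ D) := by
  induction D using Finsupp.induction_linear with
  | zero => simp
  | add D₁ D₂ h₁ h₂ => rw [map_add, map_add, map_add, h₁, h₂]
  | single w n =>
    rw [Divisor.pushforwardAlong_single, Divisor.pushforwardAlong_single,
      Divisor.pushforwardAlong_single, inertiaDegAlong_eq_one _ _ hres,
      inertiaDegAlong_eq_one _ _ hres, inertiaDegAlong_eq_one _ _ hres₁,
      restrictAlong_comp φ ψ hφ hψ hψφ]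
    simp

/-- A uniformizer at a place. -/
theorem exists_ord_eq_one' (v : Place K E) : ∃ π : E, v.ord π = 1 := by
  obtain ⟨π, hπ⟩ := IsDiscreteValuationRing.exists_irreducible v.toValuationSubring
  exact ⟨(π : E), v.ord_coe_irreducible hπ⟩

/-- Ramification indices are multiplicative in towers. -/
theorem ramificationIndexAlong_comp (φ : E →ₐ[K] F₁) (ψ : F₁ →ₐ[K] F)
    (hφ : φ.toRingHom.IsIntegral) (hψ : ψ.toRingHom.IsIntegral)
    (hψφ : (ψ.comp φ).toRingHom.IsIntegral) (w : Place K F) :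
    w.ramificationIndexAlong (ψ.comp φ)
      = w.ramificationIndexAlong ψ * (w.restrictAlong ψ hψ).ramificationIndexAlong φ := by
  obtain ⟨π, hπ⟩ := exists_ord_eq_one' (w.restrictAlong (ψ.comp φ) hψφ)
  have h1 := w.ord_restrictAlong (ψ.comp φ) hψφ π
  have h2 := w.ord_restrictAlong ψ hψ (φ π)
  have h3 := (w.restrictAlong ψ hψ).ord_restrictAlong φ hφ π
  rw [← restrictAlong_comp φ ψ hφ hψ hψφ, hπ, mul_one] at h3
  rw [hπ, mul_one] at h1
  have h4 : (ψ.comp φ) π = ψ (φ π) := rfl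
  rw [h4, h2, h3] at h1
  exact_mod_cast h1.symm

/-- Pull-back of divisors along a composite. -/
theorem pullbackAlong_comp [HasPrincipalDivisors K F₁] [HasPrincipalDivisors K F]
    (φ : E →ₐ[K] F₁) (ψ : F₁ →ₐ[K] F)
    (hφ : φ.toRingHom.IsIntegral) (hψ : ψ.toRingHom.IsIntegral)
    (hψφ : (ψ.comp φ).toRingHom.IsIntegral) (D : Divisor K E) :
    Divisor.pullbackAlong (ψ.comp φ) hψφ D
      = Divisor.pullbackAlong ψ hψ (Divisor.pullbackAlong φ hφ D) := by
  ext w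
  rw [Divisor.pullbackAlong_apply, Divisor.pullbackAlong_apply, Divisor.pullbackAlong_apply,
    ramificationIndexAlong_comp φ ψ hφ hψ hψφ, restrictAlong_comp φ ψ hφ hψ hψφ]
  push_cast
  ring

theorem pushforwardAlong_congr {φ φ' : E →ₐ[K] F₁} (h : φ = φ')
    (hφ : φ.toRingHom.IsIntegral) (hφ' : φ'.toRingHom.IsIntegral) :
    Divisor.pushforwardAlong φ hφ = Divisor.pushforwardAlong φ' hφ' := by
  subst h
  rfl

theorem pullbackAlong_congr [HasPrincipalDivisors K F₁] {φ φ' : E →ₐ[K] F₁} (h : φ = φ')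
    (hφ : φ.toRingHom.IsIntegral) (hφ' : φ'.toRingHom.IsIntegral) :
    Divisor.pullbackAlong φ hφ = Divisor.pullbackAlong φ' hφ' := by
  subst h
  rfl

/-- A function with a simple zero at `P` and no zero or pole at the other places of the fibre
of `P` (weak approximation). -/
theorem exists_sep [HasPrincipalDivisors K F₁] (a : E →ₐ[K] F₁) (ha : a.toRingHom.IsIntegral)
    (P : Place K F₁) :
    ∃ y : F₁, y ≠ 0 ∧ P.ord y = 1 ∧
      ∀ P' : Place K F₁, P' ≠ P → P'.restrictAlong a ha = P.restrictAlong a ha →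
        P'.ord y = 0 := by
  classical
  obtain ⟨y, hy0, hy⟩ := Fermat.Agent.S27.helper1070.exists_ord_eq
    (Place.fiberAlong a ha (P.restrictAlong a ha)) (fun v => if v = P then 1 else 0)
  refine ⟨y, hy0, ?_, ?_⟩
  · rw [hy P (Place.mem_fiberAlong.mpr rfl), if_pos rfl]
  · intro P' hne hP'
    rw [hy P' (Place.mem_fiberAlong.mpr hP'), if_neg hne]

/-- Tower formula: `[F : K(x)] · [F₁ : F] = [F₁ : K(φ x)]`. -/
theorem finrank_adjoin_mul_finrankAlong (φ : E →ₐ[K] F₁) (x : E) :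
    Module.finrank K⟮x⟯ E * finrankAlong K φ = Module.finrank K⟮φ x⟯ F₁ := by
  letI := algebraAlong φ
  letI : Algebra K⟮x⟯ F₁ := ((algebraMap E F₁).comp (algebraMap K⟮x⟯ E)).toAlgebra
  haveI : IsScalarTower K⟮x⟯ E F₁ := IsScalarTower.of_algebraMap_eq fun _ => rfl
  have h1 : Module.finrank K⟮x⟯ E * Module.finrank E F₁ = Module.finrank K⟮x⟯ F₁ :=
    Module.finrank_mul_finrank K⟮x⟯ E F₁
  have hmap : (K⟮x⟯).map φ = K⟮φ x⟯ := by
    rw [IntermediateField.adjoin_map, Set.image_singleton]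
  have hmem : ∀ y : K⟮x⟯, φ (y : E) ∈ K⟮φ x⟯ := fun y => by
    rw [← hmap]
    exact ⟨(y : E), y.2, rfl⟩
  let e0 : K⟮x⟯ →+* K⟮φ x⟯ :=
    { toFun := fun y => ⟨φ (y : E), hmem y⟩
      map_one' := Subtype.ext (map_one φ)
      map_mul' := fun y z => Subtype.ext (map_mul φ _ _)
      map_zero' := Subtype.ext (map_zero φ)
      map_add' := fun y z => Subtype.ext (map_add φ _ _) }
  have hbij : Function.Bijective e0 := by
    refine ⟨e0.injective, fun z => ?_⟩
    have hz : (z : F₁) ∈ (K⟮x⟯).map φ := by rw [hmap]; exact z.2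
    obtain ⟨y, hy, hyz⟩ := hz
    exact ⟨⟨y, hy⟩, Subtype.ext hyz⟩
  have h2 : Module.finrank K⟮x⟯ F₁ = Module.finrank K⟮φ x⟯ F₁ :=
    Algebra.finrank_eq_of_equiv_equiv (RingEquiv.ofBijective e0 hbij) (RingEquiv.refl F₁)
      (by ext y; rfl)
  rw [← h2, ← h1]
  rfl

end Tower

/-! ## Generic: from "generated as a field" to "spanned" -/

section Span

variable {K L₁ L₂ L : Type*} [Field K] [Field L₁] [Field L₂] [Field L]
  [Algebra K L₁] [Algebra K L₂] [Algebra K L]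

/-- If `L` is finite over `L₂` along `a₂` and no proper subfield of `L` contains the images of
`a₂` and `b₂`, then `L` is spanned over `a₂ L₂` by the image of `b₂`. -/
theorem exists_sum_of_subfield_gen (a₂ : L₂ →ₐ[K] L) (b₂ : L₁ →ₐ[K] L)
    (hfin : FiniteAlong K a₂)
    (hgen : ∀ S : Subfield L, (∀ y, a₂ y ∈ S) → (∀ x, b₂ x ∈ S) → ∀ z, z ∈ S) (z : L) :
    ∃ (s : Finset L₁) (c : L₁ → L₂), z = ∑ x ∈ s, a₂ (c x) * b₂ x := by
  classical
  letI := algebraAlong a₂
  haveI : Module.Finite L₂ L := hfin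
  let A : Subalgebra L₂ L := Algebra.adjoin L₂ (Set.range b₂)
  let S : Subfield L :=
    { A.toSubring with
      inv_mem' := fun x hx =>
        A.inv_mem_of_algebraic (x := ⟨x, hx⟩) (Algebra.IsAlgebraic.isAlgebraic x) }
  have hz : z ∈ A := hgen S (fun y => A.algebraMap_mem y)
    (fun x => Algebra.subset_adjoin ⟨x, rfl⟩) z
  have hcl : (Submonoid.closure (Set.range b₂) : Set L) = Set.range b₂ := by
    have h1 : Set.range b₂ = ((MonoidHom.mrange (b₂ : L₁ →* L) : Submonoid L) : Set L) := by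
      ext y
      simp
    rw [h1, Submonoid.closure_eq]
  have hspan : z ∈ Submodule.span L₂ (Set.range b₂) := by
    have h2 := Algebra.adjoin_eq_span (R := L₂) (s := Set.range b₂)
    rw [hcl] at h2
    rw [← h2]
    exact hz
  obtain ⟨c, hc⟩ := Finsupp.mem_span_range_iff_exists_finsupp.mp hspan
  refine ⟨c.support, c, ?_⟩
  rw [← hc, Finsupp.sum]
  refine Finset.sum_congr rfl fun x _ => ?_
  rw [Algebra.smul_def]
  rfl

end Span

/-! ## Modular function fields: inclusions and `q ↦ q^m` -/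

section Modular

open Fermat.Agent.S24.helper24 Fermat.Agent.S24.helper3176 Fermat.Agent.S37.helper5162

theorem laurentBaseChange_mono'' {F₀ F₁ : IntermediateField ℚ (LaurentSeries ℚ)} (h : F₀ ≤ F₁) :
    laurentBaseChange Kbar F₀ ≤ laurentBaseChange Kbar F₁ := by
  rw [laurentBaseChange, IntermediateField.adjoin_le_iff]
  rintro _ ⟨y, hy, rfl⟩
  exact coeffEmb_mem_laurentBaseChange Kbar (h hy)

/-- The inclusion `F_M → F_M'` for `M ∣ M'`. -/
def incl {M M' : ℕ} [NeZero M] [NeZero M'] (h : M ∣ M') : FN M →ₐ[Kbar] FN M' :=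
  IntermediateField.inclusion (laurentBaseChange_mono'' (full_degeneracy_le h))

@[simp]
theorem coe_incl {M M' : ℕ} [NeZero M] [NeZero M'] (h : M ∣ M') (x : FN M) :
    ((incl h x : FN M') : LaurentSeries Kbar) = (x : LaurentSeries Kbar) :=
  IntermediateField.coe_inclusion _ x

/-- The map `f(q) ↦ f(q^m)` from `F_N` to `F_M` for `N m ∣ M`. -/
def vmap {N m M : ℕ} [NeZero N] [NeZero m] [NeZero M] (h : N * m ∣ M) : FN N →ₐ[Kbar] FN M :=
  (incl h).comp (heckeBetaBar Kbar N m)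

@[simp]
theorem coe_vmap {N m M : ℕ} [NeZero N] [NeZero m] [NeZero M] (h : N * m ∣ M) (x : FN N) :
    ((vmap h x : FN M) : LaurentSeries Kbar) = qExpand Kbar m (x : LaurentSeries Kbar) := by
  show ((incl h (heckeBetaBar Kbar N m x) : FN M) : LaurentSeries Kbar) = _
  rw [coe_incl, coe_heckeBetaBar]

/-- Every `ℚ̄`-algebra homomorphism between modular function fields is finite. -/
theorem finiteAlong_any {N M : ℕ} [NeZero N] [NeZero M] (φ : FN N →ₐ[Kbar] FN M) :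
    FiniteAlong Kbar φ := by
  haveI : FiniteDimensional Kbar⟮φ (jBar N)⟯ (FN M) :=
    Fermat.Agent.S24.helper2549.exchange (jBar M) _
      (transcendental_algHom φ (transcendental_jBar N))
  exact finiteAlong_of_finiteDimensional φ (jBar N)

theorem isIntegral_any {N M : ℕ} [NeZero N] [NeZero M] (φ : FN N →ₐ[Kbar] FN M) :
    φ.toRingHom.IsIntegral :=
  isIntegral_of_finiteAlong φ (finiteAlong_any φ)

theorem normFormulaAlong_any {N M : ℕ} [NeZero N] [NeZero M] (φ : FN N →ₐ[Kbar] FN M) :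
    NormFormulaAlong Kbar φ (finiteAlong_any φ) :=
  Fermat.Agent.S37.helper8426.normFormulaAlong φ (finiteAlong_any φ) (residueField_surjective M)

theorem fundamentalIdentityAlong_any {N M : ℕ} [NeZero N] [NeZero M] (φ : FN N →ₐ[Kbar] FN M)
    (hφ : φ.toRingHom.IsIntegral) : FundamentalIdentityAlong Kbar φ hφ :=
  Fermat.Agent.S37.helper8426.fundamentalIdentityAlong φ hφ (finiteAlong_any φ)
    (residueField_surjective M)

/-- **The inputs of the Prelude Hecke operator hold at every level.** -/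
theorem heckeInputsAlong (N ℓ : ℕ) [NeZero N] [NeZero ℓ] : HeckeInputsAlong Kbar N ℓ :=
  heckeInputsAlong_of N ℓ (fundamentalIdentityAlong_any _ _)
    (Fermat.Agent.S37.helper8426.normFormulaAlong _ _ (residueField_surjective (N * ℓ)))

/-- An algebra hom which is the identity on `q`-expansions is the inclusion. -/
theorem eq_incl {M M' : ℕ} [NeZero M] [NeZero M'] (h : M ∣ M') (a : FN M →ₐ[Kbar] FN M')
    (ha : ∀ x, ((a x : FN M') : LaurentSeries Kbar) = (x : LaurentSeries Kbar)) : a = incl h :=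
  AlgHom.ext fun x => Subtype.ext (by rw [ha, coe_incl])

theorem incl_jBar {M M' : ℕ} [NeZero M] [NeZero M'] (h : M ∣ M') : incl h (jBar M) = jBar M' := by
  apply Subtype.ext
  rw [coe_incl, coe_jBar, coe_jBar]

/-! ### Degrees -/

/-- **(D)** `[SL₂(ℤ) : Γ₀(M)] · [F_M' : F_M] = [SL₂(ℤ) : Γ₀(M')]`. -/
theorem card_mul_finrankAlong_incl {M M' : ℕ} [NeZero M] [NeZero M'] (h : M ∣ M') :
    Nat.card (XN M) * finrankAlong Kbar (incl h) = Nat.card (XN M') := by
  have h1 := finrank_adjoin_mul_finrankAlong (incl h) (jBar M)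
  rw [(stmt_JFinrank M).2] at h1
  rw [h1, ← (stmt_JFinrank M').2, incl_jBar]

theorem dedekindPsi_mul_prime {N ℓ : ℕ} (hN : N ≠ 0) (hℓ : ℓ.Prime) :
    dedekindPsi (N * ℓ) = (if ℓ ∣ N then ℓ else ℓ + 1) * dedekindPsi N := by
  rw [mul_comm N ℓ]
  split_ifs with h
  · exact Fermat.Agent.S20.helper34.dedekindPsi_prime_mul_of_dvd hN hℓ h
  · exact Fermat.Agent.S20.helper34.dedekindPsi_prime_mul_of_not_dvd hN hℓ h

theorem dedekindPsi_square {N ℓ ℓ' : ℕ} (hN : N ≠ 0) (hℓ : ℓ.Prime) (hℓ' : ℓ'.Prime)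
    (hne : ℓ ≠ ℓ') :
    dedekindPsi (N * ℓ * ℓ') * dedekindPsi N = dedekindPsi (N * ℓ) * dedekindPsi (N * ℓ') := by
  have hiff : ℓ' ∣ N * ℓ ↔ ℓ' ∣ N := by
    constructor
    · intro h
      rcases (Nat.Prime.dvd_mul hℓ').mp h with h | h
      · exact h
      · exact absurd ((Nat.prime_dvd_prime_iff_eq hℓ' hℓ).mp h).symm hne
    · exact fun h => h.mul_right ℓ
  rw [dedekindPsi_mul_prime (mul_ne_zero hN hℓ.ne_zero) hℓ', dedekindPsi_mul_prime hN hℓ']
  simp only [hiff]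
  ring

theorem card_XN_pos (M : ℕ) [NeZero M] : 0 < Nat.card (XN M) := by
  rw [Fermat.Agent.S24.helper34.stmt_Index M]
  have h := (stmt_JFinrank M).2
  rw [Fermat.Agent.S24.helper34.stmt_Index M] at h
  rw [← h]
  haveI := (stmt_JFinrank M).1
  exact Module.finrank_pos

/-- **(D)** for the square of levels `N, Nℓ, Nℓ', Nℓℓ'`. -/
theorem finrankAlong_incl_square {N ℓ ℓ' M : ℕ} [NeZero N] [NeZero ℓ] [NeZero ℓ'] [NeZero M]
    (hℓ : ℓ.Prime) (hℓ' : ℓ'.Prime) (hne : ℓ ≠ ℓ') (hM : N * ℓ * ℓ' = M)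
    (h₁ : N ∣ N * ℓ) (h₂ : N * ℓ' ∣ M) :
    finrankAlong Kbar (incl h₂) = finrankAlong Kbar (incl h₁) := by
  subst hM
  have e1 := card_mul_finrankAlong_incl h₁
  have e2 := card_mul_finrankAlong_incl h₂
  have hsq := dedekindPsi_square (NeZero.ne N) hℓ hℓ' hne
  have i1 := Fermat.Agent.S24.helper34.stmt_Index (N * ℓ * ℓ')
  have i2 := Fermat.Agent.S24.helper34.stmt_Index N
  have i3 := Fermat.Agent.S24.helper34.stmt_Index (N * ℓ)
  have i4 := Fermat.Agent.S24.helper34.stmt_Index (N * ℓ')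
  rw [← i1, ← i2, ← i3, ← i4] at hsq
  have hpos1 := card_XN_pos N
  have hpos2 := card_XN_pos (N * ℓ')
  rw [← e1, ← e2] at hsq
  have h3 : Nat.card (XN (N * ℓ')) * Nat.card (XN N) * finrankAlong Kbar (incl h₂)
      = Nat.card (XN (N * ℓ')) * Nat.card (XN N) * finrankAlong Kbar (incl h₁) := by
    linarith
  exact Nat.eq_of_mul_eq_mul_left (Nat.mul_pos hpos2 hpos1) h3

/-! ### The cartesian square of levels `N, Nℓ, Nℓ', Nℓℓ'` -/

/-- **Base change in the modular square**: for primes `ℓ ≠ ℓ'`, with `a, a₂` the inclusions and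
`b, b₂` the maps `q ↦ q^ℓ'`,
`b^* ∘ a_* = a₂_* ∘ b₂^*` on divisors of `F_{Nℓ}`. -/
theorem modular_baseChange {N ℓ ℓ' M : ℕ} [NeZero N] [NeZero ℓ] [NeZero ℓ'] [NeZero M]
    (hℓ : ℓ.Prime) (hℓ' : ℓ'.Prime) (hne : ℓ ≠ ℓ') (hM : N * ℓ * ℓ' = M)
    (a : FN N →ₐ[Kbar] FN (N * ℓ)) (b : FN N →ₐ[Kbar] FN (N * ℓ'))
    (a₂ : FN (N * ℓ') →ₐ[Kbar] FN M) (b₂ : FN (N * ℓ) →ₐ[Kbar] FN M)
    (ha : ∀ x, ((a x : FN (N * ℓ)) : LaurentSeries Kbar) = (x : LaurentSeries Kbar))
    (hb : ∀ x, ((b x : FN (N * ℓ')) : LaurentSeries Kbar)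
      = qExpand Kbar ℓ' (x : LaurentSeries Kbar))
    (ha₂ : ∀ x, ((a₂ x : FN M) : LaurentSeries Kbar) = (x : LaurentSeries Kbar))
    (hb₂ : ∀ x, ((b₂ x : FN M) : LaurentSeries Kbar) = qExpand Kbar ℓ' (x : LaurentSeries Kbar))
    (hia : a.toRingHom.IsIntegral) (hib : b.toRingHom.IsIntegral)
    (hia₂ : a₂.toRingHom.IsIntegral) (hib₂ : b₂.toRingHom.IsIntegral)
    (D : Divisor Kbar (FN (N * ℓ))) :
    Divisor.pullbackAlong b hib (Divisor.pushforwardAlong a hia D)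
      = Divisor.pushforwardAlong a₂ hia₂ (Divisor.pullbackAlong b₂ hib₂ D) := by
  have hsq : ∀ x : FN N, b₂ (a x) = a₂ (b x) := fun x =>
    Subtype.ext (by rw [hb₂, ha, ha₂, hb])
  have hdvd₁ : N ∣ N * ℓ := dvd_mul_right N ℓ
  have hdvd₂ : N * ℓ' ∣ M := by
    rw [← hM]
    exact ⟨ℓ, by ring⟩
  have ea : a = incl hdvd₁ := eq_incl hdvd₁ a ha
  have ea₂ : a₂ = incl hdvd₂ := eq_incl hdvd₂ a₂ ha₂
  have hdeg : finrankAlong Kbar a₂ = finrankAlong Kbar a := by
    rw [ea, ea₂]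
    exact finrankAlong_incl_square hℓ hℓ' hne hM hdvd₁ hdvd₂
  have hgen : ∀ z : FN M, ∃ (s : Finset (FN (N * ℓ))) (c : FN (N * ℓ) → FN (N * ℓ')),
      z = ∑ x ∈ s, a₂ (c x) * b₂ x := by
    refine exists_sum_of_subfield_gen a₂ b₂ (finiteAlong_any a₂) ?_
    intro S hS₂ hS₁ z
    refine mem_subfield_of_gen M S ?_ ?_ ?_ z
    · intro c
      have h := hS₂ (algebraMap Kbar _ c)
      rwa [AlgHom.commutes] at h
    · have h := hS₂ (jBar (N * ℓ'))
      have e : a₂ (jBar (N * ℓ')) = jBar M := Subtype.ext (by rw [ha₂, coe_jBar, coe_jBar])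
      rwa [e] at h
    · have h := hS₁ (jTop (N * ℓ))
      have e : b₂ (jTop (N * ℓ)) = jTop M := Subtype.ext (by
        rw [hb₂, coe_jTop, coe_jTop, jSeries_eq_qExpand, jSeries_eq_qExpand, qExpand_qExpand]
        exact qExpand_congr (by rw [← hM]; ring) _)
      rwa [e] at h
  have hBC := Fermat.Agent.S29.helper2378.normAlong_comm_of_span a b b₂ a₂ hsq
    (finiteAlong_any a) hdeg hgen
  have key := Fermat.Agent.S29.helper2378.pullbackAlong_comp_pushforwardAlong_eq a b b₂ a₂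
    hia hib hib₂ hia₂ hsq (finiteAlong_any a) (finiteAlong_any a₂) (normFormulaAlong_any a)
    (normFormulaAlong_any a₂) hBC (exists_sep a hia)
  exact DFunLike.congr_fun key D

/-- `T_ℓ' ∘ T_ℓ = incl_* ∘ (q ↦ q^(ℓℓ'))^*` on divisors of `F_N`, for primes `ℓ ≠ ℓ'`. -/
theorem heckeDiv_comp {N ℓ ℓ' M : ℕ} [NeZero N] [NeZero ℓ] [NeZero ℓ'] [NeZero M]
    (hℓ : ℓ.Prime) (hℓ' : ℓ'.Prime) (hne : ℓ ≠ ℓ') (hM : N * ℓ * ℓ' = M)
    (ι φ : FN N →ₐ[Kbar] FN M)
    (hι : ∀ x, ((ι x : FN M) : LaurentSeries Kbar) = (x : LaurentSeries Kbar))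
    (hφ : ∀ x, ((φ x : FN M) : LaurentSeries Kbar)
      = qExpand Kbar ℓ' (qExpand Kbar ℓ (x : LaurentSeries Kbar)))
    (hα : (heckeAlphaBar Kbar N ℓ).toRingHom.IsIntegral)
    (hβ : (heckeBetaBar Kbar N ℓ).toRingHom.IsIntegral)
    (hα' : (heckeAlphaBar Kbar N ℓ').toRingHom.IsIntegral)
    (hβ' : (heckeBetaBar Kbar N ℓ').toRingHom.IsIntegral)
    (D : Divisor Kbar (FN N)) :
    Divisor.correspondence (heckeBetaBar Kbar N ℓ') (heckeAlphaBar Kbar N ℓ') hβ' hα'
        (Divisor.correspondence (heckeBetaBar Kbar N ℓ) (heckeAlphaBar Kbar N ℓ) hβ hα D)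
      = Divisor.pushforwardAlong ι (isIntegral_any ι)
          (Divisor.pullbackAlong φ (isIntegral_any φ) D) := by
  have hdvd₂ : N * ℓ' ∣ M := by
    rw [← hM]
    exact ⟨ℓ, by ring⟩
  have hdvd₃ : N * ℓ * ℓ' ∣ M := dvd_of_eq hM
  obtain ⟨a₂, ha₂⟩ : ∃ a₂ : FN (N * ℓ') →ₐ[Kbar] FN M, a₂ = incl hdvd₂ := ⟨_, rfl⟩
  obtain ⟨b₂, hb₂⟩ : ∃ b₂ : FN (N * ℓ) →ₐ[Kbar] FN M, b₂ = vmap hdvd₃ := ⟨_, rfl⟩
  have e1 : a₂.comp (heckeAlphaBar Kbar N ℓ') = ι := AlgHom.ext fun x => Subtype.ext (by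
    show ((a₂ (heckeAlphaBar Kbar N ℓ' x) : FN M) : LaurentSeries Kbar) = _
    rw [ha₂, coe_incl, coe_heckeAlphaBar, hι])
  have e2 : b₂.comp (heckeBetaBar Kbar N ℓ) = φ := AlgHom.ext fun x => Subtype.ext (by
    show ((b₂ (heckeBetaBar Kbar N ℓ x) : FN M) : LaurentSeries Kbar) = _
    rw [hb₂, coe_vmap, coe_heckeBetaBar, hφ])
  rw [Divisor.correspondence_apply, Divisor.correspondence_apply,
    modular_baseChange hℓ hℓ' hne hM (heckeAlphaBar Kbar N ℓ) (heckeBetaBar Kbar N ℓ') a₂ b₂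
      (fun x => coe_heckeAlphaBar N ℓ x) (fun x => coe_heckeBetaBar N ℓ' x)
      (fun x => by rw [ha₂, coe_incl]) (fun x => by rw [hb₂, coe_vmap])
      hα hβ' (isIntegral_any a₂) (isIntegral_any b₂),
    ← pushforwardAlong_comp (heckeAlphaBar Kbar N ℓ') a₂ hα' (isIntegral_any a₂)
      (isIntegral_any _) (residueField_surjective _) (residueField_surjective _),
    ← pullbackAlong_comp (heckeBetaBar Kbar N ℓ) b₂ hβ (isIntegral_any b₂) (isIntegral_any _),
    pushforwardAlong_congr e1 _ (isIntegral_any ι), pullbackAlong_congr e2 _ (isIntegral_any φ)]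

theorem qExpand_comm' (m n : ℕ) [NeZero m] [NeZero n] (x : LaurentSeries Kbar) :
    qExpand Kbar m (qExpand Kbar n x) = qExpand Kbar n (qExpand Kbar m x) := by
  rw [qExpand_qExpand, qExpand_qExpand]
  exact qExpand_congr (mul_comm m n) x

/-- **The divisor-level Hecke correspondences commute** for distinct primes. -/
theorem heckeDiv_comm {N ℓ ℓ' : ℕ} [NeZero N] [NeZero ℓ] [NeZero ℓ']
    (hℓ : ℓ.Prime) (hℓ' : ℓ'.Prime) (hne : ℓ ≠ ℓ')
    (hα : (heckeAlphaBar Kbar N ℓ).toRingHom.IsIntegral)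
    (hβ : (heckeBetaBar Kbar N ℓ).toRingHom.IsIntegral)
    (hα' : (heckeAlphaBar Kbar N ℓ').toRingHom.IsIntegral)
    (hβ' : (heckeBetaBar Kbar N ℓ').toRingHom.IsIntegral)
    (D : Divisor Kbar (FN N)) :
    Divisor.correspondence (heckeBetaBar Kbar N ℓ') (heckeAlphaBar Kbar N ℓ') hβ' hα'
        (Divisor.correspondence (heckeBetaBar Kbar N ℓ) (heckeAlphaBar Kbar N ℓ) hβ hα D)
      = Divisor.correspondence (heckeBetaBar Kbar N ℓ) (heckeAlphaBar Kbar N ℓ) hβ hα
        (Divisor.correspondence (heckeBetaBar Kbar N ℓ') (heckeAlphaBar Kbar N ℓ') hβ' hα' D) := by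
  have hdvd : N ∣ N * ℓ * ℓ' := ⟨ℓ * ℓ', by ring⟩
  obtain ⟨ι, hι⟩ : ∃ ι : FN N →ₐ[Kbar] FN (N * ℓ * ℓ'), ι = incl hdvd := ⟨_, rfl⟩
  obtain ⟨φ, hφ⟩ : ∃ φ : FN N →ₐ[Kbar] FN (N * ℓ * ℓ'),
      φ = (heckeBetaBar Kbar (N * ℓ) ℓ').comp (heckeBetaBar Kbar N ℓ) := ⟨_, rfl⟩
  have hι' : ∀ x, ((ι x : FN (N * ℓ * ℓ')) : LaurentSeries Kbar) = (x : LaurentSeries Kbar) :=
    fun x => by rw [hι, coe_incl]
  have hφ' : ∀ x, ((φ x : FN (N * ℓ * ℓ')) : LaurentSeries Kbar)
      = qExpand Kbar ℓ' (qExpand Kbar ℓ (x : LaurentSeries Kbar)) := fun x => by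
    rw [hφ]
    show ((heckeBetaBar Kbar (N * ℓ) ℓ' (heckeBetaBar Kbar N ℓ x) : FN (N * ℓ * ℓ')) :
      LaurentSeries Kbar) = _
    rw [coe_heckeBetaBar, coe_heckeBetaBar]
  rw [heckeDiv_comp hℓ hℓ' hne rfl ι φ hι' hφ' hα hβ hα' hβ' D,
    heckeDiv_comp hℓ' hℓ (Ne.symm hne) (Nat.mul_right_comm N ℓ' ℓ) ι φ hι'
      (fun x => by rw [hφ' x, qExpand_comm']) hα' hβ' hα hβ D]

/-! ### The final theorem -/

/-- **The Hecke operators of the Prelude commute on `J₀(N)`, for every level `N`.** -/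
theorem heckeOperatorsCommuteBar (N : ℕ) [NeZero N] : HeckeOperatorsCommuteBar N := by
  intro ℓ ℓ'
  by_cases hne : ℓ = ℓ'
  · rw [hne]
  haveI : NeZero (ℓ : ℕ) := ⟨ℓ.2.ne_zero⟩
  haveI : NeZero (ℓ' : ℕ) := ⟨ℓ'.2.ne_zero⟩
  have hne' : (ℓ : ℕ) ≠ (ℓ' : ℕ) := fun h => hne (Subtype.ext h)
  obtain ⟨hα, hβ, hP, hfin, hFI, hNF⟩ := heckeInputsAlong N (ℓ : ℕ)
  obtain ⟨hα', hβ', hP', hfin', hFI', hNF'⟩ := heckeInputsAlong N (ℓ' : ℕ)
  have e : heckeOperatorAlong Kbar N (ℓ : ℕ) = heckePic0Bar hα hβ hFI hfin hNF :=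
    heckeOperatorAlong_eq hα hβ hFI hfin hNF
  have e' : heckeOperatorAlong Kbar N (ℓ' : ℕ) = heckePic0Bar hα' hβ' hFI' hfin' hNF' :=
    heckeOperatorAlong_eq hα' hβ' hFI' hfin' hNF'
  apply LinearMap.ext
  intro x
  show heckeOperatorAlong Kbar N (ℓ : ℕ) (heckeOperatorAlong Kbar N (ℓ' : ℕ) x)
    = heckeOperatorAlong Kbar N (ℓ' : ℕ) (heckeOperatorAlong Kbar N (ℓ : ℕ) x)
  rw [e, e']
  obtain ⟨D, rfl⟩ := Pic0.mk_surjective x
  simp only [heckePic0Bar, Pic0.correspondence_mk]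
  congr 1
  apply Subtype.ext
  simp only [Pic0.coe_degZeroCorrespondence]
  exact (heckeDiv_comm ℓ.2 ℓ'.2 hne' hα hβ hα' hβ' (D : Divisor Kbar (FN N))).symm

end Modular

end

end Fermat.Agent.S29.helper2882
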