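/-
helper2982 — S29, leaf M5AN: analytic Hecke-equivariance of the multiplier map.

For a Hecke correspondence `C : Corr Γ ι` (landed S16 module `helper2138_HeckeHom`, valid for every
`Γ ≤ SL(2,ℤ)`, instances `corrT N l` on `Γ₀(N)`), the *multiplicative Hecke transform*
`tmul C w z = ∏ i, w (α i • z)` of a function `w : ℍ → M` with a multiplier system
`w (γ • z) = χ γ * w z` has the multiplier system `∏ i, χ (g i γ)`, i.e. the coset-transfer of `χ`.
In exponential form (`χ = ζ ^ φ`, `φ : Γ → ℤ` or `ZMod n` additive) the transfer is exactly the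
landed operator `Corr.op` / `heckeHomT` on `Hom(Γ, A)`.
-/
import Mathlib
import Fermat.Agent.S16.helper2138_HeckeHom

set_option autoImplicit false

open UpperHalfPlane CongruenceSubgroup Matrix.SpecialLinearGroup
open scoped MatrixGroups

namespace Fermat.Agent.S29.helper2982

open Fermat.Agent.S16.helper2138

section General

variable {Γ : Subgroup SL(2, ℤ)} {ι : Type} [Fintype ι] (C : Corr Γ ι)

/-- The multiplicative Hecke transform of a function on the upper half plane:
`tmul C w z = ∏ i, w (α i • z)`. -/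
noncomputable def tmul {M : Type*} [CommMonoid M] (w : ℍ → M) (z : ℍ) : M :=
  ∏ i, w (C.α i • z)

theorem tmul_apply {M : Type*} [CommMonoid M] (w : ℍ → M) (z : ℍ) :
    tmul C w z = ∏ i, w (C.α i • z) := rfl

theorem tmul_mul {M : Type*} [CommMonoid M] (w w' : ℍ → M) (z : ℍ) :
    tmul C (fun z => w z * w' z) z = tmul C w z * tmul C w' z := by
  simp only [tmul_apply, Finset.prod_mul_distrib]

theorem tmul_one {M : Type*} [CommMonoid M] (z : ℍ) :
    tmul C (fun _ => (1 : M)) z = 1 := by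
  simp [tmul_apply]

theorem tmul_pow {M : Type*} [CommMonoid M] (w : ℍ → M) (n : ℕ) (z : ℍ) :
    tmul C (fun z => w z ^ n) z = tmul C w z ^ n := by
  simp only [tmul_apply, Finset.prod_pow]

theorem tmul_inv {M : Type*} [DivisionCommMonoid M] (w : ℍ → M) (z : ℍ) :
    tmul C (fun z => (w z)⁻¹) z = (tmul C w z)⁻¹ := by
  simp only [tmul_apply, Finset.prod_inv_distrib]

theorem tmul_div {M : Type*} [DivisionCommMonoid M] (w w' : ℍ → M) (z : ℍ) :
    tmul C (fun z => w z / w' z) z = tmul C w z / tmul C w' z := by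
  simp only [tmul_apply, Finset.prod_div_distrib]

theorem tmul_const {M : Type*} [CommMonoid M] (c : M) (z : ℍ) :
    tmul C (fun _ => c) z = c ^ Fintype.card ι := by
  simp [tmul_apply]

/-- The key coset identity on points: `α i • γ • z = g i γ • α (σ γ i) • z`. -/
theorem smul_smul_eq (i : ι) (γ : Γ) (z : ℍ) :
    C.α i • (γ • z) = C.g i γ • (C.α (C.σ γ i) • z) := by
  have h1 : (γ • z : ℍ) = mapGL ℝ (γ : SL(2, ℤ)) • z := rfl
  have h2 : (C.g i γ • (C.α (C.σ γ i) • z) : ℍ) =
      mapGL ℝ (C.g i γ : SL(2, ℤ)) • (C.α (C.σ γ i) • z) := rfl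
  rw [h1, h2, smul_smul, smul_smul, C.rel i γ]

/-- The multiplicative coset-transfer of a character `χ : Γ →* M`:
`(transfer χ) γ = ∏ i, χ (g i γ)`. -/
noncomputable def transfer {M : Type*} [CommMonoid M] (χ : Γ →* M) : Γ →* M where
  toFun γ := ∏ i, χ (C.g i γ)
  map_one' := by simp [Corr.g_one]
  map_mul' γ δ := by
    simp only [Corr.g_mul, map_mul, Finset.prod_mul_distrib]
    congr 1
    exact Equiv.prod_comp (C.σEquiv γ) (fun i => χ (C.g i δ))

theorem transfer_apply {M : Type*} [CommMonoid M] (χ : Γ →* M) (γ : Γ) :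
    transfer C χ γ = ∏ i, χ (C.g i γ) := rfl

theorem transfer_mul {M : Type*} [CommMonoid M] (χ χ' : Γ →* M) :
    transfer C (χ * χ') = transfer C χ * transfer C χ' := by
  ext γ
  simp [transfer_apply, Finset.prod_mul_distrib]

theorem transfer_one {M : Type*} [CommMonoid M] : transfer C (1 : Γ →* M) = 1 := by
  ext γ
  simp [transfer_apply]

theorem transfer_pow {M : Type*} [CommMonoid M] (χ : Γ →* M) (n : ℕ) :
    transfer C (χ ^ n) = transfer C χ ^ n := by
  ext γ
  simp [transfer_apply, Finset.prod_pow]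

/-- Naturality of the transfer in the value monoid. -/
theorem transfer_comp {M M' : Type*} [CommMonoid M] [CommMonoid M'] (f : M →* M') (χ : Γ →* M) :
    transfer C (f.comp χ) = f.comp (transfer C χ) := by
  ext γ
  simp [transfer_apply]

/-- **Hecke-equivariance of the multiplier map** (pointwise form, monoid-valued functions).
If `w (γ • z) = χ γ * w z` for all `γ ∈ Γ`, then the multiplicative Hecke transform `tmul C w`
has the multiplier system `transfer C χ`. -/
theorem tmul_smul {M : Type*} [CommMonoid M] (w : ℍ → M) (χ : Γ →* M)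
    (hw : ∀ (γ : Γ) (z : ℍ), w (γ • z) = χ γ * w z) (γ : Γ) (z : ℍ) :
    tmul C w (γ • z) = transfer C χ γ * tmul C w z := by
  simp only [tmul_apply, transfer_apply]
  have h1 : ∀ i, w (C.α i • (γ • z)) = χ (C.g i γ) * w (C.α (C.σ γ i) • z) := by
    intro i
    rw [smul_smul_eq C i γ z, hw]
  rw [Finset.prod_congr rfl (fun i _ => h1 i), Finset.prod_mul_distrib]
  congr 1
  exact Equiv.prod_comp (C.σEquiv γ) (fun i => w (C.α i • z))

/-- Same with the multiplier acting through a monoid action on the values (e.g. `ℂˣ` on `ℂ`,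
or roots of unity on meromorphic germs). -/
theorem tmul_smul' {M V : Type*} [CommMonoid M] [CommMonoid V] [MulAction M V]
    [IsScalarTower M V V] [SMulCommClass M V V] (w : ℍ → V) (χ : Γ →* M)
    (hw : ∀ (γ : Γ) (z : ℍ), w (γ • z) = χ γ • w z) (γ : Γ) (z : ℍ) :
    tmul C w (γ • z) = transfer C χ γ • tmul C w z := by
  simp only [tmul_apply, transfer_apply]
  have h1 : ∀ i, w (C.α i • (γ • z)) = χ (C.g i γ) • w (C.α (C.σ γ i) • z) := by
    intro i
    rw [smul_smul_eq C i γ z, hw]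
  rw [Finset.prod_congr rfl (fun i _ => h1 i), Finset.prod_smul]
  congr 1
  exact Equiv.prod_comp (C.σEquiv γ) (fun i => w (C.α i • z))

/-- Invariant functions have invariant multiplicative Hecke transforms. -/
theorem tmul_invariant {M : Type*} [CommMonoid M] (w : ℍ → M)
    (hw : ∀ (γ : Γ) (z : ℍ), w (γ • z) = w z) (γ : Γ) (z : ℍ) :
    tmul C w (γ • z) = tmul C w z := by
  have := tmul_smul C w (1 : Γ →* M) (fun γ z => by simpa using hw γ z) γ z
  simpa [transfer_one] using this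

/-! ### Exponential form: the transfer is the landed operator `Corr.op` on `Hom(Γ, A)` -/

/-- Exponential form over `ℤ`: if `w (γ • z) = ζ ^ φ γ * w z` with `φ : Γ → ℤ` additive and
`ζ` a unit, then `tmul C w (γ • z) = ζ ^ (C.op ℤ φ) γ * tmul C w z`. -/
theorem tmul_smul_zpow {M : Type*} [CommGroup M] (w : ℍ → M) (ζ : M)
    (φ : Additive Γ →+ ℤ)
    (hw : ∀ (γ : Γ) (z : ℍ), w (γ • z) = ζ ^ φ (Additive.ofMul γ) * w z) (γ : Γ) (z : ℍ) :
    tmul C w (γ • z) = ζ ^ C.op ℤ φ (Additive.ofMul γ) * tmul C w z := by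
  let χ : Γ →* M :=
    { toFun := fun γ => ζ ^ φ (Additive.ofMul γ)
      map_one' := by simp
      map_mul' := fun γ δ => by simp [zpow_add] }
  have h := tmul_smul C w χ hw γ z
  rw [h, transfer_apply, Corr.op_apply]
  congr 1
  show ∏ i, ζ ^ φ (Additive.ofMul (C.g i γ)) = _
  induction (Finset.univ : Finset ι) using Finset.cons_induction with
  | empty => simp
  | cons a s ha ih => rw [Finset.prod_cons, Finset.sum_cons, ih, zpow_add]

/-- Exponential form for complex-valued functions, `ζ ≠ 0`. -/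
theorem tmul_smul_zpow_complex (w : ℍ → ℂ) (ζ : ℂ) (hζ : ζ ≠ 0)
    (φ : Additive Γ →+ ℤ)
    (hw : ∀ (γ : Γ) (z : ℍ), w (γ • z) = ζ ^ φ (Additive.ofMul γ) * w z) (γ : Γ) (z : ℍ) :
    tmul C w (γ • z) = ζ ^ C.op ℤ φ (Additive.ofMul γ) * tmul C w z := by
  let χ : Γ →* ℂ :=
    { toFun := fun γ => ζ ^ φ (Additive.ofMul γ)
      map_one' := by simp
      map_mul' := fun γ δ => by simp [zpow_add₀ hζ] }
  have h := tmul_smul C w χ hw γ z
  rw [h, transfer_apply, Corr.op_apply]
  congr 1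
  show ∏ i, ζ ^ φ (Additive.ofMul (C.g i γ)) = _
  induction (Finset.univ : Finset ι) using Finset.cons_induction with
  | empty => simp
  | cons a s ha ih => rw [Finset.prod_cons, Finset.sum_cons, ih, zpow_add₀ hζ]

/-- Exponential form over `ZMod n`: if `ζ ^ n = 1` and `w (γ • z) = ζ ^ (φ γ).val * w z` with
`φ : Γ → ZMod n` additive, then `tmul C w` has the multiplier `ζ ^ ((C.op (ZMod n) φ) γ).val`. -/
theorem tmul_smul_zmod {M : Type*} [CommMonoid M] (n : ℕ) [NeZero n] (w : ℍ → M) (ζ : M)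
    (hζ : ζ ^ n = 1) (φ : Additive Γ →+ ZMod n)
    (hw : ∀ (γ : Γ) (z : ℍ), w (γ • z) = ζ ^ (φ (Additive.ofMul γ)).val * w z) (γ : Γ) (z : ℍ) :
    tmul C w (γ • z) = ζ ^ (C.op (ZMod n) φ (Additive.ofMul γ)).val * tmul C w z := by
  have key : ∀ a b : ZMod n, ζ ^ (a + b).val = ζ ^ a.val * ζ ^ b.val := by
    intro a b
    rw [← pow_add, ZMod.val_add, ← Nat.mod_add_div (a.val + b.val) n, pow_add, pow_mul, hζ,
      one_pow, mul_one, Nat.mod_add_div]
  let χ : Γ →* M :=
    { toFun := fun γ => ζ ^ (φ (Additive.ofMul γ)).val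
      map_one' := by simp
      map_mul' := fun γ δ => by simp [key] }
  have h := tmul_smul C w χ hw γ z
  rw [h, transfer_apply, Corr.op_apply]
  congr 1
  show ∏ i, ζ ^ (φ (Additive.ofMul (C.g i γ))).val = _
  induction (Finset.univ : Finset ι) using Finset.cons_induction with
  | empty => simp
  | cons a s ha ih => rw [Finset.prod_cons, Finset.sum_cons, ih, key]

end General

/-! ### The concrete correspondence `T_l` on `Γ₀(N)` -/

section Concrete

open ModularForm (heckeMatrix heckeDiagMatrix coe_heckeMatrix_smul coe_heckeDiagMatrix_smul)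

variable (N l : ℕ) [Fact l.Prime] (hlN : ¬ l ∣ N)

/-- The multiplicative Hecke transform `T_l` on functions on `ℍ`:
`tmulT l w z = w (l z) * ∏_{j mod l} w ((z + j) / l)`. -/
noncomputable def tmulT {M : Type*} [CommMonoid M] (w : ℍ → M) (z : ℍ) : M :=
  haveI : NeZero l := ⟨(Fact.out : l.Prime).ne_zero⟩
  w (heckeDiagMatrix l • z) * ∏ j : ZMod l, w (heckeMatrix l j.val • z)

theorem tmul_corrT {M : Type*} [CommMonoid M] (w : ℍ → M) (z : ℍ) :
    tmul (corrT N l hlN) w z = tmulT l w z := by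
  have : NeZero l := ⟨(Fact.out : l.Prime).ne_zero⟩
  rw [tmul_apply, tmulT]
  simp only [corrT_α]
  exact Fintype.prod_option (fun x : Option (ZMod l) => w (repT l x • z))

/-- Coordinates of the points at which `tmulT` evaluates. -/
theorem coe_heckeDiag_smul (z : ℍ) : ((heckeDiagMatrix l • z : ℍ) : ℂ) = (l : ℂ) * (z : ℂ) :=
  coe_heckeDiagMatrix_smul (Fact.out : l.Prime).ne_zero z

theorem coe_hecke_smul (j : ℕ) (z : ℍ) :
    ((heckeMatrix l j • z : ℍ) : ℂ) = ((z : ℂ) + j) / l :=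
  coe_heckeMatrix_smul (Fact.out : l.Prime).ne_zero j z

/-- **Hecke-equivariance of the multiplier map for `T_l` on `Γ₀(N)`**, multiplicative form. -/
theorem tmulT_smul {M : Type*} [CommMonoid M] (w : ℍ → M) (χ : Gamma0 N →* M)
    (hw : ∀ (γ : Gamma0 N) (z : ℍ), w (γ • z) = χ γ * w z) (γ : Gamma0 N) (z : ℍ) :
    tmulT l w (γ • z) = transfer (corrT N l hlN) χ γ * tmulT l w z := by
  rw [← tmul_corrT N l hlN, ← tmul_corrT N l hlN]
  exact tmul_smul _ w χ hw γ z

/-- **Hecke-equivariance of the multiplier map for `T_l` on `Γ₀(N)`**, exponential form over `ℤ`: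
the multiplier exponent of `tmulT l w` is `heckeHomT N l φ` (the landed coset-transfer
operator on `Hom(Γ₀(N), ℤ)`). -/
theorem tmulT_smul_zpow (w : ℍ → ℂ) (ζ : ℂ) (hζ : ζ ≠ 0) (φ : Additive (Gamma0 N) →+ ℤ)
    (hw : ∀ (γ : Gamma0 N) (z : ℍ), w (γ • z) = ζ ^ φ (Additive.ofMul γ) * w z)
    (γ : Gamma0 N) (z : ℍ) :
    tmulT l w (γ • z) = ζ ^ heckeHomT N l hlN ℤ φ (Additive.ofMul γ) * tmulT l w z := by
  rw [← tmul_corrT N l hlN, ← tmul_corrT N l hlN]
  exact tmul_smul_zpow_complex _ w ζ hζ φ hw γ z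

/-- Exponential form over `ZMod n` (`ζ ^ n = 1`): the multiplier exponent of `tmulT l w` is
`heckeHomT N l φ` on `Hom(Γ₀(N), ZMod n)`. -/
theorem tmulT_smul_zmod (n : ℕ) [NeZero n] (w : ℍ → ℂ) (ζ : ℂ) (hζ : ζ ^ n = 1)
    (φ : Additive (Gamma0 N) →+ ZMod n)
    (hw : ∀ (γ : Gamma0 N) (z : ℍ), w (γ • z) = ζ ^ (φ (Additive.ofMul γ)).val * w z)
    (γ : Gamma0 N) (z : ℍ) :
    tmulT l w (γ • z) =
      ζ ^ (heckeHomT N l hlN (ZMod n) φ (Additive.ofMul γ)).val * tmulT l w z := by
  rw [← tmul_corrT N l hlN, ← tmul_corrT N l hlN]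
  exact tmul_smul_zmod _ n w ζ hζ φ hw γ z

/-- `Γ₀(N)`-invariant functions have `Γ₀(N)`-invariant multiplicative Hecke transforms. -/
theorem tmulT_invariant (hlN : ¬ l ∣ N) {M : Type*} [CommMonoid M] (w : ℍ → M)
    (hw : ∀ (γ : Gamma0 N) (z : ℍ), w (γ • z) = w z) (γ : Gamma0 N) (z : ℍ) :
    tmulT l w (γ • z) = tmulT l w z := by
  rw [← tmul_corrT N l hlN, ← tmul_corrT N l hlN]
  exact tmul_invariant _ w hw γ z

theorem tmulT_mul {M : Type*} [CommMonoid M] (w w' : ℍ → M) (z : ℍ) :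
    tmulT l (fun z => w z * w' z) z = tmulT l w z * tmulT l w' z := by
  have : NeZero l := ⟨(Fact.out : l.Prime).ne_zero⟩
  simp only [tmulT, Finset.prod_mul_distrib]
  exact mul_mul_mul_comm _ _ _ _

theorem tmulT_pow {M : Type*} [CommMonoid M] (w : ℍ → M) (n : ℕ) (z : ℍ) :
    tmulT l (fun z => w z ^ n) z = tmulT l w z ^ n := by
  have : NeZero l := ⟨(Fact.out : l.Prime).ne_zero⟩
  simp only [tmulT, Finset.prod_pow, mul_pow]

theorem tmulT_inv {M : Type*} [DivisionCommMonoid M] (w : ℍ → M) (z : ℍ) :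
    tmulT l (fun z => (w z)⁻¹) z = (tmulT l w z)⁻¹ := by
  have : NeZero l := ⟨(Fact.out : l.Prime).ne_zero⟩
  simp only [tmulT, Finset.prod_inv_distrib, mul_inv]

theorem tmulT_div {M : Type*} [DivisionCommMonoid M] (w w' : ℍ → M) (z : ℍ) :
    tmulT l (fun z => w z / w' z) z = tmulT l w z / tmulT l w' z := by
  have : NeZero l := ⟨(Fact.out : l.Prime).ne_zero⟩
  simp only [tmulT, Finset.prod_div_distrib]
  rw [div_mul_div_comm]

/-- `tmulT l c = c ^ (l + 1)` on constants. -/
theorem tmulT_const {M : Type*} [CommMonoid M] (c : M) (z : ℍ) :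
    tmulT l (fun _ => c) z = c ^ (l + 1) := by
  have : NeZero l := ⟨(Fact.out : l.Prime).ne_zero⟩
  simp only [tmulT, Finset.prod_const, Finset.card_univ, ZMod.card, pow_succ']

end Concrete

end Fermat.Agent.S29.helper2982
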