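import Fermat.Agent.S29.helper3126_InvRoot
import Fermat.Agent.S24.helper6180_Ev
import Fermat.Agent.S29.helper8319_PthRoot

/-!
# S29, leaf TH3, pair form (helper3126)

Consumer-side forms of `helper3126.exists_pow_eq_of_invariant_root` in the vocabulary of the
analytic evaluation `helper6180.ev` (the one used by the order dictionary and by ANDIV):

* `ev_eq_evFun` : `helper6180.ev N a = helper1944.evFun N a` (the two realisations of the
  evaluation of `A_N = ℚ̄[j(q^d) : d ∣ N]` agree);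
* `exists_pow_eq_of_invariant_root_ev` : TH3 for a holomorphic invariant root of `ev w`;
* `exists_pow_eq_of_pair` : TH3 for a root given as a ratio `A / B` of holomorphic functions:
  if `A ^ n * ev b = B ^ n * ev a` and `A / B` is `Γ₀(N)`-invariant (cross-multiplied form),
  then `a / b` is an `n`-th power in the function field `FN N`;
* `pair_invariant_of_pow` : the converse (an `n`-th power has only invariant root pairs).
-/

set_option autoImplicit false

open ModularCurve UpperHalfPlane CongruenceSubgroup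
open scoped MatrixGroups Manifold

namespace Fermat.Agent.S29.helper3126

open Fermat.Agent.S24 Fermat.Agent.S24.helper24

noncomputable section

/-! ### The two evaluations agree -/

theorem kappa_eq_i0 : helper1944.kappa = helper6180.i0 := rfl

/-- The evaluation `helper6180.ev` (defined through the cusp expansion) and the evaluation
`helper1944.evFun` (defined as the sum of the `q`-series) agree on `A_N`. -/
theorem ev_eq_evFun (N : ℕ) (a : helper3176.AN N) :
    helper6180.ev N a = helper1944.evFun N (a : FN N) := by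
  have key : ∀ x ∈ helper3176.AN N, ∀ hx : x ∈ helper3176.AN N,
      helper6180.ev N ⟨x, hx⟩ = helper1944.evFun N x := by
    refine helper1944.AN_induction N (p := fun x => ∀ hx : x ∈ helper3176.AN N,
      helper6180.ev N ⟨x, hx⟩ = helper1944.evFun N x) ?_ ?_ ?_ ?_
    · intro d _ hd hx
      rw [helper6180.ev_jBarD N d hd, helper1944.evFun_jBarD]
      rfl
    · intro c hx
      have h1 := helper6180.ev_algebraMap N c
      have h2 : (⟨algebraMap Kbar (FN N) c, hx⟩ : helper3176.AN N) =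
          algebraMap Kbar (helper3176.AN N) c := Subtype.ext rfl
      rw [h2, h1, helper1944.evFun_algebraMap]
      rfl
    · intro x y hx hy ihx ihy hxy
      have h2 : (⟨x + y, hxy⟩ : helper3176.AN N) = ⟨x, hx⟩ + ⟨y, hy⟩ := rfl
      rw [h2, helper6180.ev_add, ihx hx, ihy hy, helper1944.evFun_add N hx hy]
    · intro x y hx hy ihx ihy hxy
      have h2 : (⟨x * y, hxy⟩ : helper3176.AN N) = ⟨x, hx⟩ * ⟨y, hy⟩ := rfl
      rw [h2, helper6180.ev_mul, ihx hx, ihy hy, helper1944.evFun_mul N hx hy]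
  exact key a.1 a.2 a.2

theorem ev_pow (N : ℕ) (a : helper3176.AN N) (k : ℕ) :
    helper6180.ev N (a ^ k) = helper6180.ev N a ^ k := by
  have h := map_pow (helper6180.evHom N) a k
  simpa [helper6180.evHom_apply] using h

/-- **TH3, `helper6180.ev` form.**  A holomorphic `Γ₀(N)`-invariant `n`-th root of `ev w`,
`w ∈ A_N`, forces `w` to be an `n`-th power in the function field. -/
theorem exists_pow_eq_of_invariant_root_ev (N : ℕ) [NeZero N] {n : ℕ} (hn : 0 < n)
    (w : helper3176.AN N) (Hr : ℍ → ℂ) (hHr : MDiff Hr)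
    (hpow : ∀ τ : ℍ, Hr τ ^ n = helper6180.ev N w τ)
    (hinv : ∀ γ ∈ Gamma0 N, ∀ τ : ℍ, Hr (γ • τ) = Hr τ) :
    ∃ v : FN N, (w : FN N) = v ^ n :=
  exists_pow_eq_of_invariant_root N hn (w : FN N) w.2 Hr hHr
    (fun τ => by rw [hpow τ, ev_eq_evFun]) hinv

/-! ### Holomorphic functions on the upper half plane -/

theorem analyticOnNhd_of_mdiff {f : ℍ → ℂ} (hf : MDiff f) :
    AnalyticOnNhd ℂ (f ∘ ofComplex) {z : ℂ | 0 < z.im} :=
  (UpperHalfPlane.mdifferentiable_iff.mp hf).analyticOnNhd isOpen_upperHalfPlaneSet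

theorem mdiff_mul_eq_zero {f g : ℍ → ℂ} (hf : MDiff f) (hg : MDiff g)
    (h : ∀ τ : ℍ, f τ * g τ = 0) : (∀ τ : ℍ, f τ = 0) ∨ (∀ τ : ℍ, g τ = 0) := by
  have hU : IsPreconnected {z : ℂ | 0 < z.im} := (convex_halfSpace_im_gt 0).isPreconnected
  rcases (analyticOnNhd_of_mdiff hf).eq_zero_or_eq_zero_of_mul_eq_zero (analyticOnNhd_of_mdiff hg)
    (fun z _ => h (ofComplex z)) hU with h1 | h1
  · left
    intro τ
    have := h1 τ τ.im_pos
    simpa using this
  · right
    intro τ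
    have := h1 τ τ.im_pos
    simpa using this

theorem mdiff_comp_smul {f : ℍ → ℂ} (hf : MDiff f) (g : SL(2, ℤ)) :
    MDiff (fun τ : ℍ => f (g • τ)) :=
  hf.comp (helper1019.mdiff_smul_SL g)

/-- A holomorphic function on `ℍ` which is not identically zero has finite order everywhere. -/
theorem exists_analyticOrderAt_eq {f : ℍ → ℂ} (hf : MDiff f) (hf0 : ∃ τ, f τ ≠ 0) (z : ℍ) :
    ∃ k : ℕ, analyticOrderAt (f ∘ ofComplex) (z : ℂ) = (k : ℕ∞) := by
  have hU : IsPreconnected {z : ℂ | 0 < z.im} := (convex_halfSpace_im_gt 0).isPreconnected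
  have hne : analyticOrderAt (f ∘ ofComplex) (z : ℂ) ≠ ⊤ := by
    intro htop
    rw [analyticOrderAt_eq_top] at htop
    have h0 := (analyticOnNhd_of_mdiff hf).eqOn_zero_of_preconnected_of_eventuallyEq_zero hU
      z.im_pos htop
    obtain ⟨τ, hτ⟩ := hf0
    apply hτ
    have := h0 τ.im_pos
    simpa using this
  obtain ⟨k, hk⟩ := ENat.ne_top_iff_exists.mp hne
  exact ⟨k, hk.symm⟩

/-! ### The pair form -/

/-- **TH3, pair form.**  Let `a, b ∈ A_N`, `b ≠ 0`, and let `A, B` be holomorphic functions on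
the upper half plane, `B ≠ 0`, with `A ^ n * ev b = B ^ n * ev a` (so `A / B` is an analytic
`n`-th root of `ev a / ev b`), such that `A / B` is `Γ₀(N)`-invariant, in the cross-multiplied
form `A (γ τ) * B τ = A τ * B (γ τ)`.  Then `a / b` is an `n`-th power in the function field. -/
theorem exists_pow_eq_of_pair (N : ℕ) [NeZero N] {n : ℕ} (hn : 0 < n)
    (a b : helper3176.AN N) (hb : b ≠ 0) (A B : ℍ → ℂ) (hA : MDiff A) (hB : MDiff B)
    (hB0 : B ≠ 0)
    (hroot : ∀ τ : ℍ, A τ ^ n * helper6180.ev N b τ = B τ ^ n * helper6180.ev N a τ)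
    (hinv : ∀ γ ∈ Gamma0 N, ∀ τ : ℍ, A (γ • τ) * B τ = A τ * B (γ • τ)) :
    ∃ v : FN N, (a : FN N) / (b : FN N) = v ^ n := by
  by_cases ha : a = 0
  · refine ⟨0, ?_⟩
    rw [ha, zero_pow hn.ne']
    simp
  have hn0 : n ≠ 0 := hn.ne'
  -- nonvanishing of the four functions
  have hB0' : ∃ τ, B τ ≠ 0 := Function.ne_iff.mp hB0
  have hea : MDiff (helper6180.ev N a) := helper6180.mdiff_ev N a
  have heb : MDiff (helper6180.ev N b) := helper6180.mdiff_ev N b
  have hea0 : ∃ τ, helper6180.ev N a τ ≠ 0 :=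
    Function.ne_iff.mp (fun h => ha ((helper6180.ev_eq_zero_iff N a).mp h))
  have heb0 : ∃ τ, helper6180.ev N b τ ≠ 0 :=
    Function.ne_iff.mp (fun h => hb ((helper6180.ev_eq_zero_iff N b).mp h))
  have hA0' : ∃ τ, A τ ≠ 0 := by
    by_contra hcon
    have hcon' : ∀ τ : ℍ, A τ = 0 := fun τ => by_contra fun h => hcon ⟨τ, h⟩
    have h1 : ∀ τ : ℍ, B τ ^ n * helper6180.ev N a τ = 0 := fun τ => by
      rw [← hroot τ, hcon' τ, zero_pow hn0, zero_mul]
    rcases mdiff_mul_eq_zero (hB.pow n) hea h1 with h2 | h2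
    · obtain ⟨τ, hτ⟩ := hB0'
      exact hτ (pow_eq_zero_iff hn0 |>.mp (h2 τ))
    · obtain ⟨τ, hτ⟩ := hea0
      exact hτ (h2 τ)
  -- the orders of `ev a` and `ev b` differ by a multiple of `n`
  have hord : ∀ z : ℍ, ∃ (ka kb : ℕ) (k : ℤ),
      analyticOrderAt (helper6180.ev N a ∘ ofComplex) (z : ℂ) = (ka : ℕ∞) ∧
      analyticOrderAt (helper6180.ev N b ∘ ofComplex) (z : ℂ) = (kb : ℕ∞) ∧
        (ka : ℤ) - kb = n * k := by
    intro z
    obtain ⟨oA, hoA⟩ := exists_analyticOrderAt_eq hA hA0' z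
    obtain ⟨oB, hoB⟩ := exists_analyticOrderAt_eq hB hB0' z
    obtain ⟨oa, hoa⟩ := exists_analyticOrderAt_eq hea hea0 z
    obtain ⟨ob, hob⟩ := exists_analyticOrderAt_eq heb heb0 z
    have aA : AnalyticAt ℂ (A ∘ ofComplex) (z : ℂ) := analyticOnNhd_of_mdiff hA _ z.im_pos
    have aB : AnalyticAt ℂ (B ∘ ofComplex) (z : ℂ) := analyticOnNhd_of_mdiff hB _ z.im_pos
    have aa : AnalyticAt ℂ (helper6180.ev N a ∘ ofComplex) (z : ℂ) :=
      analyticOnNhd_of_mdiff hea _ z.im_pos
    have ab : AnalyticAt ℂ (helper6180.ev N b ∘ ofComplex) (z : ℂ) :=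
      analyticOnNhd_of_mdiff heb _ z.im_pos
    have hfun : (A ∘ ofComplex) ^ n * (helper6180.ev N b ∘ ofComplex) =
        (B ∘ ofComplex) ^ n * (helper6180.ev N a ∘ ofComplex) := by
      funext w
      simpa using hroot (ofComplex w)
    have h1 : analyticOrderAt ((A ∘ ofComplex) ^ n * (helper6180.ev N b ∘ ofComplex)) (z : ℂ) =
        analyticOrderAt ((B ∘ ofComplex) ^ n * (helper6180.ev N a ∘ ofComplex)) (z : ℂ) := by
      rw [hfun]
    rw [analyticOrderAt_mul (aA.pow n) ab, analyticOrderAt_mul (aB.pow n) aa,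
      analyticOrderAt_pow aA, analyticOrderAt_pow aB, hoA, hoB, hoa, hob] at h1
    rw [nsmul_eq_mul, nsmul_eq_mul] at h1
    have h2 : n * oA + ob = n * oB + oa := by exact_mod_cast h1
    refine ⟨oa, ob, (oA : ℤ) - oB, hoa, hob, ?_⟩
    have h3 : (n : ℤ) * oA + ob = n * oB + oa := by exact_mod_cast h2
    linarith
  -- a holomorphic root `R` of `ev a * ev b ^ (n - 1)`
  obtain ⟨R, hR, hRn, -⟩ := helper8319.exists_root_ratio_UHP hea heb hn0 hord
  -- `R * B` is not identically zero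
  have hRB0 : ∃ τ, R τ * B τ ≠ 0 := by
    by_contra hcon
    have hcon' : ∀ τ : ℍ, R τ * B τ = 0 := fun τ => by_contra fun h => hcon ⟨τ, h⟩
    rcases mdiff_mul_eq_zero hR hB hcon' with h2 | h2
    · have h3 : ∀ τ : ℍ, helper6180.ev N a τ * helper6180.ev N b τ ^ (n - 1) = 0 := fun τ => by
        rw [← hRn τ, h2 τ, zero_pow hn0]
      rcases mdiff_mul_eq_zero hea (heb.pow (n - 1)) h3 with h4 | h4
      · obtain ⟨τ, hτ⟩ := hea0
        exact hτ (h4 τ)
      · obtain ⟨τ, hτ⟩ := heb0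
        exact hτ (eq_zero_of_pow_eq_zero (h4 τ))
    · obtain ⟨τ, hτ⟩ := hB0'
      exact hτ (h2 τ)
  -- `A * ev b = ζ * R * B`
  have hXY : ∀ τ : ℍ, (A τ * helper6180.ev N b τ) ^ n = (R τ * B τ) ^ n := fun τ => by
    have h1 : (A τ * helper6180.ev N b τ) ^ n =
        (A τ ^ n * helper6180.ev N b τ) * helper6180.ev N b τ ^ (n - 1) := by
      rw [mul_pow, mul_assoc, ← pow_succ', Nat.sub_add_cancel hn]
    rw [h1, hroot τ, mul_pow, hRn τ]
    ring
  obtain ⟨ζ, hζ, hζe⟩ := helper8319.eq_const_mul_of_pow_eq_UHP hn0 (hA.mul heb) (hR.mul hB)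
    hRB0 hXY
  -- the holomorphic root `Hr = ζ R`
  set Hr : ℍ → ℂ := fun τ => ζ * R τ with hHr_def
  have hHr : MDiff Hr := mdifferentiable_const.mul hR
  have hHrB : ∀ τ : ℍ, Hr τ * B τ = A τ * helper6180.ev N b τ := fun τ => by
    have h1 := hζe τ
    simp only [Pi.mul_apply] at h1
    show ζ * R τ * B τ = _
    rw [h1]
    ring
  have hHrpow : ∀ τ : ℍ, Hr τ ^ n = helper6180.ev N (a * b ^ (n - 1)) τ := fun τ => by
    rw [hHr_def]
    simp only []
    rw [mul_pow, hζ, one_mul, hRn τ, helper6180.ev_mul, ev_pow]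
    rfl
  -- invariance of `Hr`
  have hHrinv : ∀ γ ∈ Gamma0 N, ∀ τ : ℍ, Hr (γ • τ) = Hr τ := by
    intro γ hγ
    have hprod : ∀ τ : ℍ, (Hr (γ • τ) - Hr τ) * (B (γ • τ) * B τ) = 0 := fun τ => by
      have h1 : Hr (γ • τ) * B (γ • τ) * B τ = Hr τ * B τ * B (γ • τ) := by
        rw [hHrB (γ • τ), hHrB τ, helper6180.ev_smul_of_mem_Gamma0 N b γ hγ τ]
        have := hinv γ hγ τ
        linear_combination (helper6180.ev N b τ) * this
      linear_combination h1
    rcases mdiff_mul_eq_zero ((mdiff_comp_smul hHr γ).sub hHr) ((mdiff_comp_smul hB γ).mul hB)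
      hprod with h2 | h2
    · intro τ
      exact sub_eq_zero.mp (h2 τ)
    · exfalso
      rcases mdiff_mul_eq_zero (mdiff_comp_smul hB γ) hB h2 with h3 | h3
      · obtain ⟨τ, hτ⟩ := hB0'
        apply hτ
        have := h3 (γ⁻¹ • τ)
        rwa [smul_inv_smul] at this
      · obtain ⟨τ, hτ⟩ := hB0'
        exact hτ (h3 τ)
  obtain ⟨v, hv⟩ := exists_pow_eq_of_invariant_root_ev N hn (a * b ^ (n - 1)) Hr hHr hHrpow hHrinv
  have hb' : (b : FN N) ≠ 0 := fun h => hb (Subtype.ext h)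
  refine ⟨v / (b : FN N), ?_⟩
  have hv' : (a : FN N) * (b : FN N) ^ (n - 1) = v ^ n := by
    rw [← hv]
    rfl
  rw [div_pow, ← hv', eq_div_iff (pow_ne_zero n hb'), div_mul_eq_mul_div,
    div_eq_iff hb', mul_assoc, pow_sub_one_mul hn0]

/-- **Converse (TH2, trivial multiplier).**  If `a / b` is an `n`-th power in the function field,
then every analytic root pair `(A, B)` of `ev a / ev b` is `Γ₀(N)`-invariant. -/
theorem pair_invariant_of_pow (N : ℕ) [NeZero N] {n : ℕ} (hn : 0 < n)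
    (a b : helper3176.AN N) (hb : b ≠ 0) (A B : ℍ → ℂ) (hA : MDiff A) (hB : MDiff B)
    (hroot : ∀ τ : ℍ, A τ ^ n * helper6180.ev N b τ = B τ ^ n * helper6180.ev N a τ)
    (v : FN N) (hv : (a : FN N) / (b : FN N) = v ^ n) :
    ∀ γ ∈ Gamma0 N, ∀ τ : ℍ, A (γ • τ) * B τ = A τ * B (γ • τ) := by
  have hn0 : n ≠ 0 := hn.ne'
  obtain ⟨c, d, hd, rfl⟩ := helper3176.exists_div_AN N v
  have hb' : (b : FN N) ≠ 0 := fun h => hb (Subtype.ext h)
  have hd0 : d ≠ 0 := fun h => hd (by rw [h]; rfl)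
  -- `a * d ^ n = b * c ^ n` in `A_N`
  have hrel : a * d ^ n = b * c ^ n := by
    apply Subtype.ext
    show (a : FN N) * (d : FN N) ^ n = (b : FN N) * (c : FN N) ^ n
    rw [div_pow, div_eq_div_iff hb' (pow_ne_zero n hd)] at hv
    rw [hv, mul_comm]
  have hevrel : ∀ τ : ℍ, helper6180.ev N a τ * helper6180.ev N d τ ^ n =
      helper6180.ev N b τ * helper6180.ev N c τ ^ n := fun τ => by
    have h1 := congrArg (fun x => helper6180.ev N x τ) hrel
    simp only [helper6180.ev_mul, ev_pow] at h1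
    exact h1
  have hec : MDiff (helper6180.ev N c) := helper6180.mdiff_ev N c
  have hed : MDiff (helper6180.ev N d) := helper6180.mdiff_ev N d
  have heb : MDiff (helper6180.ev N b) := helper6180.mdiff_ev N b
  have heb0 : ∃ τ, helper6180.ev N b τ ≠ 0 :=
    Function.ne_iff.mp (fun h => hb ((helper6180.ev_eq_zero_iff N b).mp h))
  have hed0 : ∃ τ, helper6180.ev N d τ ≠ 0 :=
    Function.ne_iff.mp (fun h => hd0 ((helper6180.ev_eq_zero_iff N d).mp h))
  -- `(A * ev d) ^ n = (B * ev c) ^ n`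
  have hXY : ∀ τ : ℍ, (A τ * helper6180.ev N d τ) ^ n = (B τ * helper6180.ev N c τ) ^ n := by
    have h1 : ∀ τ : ℍ, ((A τ * helper6180.ev N d τ) ^ n - (B τ * helper6180.ev N c τ) ^ n) *
        helper6180.ev N b τ = 0 := fun τ => by
      have h2 := hroot τ
      have h3 := hevrel τ
      linear_combination (helper6180.ev N d τ ^ n) * h2 + (B τ ^ n) * h3
    rcases mdiff_mul_eq_zero (((hA.mul hed).pow n).sub ((hB.mul hec).pow n)) heb h1 with h2 | h2
    · intro τ
      exact sub_eq_zero.mp (h2 τ)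
    · obtain ⟨τ, hτ⟩ := heb0
      exact absurd (h2 τ) hτ
  intro γ hγ
  by_cases hBc : ∃ τ, B τ * helper6180.ev N c τ ≠ 0
  · obtain ⟨ζ, -, hζe⟩ := helper8319.eq_const_mul_of_pow_eq_UHP hn0 (hA.mul hed) (hB.mul hec)
      hBc hXY
    have hζe' : ∀ τ : ℍ, A τ * helper6180.ev N d τ = ζ * (B τ * helper6180.ev N c τ) := hζe
    have hprod : ∀ τ : ℍ, (A (γ • τ) * B τ - A τ * B (γ • τ)) * helper6180.ev N d τ = 0 :=
      fun τ => by
        have h1 := hζe' (γ • τ)
        rw [helper6180.ev_smul_of_mem_Gamma0 N d γ hγ τ,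
          helper6180.ev_smul_of_mem_Gamma0 N c γ hγ τ] at h1
        have h2 := hζe' τ
        linear_combination (B τ) * h1 - (B (γ • τ)) * h2
    rcases mdiff_mul_eq_zero (((mdiff_comp_smul hA γ).mul hB).sub (hA.mul (mdiff_comp_smul hB γ)))
      hed hprod with h2 | h2
    · intro τ
      exact sub_eq_zero.mp (h2 τ)
    · obtain ⟨τ, hτ⟩ := hed0
      exact absurd (h2 τ) hτ
  · -- degenerate case: `A = 0`
    have hBc' : ∀ τ : ℍ, B τ * helper6180.ev N c τ = 0 := fun τ =>
      by_contra fun h => hBc ⟨τ, h⟩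
    have hAd : ∀ τ : ℍ, A τ * helper6180.ev N d τ = 0 := fun τ => by
      have h1 := hXY τ
      rw [hBc' τ, zero_pow hn0] at h1
      exact eq_zero_of_pow_eq_zero h1
    have hA0 : ∀ τ : ℍ, A τ = 0 := by
      rcases mdiff_mul_eq_zero hA hed hAd with h2 | h2
      · exact h2
      · obtain ⟨τ, hτ⟩ := hed0
        exact absurd (h2 τ) hτ
    intro τ
    rw [hA0, hA0, zero_mul, zero_mul]

end

end Fermat.Agent.S29.helper3126
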