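import Mathlib

/-!
# Twisted Eisenstein series (helper3191, board row 815, S29 analytic strand)

For a subgroup `Γ ≤ SL(2, ℤ)` and a unitary character `χ : Γ →* ℂˣ` which is trivial on the
stabiliser of `∞` in `Γ`, we construct for every even `k ≥ 3` a holomorphic function
`G : ℍ → ℂ` with

* `G (γ • z) = χ γ * denom γ z ^ k * G z` for `γ ∈ Γ`,
* every `SL(2, ℤ)`-slash of `G` is bounded at `i∞`,
* `G → 1` at `i∞`.

Mathlib only.
-/

set_option autoImplicit false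

open UpperHalfPlane ModularForm EisensteinSeries Filter Topology Complex
open scoped MatrixGroups Manifold

namespace Fermat.Agent.S29.helper3191

noncomputable section

/-! ## Reindexing equivalences on `Fin 2 → ℤ` -/

/-- Right multiplication by an element of `SL(2, ℤ)` as a permutation of `Fin 2 → ℤ`. -/
def vecMulEquiv (A : SL(2, ℤ)) : (Fin 2 → ℤ) ≃ (Fin 2 → ℤ) where
  toFun v := Matrix.vecMul v (A : Matrix (Fin 2) (Fin 2) ℤ)
  invFun v := Matrix.vecMul v ((A⁻¹ : SL(2, ℤ)) : Matrix (Fin 2) (Fin 2) ℤ)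
  left_inv v := by
    simp_rw [Matrix.vecMul_vecMul, ← Matrix.SpecialLinearGroup.coe_mul, mul_inv_cancel,
      Matrix.SpecialLinearGroup.coe_one, Matrix.vecMul_one]
  right_inv v := by
    simp_rw [Matrix.vecMul_vecMul, ← Matrix.SpecialLinearGroup.coe_mul, inv_mul_cancel,
      Matrix.SpecialLinearGroup.coe_one, Matrix.vecMul_one]

lemma vecMulEquiv_apply (A : SL(2, ℤ)) (v : Fin 2 → ℤ) :
    vecMulEquiv A v = Matrix.vecMul v (A : Matrix (Fin 2) (Fin 2) ℤ) := rfl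

lemma vecMulEquiv_symm_apply (A : SL(2, ℤ)) (v : Fin 2 → ℤ) :
    (vecMulEquiv A).symm v = Matrix.vecMul v ((A⁻¹ : SL(2, ℤ)) : Matrix (Fin 2) (Fin 2) ℤ) := rfl

/-! ## The absolute Eisenstein sum -/

/-- The sum of the absolute values of all Eisenstein summands. -/
def absEis (k : ℤ) (z : ℍ) : ℝ := ∑' v : Fin 2 → ℤ, ‖eisSummand k v z‖

lemma absEis_summable {k : ℤ} (hk : 3 ≤ k) (z : ℍ) :
    Summable fun v : Fin 2 → ℤ ↦ ‖eisSummand k v z‖ :=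
  summable_norm_eisSummand hk z

lemma denom_T_zpow (n : ℤ) (z : ℍ) : denom ((ModularGroup.T ^ n : SL(2, ℤ))) z = 1 := by
  rw [ModularGroup.denom_apply, ModularGroup.coe_T_zpow]
  simp

lemma norm_eisSummand_T_zpow (k : ℤ) (n : ℤ) (v : Fin 2 → ℤ) (z : ℍ) :
    ‖eisSummand k v ((ModularGroup.T ^ n : SL(2, ℤ)) • z)‖ =
      ‖eisSummand k (vecMulEquiv (ModularGroup.T ^ n) v) z‖ := by
  rw [eisSummand_SL2_apply, denom_T_zpow, one_zpow, one_mul, vecMulEquiv_apply]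

lemma absEis_T_zpow (k : ℤ) (n : ℤ) (z : ℍ) :
    absEis k ((ModularGroup.T ^ n : SL(2, ℤ)) • z) = absEis k z := by
  unfold absEis
  simp_rw [norm_eisSummand_T_zpow]
  exact (vecMulEquiv (ModularGroup.T ^ n)).tsum_eq (fun v ↦ ‖eisSummand k v z‖)

/-- The uniform bound for the absolute Eisenstein sum. -/
def absBound (k : ℤ) : ℝ :=
  ∑' x : Fin 2 → ℤ, r ⟨⟨1, 2⟩, Nat.ofNat_pos⟩ ^ (-k) * ‖x‖ ^ (-k)

lemma absBound_summable {k : ℤ} (hk : 3 ≤ k) :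
    Summable fun x : Fin 2 → ℤ ↦ r ⟨⟨1, 2⟩, Nat.ofNat_pos⟩ ^ (-k) * ‖x‖ ^ (-k) := by
  have hk' : (2 : ℝ) < k := by norm_cast
  exact_mod_cast (summable_one_div_norm_rpow hk').mul_left <| r ⟨⟨1, 2⟩, Nat.ofNat_pos⟩ ^ (-k)

lemma norm_eisSummand_le_of_mem_verticalStrip {k : ℤ} (hk : 3 ≤ k) (v : Fin 2 → ℤ) {z : ℍ}
    (hz : z ∈ verticalStrip 1 2) :
    ‖eisSummand k v z‖ ≤ r ⟨⟨1, 2⟩, Nat.ofNat_pos⟩ ^ (-k) * ‖v‖ ^ (-k) := by
  have hk' : (0 : ℝ) ≤ k := by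
    have : (0 : ℤ) ≤ k := by omega
    exact_mod_cast this
  simp_rw [eisSummand, norm_zpow]
  exact_mod_cast summand_bound_of_mem_verticalStrip hk' v two_pos hz

lemma exists_T_zpow_mem_verticalStrip {z : ℍ} (hz : 2 ≤ z.im) :
    ∃ n : ℤ, (ModularGroup.T ^ n : SL(2, ℤ)) • z ∈ verticalStrip 1 2 := by
  obtain ⟨n, h1, h2⟩ := ModularGroup_T_zpow_mem_verticalStrip z (N := 1) one_pos
  exact ⟨((1 : ℕ) : ℤ) * n, by simpa using h1, hz.trans h2⟩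

lemma absEis_le {k : ℤ} (hk : 3 ≤ k) {z : ℍ} (hz : 2 ≤ z.im) : absEis k z ≤ absBound k := by
  obtain ⟨n, hn⟩ := exists_T_zpow_mem_verticalStrip hz
  rw [← absEis_T_zpow k n z]
  exact (absEis_summable hk _).tsum_le_tsum
    (fun v ↦ norm_eisSummand_le_of_mem_verticalStrip hk v hn) (absBound_summable hk)

/-! ## Weighted Eisenstein sums -/

/-- The Eisenstein sum over all of `ℤ²` with weights `w`. -/
def wEis (w : (Fin 2 → ℤ) → ℂ) (k : ℤ) (z : ℍ) : ℂ :=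
  ∑' v : Fin 2 → ℤ, w v * eisSummand k v z

section weighted

variable {w : (Fin 2 → ℤ) → ℂ}

lemma norm_term_le (hw : ∀ v, ‖w v‖ ≤ 1) (k : ℤ) (v : Fin 2 → ℤ) (z : ℍ) :
    ‖w v * eisSummand k v z‖ ≤ ‖eisSummand k v z‖ := by
  rw [norm_mul]
  exact mul_le_of_le_one_left (norm_nonneg _) (hw v)

lemma wEis_summable_norm (hw : ∀ v, ‖w v‖ ≤ 1) {k : ℤ} (hk : 3 ≤ k) (z : ℍ) :
    Summable fun v : Fin 2 → ℤ ↦ ‖w v * eisSummand k v z‖ :=
  Summable.of_nonneg_of_le (fun _ ↦ norm_nonneg _) (fun v ↦ norm_term_le hw k v z)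
    (absEis_summable hk z)

lemma wEis_summable (hw : ∀ v, ‖w v‖ ≤ 1) {k : ℤ} (hk : 3 ≤ k) (z : ℍ) :
    Summable fun v : Fin 2 → ℤ ↦ w v * eisSummand k v z :=
  (wEis_summable_norm hw hk z).of_norm

lemma norm_wEis_le (hw : ∀ v, ‖w v‖ ≤ 1) {k : ℤ} (hk : 3 ≤ k) (z : ℍ) :
    ‖wEis w k z‖ ≤ absEis k z := by
  unfold wEis absEis
  refine (norm_tsum_le_tsum_norm (wEis_summable_norm hw hk z)).trans ?_
  exact (wEis_summable_norm hw hk z).tsum_le_tsum (fun v ↦ norm_term_le hw k v z)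
    (absEis_summable hk z)

/-- The slash action permutes the weights. -/
lemma wEis_slash (w : (Fin 2 → ℤ) → ℂ) (k : ℤ) (A : SL(2, ℤ)) :
    wEis w k ∣[k] A = wEis (fun v ↦ w ((vecMulEquiv A).symm v)) k := by
  ext z
  rw [SL_slash_apply]
  unfold wEis
  simp_rw [eisSummand_SL2_apply]
  rw [← tsum_mul_right]
  rw [← (vecMulEquiv A).tsum_eq
    (fun v ↦ w ((vecMulEquiv A).symm v) * eisSummand k v z)]
  refine tsum_congr fun v ↦ ?_
  rw [Equiv.symm_apply_apply, vecMulEquiv_apply, zpow_neg]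
  have hd : denom (A : SL(2, ℤ)) z ^ k ≠ 0 := zpow_ne_zero _ (denom_ne_zero _ z)
  field_simp

theorem wEis_slash_isBoundedAtImInfty (hw : ∀ v, ‖w v‖ ≤ 1) {k : ℤ} (hk : 3 ≤ k)
    (A : SL(2, ℤ)) : IsBoundedAtImInfty (wEis w k ∣[k] A) := by
  rw [wEis_slash w k A, UpperHalfPlane.isBoundedAtImInfty_iff]
  exact ⟨absBound k, 2, fun z hz ↦
    (norm_wEis_le (fun v ↦ hw _) hk z).trans (absEis_le hk hz)⟩

/-! ### Holomorphy -/

theorem wEis_tendstoLocallyUniformly (hw : ∀ v, ‖w v‖ ≤ 1) {k : ℤ} (hk : 3 ≤ k) :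
    TendstoLocallyUniformly
      (fun (s : Finset (Fin 2 → ℤ)) ↦ (∑ x ∈ s, w x * eisSummand k x ·))
      (wEis w k ·) Filter.atTop := by
  have hk' : (2 : ℝ) < k := by norm_cast
  have p_sum : Summable fun x : Fin 2 → ℤ ↦ ‖x‖ ^ (-k) :=
    mod_cast (summable_one_div_norm_rpow hk')
  simp only [tendstoLocallyUniformly_iff_forall_isCompact, wEis]
  intro K hK
  obtain ⟨A, B, hB, HABK⟩ := subset_verticalStrip_of_isCompact hK
  refine (tendstoUniformlyOn_tsum (hu := p_sum.mul_left <| r ⟨⟨A, B⟩, hB⟩ ^ (-k : ℝ))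
    (fun p z hz ↦ ?_)).mono HABK
  refine (norm_term_le hw k p z).trans ?_
  simpa only [eisSummand, one_div, ← zpow_neg, norm_zpow, ← Real.rpow_intCast,
    Int.cast_neg] using summand_bound_of_mem_verticalStrip (by positivity) p hB hz

lemma wEis_tendstoLocallyUniformlyOn (hw : ∀ v, ‖w v‖ ≤ 1) {k : ℤ} (hk : 3 ≤ k) :
    TendstoLocallyUniformlyOn (fun (s : Finset (Fin 2 → ℤ)) ↦
      ↑ₕ(fun (z : ℍ) ↦ ∑ x ∈ s, w x * eisSummand k x z)) (↑ₕ(wEis w k))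
          Filter.atTop {z : ℂ | 0 < z.im} := by
  rw [← upperHalfPlaneSet, ← range_coe, ← Set.image_univ]
  apply TendstoLocallyUniformlyOn.comp (s := ⊤) _ _ _ (OpenPartialHomeomorph.continuousOn_symm _)
  · simp only [Set.top_eq_univ, tendstoLocallyUniformlyOn_univ]
    apply wEis_tendstoLocallyUniformly hw hk
  · simp only [IsOpenEmbedding.toOpenPartialHomeomorph_target, Set.top_eq_univ,
      Set.mapsTo_range_iff, Set.mem_univ, forall_const]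

lemma wTerm_extension_differentiableOn (w : (Fin 2 → ℤ) → ℂ) (k : ℤ) (a : Fin 2 → ℤ) :
    DifferentiableOn ℂ (↑ₕ(fun z : ℍ ↦ w a * eisSummand k a z)) {z : ℂ | 0 < z.im} :=
  (eisSummand_extension_differentiableOn k a).const_mul (w a)

theorem wEis_mdifferentiable (hw : ∀ v, ‖w v‖ ≤ 1) {k : ℤ} (hk : 3 ≤ k) :
    MDifferentiable 𝓘(ℂ) 𝓘(ℂ) (wEis w k) := by
  intro τ
  suffices DifferentiableAt ℂ (↑ₕ(wEis w k)) τ.1 by
    convert!
      MDifferentiableAt.comp τ (DifferentiableAt.mdifferentiableAt this) τ.mdifferentiable_coe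
    exact funext fun z ↦ (comp_ofComplex (wEis w k) z).symm
  refine DifferentiableOn.differentiableAt ?_ (isOpen_upperHalfPlaneSet.mem_nhds τ.2)
  refine (wEis_tendstoLocallyUniformlyOn hw hk).differentiableOn
    (Eventually.of_forall fun s ↦ ?_) isOpen_upperHalfPlaneSet
  have : (↑ₕ(fun (z : ℍ) ↦ ∑ x ∈ s, w x * eisSummand k x z)) =
      fun z : ℂ ↦ ∑ x ∈ s, (↑ₕ(fun z : ℍ ↦ w x * eisSummand k x z)) z := by
    ext z
    simp [Function.comp]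
  rw [this]
  exact DifferentiableOn.fun_sum fun x _ ↦ wTerm_extension_differentiableOn w k x

end weighted

/-! ## The limit at `i∞` -/

/-- The absolute sum over the summands with nonzero first coordinate. -/
def absEis' (k : ℤ) (z : ℍ) : ℝ :=
  ∑' v : Fin 2 → ℤ, if v 0 = 0 then 0 else ‖eisSummand k v z‖

lemma vecMulEquiv_T_zpow_zero (n : ℤ) (v : Fin 2 → ℤ) :
    vecMulEquiv (ModularGroup.T ^ n) v 0 = v 0 := by
  rw [vecMulEquiv_apply, ModularGroup.coe_T_zpow]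
  simp [Matrix.vecMul, Matrix.vecHead]

lemma absEis'_T_zpow (k : ℤ) (n : ℤ) (z : ℍ) :
    absEis' k ((ModularGroup.T ^ n : SL(2, ℤ)) • z) = absEis' k z := by
  unfold absEis'
  simp_rw [norm_eisSummand_T_zpow]
  rw [← (vecMulEquiv (ModularGroup.T ^ n)).tsum_eq
    (fun v ↦ if v 0 = 0 then 0 else ‖eisSummand k v z‖)]
  refine tsum_congr fun v ↦ ?_
  rw [vecMulEquiv_T_zpow_zero]

lemma tendsto_inv_im_atImInfty : Tendsto (fun z : ℍ ↦ (z.im)⁻¹) atImInfty (𝓝 0) :=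
  tendsto_inv_atTop_zero.comp tendsto_comap

lemma norm_eisSummand_le_inv_im {k : ℤ} (hk : 3 ≤ k) {v : Fin 2 → ℤ} (hv : v 0 ≠ 0) {z : ℍ}
    (hz : 1 ≤ z.im) : ‖eisSummand k v z‖ ≤ (z.im)⁻¹ := by
  have him : z.im ≤ ‖(v 0 : ℂ) * (z : ℂ) + v 1‖ := by
    have h1 : |((v 0 : ℂ) * (z : ℂ) + v 1).im| ≤ ‖(v 0 : ℂ) * (z : ℂ) + v 1‖ :=
      Complex.abs_im_le_norm _
    have h2 : ((v 0 : ℂ) * (z : ℂ) + v 1).im = (v 0 : ℝ) * z.im := by
      simp
    rw [h2, abs_mul, abs_of_pos z.im_pos] at h1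
    have h3 : (1 : ℝ) ≤ |(v 0 : ℝ)| := by
      have : (1 : ℤ) ≤ |v 0| := Int.one_le_abs hv
      exact_mod_cast this
    nlinarith [z.im_pos]
  have hpos : 0 < ‖(v 0 : ℂ) * (z : ℂ) + v 1‖ := lt_of_lt_of_le z.im_pos him
  have hone : 1 ≤ ‖(v 0 : ℂ) * (z : ℂ) + v 1‖ := hz.trans him
  rw [eisSummand, norm_zpow, zpow_neg]
  have hk1 : ‖(v 0 : ℂ) * (z : ℂ) + v 1‖ ^ (1 : ℤ) ≤ ‖(v 0 : ℂ) * (z : ℂ) + v 1‖ ^ k :=
    zpow_le_zpow_right₀ hone (by omega)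
  rw [zpow_one] at hk1
  exact inv_anti₀ z.im_pos (him.trans hk1)

lemma tendsto_absEis'_strip {k : ℤ} (hk : 3 ≤ k) :
    Tendsto (absEis' k) (atImInfty ⊓ 𝓟 (verticalStrip 1 2)) (𝓝 0) := by
  have h := tendsto_tsum_of_dominated_convergence
    (𝓕 := atImInfty ⊓ 𝓟 (verticalStrip 1 2))
    (f := fun (z : ℍ) (v : Fin 2 → ℤ) ↦ if v 0 = 0 then (0 : ℝ) else ‖eisSummand k v z‖)
    (g := fun _ ↦ (0 : ℝ)) (absBound_summable hk) ?_ ?_
  · rw [tsum_zero] at h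
    exact h
  · intro v
    by_cases hv : v 0 = 0
    · simp only [hv, if_true]
      exact tendsto_const_nhds
    · simp only [hv, if_false]
      refine Tendsto.mono_left ?_ inf_le_left
      refine squeeze_zero' (Eventually.of_forall fun z ↦ norm_nonneg _) ?_
        tendsto_inv_im_atImInfty
      have : {z : ℍ | 1 ≤ z.im} ∈ atImInfty := by
        rw [UpperHalfPlane.atImInfty_mem]
        exact ⟨1, fun z hz ↦ hz⟩
      filter_upwards [this] with z hz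
      exact norm_eisSummand_le_inv_im hk hv hz
  · rw [eventually_inf_principal]
    refine Eventually.of_forall fun z hz v ↦ ?_
    by_cases hv : v 0 = 0
    · simp only [hv, if_true, norm_zero]
      have hk' : (0 : ℝ) < r ⟨⟨1, 2⟩, Nat.ofNat_pos⟩ := r_pos _
      positivity
    · simp only [hv, if_false, norm_norm]
      exact norm_eisSummand_le_of_mem_verticalStrip hk v hz

lemma tendsto_absEis' {k : ℤ} (hk : 3 ≤ k) : Tendsto (absEis' k) atImInfty (𝓝 0) := by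
  rw [Metric.tendsto_nhds]
  intro ε hε
  have h1 := (Metric.tendsto_nhds.mp (tendsto_absEis'_strip hk)) ε hε
  rw [eventually_inf_principal] at h1
  obtain ⟨A, hA⟩ := (UpperHalfPlane.atImInfty_mem _).mp h1
  rw [Filter.Eventually, UpperHalfPlane.atImInfty_mem]
  refine ⟨max A 2, fun z hz ↦ ?_⟩
  obtain ⟨n, h1, h2⟩ := ModularGroup_T_zpow_mem_verticalStrip z (N := 1) one_pos
  have hmem : (ModularGroup.T ^ (((1 : ℕ) : ℤ) * n) : SL(2, ℤ)) • z ∈ verticalStrip 1 2 :=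
    ⟨by simpa using h1, ((le_max_right A 2).trans hz).trans h2⟩
  have := hA _ (((le_max_left A 2).trans hz).trans h2) hmem
  simp only [Set.mem_ofPred_eq] at this ⊢
  rwa [absEis'_T_zpow] at this

section limit

variable {w : (Fin 2 → ℤ) → ℂ}

lemma absEis'_summable {k : ℤ} (hk : 3 ≤ k) (z : ℍ) :
    Summable fun v : Fin 2 → ℤ ↦ if v 0 = 0 then (0 : ℝ) else ‖eisSummand k v z‖ := by
  refine Summable.of_nonneg_of_le (fun v ↦ ?_) (fun v ↦ ?_) (absEis_summable hk z)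
  · by_cases h0 : v 0 = 0 <;> simp [h0]
  · by_cases h0 : v 0 = 0 <;> simp [h0]

lemma wEis_split (hw : ∀ v, ‖w v‖ ≤ 1) {k : ℤ} (hk : 3 ≤ k) (hk2 : Even k)
    (hsupp : ∀ v : Fin 2 → ℤ, v 0 = 0 → v ≠ ![0, 1] → v ≠ ![0, -1] → w v = 0) (z : ℍ) :
    wEis w k z = w ![0, 1] + w ![0, -1] +
      ∑' v : Fin 2 → ℤ, if v 0 = 0 then 0 else w v * eisSummand k v z := by
  classical
  set F : (Fin 2 → ℤ) → ℂ := fun v ↦ w v * eisSummand k v z with hF
  set S₀ : Finset (Fin 2 → ℤ) := {![0, 1], ![0, -1]} with hS₀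
  set F₁ : (Fin 2 → ℤ) → ℂ := fun v ↦ if v ∈ S₀ then F v else 0 with hF₁
  set F₂ : (Fin 2 → ℤ) → ℂ := fun v ↦ if v 0 = 0 then 0 else F v with hF₂
  have hsum : ∀ v, F v = F₁ v + F₂ v := by
    intro v
    by_cases h0 : v 0 = 0
    · by_cases hS : v ∈ S₀
      · simp [hF₁, hF₂, h0, hS]
      · have h1 : v ≠ ![0, 1] := fun h ↦ hS (by simp [hS₀, h])
        have h2 : v ≠ ![0, -1] := fun h ↦ hS (by simp [hS₀, h])
        simp [hF₁, hF₂, h0, hS, hF, hsupp v h0 h1 h2]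
    · have hS : v ∉ S₀ := by
        intro hS
        rw [hS₀, Finset.mem_insert, Finset.mem_singleton] at hS
        rcases hS with rfl | rfl <;> simp at h0
      simp [hF₁, hF₂, h0, hS]
  have hF₁s : Summable F₁ :=
    summable_of_ne_finset_zero (s := S₀) (fun v hv ↦ by simp [hF₁, hv])
  have hF₂s : Summable F₂ := by
    refine Summable.of_norm_bounded (wEis_summable_norm hw hk z) (fun v ↦ ?_)
    by_cases h0 : v 0 = 0
    · simp only [hF₂, h0, if_true, norm_zero]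
      exact norm_nonneg _
    · simp [hF₂, h0, hF]
  have hne : (![0, 1] : Fin 2 → ℤ) ≠ ![0, -1] := by
    intro h
    have := congrFun h 1
    simp at this
  have h1 : ∑' v, F₁ v = w ![0, 1] + w ![0, -1] := by
    rw [tsum_eq_sum (s := S₀) (fun v hv ↦ by simp [hF₁, hv]), hS₀, Finset.sum_pair hne]
    have e1 : eisSummand k ![0, 1] z = 1 := by simp [eisSummand]
    have e2 : eisSummand k ![0, -1] z = 1 := by
      simp [eisSummand, hk2.neg_one_zpow]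
    have m1 : (![0, 1] : Fin 2 → ℤ) ∈ S₀ := by simp [hS₀]
    have m2 : (![0, -1] : Fin 2 → ℤ) ∈ S₀ := by simp [hS₀]
    simp only [hF₁, hF, e1, e2, mul_one, m1, m2, if_true]
  calc wEis w k z = ∑' v, (F₁ v + F₂ v) := tsum_congr hsum
    _ = ∑' v, F₁ v + ∑' v, F₂ v := hF₁s.tsum_add hF₂s
    _ = _ := by rw [h1]

theorem tendsto_wEis (hw : ∀ v, ‖w v‖ ≤ 1) {k : ℤ} (hk : 3 ≤ k) (hk2 : Even k)
    (hsupp : ∀ v : Fin 2 → ℤ, v 0 = 0 → v ≠ ![0, 1] → v ≠ ![0, -1] → w v = 0) :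
    Tendsto (wEis w k) atImInfty (𝓝 (w ![0, 1] + w ![0, -1])) := by
  have h0 : Tendsto (fun z : ℍ ↦ ∑' v : Fin 2 → ℤ,
      if v 0 = 0 then (0 : ℂ) else w v * eisSummand k v z) atImInfty (𝓝 0) := by
    refine squeeze_zero_norm (fun z ↦ ?_) (tendsto_absEis' hk)
    have hle : ∀ v : Fin 2 → ℤ, ‖(if v 0 = 0 then (0 : ℂ) else w v * eisSummand k v z)‖ ≤
        if v 0 = 0 then (0 : ℝ) else ‖eisSummand k v z‖ := by
      intro v
      by_cases h0 : v 0 = 0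
      · simp [h0]
      · simpa [h0] using norm_term_le hw k v z
    have hs : Summable fun v : Fin 2 → ℤ ↦
        ‖(if v 0 = 0 then (0 : ℂ) else w v * eisSummand k v z)‖ :=
      Summable.of_nonneg_of_le (fun _ ↦ norm_nonneg _) hle (absEis'_summable hk z)
    exact (norm_tsum_le_tsum_norm hs).trans (hs.tsum_le_tsum hle (absEis'_summable hk z))
  have h1 := h0.const_add (w ![0, 1] + w ![0, -1])
  rw [add_zero] at h1
  exact h1.congr (fun z ↦ (wEis_split hw hk hk2 hsupp z).symm)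

end limit

/-! ## The weight attached to a character -/

/-- The bottom row of a matrix in `SL(2, ℤ)`. -/
def botRow (A : SL(2, ℤ)) : Fin 2 → ℤ := fun i ↦ A 1 i

lemma botRow_mul (A B : SL(2, ℤ)) :
    botRow (A * B) = Matrix.vecMul (botRow A) (B : Matrix (Fin 2) (Fin 2) ℤ) := by
  ext j
  simp [botRow, Matrix.SpecialLinearGroup.coe_mul, Matrix.mul_apply, Matrix.vecMul,
    dotProduct, Fin.sum_univ_two]

lemma botRow_one : botRow 1 = ![0, 1] := by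
  ext j
  fin_cases j <;> simp [botRow]

lemma mul_inv_one_zero_of_botRow_eq {A B : SL(2, ℤ)} (h : botRow A = botRow B) :
    (A * B⁻¹) 1 0 = 0 := by
  have h0 : A 1 0 = B 1 0 := congrFun h 0
  have h1 : A 1 1 = B 1 1 := congrFun h 1
  simp only [Matrix.SpecialLinearGroup.coe_mul, Matrix.SpecialLinearGroup.coe_inv,
    Matrix.adjugate_fin_two, Matrix.mul_apply, Fin.sum_univ_two, Matrix.of_apply,
    Matrix.cons_val_zero, Matrix.cons_val_one]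
  rw [h0, h1]
  ring

lemma botRow_eq_of_zero (A : SL(2, ℤ)) (h : A 1 0 = 0) :
    botRow A = ![0, 1] ∨ botRow A = ![0, -1] := by
  have hdet : A 0 0 * A 1 1 - A 0 1 * A 1 0 = 1 := by
    have := A.det_coe
    rwa [Matrix.det_fin_two] at this
  rw [h, mul_zero, sub_zero] at hdet
  rcases Int.eq_one_or_neg_one_of_mul_eq_one' hdet with ⟨_, h1⟩ | ⟨_, h1⟩
  · left
    ext j
    fin_cases j <;> simp [botRow, h, h1]
  · right
    ext j
    fin_cases j <;> simp [botRow, h, h1]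

section character

variable (Γ : Subgroup SL(2, ℤ)) (χ : Γ →* ℂˣ)

open Classical in
/-- The weight attached to a character: `χ(δ)⁻¹` on the bottom row of `δ ∈ Γ`, zero on the
vectors which are not bottom rows of elements of `Γ`. -/
def chiWeight (v : Fin 2 → ℤ) : ℂ :=
  if h : ∃ δ : Γ, botRow (δ : SL(2, ℤ)) = v then (((χ h.choose)⁻¹ : ℂˣ) : ℂ) else 0

variable {Γ χ}

lemma chi_eq_of_botRow_eq (hinf : ∀ γ : Γ, (γ : SL(2, ℤ)) 1 0 = 0 → χ γ = 1) {δ δ' : Γ}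
    (h : botRow (δ : SL(2, ℤ)) = botRow (δ' : SL(2, ℤ))) : χ δ = χ δ' := by
  have h1 : χ (δ * δ'⁻¹) = 1 := hinf _ (by
    simpa using mul_inv_one_zero_of_botRow_eq h)
  rw [map_mul, map_inv, mul_inv_eq_one] at h1
  exact h1

lemma chiWeight_botRow (hinf : ∀ γ : Γ, (γ : SL(2, ℤ)) 1 0 = 0 → χ γ = 1) (δ : Γ) :
    chiWeight Γ χ (botRow (δ : SL(2, ℤ))) = (((χ δ)⁻¹ : ℂˣ) : ℂ) := by
  have h : ∃ δ' : Γ, botRow (δ' : SL(2, ℤ)) = botRow (δ : SL(2, ℤ)) := ⟨δ, rfl⟩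
  rw [chiWeight, dif_pos h, chi_eq_of_botRow_eq hinf h.choose_spec]

lemma chiWeight_of_not (v : Fin 2 → ℤ) (h : ¬ ∃ δ : Γ, botRow (δ : SL(2, ℤ)) = v) :
    chiWeight Γ χ v = 0 := dif_neg h

lemma norm_chiWeight_le (hχ : ∀ γ, ‖(χ γ : ℂ)‖ = 1)
    (hinf : ∀ γ : Γ, (γ : SL(2, ℤ)) 1 0 = 0 → χ γ = 1) (v : Fin 2 → ℤ) :
    ‖chiWeight Γ χ v‖ ≤ 1 := by
  by_cases h : ∃ δ : Γ, botRow (δ : SL(2, ℤ)) = v
  · obtain ⟨δ, rfl⟩ := h
    rw [chiWeight_botRow hinf, Units.val_inv_eq_inv_val, norm_inv, hχ, inv_one]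
  · rw [chiWeight_of_not v h, norm_zero]
    exact zero_le_one

lemma chiWeight_vecMul (hinf : ∀ γ : Γ, (γ : SL(2, ℤ)) 1 0 = 0 → χ γ = 1) (γ : Γ)
    (v : Fin 2 → ℤ) :
    chiWeight Γ χ (Matrix.vecMul v ((γ : SL(2, ℤ)) : Matrix (Fin 2) (Fin 2) ℤ)) =
      (((χ γ)⁻¹ : ℂˣ) : ℂ) * chiWeight Γ χ v := by
  by_cases h : ∃ δ : Γ, botRow (δ : SL(2, ℤ)) = v
  · obtain ⟨δ, rfl⟩ := h
    have : Matrix.vecMul (botRow (δ : SL(2, ℤ))) ((γ : SL(2, ℤ)) : Matrix (Fin 2) (Fin 2) ℤ) =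
        botRow ((δ * γ : Γ) : SL(2, ℤ)) := by
      rw [Subgroup.coe_mul, botRow_mul]
    rw [this, chiWeight_botRow hinf, chiWeight_botRow hinf, map_mul, mul_inv_rev, Units.val_mul]
  · have h' : ¬ ∃ δ : Γ, botRow (δ : SL(2, ℤ)) =
        Matrix.vecMul v ((γ : SL(2, ℤ)) : Matrix (Fin 2) (Fin 2) ℤ) := by
      rintro ⟨δ, hδ⟩
      refine h ⟨δ * γ⁻¹, ?_⟩
      rw [Subgroup.coe_mul, botRow_mul, hδ, Subgroup.coe_inv]
      exact (vecMulEquiv (γ : SL(2, ℤ))).left_inv v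
    rw [chiWeight_of_not _ h, chiWeight_of_not _ h', mul_zero]

lemma chiWeight_supp (v : Fin 2 → ℤ) (h0 : v 0 = 0) (h1 : v ≠ ![0, 1]) (h2 : v ≠ ![0, -1]) :
    chiWeight Γ χ v = 0 := by
  refine chiWeight_of_not v ?_
  rintro ⟨δ, rfl⟩
  rcases botRow_eq_of_zero (δ : SL(2, ℤ)) h0 with h | h
  · exact h1 h
  · exact h2 h

lemma chiWeight_e1 (hinf : ∀ γ : Γ, (γ : SL(2, ℤ)) 1 0 = 0 → χ γ = 1) :
    chiWeight Γ χ ![0, 1] = 1 := by
  have := chiWeight_botRow (χ := χ) hinf (1 : Γ)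
  rw [Subgroup.coe_one, botRow_one, map_one, inv_one, Units.val_one] at this
  exact this

lemma chiWeight_e2 (hinf : ∀ γ : Γ, (γ : SL(2, ℤ)) 1 0 = 0 → χ γ = 1) :
    chiWeight Γ χ ![0, -1] = 1 ∨ chiWeight Γ χ ![0, -1] = 0 := by
  by_cases h : ∃ δ : Γ, botRow (δ : SL(2, ℤ)) = ![0, -1]
  · left
    obtain ⟨δ, hδ⟩ := h
    have h10 : (δ : SL(2, ℤ)) 1 0 = 0 := by
      have := congrFun hδ 0
      simpa [botRow] using this
    rw [← hδ, chiWeight_botRow hinf, hinf δ h10, inv_one, Units.val_one]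
  · right
    exact chiWeight_of_not _ h

/-- The normalising constant. -/
def chiConst (Γ : Subgroup SL(2, ℤ)) (χ : Γ →* ℂˣ) : ℂ :=
  chiWeight Γ χ ![0, 1] + chiWeight Γ χ ![0, -1]

lemma chiConst_cases (hinf : ∀ γ : Γ, (γ : SL(2, ℤ)) 1 0 = 0 → χ γ = 1) :
    chiConst Γ χ = 2 ∨ chiConst Γ χ = 1 := by
  unfold chiConst
  rw [chiWeight_e1 hinf]
  rcases chiWeight_e2 (χ := χ) hinf with h | h <;> rw [h]
  · left
    norm_num
  · right
    norm_num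

lemma chiConst_ne_zero (hinf : ∀ γ : Γ, (γ : SL(2, ℤ)) 1 0 = 0 → χ γ = 1) :
    chiConst Γ χ ≠ 0 := by
  rcases chiConst_cases (χ := χ) hinf with h | h <;> rw [h] <;> norm_num

lemma norm_chiConst_inv_le (hinf : ∀ γ : Γ, (γ : SL(2, ℤ)) 1 0 = 0 → χ γ = 1) :
    ‖(chiConst Γ χ)⁻¹‖ ≤ 1 := by
  rcases chiConst_cases (χ := χ) hinf with h | h <;> rw [h] <;> norm_num

/-- The normalised weight. -/
def chiWeight' (Γ : Subgroup SL(2, ℤ)) (χ : Γ →* ℂˣ) (v : Fin 2 → ℤ) : ℂ :=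
  (chiConst Γ χ)⁻¹ * chiWeight Γ χ v

lemma norm_chiWeight'_le (hχ : ∀ γ, ‖(χ γ : ℂ)‖ = 1)
    (hinf : ∀ γ : Γ, (γ : SL(2, ℤ)) 1 0 = 0 → χ γ = 1) (v : Fin 2 → ℤ) :
    ‖chiWeight' Γ χ v‖ ≤ 1 := by
  rw [chiWeight', norm_mul]
  exact mul_le_one₀ (norm_chiConst_inv_le hinf) (norm_nonneg _) (norm_chiWeight_le hχ hinf v)

/-- The twisted Eisenstein series of weight `k` attached to the character `χ` of `Γ`. -/
def twistedEis (Γ : Subgroup SL(2, ℤ)) (χ : Γ →* ℂˣ) (k : ℤ) : ℍ → ℂ :=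
  wEis (chiWeight' Γ χ) k

theorem twistedEis_mdifferentiable (hχ : ∀ γ, ‖(χ γ : ℂ)‖ = 1)
    (hinf : ∀ γ : Γ, (γ : SL(2, ℤ)) 1 0 = 0 → χ γ = 1) {k : ℤ} (hk : 3 ≤ k) :
    MDifferentiable 𝓘(ℂ) 𝓘(ℂ) (twistedEis Γ χ k) :=
  wEis_mdifferentiable (norm_chiWeight'_le hχ hinf) hk

theorem twistedEis_slash_isBoundedAtImInfty (hχ : ∀ γ, ‖(χ γ : ℂ)‖ = 1)
    (hinf : ∀ γ : Γ, (γ : SL(2, ℤ)) 1 0 = 0 → χ γ = 1) {k : ℤ} (hk : 3 ≤ k) (σ : SL(2, ℤ)) :
    IsBoundedAtImInfty (twistedEis Γ χ k ∣[k] σ) :=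
  wEis_slash_isBoundedAtImInfty (norm_chiWeight'_le hχ hinf) hk σ

theorem twistedEis_tendsto (hχ : ∀ γ, ‖(χ γ : ℂ)‖ = 1)
    (hinf : ∀ γ : Γ, (γ : SL(2, ℤ)) 1 0 = 0 → χ γ = 1) {k : ℤ} (hk : 3 ≤ k) (hk2 : Even k) :
    Tendsto (twistedEis Γ χ k) atImInfty (𝓝 1) := by
  have h := tendsto_wEis (w := chiWeight' Γ χ) (norm_chiWeight'_le hχ hinf) hk hk2
    (fun v h0 h1 h2 ↦ by rw [chiWeight', chiWeight_supp v h0 h1 h2, mul_zero])
  have hc : chiWeight' Γ χ ![0, 1] + chiWeight' Γ χ ![0, -1] = 1 := by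
    rw [chiWeight', chiWeight', ← mul_add]
    exact inv_mul_cancel₀ (chiConst_ne_zero hinf)
  rwa [hc] at h

/-- Slash form of the transformation law. -/
theorem twistedEis_slash (hinf : ∀ γ : Γ, (γ : SL(2, ℤ)) 1 0 = 0 → χ γ = 1) (k : ℤ) (γ : Γ) :
    twistedEis Γ χ k ∣[k] (γ : SL(2, ℤ)) = (χ γ : ℂ) • twistedEis Γ χ k := by
  rw [twistedEis, wEis_slash]
  ext z
  rw [Pi.smul_apply, smul_eq_mul]
  unfold wEis
  rw [← tsum_mul_left]
  refine tsum_congr fun v ↦ ?_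
  have h1 := chiWeight_vecMul (χ := χ) hinf γ⁻¹ v
  rw [Subgroup.coe_inv, map_inv, inv_inv] at h1
  show chiWeight' Γ χ ((vecMulEquiv (γ : SL(2, ℤ))).symm v) * eisSummand k v z =
    ↑(χ γ) * (chiWeight' Γ χ v * eisSummand k v z)
  rw [vecMulEquiv_symm_apply, chiWeight', h1, chiWeight']
  ring

theorem twistedEis_smul (hinf : ∀ γ : Γ, (γ : SL(2, ℤ)) 1 0 = 0 → χ γ = 1) (k : ℤ) (γ : Γ)
    (z : ℍ) :
    twistedEis Γ χ k ((γ : SL(2, ℤ)) • z) =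
      χ γ * denom (γ : SL(2, ℤ)) z ^ k * twistedEis Γ χ k z := by
  have h := congrFun (twistedEis_slash (χ := χ) hinf k γ) z
  rw [SL_slash_apply, Pi.smul_apply, smul_eq_mul, zpow_neg] at h
  have hd : denom ((γ : SL(2, ℤ))) z ^ k ≠ 0 := zpow_ne_zero _ (denom_ne_zero _ z)
  rw [mul_inv_eq_iff_eq_mul₀ hd] at h
  rw [h]
  ring

end character

/-- **Twisted Eisenstein series.** For a unitary character `χ` of a subgroup `Γ ≤ SL(2, ℤ)`
which is trivial on the stabiliser of `∞` in `Γ` and an even weight `k ≥ 3` there is a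
holomorphic `G : ℍ → ℂ` which transforms under `Γ` with weight `k` and multiplier `χ`, all of
whose `SL(2, ℤ)`-translates are bounded at `i∞`, and which tends to `1` at `i∞`. -/
theorem exists_twistedEisenstein (Γ : Subgroup SL(2, ℤ)) (χ : Γ →* ℂˣ)
    (hχ : ∀ γ, ‖(χ γ : ℂ)‖ = 1)
    (hinf : ∀ γ : Γ, (γ : SL(2, ℤ)) 1 0 = 0 → χ γ = 1)
    (k : ℕ) (hk : 3 ≤ k) (hk2 : Even k) :
    ∃ G : ℍ → ℂ, MDifferentiable 𝓘(ℂ) 𝓘(ℂ) G ∧
      (∀ (γ : Γ) (z : ℍ),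
        G ((γ : SL(2, ℤ)) • z) = χ γ * denom (γ : SL(2, ℤ)) z ^ k * G z) ∧
      (∀ (γ : Γ) (σ : SL(2, ℤ)),
        G ∣[(k : ℤ)] ((γ : SL(2, ℤ)) * σ) = (χ γ : ℂ) • (G ∣[(k : ℤ)] σ)) ∧
      (∀ σ : SL(2, ℤ), IsBoundedAtImInfty (G ∣[(k : ℤ)] σ)) ∧
      Tendsto G atImInfty (𝓝 1) := by
  have hk' : (3 : ℤ) ≤ (k : ℤ) := by exact_mod_cast hk
  have hk2' : Even (k : ℤ) := by exact_mod_cast hk2
  refine ⟨twistedEis Γ χ k, twistedEis_mdifferentiable hχ hinf hk', fun γ z ↦ ?_,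
    fun γ σ ↦ ?_, fun σ ↦ twistedEis_slash_isBoundedAtImInfty hχ hinf hk' σ,
    twistedEis_tendsto hχ hinf hk' hk2'⟩
  · have := twistedEis_smul (χ := χ) hinf (k : ℤ) γ z
    rwa [zpow_natCast] at this
  · rw [SlashAction.slash_mul, twistedEis_slash hinf, SL_smul_slash]

end

end Fermat.Agent.S29.helper3191
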