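import Mathlib
import Fermat.Agent.S23.helper23_Final
import Fermat.Agent.S20.helper1760_SerreD
import Fermat.Agent.S16.helper4027_QSeries
import Fermat.Agent.S29.helper8319_PthRoot

/-!
# S29-FDESC (helper3670): descent `ℂ → ℚ̄` for `m`-th roots, through cusp forms

Route of findings #2710.  Everything lives in `CuspForm (Γ₀(N)) w`; no place of the complex
function field, no Riemann–Roch.

* `IsCF N w F` : `F` is (the function of) a weight `w` cusp form on `Γ₀(N)`.
* `IsChiCusp N χ k H` : `H` is a cuspidal `χ`-automorphic holomorphic function of weight `k`.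
* `IsChiCusp.dvd_order_conj` (F1): if `G = H ^ m` with `H` a `χ`-cusp function, `χ ^ m = 1`, then
  every zero order on `ℍ` of any coefficientwise conjugate `G^σ` is divisible by `m`.
-/

set_option autoImplicit false

open UpperHalfPlane hiding I
open Complex ModularForm EisensteinSeries Derivative Filter Topology CongruenceSubgroup
open scoped MatrixGroups Manifold

namespace Fermat.Agent.S29.helper3670

open Fermat.Agent.S23 Fermat.Agent.S16 Fermat.Agent.S20

/-! ## Cusp-form functions on `Γ₀(N)` -/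

/-- `F` is the underlying function of a weight `w` cusp form on `Γ₀(N)`. -/
def IsCF (N : ℕ) (w : ℤ) (F : ℍ → ℂ) : Prop :=
  ∃ f : CuspForm (Gamma0 N) w, ⇑f = F

section IsCF

variable {N : ℕ} [NeZero N] {w : ℤ} {F : ℍ → ℂ}

omit [NeZero N] in
lemma IsCF.mdiff (h : IsCF N w F) : MDiff F := by
  obtain ⟨f, rfl⟩ := h
  exact CuspFormClass.holo f

omit [NeZero N] in
lemma IsCF.slash (h : IsCF N w F) (γ : SL(2, ℤ)) (hγ : γ ∈ Gamma0 N) : F ∣[w] γ = F := by
  obtain ⟨f, rfl⟩ := h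
  exact SlashInvariantFormClass.slash_action_eq f _ ⟨γ, hγ, rfl⟩

lemma IsCF.zero (h : IsCF N w F) (A : SL(2, ℤ)) : IsZeroAtImInfty (F ∣[w] A) := by
  obtain ⟨f, rfl⟩ := h
  exact CuspFormClass.zero_at_infty_slash f A

lemma isCF_mk (hol : MDiff F) (inv : ∀ γ ∈ Gamma0 N, F ∣[w] γ = F)
    (zero : ∀ A : SL(2, ℤ), IsZeroAtImInfty (F ∣[w] A)) : IsCF N w F := by
  refine ⟨{ toFun := F
            slash_action_eq' := ?_
            holo' := hol
            zero_at_cusps' := ?_ }, rfl⟩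
  · rintro _ ⟨γ, hγ, rfl⟩
    exact inv γ hγ
  · intro c hc
    rw [Subgroup.IsArithmetic.isCusp_iff_isCusp_SL2Z] at hc
    rw [OnePoint.isZeroAt_iff_forall_SL2Z hc]
    intro γ _
    exact zero γ

omit [NeZero N] in
lemma IsCF.weight_congr {w' : ℤ} (hw : w = w') (h : IsCF N w F) : IsCF N w' F := by
  subst hw; exact h

omit [NeZero N] in
lemma IsCF.nice (h : IsCF N w F) : helper1255.Nice F := by
  obtain ⟨f, rfl⟩ := h
  exact helper1255.nice_G0 N f

omit [NeZero N] in
lemma IsCF.nice' (h : IsCF N w F) : helper4027.Nice F :=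
  ⟨h.nice.1, h.nice.2.1, h.nice.2.2⟩

end IsCF

section IsCF2

variable {N : ℕ} [NeZero N] {w : ℤ} {F : ℍ → ℂ}

/-- Coefficientwise conjugation of a cusp-form function (landed S23 `stmt_conj`). -/
lemma IsCF.conj (h : IsCF N w F) (σ : ℂ ≃+* ℂ) :
    ∃ F' : ℍ → ℂ, IsCF N w F' ∧ qExpansion 1 F' = (qExpansion 1 F).map (σ : ℂ →+* ℂ) := by
  obtain ⟨f, rfl⟩ := h
  obtain ⟨g, hg⟩ := helper23.stmt_conj N w f σ
  refine ⟨g, ⟨g, rfl⟩, ?_⟩
  ext n
  rw [PowerSeries.coeff_map]
  exact hg n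

omit [NeZero N] in
/-- `q`-expansion principle for nice functions. -/
lemma eq_of_qExp_eq {F G : ℍ → ℂ} (hF : helper1255.Nice F) (hG : helper1255.Nice G)
    (h : qExpansion 1 F = qExpansion 1 G) : F = G := by
  have h1 : qExpansion 1 (F - G) = 0 := by
    rw [UpperHalfPlane.qExpansion_sub hF.analyticAt hG.analyticAt, h, sub_self]
  have := (hF.sub hG).eq_zero_of_qExp_eq_zero h1
  exact sub_eq_zero.mp this

/-- The Serre derivative of a cusp-form function is a cusp-form function of weight `w + 2`. -/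
lemma IsCF.serre (h : IsCF N w F) : IsCF N (w + 2) (serreDerivative w F) := by
  obtain ⟨f, rfl⟩ := h
  exact ⟨helper1760.serreDCF (helper1255.gamma0_le_SL N) w f,
    helper1760.coe_serreDCF (helper1255.gamma0_le_SL N) w f⟩

end IsCF2

/-! ## Slash of powers and products -/

lemma slash_pow_SL (F : ℍ → ℂ) (k : ℤ) (n : ℕ) (A : SL(2, ℤ)) :
    (F ^ n) ∣[(n : ℤ) * k] A = (F ∣[k] A) ^ n := by
  induction n with
  | zero =>
    simp only [Nat.cast_zero, zero_mul, pow_zero]
    exact ModularForm.is_invariant_one A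
  | succ n ih =>
    have hw : ((n + 1 : ℕ) : ℤ) * k = (n : ℤ) * k + k := by push_cast; ring
    rw [pow_succ, pow_succ, ← ih, hw, ModularForm.mul_slash_SL2]

/-! ## `χ`-automorphic cuspidal functions -/

/-- `H` is a holomorphic function on `ℍ` with `H ∣[k] γ = χ γ • H` on `Γ₀(N)`, vanishing at every
cusp. -/
structure IsChiCusp (N : ℕ) (χ : ↥(Gamma0 N) →* ℂˣ) (k : ℤ) (H : ℍ → ℂ) : Prop where
  mdiff : MDiff H
  slash : ∀ γ : ↥(Gamma0 N), H ∣[k] (γ : SL(2, ℤ)) = (χ γ : ℂ) • H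
  zero : ∀ A : SL(2, ℤ), IsZeroAtImInfty (H ∣[k] A)

section IsChiCusp

variable {N : ℕ} {χ χ' : ↥(Gamma0 N) →* ℂˣ} {k k' : ℤ} {H H' : ℍ → ℂ}

lemma IsChiCusp.weight_congr (hk : k = k') (h : IsChiCusp N χ k H) : IsChiCusp N χ k' H := by
  subst hk; exact h

lemma IsChiCusp.zero_fun : IsChiCusp N χ k (0 : ℍ → ℂ) where
  mdiff := mdifferentiable_const
  slash γ := by simp
  zero A := by
    rw [SlashAction.zero_slash]
    exact zero_zeroAtFilter _

lemma IsChiCusp.add (h : IsChiCusp N χ k H) (h' : IsChiCusp N χ k H') :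
    IsChiCusp N χ k (H + H') where
  mdiff := h.mdiff.add h'.mdiff
  slash γ := by rw [SlashAction.add_slash, h.slash, h'.slash, smul_add]
  zero A := by
    rw [SlashAction.add_slash]
    exact (h.zero A).add (h'.zero A)

lemma IsChiCusp.smul (c : ℂ) (h : IsChiCusp N χ k H) : IsChiCusp N χ k (c • H) where
  mdiff := h.mdiff.const_smul c
  slash γ := by rw [ModularForm.SL_smul_slash, h.slash, smul_comm]
  zero A := by
    rw [ModularForm.SL_smul_slash]
    exact (h.zero A).smul c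

lemma IsChiCusp.sub (h : IsChiCusp N χ k H) (h' : IsChiCusp N χ k H') :
    IsChiCusp N χ k (H - H') := by
  have : H - H' = H + (-1 : ℂ) • H' := by
    funext z; simp [sub_eq_add_neg]
  rw [this]
  exact h.add (h'.smul (-1))

lemma IsChiCusp.mul (h : IsChiCusp N χ k H) (h' : IsChiCusp N χ' k' H') :
    IsChiCusp N (χ * χ') (k + k') (H * H') where
  mdiff := h.mdiff.mul h'.mdiff
  slash γ := by
    rw [ModularForm.mul_slash_SL2, h.slash, h'.slash]
    funext z
    simp only [Pi.mul_apply, Pi.smul_apply, smul_eq_mul, MonoidHom.mul_apply, Units.val_mul]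
    ring
  zero A := by
    rw [ModularForm.mul_slash_SL2]
    have h0 : Tendsto (fun x => (H ∣[k] A) x * (H' ∣[k'] A) x) atImInfty (𝓝 0) := by
      have := (h.zero A).mul (h'.zero A)
      simpa using this
    exact h0

lemma IsChiCusp.pow (h : IsChiCusp N χ k H) {n : ℕ} (hn : n ≠ 0) :
    IsChiCusp N (χ ^ n) ((n : ℤ) * k) (H ^ n) where
  mdiff := h.mdiff.pow n
  slash γ := by
    rw [slash_pow_SL, h.slash]
    funext z
    simp only [Pi.pow_apply, Pi.smul_apply, smul_eq_mul, MonoidHom.pow_apply, Units.val_pow_eq_pow_val]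
    ring
  zero A := by
    rw [slash_pow_SL]
    have h0 : Tendsto (fun x => (H ∣[k] A) x ^ n) atImInfty (𝓝 0) := by
      have := (h.zero A).pow n
      simpa [hn] using this
    exact h0

lemma IsChiCusp.isCF [NeZero N] (h : IsChiCusp N χ k H) (hχ : χ = 1) : IsCF N k H := by
  subst hχ
  refine isCF_mk h.mdiff (fun γ hγ => ?_) h.zero
  have := h.slash ⟨γ, hγ⟩
  simpa using this

lemma IsCF.isChiCusp [NeZero N] (h : IsCF N k H) : IsChiCusp N 1 k H where
  mdiff := h.mdiff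
  slash γ := by
    rw [h.slash γ γ.2]; simp
  zero := h.zero

/-- The `m`-th power of a `χ`-cuspidal function with `χ ^ m = 1` is a cusp form on `Γ₀(N)`. -/
lemma IsChiCusp.pow_isCF [NeZero N] (h : IsChiCusp N χ k H) {m : ℕ} (hm : m ≠ 0)
    (hχ : ∀ γ, χ γ ^ m = 1) : IsCF N ((m : ℤ) * k) (H ^ m) :=
  (h.pow hm).isCF (MonoidHom.ext fun γ => by simpa using hχ γ)

/-- `H₁ * H₂ ^ (m - 1)` is a cusp form when `H₁, H₂` have the same character of exponent `m`. -/
lemma IsChiCusp.mul_pow_isCF [NeZero N] (h : IsChiCusp N χ k H) (h' : IsChiCusp N χ k H') {m : ℕ}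
    (hm : m ≠ 0) (hχ : ∀ γ, χ γ ^ m = 1) : IsCF N ((m : ℤ) * k) (H * H' ^ (m - 1)) := by
  rcases Nat.lt_or_ge 1 m with h1 | h1
  · have hm1 : m - 1 ≠ 0 := by omega
    have := (h.mul (h'.pow hm1))
    refine (this.isCF (MonoidHom.ext fun γ => ?_)).weight_congr ?_
    · simp only [MonoidHom.mul_apply, MonoidHom.pow_apply, MonoidHom.one_apply]
      rw [← pow_succ', Nat.sub_add_cancel (by omega)]
      exact hχ γ
    · have : ((m - 1 : ℕ) : ℤ) = (m : ℤ) - 1 := by omega
      rw [this]; ring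
  · have hm1 : m = 1 := by omega
    subst hm1
    have hχ1 : χ = 1 := MonoidHom.ext fun γ => by simpa using hχ γ
    simpa using h.isCF hχ1

/-- The Serre derivative preserves `χ`-cuspidal functions. -/
lemma IsChiCusp.serre (h : IsChiCusp N χ k H) :
    IsChiCusp N χ (k + 2) (serreDerivative k H) where
  mdiff := serreDerivative_mdifferentiable _ h.mdiff
  slash γ := by
    rw [serreDerivative_slash_equivariant h.mdiff, h.slash,
      serreDerivative_smul _ _ _ h.mdiff]
  zero A := by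
    rw [serreDerivative_slash_equivariant h.mdiff]
    exact helper1760.isZeroAtImInfty_serreDerivative k (h.mdiff.slash k _) (h.zero A)

end IsChiCusp

/-! ## Serre derivative of powers and the Serre chain -/

lemma serreDerivative_pow (a : ℂ) (F : ℍ → ℂ) (hF : MDiff F) (m : ℕ) :
    serreDerivative ((m : ℂ) * a) (F ^ m) = (m : ℂ) • (F ^ (m - 1) * serreDerivative a F) := by
  funext z
  rcases m with _ | m
  · have h1 : D (1 : ℍ → ℂ) = 0 := normalizedDerivOfComplex_const 1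
    simp [h1]
  · simp only [serreDerivative_apply, normalizedDerivOfComplex_pow F (m + 1) hF, Pi.smul_apply,
      Pi.mul_apply, Pi.pow_apply, smul_eq_mul, Nat.add_sub_cancel, Pi.natCast_apply]
    push_cast
    ring

/-- The Serre chain `H, ϑH, ϑ²H, …` (weights `k, k+2, k+4, …`). -/
noncomputable def chain (k : ℤ) (H : ℍ → ℂ) : ℕ → ℍ → ℂ
  | 0 => H
  | (i + 1) => serreDerivative ((k + 2 * (i : ℤ) : ℤ) : ℂ) (chain k H i)

lemma chain_zero (k : ℤ) (H : ℍ → ℂ) : chain k H 0 = H := rfl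

lemma chain_succ (k : ℤ) (H : ℍ → ℂ) (i : ℕ) :
    chain k H (i + 1) = serreDerivative ((k + 2 * (i : ℤ) : ℤ) : ℂ) (chain k H i) := rfl

lemma IsChiCusp.chain {N : ℕ} {χ : ↥(Gamma0 N) →* ℂˣ} {k : ℤ} {H : ℍ → ℂ}
    (h : IsChiCusp N χ k H) (i : ℕ) : IsChiCusp N χ (k + 2 * (i : ℤ)) (chain k H i) := by
  induction i with
  | zero => simpa [chain_zero] using h
  | succ i ih => exact (ih.serre).weight_congr (by push_cast; ring)

/-- Weight of the `m`-th power of the `i`-th member of the chain. -/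
def wt (m : ℕ) (k : ℤ) (i : ℕ) : ℤ := (m : ℤ) * (k + 2 * (i : ℤ))

lemma wt_succ (m : ℕ) (k : ℤ) (i : ℕ) : wt m k (i + 1) = wt m k i + 2 * (m : ℤ) := by
  unfold wt; push_cast; ring

/-- Key identity of the Serre chain: `(ϑ (H_i^m))^m = m^m • (H_i^m)^(m-1) * H_{i+1}^m`. -/
lemma chain_pow_serre (k : ℤ) (H : ℍ → ℂ) (hH : ∀ i, MDiff (chain k H i)) (m : ℕ) (i : ℕ) :
    (serreDerivative ((wt m k i : ℤ) : ℂ) (chain k H i ^ m)) ^ m =
      ((m : ℂ) ^ m) • ((chain k H i ^ m) ^ (m - 1) * chain k H (i + 1) ^ m) := by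
  have h1 : ((wt m k i : ℤ) : ℂ) = (m : ℂ) * ((k + 2 * (i : ℤ) : ℤ) : ℂ) := by
    unfold wt; push_cast; ring
  rw [h1, serreDerivative_pow _ _ (hH i) m, ← chain_succ]
  funext z
  simp only [Pi.smul_apply, Pi.mul_apply, Pi.pow_apply, smul_eq_mul]
  ring

/-! ## `q`-expansion of the Serre derivative -/

/-- `E₂` as a complex power series. -/
noncomputable def E2q : PowerSeries ℂ := helper4027.E2Z.map (Int.castRingHom ℂ)

/-- The formal Serre derivative on `q`-series. -/
noncomputable def serreQ (w : ℂ) (p : PowerSeries ℂ) : PowerSeries ℂ :=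
  helper4027.theta p - PowerSeries.C (w * 12⁻¹) * (E2q * p)

lemma map_E2q (σ : ℂ →+* ℂ) : E2q.map σ = E2q := by
  unfold E2q
  ext n
  simp [PowerSeries.coeff_map]

lemma map_serreQ (σ : ℂ →+* ℂ) (w : ℤ) (p : PowerSeries ℂ) :
    (serreQ (w : ℂ) p).map σ = serreQ (w : ℂ) (p.map σ) := by
  unfold serreQ
  have h12 : σ ((w : ℂ) * 12⁻¹) = (w : ℂ) * 12⁻¹ := by
    rw [map_mul, map_intCast, map_inv₀, map_ofNat]
  rw [map_sub, helper4027.map_theta, (PowerSeries.map σ).map_mul, (PowerSeries.map σ).map_mul,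
    map_E2q, PowerSeries.map_C, h12]

lemma nice_smul {F : ℍ → ℂ} (hF : helper1255.Nice F) (c : ℂ) : helper1255.Nice (c • F) := by
  have : c • F = (fun _ : ℍ => c) * F := by
    funext z; simp
  rw [this]
  exact (helper1255.Nice.const c).mul hF

lemma nice_E2 : helper1255.Nice E2 :=
  ⟨helper4027.nice_E2.per, helper4027.nice_E2.hol, helper4027.nice_E2.bdd⟩

lemma IsCF.qExp_serre {N : ℕ} [NeZero N] {w : ℤ} {F : ℍ → ℂ} (h : IsCF N w F) :
    qExpansion 1 (serreDerivative w F) = serreQ w (qExpansion 1 F) := by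
  have hF := h.nice
  have hS := h.serre.nice
  have hE := nice_E2
  have hDeq : D F = serreDerivative w F + ((w : ℂ) * 12⁻¹) • (E2 * F) := by
    funext z
    simp
    ring
  have hD : helper1255.Nice (D F) := by
    rw [hDeq]
    exact hS.add (nice_smul (hE.mul hF) _)
  have h1 := helper4027.Nice.qExpansion_D h.nice' hD.analyticAt
  rw [helper1760.serreDerivative_eq_sub_smul,
    UpperHalfPlane.qExpansion_add hD.analyticAt (nice_smul (hE.mul hF) _).analyticAt,
    UpperHalfPlane.qExpansion_smul (hE.mul hF).analyticAt, hE.qExp_mul hF, h1,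
    helper4027.qExpansion_E2]
  unfold serreQ E2q
  rw [PowerSeries.smul_eq_C_mul, map_neg, neg_mul, sub_eq_add_neg]

/-! ## Conjugating the chain relation -/

/-- If `(ϑ G)^m = m^m • G^(m-1) * G'` for cusp forms `G, G'`, then the same relation holds for their
coefficientwise `σ`-conjugates. -/
lemma conj_chain_rel {N : ℕ} [NeZero N] (σ : ℂ ≃+* ℂ) {w w' : ℤ} {m : ℕ}
    {G G' Γ Γ' : ℍ → ℂ} (hG : IsCF N w G) (hG' : IsCF N w' G') (hΓ : IsCF N w Γ)
    (hΓ' : IsCF N w' Γ')
    (hc : qExpansion 1 Γ = (qExpansion 1 G).map (σ : ℂ →+* ℂ))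
    (hc' : qExpansion 1 Γ' = (qExpansion 1 G').map (σ : ℂ →+* ℂ))
    (hrel : (serreDerivative w G) ^ m = ((m : ℂ) ^ m) • (G ^ (m - 1) * G')) :
    (serreDerivative w Γ) ^ m = ((m : ℂ) ^ m) • (Γ ^ (m - 1) * Γ') := by
  apply eq_of_qExp_eq (hΓ.serre.nice.pow m) (nice_smul ((hΓ.nice.pow _).mul hΓ'.nice) _)
  rw [hΓ.serre.nice.qExp_pow, hΓ.qExp_serre, hc, ← map_serreQ, ← hG.qExp_serre, ← map_pow,
    ← hG.serre.nice.qExp_pow, hrel,
    UpperHalfPlane.qExpansion_smul ((hG.nice.pow _).mul hG'.nice).analyticAt,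
    UpperHalfPlane.qExpansion_smul ((hΓ.nice.pow _).mul hΓ'.nice).analyticAt,
    (hG.nice.pow _).qExp_mul hG'.nice, hG.nice.qExp_pow, (hΓ.nice.pow _).qExp_mul hΓ'.nice,
    hΓ.nice.qExp_pow, hc, hc']
  rw [PowerSeries.smul_eq_C_mul, PowerSeries.smul_eq_C_mul]
  simp only [map_mul, map_pow, map_natCast]

/-! ## Local analysis: orders of vanishing along the chain -/

/-- At a zero of order `n + 1` of `g`, the function `c g' + e g` (`c ≠ 0`) has order `n`. -/
lemma order_deriv_add {g e : ℂ → ℂ} {z0 : ℂ} (hg : AnalyticAt ℂ g z0) (he : AnalyticAt ℂ e z0)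
    {c : ℂ} (hc : c ≠ 0) {n : ℕ} (hn : analyticOrderAt g z0 = ((n + 1 : ℕ) : ℕ∞)) :
    analyticOrderAt (fun z => c * deriv g z + e z * g z) z0 = (n : ℕ∞) := by
  have h1 : analyticOrderAt (deriv g) z0 = n :=
    analyticOrderAt_deriv_of_pos hg (by simpa using hn)
  have h0 : analyticOrderAt (fun _ : ℂ => c) z0 = 0 :=
    (analyticAt_const.analyticOrderAt_eq_zero).mpr hc
  have h2 : analyticOrderAt (fun z => c * deriv g z) z0 = n := by
    have := analyticOrderAt_mul (f := fun _ : ℂ => c) (g := deriv g) (z₀ := z0) analyticAt_const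
      hg.deriv
    rw [show (fun z => c * deriv g z) = (fun _ : ℂ => c) * deriv g from rfl, this, h1, h0, zero_add]
  have h3 : (n : ℕ∞) < analyticOrderAt (fun z => e z * g z) z0 := by
    rw [show (fun z => e z * g z) = e * g from rfl, analyticOrderAt_mul he hg, hn]
    calc (n : ℕ∞) < ((n + 1 : ℕ) : ℕ∞) := by exact_mod_cast Nat.lt_succ_self n
      _ ≤ analyticOrderAt e z0 + ((n + 1 : ℕ) : ℕ∞) := le_add_self
  rw [show (fun z => c * deriv g z + e z * g z) =
      (fun z => c * deriv g z) + (fun z => e z * g z) from rfl,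
    analyticOrderAt_add_eq_left_of_lt (by rw [h2]; exact h3), h2]

/-- **Abstract descent of orders.**  Analytic germs `g i` at `z0` with
`(c_i g_i' + e_i g_i)^m = C_i g_i^(m-1) g_(i+1)` have all their (finite) orders divisible by `m`. -/
theorem dvd_order_of_chain {m : ℕ} (hm : m ≠ 0) {z0 : ℂ} (g e : ℕ → ℂ → ℂ) (c C : ℕ → ℂ)
    (hg : ∀ i, AnalyticAt ℂ (g i) z0) (he : ∀ i, AnalyticAt ℂ (e i) z0)
    (hc : ∀ i, c i ≠ 0) (hC : ∀ i, C i ≠ 0)
    (hrel : ∀ i, ∀ᶠ z in 𝓝 z0, (c i * deriv (g i) z + e i z * g i z) ^ m =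
      C i * (g i z ^ (m - 1) * g (i + 1) z)) :
    ∀ (n i : ℕ), analyticOrderAt (g i) z0 = (n : ℕ∞) → m ∣ n := by
  intro n
  induction n using Nat.strong_induction_on with
  | _ n ih =>
    intro i hi
    rcases Nat.eq_zero_or_pos n with rfl | hpos
    · exact dvd_zero m
    obtain ⟨n', rfl⟩ := Nat.exists_eq_succ_of_ne_zero hpos.ne'
    have h1 := order_deriv_add (hg i) (he i) (hc i) hi
    have hA : AnalyticAt ℂ (fun z => c i * deriv (g i) z + e i z * g i z) z0 :=
      (analyticAt_const.mul (hg i).deriv).add ((he i).mul (hg i))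
    have hL : analyticOrderAt (fun z => (c i * deriv (g i) z + e i z * g i z) ^ m) z0 =
        ((m * n' : ℕ) : ℕ∞) := by
      rw [show (fun z => (c i * deriv (g i) z + e i z * g i z) ^ m) =
        (fun z => c i * deriv (g i) z + e i z * g i z) ^ m from rfl, analyticOrderAt_pow hA, h1]
      simp
    have hR : analyticOrderAt (fun z => C i * (g i z ^ (m - 1) * g (i + 1) z)) z0 =
        (((m - 1) * (n' + 1) : ℕ) : ℕ∞) + analyticOrderAt (g (i + 1)) z0 := by
      have h0 : analyticOrderAt (fun _ : ℂ => C i) z0 = 0 :=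
        (analyticAt_const.analyticOrderAt_eq_zero).mpr (hC i)
      rw [show (fun z => C i * (g i z ^ (m - 1) * g (i + 1) z)) =
        (fun _ : ℂ => C i) * (g i ^ (m - 1) * g (i + 1)) from rfl,
        analyticOrderAt_mul analyticAt_const (((hg i).pow _).mul (hg (i + 1))),
        analyticOrderAt_mul ((hg i).pow _) (hg (i + 1)), analyticOrderAt_pow (hg i), hi, h0,
        zero_add, nsmul_eq_mul, ← Nat.cast_mul]
    have hEq := analyticOrderAt_congr (hrel i)
    rw [hL, hR] at hEq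
    have hfin : analyticOrderAt (g (i + 1)) z0 ≠ ⊤ := by
      intro htop
      rw [htop, add_top] at hEq
      exact ENat.natCast_ne_top _ hEq
    obtain ⟨n2, hn2⟩ := ENat.ne_top_iff_exists.mp hfin
    rw [← hn2] at hEq
    have hEq' : m * n' = (m - 1) * (n' + 1) + n2 := by exact_mod_cast hEq
    obtain ⟨m', rfl⟩ : ∃ m', m = m' + 1 := ⟨m - 1, by omega⟩
    simp only [Nat.add_sub_cancel] at hEq'
    have hn2' : n2 + m' = n' := by nlinarith
    have hdvd : (m' + 1) ∣ n2 := ih n2 (by omega) (i + 1) hn2.symm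
    have : n'.succ = n2 + (m' + 1) := by omega
    rw [this]
    exact Dvd.dvd.add hdvd (dvd_refl _)

lemma analyticAt_comp_ofComplex' {F : ℍ → ℂ} (hF : MDiff F) (z0 : ℍ) :
    AnalyticAt ℂ (F ∘ ofComplex) (z0 : ℂ) :=
  (UpperHalfPlane.mdifferentiable_iff.mp hF).analyticAt
    ((isOpen_lt continuous_const Complex.continuous_im).mem_nhds z0.im_pos)

lemma serre_comp_ofComplex_eventually (w : ℂ) (F : ℍ → ℂ) (z0 : ℍ) :
    ∀ᶠ z in 𝓝 (z0 : ℂ), serreDerivative w F (ofComplex z) =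
      (2 * ((Real.pi : ℝ) : ℂ) * I)⁻¹ * deriv (F ∘ ofComplex) z +
        (-(w * 12⁻¹) * (E2 ∘ ofComplex) z) * (F ∘ ofComplex) z := by
  have hopen : IsOpen {z : ℂ | 0 < z.im} := isOpen_lt continuous_const Complex.continuous_im
  filter_upwards [hopen.mem_nhds z0.im_pos] with z hz
  simp only [serreDerivative_apply, normalizedDerivOfComplex, Function.comp_apply]
  rw [ofComplex_apply_of_im_pos hz]
  ring

/-- **(F1) Divisibility of the zero orders of a conjugate.**  If `H` is a `χ`-cuspidal function with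
`χ ^ m = 1` and `Γ` is a cusp form whose `q`-expansion is the `σ`-conjugate of that of `H ^ m`,
then every (finite) order of vanishing of `Γ` on `ℍ` is divisible by `m`. -/
theorem dvd_order_conj {N : ℕ} [NeZero N] {m : ℕ} (hm : m ≠ 0) {k : ℤ}
    {χ : ↥(Gamma0 N) →* ℂˣ} (hχ : ∀ γ, χ γ ^ m = 1) {H : ℍ → ℂ} (hH : IsChiCusp N χ k H)
    (σ : ℂ ≃+* ℂ) {Γ : ℍ → ℂ} (hΓ : IsCF N ((m : ℤ) * k) Γ)
    (hconj : qExpansion 1 Γ = (qExpansion 1 (H ^ m)).map (σ : ℂ →+* ℂ)) (z0 : ℍ) (n : ℕ)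
    (hn : analyticOrderAt (Γ ∘ ofComplex) (z0 : ℂ) = (n : ℕ∞)) : m ∣ n := by
  have hG : ∀ i, IsCF N (wt m k i) (chain k H i ^ m) := fun i => (hH.chain i).pow_isCF hm hχ
  have hex : ∀ i, ∃ F' : ℍ → ℂ, IsCF N (wt m k i) F' ∧
      qExpansion 1 F' = (qExpansion 1 (chain k H i ^ m)).map (σ : ℂ →+* ℂ) :=
    fun i => (hG i).conj σ
  choose Γs hΓs hΓq using hex
  have h0 : Γs 0 = Γ := by
    apply eq_of_qExp_eq (hΓs 0).nice hΓ.nice
    rw [hΓq 0, hconj, chain_zero]
  have hrel : ∀ i, (serreDerivative ((wt m k i : ℤ) : ℂ) (Γs i)) ^ m =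
      ((m : ℂ) ^ m) • (Γs i ^ (m - 1) * Γs (i + 1)) := fun i =>
    conj_chain_rel σ (hG i) (hG (i + 1)) (hΓs i) (hΓs (i + 1)) (hΓq i) (hΓq (i + 1))
      (chain_pow_serre k H (fun j => (hH.chain j).mdiff) m i)
  have key := dvd_order_of_chain hm (z0 := (z0 : ℂ)) (fun i => Γs i ∘ ofComplex)
    (fun i z => -(((wt m k i : ℤ) : ℂ) * 12⁻¹) * (E2 ∘ ofComplex) z)
    (fun _ => (2 * ((Real.pi : ℝ) : ℂ) * I)⁻¹) (fun _ => (m : ℂ) ^ m)
    (fun i => analyticAt_comp_ofComplex' (hΓs i).mdiff z0)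
    (fun i => analyticAt_const.mul (analyticAt_comp_ofComplex' E2_mdifferentiable z0))
    (fun _ => by simp [Real.pi_ne_zero])
    (fun _ => pow_ne_zero _ (Nat.cast_ne_zero.mpr hm))
    (fun i => by
      filter_upwards [serre_comp_ofComplex_eventually ((wt m k i : ℤ) : ℂ) (Γs i) z0] with z hz
      rw [← hz]
      have := congrFun (hrel i) (ofComplex z)
      simpa using this)
  exact key n 0 (by rw [h0]; exact hn)

end Fermat.Agent.S29.helper3670
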