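import Fermat.Agent.S29.helper36_KummerCorr
import Fermat.Agent.S29.helper8217_KummerClass

/-!
# Bridge between the two landed copies of S29-KUM

`helper36.kummerPic` and `helper8217.kummerClass` agree on Kummer elements, and the two
function-level Hecke operators (`helper36.heckeNorm`, `helper8217.heckeFun`) and norms agree
definitionally.  Consumers of either copy can therefore be combined.
-/

set_option autoImplicit false

noncomputable section

namespace Fermat.Agent.S29.helper36

open AlgebraicCurve

section General

variable {K F : Type*} [Field K] [Field F] [Algebra K F] [HasPrincipalDivisors K F]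

omit [HasPrincipalDivisors K F] in
theorem isKummer8217_iff {n : ℕ} {u : F} :
    helper8217.IsKummer K n u ↔ u ≠ 0 ∧ ∀ v : Place K F, (n : ℤ) ∣ v.ord u := Iff.rfl

/-- the two Kummer classes coincide on Kummer elements. -/
theorem kummerPic_eq_kummerClass8217 {n : ℕ} (hn : n ≠ 0) {u : F}
    (h : helper8217.IsKummer K n u) : kummerPic K n u = helper8217.kummerClass K n u := by
  rw [helper8217.kummerClass_eq_mk h]
  refine kummerPic_eq_mk_of hn _ fun v => ?_
  show (n : ℤ) * helper8217.kummerDivisor K n u v = v.ord u
  rw [helper8217.kummerDivisor_apply]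
  exact Int.mul_ediv_cancel' (h.2 v)

theorem kummerPic_eq_kummerClass8217' {n : ℕ} (hn : n ≠ 0) {u : F} (hu : u ≠ 0)
    (h : ∀ v : Place K F, (n : ℤ) ∣ v.ord u) :
    kummerPic K n u = helper8217.kummerClass K n u :=
  kummerPic_eq_kummerClass8217 hn ⟨hu, h⟩

end General

section Along

variable {K F F' : Type*} [Field K] [Field F] [Field F'] [Algebra K F] [Algebra K F']

theorem normAlong_eq_normAlong8217 (ψ : F →ₐ[K] F') (x : F') :
    normAlong ψ x = helper8217.normAlong ψ x := rfl

end Along

section Hecke

open ModularCurve

variable {L : Type*} [Field L] [Algebra ℚ L] (N ℓ : ℕ) [NeZero N] [NeZero ℓ]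

theorem heckeNorm_eq_heckeFun8217 (u : laurentBaseChange L (modularFunctionFieldFull N)) :
    heckeNorm N ℓ u = helper8217.heckeFun N ℓ u := rfl

end Hecke

end Fermat.Agent.S29.helper36
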