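import Mathlib

set_option autoImplicit false

/-!
# Twisted Eisenstein series (S29, M3-core)

For a bounded weight `w : (Fin 2 → ℤ) → ℂ` we study the weighted Eisenstein sum
`twSum w k z = ∑' v, w v * (v 0 * z + v 1) ^ (-k)`.
-/

open UpperHalfPlane EisensteinSeries Matrix ModularForm CongruenceSubgroup Filter Topology
open scoped MatrixGroups Manifold

namespace Fermat.Agent.S29.helper3718

noncomputable section

/-- The weighted Eisenstein sum `∑' v, w v * (v 0 * z + v 1) ^ (-k)`. -/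
def twSum (w : (Fin 2 → ℤ) → ℂ) (k : ℤ) (z : ℍ) : ℂ :=
  ∑' v : Fin 2 → ℤ, w v * eisSummand k v z

/-- Right multiplication by `A ∈ SL(2, ℤ)` on integer row vectors, as an equivalence. -/
def vecMulEquiv (A : SL(2, ℤ)) : (Fin 2 → ℤ) ≃ (Fin 2 → ℤ) where
  toFun v := v ᵥ* A.1
  invFun v := v ᵥ* (A⁻¹).1
  left_inv v := by
    simp only [vecMul_vecMul, ← Matrix.SpecialLinearGroup.coe_mul, mul_inv_cancel,
      Matrix.SpecialLinearGroup.coe_one, vecMul_one]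
  right_inv v := by
    simp only [vecMul_vecMul, ← Matrix.SpecialLinearGroup.coe_mul, inv_mul_cancel,
      Matrix.SpecialLinearGroup.coe_one, vecMul_one]

lemma vecMulEquiv_apply (A : SL(2, ℤ)) (v : Fin 2 → ℤ) : vecMulEquiv A v = v ᵥ* A.1 := rfl

lemma summable_norm_twSummand {w : (Fin 2 → ℤ) → ℂ} (hw : ∀ v, ‖w v‖ ≤ 1) {k : ℤ} (hk : 3 ≤ k)
    (z : ℍ) : Summable fun v : Fin 2 → ℤ => ‖w v * eisSummand k v z‖ := by
  refine (summable_norm_eisSummand hk z).of_nonneg_of_le (fun _ => norm_nonneg _) fun v => ?_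
  rw [norm_mul]
  exact mul_le_of_le_one_left (norm_nonneg _) (hw v)

lemma summable_twSummand {w : (Fin 2 → ℤ) → ℂ} (hw : ∀ v, ‖w v‖ ≤ 1) {k : ℤ} (hk : 3 ≤ k)
    (z : ℍ) : Summable fun v : Fin 2 → ℤ => w v * eisSummand k v z :=
  (summable_norm_twSummand hw hk z).of_norm

/-- Transformation of the weighted sum under `SL(2, ℤ)`. -/
lemma twSum_smul (w : (Fin 2 → ℤ) → ℂ) (k : ℤ) (A : SL(2, ℤ)) (z : ℍ) :
    twSum w k (A • z) = denom A z ^ k * twSum (fun v => w (v ᵥ* (A⁻¹).1)) k z := by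
  unfold twSum
  simp_rw [eisSummand_SL2_apply]
  rw [← tsum_mul_left]
  rw [← (vecMulEquiv A).tsum_eq
    (fun v => denom A z ^ k * (w (v ᵥ* (A⁻¹).1) * eisSummand k v z))]
  refine tsum_congr fun v => ?_
  simp only [vecMulEquiv_apply, vecMul_vecMul, ← Matrix.SpecialLinearGroup.coe_mul,
    mul_inv_cancel, Matrix.SpecialLinearGroup.coe_one, vecMul_one]
  ring

/-- Slash formula for the weighted sum. -/
lemma twSum_slash (w : (Fin 2 → ℤ) → ℂ) (k : ℤ) (A : SL(2, ℤ)) :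
    twSum w k ∣[k] A = twSum (fun v => w (v ᵥ* (A⁻¹).1)) k := by
  ext z
  rw [SL_slash_apply, twSum_smul, _root_.zpow_neg, mul_comm, ← mul_assoc,
    inv_mul_cancel₀ (zpow_ne_zero _ (denom_ne_zero _ z)), one_mul]

/-! ### Holomorphy -/

/-- The weighted sum converges locally uniformly on `ℍ`. -/
theorem twSum_tendstoLocallyUniformly {w : (Fin 2 → ℤ) → ℂ} (hw : ∀ v, ‖w v‖ ≤ 1) {k : ℤ}
    (hk : 3 ≤ k) :
    TendstoLocallyUniformly (fun (s : Finset (Fin 2 → ℤ)) ↦ (∑ x ∈ s, w x * eisSummand k x ·))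
      (twSum w k ·) Filter.atTop := by
  have hk' : (2 : ℝ) < k := by norm_cast
  have p_sum : Summable fun x : Fin 2 → ℤ ↦ ‖x‖ ^ (-k) :=
    mod_cast (summable_one_div_norm_rpow hk')
  simp only [tendstoLocallyUniformly_iff_forall_isCompact, twSum]
  intro K hK
  obtain ⟨A, B, hB, HABK⟩ := subset_verticalStrip_of_isCompact hK
  refine (tendstoUniformlyOn_tsum (hu := p_sum.mul_left <| r ⟨⟨A, B⟩, hB⟩ ^ (-k : ℝ))
    (fun p z hz ↦ ?_)).mono HABK
  rw [norm_mul]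
  refine (mul_le_of_le_one_left (norm_nonneg _) (hw p)).trans ?_
  simpa only [eisSummand, one_div, ← _root_.zpow_neg, norm_zpow, ← Real.rpow_intCast,
    Int.cast_neg] using summand_bound_of_mem_verticalStrip (by positivity) p hB hz

/-- Variant of `twSum_tendstoLocallyUniformly` formulated with maps `ℂ → ℂ`. -/
lemma twSum_tendstoLocallyUniformlyOn {w : (Fin 2 → ℤ) → ℂ} (hw : ∀ v, ‖w v‖ ≤ 1) {k : ℤ}
    (hk : 3 ≤ k) :
    TendstoLocallyUniformlyOn (fun (s : Finset (Fin 2 → ℤ)) ↦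
      ↑ₕ(fun (z : ℍ) ↦ ∑ x ∈ s, w x * eisSummand k x z)) (↑ₕ(twSum w k))
          Filter.atTop {z : ℂ | 0 < z.im} := by
  rw [← upperHalfPlaneSet, ← range_coe, ← Set.image_univ]
  apply TendstoLocallyUniformlyOn.comp (s := ⊤) _ _ _ (OpenPartialHomeomorph.continuousOn_symm _)
  · simp only [Set.top_eq_univ, tendstoLocallyUniformlyOn_univ]
    exact twSum_tendstoLocallyUniformly hw hk
  · simp only [IsOpenEmbedding.toOpenPartialHomeomorph_target, Set.top_eq_univ,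
      Set.mapsTo_range_iff, Set.mem_univ, forall_const]

/-- The weighted sum is holomorphic on `ℍ`. -/
theorem twSum_mdifferentiable {w : (Fin 2 → ℤ) → ℂ} (hw : ∀ v, ‖w v‖ ≤ 1) {k : ℤ}
    (hk : 3 ≤ k) : MDiff (twSum w k) := by
  intro τ
  suffices DifferentiableAt ℂ (↑ₕ(twSum w k)) τ.1 by
    convert!
      MDifferentiableAt.comp τ (DifferentiableAt.mdifferentiableAt this) τ.mdifferentiable_coe
    exact funext fun z ↦ (comp_ofComplex (twSum w k) z).symm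
  refine DifferentiableOn.differentiableAt ?_ (isOpen_upperHalfPlaneSet.mem_nhds τ.2)
  refine (twSum_tendstoLocallyUniformlyOn hw hk).differentiableOn
    (Eventually.of_forall fun s ↦ ?_) isOpen_upperHalfPlaneSet
  have : (↑ₕ(fun (z : ℍ) ↦ ∑ x ∈ s, w x * eisSummand k x z)) =
      fun z : ℂ => ∑ x ∈ s, w x * (↑ₕ(eisSummand k x)) z := by
    ext z
    simp
  rw [this]
  exact DifferentiableOn.fun_sum
    fun x _ ↦ (eisSummand_extension_differentiableOn k x).const_mul (w x)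

/-! ### Boundedness at the cusps -/

/-- The norm majorant `∑' v, ‖(v 0 * z + v 1) ^ (-k)‖` of all weighted sums. -/
def eisMajorant (k : ℤ) (z : ℍ) : ℝ := ∑' v : Fin 2 → ℤ, ‖eisSummand k v z‖

/-- A uniform bound for the majorant on `{2 ≤ im z}`. -/
def eisBound (k : ℤ) : ℝ :=
  ∑' x : Fin 2 → ℤ, r ⟨⟨1, 2⟩, Nat.ofNat_pos⟩ ^ (-k) * ‖x‖ ^ (-k)

lemma norm_twSum_le {w : (Fin 2 → ℤ) → ℂ} (hw : ∀ v, ‖w v‖ ≤ 1) {k : ℤ} (hk : 3 ≤ k) (z : ℍ) :
    ‖twSum w k z‖ ≤ eisMajorant k z := by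
  unfold twSum eisMajorant
  refine (norm_tsum_le_tsum_norm (summable_norm_twSummand hw hk z)).trans ?_
  refine (summable_norm_twSummand hw hk z).tsum_le_tsum (fun v => ?_)
    (summable_norm_eisSummand hk z)
  rw [norm_mul]
  exact mul_le_of_le_one_left (norm_nonneg _) (hw v)

lemma denom_T_zpow (n : ℤ) (z : ℍ) : denom (ModularGroup.T ^ n : SL(2, ℤ)) z = 1 := by
  rw [ModularGroup.denom_apply, ModularGroup.coe_T_zpow]
  simp

lemma eisMajorant_T_zpow_smul (k : ℤ) (n : ℤ) (z : ℍ) :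
    eisMajorant k (ModularGroup.T ^ n • z) = eisMajorant k z := by
  unfold eisMajorant
  simp_rw [eisSummand_SL2_apply, denom_T_zpow, _root_.one_zpow, one_mul]
  exact (vecMulEquiv (ModularGroup.T ^ n)).tsum_eq (fun v => ‖eisSummand k v z‖)

lemma eisMajorant_le_of_mem_verticalStrip {k : ℤ} (hk : 3 ≤ k) {z : ℍ}
    (hz : z ∈ verticalStrip 1 2) : eisMajorant k z ≤ eisBound k := by
  have hk' : (2 : ℝ) < k := by norm_cast
  apply (summable_norm_eisSummand hk _).tsum_le_tsum _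
  · exact_mod_cast (summable_one_div_norm_rpow hk').mul_left <| r ⟨⟨1, 2⟩, Nat.ofNat_pos⟩ ^ (-k)
  · intro x
    simp_rw [eisSummand, norm_zpow]
    exact_mod_cast
      summand_bound_of_mem_verticalStrip (lt_trans two_pos hk').le x two_pos hz

lemma eisMajorant_le {k : ℤ} (hk : 3 ≤ k) {z : ℍ} (hz : 2 ≤ z.im) :
    eisMajorant k z ≤ eisBound k := by
  obtain ⟨n, hn⟩ := ModularGroup_T_zpow_mem_verticalStrip z (N := 1) one_pos
  have h1 := eisMajorant_T_zpow_smul k (((1 : ℕ) : ℤ) * n) z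
  rw [← h1]
  refine eisMajorant_le_of_mem_verticalStrip hk ?_
  have := verticalStrip_anti_right ((1 : ℕ) : ℝ) hz hn
  simpa using this

/-- Every weighted sum with bounded weight is bounded at `i∞`. -/
theorem isBoundedAtImInfty_twSum {w : (Fin 2 → ℤ) → ℂ} (hw : ∀ v, ‖w v‖ ≤ 1) {k : ℤ}
    (hk : 3 ≤ k) : IsBoundedAtImInfty (twSum w k) := by
  rw [UpperHalfPlane.isBoundedAtImInfty_iff]
  exact ⟨eisBound k, 2, fun z hz => (norm_twSum_le hw hk z).trans (eisMajorant_le hk hz)⟩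

/-- Every weighted sum with bounded weight is bounded at all cusps. -/
theorem isBoundedAtImInfty_twSum_slash {w : (Fin 2 → ℤ) → ℂ} (hw : ∀ v, ‖w v‖ ≤ 1) {k : ℤ}
    (hk : 3 ≤ k) (A : SL(2, ℤ)) : IsBoundedAtImInfty (twSum w k ∣[k] A) := by
  rw [twSum_slash]
  exact isBoundedAtImInfty_twSum (fun v => hw _) hk

/-! ### The value at the cusp `∞` -/

lemma im_le_norm_linear {v : Fin 2 → ℤ} (hv : v 0 ≠ 0) (z : ℍ) :
    z.im ≤ ‖(v 0 : ℂ) * z + v 1‖ := by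
  have h1 : |((v 0 : ℂ) * z + v 1).im| ≤ ‖(v 0 : ℂ) * z + v 1‖ := Complex.abs_im_le_norm _
  have h2 : ((v 0 : ℂ) * z + v 1).im = (v 0 : ℝ) * z.im := by simp
  rw [h2, abs_mul, abs_of_pos z.im_pos] at h1
  have h3 : (1 : ℝ) ≤ |(v 0 : ℝ)| := by
    have : (1 : ℤ) ≤ |v 0| := Int.one_le_abs hv
    exact_mod_cast this
  calc z.im = 1 * z.im := (one_mul _).symm
    _ ≤ |(v 0 : ℝ)| * z.im := mul_le_mul_of_nonneg_right h3 z.im_pos.le
    _ ≤ _ := h1

lemma norm_eisSummand_le_inv_im_mul {v : Fin 2 → ℤ} (hv : v 0 ≠ 0) (k : ℤ) (z : ℍ) :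
    ‖eisSummand k v z‖ ≤ (z.im)⁻¹ * ‖eisSummand (k - 1) v z‖ := by
  have ha := im_le_norm_linear hv z
  have ha0 : 0 < ‖(v 0 : ℂ) * z + v 1‖ := lt_of_lt_of_le z.im_pos ha
  simp only [eisSummand, norm_zpow]
  rw [show -k = -(k - 1) - 1 by ring, zpow_sub_one₀ ha0.ne', mul_comm]
  exact mul_le_mul_of_nonneg_right (inv_anti₀ z.im_pos ha) (zpow_nonneg ha0.le _)

/-- Distance of the weighted sum to its two "constant terms", for weights which vanish at all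
other vectors with `v 0 = 0`. -/
lemma norm_twSum_sub_le {w : (Fin 2 → ℤ) → ℂ} (hw : ∀ v, ‖w v‖ ≤ 1)
    (hsupp : ∀ v, w v ≠ 0 → v 0 = 0 → v = ![0, 1] ∨ v = ![0, -1]) {k : ℤ} (hk : 4 ≤ k) (z : ℍ) :
    ‖twSum w k z - (w ![0, 1] + w ![0, -1] * (-1) ^ (-k))‖ ≤ (z.im)⁻¹ * eisMajorant (k - 1) z := by
  classical
  have hk3 : 3 ≤ k := by omega
  have hk3' : 3 ≤ k - 1 := by omega
  set f : (Fin 2 → ℤ) → ℂ := fun v => w v * eisSummand k v z with hf
  have hfs : Summable f := summable_twSummand hw hk3 z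
  have hfn : Summable fun v => ‖f v‖ := summable_norm_twSummand hw hk3 z
  let s : Finset (Fin 2 → ℤ) := {![0, 1], ![0, -1]}
  have hne : (![0, 1] : Fin 2 → ℤ) ≠ ![0, -1] := by
    intro h
    have := congrFun h 1
    simp at this
  have hsum : ∑ x ∈ s, f x = w ![0, 1] + w ![0, -1] * (-1) ^ (-k) := by
    rw [Finset.sum_pair hne]
    simp [hf, eisSummand]
  have hsplit := hfs.sum_add_tsum_compl (s := s)
  have hdiff : twSum w k z - (w ![0, 1] + w ![0, -1] * (-1) ^ (-k)) =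
      ∑' x : ↥((s : Set (Fin 2 → ℤ))ᶜ), f x := by
    rw [← hsum]
    unfold twSum
    rw [← hsplit]
    ring
  rw [hdiff]
  have hg : Summable fun v : Fin 2 → ℤ => (z.im)⁻¹ * ‖eisSummand (k - 1) v z‖ :=
    (summable_norm_eisSummand hk3' z).mul_left _
  calc ‖∑' x : ↥((s : Set (Fin 2 → ℤ))ᶜ), f x‖
      ≤ ∑' x : ↥((s : Set (Fin 2 → ℤ))ᶜ), ‖f x‖ := norm_tsum_le_tsum_norm (hfn.subtype _)
    _ ≤ ∑' x : ↥((s : Set (Fin 2 → ℤ))ᶜ), (z.im)⁻¹ * ‖eisSummand (k - 1) x z‖ := by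
        refine (hfn.subtype _).tsum_le_tsum (fun x => ?_) (hg.subtype _)
        have hx : (x : Fin 2 → ℤ) ∉ s := x.2
        by_cases hwx : w x = 0
        · simp only [hf, hwx, zero_mul, norm_zero]
          exact mul_nonneg (inv_nonneg.mpr z.im_pos.le) (norm_nonneg _)
        · have hx0 : (x : Fin 2 → ℤ) 0 ≠ 0 := by
            intro h0
            apply hx
            rcases hsupp x hwx h0 with h | h
            · rw [h]; simp [s]
            · rw [h]; simp [s]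
          simp only [hf, norm_mul]
          exact (mul_le_of_le_one_left (norm_nonneg _) (hw x)).trans
            (norm_eisSummand_le_inv_im_mul hx0 k z)
    _ ≤ ∑' x : Fin 2 → ℤ, (z.im)⁻¹ * ‖eisSummand (k - 1) x z‖ :=
        Summable.tsum_subtype_le _ _
          (fun _ => mul_nonneg (inv_nonneg.mpr z.im_pos.le) (norm_nonneg _)) hg
    _ = (z.im)⁻¹ * eisMajorant (k - 1) z := by
        unfold eisMajorant
        rw [tsum_mul_left]

/-- The value at the cusp `∞` of a weighted sum. -/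
theorem tendsto_twSum_atImInfty {w : (Fin 2 → ℤ) → ℂ} (hw : ∀ v, ‖w v‖ ≤ 1)
    (hsupp : ∀ v, w v ≠ 0 → v 0 = 0 → v = ![0, 1] ∨ v = ![0, -1]) {k : ℤ} (hk : 4 ≤ k) :
    Tendsto (twSum w k) atImInfty (𝓝 (w ![0, 1] + w ![0, -1] * (-1) ^ (-k))) := by
  have hk3' : 3 ≤ k - 1 := by omega
  rw [tendsto_iff_norm_sub_tendsto_zero]
  have him : Tendsto (fun z : ℍ => z.im) atImInfty atTop := tendsto_comap
  have hlim : Tendsto (fun z : ℍ => (z.im)⁻¹ * eisBound (k - 1)) atImInfty (𝓝 0) := by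
    have := (tendsto_inv_atTop_zero.comp him).mul_const (eisBound (k - 1))
    simpa using this
  refine squeeze_zero' (Eventually.of_forall fun z => norm_nonneg _) ?_ hlim
  have hev : ∀ᶠ z : ℍ in atImInfty, 2 ≤ z.im := (atImInfty_mem _).mpr ⟨2, fun z hz => hz⟩
  filter_upwards [hev] with z hz
  refine (norm_twSum_sub_le hw hsupp hk z).trans ?_
  exact mul_le_mul_of_nonneg_left (eisMajorant_le hk3' hz) (inv_nonneg.mpr z.im_pos.le)

/-! ### The weight attached to a character of `Γ₀(N)` -/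

/-- The weight `v ↦ χ(γ_v)⁻¹` where `γ_v ∈ Γ₀(N)` has bottom row `v` (and `0` if there is no
such matrix). -/
def chiWeight (N : ℕ) (χ : ↥(Gamma0 N) →* ℂˣ) (v : Fin 2 → ℤ) : ℂ :=
  open Classical in
  if h : ∃ γ : ↥(Gamma0 N), (γ : SL(2, ℤ)).1 1 = v then (((χ h.choose)⁻¹ : ℂˣ) : ℂ) else 0

variable {N : ℕ} {χ : ↥(Gamma0 N) →* ℂˣ}

lemma coe_mul_row (δ γ : ↥(Gamma0 N)) :
    ((δ * γ : ↥(Gamma0 N)) : SL(2, ℤ)).1 1 = (δ : SL(2, ℤ)).1 1 ᵥ* (γ : SL(2, ℤ)).1 := by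
  rw [Subgroup.coe_mul, Matrix.SpecialLinearGroup.coe_mul, Matrix.mul_apply_eq_vecMul]

lemma chi_eq_of_row_eq (hpar : ∀ γ : ↥(Gamma0 N), (γ : SL(2, ℤ)).1 1 0 = 0 → χ γ = 1)
    {γ γ' : ↥(Gamma0 N)} (h : (γ' : SL(2, ℤ)).1 1 = (γ : SL(2, ℤ)).1 1) : χ γ' = χ γ := by
  have h1 : χ (γ' * γ⁻¹) = 1 := by
    apply hpar
    have : ((γ' * γ⁻¹ : ↥(Gamma0 N)) : SL(2, ℤ)).1 1 =
        ((γ * γ⁻¹ : ↥(Gamma0 N)) : SL(2, ℤ)).1 1 := by
      rw [coe_mul_row, coe_mul_row, h]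
    rw [this, mul_inv_cancel]
    simp
  rw [map_mul, map_inv, mul_inv_eq_one] at h1
  exact h1

lemma chiWeight_row (hpar : ∀ γ : ↥(Gamma0 N), (γ : SL(2, ℤ)).1 1 0 = 0 → χ γ = 1)
    (γ : ↥(Gamma0 N)) : chiWeight N χ ((γ : SL(2, ℤ)).1 1) = (((χ γ)⁻¹ : ℂˣ) : ℂ) := by
  have hex : ∃ γ' : ↥(Gamma0 N), (γ' : SL(2, ℤ)).1 1 = (γ : SL(2, ℤ)).1 1 := ⟨γ, rfl⟩
  unfold chiWeight
  rw [dif_pos hex, chi_eq_of_row_eq hpar hex.choose_spec]

lemma chiWeight_of_not {v : Fin 2 → ℤ} (h : ¬ ∃ γ : ↥(Gamma0 N), (γ : SL(2, ℤ)).1 1 = v) :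
    chiWeight N χ v = 0 := dif_neg h

lemma norm_chiWeight_le_one (hunit : ∀ γ, ‖(χ γ : ℂ)‖ = 1) (v : Fin 2 → ℤ) :
    ‖chiWeight N χ v‖ ≤ 1 := by
  unfold chiWeight
  split_ifs with h
  · rw [Units.val_inv_eq_inv_val, norm_inv, hunit, inv_one]
  · simp

/-- The key equivariance of the weight. -/
lemma chiWeight_vecMul (hpar : ∀ γ : ↥(Gamma0 N), (γ : SL(2, ℤ)).1 1 0 = 0 → χ γ = 1)
    (γ : ↥(Gamma0 N)) (v : Fin 2 → ℤ) :
    chiWeight N χ (v ᵥ* (γ : SL(2, ℤ)).1) = (((χ γ)⁻¹ : ℂˣ) : ℂ) * chiWeight N χ v := by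
  by_cases h : ∃ δ : ↥(Gamma0 N), (δ : SL(2, ℤ)).1 1 = v
  · obtain ⟨δ, rfl⟩ := h
    rw [← coe_mul_row, chiWeight_row hpar, chiWeight_row hpar, map_mul, mul_inv, ← Units.val_mul,
      mul_comm]
  · have h' : ¬ ∃ δ : ↥(Gamma0 N), (δ : SL(2, ℤ)).1 1 = v ᵥ* (γ : SL(2, ℤ)).1 := by
      rintro ⟨δ, hδ⟩
      apply h
      refine ⟨δ * γ⁻¹, ?_⟩
      rw [coe_mul_row, hδ, vecMul_vecMul]
      have : (γ : SL(2, ℤ)).1 * ((γ⁻¹ : ↥(Gamma0 N)) : SL(2, ℤ)).1 = 1 := by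
        rw [Subgroup.coe_inv, ← Matrix.SpecialLinearGroup.coe_mul, mul_inv_cancel,
          Matrix.SpecialLinearGroup.coe_one]
      rw [this, vecMul_one]
    rw [chiWeight_of_not h, chiWeight_of_not h', mul_zero]

lemma chiWeight_supp {v : Fin 2 → ℤ} (hv : chiWeight N χ v ≠ 0) (h0 : v 0 = 0) :
    v = ![0, 1] ∨ v = ![0, -1] := by
  by_cases h : ∃ δ : ↥(Gamma0 N), (δ : SL(2, ℤ)).1 1 = v
  · obtain ⟨δ, rfl⟩ := h
    have hdet := Matrix.SpecialLinearGroup.det_coe (δ : SL(2, ℤ))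
    rw [Matrix.det_fin_two, h0, mul_zero, sub_zero] at hdet
    rcases Int.eq_one_or_neg_one_of_mul_eq_one (by rw [mul_comm]; exact hdet) with h1 | h1
    · left
      ext i
      fin_cases i
      · simpa using h0
      · simpa using h1
    · right
      ext i
      fin_cases i
      · simpa using h0
      · simpa using h1
  · exact absurd (chiWeight_of_not h) hv

lemma chiWeight_zero_one (hpar : ∀ γ : ↥(Gamma0 N), (γ : SL(2, ℤ)).1 1 0 = 0 → χ γ = 1) :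
    chiWeight N χ ![0, 1] = 1 := by
  have h1 : ((1 : ↥(Gamma0 N)) : SL(2, ℤ)).1 1 = ![0, 1] := by
    ext i
    fin_cases i <;> simp
  rw [← h1, chiWeight_row hpar, map_one]
  simp

lemma chiWeight_zero_neg_one (hpar : ∀ γ : ↥(Gamma0 N), (γ : SL(2, ℤ)).1 1 0 = 0 → χ γ = 1) :
    chiWeight N χ ![0, -1] = 1 := by
  have hmem : (-1 : SL(2, ℤ)) ∈ Gamma0 N := by
    rw [Gamma0_mem]
    simp
  have h1 : ((⟨-1, hmem⟩ : ↥(Gamma0 N)) : SL(2, ℤ)).1 1 = ![0, -1] := by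
    ext i
    fin_cases i <;> simp
  have h2 : χ ⟨-1, hmem⟩ = 1 := by
    apply hpar
    simp
  rw [← h1, chiWeight_row hpar, h2]
  simp

/-! ### The twisted Eisenstein series -/

/-- The twisted Eisenstein series of weight `k` attached to a character `χ` of `Γ₀(N)`. -/
def twistedEisenstein (N : ℕ) (χ : ↥(Gamma0 N) →* ℂˣ) (k : ℤ) : ℍ → ℂ :=
  twSum (chiWeight N χ) k

theorem twistedEisenstein_mdifferentiable (hunit : ∀ γ, ‖(χ γ : ℂ)‖ = 1) {k : ℤ} (hk : 3 ≤ k) :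
    MDiff (twistedEisenstein N χ k) :=
  twSum_mdifferentiable (norm_chiWeight_le_one hunit) hk

/-- The transformation law: `h (γ • z) = χ γ * (c z + d) ^ k * h z` for `γ ∈ Γ₀(N)`. -/
theorem twistedEisenstein_smul
    (hpar : ∀ γ : ↥(Gamma0 N), (γ : SL(2, ℤ)).1 1 0 = 0 → χ γ = 1) (k : ℤ)
    (γ : ↥(Gamma0 N)) (z : ℍ) :
    twistedEisenstein N χ k ((γ : SL(2, ℤ)) • z) =
      (χ γ : ℂ) * denom (γ : SL(2, ℤ)) z ^ k * twistedEisenstein N χ k z := by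
  unfold twistedEisenstein
  rw [twSum_smul]
  have hw : (fun v : Fin 2 → ℤ => chiWeight N χ (v ᵥ* ((γ : SL(2, ℤ))⁻¹).1)) =
      fun v => (χ γ : ℂ) * chiWeight N χ v := by
    ext v
    have := chiWeight_vecMul hpar γ⁻¹ v
    rw [Subgroup.coe_inv] at this
    rw [this, map_inv, inv_inv]
  rw [hw]
  unfold twSum
  simp_rw [mul_assoc]
  rw [tsum_mul_left]
  ring

theorem isBoundedAtImInfty_twistedEisenstein_slash (hunit : ∀ γ, ‖(χ γ : ℂ)‖ = 1) {k : ℤ}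
    (hk : 3 ≤ k) (g : SL(2, ℤ)) : IsBoundedAtImInfty (twistedEisenstein N χ k ∣[k] g) :=
  isBoundedAtImInfty_twSum_slash (norm_chiWeight_le_one hunit) hk g

/-- The twisted Eisenstein series of even weight `k ≥ 4` tends to `2` at `i∞`. -/
theorem tendsto_twistedEisenstein (hunit : ∀ γ, ‖(χ γ : ℂ)‖ = 1)
    (hpar : ∀ γ : ↥(Gamma0 N), (γ : SL(2, ℤ)).1 1 0 = 0 → χ γ = 1) {k : ℤ} (hk : 4 ≤ k)
    (hk2 : Even k) : Tendsto (twistedEisenstein N χ k) atImInfty (𝓝 2) := by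
  have h := tendsto_twSum_atImInfty (norm_chiWeight_le_one (χ := χ) hunit)
    (fun v hv h0 => chiWeight_supp hv h0) hk
  rw [chiWeight_zero_one hpar, chiWeight_zero_neg_one hpar, hk2.neg.neg_one_zpow] at h
  have h2 : (1 : ℂ) + 1 * 1 = 2 := by norm_num
  rw [h2] at h
  exact h

/-- **Twisted Eisenstein series.** For every `N` and every unitary character `χ` of `Γ₀(N)` which
is trivial on the upper triangular elements `± T ^ n`, there is a holomorphic function `h` on the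
upper half plane with `h (γ z) = χ γ * (c z + d) ^ 4 * h z` for `γ ∈ Γ₀(N)`, bounded at all cusps,
and tending to `2` at `i∞` (in particular `h ≠ 0`). -/
theorem exists_twisted_form (N : ℕ) (χ : ↥(Gamma0 N) →* ℂˣ)
    (hunit : ∀ γ, ‖(χ γ : ℂ)‖ = 1)
    (hpar : ∀ γ : ↥(Gamma0 N), (γ : SL(2, ℤ)).1 1 0 = 0 → χ γ = 1) :
    ∃ h : ℍ → ℂ, MDiff h ∧
      (∀ (γ : ↥(Gamma0 N)) (z : ℍ),
        h ((γ : SL(2, ℤ)) • z) = (χ γ : ℂ) * denom (γ : SL(2, ℤ)) z ^ (4 : ℤ) * h z) ∧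
      (∀ g : SL(2, ℤ), IsBoundedAtImInfty (h ∣[(4 : ℤ)] g)) ∧
      Tendsto h atImInfty (𝓝 2) :=
  ⟨twistedEisenstein N χ 4, twistedEisenstein_mdifferentiable hunit (by norm_num),
    twistedEisenstein_smul hpar 4, isBoundedAtImInfty_twistedEisenstein_slash hunit (by norm_num),
    tendsto_twistedEisenstein hunit hpar (by norm_num) (by decide)⟩

/-! ### Convenience: the hypothesis `hpar` from `χ T = 1` and `χ (-1) = 1` -/

lemma T_mem_Gamma0 (N : ℕ) : ModularGroup.T ∈ Gamma0 N := by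
  rw [Gamma0_mem]
  simp [ModularGroup.T]

lemma neg_one_mem_Gamma0 (N : ℕ) : (-1 : SL(2, ℤ)) ∈ Gamma0 N := by
  rw [Gamma0_mem]
  simp

/-- A character of `Γ₀(N)` which is trivial on `T` and on `-1` is trivial on all upper triangular
elements. -/
lemma chi_eq_one_of_lower_left_zero (hT : χ ⟨ModularGroup.T, T_mem_Gamma0 N⟩ = 1)
    (hneg : χ ⟨-1, neg_one_mem_Gamma0 N⟩ = 1) (γ : ↥(Gamma0 N))
    (h : (γ : SL(2, ℤ)).1 1 0 = 0) : χ γ = 1 := by
  have hdet := Matrix.SpecialLinearGroup.det_coe (γ : SL(2, ℤ))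
  rw [Matrix.det_fin_two, h, mul_zero, sub_zero] at hdet
  rcases Int.eq_one_or_neg_one_of_mul_eq_one' hdet with ⟨h0, h1⟩ | ⟨h0, h1⟩
  · have : γ = (⟨ModularGroup.T, T_mem_Gamma0 N⟩ : ↥(Gamma0 N)) ^ ((γ : SL(2, ℤ)).1 0 1) := by
      apply Subtype.ext
      rw [Subgroup.coe_zpow]
      ext i j
      rw [ModularGroup.coe_T_zpow]
      fin_cases i <;> fin_cases j <;> simp [h0, h1, h]
    rw [this, map_zpow, hT, _root_.one_zpow]
  · have : γ = (⟨-1, neg_one_mem_Gamma0 N⟩ : ↥(Gamma0 N)) *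
        (⟨ModularGroup.T, T_mem_Gamma0 N⟩ : ↥(Gamma0 N)) ^ (-(γ : SL(2, ℤ)).1 0 1) := by
      apply Subtype.ext
      rw [Subgroup.coe_mul, Subgroup.coe_zpow]
      ext i j
      rw [Matrix.SpecialLinearGroup.coe_mul, ModularGroup.coe_T_zpow]
      fin_cases i <;> fin_cases j <;> simp [h0, h1, h]
    rw [this, map_mul, map_zpow, hT, hneg, _root_.one_zpow, one_mul]

/-- **Twisted Eisenstein series**, variant with the hypotheses `χ T = 1`, `χ (-1) = 1`. -/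
theorem exists_twisted_form' (N : ℕ) (χ : ↥(Gamma0 N) →* ℂˣ)
    (hunit : ∀ γ, ‖(χ γ : ℂ)‖ = 1)
    (hT : χ ⟨ModularGroup.T, T_mem_Gamma0 N⟩ = 1)
    (hneg : χ ⟨-1, neg_one_mem_Gamma0 N⟩ = 1) :
    ∃ h : ℍ → ℂ, MDiff h ∧
      (∀ (γ : ↥(Gamma0 N)) (z : ℍ),
        h ((γ : SL(2, ℤ)) • z) = (χ γ : ℂ) * denom (γ : SL(2, ℤ)) z ^ (4 : ℤ) * h z) ∧
      (∀ g : SL(2, ℤ), IsBoundedAtImInfty (h ∣[(4 : ℤ)] g)) ∧
      Tendsto h atImInfty (𝓝 2) :=
  exists_twisted_form N χ hunit (chi_eq_one_of_lower_left_zero hT hneg)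

end

end Fermat.Agent.S29.helper3718
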