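import Mathlib
import Fermat.Agent.S29.helper3718_TwistedEisenstein

set_option autoImplicit false

/-!
# The twisted root `W_χ = E_{12,χ} / Δ` (S29, M3: surjectivity input)

For a unitary character `χ` of `Γ₀(N)` which is trivial on the upper triangular elements, the
function `W = twistedEisenstein N χ 12 / Δ` is holomorphic on the upper half plane, satisfies
`W (γ z) = χ γ * W z` for `γ ∈ Γ₀(N)`, has at most exponential growth at every cusp, and is not
identically zero.  If `χ ^ p = 1` then `W ^ p` is a `Γ₀(N)`-invariant holomorphic function of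
moderate growth whose holomorphic `p`-th root `W` has multiplier `χ`.
-/

open UpperHalfPlane EisensteinSeries Matrix ModularForm CongruenceSubgroup Filter Topology
open scoped MatrixGroups Manifold Real

namespace Fermat.Agent.S29.helper3718

noncomputable section

variable {N : ℕ} {χ : ↥(Gamma0 N) →* ℂˣ}

/-- Modularity of the discriminant in functional form. -/
lemma discriminant_smul_SL (γ : SL(2, ℤ)) (τ : ℍ) :
    discriminant (γ • τ) = denom γ τ ^ (12 : ℤ) * discriminant τ := by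
  have : SlashInvariantFormClass (CuspForm 𝒮ℒ 12) Γ(1) 12 := Gamma_one_coe_eq_SL ▸ inferInstance
  exact_mod_cast SlashInvariantForm.slash_action_eqn_SL'' CuspForm.discriminant (mem_Gamma_one γ) τ

/-- The twisted root `W_χ = E_{12,χ} / Δ`. -/
def twistedRoot (N : ℕ) (χ : ↥(Gamma0 N) →* ℂˣ) (z : ℍ) : ℂ :=
  twistedEisenstein N χ 12 z / discriminant z

theorem twistedRoot_mdifferentiable (hunit : ∀ γ, ‖(χ γ : ℂ)‖ = 1) :
    MDiff (twistedRoot N χ) :=
  (twistedEisenstein_mdifferentiable hunit (by norm_num)).div CuspForm.discriminant.holo'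
    discriminant_ne_zero

/-- The multiplier of the twisted root is `χ`. -/
theorem twistedRoot_smul (hpar : ∀ γ : ↥(Gamma0 N), (γ : SL(2, ℤ)).1 1 0 = 0 → χ γ = 1)
    (γ : ↥(Gamma0 N)) (z : ℍ) :
    twistedRoot N χ ((γ : SL(2, ℤ)) • z) = (χ γ : ℂ) * twistedRoot N χ z := by
  unfold twistedRoot
  rw [twistedEisenstein_smul hpar, discriminant_smul_SL]
  have hd : denom (γ : SL(2, ℤ)) z ^ (12 : ℤ) ≠ 0 := zpow_ne_zero _ (denom_ne_zero _ z)
  have hΔ := discriminant_ne_zero z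
  field_simp

/-- The translates of the twisted root by `SL(2, ℤ)`. -/
theorem twistedRoot_smul_SL (g : SL(2, ℤ)) (z : ℍ) :
    twistedRoot N χ (g • z) = (twistedEisenstein N χ 12 ∣[(12 : ℤ)] g) z / discriminant z := by
  unfold twistedRoot
  rw [SL_slash_apply, discriminant_smul_SL, _root_.zpow_neg]
  have hd : denom g z ^ (12 : ℤ) ≠ 0 := zpow_ne_zero _ (denom_ne_zero _ z)
  have hΔ := discriminant_ne_zero z
  field_simp

/-- Moderate growth of the twisted root at every cusp. -/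
theorem twistedRoot_growth (hunit : ∀ γ, ‖(χ γ : ℂ)‖ = 1) (g : SL(2, ℤ)) :
    ∃ C A : ℝ, ∀ z : ℍ, A ≤ z.im →
      ‖twistedRoot N χ (g • z)‖ ≤ C * Real.exp (2 * π * z.im) := by
  obtain ⟨M, A₁, hM⟩ := UpperHalfPlane.isBoundedAtImInfty_iff.mp
    (isBoundedAtImInfty_twistedEisenstein_slash (χ := χ) hunit (k := 12) (by norm_num) g)
  obtain ⟨c, hc⟩ := exp_isBigO_discriminant.bound
  obtain ⟨A₂, hA₂⟩ := (atImInfty_mem _).mp hc
  refine ⟨M * c, max A₁ A₂, fun z hz => ?_⟩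
  have h1 := hM z ((le_max_left _ _).trans hz)
  have h2 : ‖Real.exp (-2 * π * z.im)‖ ≤ c * ‖discriminant z‖ :=
    hA₂ z ((le_max_right _ _).trans hz)
  rw [Real.norm_of_nonneg (Real.exp_pos _).le] at h2
  have hD : 0 < ‖discriminant z‖ := norm_pos_iff.mpr (discriminant_ne_zero z)
  have hM0 : 0 ≤ M := (norm_nonneg _).trans h1
  have hE : Real.exp (-2 * π * z.im) = (Real.exp (2 * π * z.im))⁻¹ := by
    rw [← Real.exp_neg]
    congr 1
    ring
  have hEpos : 0 < Real.exp (2 * π * z.im) := Real.exp_pos _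
  rw [hE] at h2
  have h3 : 1 ≤ c * Real.exp (2 * π * z.im) * ‖discriminant z‖ := by
    have := mul_le_mul_of_nonneg_right h2 hEpos.le
    rw [inv_mul_cancel₀ hEpos.ne'] at this
    linarith
  rw [twistedRoot_smul_SL, norm_div, div_le_iff₀ hD]
  calc ‖(twistedEisenstein N χ 12 ∣[(12 : ℤ)] g) z‖ ≤ M := h1
    _ = M * 1 := (mul_one M).symm
    _ ≤ M * (c * Real.exp (2 * π * z.im) * ‖discriminant z‖) :=
        mul_le_mul_of_nonneg_left h3 hM0
    _ = M * c * Real.exp (2 * π * z.im) * ‖discriminant z‖ := by ring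

/-- The twisted root has a simple pole with leading coefficient `2` at `i∞`:
`W * Δ → 2`. -/
theorem tendsto_twistedRoot_mul_discriminant (hunit : ∀ γ, ‖(χ γ : ℂ)‖ = 1)
    (hpar : ∀ γ : ↥(Gamma0 N), (γ : SL(2, ℤ)).1 1 0 = 0 → χ γ = 1) :
    Tendsto (fun z : ℍ => twistedRoot N χ z * discriminant z) atImInfty (𝓝 2) := by
  have h := tendsto_twistedEisenstein (N := N) (χ := χ) hunit hpar (k := 12) (by norm_num)
    (by decide)
  refine h.congr fun z => ?_
  unfold twistedRoot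
  rw [div_mul_cancel₀ _ (discriminant_ne_zero z)]

/-- The twisted root does not vanish near `i∞`. -/
theorem eventually_twistedRoot_ne_zero (hunit : ∀ γ, ‖(χ γ : ℂ)‖ = 1)
    (hpar : ∀ γ : ↥(Gamma0 N), (γ : SL(2, ℤ)).1 1 0 = 0 → χ γ = 1) :
    ∀ᶠ z in atImInfty, twistedRoot N χ z ≠ 0 := by
  have h := (tendsto_twistedRoot_mul_discriminant (N := N) (χ := χ) hunit hpar).eventually_ne
    (by norm_num : (2 : ℂ) ≠ 0)
  filter_upwards [h] with z hz h0
  exact hz (by rw [h0, zero_mul])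

/-- If `χ ^ p = 1` then the `p`-th power of the twisted root is `Γ₀(N)`-invariant. -/
theorem twistedRoot_pow_smul (hpar : ∀ γ : ↥(Gamma0 N), (γ : SL(2, ℤ)).1 1 0 = 0 → χ γ = 1)
    {p : ℕ} (hχ : ∀ γ, χ γ ^ p = 1) (γ : ↥(Gamma0 N)) (z : ℍ) :
    twistedRoot N χ ((γ : SL(2, ℤ)) • z) ^ p = twistedRoot N χ z ^ p := by
  rw [twistedRoot_smul hpar, mul_pow, ← Units.val_pow_eq_pow_val, hχ, Units.val_one, one_mul]

/-- Moderate growth of the `p`-th power of the twisted root at every cusp. -/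
theorem twistedRoot_pow_growth (hunit : ∀ γ, ‖(χ γ : ℂ)‖ = 1) (p : ℕ) (g : SL(2, ℤ)) :
    ∃ C A : ℝ, ∀ z : ℍ, A ≤ z.im →
      ‖twistedRoot N χ (g • z) ^ p‖ ≤ C * Real.exp (2 * π * p * z.im) := by
  obtain ⟨C, A, h⟩ := twistedRoot_growth (χ := χ) hunit g
  refine ⟨C ^ p, A, fun z hz => ?_⟩
  rw [norm_pow]
  calc ‖twistedRoot N χ (g • z)‖ ^ p ≤ (C * Real.exp (2 * π * z.im)) ^ p :=
        pow_le_pow_left₀ (norm_nonneg _) (h z hz) p
    _ = C ^ p * Real.exp (2 * π * p * z.im) := by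
        rw [mul_pow, ← Real.exp_nat_mul]
        congr 2
        ring

/-- **Twisted roots.** For every `N` and every unitary character `χ` of `Γ₀(N)` which is trivial
on the upper triangular elements there is a holomorphic function `W` on the upper half plane with
multiplier `χ`, of moderate growth at every cusp, and not vanishing near `i∞`. -/
theorem exists_twisted_root (N : ℕ) (χ : ↥(Gamma0 N) →* ℂˣ)
    (hunit : ∀ γ, ‖(χ γ : ℂ)‖ = 1)
    (hpar : ∀ γ : ↥(Gamma0 N), (γ : SL(2, ℤ)).1 1 0 = 0 → χ γ = 1) :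
    ∃ W : ℍ → ℂ, MDiff W ∧
      (∀ (γ : ↥(Gamma0 N)) (z : ℍ), W ((γ : SL(2, ℤ)) • z) = (χ γ : ℂ) * W z) ∧
      (∀ g : SL(2, ℤ), ∃ C A : ℝ, ∀ z : ℍ, A ≤ z.im →
        ‖W (g • z)‖ ≤ C * Real.exp (2 * π * z.im)) ∧
      Tendsto (fun z : ℍ => W z * discriminant z) atImInfty (𝓝 2) ∧
      (∀ᶠ z in atImInfty, W z ≠ 0) :=
  ⟨twistedRoot N χ, twistedRoot_mdifferentiable hunit, twistedRoot_smul hpar,
    twistedRoot_growth hunit, tendsto_twistedRoot_mul_discriminant hunit hpar,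
    eventually_twistedRoot_ne_zero hunit hpar⟩

/-- **Surjectivity input for the Kummer map.** If moreover `χ ^ p = 1`, then `H = W ^ p` is a
holomorphic `Γ₀(N)`-invariant function of moderate growth at every cusp, not identically zero,
with a holomorphic `p`-th root `W` of multiplier `χ`. -/
theorem exists_invariant_pow_with_root (N : ℕ) (p : ℕ) (χ : ↥(Gamma0 N) →* ℂˣ)
    (hχ : ∀ γ, χ γ ^ p = 1) (hunit : ∀ γ, ‖(χ γ : ℂ)‖ = 1)
    (hpar : ∀ γ : ↥(Gamma0 N), (γ : SL(2, ℤ)).1 1 0 = 0 → χ γ = 1) :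
    ∃ H W : ℍ → ℂ, MDiff H ∧ MDiff W ∧ (∀ z, W z ^ p = H z) ∧
      (∀ (γ : ↥(Gamma0 N)) (z : ℍ), W ((γ : SL(2, ℤ)) • z) = (χ γ : ℂ) * W z) ∧
      (∀ (γ : ↥(Gamma0 N)) (z : ℍ), H ((γ : SL(2, ℤ)) • z) = H z) ∧
      (∀ g : SL(2, ℤ), ∃ C A : ℝ, ∀ z : ℍ, A ≤ z.im →
        ‖H (g • z)‖ ≤ C * Real.exp (2 * π * p * z.im)) ∧
      (∀ᶠ z in atImInfty, H z ≠ 0) := by
  refine ⟨fun z => twistedRoot N χ z ^ p, twistedRoot N χ,
    (twistedRoot_mdifferentiable hunit).pow p, twistedRoot_mdifferentiable hunit, fun z => rfl,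
    twistedRoot_smul hpar, twistedRoot_pow_smul hpar hχ, twistedRoot_pow_growth hunit p, ?_⟩
  filter_upwards [eventually_twistedRoot_ne_zero (N := N) (χ := χ) hunit hpar] with z hz
  exact pow_ne_zero p hz

/-! ### The twisted cusp form `Δ · E_{12,χ}` of weight `24` -/

/-- The twisted cusp form `Δ · E_{12,χ}` (weight `24`, multiplier `χ`). -/
def twistedCusp (N : ℕ) (χ : ↥(Gamma0 N) →* ℂˣ) : ℍ → ℂ :=
  discriminant * twistedEisenstein N χ 12

lemma twistedCusp_apply (z : ℍ) :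
    twistedCusp N χ z = discriminant z * twistedEisenstein N χ 12 z := rfl

theorem twistedCusp_mdifferentiable (hunit : ∀ γ, ‖(χ γ : ℂ)‖ = 1) :
    MDiff (twistedCusp N χ) :=
  CuspForm.discriminant.holo'.mul (twistedEisenstein_mdifferentiable hunit (by norm_num))

lemma discriminant_slash_SL' (g : SL(2, ℤ)) :
    (discriminant : ℍ → ℂ) ∣[(12 : ℤ)] g = discriminant :=
  SlashInvariantForm.slash_action_generators_SL2Z discriminant_S_invariant
    discriminant_T_invariant g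

lemma twistedCusp_slash_SL (g : SL(2, ℤ)) :
    twistedCusp N χ ∣[(24 : ℤ)] g =
      discriminant * (twistedEisenstein N χ 12 ∣[(12 : ℤ)] g) := by
  unfold twistedCusp
  rw [show (24 : ℤ) = 12 + 12 by norm_num, mul_slash_SL2, discriminant_slash_SL']

/-- The slash action of `Γ₀(N)` on the twisted cusp form is multiplication by `χ`. -/
theorem twistedCusp_slash (hpar : ∀ γ : ↥(Gamma0 N), (γ : SL(2, ℤ)).1 1 0 = 0 → χ γ = 1)
    (γ : ↥(Gamma0 N)) :
    twistedCusp N χ ∣[(24 : ℤ)] (γ : SL(2, ℤ)) = (χ γ : ℂ) • twistedCusp N χ := by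
  rw [twistedCusp_slash_SL]
  ext z
  simp only [Pi.mul_apply, Pi.smul_apply, smul_eq_mul, twistedCusp_apply]
  rw [SL_slash_apply, twistedEisenstein_smul hpar, _root_.zpow_neg]
  have hd : denom (γ : SL(2, ℤ)) z ^ (12 : ℤ) ≠ 0 := zpow_ne_zero _ (denom_ne_zero _ z)
  field_simp

/-- The twisted cusp form vanishes at every cusp. -/
theorem isZeroAtImInfty_twistedCusp_slash (hunit : ∀ γ, ‖(χ γ : ℂ)‖ = 1) (A : SL(2, ℤ)) :
    IsZeroAtImInfty (twistedCusp N χ ∣[(24 : ℤ)] A) := by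
  rw [twistedCusp_slash_SL]
  have h1 : (discriminant : ℍ → ℂ) =o[atImInfty] (fun _ => (1 : ℝ)) :=
    (Asymptotics.isLittleO_one_iff ℝ).mpr discriminant_isZeroAtImInfty
  have h2 : (twistedEisenstein N χ 12 ∣[(12 : ℤ)] A) =O[atImInfty] (fun _ => (1 : ℝ)) :=
    isBoundedAtImInfty_twistedEisenstein_slash (χ := χ) hunit (k := 12) (by norm_num) A
  have h3 := h1.mul_isBigO h2
  simp only [mul_one] at h3
  exact (Asymptotics.isLittleO_one_iff ℝ).mp h3

theorem twistedCusp_ne_zero (hunit : ∀ γ, ‖(χ γ : ℂ)‖ = 1)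
    (hpar : ∀ γ : ↥(Gamma0 N), (γ : SL(2, ℤ)).1 1 0 = 0 → χ γ = 1) :
    twistedCusp N χ ≠ 0 := by
  intro h
  have hev := (tendsto_twistedEisenstein (N := N) (χ := χ) hunit hpar (k := 12) (by norm_num)
    (by decide)).eventually_ne (by norm_num : (2 : ℂ) ≠ 0)
  obtain ⟨z, hz⟩ := hev.exists
  have h0 := congrFun h z
  rw [twistedCusp_apply] at h0
  exact (mul_ne_zero (discriminant_ne_zero z) hz) h0

/-- **A nonzero cuspidal `χ`-automorphic form of weight `24`** (the input of the form-level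
descent): holomorphic, `H ∣[24] γ = χ γ • H` on `Γ₀(N)`, zero at every cusp, `H ≠ 0`; moreover
`H = Δ ^ 2 * W` for the twisted root `W`. -/
theorem exists_twisted_cusp (N : ℕ) (χ : ↥(Gamma0 N) →* ℂˣ)
    (hunit : ∀ γ, ‖(χ γ : ℂ)‖ = 1)
    (hpar : ∀ γ : ↥(Gamma0 N), (γ : SL(2, ℤ)).1 1 0 = 0 → χ γ = 1) :
    ∃ H : ℍ → ℂ, (MDiff H ∧
      (∀ γ : ↥(Gamma0 N), H ∣[(24 : ℤ)] (γ : SL(2, ℤ)) = (χ γ : ℂ) • H) ∧
      ∀ A : SL(2, ℤ), IsZeroAtImInfty (H ∣[(24 : ℤ)] A)) ∧ H ≠ 0 ∧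
      ∀ z, H z = discriminant z ^ 2 * twistedRoot N χ z := by
  refine ⟨twistedCusp N χ, ⟨twistedCusp_mdifferentiable hunit, twistedCusp_slash hpar,
    isZeroAtImInfty_twistedCusp_slash hunit⟩, twistedCusp_ne_zero hunit hpar, fun z => ?_⟩
  rw [twistedCusp_apply, twistedRoot]
  have hΔ := discriminant_ne_zero z
  field_simp

end

end Fermat.Agent.S29.helper3718
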