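import Mathlib
import Fermat.Agent.S29.helper3718_TwistedRoot
import Fermat.Agent.Lib.helper1219_RatioField

set_option autoImplicit false

/-!
# Powers of twisted Eisenstein series as modular forms on `Γ₀(N)` (S29, M3)

If `χ ^ n = 1` then `E_{12,χ} ^ n` is a modular form of weight `12 n` on `Γ₀(N)`, and so is
`Δ ^ n`; hence the `q`-expansion of `(E_{12,χ} / Δ) ^ n` lies in the field of ratios
`Fermat.Agent.Lib.helper1219.ratioField N`.
-/

open UpperHalfPlane EisensteinSeries Matrix ModularForm CongruenceSubgroup Filter Topology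
open scoped MatrixGroups Manifold Real
open Fermat.Agent.Lib.helper1219

namespace Fermat.Agent.S29.helper3718

noncomputable section

/-- Slash of a power: `(h ^ n) ∣[k * n] g = (h ∣[k] g) ^ n` for `g ∈ SL(2, ℤ)`. -/
lemma pow_slash_SL (h : ℍ → ℂ) (k : ℤ) (n : ℕ) (g : SL(2, ℤ)) :
    (fun z => h z ^ n) ∣[k * (n : ℤ)] g = fun z => (h ∣[k] g) z ^ n := by
  ext z
  rw [SL_slash_apply, SL_slash_apply, mul_pow, ← zpow_natCast (denom g z ^ (-k)) n,
    ← _root_.zpow_mul, neg_mul]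

/-- **Generic engine.** If `h` is holomorphic, transforms under `Γ₀(N)` with weight `k` and a
multiplier `c` with `c ^ n = 1`, and all its `SL(2, ℤ)`-slashes are bounded at `i∞`, then `h ^ n`
is a modular form of weight `k * n` on `Γ₀(N)`. -/
def powForm (N : ℕ) [NeZero N] (k : ℤ) (n : ℕ) (h : ℍ → ℂ) (c : ↥(Gamma0 N) → ℂ)
    (hc : ∀ γ, c γ ^ n = 1) (hol : MDiff h)
    (htr : ∀ (γ : ↥(Gamma0 N)) (z : ℍ),
      h ((γ : SL(2, ℤ)) • z) = c γ * denom (γ : SL(2, ℤ)) z ^ k * h z)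
    (hbd : ∀ g : SL(2, ℤ), IsBoundedAtImInfty (h ∣[k] g)) :
    ModularForm (G0 N) (k * (n : ℤ)) where
  toFun := fun z => h z ^ n
  slash_action_eq' := by
    rintro γ ⟨γ₀, hγ₀, rfl⟩
    have h1 : (fun z => h z ^ n) ∣[k * (n : ℤ)] (Matrix.SpecialLinearGroup.mapGL ℝ γ₀) =
        (fun z => h z ^ n) ∣[k * (n : ℤ)] γ₀ := rfl
    rw [h1]
    ext z
    rw [SL_slash_apply]
    have h2 := htr ⟨γ₀, hγ₀⟩ z
    simp only at h2
    rw [h2, mul_pow, mul_pow, hc, one_mul, ← zpow_natCast (denom γ₀ z ^ k) n,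
      ← _root_.zpow_mul, _root_.zpow_neg, mul_comm, ← mul_assoc,
      inv_mul_cancel₀ (zpow_ne_zero _ (denom_ne_zero _ z)), one_mul]
  holo' := hol.pow n
  bdd_at_cusps' := by
    intro c hc'
    rw [Subgroup.IsArithmetic.isCusp_iff_isCusp_SL2Z] at hc'
    rw [OnePoint.isBoundedAt_iff_forall_SL2Z hc']
    intro g _
    show IsBoundedAtImInfty ((fun z => h z ^ n) ∣[k * (n : ℤ)] g)
    rw [pow_slash_SL]
    obtain ⟨M, A, hM⟩ := UpperHalfPlane.isBoundedAtImInfty_iff.mp (hbd g)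
    rw [UpperHalfPlane.isBoundedAtImInfty_iff]
    refine ⟨M ^ n, A, fun z hz => ?_⟩
    rw [norm_pow]
    exact pow_le_pow_left₀ (norm_nonneg _) (hM z hz) n

@[simp] lemma powForm_apply (N : ℕ) [NeZero N] (k : ℤ) (n : ℕ) (h : ℍ → ℂ) (c : ↥(Gamma0 N) → ℂ)
    (hc : ∀ γ, c γ ^ n = 1) (hol : MDiff h)
    (htr : ∀ (γ : ↥(Gamma0 N)) (z : ℍ),
      h ((γ : SL(2, ℤ)) • z) = c γ * denom (γ : SL(2, ℤ)) z ^ k * h z)
    (hbd : ∀ g : SL(2, ℤ), IsBoundedAtImInfty (h ∣[k] g)) (z : ℍ) :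
    powForm N k n h c hc hol htr hbd z = h z ^ n := rfl

variable {N : ℕ} [NeZero N] {χ : ↥(Gamma0 N) →* ℂˣ}

/-- `E_{12,χ} ^ n` as a modular form of weight `12 n` on `Γ₀(N)`, when `χ ^ n = 1`. -/
def twistedPowForm (N : ℕ) [NeZero N] (χ : ↥(Gamma0 N) →* ℂˣ) (n : ℕ)
    (hχ : ∀ γ, χ γ ^ n = 1) (hunit : ∀ γ, ‖(χ γ : ℂ)‖ = 1)
    (hpar : ∀ γ : ↥(Gamma0 N), (γ : SL(2, ℤ)).1 1 0 = 0 → χ γ = 1) :
    ModularForm (G0 N) (12 * (n : ℤ)) :=
  powForm N 12 n (twistedEisenstein N χ 12) (fun γ => (χ γ : ℂ))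
    (fun γ => by rw [← Units.val_pow_eq_pow_val, hχ, Units.val_one])
    (twistedEisenstein_mdifferentiable hunit (by norm_num))
    (twistedEisenstein_smul hpar 12)
    (isBoundedAtImInfty_twistedEisenstein_slash hunit (by norm_num))

lemma twistedPowForm_apply (n : ℕ) (hχ : ∀ γ, χ γ ^ n = 1) (hunit : ∀ γ, ‖(χ γ : ℂ)‖ = 1)
    (hpar : ∀ γ : ↥(Gamma0 N), (γ : SL(2, ℤ)).1 1 0 = 0 → χ γ = 1) (z : ℍ) :
    twistedPowForm N χ n hχ hunit hpar z = twistedEisenstein N χ 12 z ^ n := rfl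

lemma discriminant_slash_SL (g : SL(2, ℤ)) :
    (discriminant : ℍ → ℂ) ∣[(12 : ℤ)] g = discriminant :=
  SlashInvariantForm.slash_action_generators_SL2Z discriminant_S_invariant
    discriminant_T_invariant g

/-- `Δ ^ n` as a modular form of weight `12 n` on `Γ₀(N)`. -/
def discPowForm (N : ℕ) [NeZero N] (n : ℕ) : ModularForm (G0 N) (12 * (n : ℤ)) :=
  powForm N 12 n discriminant (fun _ => 1) (fun _ => one_pow n) CuspForm.discriminant.holo'
    (fun γ z => by rw [discriminant_smul_SL, one_mul])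
    (fun g => by
      rw [discriminant_slash_SL]
      exact discriminant_isZeroAtImInfty.isBoundedAtImInfty)

lemma discPowForm_apply (n : ℕ) (z : ℍ) : discPowForm N n z = discriminant z ^ n := rfl

lemma discPowForm_ne_zero (n : ℕ) : discPowForm N n ≠ 0 := by
  intro h
  have := congrArg (fun f : ModularForm (G0 N) (12 * (n : ℤ)) => f UpperHalfPlane.I) h
  simp only [discPowForm_apply, _root_.zero_apply] at this
  exact pow_ne_zero n (discriminant_ne_zero _) this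

lemma twistedPowForm_ne_zero (n : ℕ) (hχ : ∀ γ, χ γ ^ n = 1) (hunit : ∀ γ, ‖(χ γ : ℂ)‖ = 1)
    (hpar : ∀ γ : ↥(Gamma0 N), (γ : SL(2, ℤ)).1 1 0 = 0 → χ γ = 1) :
    twistedPowForm N χ n hχ hunit hpar ≠ 0 := by
  intro h
  have hev := (tendsto_twistedEisenstein (N := N) (χ := χ) hunit hpar (k := 12) (by norm_num)
    (by decide)).eventually_ne (by norm_num : (2 : ℂ) ≠ 0)
  obtain ⟨z, hz⟩ := hev.exists
  have := congrArg (fun f : ModularForm (G0 N) (12 * (n : ℤ)) => f z) h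
  simp only [twistedPowForm_apply, _root_.zero_apply] at this
  exact pow_ne_zero n hz this

/-- For every `z`, `(twistedRoot N χ z) ^ n` is the ratio of the two forms. -/
lemma twistedRoot_pow_eq (n : ℕ) (hχ : ∀ γ, χ γ ^ n = 1) (hunit : ∀ γ, ‖(χ γ : ℂ)‖ = 1)
    (hpar : ∀ γ : ↥(Gamma0 N), (γ : SL(2, ℤ)).1 1 0 = 0 → χ γ = 1) (z : ℍ) :
    twistedRoot N χ z ^ n = twistedPowForm N χ n hχ hunit hpar z / discPowForm N n z := by
  rw [twistedPowForm_apply, discPowForm_apply, twistedRoot, div_pow]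

local notation "ιL" => HahnSeries.ofPowerSeries ℤ ℂ

/-- **The `q`-expansion of `(E_{12,χ} / Δ) ^ n` lies in the field of ratios.** -/
theorem exists_twisted_ratio (N : ℕ) [NeZero N] (χ : ↥(Gamma0 N) →* ℂˣ) (n : ℕ)
    (hχ : ∀ γ, χ γ ^ n = 1) (hunit : ∀ γ, ‖(χ γ : ℂ)‖ = 1)
    (hpar : ∀ γ : ↥(Gamma0 N), (γ : SL(2, ℤ)).1 1 0 = 0 → χ γ = 1) :
    ∃ x : LaurentSeries ℂ, x ∈ ratioField N ∧ x ≠ 0 ∧
      x * ιL (qExpansion 1 (discPowForm N n)) =
        ιL (qExpansion 1 (twistedPowForm N χ n hχ hunit hpar)) := by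
  have hE := ofPS_qExpansion_ne_zero N (discPowForm_ne_zero (N := N) n)
  have hG := ofPS_qExpansion_ne_zero N (twistedPowForm_ne_zero (N := N) (χ := χ) n hχ hunit hpar)
  refine ⟨ιL (qExpansion 1 (twistedPowForm N χ n hχ hunit hpar)) *
    (ιL (qExpansion 1 (discPowForm N n)))⁻¹, ?_, mul_ne_zero hG (inv_ne_zero hE), ?_⟩
  · rw [mem_ratioField]
    exact ⟨12 * (n : ℤ), n, rfl, twistedPowForm N χ n hχ hunit hpar, discPowForm N n,
      discPowForm_ne_zero n, by rw [mul_assoc, inv_mul_cancel₀ hE, mul_one]⟩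
  · rw [mul_assoc, inv_mul_cancel₀ hE, mul_one]

end

end Fermat.Agent.S29.helper3718
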