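import Fermat.Agent.S29.helper405_EigStmt
import Fermat.Agent.S29.helper5782_Spec
import Fermat.Agent.S29.helper4878_CycFrob
import Fermat.Agent.S29.helper8217_KummerClass
import Fermat.Agent.S29.helper7964_FormalES
import Fermat.Agent.S37.helper8426_HeckeInputs
import Fermat.Agent.S18.helper3054_Kummer
import Fermat.Agent.S18.helper508_GaussMod
import Fermat.Agent.S18.helper8991_GaussInst
import Fermat.Agent.Lib.helper6879_ResidueQbar
import Fermat.Agent.Lib.helper7516_LaurentFrob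

/-!
# S29: operator-wise unramifiedness and Eichler–Shimura on torsion of `J₀(N)` from the Kummer form

For a prime `ℓ ∤ N`, a place `A` of `ℚ̄` over `ℓ` and a modulus `n` prime to `ℓ`:

* `inertia_smul_eq_of_kf`: the inertia group at `A` acts trivially on `JZero N [n]`, from the
  S18 Kummer form `helper3054.Stmt_KF N ℓ` ALONE;
* `frobenius_quadratic_of_kf`: every Frobenius `σ` at `A` satisfies
  `σ² - T_ℓ σ + ℓ = 0` on `JZero N [n]`, from `Stmt_KF N ℓ` and the `q`-expansion form of the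
  norm `Stmt_NormQ N ℓ` (the Prelude `T_ℓ` on functions is the formal multiplicative Hecke
  operator `helper7964.heckeMul`).

Everything else is taken from landed files: Kummer classes (`helper8217`), the Gauss normal form
(`helper8991`) with the Igusa equality (`helper508`: integral series of the function field
reduce into the function field of the special fibre), the residue action of decomposition groups
(`Lib/helper6879`), Frobenius on Laurent series (`Lib/helper7516`), and the Hecke inputs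
(`S37/helper8426`).
-/

set_option autoImplicit false
set_option synthInstance.maxHeartbeats 400000

noncomputable section

namespace Fermat.Agent.S29.helper405

open ModularCurve AlgebraicCurve HahnSeries
open Fermat.Agent.S29.helper7964 (tw uOp heckeMul tw_coeff uOp_coeff uOp_qExpand tw_one)
open Fermat.Agent.S29.helper8217
open Fermat.Agent.S18.helper3054 (IntegralFn)

local notation "Qb" => AlgebraicClosure ℚ

/-! ### Formal lemmas on the multiplicative Hecke operator -/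

section Formal

variable {R S : Type*} [CommRing R] [CommRing S]

theorem coeffMap_tw (f : R →+* S) (c : Rˣ) (u : LaurentSeries R) :
    coeffMap f (tw c u) = tw (Units.map (f : R →* S) c) (coeffMap f u) := by
  ext n
  rw [coeffMap_coeff, tw_coeff, tw_coeff, coeffMap_coeff, map_mul, ← map_zpow, Units.coe_map]
  rfl

theorem coeffMap_uOp (f : R →+* S) (ℓ : ℕ) [NeZero ℓ] (u : LaurentSeries R) :
    coeffMap f (uOp ℓ u) = uOp ℓ (coeffMap f u) := by
  ext n
  rw [coeffMap_coeff, uOp_coeff, uOp_coeff, coeffMap_coeff]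

theorem coeffMap_heckeMul (f : R →+* S) (ℓ : ℕ) [NeZero ℓ] (ζ : Rˣ) (u : LaurentSeries R) :
    coeffMap f (heckeMul ℓ ζ u) = heckeMul ℓ (Units.map (f : R →* S) ζ) (coeffMap f u) := by
  rw [heckeMul, heckeMul, map_mul, coeffMap_qExpand, coeffMap_uOp, map_prod]
  congr 2
  refine Finset.prod_congr rfl fun b _ => ?_
  rw [coeffMap_tw, map_pow]

/-- In characteristic `ℓ` (where `ζ = 1`) the multiplicative Hecke operator is
`u ↦ u(q ^ ℓ) * Frob(u)`. -/
theorem heckeMul_one_charP (k : Type*) [Field k] (ℓ : ℕ) [Fact ℓ.Prime] [CharP k ℓ]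
    (u : LaurentSeries k) :
    heckeMul ℓ (1 : kˣ) u = qExpand k ℓ u * coeffMap (frobenius k ℓ) u := by
  rw [heckeMul]
  congr 1
  have h1 : ∏ b ∈ Finset.range ℓ, tw ((1 : kˣ) ^ b) u = u ^ ℓ := by
    simp [tw_one]
  rw [h1, ← Fermat.Agent.Lib.helper7516.qExpand_coeffMap_frobenius ℓ u, uOp_qExpand]

end Formal

/-! ### Roots of unity in a place of `ℚ̄` -/

section Zeta

variable (A : ValuationSubring Qb)

/-- A place of `ℚ̄` contains a primitive `ℓ`-th root of unity, as a unit. -/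
theorem exists_unit_primitiveRoot (ℓ : ℕ) [NeZero ℓ] :
    ∃ ζ : Aˣ, IsPrimitiveRoot ((ζ : A) : Qb) ℓ := by
  have hℓ : ℓ ≠ 0 := NeZero.ne ℓ
  have : NeZero ((ℓ : ℕ) : Qb) := ⟨by exact_mod_cast hℓ⟩
  obtain ⟨ζ, hζ⟩ := IsAlgClosed.exists_root (Polynomial.cyclotomic ℓ Qb)
    (by
      rw [Polynomial.degree_cyclotomic]
      exact_mod_cast (Nat.totient_pos.mpr (Nat.pos_of_ne_zero hℓ)).ne')
  rw [Polynomial.isRoot_cyclotomic_iff] at hζ
  have hmem : ∀ z : Qb, z ^ ℓ = 1 → z ∈ A := by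
    intro z hz
    rcases A.mem_or_inv_mem z with h | h
    · exact h
    · have e : z = z⁻¹ ^ (ℓ - 1) := by
        have hz0 : z ≠ 0 := by
          rintro rfl
          rw [zero_pow hℓ] at hz
          exact zero_ne_one hz
        have h1 : z * z ^ (ℓ - 1) = 1 := by
          rw [← pow_succ', Nat.sub_add_cancel (Nat.one_le_iff_ne_zero.mpr hℓ), hz]
        rw [inv_pow]
        exact eq_inv_of_mul_eq_one_left h1
      rw [e]
      exact pow_mem h _
  have hζ1 : ζ ^ ℓ = 1 := hζ.pow_eq_one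
  have hζi : (ζ⁻¹) ^ ℓ = 1 := by rw [inv_pow, hζ1, inv_one]
  have hζ0 : ζ ≠ 0 := hζ.ne_zero hℓ
  refine ⟨⟨⟨ζ, hmem ζ hζ1⟩, ⟨ζ⁻¹, hmem ζ⁻¹ hζi⟩, Subtype.ext (mul_inv_cancel₀ hζ0),
    Subtype.ext (inv_mul_cancel₀ hζ0)⟩, hζ⟩

variable {A}

/-- A root of unity of `ℓ`-power order reduces to `1` in characteristic `ℓ`. -/
theorem residue_unit_eq_one {ℓ : ℕ} [Fact ℓ.Prime] [CharP (IsLocalRing.ResidueField A) ℓ]
    (ζ : Aˣ) (hζ : ((ζ : A) : Qb) ^ ℓ = 1) :
    Units.map (IsLocalRing.residue A : A →* IsLocalRing.ResidueField A) ζ = 1 := by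
  apply Units.ext
  rw [Units.coe_map, Units.val_one]
  have h1 : (ζ : A) ^ ℓ = 1 := Subtype.ext (by simpa using hζ)
  have h2 : (IsLocalRing.residue A (ζ : A)) ^ ℓ = 1 := by
    rw [← map_pow, h1, map_one]
  have h3 : frobenius (IsLocalRing.ResidueField A) ℓ (IsLocalRing.residue A (ζ : A))
      = frobenius (IsLocalRing.ResidueField A) ℓ 1 := by
    rw [frobenius_def, frobenius_def, h2, one_pow]
  exact frobenius_inj (IsLocalRing.ResidueField A) ℓ h3

end Zeta

/-! ### Integral functions: normal form, Galois action, Hecke operator -/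

section IntegralFns

variable {N : ℕ} [NeZero N] {ℓ : ℕ} [Fact ℓ.Prime] (hℓN : ¬ ℓ ∣ N)
  {A : ValuationSubring Qb} (hA : A.LiesOverPrime ℓ)

include hℓN hA in
/-- For `ℓ ∤ N`, an `A`-integral series of the function field with nonzero reduction is an
integral function (the side condition on the reduction is the landed Igusa equality). -/
def mkIF (y : LaurentSeries A) (hy : coeffMap A.subtype y ∈ modularFunctionFieldBar N)
    (hne : coeffMap (IsLocalRing.residue A) y ≠ 0) : IntegralFn A N where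
  y := y
  mem := hy
  memk := Fermat.Agent.S18.helper508.coeffMap_residue_mem_fullC N ℓ hℓN A hA y hy
  ne := hne

include hℓN hA in
/-- **Gauss normal form** in terms of integral functions: every nonzero function is a constant
times a ratio of two integral functions. -/
theorem exists_integralFn_ratio (u : modularFunctionFieldBar N) (hu : u ≠ 0) :
    ∃ (c : Qb) (a b : IntegralFn A N), c ≠ 0 ∧
      u * b.gen = algebraMap Qb (modularFunctionFieldBar N) c * a.gen := by
  have hu0 : (u : LaurentSeries Qb) ≠ 0 := fun h => hu (Subtype.ext h)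
  obtain ⟨c, X, Y, hc, hX, hY, hXm, hYm, h⟩ :=
    Fermat.Agent.S18.helper8991.exists_normal_form A (IsLocalRing.residue A) N u.2 hu0
  refine ⟨c, mkIF hℓN hA X hXm hX, mkIF hℓN hA Y hYm hY, hc, Subtype.ext ?_⟩
  rw [Fermat.Agent.S18.helper8991.C_eq_algebraMap] at h
  exact h

/-- The restriction to `A` of an element of the decomposition group of `A`. -/
def decompHom (A : ValuationSubring Qb) (σ : GalQ) (hσ : σ ∈ A.decompositionSubgroup ℚ) :
    A →+* A :=
  (σ : Qb →+* Qb).restrict A A fun _ hx =>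
    Fermat.Agent.Lib.helper6879.map_mem_of_mem_decompositionSubgroup hσ hx

omit [NeZero N] [Fact ℓ.Prime] in
theorem inc_decompHom (σ : GalQ) (hσ : σ ∈ A.decompositionSubgroup ℚ) (y : LaurentSeries A) :
    coeffMap A.subtype (coeffMap (decompHom A σ hσ) y)
      = coeffMap (σ : Qb →+* Qb) (coeffMap A.subtype y) := by
  rw [coeffMap_coeffMap, coeffMap_coeffMap]
  exact coeffMap_congr (RingHom.ext fun _ => rfl) _

include hℓN hA in
/-- The Galois conjugate of an integral function by an element of the decomposition group. -/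
def galIF (σ : GalQ) (hσ : σ ∈ A.decompositionSubgroup ℚ) (a : IntegralFn A N)
    (hne : coeffMap (IsLocalRing.residue A) (coeffMap (decompHom A σ hσ) a.y) ≠ 0) :
    IntegralFn A N :=
  mkIF hℓN hA (coeffMap (decompHom A σ hσ) a.y)
    (by rw [inc_decompHom]; exact coeffMap_mem_laurentBaseChange σ a.mem) hne

theorem galIF_gen (σ : GalQ) (hσ : σ ∈ A.decompositionSubgroup ℚ) (a : IntegralFn A N)
    (hne : coeffMap (IsLocalRing.residue A) (coeffMap (decompHom A σ hσ) a.y) ≠ 0) :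
    (galIF hℓN hA σ hσ a hne).gen = arithmeticGalois (modularFunctionFieldFull N) σ • a.gen :=
  Subtype.ext (inc_decompHom σ hσ a.y)

omit [NeZero N] [Fact ℓ.Prime] in
/-- Inertia does not change the reduction. -/
theorem red_decompHom_inertia (τ : GalQ) (hτ : τ ∈ A.inertiaSubgroupIn ℚ) (y : LaurentSeries A) :
    coeffMap (IsLocalRing.residue A) (coeffMap (decompHom A τ
      (Fermat.Agent.Lib.helper6879.mem_decompositionSubgroup_of_mem_inertiaSubgroupIn hτ)) y)
      = coeffMap (IsLocalRing.residue A) y := by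
  rw [coeffMap_coeffMap]
  refine coeffMap_congr (RingHom.ext fun a => ?_) y
  exact Fermat.Agent.Lib.helper6879.inertia_residue hτ a

omit [NeZero N] in
/-- A Frobenius element acts on reductions by the coefficientwise Frobenius. -/
theorem red_decompHom_frobenius [CharP (IsLocalRing.ResidueField A) ℓ] (σ : GalQ)
    (hσ : A.IsFrobeniusAt σ ℓ) (y : LaurentSeries A) :
    coeffMap (IsLocalRing.residue A) (coeffMap (decompHom A σ hσ.mem_decompositionSubgroup) y)
      = coeffMap (frobenius (IsLocalRing.ResidueField A) ℓ)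
          (coeffMap (IsLocalRing.residue A) y) := by
  rw [coeffMap_coeffMap, coeffMap_coeffMap]
  refine coeffMap_congr (RingHom.ext fun a => ?_) y
  exact Fermat.Agent.Lib.helper6879.IsFrobeniusAt_residue hσ a

omit [NeZero N] in
theorem coeffMap_frobenius_ne_zero [CharP (IsLocalRing.ResidueField A) ℓ]
    {z : LaurentSeries (IsLocalRing.ResidueField A)} (hz : z ≠ 0) :
    coeffMap (frobenius (IsLocalRing.ResidueField A) ℓ) z ≠ 0 := by
  intro h0
  apply hz
  ext n
  have h1 := congrArg (fun s : LaurentSeries (IsLocalRing.ResidueField A) => s.coeff n) h0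
  simp only [coeffMap_coeff, HahnSeries.coeff_zero] at h1
  rw [HahnSeries.coeff_zero]
  exact (frobenius_inj (IsLocalRing.ResidueField A) ℓ) (by rw [h1, map_zero])

/-- The `m`-th power of an integral function. -/
def powIF (a : IntegralFn A N) (m : ℕ) : IntegralFn A N where
  y := a.y ^ m
  mem := by rw [map_pow]; exact pow_mem a.mem m
  memk := by rw [map_pow]; exact pow_mem a.memk m
  ne := by rw [map_pow]; exact pow_ne_zero m a.ne

omit [NeZero N] [Fact ℓ.Prime] in
theorem powIF_gen (a : IntegralFn A N) (m : ℕ) : (powIF a m).gen = a.gen ^ m :=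
  Subtype.ext (by simp [powIF])

omit [NeZero N] [Fact ℓ.Prime] in
theorem powIF_red (a : IntegralFn A N) (m : ℕ) : (powIF a m).red = a.red ^ m :=
  Subtype.ext (by simp [powIF])

/-- **(NQ)** `q`-expansion form of the norm: the Prelude multiplicative Hecke operator on
functions, `u ↦ Norm_{F_{Nℓ}/F_N} (u(q ^ ℓ))`, is the formal multiplicative Hecke operator
`u(q ^ ℓ) * U_ℓ (∏_{b < ℓ} u(ζ ^ b q))` of `helper7964`. -/
def Stmt_NormQ (N : ℕ) [NeZero N] (ℓ : ℕ) [NeZero ℓ] : Prop :=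
  ∀ ζ : Qbˣ, IsPrimitiveRoot (ζ : Qb) ℓ → ∀ u : modularFunctionFieldBar N,
    ((heckeFun (L := Qb) N ℓ u : modularFunctionFieldBar N) : LaurentSeries Qb)
      = heckeMul ℓ ζ (u : LaurentSeries Qb)

omit [Fact ℓ.Prime] in
theorem heckeFun_mul [NeZero ℓ] (x y : modularFunctionFieldBar N) :
    heckeFun (L := Qb) N ℓ (x * y) = heckeFun (L := Qb) N ℓ x * heckeFun (L := Qb) N ℓ y := by
  simp only [heckeFun, normAlong, map_mul]

theorem inc_heckeMul (hNQ : Stmt_NormQ N ℓ) (ζ : Aˣ) (hζ : IsPrimitiveRoot ((ζ : A) : Qb) ℓ)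
    (a : IntegralFn A N) :
    coeffMap A.subtype (heckeMul ℓ ζ a.y)
      = ((heckeFun (L := Qb) N ℓ a.gen : modularFunctionFieldBar N) : LaurentSeries Qb) := by
  rw [coeffMap_heckeMul, hNQ (Units.map (A.subtype : A →* Qb) ζ) (by simpa using hζ) a.gen]
  rfl

omit [NeZero N] in
theorem red_heckeMul [CharP (IsLocalRing.ResidueField A) ℓ] (ζ : Aˣ)
    (hζ : IsPrimitiveRoot ((ζ : A) : Qb) ℓ) (y : LaurentSeries A) :
    coeffMap (IsLocalRing.residue A) (heckeMul ℓ ζ y)
      = qExpand (IsLocalRing.ResidueField A) ℓ (coeffMap (IsLocalRing.residue A) y)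
        * coeffMap (frobenius (IsLocalRing.ResidueField A) ℓ)
            (coeffMap (IsLocalRing.residue A) y) := by
  rw [coeffMap_heckeMul, residue_unit_eq_one ζ hζ.pow_eq_one, heckeMul_one_charP]

include hℓN hA in
/-- The Hecke transform of an integral function is an integral function. -/
def heckeIF [CharP (IsLocalRing.ResidueField A) ℓ] (hNQ : Stmt_NormQ N ℓ) (ζ : Aˣ)
    (hζ : IsPrimitiveRoot ((ζ : A) : Qb) ℓ) (a : IntegralFn A N) : IntegralFn A N :=
  mkIF hℓN hA (heckeMul ℓ ζ a.y)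
    (by rw [inc_heckeMul hNQ ζ hζ a]; exact SetLike.coe_mem _)
    (by
      rw [red_heckeMul ζ hζ]
      exact mul_ne_zero
        ((map_ne_zero_iff _ (qExpand_injective (R := IsLocalRing.ResidueField A) (N := ℓ))).mpr a.ne) (coeffMap_frobenius_ne_zero a.ne))

theorem heckeIF_gen [CharP (IsLocalRing.ResidueField A) ℓ] (hNQ : Stmt_NormQ N ℓ) (ζ : Aˣ)
    (hζ : IsPrimitiveRoot ((ζ : A) : Qb) ℓ) (a : IntegralFn A N) :
    (heckeIF hℓN hA hNQ ζ hζ a).gen = heckeFun (L := Qb) N ℓ a.gen :=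
  Subtype.ext (inc_heckeMul hNQ ζ hζ a)

end IntegralFns

/-! ### The two operator-wise statements on torsion classes -/

theorem key_identity {F : Type*} [CommRing F] (a2 ag Tb b2 bg Ta ggu u H : F) (ℓ : ℕ)
    (h2 : ggu * b2 = a2) (hab : u * bg = ag) (h3 : H * Tb = Ta) :
    a2 * ag ^ ℓ * Tb * H = (ggu * u ^ ℓ) * (b2 * bg ^ ℓ * Ta) := by
  subst h2 hab h3
  ring

section Main

variable {N : ℕ} [NeZero N] {ℓ : ℕ} [Fact ℓ.Prime] (hℓN : ¬ ℓ ∣ N)
  {A : ValuationSubring Qb} (hA : A.LiesOverPrime ℓ)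

include hℓN hA in
/-- Every `n`-torsion class of `JZero N` is the Kummer class of a ratio of two integral
functions at `A`. -/
theorem exists_ratio_kummerClass {n : ℕ} (hn0 : n ≠ 0) (x : JZero N) (hx : n • x = 0) :
    ∃ (a b : IntegralFn A N) (u : modularFunctionFieldBar N),
      IsKummer Qb n u ∧ u * b.gen = a.gen ∧ kummerClass Qb n u = x := by
  have hxt : x ∈ Pic0.torsion Qb (modularFunctionFieldBar N) n :=
    Pic0.mem_torsion.mpr (by rw [natCast_zsmul]; exact hx)
  obtain ⟨u0, hu0, rfl⟩ := exists_kummerClass_eq hn0 hxt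
  obtain ⟨c0, a, b, hc0, hab⟩ := exists_integralFn_ratio hℓN hA u0 hu0.ne_zero
  have hC0 : algebraMap Qb (modularFunctionFieldBar N) c0 ≠ 0 :=
    (map_ne_zero (algebraMap Qb (modularFunctionFieldBar N))).mpr hc0
  have hCi0 : (algebraMap Qb (modularFunctionFieldBar N) c0)⁻¹ ≠ 0 := inv_ne_zero hC0
  have hCv : ∀ v : Place Qb (modularFunctionFieldBar N),
      v.ord (algebraMap Qb (modularFunctionFieldBar N) c0)⁻¹ = 0 := fun v => by
    rw [v.ord_inv, ord_algebraMap, neg_zero]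
  refine ⟨a, b, (algebraMap Qb (modularFunctionFieldBar N) c0)⁻¹ * u0,
    (isKummer_of_ord_eq_zero n hCi0 hCv).mul hu0, ?_,
    kummerClass_mul_of_ord_eq_zero hCi0 hCv hu0⟩
  rw [mul_assoc, hab, inv_mul_cancel_left₀ hC0]

include hℓN hA in
/-- **(U)** For `ℓ ∤ N` and `n` prime to `ℓ`, the inertia group at a place `A` over `ℓ` acts
trivially on the `n`-torsion of `JZero N`, as soon as the S18 Kummer form holds at `(N, ℓ)`. -/
theorem inertia_smul_eq_of_kf (hKF : Fermat.Agent.S18.helper3054.Stmt_KF N ℓ) {n : ℕ}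
    (hn : ¬ ℓ ∣ n) (τ : GalQ) (hτ : τ ∈ A.inertiaSubgroupIn ℚ) (x : JZero N)
    (hx : n • x = 0) : τ • x = x := by
  have hn0 : n ≠ 0 := fun h => hn (h ▸ dvd_zero ℓ)
  obtain ⟨a, b, u, hu, hab, rfl⟩ := exists_ratio_kummerClass hℓN hA hn0 x hx
  have hτd := Fermat.Agent.Lib.helper6879.mem_decompositionSubgroup_of_mem_inertiaSubgroupIn hτ
  have hane : coeffMap (IsLocalRing.residue A) (coeffMap (decompHom A τ hτd) a.y) ≠ 0 := by
    rw [red_decompHom_inertia τ hτ]; exact a.ne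
  have hbne : coeffMap (IsLocalRing.residue A) (coeffMap (decompHom A τ hτd) b.y) ≠ 0 := by
    rw [red_decompHom_inertia τ hτ]; exact b.ne
  obtain ⟨a', ha'⟩ : ∃ a' : IntegralFn A N, a' = galIF hℓN hA τ hτd a hane := ⟨_, rfl⟩
  obtain ⟨b', hb'⟩ : ∃ b' : IntegralFn A N, b' = galIF hℓN hA τ hτd b hbne := ⟨_, rfl⟩
  obtain ⟨g, hg⟩ : ∃ g : SemilinearAut Qb (modularFunctionFieldBar N),
    g = arithmeticGalois (modularFunctionFieldFull N) τ := ⟨_, rfl⟩
  have hga : a'.gen = g • a.gen := by rw [ha', hg]; exact galIF_gen hℓN hA τ hτd a hane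
  have hgb : b'.gen = g • b.gen := by rw [hb', hg]; exact galIF_gen hℓN hA τ hτd b hbne
  have hgab : (g • u) * b'.gen = a'.gen := by rw [hga, hgb, ← smul_mul', hab]
  have hgu : IsKummer Qb n (g • u) := (isKummer_smul_iff g).mpr hu
  have hared : a'.red = a.red := by
    rw [ha']; exact Subtype.ext (red_decompHom_inertia τ hτ a.y)
  have hbred : b'.red = b.red := by
    rw [hb']; exact Subtype.ext (red_decompHom_inertia τ hτ b.y)
  have hkey : (a'.mul b).gen * u = (g • u) * (a.mul b').gen := by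
    rw [IntegralFn.gen_mul, IntegralFn.gen_mul, ← hgab, ← hab]; ring
  have hord : ∀ P : Place Qb (modularFunctionFieldBar N),
      (n : ℤ) ∣ P.ord (a'.mul b).gen - P.ord (a.mul b').gen := by
    intro P
    have h1 := congrArg P.ord hkey
    rw [P.ord_mul (a'.mul b).gen_ne_zero hu.ne_zero,
      P.ord_mul hgu.ne_zero (a.mul b').gen_ne_zero] at h1
    have h2 : P.ord (a'.mul b).gen - P.ord (a.mul b').gen = P.ord (g • u) - P.ord u := by
      linarith
    rw [h2]
    exact dvd_sub (hgu.2 P) (hu.2 P)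
  have hred : (a'.mul b).red =
      algebraMap (IsLocalRing.ResidueField A)
        (modularFunctionFieldFullC (IsLocalRing.ResidueField A) N) 1 *
        (1 : modularFunctionFieldFullC (IsLocalRing.ResidueField A) N) ^ n * (a.mul b').red := by
    rw [IntegralFn.red_mul, IntegralFn.red_mul, hared, hbred, map_one, one_pow, one_mul,
      one_mul, mul_comm]
  obtain ⟨V, c', hV⟩ :=
    hKF A hA n hn (a'.mul b) (a.mul b') hord 1 1 one_ne_zero one_ne_zero hred
  have hVc : algebraMap Qb (modularFunctionFieldBar N) c' * V ^ n ≠ 0 := by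
    intro h0
    rw [h0, zero_mul] at hV
    exact (a'.mul b).gen_ne_zero hV
  have hc' : algebraMap Qb (modularFunctionFieldBar N) c' ≠ 0 := left_ne_zero_of_mul hVc
  have hV0 : V ≠ 0 := fun h => by
    rw [h, zero_pow hn0, mul_zero] at hVc
    exact hVc rfl
  rw [galois_smul_kummerClass, ← hg]
  refine (kummerClass_eq_iff hn0 hgu hu).mpr
    ⟨V, algebraMap Qb _ c', hV0, hc', fun v => ord_algebraMap v c', ?_⟩
  rw [IntegralFn.gen_mul, IntegralFn.gen_mul, ← hgab, ← hab] at hV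
  have h3 : (g • u) * (b'.gen * b.gen)
      = (u * (algebraMap Qb (modularFunctionFieldBar N) c' * V ^ n)) * (b'.gen * b.gen) := by
    rw [← mul_assoc, hV]; ring
  exact mul_right_cancel₀ (mul_ne_zero b'.gen_ne_zero b.gen_ne_zero) h3

set_option maxHeartbeats 1600000 in
include hℓN hA in
/-- **(ES)** For `ℓ ∤ N` and `n` prime to `ℓ`, every Frobenius element `σ` at a place `A` over
`ℓ` satisfies `σ² - T_ℓ σ + ℓ = 0` on the `n`-torsion of `JZero N`, as soon as the S18 Kummer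
form and the `q`-expansion form of the norm hold at `(N, ℓ)`. -/
theorem frobenius_quadratic_of_kf (hℓ : ℓ.Prime)
    (hKF : Fermat.Agent.S18.helper3054.Stmt_KF N ℓ) (hNQ : Stmt_NormQ N ℓ) {n : ℕ}
    (hn : ¬ ℓ ∣ n) (σ : GalQ) (hσ : A.IsFrobeniusAt σ ℓ) (x : JZero N) (hx : n • x = 0) :
    σ • σ • x - heckeOperatorBar N ⟨ℓ, hℓ⟩ (σ • x) + ℓ • x = 0 := by
  have hn0 : n ≠ 0 := fun h => hn (h ▸ dvd_zero ℓ)
  have : CharP (IsLocalRing.ResidueField A) ℓ :=
    Fermat.Agent.S18.helper508.charP_residueField ℓ A hA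
  obtain ⟨a, b, u, hu, hab, rfl⟩ := exists_ratio_kummerClass hℓN hA hn0 x hx
  obtain ⟨ζ, hζ⟩ := exists_unit_primitiveRoot A ℓ
  have hσd := hσ.mem_decompositionSubgroup
  obtain ⟨g, hg⟩ : ∃ g : SemilinearAut Qb (modularFunctionFieldBar N),
    g = arithmeticGalois (modularFunctionFieldFull N) σ := ⟨_, rfl⟩
  -- the Frobenius conjugate of an integral function
  have hFr : ∀ c : IntegralFn A N, ∃ c' : IntegralFn A N, c'.gen = g • c.gen ∧
      (c'.red : LaurentSeries (IsLocalRing.ResidueField A))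
        = coeffMap (frobenius (IsLocalRing.ResidueField A) ℓ)
            (c.red : LaurentSeries (IsLocalRing.ResidueField A)) := by
    intro c
    have hne : coeffMap (IsLocalRing.residue A) (coeffMap (decompHom A σ hσd) c.y) ≠ 0 := by
      rw [red_decompHom_frobenius σ hσ]; exact coeffMap_frobenius_ne_zero c.ne
    exact ⟨galIF hℓN hA σ hσd c hne, by rw [hg]; exact galIF_gen hℓN hA σ hσd c hne,
      red_decompHom_frobenius σ hσ c.y⟩
  -- the Hecke transform of an integral function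
  have hT : ∀ c : IntegralFn A N, ∃ c' : IntegralFn A N,
      c'.gen = heckeFun (L := Qb) N ℓ c.gen ∧
      (c'.red : LaurentSeries (IsLocalRing.ResidueField A))
        = qExpand (IsLocalRing.ResidueField A) ℓ
            (c.red : LaurentSeries (IsLocalRing.ResidueField A))
          * coeffMap (frobenius (IsLocalRing.ResidueField A) ℓ)
            (c.red : LaurentSeries (IsLocalRing.ResidueField A)) := by
    intro c
    exact ⟨heckeIF hℓN hA hNQ ζ hζ c, heckeIF_gen hℓN hA hNQ ζ hζ c, red_heckeMul ζ hζ c.y⟩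
  obtain ⟨a1, ha1, ha1r⟩ := hFr a
  obtain ⟨b1, hb1, hb1r⟩ := hFr b
  obtain ⟨a2, ha2, ha2r⟩ := hFr a1
  obtain ⟨b2, hb2, hb2r⟩ := hFr b1
  obtain ⟨Ta, hTa, hTar⟩ := hT a1
  obtain ⟨Tb, hTb, hTbr⟩ := hT b1
  have hgu : IsKummer Qb n (g • u) := (isKummer_smul_iff g).mpr hu
  have hggu : IsKummer Qb n (g • g • u) := (isKummer_smul_iff g).mpr hgu
  obtain ⟨hTk, hTcl⟩ := heckeOperatorBar_kummerClass (N := N) ⟨ℓ, hℓ⟩
    (Fermat.Agent.S37.helper8426.heckeInputsAlong N ℓ) hn0 hgu
  have h1 : (g • u) * b1.gen = a1.gen := by rw [ha1, hb1, ← smul_mul', hab]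
  have h2 : (g • g • u) * b2.gen = a2.gen := by rw [ha2, hb2, ← smul_mul', h1]
  have h3 : heckeFun (L := Qb) N ℓ (g • u) * Tb.gen = Ta.gen := by
    rw [hTa, hTb, ← heckeFun_mul, h1]
  -- the two integral functions with equal reductions
  obtain ⟨A1, hA1⟩ : ∃ A1 : IntegralFn A N, A1 = (a2.mul (powIF a ℓ)).mul Tb := ⟨_, rfl⟩
  obtain ⟨B1, hB1⟩ : ∃ B1 : IntegralFn A N, B1 = (b2.mul (powIF b ℓ)).mul Ta := ⟨_, rfl⟩
  have hA1g : A1.gen = a2.gen * a.gen ^ ℓ * Tb.gen := by
    rw [hA1, IntegralFn.gen_mul, IntegralFn.gen_mul, powIF_gen]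
  have hB1g : B1.gen = b2.gen * b.gen ^ ℓ * Ta.gen := by
    rw [hB1, IntegralFn.gen_mul, IntegralFn.gen_mul, powIF_gen]
  have hW : IsKummer Qb n (g • g • u * u ^ ℓ) := hggu.mul (hu.pow ℓ)
  have hkey : A1.gen * heckeFun (L := Qb) N ℓ (g • u) = (g • g • u * u ^ ℓ) * B1.gen := by
    rw [hA1g, hB1g]
    exact key_identity _ _ _ _ _ _ _ _ _ ℓ h2 hab h3
  have hord : ∀ P : Place Qb (modularFunctionFieldBar N),
      (n : ℤ) ∣ P.ord A1.gen - P.ord B1.gen := by
    intro P
    have e := congrArg P.ord hkey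
    rw [P.ord_mul A1.gen_ne_zero hTk.ne_zero, P.ord_mul hW.ne_zero B1.gen_ne_zero] at e
    have e2 : P.ord A1.gen - P.ord B1.gen
        = P.ord (g • g • u * u ^ ℓ) - P.ord (heckeFun (L := Qb) N ℓ (g • u)) := by linarith
    rw [e2]
    exact dvd_sub (hW.2 P) (hTk.2 P)
  have hred : A1.red =
      algebraMap (IsLocalRing.ResidueField A)
        (modularFunctionFieldFullC (IsLocalRing.ResidueField A) N) 1 *
        (1 : modularFunctionFieldFullC (IsLocalRing.ResidueField A) N) ^ n * B1.red := by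
    rw [map_one, one_pow, one_mul, one_mul, hA1, hB1]
    apply Subtype.ext
    rw [IntegralFn.red_mul, IntegralFn.red_mul, IntegralFn.red_mul, IntegralFn.red_mul,
      powIF_red, powIF_red]
    push_cast
    rw [ha2r, hb2r, hTar, hTbr, ha1r, hb1r,
      Fermat.Agent.Lib.helper7516.qExpand_coeffMap_frobenius ℓ,
      Fermat.Agent.Lib.helper7516.qExpand_coeffMap_frobenius ℓ]
    ring
  obtain ⟨V, c', hV⟩ := hKF A hA n hn A1 B1 hord 1 1 one_ne_zero one_ne_zero hred
  have hVc : algebraMap Qb (modularFunctionFieldBar N) c' * V ^ n ≠ 0 := by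
    intro h0
    rw [h0, zero_mul] at hV
    exact A1.gen_ne_zero hV
  have hc' : algebraMap Qb (modularFunctionFieldBar N) c' ≠ 0 := left_ne_zero_of_mul hVc
  have hV0 : V ≠ 0 := fun h => by
    rw [h, zero_pow hn0, mul_zero] at hVc
    exact hVc rfl
  -- the function identity `σ²u * u^ℓ = T_ℓ(σ u) * (c' * V ^ n)`
  have hfun : g • g • u * u ^ ℓ
      = heckeFun (L := Qb) N ℓ (g • u) * (algebraMap Qb (modularFunctionFieldBar N) c' * V ^ n) := by
    have h4 : (g • g • u * u ^ ℓ) * B1.gen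
        = (heckeFun (L := Qb) N ℓ (g • u)
            * (algebraMap Qb (modularFunctionFieldBar N) c' * V ^ n)) * B1.gen := by
      rw [← hkey, hV]; ring
    exact mul_right_cancel₀ B1.gen_ne_zero h4
  have hcl : kummerClass Qb n (g • g • u * u ^ ℓ)
      = kummerClass Qb n (heckeFun (L := Qb) N ℓ (g • u)) :=
    (kummerClass_eq_iff hn0 hW hTk).mpr
      ⟨V, algebraMap Qb _ c', hV0, hc', fun v => ord_algebraMap v c', hfun⟩
  rw [kummerClass_mul hggu (hu.pow ℓ), kummerClass_pow hu] at hcl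
  rw [galois_smul_kummerClass, galois_smul_kummerClass, ← hg, hTcl, ← hcl]
  abel

end Main

/-! ### The consumer shapes -/

section Consumers

/-- **(KF)** The S18 Kummer form at every level `N` and every prime `ℓ ∤ N`
(the export of the S18 project; used here only at `w = 1`, `c = 1`). -/
def Stmt_KFAll : Prop :=
  ∀ (N : ℕ) [NeZero N] (ℓ : ℕ), ℓ.Prime → ¬ ℓ ∣ N → Fermat.Agent.S18.helper3054.Stmt_KF N ℓ

/-- **(NQ)** The `q`-expansion form of the norm at every level `N` and every prime `ℓ ∤ N`. -/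
def Stmt_NormQAll : Prop :=
  ∀ (N : ℕ) [NeZero N] (ℓ : ℕ) [NeZero ℓ], ℓ.Prime → ¬ ℓ ∣ N → Stmt_NormQ N ℓ

theorem not_dvd_pow_of_not_dvd_mul {N p ℓ : ℕ} (hℓ : ℓ.Prime) (h : ¬ ℓ ∣ N * p) (k : ℕ) :
    ¬ ℓ ∣ p ^ k := fun hd => h (Dvd.dvd.mul_left (hℓ.dvd_of_dvd_pow hd) N)

/-- (U) on `p`-power torsion, in the shape of `helper6752.Stmt_OpUN` (= `hUN` of
`eig_of_operatorwise`). -/
theorem stmt_OpUN_of_kf (hKF : Stmt_KFAll) : helper6752.Stmt_OpUN := by
  intro N _ p _ ℓ hℓ hℓNp A hA σ hσ x hx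
  obtain ⟨k, hk⟩ := hx
  have : Fact ℓ.Prime := ⟨hℓ⟩
  have hℓN : ¬ ℓ ∣ N := fun h => hℓNp (Dvd.dvd.mul_right h p)
  exact inertia_smul_eq_of_kf hℓN hA (hKF N ℓ hℓ hℓN) (not_dvd_pow_of_not_dvd_mul hℓ hℓNp k)
    σ hσ x hk

/-- (ES) on `p`-power torsion, in the shape of `helper6752.Stmt_OpFQ` (= `hFQ` of
`eig_of_operatorwise`). -/
theorem stmt_OpFQ_of_kf (hKF : Stmt_KFAll) (hNQ : Stmt_NormQAll) : helper6752.Stmt_OpFQ := by
  intro N _ p _ ℓ hℓ hℓNp A hA σ hσ x hx
  obtain ⟨k, hk⟩ := hx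
  have : Fact ℓ.Prime := ⟨hℓ⟩
  have hℓN : ¬ ℓ ∣ N := fun h => hℓNp (Dvd.dvd.mul_right h p)
  exact frobenius_quadratic_of_kf hℓN hA hℓ (hKF N ℓ hℓ hℓN) (hNQ N ℓ hℓ hℓN)
    (not_dvd_pow_of_not_dvd_mul hℓ hℓNp k) σ hσ x hk

/-- (U) in the shape of the captain's Spec. -/
theorem stmt_U_of_kf (hKF : Stmt_KFAll) : helper5782.Stmt_U := by
  intro N _ p hp ℓ hℓ hℓNp A hA τ hτ x hx
  exact stmt_OpUN_of_kf hKF N p hp ℓ hℓ hℓNp A hA τ hτ x ⟨1, by rwa [pow_one]⟩

/-- (ES) in the shape of the captain's Spec. -/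
theorem stmt_ES_of_kf (hKF : Stmt_KFAll) (hNQ : Stmt_NormQAll) : helper5782.Stmt_ES := by
  intro N _ p hp ℓ hℓ hℓNp A hA σ hσ x hx
  exact stmt_OpFQ_of_kf hKF hNQ N p hp ℓ hℓ hℓNp A hA σ hσ x ⟨1, by rwa [pow_one]⟩

/-- (UES) in the shape of `helper405_EigStmt`. -/
theorem stmt_UnrES_of_kf (hKF : Stmt_KFAll) (hNQ : Stmt_NormQAll) : Stmt_UnrES := by
  intro N _ p hp
  exact ⟨fun ℓ hℓ hℓNp A hA σ hσ x hx =>
      stmt_OpUN_of_kf hKF N p hp ℓ hℓ hℓNp A hA σ hσ x ⟨1, by rwa [pow_one]⟩,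
    fun ℓ hℓ hℓNp A hA σ hσ x hx =>
      stmt_OpFQ_of_kf hKF hNQ N p hp ℓ hℓ hℓNp A hA σ hσ x ⟨1, by rwa [pow_one]⟩⟩

/-- **Frozen S29 from the three remaining inputs**: the S18 Kummer form (KF), the
`q`-expansion form of the norm (NQ), and the occurrence of the eigensystem (OCC, captain's
shape). -/
theorem result_of_kf_normQ_occ (hKF : Stmt_KFAll) (hNQ : Stmt_NormQAll)
    (hOcc : helper5782.Stmt_Occ)
    {N : ℕ} {g : CuspForm (CongruenceSubgroup.Gamma0 N) 2} (hg : g.IsNormalizedEigenform)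
    {p : ℕ} (hp : p.Prime) {k : Type} [Field k] [CharP k p]
    (φ : integralClosure ℤ ℂ →+* k) :
    ∃ ρ : ResidualGaloisRep k, ρ.IsAttachedTo g φ ∧
      ∀ ℓ : ℕ, ℓ.Prime → ¬ ℓ ∣ N * p → ρ.IsUnramifiedAt ℓ :=
  helper5782.result_of helper4878.stmt_CycFrob (stmt_U_of_kf hKF) (stmt_ES_of_kf hKF hNQ) hOcc
    hg hp φ

end Consumers

end Fermat.Agent.S29.helper405
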