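/-
S29-FDESC-F5 (helper4084): formal max-order uniqueness in `K⟦X⟧`.

Sub-leaf (F5) of the FDESC route (descent of twisted forms, step (3)):
if `p a` plays the role of the `q`-expansion of `H₁ ^ a * H₂ ^ (m - a)`, so that
`p 1 * p b = p (b + 1) * p 0`, and the order of `p m` is at least that of `p 0`,
then for a suitable constant `c` the series
`∑ a, C(m, a) (-c)^(m - a) p a` (the expansion of `(H₁ - c H₂) ^ m`)
has order strictly bigger than `p 0`.
-/
import Mathlib

namespace Fermat.Agent.S29.helper4084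

open PowerSeries

section Binomial

/-- Binomial expansion of `(x - c * y) ^ m` in the shape used by the max-order argument. -/
theorem sub_mul_pow_eq_sum {R : Type*} [CommRing R] (x y c : R) (m : ℕ) :
    (x - c * y) ^ m =
      ∑ a ∈ Finset.range (m + 1),
        (m.choose a : R) * (-c) ^ (m - a) * (x ^ a * y ^ (m - a)) := by
  rw [sub_eq_add_neg, add_pow]
  refine Finset.sum_congr rfl fun a _ => ?_
  rw [← neg_mul, mul_pow]
  ring

end Binomial

section Formal

variable {K : Type*} [Field K]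

/-- Over a field, divisibility of power series is detected by the order. -/
theorem dvd_of_order_le {f g : K⟦X⟧} (hf : f ≠ 0) (h : f.order ≤ g.order) : f ∣ g := by
  have hu : IsUnit (divXPowOrder f) := by
    rw [PowerSeries.isUnit_iff_constantCoeff]
    rw [isUnit_iff_ne_zero, Ne, constantCoeff_divXPowOrder_eq_zero_iff]
    exact hf
  have h1 : (X : K⟦X⟧) ^ f.order.toNat ∣ g := by
    rw [X_pow_dvd_iff]
    intro i hi
    apply coeff_of_lt_order
    calc (i : ℕ∞) < (f.order.toNat : ℕ∞) := by exact_mod_cast hi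
      _ = f.order := ENat.natCast_toNat (order_eq_top.not.mpr hf)
      _ ≤ g.order := h
  obtain ⟨s, hs⟩ := h1
  obtain ⟨u, hu'⟩ := hu
  refine ⟨(↑u⁻¹ : K⟦X⟧) * s, ?_⟩
  have hf' : f = X ^ f.order.toNat * divXPowOrder f := X_pow_order_mul_divXPowOrder.symm
  rw [hs]
  conv_rhs => rw [hf', ← hu']
  rw [mul_assoc, ← mul_assoc (u : K⟦X⟧), Units.mul_inv, one_mul]

/-- From the chain relations, `p 1 ^ (a + 1) = p (a + 1) * p 0 ^ a`. -/
theorem pow_succ_eq_of_rel (m : ℕ) (p : ℕ → K⟦X⟧)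
    (hrel : ∀ b, b < m → p 1 * p b = p (b + 1) * p 0) :
    ∀ a, a < m → p 1 ^ (a + 1) = p (a + 1) * p 0 ^ a := by
  intro a
  induction a with
  | zero => intro _; simp
  | succ a ih =>
    intro ha
    have h1 := ih (by omega)
    have h2 := hrel (a + 1) ha
    calc p 1 ^ (a + 1 + 1) = p 1 * p 1 ^ (a + 1) := by ring
      _ = p 1 * (p (a + 1) * p 0 ^ a) := by rw [h1]
      _ = (p 1 * p (a + 1)) * p 0 ^ a := by ring
      _ = (p (a + 1 + 1) * p 0) * p 0 ^ a := by rw [h2]
      _ = p (a + 1 + 1) * p 0 ^ (a + 1) := by ring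

/-- The order of `p 1` is at least the order of `p 0`. -/
theorem order_zero_le_order_one (m : ℕ) (hm : 0 < m) (p : ℕ → K⟦X⟧) (hp0 : p 0 ≠ 0)
    (hrel : ∀ b, b < m → p 1 * p b = p (b + 1) * p 0)
    (hord : (p 0).order ≤ (p m).order) : (p 0).order ≤ (p 1).order := by
  obtain ⟨k, rfl⟩ : ∃ k, m = k + 1 := ⟨m - 1, by omega⟩
  have hpow := pow_succ_eq_of_rel (k + 1) p hrel k (by omega)
  have hE := congrArg order hpow
  rw [order_pow, order_mul, order_pow] at hE
  by_contra hlt
  rw [not_le] at hlt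
  have h0 : (p 0).order ≠ ⊤ := order_eq_top.not.mpr hp0
  have h1 : (p 1).order ≠ ⊤ := ne_top_of_lt hlt
  obtain ⟨d0, hd0⟩ := ENat.ne_top_iff_exists.mp h0
  obtain ⟨d1, hd1⟩ := ENat.ne_top_iff_exists.mp h1
  rw [← hd0, ← hd1] at hE
  rw [← hd0, ← hd1] at hlt
  rw [← hd0] at hord
  have hlt' : d1 < d0 := by exact_mod_cast hlt
  by_cases hm' : (p (k + 1)).order = ⊤
  · rw [hm'] at hE
    simp only [nsmul_eq_mul, top_add] at hE
    exact absurd hE (by
      rw [← Nat.cast_mul]
      exact ENat.natCast_ne_top _)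
  · obtain ⟨dm, hdm⟩ := ENat.ne_top_iff_exists.mp hm'
    rw [← hdm] at hE hord
    have hord' : d0 ≤ dm := by exact_mod_cast hord
    simp only [nsmul_eq_mul] at hE
    have hE' : (k + 1) * d1 = dm + k * d0 := by exact_mod_cast hE
    have h3 : k * d1 ≤ k * d0 := Nat.mul_le_mul_left k hlt'.le
    nlinarith

/-- **Structure of the chain.** There is a power series `r` with `p a = r ^ a * p 0`
for all `a ≤ m`. -/
theorem exists_ratio (m : ℕ) (hm : 0 < m) (p : ℕ → K⟦X⟧) (hp0 : p 0 ≠ 0)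
    (hrel : ∀ b, b < m → p 1 * p b = p (b + 1) * p 0)
    (hord : (p 0).order ≤ (p m).order) :
    ∃ r : K⟦X⟧, ∀ a, a ≤ m → p a = r ^ a * p 0 := by
  obtain ⟨r, hr⟩ := dvd_of_order_le hp0 (order_zero_le_order_one m hm p hp0 hrel hord)
  refine ⟨r, ?_⟩
  intro a
  induction a with
  | zero => intro _; simp
  | succ a ih =>
    intro ha
    have h1 := ih (by omega)
    have h2 := hrel a (by omega)
    rw [hr, h1] at h2
    have h3 : p (a + 1) * p 0 = (r ^ (a + 1) * p 0) * p 0 := by
      rw [← h2]; ring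
    exact mul_right_cancel₀ hp0 h3

/-- The binomial sum of the chain is `(r - c) ^ m * p 0`. -/
theorem sum_eq_of_ratio (m : ℕ) (p : ℕ → K⟦X⟧) (r : K⟦X⟧)
    (hr : ∀ a, a ≤ m → p a = r ^ a * p 0) (c : K) :
    ∑ a ∈ Finset.range (m + 1), (m.choose a : K⟦X⟧) * C (-c) ^ (m - a) * p a
      = (r - C c) ^ m * p 0 := by
  have h := sub_mul_pow_eq_sum r (1 : K⟦X⟧) (C c) m
  rw [mul_one] at h
  rw [h, Finset.sum_mul]
  refine Finset.sum_congr rfl fun a ha => ?_
  rw [hr a (by have := Finset.mem_range.mp ha; omega), map_neg]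
  ring

/-- **Formal max-order uniqueness (F5).** -/
theorem exists_const_order_lt (m : ℕ) (hm : 0 < m) (p : ℕ → K⟦X⟧) (hp0 : p 0 ≠ 0)
    (hrel : ∀ b, b < m → p 1 * p b = p (b + 1) * p 0)
    (hord : (p 0).order ≤ (p m).order) :
    ∃ c : K, (p 0).order <
      (∑ a ∈ Finset.range (m + 1), (m.choose a : K⟦X⟧) * C (-c) ^ (m - a) * p a).order := by
  obtain ⟨r, hr⟩ := exists_ratio m hm p hp0 hrel hord
  refine ⟨constantCoeff r, ?_⟩
  rw [sum_eq_of_ratio m p r hr, order_mul, order_pow]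
  have h0 : (p 0).order ≠ ⊤ := order_eq_top.not.mpr hp0
  have h1 : (1 : ℕ∞) ≤ (r - C (constantCoeff r)).order := by
    rw [Order.one_le_iff_ne_zero, order_ne_zero_iff_constCoeff_eq_zero]
    simp
  have h2 : (1 : ℕ∞) ≤ m • (r - C (constantCoeff r)).order := by
    calc (1 : ℕ∞) ≤ (r - C (constantCoeff r)).order := h1
      _ = 1 • (r - C (constantCoeff r)).order := (one_smul _ _).symm
      _ ≤ m • (r - C (constantCoeff r)).order := nsmul_le_nsmul_left zero_le hm
  calc (p 0).order < 1 + (p 0).order := by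
        rw [add_comm]; exact (ENat.lt_add_one_iff h0).mpr le_rfl
    _ ≤ m • (r - C (constantCoeff r)).order + (p 0).order := by gcongr

/-- Symmetric-hypothesis form of `exists_const_order_lt`. -/
theorem exists_const_order_lt' (m : ℕ) (hm : 0 < m) (p : ℕ → K⟦X⟧) (hp0 : p 0 ≠ 0)
    (hrel : ∀ a b, a + b ≤ m → p a * p b = p (a + b) * p 0)
    (hord : (p 0).order ≤ (p m).order) :
    ∃ c : K, (p 0).order <
      (∑ a ∈ Finset.range (m + 1), (m.choose a : K⟦X⟧) * C (-c) ^ (m - a) * p a).order :=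
  exists_const_order_lt m hm p hp0
    (fun b hb => by have := hrel 1 b (by omega); rwa [add_comm 1 b] at this) hord

end Formal

end Fermat.Agent.S29.helper4084
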