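import Fermat.Agent.S24.helper6180_Ev
import Fermat.Agent.S24.helper1944_Ev

/-!
# S29: the two landed analytic realisations of `A_N = ℚ̄[j(q^d) : d ∣ N]` coincide (helper42)

Two evaluation maps `AN N → (ℍ → ℂ)` are on main and are used by different S29 leaves:

* `Fermat.Agent.S24.helper6180.ev N a` (characterised by its `q`-expansion; used by the order
  dictionary `helper265_EvOrder`, by ANDIV and by the `ℂ`-side `helper580_CPlace`);
* `Fermat.Agent.S24.helper1944.evFun N a` (sum of the `q`-series; used by `helper3126_InvRoot`).

They are the same function, and the two fixed embeddings `ℚ̄ → ℂ` are the same map.  Consumers can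
therefore mix statements proved against either realisation.
-/

set_option autoImplicit false

open ModularCurve CongruenceSubgroup UpperHalfPlane
open scoped MatrixGroups Manifold

namespace Fermat.Agent.S29.helper42

open Fermat.Agent.S24 Fermat.Agent.S24.helper24

/-- The two fixed embeddings `ℚ̄ → ℂ` of the S24 analytic dictionaries are the same map. -/
theorem i0_eq_kappa : helper6180.i0 = helper1944.kappa := rfl

theorem i0_apply_eq_kappa (c : Kbar) : helper6180.i0 c = helper1944.kappa c := rfl

/-- The generators have the same image. -/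
theorem Jd_eq (d : ℕ) : helper6180.Jd d = fun τ : ℍ => helper24.jFun (helper1944.mulPt d τ) :=
  rfl

/-- **The two realisations coincide on `AN N`.** -/
theorem ev_eq_evFun (N : ℕ) (a : helper3176.AN N) :
    helper6180.ev N a = helper1944.evFun N (a : FN N) := by
  obtain ⟨x, hx⟩ := a
  have key : ∀ x ∈ helper3176.AN N, ∀ hx : x ∈ helper3176.AN N,
      helper6180.ev N ⟨x, hx⟩ = helper1944.evFun N x := by
    refine helper1944.AN_induction N ?_ ?_ ?_ ?_
    · intro d _ hd hx
      rw [helper1944.evFun_jBarD N d hd, ← Jd_eq]
      exact helper6180.ev_jBarD N d hd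
    · intro c hx
      rw [helper1944.evFun_algebraMap N c]
      exact helper6180.ev_algebraMap N c
    · intro x y hx hy ihx ihy hxy
      rw [helper1944.evFun_add N hx hy, ← ihx hx, ← ihy hy, ← helper6180.ev_add]
      rfl
    · intro x y hx hy ihx ihy hxy
      rw [helper1944.evFun_mul N hx hy, ← ihx hx, ← ihy hy, ← helper6180.ev_mul]
      rfl
  exact key x hx hx

/-- Pointwise form. -/
theorem ev_apply_eq_evFun (N : ℕ) (a : helper3176.AN N) (τ : ℍ) :
    helper6180.ev N a τ = helper1944.evFun N (a : FN N) τ :=
  congrFun (ev_eq_evFun N a) τ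

/-- The two ring homomorphisms coincide. -/
theorem evHom_eq (N : ℕ) : helper6180.evHom N = helper1944.evHom N :=
  RingHom.ext fun a => ev_eq_evFun N a

/-- Form for elements of `FN N` known to lie in `AN N`. -/
theorem evFun_eq_ev (N : ℕ) {w : FN N} (hw : w ∈ helper3176.AN N) :
    helper1944.evFun N w = helper6180.ev N ⟨w, hw⟩ :=
  (ev_eq_evFun N ⟨w, hw⟩).symm

end Fermat.Agent.S29.helper42
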