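import Fermat.Agent.S29.helper8319_PthRoot

/-!
# S29-FDESC (F3): multiplier and cuspidality of an `m`-th root (helper4352)

Sub-leaf (F3) of the form-descent route FDESC (findings #2710, step (1), last paragraph).

If `G` is a nonzero cusp form of weight `m * k` on `Γ₀(N)` and `R` is a holomorphic function on
the upper half plane with `R ^ m = G`, then `R` transforms under `Γ₀(N)` with weight `k` and a
character `c : Γ₀(N) →* ℂˣ` with `c ^ m = 1`, and all `SL(2, ℤ)`-slashes of `R` vanish at `i∞`;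
i.e. `R` lies in the space `S_k(c)` of cuspidal `c`-automorphic functions (the unfolded shape of
`IsChiCusp N c k R` of the FDESC spec).

The multiplier itself is the landed `helper8319.exists_character_of_slash_pow_eq`; this file adds
the weight bookkeeping (`pow_slash`), the passage of cusp conditions to roots
(`isZeroAtImInfty_of_pow`, `isBoundedAtImInfty_of_pow`) and the packaged statement.
Any modulus `m ≥ 1`.
-/

set_option autoImplicit false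

open UpperHalfPlane ModularForm CongruenceSubgroup Filter Topology
open scoped MatrixGroups Manifold

namespace Fermat.Agent.S29.helper4352

/-- Powers and the slash action of `SL(2, ℤ)`: `(R ^ m) ∣[m * k] g = (R ∣[k] g) ^ m`. -/
theorem pow_slash (k : ℤ) (m : ℕ) (R : ℍ → ℂ) (g : SL(2, ℤ)) :
    (R ^ m) ∣[(m : ℤ) * k] g = (R ∣[k] g) ^ m := by
  ext z
  rw [Pi.pow_apply, SL_slash_apply, SL_slash_apply, Pi.pow_apply, mul_pow,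
    ← zpow_natCast (denom g z ^ (-k)) m, ← _root_.zpow_mul, neg_mul, mul_comm k]

/-- Pointwise form of `pow_slash`. -/
theorem pow_slash_apply (k : ℤ) (m : ℕ) (R : ℍ → ℂ) (g : SL(2, ℤ)) (z : ℍ) :
    ((R ^ m) ∣[(m : ℤ) * k] g) z = (R ∣[k] g) z ^ m := by
  rw [pow_slash]; rfl

/-- If `f ^ m` tends to zero at `i∞` and `m ≥ 1`, then so does `f`. -/
theorem isZeroAtImInfty_of_pow {m : ℕ} (hm : 0 < m) {f : ℍ → ℂ}
    (h : IsZeroAtImInfty (f ^ m)) : IsZeroAtImInfty f := by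
  rw [IsZeroAtImInfty, ZeroAtFilter, tendsto_zero_iff_norm_tendsto_zero] at h ⊢
  have h1 : Tendsto (fun z => ‖f z‖ ^ m) atImInfty (𝓝 0) := by simpa using h
  have h2 := h1.rpow_const (p := (m : ℝ)⁻¹) (Or.inr (by positivity))
  rw [Real.zero_rpow (by positivity)] at h2
  refine h2.congr fun z => ?_
  exact Real.pow_rpow_inv_natCast (norm_nonneg _) hm.ne'

/-- If `f ^ m` is bounded at `i∞` and `m ≥ 1`, then so is `f`. -/
theorem isBoundedAtImInfty_of_pow {m : ℕ} (hm : 0 < m) {f : ℍ → ℂ}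
    (h : IsBoundedAtImInfty (f ^ m)) : IsBoundedAtImInfty f := by
  obtain ⟨M, A, hM⟩ := UpperHalfPlane.isBoundedAtImInfty_iff.mp h
  rw [UpperHalfPlane.isBoundedAtImInfty_iff]
  refine ⟨max M 1, A, fun z hz => ?_⟩
  by_contra hlt
  rw [not_le] at hlt
  have h1 : 1 < ‖f z‖ := lt_of_le_of_lt (le_max_right _ _) hlt
  have h2 : ‖f z‖ ≤ ‖f z‖ ^ m := le_self_pow₀ h1.le hm.ne'
  have h3 := hM z hz
  rw [Pi.pow_apply, norm_pow] at h3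
  linarith [le_max_left M 1]

/-- Cusp vanishing passes to `m`-th roots, slash by slash. -/
theorem isZeroAtImInfty_slash_of_pow {m : ℕ} (hm : 0 < m) (k : ℤ) {R : ℍ → ℂ} (A : SL(2, ℤ))
    (h : IsZeroAtImInfty ((R ^ m) ∣[(m : ℤ) * k] A)) : IsZeroAtImInfty (R ∣[k] A) :=
  isZeroAtImInfty_of_pow hm (by rwa [pow_slash] at h)

/-- Boundedness at the cusps passes to `m`-th roots, slash by slash. -/
theorem isBoundedAtImInfty_slash_of_pow {m : ℕ} (hm : 0 < m) (k : ℤ) {R : ℍ → ℂ} (A : SL(2, ℤ))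
    (h : IsBoundedAtImInfty ((R ^ m) ∣[(m : ℤ) * k] A)) : IsBoundedAtImInfty (R ∣[k] A) :=
  isBoundedAtImInfty_of_pow hm (by rwa [pow_slash] at h)

/-- **(F3), function level, any subgroup.**  If `R` is holomorphic, not identically zero, and
`R ^ m` is slash-invariant of weight `m * k` under `Γ`, then `R ∣[k] γ = c γ • R` for a character
`c : Γ →* ℂˣ` with `c ^ m = 1`. -/
theorem exists_character_of_pow_invariant (Γ : Subgroup SL(2, ℤ)) (k : ℤ) {m : ℕ} (hm : 0 < m)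
    {R : ℍ → ℂ} (hR : MDiff R) (hR0 : R ≠ 0)
    (hinv : ∀ γ ∈ Γ, (R ^ m) ∣[(m : ℤ) * k] γ = R ^ m) :
    ∃ c : ↥Γ →* ℂˣ, (∀ γ, c γ ^ m = 1) ∧
      ∀ γ : ↥Γ, R ∣[k] (γ : SL(2, ℤ)) = (c γ : ℂ) • R := by
  have hz : ∃ z, R z ≠ 0 := by
    by_contra h
    exact hR0 (funext fun z => by_contra fun hz => h ⟨z, hz⟩)
  obtain ⟨c, hc, hc2⟩ := helper8319.exists_character_of_slash_pow_eq Γ k hm.ne' hR hz
    (fun γ hγ z => by
      rw [← pow_slash_apply, hinv γ hγ]; rfl)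
  exact ⟨c, hc, fun γ => funext fun z => by rw [hc2 γ z]; rfl⟩

/-- **(F3), packaged for `Γ₀(N)`.**  Let `G` be a nonzero cusp form of weight `w = m * k` on
`Γ₀(N)` and `R` a holomorphic function on `ℍ` with `R ^ m = G`.  Then there is a character
`c : Γ₀(N) →* ℂˣ` with `c ^ m = 1` such that `R` is a (nonzero) cuspidal `c`-automorphic
function of weight `k`: `R ∣[k] γ = c γ • R` on `Γ₀(N)` and `R ∣[k] A → 0` at `i∞` for every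
`A ∈ SL(2, ℤ)`. -/
theorem exists_character_of_cuspForm_root (N : ℕ) [NeZero N] {m : ℕ} (hm : 0 < m) (k : ℤ)
    {w : ℤ} (hw : w = (m : ℤ) * k) (G : CuspForm (Gamma0 N) w) (hG : G ≠ 0) {R : ℍ → ℂ}
    (hR : MDiff R) (hpow : ∀ z, R z ^ m = G z) :
    ∃ c : ↥(Gamma0 N) →* ℂˣ, (∀ γ, c γ ^ m = 1) ∧ R ≠ 0 ∧
      (MDiff R ∧ (∀ γ : ↥(Gamma0 N), R ∣[k] (γ : SL(2, ℤ)) = (c γ : ℂ) • R) ∧
        ∀ A : SL(2, ℤ), IsZeroAtImInfty (R ∣[k] A)) := by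
  subst hw
  have hRG : R ^ m = ⇑G := funext hpow
  have hR0 : R ≠ 0 := by
    rintro rfl
    apply hG
    apply DFunLike.coe_injective
    rw [← hRG]
    funext z
    simp [hm.ne']
  have hinv : ∀ γ ∈ Gamma0 N, (R ^ m) ∣[(m : ℤ) * k] γ = R ^ m := by
    intro γ hγ
    rw [hRG]
    exact G.slash_action_eq' (Matrix.SpecialLinearGroup.mapGL ℝ γ) ⟨γ, hγ, rfl⟩
  obtain ⟨c, hc, hc2⟩ := exists_character_of_pow_invariant (Gamma0 N) k hm hR hR0 hinv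
  refine ⟨c, hc, hR0, hR, hc2, fun A => isZeroAtImInfty_slash_of_pow hm k A ?_⟩
  rw [hRG]
  exact CuspFormClass.zero_at_infty_slash G A

/-! ## Converse glue: cusp forms on `Γ₀(N)` from cuspidal `χ`-automorphic functions -/

/-- Function-level constructor of cusp forms on `Γ₀(N)`: a holomorphic function which is
slash-invariant under `Γ₀(N)` and all of whose `SL(2, ℤ)`-slashes vanish at `i∞`. -/
def cuspFormOfFun (N : ℕ) [NeZero N] (w : ℤ) (F : ℍ → ℂ) (hol : MDiff F)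
    (hinv : ∀ γ : ↥(Gamma0 N), F ∣[w] (γ : SL(2, ℤ)) = F)
    (hzero : ∀ A : SL(2, ℤ), IsZeroAtImInfty (F ∣[w] A)) : CuspForm (Gamma0 N) w where
  toFun := F
  slash_action_eq' := by
    rintro γ ⟨γ₀, hγ₀, rfl⟩
    exact hinv ⟨γ₀, hγ₀⟩
  holo' := hol
  zero_at_cusps' := by
    intro c hc
    rw [Subgroup.IsArithmetic.isCusp_iff_isCusp_SL2Z] at hc
    rw [OnePoint.isZeroAt_iff_forall_SL2Z hc]
    intro g _
    exact hzero g

@[simp] theorem coe_cuspFormOfFun (N : ℕ) [NeZero N] (w : ℤ) (F : ℍ → ℂ) (hol : MDiff F)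
    (hinv : ∀ γ : ↥(Gamma0 N), F ∣[w] (γ : SL(2, ℤ)) = F)
    (hzero : ∀ A : SL(2, ℤ), IsZeroAtImInfty (F ∣[w] A)) :
    ⇑(cuspFormOfFun N w F hol hinv hzero) = F := rfl

/-- Slash of a product of powers: `(F₁^a * F₂^b) ∣[m * k] g = (F₁ ∣[k] g)^a * (F₂ ∣[k] g)^b`
when `a + b = m`. -/
theorem pow_mul_pow_slash (k : ℤ) {a b m : ℕ} (hab : a + b = m) (F₁ F₂ : ℍ → ℂ) (g : SL(2, ℤ)) :
    (F₁ ^ a * F₂ ^ b) ∣[(m : ℤ) * k] g = (F₁ ∣[k] g) ^ a * (F₂ ∣[k] g) ^ b := by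
  subst hab
  have h : ((a + b : ℕ) : ℤ) * k = (a : ℤ) * k + (b : ℤ) * k := by push_cast; ring
  rw [h, mul_slash_SL2, pow_slash, pow_slash]

/-- The space of `χ`-automorphic functions is stable under `H₁ - c • H₂` (holomorphy,
transformation law, vanishing at cusps). -/
theorem chiCusp_sub_smul {Γ : Subgroup SL(2, ℤ)} (χ : ↥Γ →* ℂˣ) (k : ℤ) {H₁ H₂ : ℍ → ℂ}
    (h₁ : MDiff H₁ ∧ (∀ γ : ↥Γ, H₁ ∣[k] (γ : SL(2, ℤ)) = (χ γ : ℂ) • H₁) ∧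
      ∀ A : SL(2, ℤ), IsZeroAtImInfty (H₁ ∣[k] A))
    (h₂ : MDiff H₂ ∧ (∀ γ : ↥Γ, H₂ ∣[k] (γ : SL(2, ℤ)) = (χ γ : ℂ) • H₂) ∧
      ∀ A : SL(2, ℤ), IsZeroAtImInfty (H₂ ∣[k] A)) (c : ℂ) :
    MDiff (H₁ - c • H₂) ∧ (∀ γ : ↥Γ, (H₁ - c • H₂) ∣[k] (γ : SL(2, ℤ)) = (χ γ : ℂ) • (H₁ - c • H₂)) ∧
      ∀ A : SL(2, ℤ), IsZeroAtImInfty ((H₁ - c • H₂) ∣[k] A) := by
  have hslash : ∀ A : SL(2, ℤ), (H₁ - c • H₂) ∣[k] A = H₁ ∣[k] A - c • (H₂ ∣[k] A) := by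
    intro A
    rw [sub_eq_add_neg, SlashAction.add_slash, SlashAction.neg_slash, SL_smul_slash,
      ← sub_eq_add_neg]
  refine ⟨h₁.1.sub (h₂.1.const_smul c), fun γ => ?_, fun A => ?_⟩
  · rw [hslash, h₁.2.1, h₂.2.1, smul_sub, smul_comm]
  · rw [hslash]
    have t₁ : Tendsto (H₁ ∣[k] A) atImInfty (𝓝 0) := h₁.2.2 A
    have t₂ : Tendsto (H₂ ∣[k] A) atImInfty (𝓝 0) := h₂.2.2 A
    have t : Tendsto (H₁ ∣[k] A - c • (H₂ ∣[k] A)) atImInfty (𝓝 (0 - c • (0 : ℂ))) :=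
      t₁.sub (t₂.const_smul c)
    rw [smul_zero, sub_zero] at t
    exact t

/-- **Products of powers as cusp forms.**  If `H₁`, `H₂` are cuspidal `χ`-automorphic of
weight `k` on `Γ₀(N)` and `χ ^ m = 1`, `m ≥ 1`, then for `a ≤ m` the function
`H₁ ^ a * H₂ ^ (m - a)` is a cusp form of weight `m * k` on `Γ₀(N)`.
(`a = m`: `H₁ ^ m`; `a = 0`: `H₂ ^ m`; `a = 1`: `H₁ * H₂ ^ (m - 1)`.) -/
def powMulCuspForm (N : ℕ) [NeZero N] {m : ℕ} (hm : 0 < m) (k : ℤ) (χ : ↥(Gamma0 N) →* ℂˣ)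
    (hχ : ∀ γ, χ γ ^ m = 1) {H₁ H₂ : ℍ → ℂ}
    (h₁ : MDiff H₁ ∧ (∀ γ : ↥(Gamma0 N), H₁ ∣[k] (γ : SL(2, ℤ)) = (χ γ : ℂ) • H₁) ∧
      ∀ A : SL(2, ℤ), IsZeroAtImInfty (H₁ ∣[k] A))
    (h₂ : MDiff H₂ ∧ (∀ γ : ↥(Gamma0 N), H₂ ∣[k] (γ : SL(2, ℤ)) = (χ γ : ℂ) • H₂) ∧
      ∀ A : SL(2, ℤ), IsZeroAtImInfty (H₂ ∣[k] A))
    (a : ℕ) (ha : a ≤ m) : CuspForm (Gamma0 N) ((m : ℤ) * k) :=
  cuspFormOfFun N ((m : ℤ) * k) (H₁ ^ a * H₂ ^ (m - a)) ((h₁.1.pow a).mul (h₂.1.pow (m - a)))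
    (fun γ => by
      rw [pow_mul_pow_slash k (Nat.add_sub_cancel' ha), h₁.2.1, h₂.2.1, smul_pow, smul_pow,
        smul_mul_smul_comm, ← pow_add, Nat.add_sub_cancel' ha]
      have : ((χ γ : ℂˣ) : ℂ) ^ m = 1 := by
        rw [← Units.val_pow_eq_pow_val, hχ γ, Units.val_one]
      rw [this, one_smul])
    (fun A => by
      rw [pow_mul_pow_slash k (Nat.add_sub_cancel' ha)]
      have t₁ : Tendsto (H₁ ∣[k] A) atImInfty (𝓝 0) := h₁.2.2 A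
      have t₂ : Tendsto (H₂ ∣[k] A) atImInfty (𝓝 0) := h₂.2.2 A
      have t := (t₁.pow a).mul (t₂.pow (m - a))
      have h0 : (0 : ℂ) ^ a * 0 ^ (m - a) = 0 := by
        rcases Nat.eq_zero_or_pos a with rfl | hpos
        · simp [hm.ne']
        · simp [hpos.ne']
      rw [h0] at t
      exact t)

@[simp] theorem coe_powMulCuspForm (N : ℕ) [NeZero N] {m : ℕ} (hm : 0 < m) (k : ℤ)
    (χ : ↥(Gamma0 N) →* ℂˣ) (hχ : ∀ γ, χ γ ^ m = 1) {H₁ H₂ : ℍ → ℂ}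
    (h₁ : MDiff H₁ ∧ (∀ γ : ↥(Gamma0 N), H₁ ∣[k] (γ : SL(2, ℤ)) = (χ γ : ℂ) • H₁) ∧
      ∀ A : SL(2, ℤ), IsZeroAtImInfty (H₁ ∣[k] A))
    (h₂ : MDiff H₂ ∧ (∀ γ : ↥(Gamma0 N), H₂ ∣[k] (γ : SL(2, ℤ)) = (χ γ : ℂ) • H₂) ∧
      ∀ A : SL(2, ℤ), IsZeroAtImInfty (H₂ ∣[k] A))
    (a : ℕ) (ha : a ≤ m) :
    ⇑(powMulCuspForm N hm k χ hχ h₁ h₂ a ha) = H₁ ^ a * H₂ ^ (m - a) := rfl

/-- `H ^ m` as a cusp form of weight `m * k` on `Γ₀(N)` for a cuspidal `χ`-automorphic `H`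
of weight `k` with `χ ^ m = 1`. -/
def powCuspForm (N : ℕ) [NeZero N] {m : ℕ} (hm : 0 < m) (k : ℤ) (χ : ↥(Gamma0 N) →* ℂˣ)
    (hχ : ∀ γ, χ γ ^ m = 1) {H : ℍ → ℂ}
    (h : MDiff H ∧ (∀ γ : ↥(Gamma0 N), H ∣[k] (γ : SL(2, ℤ)) = (χ γ : ℂ) • H) ∧
      ∀ A : SL(2, ℤ), IsZeroAtImInfty (H ∣[k] A)) : CuspForm (Gamma0 N) ((m : ℤ) * k) :=
  cuspFormOfFun N ((m : ℤ) * k) (H ^ m) (h.1.pow m)
    (fun γ => by
      rw [pow_slash, h.2.1, smul_pow]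
      have : ((χ γ : ℂˣ) : ℂ) ^ m = 1 := by
        rw [← Units.val_pow_eq_pow_val, hχ γ, Units.val_one]
      rw [this, one_smul])
    (fun A => by
      rw [pow_slash]
      have t : Tendsto (H ∣[k] A) atImInfty (𝓝 0) := h.2.2 A
      have t' := t.pow m
      rw [zero_pow hm.ne'] at t'
      exact t')

@[simp] theorem coe_powCuspForm (N : ℕ) [NeZero N] {m : ℕ} (hm : 0 < m) (k : ℤ)
    (χ : ↥(Gamma0 N) →* ℂˣ) (hχ : ∀ γ, χ γ ^ m = 1) {H : ℍ → ℂ}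
    (h : MDiff H ∧ (∀ γ : ↥(Gamma0 N), H ∣[k] (γ : SL(2, ℤ)) = (χ γ : ℂ) • H) ∧
      ∀ A : SL(2, ℤ), IsZeroAtImInfty (H ∣[k] A)) :
    ⇑(powCuspForm N hm k χ hχ h) = H ^ m := rfl

theorem powCuspForm_ne_zero (N : ℕ) [NeZero N] {m : ℕ} (hm : 0 < m) (k : ℤ)
    (χ : ↥(Gamma0 N) →* ℂˣ) (hχ : ∀ γ, χ γ ^ m = 1) {H : ℍ → ℂ}
    (h : MDiff H ∧ (∀ γ : ↥(Gamma0 N), H ∣[k] (γ : SL(2, ℤ)) = (χ γ : ℂ) • H) ∧
      ∀ A : SL(2, ℤ), IsZeroAtImInfty (H ∣[k] A)) (hH : H ≠ 0) :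
    powCuspForm N hm k χ hχ h ≠ 0 := by
  intro h0
  have h1 : H ^ m = 0 := by
    rw [← coe_powCuspForm N hm k χ hχ h, h0]; rfl
  exact hH ((UpperHalfPlane.prod_eq_zero_iff (s := Finset.range m) (f := fun _ => H)
    (fun _ _ => h.1)).mp (by rw [Finset.prod_const, Finset.card_range]; exact h1)).choose_spec.2

end Fermat.Agent.S29.helper4352
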