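import Mathlib

/-!
# S29, sub-leaf THETA-LINALG (helper5040): from an eigen-function to an eigenvector in `κ ⊗ J[p]`

Abstract linear algebra step of the "occurrence" block of S29.

* `V` is an abelian group (in the application `J₀(N)[p]`), `G` any type (in the application
  `Γ₀(N)`), `Θ : V →+ (G → ZMod p)` an injective additive map (the multiplier map written
  additively), `κ` a field of characteristic `p`.
* `evTensor Θ : κ ⊗[ℤ] V →ₗ[κ] (G → κ)`, `k ⊗ v ↦ k • (Θ v cast to κ)`, is injective.
* Hence a nonzero function `c : G → κ` in the `κ`-span of the image of `Θ` which is a simultaneous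
  eigenvector of operators `T' i` on functions, compatible with operators `T i` on `V`, comes from
  a nonzero simultaneous eigenvector of the `T i` in `κ ⊗[ℤ] V`.
-/

set_option autoImplicit false

open scoped TensorProduct

namespace Fermat.Agent.S29.helper5040

noncomputable section

variable {p : ℕ} {κ : Type*} [Field κ]
variable {V : Type*} [AddCommGroup V] {G : Type*}

/-- Cast a `ZMod p`-valued function to a `κ`-valued function. -/
def cst (κ : Type*) [Field κ] {p : ℕ} {G : Type*} (f : G → ZMod p) : G → κ :=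
  fun g => ZMod.cast (f g)

@[simp]
theorem cst_apply (f : G → ZMod p) (g : G) : cst κ f g = ZMod.cast (f g) := rfl

section CharP

variable [CharP κ p]

theorem cst_add (f f' : G → ZMod p) : cst κ (f + f') = cst κ f + cst κ f' := by
  funext g
  simp only [cst_apply, Pi.add_apply]
  exact map_add (ZMod.castHom (dvd_refl p) κ) (f g) (f' g)

theorem cst_zero : cst κ (0 : G → ZMod p) = 0 := by
  funext g
  simp only [cst_apply, Pi.zero_apply]
  exact map_zero (ZMod.castHom (dvd_refl p) κ)

theorem cst_intCast (lam : G → ℤ) :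
    cst κ (fun g => ((lam g : ℤ) : ZMod p)) = fun g => ((lam g : ℤ) : κ) := by
  funext g
  simp only [cst_apply]
  exact map_intCast (ZMod.castHom (dvd_refl p) κ) (lam g)

/-- The additive map `v ↦ (Θ v cast to κ)`. -/
def cstHom (κ : Type*) [Field κ] {p : ℕ} [CharP κ p] {V : Type*} [AddCommGroup V] {G : Type*}
    (Θ : V →+ (G → ZMod p)) : V →+ (G → κ) where
  toFun v := cst κ (Θ v)
  map_zero' := by rw [map_zero, cst_zero]
  map_add' v w := by rw [map_add, cst_add]

@[simp]
theorem cstHom_apply (Θ : V →+ (G → ZMod p)) (v : V) : cstHom κ Θ v = cst κ (Θ v) := rfl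

/-- The `κ`-linear map `κ ⊗[ℤ] V → (G → κ)`, `k ⊗ v ↦ k • (Θ v cast to κ)`. -/
def evTensor (Θ : V →+ (G → ZMod p)) : κ ⊗[ℤ] V →ₗ[κ] (G → κ) :=
  TensorProduct.AlgebraTensorModule.lift
    { toFun := fun k =>
        { toFun := fun v => k • cstHom κ Θ v
          map_add' := fun v w => by rw [map_add, smul_add]
          map_smul' := fun n v => by
            rw [map_zsmul, smul_comm]
            rfl }
      map_add' := fun k k' => by
        ext v g
        simp [add_mul]
      map_smul' := fun k k' => by
        ext v g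
        simp [mul_assoc] }

@[simp]
theorem evTensor_tmul (Θ : V →+ (G → ZMod p)) (k : κ) (v : V) :
    evTensor Θ (k ⊗ₜ[ℤ] v) = k • cst κ (Θ v) := rfl

/-- The range of `evTensor Θ` is the `κ`-span of the image of `Θ`. -/
theorem range_evTensor (Θ : V →+ (G → ZMod p)) :
    LinearMap.range (evTensor (κ := κ) Θ) =
      Submodule.span κ (Set.range fun v : V => cst κ (Θ v)) := by
  apply le_antisymm
  · rintro _ ⟨x, rfl⟩
    induction x using TensorProduct.induction_on with
    | zero => rw [map_zero]; exact Submodule.zero_mem _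
    | tmul k v =>
      rw [evTensor_tmul]
      exact Submodule.smul_mem _ _ (Submodule.subset_span ⟨v, rfl⟩)
    | add x y hx hy => rw [map_add]; exact Submodule.add_mem _ hx hy
  · rw [Submodule.span_le]
    rintro _ ⟨v, rfl⟩
    exact ⟨(1 : κ) ⊗ₜ[ℤ] v, by rw [evTensor_tmul, one_smul]⟩

/-- Compatibility of `evTensor` with operators: if `T'` on functions and `T` on `V` are
intertwined by `Θ` (after casting to `κ`), then `evTensor` intertwines `T.baseChange κ`
and `T'`. -/
theorem evTensor_baseChange (Θ : V →+ (G → ZMod p)) (T : V →ₗ[ℤ] V)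
    (T' : (G → κ) →ₗ[κ] (G → κ)) (h : ∀ v, T' (cst κ (Θ v)) = cst κ (Θ (T v)))
    (x : κ ⊗[ℤ] V) : evTensor Θ (T.baseChange κ x) = T' (evTensor Θ x) := by
  induction x using TensorProduct.induction_on with
  | zero => simp
  | tmul k v =>
    rw [LinearMap.baseChange_tmul, evTensor_tmul, evTensor_tmul, map_smul, h]
  | add x y hx hy => simp only [map_add, hx, hy]

end CharP

section Injective

variable [Fact p.Prime] [CharP κ p]

/-- Every element of `κ ⊗[ℤ] V` is a finite sum `∑ b s ⊗ w s` along a basis `b` of `κ` over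
`ZMod p`. -/
theorem exists_finsupp_eq_sum (x : κ ⊗[ℤ] V) :
    letI := ZMod.algebra κ p
    ∃ w : Module.Basis.ofVectorSpaceIndex (ZMod p) κ →₀ V,
      x = w.sum fun s v => (Module.Basis.ofVectorSpace (ZMod p) κ s : κ) ⊗ₜ[ℤ] v := by
  let _ := ZMod.algebra κ p
  set b := Module.Basis.ofVectorSpace (ZMod p) κ with hb
  induction x using TensorProduct.induction_on with
  | zero => exact ⟨0, by simp⟩
  | tmul k v =>
    refine ⟨(b.repr k).mapRange (fun r : ZMod p => ((r.val : ℕ) : ℤ) • v) (by simp), ?_⟩
    rw [Finsupp.sum_mapRange_index (by intro s; simp)]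
    have hk : k = (b.repr k).sum fun s r => r • b s := by
      conv_lhs => rw [← b.linearCombination_repr k]
      rfl
    conv_lhs => rw [hk]
    rw [Finsupp.sum, TensorProduct.sum_tmul, Finsupp.sum]
    refine Finset.sum_congr rfl fun s _ => ?_
    have h1 : (b.repr k s) • b s = (((b.repr k s).val : ℕ) : ℤ) • b s := by
      rw [Algebra.smul_def, zsmul_eq_mul]
      congr 1
      have : algebraMap (ZMod p) κ (b.repr k s) = ZMod.cast (b.repr k s) := rfl
      rw [this]
      simp
    rw [h1, TensorProduct.smul_tmul]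
  | add x y hx hy =>
    obtain ⟨w₁, hw₁⟩ := hx
    obtain ⟨w₂, hw₂⟩ := hy
    refine ⟨w₁ + w₂, ?_⟩
    rw [hw₁, hw₂, Finsupp.sum_add_index']
    · intro s; simp
    · intro s v v'; rw [TensorProduct.tmul_add]

/-- `evTensor Θ` is injective when `Θ` is. -/
theorem evTensor_injective (Θ : V →+ (G → ZMod p)) (hΘ : Function.Injective Θ) :
    Function.Injective (evTensor (κ := κ) Θ) := by
  let _ := ZMod.algebra κ p
  rw [injective_iff_map_eq_zero]
  intro x hx
  obtain ⟨w, rfl⟩ := exists_finsupp_eq_sum (p := p) (κ := κ) x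
  set b := Module.Basis.ofVectorSpace (ZMod p) κ with hb
  have hw : w = 0 := by
    ext s
    rw [Finsupp.zero_apply]
    apply hΘ
    rw [map_zero]
    funext g
    rw [Pi.zero_apply]
    -- the coefficient family at `g`
    have hg : (w.mapRange (fun v : V => Θ v g) (by simp)).sum (fun s r => r • b s) = 0 := by
      rw [Finsupp.sum_mapRange_index (by intro s; simp)]
      have := congrFun hx g
      rw [Finsupp.sum, map_sum, Finset.sum_apply, Pi.zero_apply] at this
      rw [Finsupp.sum, ← this]
      refine Finset.sum_congr rfl fun s _ => ?_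
      rw [evTensor_tmul, Pi.smul_apply, cst_apply, smul_eq_mul, Algebra.smul_def, mul_comm]
      rfl
    have hli := b.linearIndependent
    rw [linearIndependent_iff] at hli
    have h0 := hli (w.mapRange (fun v : V => Θ v g) (by simp)) hg
    have := DFunLike.congr_fun h0 s
    simpa using this
  rw [hw]
  simp

/-- **Eigenvector transfer.** A nonzero function `c : G → κ` in the `κ`-span of the image of the
injective additive map `Θ : V →+ (G → ZMod p)`, which is a simultaneous eigenvector (eigenvalues
`a i`) of `κ`-linear operators `T' i` on functions that are compatible with additive operators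
`T i` on `V`, gives a nonzero simultaneous eigenvector of the `T i` in `κ ⊗[ℤ] V`. -/
theorem exists_eigen_tensor (Θ : V →+ (G → ZMod p)) (hΘ : Function.Injective Θ)
    {ι : Type*} (T : ι → V →ₗ[ℤ] V) (T' : ι → (G → κ) →ₗ[κ] (G → κ)) (a : ι → κ)
    (hcompat : ∀ i v, T' i (cst κ (Θ v)) = cst κ (Θ (T i v)))
    (c : G → κ) (hc : c ≠ 0)
    (hspan : c ∈ Submodule.span κ (Set.range fun v : V => cst κ (Θ v)))
    (heig : ∀ i, T' i c = a i • c) :
    ∃ x : κ ⊗[ℤ] V, x ≠ 0 ∧ ∀ i, (T i).baseChange κ x = a i • x := by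
  rw [← range_evTensor] at hspan
  obtain ⟨x, rfl⟩ := hspan
  refine ⟨x, ?_, fun i => ?_⟩
  · rintro rfl
    exact hc (map_zero _)
  · apply evTensor_injective Θ hΘ
    rw [evTensor_baseChange Θ (T i) (T' i) (hcompat i), heig i, map_smul]

/-- **Eigenvector transfer, integral-lattice form.** Same as `exists_eigen_tensor`, with `c` in
the `κ`-span of (the casts of) a set `Lam` of integer-valued functions whose reductions mod `p`
all lie in the image of `Θ`. -/
theorem exists_eigen_tensor_of_lattice (Θ : V →+ (G → ZMod p)) (hΘ : Function.Injective Θ)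
    {ι : Type*} (T : ι → V →ₗ[ℤ] V) (T' : ι → (G → κ) →ₗ[κ] (G → κ)) (a : ι → κ)
    (hcompat : ∀ i v, T' i (cst κ (Θ v)) = cst κ (Θ (T i v)))
    (Lam : Set (G → ℤ)) (hLam : ∀ lam ∈ Lam, ∃ v : V, ∀ g, Θ v g = ((lam g : ℤ) : ZMod p))
    (c : G → κ) (hc : c ≠ 0)
    (hspan : c ∈ Submodule.span κ ((fun lam : G → ℤ => fun g => ((lam g : ℤ) : κ)) '' Lam))
    (heig : ∀ i, T' i c = a i • c) :
    ∃ x : κ ⊗[ℤ] V, x ≠ 0 ∧ ∀ i, (T i).baseChange κ x = a i • x := by
  refine exists_eigen_tensor Θ hΘ T T' a hcompat c hc ?_ heig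
  refine Submodule.span_mono ?_ hspan
  rintro _ ⟨lam, hlam, rfl⟩
  obtain ⟨v, hv⟩ := hLam lam hlam
  refine ⟨v, ?_⟩
  show cst κ (Θ v) = fun g => ((lam g : ℤ) : κ)
  rw [← cst_intCast (p := p) (κ := κ) lam]
  congr 1
  funext g
  exact hv g

end Injective

end

end Fermat.Agent.S29.helper5040
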