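import Mathlib

/-!
# Power descent along an extension of algebraically closed constant fields

`K` an algebraically closed field, `L` an arbitrary field extension of `K`, `R` a `K`-algebra.
If `u : R` becomes `c` times an `n`-th power (of a fraction `a / b`) after extending the
constants to `L`, then `u` is already a constant times an `n`-th power of a fraction over `K`.

The proof is a Nullstellensatz specialisation: the finitely many elements of `L` that occur in
`a`, `b`, `c` generate a finitely generated `K`-subalgebra `A` of `L` (we also invert `c` and one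
coordinate of `b`), and a finitely generated nontrivial algebra over an algebraically closed field
has a `K`-point.

Main statements:

* `exists_algHom_of_finiteType` : a nontrivial finitely generated `K`-algebra has a `K`-point;
* `exists_dual_ne_zero` : a nonzero element of `L ⊗[K] R` has a nonzero coordinate;
* `power_descent` : the descent statement in tensor form;
* `power_descent_field` : the same for a field `F` instead of `R`, conclusion `u = c₀ * v ^ n`.
-/

set_option autoImplicit false

open scoped TensorProduct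

namespace Fermat.Agent.S29.helper5517

section KPoint

variable {K : Type*} [Field K] [IsAlgClosed K]

/-- A nontrivial finitely generated algebra over an algebraically closed field has a `K`-point
(weak Nullstellensatz, via Zariski's lemma). -/
theorem exists_algHom_of_finiteType (A : Type*) [CommRing A] [Algebra K A] [Nontrivial A]
    [Algebra.FiniteType K A] : Nonempty (A →ₐ[K] K) := by
  obtain ⟨m, hm⟩ := Ideal.exists_maximal A
  let _ : Field (A ⧸ m) := Ideal.Quotient.field m
  have : Algebra.FiniteType K (A ⧸ m) :=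
    Algebra.FiniteType.of_surjective (Ideal.Quotient.mkₐ K m) (Ideal.Quotient.mkₐ_surjective K m)
  have : Module.Finite K (A ⧸ m) := finite_of_finite_type_of_isJacobsonRing K (A ⧸ m)
  have hbij : Function.Bijective (algebraMap K (A ⧸ m)) :=
    IsAlgClosed.algebraMap_bijective_of_isIntegral
  let e : K ≃ₐ[K] (A ⧸ m) := AlgEquiv.ofBijective (Algebra.ofId K (A ⧸ m)) hbij
  exact ⟨(e.symm : (A ⧸ m) →ₐ[K] K).comp (Ideal.Quotient.mkₐ K m)⟩

end KPoint

section Coordinates

variable {K L R : Type*} [Field K] [Field L] [Algebra K L] [CommRing R] [Algebra K R]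

/-- The "coordinate" of an element of `L ⊗[K] R` along a `K`-linear functional of `R`. -/
noncomputable def coordAlong (lam : R →ₗ[K] K) : L ⊗[K] R →ₗ[K] L :=
  (TensorProduct.rid K L).toLinearMap ∘ₗ LinearMap.lTensor L lam

@[simp]
theorem coordAlong_tmul (lam : R →ₗ[K] K) (x : L) (r : R) :
    coordAlong (L := L) lam (x ⊗ₜ[K] r) = lam r • x := by
  simp [coordAlong]

/-- A nonzero element of `L ⊗[K] R` has a nonzero coordinate. -/
theorem exists_dual_ne_zero {b : L ⊗[K] R} (hb : b ≠ 0) :
    ∃ lam : R →ₗ[K] K, coordAlong (L := L) lam b ≠ 0 := by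
  classical
  by_contra hcon
  push Not at hcon
  apply hb
  let ℬ := Module.Free.chooseBasis K R
  apply (TensorProduct.equivFinsuppOfBasisRight (M := L) ℬ).injective
  rw [map_zero]
  ext i
  have key : ∀ x : L ⊗[K] R, (TensorProduct.equivFinsuppOfBasisRight (M := L) ℬ x) i
      = coordAlong (L := L) (ℬ.coord i) x := by
    intro x
    induction x using TensorProduct.induction_on with
    | zero => simp
    | tmul m r =>
      rw [TensorProduct.equivFinsuppOfBasisRight_apply_tmul_apply, coordAlong_tmul,
        Module.Basis.coord_apply]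
    | add x y hx hy => rw [map_add, Finsupp.add_apply, hx, hy, map_add]
  rw [key, hcon]
  rfl

end Coordinates

section Descent

variable {K L R : Type*} [Field K] [IsAlgClosed K] [Field L] [Algebra K L]
  [CommRing R] [Algebra K R]

/-- **Power descent.** If `u ∈ R` satisfies `u * b ^ n = c * a ^ n` over `L` with `b ≠ 0`,
`c ≠ 0`, then the same kind of relation holds over the algebraically closed field `K`. -/
theorem power_descent (n : ℕ) (u : R) (c : L) (hc : c ≠ 0)
    (a b : L ⊗[K] R) (hb : b ≠ 0)
    (h : ((1 : L) ⊗ₜ[K] u) * b ^ n = (c ⊗ₜ[K] (1 : R)) * a ^ n) :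
    ∃ (c0 : K) (a0 b0 : R), c0 ≠ 0 ∧ b0 ≠ 0 ∧ u * b0 ^ n = algebraMap K R c0 * a0 ^ n := by
  classical
  -- a coordinate of `b` that does not vanish
  obtain ⟨lam, hlam⟩ := exists_dual_ne_zero hb
  obtain ⟨Sa, hSa⟩ := TensorProduct.exists_finset a
  obtain ⟨Sb, hSb⟩ := TensorProduct.exists_finset b
  set d : L := coordAlong (L := L) lam b with hd
  -- the finitely generated subalgebra
  let Gen : Finset L := Sa.image Prod.fst ∪ Sb.image Prod.fst ∪ {c, c⁻¹, d⁻¹}
  let A : Subalgebra K L := Algebra.adjoin K (Gen : Set L)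
  have : Algebra.FiniteType K A := (Subalgebra.fg_iff_finiteType A).mp
    (Subalgebra.fg_adjoin_finset Gen)
  have hGen : ∀ x ∈ Gen, x ∈ A := fun x hx => Algebra.subset_adjoin (Finset.mem_coe.mpr hx)
  have hSaA : ∀ i ∈ Sa, i.1 ∈ A := fun i hi => hGen _ (by
    simp only [Gen, Finset.mem_union, Finset.mem_image]
    exact Or.inl (Or.inl ⟨i, hi, rfl⟩))
  have hSbA : ∀ i ∈ Sb, i.1 ∈ A := fun i hi => hGen _ (by
    simp only [Gen, Finset.mem_union, Finset.mem_image]
    exact Or.inl (Or.inr ⟨i, hi, rfl⟩))
  have hcA : c ∈ A := hGen _ (by simp [Gen])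
  have hciA : c⁻¹ ∈ A := hGen _ (by simp [Gen])
  have hdiA : d⁻¹ ∈ A := hGen _ (by simp [Gen])
  -- lifting elements of `L` to `A`
  let lift : L → A := fun x => if hx : x ∈ A then ⟨x, hx⟩ else 0
  have hlift : ∀ x, x ∈ A → ((lift x : A) : L) = x := fun x hx => by
    simp only [lift, dif_pos hx]
  let a' : A ⊗[K] R := ∑ i ∈ Sa, lift i.1 ⊗ₜ[K] i.2
  let b' : A ⊗[K] R := ∑ i ∈ Sb, lift i.1 ⊗ₜ[K] i.2
  let Ψ : A ⊗[K] R →ₐ[K] L ⊗[K] R := Algebra.TensorProduct.map A.val (AlgHom.id K R)
  have hΨa : Ψ a' = a := by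
    rw [hSa, map_sum]
    refine Finset.sum_congr rfl fun i hi => ?_
    simp only [Ψ, Algebra.TensorProduct.map_tmul, Subalgebra.coe_val, AlgHom.coe_id, id_eq,
      hlift _ (hSaA i hi)]
  have hΨb : Ψ b' = b := by
    rw [hSb, map_sum]
    refine Finset.sum_congr rfl fun i hi => ?_
    simp only [Ψ, Algebra.TensorProduct.map_tmul, Subalgebra.coe_val, AlgHom.coe_id, id_eq,
      hlift _ (hSbA i hi)]
  have hΨinj : Function.Injective Ψ := by
    have h1 : (Ψ : A ⊗[K] R → L ⊗[K] R) = LinearMap.rTensor R A.val.toLinearMap := by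
      funext x
      induction x using TensorProduct.induction_on with
      | zero => simp
      | tmul m r => simp [Ψ]
      | add x y hx hy => rw [map_add, map_add, hx, hy]
    rw [h1]
    exact Module.Flat.rTensor_preserves_injective_linearMap _ Subtype.val_injective
  -- the relation over `A`
  have hrel : ((1 : A) ⊗ₜ[K] u) * b' ^ n = ((lift c) ⊗ₜ[K] (1 : R)) * a' ^ n := by
    apply hΨinj
    rw [map_mul, map_mul, map_pow, map_pow, hΨa, hΨb]
    simp only [Ψ, Algebra.TensorProduct.map_tmul, Subalgebra.coe_val, AlgHom.coe_id, id_eq,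
      hlift _ hcA, OneMemClass.coe_one]
    exact h
  -- the `K`-point
  obtain ⟨φ⟩ := exists_algHom_of_finiteType (K := K) A
  let Φ : A ⊗[K] R →ₐ[K] R :=
    (Algebra.TensorProduct.lid K R : K ⊗[K] R →ₐ[K] R).comp
      (Algebra.TensorProduct.map φ (AlgHom.id K R))
  have hΦ : ∀ (x : A) (r : R), Φ (x ⊗ₜ[K] r) = φ x • r := fun x r => by
    simp [Φ]
  refine ⟨φ (lift c), Φ a', Φ b', ?_, ?_, ?_⟩
  · -- `c` is a unit of `A`
    intro h0
    have h1 : lift c * lift c⁻¹ = 1 := by
      apply Subtype.ext
      rw [Subalgebra.coe_mul, hlift _ hcA, hlift _ hciA, OneMemClass.coe_one,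
        mul_inv_cancel₀ hc]
    have h2 := congrArg φ h1
    rw [map_mul, h0, zero_mul, map_one] at h2
    exact zero_ne_one h2
  · -- the chosen coordinate of `b` is a unit of `A`
    intro h0
    let d' : A := ∑ i ∈ Sb, lam i.2 • lift i.1
    have hd' : (d' : L) = d := by
      rw [hd, hSb, map_sum]
      simp only [d', AddSubmonoidClass.coe_finsetSum, coordAlong_tmul]
      refine Finset.sum_congr rfl fun i hi => ?_
      rw [Subalgebra.coe_smul, hlift _ (hSbA i hi)]
    have h1 : d' * lift d⁻¹ = 1 := by
      apply Subtype.ext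
      rw [Subalgebra.coe_mul, hd', hlift _ hdiA, OneMemClass.coe_one, mul_inv_cancel₀ hlam]
    have h2 : lam (Φ b') = φ d' := by
      simp only [b', d', map_sum, hΦ, map_smul, smul_eq_mul]
      refine Finset.sum_congr rfl fun i _ => ?_
      rw [mul_comm]
    have h3 := congrArg φ h1
    rw [map_mul, ← h2, h0, map_zero, zero_mul, map_one] at h3
    exact zero_ne_one h3
  · have h1 := congrArg Φ hrel
    rw [map_mul, map_mul, map_pow, map_pow, hΦ, hΦ, map_one, one_smul] at h1
    rw [h1, Algebra.smul_def, mul_one]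

/-- **Power descent, field form.** `F` a field containing the algebraically closed field `K`;
if `u ∈ F` is `c` times the `n`-th power of a fraction over `L`, then `u = c₀ * v ^ n` with
`c₀ ∈ K`, `v ∈ F`. -/
theorem power_descent_field {F : Type*} [Field F] [Algebra K F] (n : ℕ) (u : F) (c : L)
    (hc : c ≠ 0) (a b : L ⊗[K] F) (hb : b ≠ 0)
    (h : ((1 : L) ⊗ₜ[K] u) * b ^ n = (c ⊗ₜ[K] (1 : F)) * a ^ n) :
    ∃ (c0 : K) (v : F), c0 ≠ 0 ∧ u = algebraMap K F c0 * v ^ n := by
  obtain ⟨c0, a0, b0, hc0, hb0, h0⟩ := power_descent n u c hc a b hb h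
  refine ⟨c0, a0 / b0, hc0, ?_⟩
  rw [div_pow, ← mul_div_assoc, ← h0, mul_div_assoc, div_self (pow_ne_zero n hb0), mul_one]

end Descent

end Fermat.Agent.S29.helper5517
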