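import Mathlib
import Fermat.Agent.S28.helper1448_Char0
import Fermat.Agent.Lib.helper1219_Bridge
import Fermat.Agent.S24.helper167_JFinrank
import Fermat.Agent.S24.helper6180_EvDatum
import Fermat.Agent.S24.helper1200_StmtLocalInf
import Fermat.Agent.S24.helper1944_Ev
import Fermat.Agent.S29.helper42_EvBridge
import Fermat.Agent.S29.helper6961_CoeffDescent

/-!
# S29-QRAT (helper5517): forms with algebraic `q`-coefficients and the function field of `X₀(N)`

End-brick of the "descend the form" routes of (TH4).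

* `mem_FN_of_isRatio` : a Laurent series `y` over `ℚ̄` whose image over `ℂ` is the ratio of the
  `q`-expansions of two modular forms of equal weight on `Γ₀(N)` lies in the function field
  `FN N = ℚ̄(j(q^d) : d ∣ N)` of `X₀(N)`.
* `exists_AN_of_algebraic_forms` : two modular forms `F`, `E ≠ 0` of equal weight on `Γ₀(N)` with
  algebraic `q`-coefficients: there are `a b ∈ A_N = ℚ̄[j(q^d) : d ∣ N]`, `b ≠ 0`, with
  `F τ * ev b τ = E τ * ev a τ` for all `τ` (`ev` the analytic realisation of the S24 closure).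
* `exists_AN_of_algebraic_form_div_disc` : the case `E = Δ ^ n`; `exists_AN_of_root` : the same in
  the shape of the hypothesis `hroot` of ANDIV (`A ^ m * ev b = B ^ m * ev a`, `B = Δ ^ w`).

Route: the landed Sturm relation of S28 (`helper1448.IsRatio.exists_relation`, degree
`≤ [SL₂(ℤ) : Γ₀(N)]` over `ℂ[j]`) is descended to `ℚ̄` by a `ℚ̄`-linear functional; the landed S24
degree `[F_N : ℚ̄(j)] = [SL₂(ℤ) : Γ₀(N)]` and the spanning lemma `helper1448.span_abstract` give
the membership; the identity theorem for convergent Laurent series (`helper1944`) gives the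
function identity.
-/

set_option autoImplicit false

open UpperHalfPlane ModularForm CongruenceSubgroup ModularCurve IntermediateField
open scoped MatrixGroups

namespace Fermat.Agent.S29.helper5517

noncomputable section

/-! ### Generic algebra -/

section Generic

variable {K : Type*} [Field K]

/-- A `K`-linear functional on `ℂ` (for the structure given by `κ`) not vanishing at a given
nonzero element. -/
theorem exists_functional_complex_ne_zero (κ : K →+* ℂ) {v : ℂ} (hv : v ≠ 0) :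
    ∃ π : ℂ →+ K, (∀ (c : K) (l : ℂ), π (κ c * l) = c * π l) ∧ π v ≠ 0 := by
  let _ : Algebra K ℂ := κ.toAlgebra
  have h := (Module.forall_dual_apply_eq_zero_iff K v).not.mpr hv
  push Not at h
  obtain ⟨φ, hφ⟩ := h
  refine ⟨φ.toAddMonoidHom, ?_, hφ⟩
  intro c l
  have : κ c * l = c • l := by
    rw [Algebra.smul_def]
    rfl
  rw [this]
  exact φ.map_smul c l

/-- **Descent of a relation.** A nontrivial `ℂ`-linear relation among the `y^a x^i`, where `x`, `y`
are Laurent series with coefficients in a subfield `κ : K → ℂ`, yields a nontrivial `K`-linear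
relation. -/
theorem descent_rel (κ : K →+* ℂ) {D m : ℕ} (x y : LaurentSeries K)
    (c : Fin (D + 1) → Fin (m + 1) → ℂ) (hc : c ≠ 0)
    (h : ∑ a : Fin (D + 1), ∑ i : Fin (m + 1),
      c a i • (coeffMap κ y ^ (a : ℕ) * coeffMap κ x ^ (i : ℕ)) = 0) :
    ∃ c' : Fin (D + 1) → Fin (m + 1) → K, c' ≠ 0 ∧
      ∑ a : Fin (D + 1), ∑ i : Fin (m + 1),
        algebraMap K (LaurentSeries K) (c' a i) * (y ^ (a : ℕ) * x ^ (i : ℕ)) = 0 := by
  obtain ⟨a0, i0, h0⟩ : ∃ a i, c a i ≠ 0 := by
    by_contra hcon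
    push Not at hcon
    exact hc (funext fun a => funext fun i => hcon a i)
  obtain ⟨π, hπ, hπ0⟩ := exists_functional_complex_ne_zero κ h0
  refine ⟨fun a i => π (c a i), fun hz => hπ0 (congrFun (congrFun hz a0) i0), ?_⟩
  ext n
  have hn := congrArg (fun z => z.coeff n) h
  simp only [HahnSeries.coeff_sum, HahnSeries.coeff_smul, HahnSeries.coeff_zero, ← map_pow,
    ← map_mul, coeffMap_coeff] at hn
  simp only [HahnSeries.coeff_sum, HahnSeries.coeff_zero,
    Fermat.Agent.S24.helper3176.coeff_algebraMap_mul]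
  have hn' := congrArg π hn
  rw [map_zero, map_sum] at hn'
  rw [← hn']
  refine Finset.sum_congr rfl fun a _ => ?_
  rw [map_sum]
  refine Finset.sum_congr rfl fun i _ => ?_
  rw [smul_eq_mul, mul_comm (c a i), hπ, mul_comm]

/-- Polynomial form of a relation. -/
theorem exists_poly_of_rel {E : Type*} [CommRing E] [Algebra K E] {D m : ℕ} (x y : E)
    (c : Fin (D + 1) → Fin (m + 1) → K) (hc : c ≠ 0)
    (h : ∑ a : Fin (D + 1), ∑ i : Fin (m + 1),
      algebraMap K E (c a i) * (y ^ (a : ℕ) * x ^ (i : ℕ)) = 0) :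
    ∃ P : Polynomial (Polynomial K), P ≠ 0 ∧ P.natDegree ≤ m ∧
      Polynomial.eval₂ (Polynomial.aeval y : Polynomial K →ₐ[K] E).toRingHom x P = 0 := by
  classical
  obtain ⟨a0, i0, h0⟩ : ∃ a i, c a i ≠ 0 := by
    by_contra hcon
    push Not at hcon
    exact hc (funext fun a => funext fun i => hcon a i)
  refine ⟨∑ a : Fin (D + 1), ∑ i : Fin (m + 1),
    Polynomial.monomial (i : ℕ) (Polynomial.monomial (a : ℕ) (c a i)), ?_, ?_, ?_⟩
  · intro hP
    have h1 := congrArg (fun P : Polynomial (Polynomial K) => (P.coeff (i0 : ℕ)).coeff (a0 : ℕ)) hP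
    simp only [Polynomial.finsetSum_coeff, Polynomial.coeff_monomial, Polynomial.coeff_zero] at h1
    rw [Finset.sum_eq_single a0] at h1
    · rw [Finset.sum_eq_single i0] at h1
      · simp at h1
        exact h0 h1
      · intro i _ hi
        rw [if_neg (fun h => hi (Fin.ext h))]
        simp
      · intro hi; exact absurd (Finset.mem_univ _) hi
    · intro a _ ha
      refine Finset.sum_eq_zero fun i _ => ?_
      split_ifs with h
      · rw [Polynomial.coeff_monomial, if_neg (fun h' => ha (Fin.ext h'))]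
      · simp
    · intro ha; exact absurd (Finset.mem_univ _) ha
  · refine Polynomial.natDegree_sum_le_of_forall_le _ _ fun a _ => ?_
    refine Polynomial.natDegree_sum_le_of_forall_le _ _ fun i _ => ?_
    exact (Polynomial.natDegree_monomial_le _).trans (Nat.lt_succ_iff.mp i.2)
  · rw [Polynomial.eval₂_finsetSum, ← h]
    refine Finset.sum_congr rfl fun a _ => ?_
    rw [Polynomial.eval₂_finsetSum]
    refine Finset.sum_congr rfl fun i _ => ?_
    rw [Polynomial.eval₂_monomial]
    simp only [AlgHom.toRingHom_eq_coe, RingHom.coe_coe, Polynomial.aeval_monomial]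
    rw [mul_assoc]

/-- A root of a nonzero two-variable polynomial `P(j, X)` of `X`-degree `≤ m`, `j` transcendental,
is integral over `K⟮j⟯` of degree `≤ m`. -/
theorem isIntegral_and_natDegree_le {E : Type*} [Field E] [Algebra K E] {m : ℕ} (j x : E)
    (hj : Transcendental K j) (P : Polynomial (Polynomial K)) (hP : P ≠ 0)
    (hdeg : P.natDegree ≤ m)
    (hroot : Polynomial.eval₂ (Polynomial.aeval j : Polynomial K →ₐ[K] E).toRingHom x P = 0) :
    IsIntegral K⟮j⟯ x ∧ (minpoly K⟮j⟯ x).natDegree ≤ m := by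
  let φ : Polynomial K →+* K⟮j⟯ :=
    (Polynomial.aeval (IntermediateField.AdjoinSimple.gen K j) :
      Polynomial K →ₐ[K] K⟮j⟯).toRingHom
  have hcomp : (algebraMap K⟮j⟯ E).comp φ =
      (Polynomial.aeval j : Polynomial K →ₐ[K] E).toRingHom := by
    refine Polynomial.ringHom_ext (fun a => ?_) ?_
    · simp [φ]
    · simp [φ]
  have hφ : Function.Injective φ := by
    intro p q hpq
    have := congrArg (algebraMap K⟮j⟯ E) hpq
    rw [← RingHom.comp_apply, ← RingHom.comp_apply, hcomp] at this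
    exact (transcendental_iff_injective.mp hj) this
  have hPK : P.map φ ≠ 0 := (Polynomial.map_ne_zero_iff hφ).mpr hP
  have hroot' : Polynomial.aeval x (P.map φ) = 0 := by
    rw [Polynomial.aeval_def, Polynomial.eval₂_map, hcomp]
    exact hroot
  have hint : IsIntegral K⟮j⟯ x := isAlgebraic_iff_isIntegral.mp ⟨P.map φ, hPK, hroot'⟩
  exact ⟨hint, (Polynomial.natDegree_le_natDegree
    (minpoly.degree_le_of_ne_zero _ _ hPK hroot')).trans
    ((Polynomial.natDegree_map_le).trans hdeg)⟩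

end Generic

/-! ### The field of ratios over `ℚ̄` -/

section Modular

open Fermat.Agent.S24.helper24

local notation "κ" => Fermat.Agent.S24.helper1944.kappa
local notation "Δ" => ModularForm.discriminant

/-- The Prelude's formal `j` over `ℂ` is the ratio of the `q`-expansions of `E₄³` and `Δ`. -/
theorem bridgeJ : Fermat.Agent.S28.helper1448.BridgeJ := by
  unfold Fermat.Agent.S28.helper1448.BridgeJ
  rw [mul_comm]
  exact Fermat.Agent.Lib.helper1219.jqModC_mul_disc

/-- The formal `j` with coefficients in `ℚ̄`. -/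
def jS : LaurentSeries Kbar := coeffEmb Kbar jq

theorem coeffMap_kappa_jS : coeffMap κ jS = jqModC ℂ := by
  rw [jS, Fermat.Agent.S29.helper6961.coeffMap_coeffEmb_eq]
  exact Fermat.Agent.S28.helper1448.toC_jq

theorem transcendental_jS : Transcendental Kbar jS :=
  Fermat.Agent.S24.helper3176.transcendental_coeffEmb_jq Kbar

/-- The field of Laurent series over `ℚ̄` whose image over `ℂ` is a ratio of `q`-expansions of
two modular forms of equal weight on `Γ₀(N)`. -/
def ratioBar (N : ℕ) : Subfield (LaurentSeries Kbar) :=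
  (Fermat.Agent.S28.helper1448.ratioField N).comap (coeffMap κ)

theorem mem_ratioBar {N : ℕ} {y : LaurentSeries Kbar} :
    y ∈ ratioBar N ↔ Fermat.Agent.S28.helper1448.IsRatio N (coeffMap κ y) := Iff.rfl

theorem algebraMap_mem_ratioBar (N : ℕ) (c : Kbar) :
    algebraMap Kbar (LaurentSeries Kbar) c ∈ ratioBar N := by
  rw [mem_ratioBar, algebraMap_laurentSeries_eq_single, coeffMap_single]
  exact Fermat.Agent.S28.helper1448.IsRatio.const (κ c)

theorem jS_mem_ratioBar (N : ℕ) : jS ∈ ratioBar N := by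
  rw [mem_ratioBar, coeffMap_kappa_jS]
  exact Fermat.Agent.S28.helper1448.isRatio_j bridgeJ N

theorem jSeries_mem_ratioBar {N d : ℕ} [NeZero d] (hd : d ∣ N) : jSeries d ∈ ratioBar N := by
  rw [mem_ratioBar]
  have h : coeffMap κ (jSeries d) = qExpand ℂ d (jqModC ℂ) := by
    rw [Fermat.Agent.S24.helper3176.jSeries_eq_qExpand,
      Fermat.Agent.S24.helper3176.coeffMap_qExpand]
    congr 1
    exact coeffMap_kappa_jS
  rw [h]
  exact Fermat.Agent.S28.helper1448.isRatio_jd bridgeJ hd

/-- Every element of `ratioBar N` is integral of degree `≤ [SL₂(ℤ) : Γ₀(N)]` over `ℚ̄(j)`. -/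
theorem isIntegral_of_mem_ratioBar (N : ℕ) [NeZero N] {y : LaurentSeries Kbar}
    (hy : y ∈ ratioBar N) :
    IsIntegral Kbar⟮jS⟯ y ∧ (minpoly Kbar⟮jS⟯ y).natDegree ≤ (Gamma0 N).index := by
  obtain ⟨D, c, hc, hrel⟩ := (mem_ratioBar.mp hy).exists_relation (y := jqModC ℂ) bridgeJ
  rw [← coeffMap_kappa_jS] at hrel
  obtain ⟨c', hc', hrel'⟩ := descent_rel κ y jS c hc hrel
  obtain ⟨P, hP, hdeg, hroot⟩ := exists_poly_of_rel y jS c' hc' hrel'
  exact isIntegral_and_natDegree_le jS y transcendental_jS P hP hdeg hroot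

/-- The function field of `X₀(N)` over `ℚ̄` consists of ratios of forms. -/
theorem mem_ratioBar_of_mem_FN (N : ℕ) {f : LaurentSeries Kbar}
    (hf : f ∈ modularFunctionFieldBar N) : f ∈ ratioBar N := by
  have h1 : modularFunctionFieldBar N = adjoin Kbar (Fermat.Agent.S24.helper3176.genSet Kbar N) :=
    Fermat.Agent.S24.helper3176.laurentBaseChange_full_eq_adjoin Kbar N
  rw [h1] at hf
  let R : IntermediateField Kbar (LaurentSeries Kbar) :=
    (ratioBar N).toIntermediateField (algebraMap_mem_ratioBar N)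
  have hle : adjoin Kbar (Fermat.Agent.S24.helper3176.genSet Kbar N) ≤ R := by
    rw [IntermediateField.adjoin_le_iff]
    intro x hx
    obtain ⟨d, hd0, hd, rfl⟩ := (Fermat.Agent.S24.helper3176.mem_genSet_iff Kbar).mp hx
    exact jSeries_mem_ratioBar hd
  exact hle hf

/-- **Membership.** A Laurent series over `ℚ̄` whose image over `ℂ` is a ratio of `q`-expansions
of two modular forms of equal weight on `Γ₀(N)` lies in the function field of `X₀(N)` over `ℚ̄`. -/
theorem mem_FN_of_mem_ratioBar (N : ℕ) [NeZero N] {y : LaurentSeries Kbar}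
    (hy : y ∈ ratioBar N) : y ∈ modularFunctionFieldBar N := by
  classical
  obtain ⟨hfd, hrank⟩ := Fermat.Agent.S24.helper167.stmt_JFinrank_of
    (fun N _ => Fermat.Agent.S24.helper6180.evDatum N)
    Fermat.Agent.S24.helper1200.stmt_LocalInf N
  have hidx : Module.finrank Kbar⟮jBar N⟯ (FN N) = (Gamma0 N).index := hrank
  have : Module.Free Kbar⟮jBar N⟯ (FN N) := Module.Free.of_divisionRing _ _
  let B : Module.Basis (Fin (Module.finrank Kbar⟮jBar N⟯ (FN N))) Kbar⟮jBar N⟯ (FN N) :=
    Module.finBasis Kbar⟮jBar N⟯ (FN N)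
  let val : FN N →ₐ[Kbar] LaurentSeries Kbar := (modularFunctionFieldBar N).val
  have hjval : val (jBar N) = jS := Fermat.Agent.S24.helper24.coe_jBar N
  have hK2FN : Kbar⟮jS⟯ ≤ modularFunctionFieldBar N := by
    rw [adjoin_simple_le_iff, ← hjval]
    exact (jBar N).2
  let R : IntermediateField Kbar (LaurentSeries Kbar) :=
    (ratioBar N).toIntermediateField (algebraMap_mem_ratioBar N)
  have hK2R : Kbar⟮jS⟯ ≤ R := by
    rw [adjoin_simple_le_iff]
    exact jS_mem_ratioBar N
  let L : IntermediateField Kbar⟮jS⟯ (LaurentSeries Kbar) := IntermediateField.extendScalars hK2R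
  let yfam : Fin (Module.finrank Kbar⟮jBar N⟯ (FN N)) → LaurentSeries Kbar := fun i => val (B i)
  have hmap : ∀ c : Kbar⟮jS⟯, ∃ c' : Kbar⟮jBar N⟯, val (c' : FN N) = (c : LaurentSeries Kbar) := by
    intro c
    have h1 : (Kbar⟮jBar N⟯).map val = Kbar⟮jS⟯ := by
      rw [IntermediateField.adjoin_map, Set.image_singleton, hjval]
    have h2 : (c : LaurentSeries Kbar) ∈ (Kbar⟮jBar N⟯).map val := by
      rw [h1]
      exact c.2
    obtain ⟨c', hc', hcc⟩ := h2
    exact ⟨⟨c', hc'⟩, hcc⟩
  have hind : LinearIndependent Kbar⟮jS⟯ yfam := by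
    rw [Fintype.linearIndependent_iff]
    intro g hg i
    choose g' hg' using hmap
    have h0 : ∑ i, g' (g i) • B i = 0 := by
      apply Subtype.val_injective
      have h3 : val (∑ i, g' (g i) • B i) = ∑ i, g i • yfam i := by
        rw [map_sum]
        refine Finset.sum_congr rfl fun i _ => ?_
        rw [Algebra.smul_def, map_mul, Algebra.smul_def]
        congr 1
        exact hg' (g i)
      exact h3.trans hg
    have h4 := (Fintype.linearIndependent_iff.mp B.linearIndependent) (fun i => g' (g i)) h0 i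
    apply Subtype.ext
    rw [← hg' (g i), h4]
    simp
  have hmem := Fermat.Agent.S28.helper1448.span_abstract (K := Kbar⟮jS⟯) L
    (fun z hz => by
      have hz' : z ∈ ratioBar N := hz
      have := isIntegral_of_mem_ratioBar N hz'
      rw [← hidx] at this
      exact this)
    yfam (fun i => mem_ratioBar_of_mem_FN N (B i).2) hind y hy
  obtain ⟨c, hc⟩ := (Submodule.mem_span_range_iff_exists_fun _).mp hmem
  rw [← hc]
  refine sum_mem fun i _ => ?_
  rw [Algebra.smul_def]
  exact mul_mem (hK2FN (c i).2) (B i).2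

theorem mem_FN_of_isRatio (N : ℕ) [NeZero N] (y : LaurentSeries Kbar)
    (hy : Fermat.Agent.S28.helper1448.IsRatio N (coeffMap κ y)) :
    y ∈ modularFunctionFieldBar N :=
  mem_FN_of_mem_ratioBar N hy

end Modular

/-! ### Forms with algebraic `q`-coefficients -/

section Forms

open Fermat.Agent.S24.helper24
open Fermat.Agent.S28.helper1448 (IsMF ιC)

local notation "κ" => Fermat.Agent.S24.helper1944.kappa
local notation "Δ" => ModularForm.discriminant

/-- An algebraic complex number lies in the image of the fixed embedding `κ : ℚ̄ → ℂ`. -/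
theorem exists_kappa_eq_of_isAlgebraic {z : ℂ} (hz : IsAlgebraic ℚ z) : ∃ c : Kbar, κ c = z := by
  let _ : Algebra Kbar ℂ := (κ : Kbar →+* ℂ).toAlgebra
  have hst : IsScalarTower ℚ Kbar ℂ := IsScalarTower.of_algebraMap_eq fun r => by
    show algebraMap ℚ ℂ r = κ (algebraMap ℚ Kbar r)
    rw [Fermat.Agent.S24.helper1944.kappa_algebraMap_rat, eq_ratCast]
  obtain ⟨c, hc⟩ := Fermat.Agent.S29.helper6961.mem_range_of_isAlgebraic (K := Kbar) (Ω := ℂ)
    (IsAlgebraic.tower_top Kbar hz)
  exact ⟨c, hc⟩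

/-- A power series with algebraic coefficients is the coefficientwise image of a Laurent series
over `ℚ̄`. -/
theorem exists_coeffMap_eq_ofPowerSeries (P : PowerSeries ℂ)
    (hP : ∀ m, IsAlgebraic ℚ (P.coeff m)) :
    ∃ p : LaurentSeries Kbar, coeffMap κ p = ιC P := by
  refine Fermat.Agent.S29.helper6961.exists_coeffMap_eq_of_coeff_mem_range κ (ιC P) fun n => ?_
  rcases lt_or_ge n 0 with hn | hn
  · rw [Fermat.Agent.S24.helper1944.ofPowerSeries_coeff_neg P hn]
    exact ⟨0, map_zero _⟩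
  · lift n to ℕ using hn
    rw [HahnSeries.ofPowerSeries_apply_coeff]
    exact exists_kappa_eq_of_isAlgebraic (hP n)

/-- The `q`-expansion of a modular form on `Γ₀(N)` converges to the form. -/
theorem hasSum_lsTerm_qExpansion {N : ℕ} {k : ℤ} {F : ℍ → ℂ} (hF : IsMF N k F) (τ : ℍ) :
    HasSum (Fermat.Agent.S24.helper1944.lsTerm (ιC (qExpansion 1 F))
      (Fermat.Agent.S24.helper1944.qq τ)) (F τ) := by
  obtain ⟨G, rfl⟩ := hF
  have hΓ := Fermat.Agent.S28.helper1448.IsMF.one_mem_strictPeriods N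
  have : Fact (IsCusp OnePoint.infty (Fermat.Agent.S28.helper1448.G0 N)) :=
    ⟨(Fermat.Agent.S28.helper1448.G0 N).isCusp_of_mem_strictPeriods one_pos hΓ⟩
  have h := ModularForm.hasSum_qExpansion G one_pos hΓ τ
  have h2 := (Fermat.Agent.S24.helper1944.hasSum_single_mul_ofPowerSeries 0 (qExpansion 1 G)
    (Fermat.Agent.S24.helper1944.qq_ne_zero τ) (G τ)).mpr h
  simpa using h2

/-- **Core form.**  Let `F`, `E ≠ 0` be modular forms of the same weight on `Γ₀(N)` whose
`q`-expansions are the coefficientwise images of Laurent series `p`, `e` over `ℚ̄`.  Then there are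
`a b ∈ A_N = ℚ̄[j(q^d) : d ∣ N]`, `b ≠ 0`, with `a * e = p * b` as series over `ℚ̄` and
`F * ev b = E * ev a` on the upper half plane. -/
theorem exists_AN_of_coeffMap_eq (N : ℕ) [NeZero N] (k : ℤ) (F E : ℍ → ℂ)
    (hF : IsMF N k F) (hE : IsMF N k E) (hE0 : E ≠ 0) (p e : LaurentSeries Kbar)
    (hp : coeffMap κ p = ιC (qExpansion 1 F)) (he : coeffMap κ e = ιC (qExpansion 1 E)) :
    ∃ a b : Fermat.Agent.S24.helper3176.AN N, b ≠ 0 ∧
      ((a : FN N) : LaurentSeries Kbar) * e = p * ((b : FN N) : LaurentSeries Kbar) ∧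
      ∀ τ : ℍ, F τ * Fermat.Agent.S24.helper6180.ev N b τ
        = E τ * Fermat.Agent.S24.helper6180.ev N a τ := by
  have hEne : ιC (qExpansion 1 E) ≠ 0 := hE.ιC_qExpansion_ne_zero hE0
  have he0 : e ≠ 0 := by
    rintro rfl
    rw [map_zero] at he
    exact hEne he.symm
  have hy : p / e ∈ ratioBar N := by
    rw [mem_ratioBar, map_div₀, hp, he]
    exact ⟨k, F, E, hF, hE, hE0, mul_div_cancel₀ _ hEne⟩
  have hyFN := mem_FN_of_mem_ratioBar N hy
  obtain ⟨a, b, hb, hab⟩ := Fermat.Agent.S24.helper3176.exists_div_AN N ⟨p / e, hyFN⟩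
  have h1 : ((a : FN N) : LaurentSeries Kbar) = p / e * ((b : FN N) : LaurentSeries Kbar) := by
    have h2 : (a : FN N) = (⟨p / e, hyFN⟩ : FN N) * (b : FN N) := by
      rw [hab, div_mul_cancel₀ _ hb]
    exact congrArg (fun z : FN N => (z : LaurentSeries Kbar)) h2
  refine ⟨a, b, fun h => hb (by rw [h]; rfl), ?_, fun τ => ?_⟩
  · rw [h1]
    field_simp
  have hser : coeffMap κ ((a : FN N) : LaurentSeries Kbar) * ιC (qExpansion 1 E)
      = ιC (qExpansion 1 F) * coeffMap κ ((b : FN N) : LaurentSeries Kbar) := by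
    rw [h1, map_mul, map_div₀, hp, he]
    field_simp
  have ha := (Fermat.Agent.S24.helper1944.convS_of_mem_AN N (a : FN N) a.2).hasSum τ
  have hb' := (Fermat.Agent.S24.helper1944.convS_of_mem_AN N (b : FN N) b.2).hasSum τ
  have hFs := hasSum_lsTerm_qExpansion hF τ
  have hEs := hasSum_lsTerm_qExpansion hE τ
  have hz := Fermat.Agent.S24.helper1944.qq_ne_zero τ
  have h3 := Fermat.Agent.S24.helper1944.hasSum_lsTerm_mul hz ha hEs
  have h4 := Fermat.Agent.S24.helper1944.hasSum_lsTerm_mul hz hFs hb'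
  rw [hser] at h3
  have h5 := h3.unique h4
  rw [Fermat.Agent.S29.helper42.ev_eq_evFun, Fermat.Agent.S29.helper42.ev_eq_evFun]
  show F τ * Fermat.Agent.S24.helper1944.evS ((b : FN N) : LaurentSeries Kbar) τ
    = E τ * Fermat.Agent.S24.helper1944.evS ((a : FN N) : LaurentSeries Kbar) τ
  rw [← h5, mul_comm]

/-- **Forms with algebraic `q`-coefficients give elements of the `ℚ̄` function field, with their
analytic realisation.**  Let `F`, `E ≠ 0` be modular forms of the same weight on `Γ₀(N)` all of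
whose `q`-coefficients are algebraic numbers.  Then there are `a b ∈ A_N = ℚ̄[j(q^d) : d ∣ N]`,
`b ≠ 0`, with `F * ev b = E * ev a` on the upper half plane: the function `F / E` is the analytic
realisation of the element `a / b` of the function field of `X₀(N)` over `ℚ̄`.  Moreover `a ≠ 0`
if `F ≠ 0`. -/
theorem exists_AN_of_algebraic_forms_ne (N : ℕ) [NeZero N] (k : ℤ) (F E : ℍ → ℂ)
    (hF : IsMF N k F) (hE : IsMF N k E) (hE0 : E ≠ 0)
    (hFalg : ∀ m, IsAlgebraic ℚ ((qExpansion 1 F).coeff m))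
    (hEalg : ∀ m, IsAlgebraic ℚ ((qExpansion 1 E).coeff m)) :
    ∃ a b : Fermat.Agent.S24.helper3176.AN N, b ≠ 0 ∧ (F ≠ 0 → a ≠ 0) ∧ ∀ τ : ℍ,
      F τ * Fermat.Agent.S24.helper6180.ev N b τ = E τ * Fermat.Agent.S24.helper6180.ev N a τ := by
  obtain ⟨p, hp⟩ := exists_coeffMap_eq_ofPowerSeries (qExpansion 1 F) hFalg
  obtain ⟨e, he⟩ := exists_coeffMap_eq_ofPowerSeries (qExpansion 1 E) hEalg
  obtain ⟨a, b, hb, hser, hfun⟩ := exists_AN_of_coeffMap_eq N k F E hF hE hE0 p e hp he
  refine ⟨a, b, hb, fun hF0 ha => ?_, hfun⟩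
  have hp0 : p ≠ 0 := by
    rintro rfl
    rw [map_zero] at hp
    exact hF.ιC_qExpansion_ne_zero hF0 hp.symm
  have hb0 : ((b : FN N) : LaurentSeries Kbar) ≠ 0 := fun h => hb (Subtype.ext (Subtype.ext h))
  rw [ha] at hser
  have h0 : p * ((b : FN N) : LaurentSeries Kbar) = 0 := by
    rw [← hser]
    show (0 : LaurentSeries Kbar) * e = 0
    rw [zero_mul]
  exact (mul_ne_zero hp0 hb0) h0

theorem exists_AN_of_algebraic_forms (N : ℕ) [NeZero N] (k : ℤ) (F E : ℍ → ℂ)
    (hF : IsMF N k F) (hE : IsMF N k E) (hE0 : E ≠ 0)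
    (hFalg : ∀ m, IsAlgebraic ℚ ((qExpansion 1 F).coeff m))
    (hEalg : ∀ m, IsAlgebraic ℚ ((qExpansion 1 E).coeff m)) :
    ∃ a b : Fermat.Agent.S24.helper3176.AN N, b ≠ 0 ∧ ∀ τ : ℍ,
      F τ * Fermat.Agent.S24.helper6180.ev N b τ = E τ * Fermat.Agent.S24.helper6180.ev N a τ := by
  obtain ⟨a, b, hb, -, h⟩ := exists_AN_of_algebraic_forms_ne N k F E hF hE hE0 hFalg hEalg
  exact ⟨a, b, hb, h⟩

/-! ### The case `E = Δ ^ n` -/

theorem isMF_disc_pow (N n : ℕ) : IsMF N (12 * (n : ℤ)) ((Δ : ℍ → ℂ) ^ n) :=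
  ((Fermat.Agent.S28.helper1448.isMF_discriminant N).pow n).cast (by ring)

theorem disc_pow_ne_zero (n : ℕ) : ((Δ : ℍ → ℂ) ^ n) ≠ 0 := by
  intro h
  have h1 := congrFun h UpperHalfPlane.I
  simp only [Pi.pow_apply, Pi.zero_apply] at h1
  exact pow_ne_zero n (ModularForm.discriminant_ne_zero UpperHalfPlane.I) h1

/-- The `q`-coefficients of `Δ ^ n` are integers, in particular algebraic. -/
theorem isAlgebraic_coeff_disc_pow (N n m : ℕ) :
    IsAlgebraic ℚ ((qExpansion 1 ((Δ : ℍ → ℂ) ^ n)).coeff m) := by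
  rw [(Fermat.Agent.S28.helper1448.isMF_discriminant N).qExpansion_pow n,
    Fermat.Agent.Lib.helper1219.qExpansion_disc_eq]
  have h : (PowerSeries.X * (etaProd.map (Int.castRingHom ℂ)) ^ 24) ^ n
      = ((PowerSeries.X * etaProd ^ 24) ^ n).map (Int.castRingHom ℂ) := by
    simp only [map_pow, map_mul, PowerSeries.map_X]
  rw [h, PowerSeries.coeff_map]
  have := isAlgebraic_intCast (R := ℚ) (A := ℂ) (PowerSeries.coeff m ((PowerSeries.X * etaProd ^ 24) ^ n))
  simpa using this

/-- **The case `E = Δ ^ n`.**  A modular form `F` of weight `12 n` on `Γ₀(N)` with algebraic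
`q`-coefficients: `F / Δ ^ n` is the analytic realisation of an element `a / b` of the function
field of `X₀(N)` over `ℚ̄`. -/
theorem exists_AN_of_algebraic_form_div_disc_ne (N : ℕ) [NeZero N] (n : ℕ) (F : ℍ → ℂ)
    (hF : IsMF N (12 * (n : ℤ)) F)
    (hFalg : ∀ m, IsAlgebraic ℚ ((qExpansion 1 F).coeff m)) :
    ∃ a b : Fermat.Agent.S24.helper3176.AN N, b ≠ 0 ∧ (F ≠ 0 → a ≠ 0) ∧ ∀ τ : ℍ,
      F τ * Fermat.Agent.S24.helper6180.ev N b τ
        = Δ τ ^ n * Fermat.Agent.S24.helper6180.ev N a τ := by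
  obtain ⟨a, b, hb, ha, h⟩ := exists_AN_of_algebraic_forms_ne N (12 * (n : ℤ)) F
    ((Δ : ℍ → ℂ) ^ n) hF (isMF_disc_pow N n) (disc_pow_ne_zero n) hFalg
    (isAlgebraic_coeff_disc_pow N n)
  exact ⟨a, b, hb, ha, fun τ => by simpa using h τ⟩

theorem exists_AN_of_algebraic_form_div_disc (N : ℕ) [NeZero N] (n : ℕ) (F : ℍ → ℂ)
    (hF : IsMF N (12 * (n : ℤ)) F)
    (hFalg : ∀ m, IsAlgebraic ℚ ((qExpansion 1 F).coeff m)) :
    ∃ a b : Fermat.Agent.S24.helper3176.AN N, b ≠ 0 ∧ ∀ τ : ℍ,
      F τ * Fermat.Agent.S24.helper6180.ev N b τ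
        = Δ τ ^ n * Fermat.Agent.S24.helper6180.ev N a τ := by
  obtain ⟨a, b, hb, -, h⟩ := exists_AN_of_algebraic_form_div_disc_ne N n F hF hFalg
  exact ⟨a, b, hb, h⟩

/-- **Root form (the hypothesis `hroot` of ANDIV).**  Let `H` be a function on the upper half
plane whose `m`-th power is a modular form of weight `12 * (m * w)` on `Γ₀(N)` with algebraic
`q`-coefficients, `H ≠ 0`.  Then there are nonzero `a b ∈ A_N` with
`H ^ m * ev b = (Δ ^ w) ^ m * ev a`: the function `H / Δ ^ w` is an analytic `m`-th root of the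
realisation of `a / b`. -/
theorem exists_AN_of_root (N : ℕ) [NeZero N] (m w : ℕ) (H : ℍ → ℂ) (hH0 : H ≠ 0)
    (hH : IsMF N (12 * ((m * w : ℕ) : ℤ)) (H ^ m))
    (hHalg : ∀ n, IsAlgebraic ℚ ((qExpansion 1 (H ^ m)).coeff n)) :
    ∃ a b : Fermat.Agent.S24.helper3176.AN N, a ≠ 0 ∧ b ≠ 0 ∧ ∀ τ : ℍ,
      H τ ^ m * Fermat.Agent.S24.helper6180.ev N b τ
        = (Δ τ ^ w) ^ m * Fermat.Agent.S24.helper6180.ev N a τ := by
  obtain ⟨a, b, hb, ha, h⟩ := exists_AN_of_algebraic_form_div_disc_ne N (m * w) (H ^ m) hH hHalg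
  have hHm : H ^ m ≠ 0 := by
    intro h0
    apply hH0
    funext τ
    have h1 := congrFun h0 τ
    simp only [Pi.pow_apply, Pi.zero_apply] at h1
    exact eq_zero_of_pow_eq_zero h1
  refine ⟨a, b, ha hHm, hb, fun τ => ?_⟩
  have h2 := h τ
  rw [Pi.pow_apply] at h2
  rw [h2, ← pow_mul, mul_comm w m]

end Forms


end

end Fermat.Agent.S29.helper5517
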