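import Fermat.Agent.S29.helper580_CPlaceFin
import Fermat.Agent.S29.helper6855_DescentModular
import Fermat.Agent.S29.helper2122_SurjAsm

/-!
# S29 / DescC (helper580): the descent hypothesis of the TH4 assembly, unconditionally

`helper2122.DescC N n` is one of the three hypotheses of `helper2122.surjAt_of`.  It follows from

* the generic-place completeness of the complex places of `X₀(N)`
  (`helper580.dvd_ord_of_pow_eq_generic`): a function with a meromorphic `n`-th root on the upper
  half plane has order divisible by `n` at every place not above `j = 0, 1728, ∞`;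
* the unconditional descent `helper6855.exists_descent_FC_bar` from `ℂ` to `ℚ̄`.

Main results:

* `jL_eq_jC` : the `j` of `helper8395` is the `j` of `helper580`;
* `kummerOff_of_pow_eq` : a function with a meromorphic `n`-th root is Kummer off the bad places;
* `exists_descent_of_pow_eq` : `x = c * baseChangeC u₀ * t ^ n`;
* `descC` : `helper2122.DescC N n` for every `N` and `n`.
-/

set_option autoImplicit false

open ModularCurve CongruenceSubgroup UpperHalfPlane AlgebraicCurve
open scoped MatrixGroups Manifold

noncomputable section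

namespace Fermat.Agent.S29.helper580

open Fermat.Agent.S24 Fermat.Agent.S24.helper24 Fermat.Agent.S24.helper580

/-- The function `j` of `helper8395` (over `ℂ`, full level `N`) is `jC N`. -/
theorem jL_eq_jC (N : ℕ) :
    Fermat.Agent.S29.helper8395.jL ℂ (modularFunctionFieldFull N)
      (Fermat.Agent.S29.helper8395.jq_mem_full N) = jC N :=
  Subtype.ext (by rw [Fermat.Agent.S29.helper8395.coe_jL, coe_jC])

variable (N : ℕ) [NeZero N]

/-- A nonzero function of `ℂ(X₀(N))` whose analytic realisation has a meromorphic `n`-th root on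
the upper half plane is Kummer off the places above `j = 0, 1728, ∞`. -/
theorem kummerOff_of_pow_eq {n : ℕ} {u : FC N} (hu : u ≠ 0) (W : Mer) (hW : W ^ n = evC N u) :
    Fermat.Agent.S29.helper8395.KummerOff ℂ n
      (Fermat.Agent.S29.helper8395.badPlaces ℂ (modularFunctionFieldFull N)
        (Fermat.Agent.S29.helper8395.jq_mem_full N)) u := by
  refine ⟨hu, fun v hv => ?_⟩
  rw [Fermat.Agent.S29.helper8395.not_mem_badPlaces_iff, jL_eq_jC] at hv
  obtain ⟨hv0, hv1⟩ := hv
  haveI := finiteDimensional_jC N
  have hc := (helper204.place_center (jC N) (transcendental_jC N) v).resolve_left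
    (by rw [hv0]; exact lt_irrefl _)
  obtain ⟨c, hc, -⟩ := hc
  have h0 : c ≠ 0 := by
    rintro rfl
    rw [map_zero, sub_zero, hv0] at hc
    exact lt_irrefl _ hc
  have h1 : c ≠ 1728 := by
    rintro rfl
    have h2 : algebraMap ℚ ℂ 1728 = (1728 : ℂ) := by
      rw [map_ofNat]
    rw [h2] at hv1
    rw [hv1] at hc
    exact lt_irrefl _ hc
  exact dvd_ord_of_pow_eq_generic N v c hc h0 h1 hu n W hW

/-- **Descent `ℂ → ℚ̄`** for a function with a meromorphic `n`-th root (`n ≠ 0`). -/
theorem exists_descent_of_pow_eq {n : ℕ} (hn : n ≠ 0) {x : FC N} (hx : x ≠ 0) (W : Mer)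
    (hW : W ^ n = evC N x) :
    ∃ (u₀ : FN N) (c : ℂ) (t : FC N), u₀ ≠ 0 ∧ c ≠ 0 ∧ t ≠ 0 ∧
      x = algebraMap ℂ (FC N) c * baseChangeC N u₀ * t ^ n :=
  Fermat.Agent.S29.helper6855.exists_descent_FC_bar N hn x (kummerOff_of_pow_eq N hx W hW)

/-- **(DESC) of the TH4 assembly**, unconditionally: `helper2122.DescC N n` holds for every level
`N` and every `n`. -/
theorem descC (n : ℕ) : Fermat.Agent.S29.helper2122.DescC N n := by
  intro χ _ _ _ W _ _ x hx hxW
  rcases Nat.eq_zero_or_pos n with hn | hn
  · subst hn
    rw [pow_zero] at hxW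
    have hx1 : x = 1 := evC_injective N (by rw [hxW, map_one])
    refine ⟨1, 1, 1, one_ne_zero, one_ne_zero, one_ne_zero, ?_⟩
    rw [hx1, map_one, map_one, pow_zero, mul_one, mul_one]
  · exact exists_descent_of_pow_eq N hn.ne' hx (algebraMap Hol Mer W) hxW.symm

end Fermat.Agent.S29.helper580
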