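import Mathlib

/-!
# S29 / M6, abstract core: occurrence of an eigensystem modulo a prime

Pure commutative algebra (Mathlib only).

* `exists_eigen_addMonoidHom` : a finite faithful module `M` over a commutative ring `R` has, for
  every ring homomorphism `lam : R →+* κ` to a field, a nonzero additive map `w : M →+ κ` with
  `w (r • m) = lam r * w m`.
* `exists_eigenvalue_of_mem_adjoin`, `eigenCharacter` : a common eigenvector of a set of operators is
  an eigenvector of the algebra they generate; the eigenvalue map is a ring homomorphism.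
* `exists_eigen_functional_of_lattice` : the packaged statement used for the period lattice.
-/

open TensorProduct

namespace Fermat.Agent.S29.helper5875

section Core

variable {R : Type*} [CommRing R] {M : Type*} [AddCommGroup M] [Module R M]

/-- **Eigen-occurrence.**  A finite faithful module over a commutative ring `R` admits, for every
ring homomorphism `lam` from `R` to a field `κ`, a nonzero `lam`-semilinear additive functional. -/
theorem exists_eigen_addMonoidHom [Module.Finite R M]
    (hfaith : ∀ r : R, (∀ m : M, r • m = 0) → r = 0)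
    {κ : Type*} [Field κ] (lam : R →+* κ) :
    ∃ w : M →+ κ, w ≠ 0 ∧ ∀ (r : R) (m : M), w (r • m) = lam r * w m := by
  classical
  let 𝔭 : Ideal R := RingHom.ker lam
  have h𝔭 : 𝔭.IsPrime := RingHom.ker_isPrime lam
  have hann : Module.annihilator R M = ⊥ := by
    rw [eq_bot_iff]
    intro r hr
    exact (Submodule.mem_bot R).2 (hfaith r (fun m => Module.mem_annihilator.1 hr m))
  have hsupp : (⟨𝔭, h𝔭⟩ : PrimeSpectrum R) ∈ Module.support R M := by
    rw [Module.support_eq_zeroLocus, hann]
    simp
  have hnt : Nontrivial (𝔭.ResidueField ⊗[R] M) :=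
    (Module.mem_support_iff_nontrivial_residueField_tensorProduct ⟨𝔭, h𝔭⟩).1 hsupp
  -- the embedding of the residue field into `κ`
  let ι : 𝔭.ResidueField →+* κ := Ideal.ResidueField.lift 𝔭 lam le_rfl (by
    intro r hr
    simp only [Submonoid.mem_comap, IsUnit.mem_submonoid_iff]
    exact isUnit_iff_ne_zero.2 (fun h => hr (RingHom.mem_ker.2 h)))
  have hι : ∀ r : R, ι (algebraMap R 𝔭.ResidueField r) = lam r := fun r =>
    Ideal.ResidueField.lift_algebraMap _ _ _ _ r
  -- a nonzero functional on the fibre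
  obtain ⟨x, hx⟩ := exists_ne (0 : 𝔭.ResidueField ⊗[R] M)
  obtain ⟨f, hf⟩ := Module.Projective.exists_dual_ne_zero 𝔭.ResidueField hx
  have hex : ∃ m : M, f (1 ⊗ₜ[R] m) ≠ 0 := by
    by_contra hcon
    push Not at hcon
    apply hf
    have hall : ∀ y : 𝔭.ResidueField ⊗[R] M, f y = 0 := by
      intro y
      induction y using TensorProduct.induction_on with
      | zero => simp
      | tmul a m =>
        have : a ⊗ₜ[R] m = a • ((1 : 𝔭.ResidueField) ⊗ₜ[R] m) := by
          rw [TensorProduct.smul_tmul', smul_eq_mul, mul_one]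
        rw [this, map_smul, hcon, smul_zero]
      | add y z hy hz => rw [map_add, hy, hz, add_zero]
    exact hall x
  obtain ⟨m₀, hm₀⟩ := hex
  let g : M →+ 𝔭.ResidueField :=
    { toFun := fun m => f (1 ⊗ₜ[R] m)
      map_zero' := by simp
      map_add' := fun a b => by rw [TensorProduct.tmul_add, map_add] }
  refine ⟨(ι : 𝔭.ResidueField →+ κ).comp g, ?_, ?_⟩
  · intro h0
    have : ι (f (1 ⊗ₜ[R] m₀)) = 0 := by
      have := DFunLike.congr_fun h0 m₀
      simpa [g] using this
    exact hm₀ ((map_eq_zero ι).1 this)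
  · intro r m
    show ι (f (1 ⊗ₜ[R] (r • m))) = lam r * ι (f (1 ⊗ₜ[R] m))
    have h1 : ((1 : 𝔭.ResidueField) ⊗ₜ[R] (r • m)) =
        (algebraMap R 𝔭.ResidueField r) • ((1 : 𝔭.ResidueField) ⊗ₜ[R] m) := by
      rw [TensorProduct.smul_tmul', ← TensorProduct.smul_tmul, Algebra.smul_def, mul_one,
        smul_eq_mul, mul_one]
    rw [h1, map_smul, smul_eq_mul, map_mul, hι]

end Core

section Eigen

variable {K : Type*} [Field K] {V : Type*} [AddCommGroup V] [Module K V]

/-- A common eigenvector of a set of operators is an eigenvector of every element of the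
`ℤ`-algebra they generate. -/
theorem exists_eigenvalue_of_mem_adjoin (G : Set (Module.End K V)) (v : V)
    (hG : ∀ T ∈ G, ∃ c : K, T v = c • v) :
    ∀ T ∈ Algebra.adjoin ℤ G, ∃ c : K, T v = c • v := by
  intro T hT
  induction hT using Algebra.adjoin_induction with
  | mem T hT => exact hG T hT
  | algebraMap n =>
    refine ⟨(n : K), ?_⟩
    rw [Algebra.algebraMap_eq_smul_one, LinearMap.smul_apply, Module.End.one_apply,
      Int.cast_smul_eq_zsmul]
  | add S T _ _ hS hT =>
    obtain ⟨a, ha⟩ := hS
    obtain ⟨b, hb⟩ := hT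
    exact ⟨a + b, by rw [LinearMap.add_apply, ha, hb, add_smul]⟩
  | mul S T _ _ hS hT =>
    obtain ⟨a, ha⟩ := hS
    obtain ⟨b, hb⟩ := hT
    exact ⟨b * a, by rw [Module.End.mul_apply, hb, map_smul, ha, smul_smul]⟩

/-- The eigenvalue of `T ∈ A` on the common eigenvector `v`. -/
noncomputable def eigVal (A : Subalgebra ℤ (Module.End K V)) (v : V)
    (hev : ∀ T ∈ A, ∃ c : K, T v = c • v) (T : A) : K :=
  Classical.choose (hev T T.2)

theorem eigVal_spec (A : Subalgebra ℤ (Module.End K V)) (v : V)
    (hev : ∀ T ∈ A, ∃ c : K, T v = c • v) (T : A) :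
    (T : Module.End K V) v = eigVal A v hev T • v :=
  Classical.choose_spec (hev T T.2)

theorem eigVal_eq (A : Subalgebra ℤ (Module.End K V)) (v : V) (hv : v ≠ 0)
    (hev : ∀ T ∈ A, ∃ c : K, T v = c • v) (T : A) {c : K}
    (hc : (T : Module.End K V) v = c • v) : eigVal A v hev T = c :=
  smul_left_injective K hv ((eigVal_spec A v hev T).symm.trans hc)

/-- The eigenvalue character of a subalgebra of operators all having `v ≠ 0` as an eigenvector. -/
noncomputable def eigenCharacter (A : Subalgebra ℤ (Module.End K V)) (v : V) (hv : v ≠ 0)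
    (hev : ∀ T ∈ A, ∃ c : K, T v = c • v) : A →+* K where
  toFun T := eigVal A v hev T
  map_one' := eigVal_eq A v hv hev 1 (by simp)
  map_mul' S T := eigVal_eq A v hv hev (S * T) (by
    rw [Subalgebra.coe_mul, Module.End.mul_apply, eigVal_spec A v hev T, map_smul,
      eigVal_spec A v hev S, smul_smul, mul_comm])
  map_zero' := eigVal_eq A v hv hev 0 (by simp)
  map_add' S T := eigVal_eq A v hv hev (S + T) (by
    rw [Subalgebra.coe_add, LinearMap.add_apply, eigVal_spec A v hev S, eigVal_spec A v hev T,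
      add_smul])

theorem eigenCharacter_spec (A : Subalgebra ℤ (Module.End K V)) (v : V) (hv : v ≠ 0)
    (hev : ∀ T ∈ A, ∃ c : K, T v = c • v) (T : A) :
    (T : Module.End K V) v = eigenCharacter A v hv hev T • v :=
  eigVal_spec A v hev T

theorem eigenCharacter_eq (A : Subalgebra ℤ (Module.End K V)) (v : V) (hv : v ≠ 0)
    (hev : ∀ T ∈ A, ∃ c : K, T v = c • v) (T : A) {c : K}
    (hc : (T : Module.End K V) v = c • v) : eigenCharacter A v hv hev T = c :=
  eigVal_eq A v hv hev T hc

/-- Eigenvalues of a `ℤ`-finite algebra of operators are algebraic integers. -/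
theorem isIntegral_eigenCharacter (A : Subalgebra ℤ (Module.End K V)) [Module.Finite ℤ A]
    (v : V) (hv : v ≠ 0) (hev : ∀ T ∈ A, ∃ c : K, T v = c • v) (T : A) :
    IsIntegral ℤ (eigenCharacter A v hv hev T) :=
  map_isIntegral_int (eigenCharacter A v hv hev) (IsIntegral.of_finite ℤ T)

end Eigen

section Lattice

variable {V : Type*} [AddCommGroup V] [Module ℂ V]

/-- **Eigen-occurrence on a period lattice.**  Let `A` be a commutative, `ℤ`-finite algebra of
operators on a complex vector space `V`, `L` a finitely generated `ℤ`-lattice of functionals on `V`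
which separates the points of `V` and is stable under `φ ↦ φ ∘ T` (`T ∈ A`), and `v ≠ 0` a common
eigenvector of `A`.  Then for every ring homomorphism `ψ` from the algebraic integers to a field
`κ` there is a nonzero additive map `w : L →+ κ` such that `w (φ ∘ T) = ψ a * w φ` whenever
`T ∈ A` has eigenvalue `a` on `v`. -/
theorem exists_eigen_functional_of_lattice
    (A : Subalgebra ℤ (Module.End ℂ V)) (hcomm : ∀ S T : A, S * T = T * S)
    [Module.Finite ℤ A]
    (L : Submodule ℤ (V →ₗ[ℂ] ℂ)) (hLfg : L.FG)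
    (hsep : ∀ v : V, (∀ φ ∈ L, φ v = 0) → v = 0)
    (hstab : ∀ T ∈ A, ∀ φ ∈ L, φ ∘ₗ T ∈ L)
    (v : V) (hv : v ≠ 0) (hev : ∀ T ∈ A, ∃ c : ℂ, T v = c • v)
    {κ : Type*} [Field κ] (ψ : integralClosure ℤ ℂ →+* κ) :
    ∃ w : L →+ κ, w ≠ 0 ∧
      ∀ (T : Module.End ℂ V) (hT : T ∈ A) (a : integralClosure ℤ ℂ), T v = (a : ℂ) • v →
        ∀ (φ : V →ₗ[ℂ] ℂ) (hφ : φ ∈ L),
          w ⟨φ ∘ₗ T, hstab T hT φ hφ⟩ = ψ a * w ⟨φ, hφ⟩ := by
  classical
  let _ : CommRing A := { (inferInstance : Ring A) with mul_comm := hcomm }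
  -- the action of `A` on `L` by transposition
  let ρfun : A → Module.End ℤ L := fun T =>
    { toFun := fun φ => ⟨(φ : V →ₗ[ℂ] ℂ) ∘ₗ (T : Module.End ℂ V), hstab T T.2 φ φ.2⟩
      map_add' := fun φ φ' => by
        apply Subtype.ext
        simp [LinearMap.add_comp]
      map_smul' := fun n φ => by
        apply Subtype.ext
        ext x
        simp }
  have hρ : ∀ (T : A) (φ : L), ((ρfun T φ : L) : V →ₗ[ℂ] ℂ) =
      (φ : V →ₗ[ℂ] ℂ) ∘ₗ (T : Module.End ℂ V) := fun _ _ => rfl
  let ρ : A →+* Module.End ℤ L :=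
    { toFun := ρfun
      map_one' := by
        ext φ : 1
        apply Subtype.ext
        rw [hρ]
        ext x
        simp
      map_mul' := fun S T => by
        ext φ : 1
        apply Subtype.ext
        rw [hρ, Module.End.mul_apply, hρ, hρ, hcomm S T]
        ext x
        simp
      map_zero' := by
        ext φ : 1
        apply Subtype.ext
        rw [hρ]
        ext x
        simp
      map_add' := fun S T => by
        ext φ : 1
        apply Subtype.ext
        rw [hρ, LinearMap.add_apply, Submodule.coe_add, hρ, hρ]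
        ext x
        simp }
  let _ : Module A L := Module.compHom L ρ
  have hsmul : ∀ (T : A) (φ : L), ((T • φ : L) : V →ₗ[ℂ] ℂ) =
      (φ : V →ₗ[ℂ] ℂ) ∘ₗ (T : Module.End ℂ V) := fun _ _ => rfl
  have : Module.Finite ℤ L := Module.Finite.iff_fg.2 hLfg
  have : IsScalarTower ℤ A L := ⟨fun n T φ => by
    apply Subtype.ext
    rw [hsmul, Submodule.coe_smul, hsmul]
    ext x
    simp⟩
  have : Module.Finite A L := Module.Finite.of_restrictScalars_finite ℤ A L
  have hfaith : ∀ T : A, (∀ φ : L, T • φ = 0) → T = 0 := by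
    intro T hT
    apply Subtype.ext
    ext x
    apply hsep
    intro φ hφ
    have := congrArg (fun ψ' : L => (ψ' : V →ₗ[ℂ] ℂ) x) (hT ⟨φ, hφ⟩)
    simpa [hsmul] using this
  -- the eigencharacter, with values in the algebraic integers
  let lam0 : A →+* ℂ := eigenCharacter A v hv hev
  let lam1 : A →+* integralClosure ℤ ℂ :=
    lam0.codRestrict (integralClosure ℤ ℂ) (fun T => isIntegral_eigenCharacter A v hv hev T)
  obtain ⟨w, hw0, hw⟩ := exists_eigen_addMonoidHom (M := L) hfaith (ψ.comp lam1)
  refine ⟨w, hw0, ?_⟩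
  intro T hT a ha φ hφ
  have h1 : lam1 ⟨T, hT⟩ = a := by
    apply Subtype.ext
    exact eigenCharacter_eq A v hv hev ⟨T, hT⟩ ha
  have h2 := hw ⟨T, hT⟩ ⟨φ, hφ⟩
  rw [RingHom.comp_apply, h1] at h2
  exact h2

end Lattice

end Fermat.Agent.S29.helper5875
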