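/-
S29-GENUSGE, part 1 (helper659): the space of weight-12 modular forms on `Γ₀(N)` has dimension at
most `[SL₂(ℤ) : Γ₀(N)] + 1 - dim S₂(Γ₀(N))`.

This is read off from the landed S20 free basis of `⨁ M_k(Γ₀(N))` over `⨁ M_k(SL₂(ℤ))`
(weights `κ x ∈ {0, 2, …, 10}`, exactly one weight `0`, and `#{κ = 10} = dim S₂`) together with
Mathlib's level one dimension formula: `M₁₂(Γ₀(N)) = ⨁ₓ M_{12 - κ x}(SL₂(ℤ)) · G x`, and the
level one dimensions are `2, 1, 1, 1, 1, 0` for the weights `12, 10, 8, 6, 4, 2`.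
-/
import Fermat.Agent.S20.helper1040_Assembly
import Fermat.Agent.S20.helper1235_StmtFree1040
import Fermat.Agent.S20.helper116_Sep
import Fermat.Agent.S20.helper1559_Liouville
import Fermat.Agent.S20.helper2507_Basic
import Fermat.Agent.S20.helper1177_CuspFact
import Fermat.Agent.S20.helper4608_Dual
import Fermat.Agent.S20.helper2805_RRdim

set_option autoImplicit false

open UpperHalfPlane ModularForm Matrix.SpecialLinearGroup CongruenceSubgroup
open scoped MatrixGroups ModularForm Manifold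

namespace Fermat.Agent.S29.helper659

open Fermat.Agent.S20.helper1040

noncomputable section

/-- The space of modular forms of weight `k` and level `Γ`, as a space of functions. -/
def mfSpace (Γ : Subgroup SL(2, ℤ)) (k : ℤ) : Submodule ℂ (ℍ → ℂ) where
  carrier := {f | IsMF Γ k f}
  zero_mem' := isMF_zero Γ k
  add_mem' := fun hf hg => hf.add hg
  smul_mem' := fun c _ hf => hf.smul c

theorem mem_mfSpace {Γ : Subgroup SL(2, ℤ)} {k : ℤ} {f : ℍ → ℂ} :
    f ∈ mfSpace Γ k ↔ IsMF Γ k f := Iff.rfl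

/-- The level one dimension formula for all integer weights, as a `finrank`. -/
theorem finrank_levelOne_int (k : ℤ) :
    Module.finrank ℂ (ModularForm 𝒮ℒ k) =
      if k < 0 ∨ Odd k then 0 else if k % 12 = 2 then (k / 12).toNat else (k / 12).toNat + 1 := by
  rw [← Fermat.Agent.S20.helper2805.finrank_MFG]
  exact Fermat.Agent.S20.helper2805.goal_RRdim k

/-- The level one dimension in the weights `12 - κ`, `κ ∈ {0, 2, 4, 6, 8, 10}`. -/
theorem finrank_levelOne_twelve_sub {κ : ℤ} (hκ : κ ∈ wts) :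
    (Module.finrank ℂ (ModularForm 𝒮ℒ (12 - κ)) : ℤ) =
      1 + (if κ = 0 then 1 else 0) - (if κ = 10 then 1 else 0) := by
  rw [finrank_levelOne_int]
  simp only [wts, Finset.mem_insert, Finset.mem_singleton] at hκ
  rcases hκ with rfl | rfl | rfl | rfl | rfl | rfl <;> decide

/-- The structural facts of the S20 free basis of level `Γ₀(N)`. -/
theorem exists_freeBasis_facts (N : ℕ) [NeZero N]
    [Fintype (SL(2, ℤ) ⧸ Gamma0 N)] [DecidableEq (SL(2, ℤ) ⧸ Gamma0 N)] :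
    ∃ (κ : SL(2, ℤ) ⧸ Gamma0 N → ℤ) (G : SL(2, ℤ) ⧸ Gamma0 N → ℍ → ℂ),
      IsFreeBasis (Gamma0 N) κ G ∧ (∀ x, κ x ∈ wts) ∧
      (Finset.univ.filter fun x => κ x = 0).card = 1 ∧
      Module.finrank ℂ (CuspForm (Gamma0 N) 2) = (Finset.univ.filter fun x => κ x = 10).card := by
  have hFreeX : Stmt_FreeX (Gamma0 N) :=
    stmt_freeX_of _ (Fermat.Agent.S20.helper1235.stmt_Free N) (Fermat.Agent.S20.helper116.stmt_Sep N)
  have hLiou : Stmt_Liouville (Gamma0 N) := Fermat.Agent.S20.helper1559.stmt_liouville _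
  have hBasic : Stmt_Basic (Gamma0 N) := Fermat.Agent.S20.helper2507.stmt_basic _ (by
    rw [CongruenceSubgroup.Gamma0_mem]
    simp)
  have hCusp : Stmt_CuspFact (Gamma0 N) := Fermat.Agent.S20.helper1177.stmt_CuspFact _
  have hDual : Stmt_Dual (Gamma0 N) := Fermat.Agent.S20.helper4608.stmt_dual _
  obtain ⟨κ, G, hB, z₀, hz₀⟩ := hFreeX
  obtain ⟨c, hc⟩ := hLiou κ G hB
  have hc0 : c ≠ 0 := by
    rintro rfl
    have h := hc z₀
    rw [zero_mul] at h
    exact hz₀ (pow_eq_zero_iff (by norm_num) |>.mp h)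
  have hdet : ∀ z : ℍ, (Phi (Gamma0 N) κ G z).det ≠ 0 := by
    intro z h
    have h1 := hc z
    rw [h, zero_pow (by norm_num)] at h1
    have h2 : (ModularForm.discriminant z) ^ (∑ x, κ x) ≠ 0 :=
      zpow_ne_zero _ (discriminant_ne_zero z)
    exact (mul_ne_zero hc0 h2) h1.symm
  obtain ⟨hnonneg, heven, hzero⟩ := hBasic κ G hB
  obtain ⟨U, Λ, s, hCD⟩ := hCusp κ G hB heven
  obtain ⟨hlt, hfin⟩ := hDual κ G U Λ s hB heven hdet hCD
  have hκ : ∀ x, κ x ∈ wts := by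
    intro x
    have h1 := hnonneg x
    have h2 := hlt x
    obtain ⟨m, hm⟩ := heven x
    simp only [wts, Finset.mem_insert, Finset.mem_singleton]
    omega
  rw [natCard_subtype_eq] at hzero hfin
  exact ⟨κ, G, hB, hκ, hzero, hfin⟩

/-- The span map of a coset-indexed family: `(A x)ₓ ↦ ∑ₓ A x · G x`, with `A x` of level one and
weight `k - κ x`. -/
def spanMap {X : Type} [Fintype X] (κ : X → ℤ) (G : X → ℍ → ℂ) (k : ℤ) :
    ((x : X) → ModularForm 𝒮ℒ (k - κ x)) →ₗ[ℂ] (ℍ → ℂ) :=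
  ∑ x, (LinearMap.mulRight ℂ (G x)) ∘ₗ
    (Fermat.Agent.S20.helper2805.mfCoe 𝒮ℒ (k - κ x)) ∘ₗ (LinearMap.proj x)

theorem spanMap_apply {X : Type} [Fintype X] (κ : X → ℤ) (G : X → ℍ → ℂ) (k : ℤ)
    (A : (x : X) → ModularForm 𝒮ℒ (k - κ x)) :
    spanMap κ G k A = ∑ x, (⇑(A x) : ℍ → ℂ) * G x := by
  simp only [spanMap, LinearMap.sum_apply, LinearMap.comp_apply, LinearMap.proj_apply,
    LinearMap.mulRight_apply]
  rfl

/-- Every modular form of weight `k` and level `Γ` is in the range of the span map of a free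
basis. -/
theorem mfSpace_le_range_spanMap {Γ : Subgroup SL(2, ℤ)} {X : Type} [Fintype X] {κ : X → ℤ}
    {G : X → ℍ → ℂ} (hB : IsFreeBasis Γ κ G) (k : ℤ) :
    mfSpace Γ k ≤ LinearMap.range (spanMap κ G k) := by
  intro f hf
  obtain ⟨A, hA, rfl⟩ := hB.2.1 k f hf
  refine ⟨fun x => (hA x).toModularForm1, ?_⟩
  rw [spanMap_apply]
  rfl

/-- **Dimension bound for weight 12**: `dim M₁₂(Γ₀(N)) + dim S₂(Γ₀(N)) ≤ [SL₂(ℤ) : Γ₀(N)] + 1`,
and `M₁₂(Γ₀(N))` is finite-dimensional. -/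
theorem finrank_mfSpace_twelve_le (N : ℕ) [NeZero N] :
    Module.Finite ℂ (mfSpace (Gamma0 N) 12) ∧
      Module.finrank ℂ (mfSpace (Gamma0 N) 12) + Module.finrank ℂ (CuspForm (Gamma0 N) 2)
        ≤ Nat.card (SL(2, ℤ) ⧸ Gamma0 N) + 1 := by
  classical
  let _ : Fintype (SL(2, ℤ) ⧸ Gamma0 N) := Fintype.ofFinite _
  obtain ⟨κ, G, hB, hκ, hzero, hfin⟩ := exists_freeBasis_facts N
  have hle := mfSpace_le_range_spanMap hB 12
  have hfinR : Module.Finite ℂ (LinearMap.range (spanMap κ G 12)) :=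
    LinearMap.finiteDimensional_range _
  have hfinM : Module.Finite ℂ (mfSpace (Gamma0 N) 12) :=
    Submodule.finiteDimensional_of_le hle
  refine ⟨hfinM, ?_⟩
  have h1 : Module.finrank ℂ (mfSpace (Gamma0 N) 12)
      ≤ Module.finrank ℂ (LinearMap.range (spanMap κ G 12)) := Submodule.finrank_mono hle
  have h2 : Module.finrank ℂ (LinearMap.range (spanMap κ G 12))
      ≤ Module.finrank ℂ ((x : SL(2, ℤ) ⧸ Gamma0 N) → ModularForm 𝒮ℒ (12 - κ x)) :=
    LinearMap.finrank_range_le _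
  have h3 : Module.finrank ℂ ((x : SL(2, ℤ) ⧸ Gamma0 N) → ModularForm 𝒮ℒ (12 - κ x))
      = ∑ x, Module.finrank ℂ (ModularForm 𝒮ℒ (12 - κ x)) := Module.finrank_pi_fintype ℂ
  have h4 : ((∑ x, Module.finrank ℂ (ModularForm 𝒮ℒ (12 - κ x)) : ℕ) : ℤ)
      = (Fintype.card (SL(2, ℤ) ⧸ Gamma0 N) : ℤ) + 1
        - (Module.finrank ℂ (CuspForm (Gamma0 N) 2) : ℤ) := by
    push_cast
    rw [Finset.sum_congr rfl fun x _ => finrank_levelOne_twelve_sub (hκ x)]
    rw [Finset.sum_sub_distrib, Finset.sum_add_distrib, Finset.sum_const, Finset.card_univ,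
      ← Finset.sum_filter, ← Finset.sum_filter, Finset.sum_const, Finset.sum_const, hzero, ← hfin]
    simp
  rw [Nat.card_eq_fintype_card]
  have h5 : (Module.finrank ℂ (mfSpace (Gamma0 N) 12) : ℤ)
      ≤ (Fintype.card (SL(2, ℤ) ⧸ Gamma0 N) : ℤ) + 1
        - (Module.finrank ℂ (CuspForm (Gamma0 N) 2) : ℤ) := by
    rw [← h4]
    exact_mod_cast h1.trans (h2.trans h3.le)
  omega

end

end Fermat.Agent.S29.helper659
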