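/-
S29-GENUSGE, part 2 (helper659): the Riemann-Roch space of the pole divisor of `j` on `X₀(N)`
embeds (independence-preservingly) into the weight 12 modular forms on `Γ₀(N)`:
`φ ↦ (the holomorphic function of φ) · Δ`.
-/
import Fermat.Agent.S29.helper659_M12Dim
import Fermat.Agent.S29.helper265_EvOrder
import Fermat.Agent.S24.helper6324_Cusp
import Fermat.Agent.S24.helper60_DegreeAlg

set_option autoImplicit false

open UpperHalfPlane ModularForm Matrix.SpecialLinearGroup CongruenceSubgroup ModularCurve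
  AlgebraicCurve Filter
open scoped MatrixGroups ModularForm Manifold Topology

namespace Fermat.Agent.S29.helper659

open Fermat.Agent.S24 Fermat.Agent.S24.helper24 Fermat.Agent.S20.helper1040
  Fermat.Agent.S29.helper265

noncomputable section

/-! ## The two landed evaluations agree -/

theorem i0_eq : helper6180.i0 = helper6324.i0 := rfl

theorem Jd_eq (d : ℕ) : helper6180.Jd d = helper6324.Jd d := rfl

theorem ev_eq (N : ℕ) (a : helper3176.AN N) : helper6180.ev N a = helper6324.ev N a := by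
  obtain ⟨x, hx⟩ := a
  have key : ∀ (x : FN N) (hx : x ∈ Algebra.adjoin Kbar (helper3176.genSetF N)),
      helper6180.ev N ⟨x, hx⟩ = helper6324.ev N ⟨x, hx⟩ := by
    intro x hx
    induction hx using Algebra.adjoin_induction with
    | mem x hx =>
        obtain ⟨d, hd0, hd, rfl⟩ := hx
        have h := helper6180.ev_jBarD N d hd
        have h' := helper6324.ev_jBarD N d hd
        rw [show (⟨jBarD N d hd, _⟩ : helper3176.AN N)
          = ⟨jBarD N d hd, helper3176.jBarD_mem_AN N d hd⟩ from rfl, h, h']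
        rfl
    | algebraMap c =>
        rw [show (⟨algebraMap Kbar (FN N) c, _⟩ : helper3176.AN N)
          = algebraMap Kbar (helper3176.AN N) c from rfl, helper6180.ev_algebraMap,
          helper6324.ev_algebraMap]
        rfl
    | add x y hx hy ihx ihy =>
        rw [show (⟨x + y, _⟩ : helper3176.AN N)
          = (⟨x, hx⟩ : helper3176.AN N) + ⟨y, hy⟩ from rfl, helper6180.ev_add, map_add, ihx, ihy]
    | mul x y hx hy ihx ihy =>
        rw [show (⟨x * y, _⟩ : helper3176.AN N)
          = (⟨x, hx⟩ : helper3176.AN N) * ⟨y, hy⟩ from rfl, helper6180.ev_mul, map_mul, ihx, ihy]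
  exact key x hx

/-! ## Order functions and the pole condition -/

/-- An order function which is trivial on the constants is bounded below by the pole orders. -/
theorem min_le_of_forall_place {K F : Type*} [Field K] [Field F] [Algebra K F] {w : F → ℤ}
    (hw : IsIntOrder K w) {x u : F} (hx : x ≠ 0) (hu : u ≠ 0)
    (h : ∀ v : Place K F, min 0 (v.ord x) ≤ v.ord u) : min 0 (w x) ≤ w u := by
  by_cases hnt : ∃ f : F, f ≠ 0 ∧ w f ≠ 0
  · obtain ⟨v, e, he, hv⟩ := hw.exists_place hnt
    rw [hv x hx, hv u hu]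
    have hv' := h v
    have he' : (0 : ℤ) < (e : ℤ) := by exact_mod_cast he
    rcases le_total 0 (v.ord x) with h0 | h0
    · rw [min_eq_left h0] at hv'
      exact (min_le_left _ _).trans (mul_nonneg he'.le hv')
    · rw [min_eq_right h0] at hv'
      exact (min_le_right _ _).trans (mul_le_mul_of_nonneg_left hv' he'.le)
  · have h0 : w u = 0 := by
      by_contra hne
      exact hnt ⟨u, hu, hne⟩
    rw [h0]
    exact min_le_left _ _

/-- The pole condition: `φ` has at most the poles of `j` (with multiplicity). -/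
def PoleLE (N : ℕ) (φ : FN N) : Prop :=
  ∀ v : Place Kbar (FN N), min 0 (v.ord (jBar N)) ≤ v.ord φ

theorem jBar_ne_zero (N : ℕ) : jBar N ≠ 0 := by
  intro h
  exact (helper3176.transcendental_jBar N) (h ▸ isAlgebraic_zero)

variable (N : ℕ)

theorem meromorphicOrderAt_evF_coe_nonneg (a : helper3176.AN N) {x : ℂ} (hx : 0 < x.im) :
    0 ≤ meromorphicOrderAt (evF N (a : FN N)) x := by
  have hb : (((1 : helper3176.AN N)) : FN N) ≠ 0 := one_ne_zero
  have hab : (a : FN N) = (a : FN N) / ((1 : helper3176.AN N) : FN N) := by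
    rw [show (((1 : helper3176.AN N)) : FN N) = 1 from rfl, div_one]
  rw [meromorphicOrderAt_congr (evF_eventuallyEq N hb hab hx)]
  have hfun : (fun z => evC N a z / evC N 1 z) = evC N a := by
    funext z
    simp only [evC_apply, helper6180.ev_one, Pi.one_apply, div_one]
  rw [hfun]
  exact (analyticAt_evC N a hx).meromorphicOrderAt_nonneg

theorem meromorphicOrderAt_evF_nonneg {φ : FN N} (hφ : φ ≠ 0) (hP : PoleLE N φ) {x : ℂ}
    (hx : 0 < x.im) : 0 ≤ meromorphicOrderAt (evF N φ) x := by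
  have hj : jBar N ≠ 0 := jBar_ne_zero N
  have h1 := min_le_of_forall_place (isIntOrder_evF N hx) hj hφ hP
  have h2 : 0 ≤ anOrd (evF N) x (jBar N) := by
    have h3 := meromorphicOrderAt_evF_coe_nonneg N ⟨jBar N, helper3176.jBar_mem_AN N⟩ hx
    have h4 := coe_anOrd (meromorphicOrderAt_evF_ne_top N hj hx)
    rw [← h4] at h3
    exact_mod_cast h3
  rw [min_eq_left h2] at h1
  rw [← coe_anOrd (meromorphicOrderAt_evF_ne_top N hφ hx)]
  exact_mod_cast h1

/-! ## The holomorphic function of an element of the pole space -/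

/-- The normal form of `evF φ` on the upper half plane. -/
def holC (φ : FN N) : ℂ → ℂ := toMeromorphicNFOn (evF N φ) {z | 0 < z.im}

theorem meromorphicOn_evF (φ : FN N) : MeromorphicOn (evF N φ) {z | 0 < z.im} :=
  fun _ hx => meromorphicAt_evF N φ hx

theorem analyticAt_holC {φ : FN N} (hφ : φ ≠ 0) (hP : PoleLE N φ) {x : ℂ} (hx : 0 < x.im) :
    AnalyticAt ℂ (holC N φ) x := by
  have hNF : MeromorphicNFAt (holC N φ) x :=
    meromorphicNFOn_toMeromorphicNFOn (evF N φ) {z | 0 < z.im} hx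
  rw [← hNF.meromorphicOrderAt_nonneg_iff_analyticAt, holC,
    meromorphicOrderAt_toMeromorphicNFOn (meromorphicOn_evF N φ) hx]
  exact meromorphicOrderAt_evF_nonneg N hφ hP hx

theorem holC_mul_evC {φ : FN N} (hφ : φ ≠ 0) (hP : PoleLE N φ) {a b : helper3176.AN N}
    (hb : (b : FN N) ≠ 0) (hab : φ = (a : FN N) / (b : FN N)) {x : ℂ} (hx : 0 < x.im) :
    holC N φ x * evC N b x = evC N a x := by
  have h1 : holC N φ =ᶠ[𝓝[≠] x] evF N φ :=
    (meromorphicOn_evF N φ).toMeromorphicNFOn_eq_self_on_nhdsNE hx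
  have h2 := evF_eventuallyEq N hb hab hx
  have hb' : b ≠ 0 := fun h => hb (by rw [h]; rfl)
  have h3 : (fun z => holC N φ z * evC N b z) =ᶠ[𝓝[≠] x] evC N a := by
    filter_upwards [h1, h2, eventually_evC_ne_zero N hb' hx] with z hz1 hz2 hz3
    rw [hz1, hz2, div_mul_cancel₀ _ hz3]
  have hc1 : ContinuousAt (fun z => holC N φ z * evC N b z) x :=
    ((analyticAt_holC N hφ hP hx).continuousAt).mul (analyticAt_evC N b hx).continuousAt
  have hc2 : ContinuousAt (evC N a) x := (analyticAt_evC N a hx).continuousAt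
  exact tendsto_nhds_unique_of_eventuallyEq (hc1.tendsto.mono_left nhdsWithin_le_nhds)
    (hc2.tendsto.mono_left nhdsWithin_le_nhds) h3

/-- The holomorphic function on the upper half plane attached to `φ`. -/
def hol (φ : FN N) : ℍ → ℂ := fun τ => holC N φ (τ : ℂ)

theorem mdiff_hol {φ : FN N} (hφ : φ ≠ 0) (hP : PoleLE N φ) : MDiff (hol N φ) := by
  rw [UpperHalfPlane.mdifferentiable_iff]
  intro z hz
  have hA : AnalyticAt ℂ (holC N φ) z := analyticAt_holC N hφ hP hz
  refine (hA.differentiableAt.differentiableWithinAt).congr ?_ ?_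
  · intro w hw
    simp only [hol, Function.comp_apply, ofComplex_apply_of_im_pos hw, UpperHalfPlane.coe_mk]
  · simp only [hol, Function.comp_apply, ofComplex_apply_of_im_pos hz, UpperHalfPlane.coe_mk]

theorem hol_mul_ev {φ : FN N} (hφ : φ ≠ 0) (hP : PoleLE N φ) {a b : helper3176.AN N}
    (hb : (b : FN N) ≠ 0) (hab : φ = (a : FN N) / (b : FN N)) (τ : ℍ) :
    hol N φ τ * helper6180.ev N b τ = helper6180.ev N a τ := by
  have h := holC_mul_evC N hφ hP hb hab τ.im_pos
  rw [evC_coe, evC_coe] at h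
  exact h

theorem hol_smul {φ : FN N} (hφ : φ ≠ 0) (hP : PoleLE N φ) {γ : SL(2, ℤ)}
    (hγ : γ ∈ Gamma0 N) (τ : ℍ) : hol N φ (γ • τ) = hol N φ τ := by
  have hb := coe_denAN_ne_zero N φ
  have hab := eq_numAN_div_denAN N φ
  have h1 : ∀ τ, hol N φ τ * helper6180.ev N (denAN N φ) τ = helper6180.ev N (numAN N φ) τ :=
    fun τ => hol_mul_ev N hφ hP hb hab τ
  have h2 : ∀ τ, hol N φ (γ • τ) * helper6180.ev N (denAN N φ) τ
      = helper6180.ev N (numAN N φ) τ := by
    intro τ
    have h := h1 (γ • τ)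
    rwa [helper6180.ev_smul_of_mem_Gamma0 N _ γ hγ, helper6180.ev_smul_of_mem_Gamma0 N _ γ hγ]
      at h
  have hd1 : MDiff (hol N φ) := mdiff_hol N hφ hP
  have hd2 : MDiff (fun τ : ℍ => hol N φ (γ • τ)) :=
    hd1.comp (UpperHalfPlane.mdifferentiable_smul (g := (γ : GL (Fin 2) ℝ)) (by simp))
  have hd3 : MDiff ((fun τ : ℍ => hol N φ (γ • τ)) - hol N φ) := hd2.sub hd1
  have hmul : ((fun τ : ℍ => hol N φ (γ • τ)) - hol N φ) * helper6180.ev N (denAN N φ) = 0 := by
    funext τ
    show (hol N φ (γ • τ) - hol N φ τ) * helper6180.ev N (denAN N φ) τ = 0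
    rw [sub_mul, h2, h1, sub_self]
  rcases (UpperHalfPlane.mul_eq_zero_iff hd3 (helper6180.mdiff_ev N _)).mp hmul with h0 | h0
  · have := congrFun h0 τ
    exact sub_eq_zero.mp this
  · exact absurd ((helper6180.ev_eq_zero_iff N _).mp h0) (denAN_ne_zero N φ)

/-! ## Laurent expansions and growth -/

/-- The sum of the power series part of a Laurent series. -/
def psSum (E : LaurentSeries ℂ) (z : ℂ) : ℂ :=
  ∑' n : ℕ, PowerSeries.coeff n E.powerSeriesPart * z ^ n

theorem psSum_zero (E : LaurentSeries ℂ) : psSum E 0 = E.coeff E.order := by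
  have h0 := hasSum_single
    (f := fun n : ℕ => PowerSeries.coeff n E.powerSeriesPart * (0 : ℂ) ^ n) 0
    (fun n hn => by
      show PowerSeries.coeff n E.powerSeriesPart * (0 : ℂ) ^ n = 0
      rw [zero_pow hn, mul_zero])
  rw [psSum, h0.tsum_eq, pow_zero, mul_one, LaurentSeries.powerSeriesPart_coeff, Nat.cast_zero,
    add_zero]

theorem hasSum_psSum {α : Type*} {u f : α → ℂ} {E : LaurentSeries ℂ}
    (hE : helper6324.IsExp u f E) (hsurj : ∀ z : ℂ, z ≠ 0 → ‖z‖ < 1 → ∃ x, u x = z) {z : ℂ}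
    (hz : ‖z‖ < 1) :
    HasSum (fun n : ℕ => PowerSeries.coeff n E.powerSeriesPart * z ^ n) (psSum E z) := by
  by_cases hz0 : z = 0
  · subst hz0
    have h0 := hasSum_single
      (f := fun n : ℕ => PowerSeries.coeff n E.powerSeriesPart * (0 : ℂ) ^ n) 0
      (fun n hn => by
        show PowerSeries.coeff n E.powerSeriesPart * (0 : ℂ) ^ n = 0
        rw [zero_pow hn, mul_zero])
    exact h0.summable.hasSum
  · obtain ⟨x, rfl⟩ := hsurj z hz0 hz
    exact ((helper6324.hasSum_laurent_iff E hz0 (f x)).mp (hE x)).summable.hasSum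

theorem eq_zpow_mul_psSum {α : Type*} {u f : α → ℂ} {E : LaurentSeries ℂ}
    (hE : helper6324.IsExp u f E) (hu0 : ∀ x, u x ≠ 0) (x : α) :
    f x = u x ^ E.order * psSum E (u x) := by
  have h := (helper6324.hasSum_laurent_iff E (hu0 x) (f x)).mp (hE x)
  rw [psSum, h.tsum_eq, ← mul_assoc, ← zpow_add₀ (hu0 x), add_neg_cancel, zpow_zero, one_mul]

theorem continuousAt_psSum {α : Type*} {u f : α → ℂ} {E : LaurentSeries ℂ}
    (hE : helper6324.IsExp u f E) (hsurj : ∀ z : ℂ, z ≠ 0 → ‖z‖ < 1 → ∃ x, u x = z) :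
    ContinuousAt (psSum E) 0 := by
  have hps := helper1644.hasFPowerSeriesOnBall_of_hasSum (f := psSum E)
    (c := fun n => PowerSeries.coeff n E.powerSeriesPart) (r := 1) one_pos
    (fun z hz => hasSum_psSum hE hsurj (by simpa using hz))
  exact hps.hasFPowerSeriesAt.continuousAt

/-- If `h · f_B = f_A` with Laurent expansions `A`, `B ≠ 0` in a local parameter `u`, and
`ord B ≤ ord A + M`, then `h · u^M` is bounded near `u = 0`. -/
theorem exists_bound_of_isExp {α : Type*} {u fA fB h : α → ℂ} {A B : LaurentSeries ℂ}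
    (hA : helper6324.IsExp u fA A) (hB : helper6324.IsExp u fB B) (hB0 : B ≠ 0)
    (hu0 : ∀ x, u x ≠ 0) (hsurj : ∀ z : ℂ, z ≠ 0 → ‖z‖ < 1 → ∃ x, u x = z)
    (hmul : ∀ x, h x * fB x = fA x) {M : ℕ} (hord : B.order ≤ A.order + M) :
    ∃ r : ℝ, 0 < r ∧ ∃ C : ℝ, ∀ x, ‖u x‖ < r → ‖h x‖ * ‖u x‖ ^ M ≤ C := by
  have hcA := continuousAt_psSum hA hsurj
  have hcB := continuousAt_psSum hB hsurj
  have hB00 : 0 < ‖psSum B 0‖ := by
    rw [psSum_zero, norm_pos_iff]
    exact HahnSeries.coeff_order_eq_zero.not.2 hB0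
  have h1 : ∀ᶠ z in 𝓝 (0 : ℂ), ‖psSum A z‖ < ‖psSum A 0‖ + 1 :=
    (continuous_norm.continuousAt.comp hcA).eventually_lt continuousAt_const (by
      show ‖psSum A 0‖ < ‖psSum A 0‖ + 1
      linarith)
  have h2 : ∀ᶠ z in 𝓝 (0 : ℂ), ‖psSum B 0‖ / 2 < ‖psSum B z‖ :=
    continuousAt_const.eventually_lt (continuous_norm.continuousAt.comp hcB) (by
      show ‖psSum B 0‖ / 2 < ‖psSum B 0‖
      linarith)
  obtain ⟨r, hr, hball⟩ := Metric.eventually_nhds_iff.mp (h1.and h2)
  refine ⟨min r 1, lt_min hr one_pos, (‖psSum A 0‖ + 1) / (‖psSum B 0‖ / 2), fun x hx => ?_⟩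
  have hx1 : ‖u x‖ < 1 := lt_of_lt_of_le hx (min_le_right _ _)
  have hxr : dist (u x) 0 < r := by
    rw [dist_zero_right]
    exact lt_of_lt_of_le hx (min_le_left _ _)
  obtain ⟨hAx, hBx⟩ := hball hxr
  have eA := eq_zpow_mul_psSum hA hu0 x
  have eB := eq_zpow_mul_psSum hB hu0 x
  have hBpos : 0 < ‖psSum B (u x)‖ := lt_trans (by positivity) hBx
  have hupos : 0 < ‖u x‖ := norm_pos_iff.mpr (hu0 x)
  have e1 : ‖h x‖ * (‖u x‖ ^ B.order * ‖psSum B (u x)‖)
      = ‖u x‖ ^ A.order * ‖psSum A (u x)‖ := by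
    have h3 := congrArg norm (hmul x)
    rw [eA, eB, norm_mul, norm_mul, norm_mul, norm_zpow, norm_zpow] at h3
    exact h3
  obtain ⟨k, hk⟩ := Int.eq_ofNat_of_zero_le (show 0 ≤ A.order + M - B.order by omega)
  have h4 : ‖u x‖ ^ k * ‖u x‖ ^ B.order = ‖u x‖ ^ A.order * ‖u x‖ ^ M := by
    rw [← zpow_natCast (‖u x‖) k, ← hk, ← zpow_add₀ hupos.ne', ← zpow_natCast (‖u x‖) M,
      ← zpow_add₀ hupos.ne']
    congr 1
    ring
  have h5 : ‖u x‖ ^ B.order ≠ 0 := zpow_ne_zero _ hupos.ne'
  have e2 : ‖h x‖ * ‖u x‖ ^ M = ‖u x‖ ^ k * ‖psSum A (u x)‖ / ‖psSum B (u x)‖ := by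
    rw [eq_div_iff hBpos.ne']
    apply mul_right_cancel₀ h5
    linear_combination (‖u x‖ ^ M) * e1 - ‖psSum A (u x)‖ * h4
  have e3 : ‖u x‖ ^ k ≤ 1 := pow_le_one₀ hupos.le hx1.le
  rw [e2]
  refine div_le_div₀ (by positivity) ?_ (by positivity) hBx.le
  have h6 := mul_le_mul e3 hAx.le (norm_nonneg _) zero_le_one
  rwa [one_mul] at h6

/-! ## The cusps -/

variable [NeZero N]

/-- The order of the expansion at a cusp is an order function on the function field. -/
theorem isIntOrder_cusp (x : XN N) :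
    IsIntOrder Kbar (fun f : FN N => (helper6324.cuspEmb N x f).order) := by
  refine ⟨?_, ?_, ?_⟩
  · intro f g hf hg
    show (helper6324.cuspEmb N x (f * g)).order = _
    rw [map_mul]
    exact HahnSeries.order_mul ((map_ne_zero _).mpr hf) ((map_ne_zero _).mpr hg)
  · intro f g _ _ hfg
    show min _ _ ≤ (helper6324.cuspEmb N x (f + g)).order
    rw [map_add]
    have hne : helper6324.cuspEmb N x f + helper6324.cuspEmb N x g ≠ 0 := by
      rw [← map_add]
      exact (map_ne_zero _).mpr hfg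
    exact HahnSeries.min_order_le_order_add hne
  · intro a _
    show (helper6324.cuspEmb N x (algebraMap Kbar (FN N) a)).order = 0
    rw [helper6324.cuspEmb_algebraMap]
    exact HahnSeries.order_C

theorem cuspEmb_mk_inv_coe (g : SL(2, ℤ)) (a : helper3176.AN N) :
    helper6324.cuspEmb N (QuotientGroup.mk g⁻¹ : XN N) (a : FN N) = helper6324.cuspHom N g a := by
  rw [helper6324.cuspEmb_coe, helper6324.cuspEmbA_mk, inv_inv]

theorem order_cuspHom_le {φ : FN N} (hφ : φ ≠ 0) (hP : PoleLE N φ) {a b : helper3176.AN N}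
    (hb : (b : FN N) ≠ 0) (hab : φ = (a : FN N) / (b : FN N)) (g : SL(2, ℤ)) :
    (helper6324.cuspHom N g b).order ≤ (helper6324.cuspHom N g a).order + (N : ℤ) := by
  have hw := isIntOrder_cusp N (QuotientGroup.mk g⁻¹ : XN N)
  have h1 : min 0 (helper6324.cuspEmb N (QuotientGroup.mk g⁻¹ : XN N) (jBar N)).order
      ≤ (helper6324.cuspEmb N (QuotientGroup.mk g⁻¹ : XN N) φ).order :=
    min_le_of_forall_place hw (jBar_ne_zero N) hφ hP
  rw [helper6324.cuspEmb_jBar, helper6324.order_qExpand_jC] at h1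
  have h2 : φ * (b : FN N) = (a : FN N) := by rw [hab, div_mul_cancel₀ _ hb]
  have h3 : (helper6324.cuspEmb N (QuotientGroup.mk g⁻¹ : XN N) (φ * (b : FN N))).order
      = (helper6324.cuspEmb N (QuotientGroup.mk g⁻¹ : XN N) φ).order
        + (helper6324.cuspEmb N (QuotientGroup.mk g⁻¹ : XN N) (b : FN N)).order :=
    hw.map_mul hφ hb
  rw [h2, cuspEmb_mk_inv_coe, cuspEmb_mk_inv_coe] at h3
  have hN : (0 : ℤ) ≤ N := Int.natCast_nonneg N
  rw [min_eq_right (by omega)] at h1
  omega

theorem exists_bound_hol_cusp {φ : FN N} (hφ : φ ≠ 0) (hP : PoleLE N φ) (g : SL(2, ℤ)) :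
    ∃ r : ℝ, 0 < r ∧ ∃ C : ℝ, ∀ τ : ℍ, ‖helper6324.qc N τ‖ < r →
      ‖hol N φ (g • τ)‖ * ‖helper6324.qc N τ‖ ^ N ≤ C := by
  have hb := coe_denAN_ne_zero N φ
  have hab := eq_numAN_div_denAN N φ
  have hA := helper6324.isExp_cuspHom N g (numAN N φ)
  have hB := helper6324.isExp_cuspHom N g (denAN N φ)
  have hB0 : helper6324.cuspHom N g (denAN N φ) ≠ 0 := by
    intro h
    exact denAN_ne_zero N φ (helper6324.cuspHom_injective N g (by rw [h, map_zero]))
  have hmul : ∀ τ : ℍ, hol N φ (g • τ) * helper6324.ev N (denAN N φ) (g • τ)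
      = helper6324.ev N (numAN N φ) (g • τ) := by
    intro τ
    rw [← ev_eq, ← ev_eq]
    exact hol_mul_ev N hφ hP hb hab (g • τ)
  exact exists_bound_of_isExp hA hB hB0 (helper6324.qc_ne_zero N) (helper6324.qc_surj N) hmul
    (order_cuspHom_le N hφ hP hb hab g)

theorem slash_hol_mul (h f : ℍ → ℂ) (k : ℤ) (g : SL(2, ℤ)) :
    (h * f) ∣[k] g = (fun τ => h (g • τ)) * (f ∣[k] g) := by
  funext τ
  simp only [ModularForm.SL_slash_apply, Pi.mul_apply]
  ring

theorem exists_bound_discriminant : ∃ C A : ℝ, ∀ τ : ℍ, A ≤ τ.im →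
    ‖ModularForm.discriminant τ‖ ≤ C * Real.exp (-2 * Real.pi * τ.im) := by
  have h := CuspFormClass.exp_decay_atImInfty (h := 1) CuspForm.discriminant one_pos
    one_mem_strictPeriods_SL
  rw [Asymptotics.isBigO_iff] at h
  obtain ⟨c, hc⟩ := h
  obtain ⟨A, hA⟩ := (atImInfty_mem _).mp hc
  refine ⟨c, A, fun τ hτ => ?_⟩
  have h1 := hA τ hτ
  simpa [abs_of_pos (Real.exp_pos _)] using h1

/-- **The modular form of weight 12 attached to an element of the pole space.** -/
theorem isMF_hol_mul_discriminant {φ : FN N} (hφ : φ ≠ 0) (hP : PoleLE N φ) :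
    IsMF (Gamma0 N) 12 (hol N φ * ModularForm.discriminant) where
  holo := (mdiff_hol N hφ hP).mul isMF1_discriminant.holo
  inv γ hγ := by
    rw [slash_hol_mul, isMF1_discriminant.inv γ (Subgroup.mem_top _)]
    congr 1
    funext τ
    exact hol_smul N hφ hP hγ τ
  bdd g := by
    rw [slash_hol_mul, isMF1_discriminant.inv g (Subgroup.mem_top _), isBoundedAtImInfty_iff]
    obtain ⟨r, hr, C, hC⟩ := exists_bound_hol_cusp N hφ hP g
    obtain ⟨C', A, hA⟩ := exists_bound_discriminant
    have hNpos : (0 : ℝ) < N := by exact_mod_cast NeZero.pos N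
    have hpi := Real.pi_pos
    refine ⟨max C' 0 * C, max A (-(Real.log r * N) / (2 * Real.pi) + 1), fun τ hτ => ?_⟩
    have hτA : A ≤ τ.im := (le_max_left _ _).trans hτ
    have hτr : -(Real.log r * N) / (2 * Real.pi) + 1 ≤ τ.im := (le_max_right _ _).trans hτ
    have hq : ‖helper6324.qc N τ‖ < r := by
      rw [helper6324.qc, Function.Periodic.norm_qParam, ← Real.lt_log_iff_exp_lt hr,
        div_lt_iff₀ hNpos]
      have h1 : 2 * Real.pi * (-(Real.log r * N) / (2 * Real.pi) + 1)
          = -(Real.log r * N) + 2 * Real.pi := by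
        field_simp
      have h2 : 2 * Real.pi * (-(Real.log r * N) / (2 * Real.pi) + 1) ≤ 2 * Real.pi * τ.im :=
        mul_le_mul_of_nonneg_left hτr (by positivity)
      show -2 * Real.pi * (τ : ℂ).im < Real.log r * N
      have h3 : (τ : ℂ).im = τ.im := rfl
      rw [h3]
      linarith
    have hqN : ‖helper6324.qc N τ‖ ^ N = Real.exp (-2 * Real.pi * τ.im) := by
      rw [← norm_pow, helper6324.qc_pow, helper6324.qc, Function.Periodic.norm_qParam]
      simp
    have hb1 := hC τ hq
    have hb2 := hA τ hτA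
    have hb3 : ‖ModularForm.discriminant τ‖ ≤ max C' 0 * Real.exp (-2 * Real.pi * τ.im) :=
      hb2.trans (mul_le_mul_of_nonneg_right (le_max_left _ _) (Real.exp_pos _).le)
    show ‖hol N φ (g • τ) * ModularForm.discriminant τ‖ ≤ max C' 0 * C
    rw [norm_mul]
    calc ‖hol N φ (g • τ)‖ * ‖ModularForm.discriminant τ‖
        ≤ ‖hol N φ (g • τ)‖ * (max C' 0 * Real.exp (-2 * Real.pi * τ.im)) :=
          mul_le_mul_of_nonneg_left hb3 (norm_nonneg _)
      _ = max C' 0 * (‖hol N φ (g • τ)‖ * ‖helper6324.qc N τ‖ ^ N) := by rw [hqN]; ring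
      _ ≤ max C' 0 * C := mul_le_mul_of_nonneg_left hb1 (le_max_right _ _)

/-! ## Independence -/

omit [NeZero N] in
theorem exists_common_den {ι : Type*} [Fintype ι] (φ : ι → FN N) :
    ∃ (d : helper3176.AN N) (a : ι → helper3176.AN N), (d : FN N) ≠ 0 ∧
      ∀ i, φ i = (a i : FN N) / (d : FN N) := by
  classical
  have hcoe : ∀ y : helper3176.AN N, y ≠ 0 → (y : FN N) ≠ 0 := fun y hy h => hy (Subtype.ext h)
  refine ⟨∏ i, denAN N (φ i),
    fun i => numAN N (φ i) * ∏ j ∈ Finset.univ.erase i, denAN N (φ j),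
    hcoe _ (Finset.prod_ne_zero_iff.mpr fun i _ => denAN_ne_zero N (φ i)), fun i => ?_⟩
  have he : ((∏ j ∈ Finset.univ.erase i, denAN N (φ j) : helper3176.AN N) : FN N) ≠ 0 :=
    hcoe _ (Finset.prod_ne_zero_iff.mpr fun j _ => denAN_ne_zero N (φ j))
  have hd : (∏ j, denAN N (φ j)) = denAN N (φ i) * ∏ j ∈ Finset.univ.erase i, denAN N (φ j) :=
    (Finset.mul_prod_erase _ _ (Finset.mem_univ i)).symm
  rw [hd]
  show φ i = ((numAN N (φ i) : helper3176.AN N) : FN N)
      * ((∏ j ∈ Finset.univ.erase i, denAN N (φ j) : helper3176.AN N) : FN N)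
    / (((denAN N (φ i) : helper3176.AN N) : FN N)
      * ((∏ j ∈ Finset.univ.erase i, denAN N (φ j) : helper3176.AN N) : FN N))
  rw [mul_div_mul_right _ _ he]
  exact eq_numAN_div_denAN N (φ i)

omit [NeZero N] in
/-- **Independence**: a `ℚ̄`-linearly independent family of the pole space gives a `ℂ`-linearly
independent family of modular forms of weight 12. -/
theorem linearIndependent_hol_mul_discriminant {ι : Type*} [Fintype ι] (φ : ι → FN N)
    (hli : LinearIndependent Kbar φ) (hP : ∀ i, PoleLE N (φ i)) :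
    LinearIndependent ℂ (fun i => hol N (φ i) * ModularForm.discriminant) := by
  classical
  have hφ : ∀ i, φ i ≠ 0 := fun i => hli.ne_zero i
  obtain ⟨d, a, hd, ha⟩ := exists_common_den N φ
  have hv : LinearIndependent Kbar (fun i => ((a i : FN N) : LaurentSeries Kbar)) := by
    have h1 : LinearIndependent Kbar (fun i => (d : FN N) * φ i) :=
      hli.map' (LinearMap.mulLeft Kbar (d : FN N)) (by
        rw [LinearMap.ker_eq_bot]
        exact mul_right_injective₀ hd)
    have h2 : (fun i => (d : FN N) * φ i) = fun i => (a i : FN N) := by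
      funext i
      rw [ha i, mul_div_cancel₀ _ hd]
    rw [h2] at h1
    rw [Fintype.linearIndependent_iff] at h1 ⊢
    intro g hg i
    refine h1 g ?_ i
    apply Subtype.ext
    refine Eq.trans ?_ hg
    have h3 : ((∑ i, g i • (a i : FN N) : FN N) : LaurentSeries Kbar)
        = ∑ i, ((g i • (a i : FN N) : FN N) : LaurentSeries Kbar) :=
      map_sum (IntermediateField.val (modularFunctionFieldBar N)) _ _
    rw [h3]
    refine Finset.sum_congr rfl fun i _ => ?_
    rw [Algebra.smul_def]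
    exact helper60.algebraMap_mul_eq_smul (g i) ((a i : FN N) : LaurentSeries Kbar)
  have hC := helper60.linearIndependent_coeffMap helper6180.i0 _ hv
  rw [Fintype.linearIndependent_iff] at hC ⊢
  intro c hc i
  refine hC c ?_ i
  have hsum : ∀ τ : ℍ, ∑ i, c i * helper6180.ev N (a i) τ = 0 := by
    intro τ
    have h1 := congrFun hc τ
    simp only [Finset.sum_apply, Pi.smul_apply, Pi.mul_apply, smul_eq_mul, Pi.zero_apply] at h1
    have hΔ : ModularForm.discriminant τ ≠ 0 := discriminant_ne_zero τ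
    have h2 : ∑ i, c i * hol N (φ i) τ = 0 := by
      have h3 : (∑ i, c i * hol N (φ i) τ) * ModularForm.discriminant τ = 0 := by
        rw [Finset.sum_mul, ← h1]
        exact Finset.sum_congr rfl fun i _ => mul_assoc _ _ _
      exact (mul_eq_zero.mp h3).resolve_right hΔ
    have h3 : ∑ i, c i * helper6180.ev N (a i) τ
        = (∑ i, c i * hol N (φ i) τ) * helper6180.ev N d τ := by
      rw [Finset.sum_mul]
      refine Finset.sum_congr rfl fun i _ => ?_
      rw [mul_assoc, hol_mul_ev N (hφ i) (hP i) hd (ha i) τ]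
    rw [h3, h2, zero_mul]
  exact helper6180.linear_relation_transfer N Finset.univ c a hsum

/-- **Dimension bound**: a finite-dimensional `ℚ̄`-subspace of the function field of `X₀(N)` all
of whose nonzero elements have at most the poles of `j` has dimension at most
`dim M₁₂(Γ₀(N))`. -/
theorem finrank_le_of_poleLE (V : Submodule Kbar (FN N)) [Module.Finite Kbar V]
    (hV : ∀ φ ∈ V, φ ≠ 0 → PoleLE N φ) :
    Module.finrank Kbar V ≤ Module.finrank ℂ (mfSpace (Gamma0 N) 12) := by
  classical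
  have hfin := (finrank_mfSpace_twelve_le N).1
  have hfree : Module.Free Kbar V := Module.Free.of_divisionRing Kbar V
  let b := Module.finBasis Kbar V
  have hli : LinearIndependent Kbar (fun i => ((b i : V) : FN N)) :=
    b.linearIndependent.map' V.subtype (Submodule.ker_subtype V)
  have hP : ∀ i, PoleLE N ((b i : V) : FN N) := fun i => hV _ (b i).2 (hli.ne_zero i)
  have hF := linearIndependent_hol_mul_discriminant N _ hli hP
  let F : Fin (Module.finrank Kbar V) → mfSpace (Gamma0 N) 12 := fun i =>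
    ⟨hol N ((b i : V) : FN N) * ModularForm.discriminant,
      isMF_hol_mul_discriminant N (hli.ne_zero i) (hP i)⟩
  have hF' : LinearIndependent ℂ F :=
    LinearIndependent.of_comp (mfSpace (Gamma0 N) 12).subtype hF
  have hcard := hF'.fintype_card_le_finrank
  simpa using hcard

end

end Fermat.Agent.S29.helper659
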