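/-
S29-GENUSGE, part 3 (helper659): `dim S₂(Γ₀(N)) ≤ genusFF(ℚ̄, F_N)`.

The Riemann inequality (landed S27) for the pole divisor `D = (j)_∞` of `j` on `X₀(N)`,
`deg D = [F_N : ℚ̄(j)] = [SL₂(ℤ) : Γ₀(N)] =: ψ` (landed S24), gives
`ℓ(D) ≥ ψ + 1 - genusFF`.  The pole space `L(D)` embeds into `M₁₂(Γ₀(N))`
(`helper659_PoleSpace`), whose dimension is at most `ψ + 1 - dim S₂(Γ₀(N))`
(`helper659_M12Dim`, from the landed S20 free basis).
-/
import Fermat.Agent.S29.helper659_PoleSpace
import Fermat.Agent.S27.helper4996_Riemann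
import Fermat.Agent.S24.helper167_JFinrank
import Fermat.Agent.S24.helper6180_EvDatum

set_option autoImplicit false

open UpperHalfPlane ModularForm Matrix.SpecialLinearGroup CongruenceSubgroup ModularCurve
  AlgebraicCurve IntermediateField
open scoped MatrixGroups ModularForm

namespace Fermat.Agent.S29.helper659

open Fermat.Agent.S24 Fermat.Agent.S24.helper24

/-- **Riemann inequality for the pole divisor of `x`**: there is a finite-dimensional space of
functions with at most the poles of `x` of dimension at least `[F : K(x)] + 1 - g`. -/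
theorem exists_poleSpace_finrank_ge {K : Type*} {F : Type*} [Field K] [Field F] [Algebra K F]
    [IsAlgClosed K] [CharZero K] (x : F) (hx : Transcendental K x) [FiniteDimensional K⟮x⟯ F] :
    ∃ V : Submodule K F, Module.Finite K V ∧
      (∀ f ∈ V, f ≠ 0 → ∀ v : Place K F, min 0 (v.ord x) ≤ v.ord f) ∧
      (Module.finrank K⟮x⟯ F : ℤ) + 1 - (genusFF K F : ℤ) ≤ (Module.finrank K V : ℤ) := by
  obtain ⟨s, hs1, hs2⟩ := Fermat.Agent.S24.helper204.exists_finset_poles x hx
  have hsupp : ∀ v : Place K F, max 0 (-v.ord x) ≠ 0 → v ∈ s := by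
    intro v hv
    rw [hs1]
    omega
  have hdeg : ∀ v : Place K F, v.deg = 1 :=
    fun v => Fermat.Agent.S24.helper204.place_deg_eq_one x hx v
  have hD : Divisor.degree (Finsupp.onFinset s (fun v => max 0 (-v.ord x)) hsupp)
      = (Module.finrank K⟮x⟯ F : ℤ) := by
    rw [Divisor.degree, Finsupp.liftAddHom_apply, Finsupp.onFinset_sum]
    · simp only [AddMonoidHom.coe_mulRight, hdeg, Nat.cast_one, mul_one]
      rw [← hs2]
      refine Finset.sum_congr rfl fun v hv => ?_
      have h1 := (hs1 v).mp hv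
      omega
    · intro v
      simp
  obtain ⟨hfin, hRR, -⟩ := Fermat.Agent.S27.helper4996.stmt_Riemann K F x hx
  refine ⟨riemannRochSpace (Finsupp.onFinset s (fun v => max 0 (-v.ord x)) hsupp),
    (hfin _).2, ?_, ?_⟩
  · intro f hf hf0 v
    have h1 := (mem_riemannRochSpace_iff.mp hf v).resolve_left hf0
    have hDv : (Finsupp.onFinset s (fun v => max 0 (-v.ord x)) hsupp) v = max 0 (-v.ord x) := rfl
    rw [hDv] at h1
    omega
  · have h1 := hRR (Finsupp.onFinset s (fun v => max 0 (-v.ord x)) hsupp)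
    rw [hD] at h1
    have h2 : (0 : ℤ) ≤ (Module.finrank K
      (H1 (Finsupp.onFinset s (fun v => max 0 (-v.ord x)) hsupp)) : ℤ) := Int.natCast_nonneg _
    omega

/-- **S29-GENUSGE**: the dimension of the space of weight 2 cusp forms on `Γ₀(N)` is at most
the genus of the function field of `X₀(N)` over `ℚ̄`. -/
theorem finrank_cuspForm_le_genusFF (N : ℕ) [NeZero N] :
    Module.finrank ℂ (CuspForm (Gamma0 N) 2) ≤ genusFF Kbar (FN N) := by
  have hJF : Stmt_JFinrank :=
    helper167.stmt_JFinrank_of (fun N _ => helper6180.evDatum N) helper6324.stmt_LocalInf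
  obtain ⟨hfd, hfr⟩ := hJF N
  obtain ⟨V, hVfin, hV, hge⟩ :=
    exists_poleSpace_finrank_ge (jBar N) (helper3176.transcendental_jBar N)
  have h1 := finrank_le_of_poleLE N V hV
  have h2 := (finrank_mfSpace_twelve_le N).2
  rw [hfr] at hge
  have h3 : Nat.card (XN N) = Nat.card (SL(2, ℤ) ⧸ Gamma0 N) := rfl
  omega

end Fermat.Agent.S29.helper659
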