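/-
S29-GENUSGE corollary (helper659): the genus equality `genusFF(ℚ̄, F_N) = dim S₂(Γ₀(N))`.

`≥` is `helper659.finrank_cuspForm_le_genusFF` (Riemann inequality for `(j)_∞` + the embedding of
the pole space into `M₁₂(Γ₀(N))`), `≤` is the landed S18 RCUSP `helper1903.genusFF_le`.
-/
import Fermat.Agent.S29.helper659_GenusGE
import Fermat.Agent.S18.helper1903_RiemannCusp
import Fermat.Agent.S20

set_option autoImplicit false

open CongruenceSubgroup AlgebraicCurve ModularCurve

namespace Fermat.Agent.S29.helper659

open Fermat.Agent.S24.helper24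

/-- **Genus equality**: the repartition genus of the function field of `X₀(N)` over `ℚ̄` is the
dimension of the space of weight 2 cusp forms on `Γ₀(N)`. -/
theorem genusFF_eq_finrank_cuspForm (N : ℕ) [NeZero N] :
    genusFF Kbar (FN N) = Module.finrank ℂ (CuspForm (Gamma0 N) 2) :=
  le_antisymm (Fermat.Agent.S18.helper1903.genusFF_le N) (finrank_cuspForm_le_genusFF N)

/-- The genus equality in the frozen vocabulary (no S24 abbreviations). -/
theorem genusFF_modularFunctionFieldBar (N : ℕ) [NeZero N] :
    genusFF (AlgebraicClosure ℚ) ↥(modularFunctionFieldBar N)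
      = Module.finrank ℂ (CuspForm (Gamma0 N) 2) :=
  genusFF_eq_finrank_cuspForm N

/-- The genus equality with the classical genus formula (landed S20). -/
theorem genusFF_eq_genusFormula (N : ℕ) [NeZero N] :
    (genusFF (AlgebraicClosure ℚ) ↥(modularFunctionFieldBar N) : ℚ) = genusFormula N := by
  rw [genusFF_modularFunctionFieldBar]
  exact Fermat.Agent.S20.result N

end Fermat.Agent.S29.helper659
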