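import Mathlib
import Fermat.Prelude.Def_AlgebraicCurve_BaseChangeGalois
import Fermat.Prelude.Def_ModularCurve_LaurentCoeff
import Fermat.Agent.S24.helper204_Places
import Fermat.Agent.S29.helper265_ValPlace
import Fermat.Agent.S29.helper6961_CoeffDescent

/-!
# S29-DESC-CANON (helper6855): canonical representatives of Kummer classes and descent `Ω → K`

`Ω` algebraically closed of characteristic zero, `F / Ω` a function field in one variable
(`x : F` transcendental, `F` finite over `Ω(x)`).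

## Abstract layer (`section Abstract`)

For `u : F`, `u ≠ 0`, the class `u · Ωˣ · (Fˣ)ⁿ` has a *canonical representative*
(`IsCanon Ω n x qo lc u w`): among the members `w` of the class that are regular outside the
poles of `x` and have pole orders at most `d` (`InR Ω n x d u w`), with `d` minimal, the one
of maximal `qo`-order (`qo` = a positive multiple of the order at some place) and with leading
coefficient `lc w = 1`.

* `exists_isCanon`   : existence;
* `IsCanon.unique`   : uniqueness;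
* `IsCanon.of_sameClass` : it only depends on the class;
* `IsCanon.smul`     : equivariance under semilinear automorphisms fixing `x`, `qo`, `lc`.

No Riemann-Roch, no genus: nonemptiness comes from integrality over `Ω[x]`, the bound on `qo`
from `deg div = 0`.

## Laurent layer

`F` an intermediate field of `Ω((q))` stable under the coefficientwise action of `Aut(Ω/K)`:
if the classes of the conjugates of `u` meet only finitely many classes, then the canonical
representative of `u` has finitely many coefficientwise conjugates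
(`exists_sameClass_finite_conjugates`), hence (with the coefficient descent of helper6961) is
defined over `K` (`exists_descent`, `exists_descent_of_finite_kummer`).
-/

set_option autoImplicit false

open AlgebraicCurve IntermediateField

namespace Fermat.Agent.S29.helper6855

section Abstract

variable {Ω F : Type*} [Field Ω] [Field F] [Algebra Ω F]

/-! ### Two lemmas on `Place.ord` -/

theorem min_ord_le_ord_add (v : Place Ω F) {f g : F} (hfg : f + g ≠ 0) :
    min (v.ord f) (v.ord g) ≤ v.ord (f + g) := by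
  rcases eq_or_ne f 0 with rfl | hf
  · simp
  rcases eq_or_ne g 0 with rfl | hg
  · simp
  wlog h : v.ord f ≤ v.ord g generalizing f g
  · have := this (f := g) (g := f) (by rwa [add_comm]) hg hf (le_of_not_ge h)
    rwa [min_comm, add_comm] at this
  rw [min_eq_left h]
  have h1 : g / f ∈ v.toValuationSubring := by
    apply Fermat.Agent.S24.helper204.mem_of_ord_nonneg
    rw [div_eq_mul_inv, v.ord_mul hg (inv_ne_zero hf), v.ord_inv]
    omega
  have h2 : 1 + g / f ∈ v.toValuationSubring := add_mem (one_mem _) h1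
  have h3 := Fermat.Agent.S24.helper204.ord_nonneg_of_mem v h2
  have h4 : f + g = f * (1 + g / f) := by field_simp
  have h5 : (1 + g / f) ≠ 0 := by
    intro h0
    apply hfg
    rw [h4, h0, mul_zero]
  rw [h4, v.ord_mul hf h5]
  omega

theorem ord_pow' (v : Place Ω F) (f : F) (n : ℕ) : v.ord (f ^ n) = n * v.ord f := by
  have := v.ord_zpow f (n : ℤ)
  rwa [zpow_natCast] at this

theorem ord_const_mul_mul_pow (v : Place Ω F) {c : Ω} (hc : c ≠ 0) {u t : F} (hu : u ≠ 0)
    (ht : t ≠ 0) (n : ℕ) :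
    v.ord (algebraMap Ω F c * u * t ^ n) = v.ord u + n * v.ord t := by
  have hc' : algebraMap Ω F c ≠ 0 := by simpa using hc
  rw [v.ord_mul (mul_ne_zero hc' hu) (pow_ne_zero n ht), v.ord_mul hc' hu,
    Fermat.Agent.S24.helper204.ord_algebraMap_eq_zero, ord_pow', zero_add]

/-- All places have degree one ⟹ the orders of a nonzero function sum to zero. -/
theorem exists_finset_sum_ord_eq_zero [HasPrincipalDivisors Ω F]
    (hdeg : ∀ v : Place Ω F, v.deg = 1) {w : F} (hw : w ≠ 0) :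
    ∃ s : Finset (Place Ω F), (∀ v, v.ord w ≠ 0 → v ∈ s) ∧ ∑ v ∈ s, v.ord w = 0 := by
  obtain ⟨D, hD, hdegD⟩ := HasPrincipalDivisors.exists_divisor (K := Ω) w hw
  refine ⟨D.support, fun v hv => ?_, ?_⟩
  · rw [Finsupp.mem_support_iff, hD v]
    exact hv
  · have h1 : Divisor.degree D = ∑ v ∈ D.support, D v := by
      rw [Divisor.degree, Finsupp.liftAddHom_apply, Finsupp.sum]
      refine Finset.sum_congr rfl fun v _ => ?_
      simp [hdeg v]
    rw [← hdegD, h1]
    exact Finset.sum_congr rfl fun v _ => (hD v).symm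

/-! ### Classes modulo constants and `n`-th powers -/

/-- `w` lies in the class of `u` modulo nonzero constants and `n`-th powers. -/
def SameClass (Ω : Type*) {F : Type*} [Field Ω] [Field F] [Algebra Ω F] (n : ℕ) (u w : F) :
    Prop :=
  ∃ (c : Ω) (t : F), c ≠ 0 ∧ t ≠ 0 ∧ w = algebraMap Ω F c * u * t ^ n

theorem SameClass.refl (n : ℕ) (u : F) : SameClass Ω n u u :=
  ⟨1, 1, one_ne_zero, one_ne_zero, by simp⟩

theorem SameClass.symm {n : ℕ} {u w : F} (h : SameClass Ω n u w) : SameClass Ω n w u := by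
  obtain ⟨c, t, hc, ht, rfl⟩ := h
  refine ⟨c⁻¹, t⁻¹, inv_ne_zero hc, inv_ne_zero ht, ?_⟩
  have hc' : algebraMap Ω F c ≠ 0 := by simpa using hc
  rw [map_inv₀, inv_pow]
  field_simp

theorem SameClass.trans {n : ℕ} {u w z : F} (h₁ : SameClass Ω n u w) (h₂ : SameClass Ω n w z) :
    SameClass Ω n u z := by
  obtain ⟨c, t, hc, ht, rfl⟩ := h₁
  obtain ⟨c', t', hc', ht', rfl⟩ := h₂
  refine ⟨c' * c, t * t', mul_ne_zero hc' hc, mul_ne_zero ht ht', ?_⟩
  rw [map_mul, mul_pow]
  ring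

theorem SameClass.ne_zero {n : ℕ} {u w : F} (h : SameClass Ω n u w) (hu : u ≠ 0) : w ≠ 0 := by
  obtain ⟨c, t, hc, ht, rfl⟩ := h
  have hc' : algebraMap Ω F c ≠ 0 := by simpa using hc
  exact mul_ne_zero (mul_ne_zero hc' hu) (pow_ne_zero n ht)

theorem SameClass.ne_zero' {n : ℕ} {u w : F} (h : SameClass Ω n u w) (hw : w ≠ 0) : u ≠ 0 :=
  h.symm.ne_zero hw

/-- `w` is in the class of `u`, is regular outside the poles of `x`, and has pole orders at
most `d`. -/
def InR (Ω : Type*) {F : Type*} [Field Ω] [Field F] [Algebra Ω F] (n : ℕ) (x : F) (d : ℕ)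
    (u w : F) : Prop :=
  SameClass Ω n u w ∧ ∀ v : Place Ω F, -(d : ℤ) ≤ v.ord w ∧ (0 ≤ v.ord x → 0 ≤ v.ord w)

/-- `w` is the canonical representative of the class of `u`. -/
def IsCanon (Ω : Type*) {F : Type*} [Field Ω] [Field F] [Algebra Ω F] (n : ℕ) (x : F)
    (qo : F → ℤ) (lc : F → Ω) (u w : F) : Prop :=
  ∃ d : ℕ, InR Ω n x d u w ∧ (∀ (d' : ℕ) (w' : F), InR Ω n x d' u w' → d ≤ d') ∧
    (∀ w' : F, InR Ω n x d u w' → qo w' ≤ qo w) ∧ lc w = 1

theorem InR.of_sameClass {n : ℕ} {x : F} {d : ℕ} {u u' w : F} (h : SameClass Ω n u u')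
    (hw : InR Ω n x d u w) : InR Ω n x d u' w :=
  ⟨h.symm.trans hw.1, hw.2⟩

theorem IsCanon.of_sameClass {n : ℕ} {x : F} {qo : F → ℤ} {lc : F → Ω} {u u' w : F}
    (h : SameClass Ω n u u') (hw : IsCanon Ω n x qo lc u w) : IsCanon Ω n x qo lc u' w := by
  obtain ⟨d, h1, h2, h3, h4⟩ := hw
  exact ⟨d, h1.of_sameClass h, fun d' w' hw' => h2 d' w' (hw'.of_sameClass h.symm),
    fun w' hw' => h3 w' (hw'.of_sameClass h.symm), h4⟩

theorem IsCanon.sameClass {n : ℕ} {x : F} {qo : F → ℤ} {lc : F → Ω} {u w : F}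
    (hw : IsCanon Ω n x qo lc u w) : SameClass Ω n u w := by
  obtain ⟨d, h1, -⟩ := hw
  exact h1.1

/-! ### Semilinear automorphisms -/

theorem ord_smul_eq (g : SemilinearAut Ω F) (v : Place Ω F) (f : F) :
    v.ord (g • f) = (g⁻¹ • v).ord f := by
  have h := SemilinearAut.ord_smul g (g⁻¹ • v) f
  rwa [smul_inv_smul] at h

theorem SameClass.smul (g : SemilinearAut Ω F) {n : ℕ} {u w : F} (h : SameClass Ω n u w) :
    SameClass Ω n (g • u) (g • w) := by
  obtain ⟨c, t, hc, ht, rfl⟩ := h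
  refine ⟨SemilinearAut.baseAut g c, g • t, ?_, ?_, ?_⟩
  · exact (RingEquiv.map_ne_zero_iff _).mpr hc
  · rw [SemilinearAut.smul_def]
    exact (RingEquiv.map_ne_zero_iff _).mpr ht
  · simp only [SemilinearAut.smul_def, map_mul, map_pow]
    rw [SemilinearAut.commutes]

theorem InR.smul (g : SemilinearAut Ω F) {n : ℕ} {x : F} (hgx : g • x = x) {d : ℕ} {u w : F}
    (h : InR Ω n x d u w) : InR Ω n x d (g • u) (g • w) := by
  refine ⟨h.1.smul g, fun v => ?_⟩
  rw [ord_smul_eq]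
  refine ⟨(h.2 _).1, fun hx0 => (h.2 _).2 ?_⟩
  rw [← hgx, ord_smul_eq] at hx0
  exact hx0

theorem InR.of_smul (g : SemilinearAut Ω F) {n : ℕ} {x : F} (hgx : g • x = x) {d : ℕ} {u w : F}
    (h : InR Ω n x d (g • u) w) : InR Ω n x d u (g⁻¹ • w) := by
  have hgx' : g⁻¹ • x = x := by
    conv_lhs => rw [← hgx]
    exact inv_smul_smul g x
  have := h.smul g⁻¹ hgx'
  rwa [inv_smul_smul] at this

theorem IsCanon.smul (g : SemilinearAut Ω F) {n : ℕ} {x : F} {qo : F → ℤ} {lc : F → Ω}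
    (hgx : g • x = x) (hgqo : ∀ f : F, qo (g • f) = qo f)
    (hglc : ∀ f : F, lc (g • f) = SemilinearAut.baseAut g (lc f)) {u w : F}
    (hw : IsCanon Ω n x qo lc u w) : IsCanon Ω n x qo lc (g • u) (g • w) := by
  obtain ⟨d, h1, h2, h3, h4⟩ := hw
  refine ⟨d, h1.smul g hgx, fun d' w' hw' => h2 d' _ (hw'.of_smul g hgx), fun w' hw' => ?_, ?_⟩
  · have := h3 _ (hw'.of_smul g hgx)
    rw [hgqo]
    have h5 : qo (g⁻¹ • w') = qo w' := by
      have h6 := hgqo (g⁻¹ • w')
      rw [smul_inv_smul] at h6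
      exact h6.symm
    rwa [h5] at this
  · rw [hglc, h4, map_one]

/-! ### Existence -/

open scoped IntermediateField.algebraAdjoinAdjoin in
/-- Every class contains a function regular outside the poles of `x` (with some pole bound). -/
theorem exists_inR [IsAlgClosed Ω] [CharZero Ω] (x : F) (hx : Transcendental Ω x)
    [FiniteDimensional Ω⟮x⟯ F] (n : ℕ) (hn : n ≠ 0) {u : F} (hu : u ≠ 0) :
    ∃ (d : ℕ) (w : F), InR Ω n x d u w := by
  classical
  have : HasPrincipalDivisors Ω F := Fermat.Agent.S24.helper204.hasPrincipalDivisors x hx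
  have : Algebra.IsAlgebraic (Algebra.adjoin Ω {x}) F :=
    Algebra.IsAlgebraic.trans (Algebra.adjoin Ω {x}) Ω⟮x⟯ F
  obtain ⟨y, hy0, hy⟩ :=
    (Algebra.IsAlgebraic.isAlgebraic (R := Algebra.adjoin Ω {x}) u).exists_integral_multiple
  have ht0 : (y : F) ≠ 0 := by
    intro h0
    exact hy0 (Subtype.ext h0)
  have hyu : y • u = (y : F) * u := rfl
  have hint : IsIntegral (Algebra.adjoin Ω {x}) (u * (y : F) ^ n) := by
    obtain ⟨m, rfl⟩ := Nat.exists_eq_succ_of_ne_zero hn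
    have h1 : u * (y : F) ^ (m + 1) = (y • u) * (y : F) ^ m := by
      rw [hyu]
      ring
    rw [h1]
    exact hy.mul ((isIntegral_algebraMap (x := y)).pow m)
  have hw0 : u * (y : F) ^ n ≠ 0 := mul_ne_zero hu (pow_ne_zero n ht0)
  obtain ⟨D, hD, -⟩ := HasPrincipalDivisors.exists_divisor (K := Ω) _ hw0
  refine ⟨∑ v ∈ D.support, (D v).natAbs, u * (y : F) ^ n,
    ⟨1, (y : F), one_ne_zero, ht0, by simp⟩, fun v => ⟨?_, fun hx0 => ?_⟩⟩
  · by_cases hv : v ∈ D.support
    · have h1 : (D v).natAbs ≤ ∑ v ∈ D.support, (D v).natAbs :=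
        Finset.single_le_sum (f := fun v => (D v).natAbs) (fun _ _ => Nat.zero_le _) hv
      rw [← hD v]
      have h2 : ((D v).natAbs : ℤ) ≤ ((∑ v ∈ D.support, (D v).natAbs : ℕ) : ℤ) := by
        exact_mod_cast h1
      have h3 : -((D v).natAbs : ℤ) ≤ D v := by
        rw [Int.natCast_natAbs]
        exact neg_abs_le (D v)
      omega
    · have h0 : D v = 0 := Finsupp.notMem_support_iff.mp hv
      rw [← hD v, h0]
      have : (0 : ℤ) ≤ ((∑ v ∈ D.support, (D v).natAbs : ℕ) : ℤ) := Int.natCast_nonneg _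
      omega
  · have hxv : x ∈ v.toValuationSubring := Fermat.Agent.S24.helper204.mem_of_ord_nonneg v hx0
    exact Fermat.Agent.S24.helper204.ord_nonneg_of_mem v
      (Fermat.Agent.S24.helper204.mem_of_isIntegral_of_le v.toValuationSubring
        (Algebra.adjoin Ω {x}) (Fermat.Agent.S24.helper204.adjoin_le_of_mem v hxv) hint)

/-- The orders of the members of `InR` at any place are bounded above. -/
theorem InR.ord_le [HasPrincipalDivisors Ω F] (hdeg : ∀ v : Place Ω F, v.deg = 1) {n : ℕ}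
    {x : F} (sI : Finset (Place Ω F)) (hsI : ∀ v : Place Ω F, v.ord x < 0 → v ∈ sI)
    {d : ℕ} {u w : F} (hu : u ≠ 0) (h : InR Ω n x d u w) (v₀ : Place Ω F) :
    v₀.ord w ≤ d * sI.card := by
  classical
  have hw : w ≠ 0 := h.1.ne_zero hu
  obtain ⟨s, hs, hsum⟩ := exists_finset_sum_ord_eq_zero hdeg hw
  by_cases hv₀ : v₀ ∈ s
  · rw [← Finset.add_sum_erase s _ hv₀] at hsum
    have h1 : ∀ v ∈ s.erase v₀, -(if v ∈ sI then (d : ℤ) else 0) ≤ v.ord w := by
      intro v _
      by_cases hv : v ∈ sI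
      · rw [if_pos hv]
        exact (h.2 v).1
      · rw [if_neg hv, neg_zero]
        exact (h.2 v).2 (not_lt.mp fun hlt => hv (hsI v hlt))
    have h2 : -(∑ v ∈ s.erase v₀, (if v ∈ sI then (d : ℤ) else 0)) ≤ ∑ v ∈ s.erase v₀, v.ord w := by
      rw [← Finset.sum_neg_distrib]
      exact Finset.sum_le_sum h1
    have h3 : ∑ v ∈ s.erase v₀, (if v ∈ sI then (d : ℤ) else 0) ≤ d * sI.card := by
      rw [← Finset.sum_filter, Finset.sum_const, nsmul_eq_mul, mul_comm]
      have h4 : ((s.erase v₀).filter (· ∈ sI)).card ≤ sI.card :=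
        Finset.card_le_card fun v hv => (Finset.mem_filter.mp hv).2
      have h5 : (((s.erase v₀).filter (· ∈ sI)).card : ℤ) ≤ sI.card := by exact_mod_cast h4
      exact mul_le_mul_of_nonneg_left h5 (Int.natCast_nonneg d)
    linarith
  · have h0 : v₀.ord w = 0 := by
      by_contra h0
      exact hv₀ (hs v₀ h0)
    rw [h0]
    positivity

/-- **Existence of the canonical representative.** -/
theorem exists_isCanon [IsAlgClosed Ω] [CharZero Ω] (x : F) (hx : Transcendental Ω x)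
    [FiniteDimensional Ω⟮x⟯ F] (n : ℕ) (hn : n ≠ 0) (qo : F → ℤ) (lc : F → Ω)
    (v₀ : Place Ω F) (e : ℤ) (he : 0 < e) (hqo : ∀ f : F, f ≠ 0 → qo f = e * v₀.ord f)
    (hlc_mul : ∀ f g : F, lc (f * g) = lc f * lc g)
    (hlc_const : ∀ c : Ω, lc (algebraMap Ω F c) = c)
    (hlc_ne : ∀ f : F, f ≠ 0 → lc f ≠ 0)
    {u : F} (hu : u ≠ 0) : ∃ w, IsCanon Ω n x qo lc u w := by
  classical
  have : HasPrincipalDivisors Ω F := Fermat.Agent.S24.helper204.hasPrincipalDivisors x hx
  have hdeg := Fermat.Agent.S24.helper204.place_deg_eq_one x hx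
  obtain ⟨sI, hsI, -⟩ := Fermat.Agent.S24.helper204.exists_finset_poles x hx
  have hex : ∃ d : ℕ, ∃ w, InR Ω n x d u w := exists_inR x hx n hn hu
  obtain ⟨w₀, hw₀⟩ := Nat.find_spec hex
  have hmin : ∀ (d' : ℕ) (w' : F), InR Ω n x d' u w' → Nat.find hex ≤ d' :=
    fun d' w' h => Nat.find_min' hex ⟨w', h⟩
  obtain ⟨m, ⟨w₁, hw₁, hm⟩, hmax⟩ :=
    Int.exists_greatest_of_bdd (P := fun m => ∃ w, InR Ω n x (Nat.find hex) u w ∧ qo w = m)
      ⟨e * ((Nat.find hex : ℕ) * sI.card), by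
        rintro z ⟨w, hw, rfl⟩
        rw [hqo w (hw.1.ne_zero hu)]
        exact mul_le_mul_of_nonneg_left
          (hw.ord_le hdeg sI (fun v hv => (hsI v).mpr hv) hu v₀) he.le⟩
      ⟨qo w₀, w₀, hw₀, rfl⟩
  have hw₁0 : w₁ ≠ 0 := hw₁.1.ne_zero hu
  have hl : lc w₁ ≠ 0 := hlc_ne w₁ hw₁0
  have hl' : algebraMap Ω F (lc w₁)⁻¹ ≠ 0 := by simpa using hl
  refine ⟨algebraMap Ω F (lc w₁)⁻¹ * w₁, Nat.find hex, ?_, hmin, ?_, ?_⟩
  · refine ⟨hw₁.1.trans ⟨(lc w₁)⁻¹, 1, inv_ne_zero hl, one_ne_zero, by simp⟩, fun v => ?_⟩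
    have : v.ord (algebraMap Ω F (lc w₁)⁻¹ * w₁) = v.ord w₁ := by
      rw [v.ord_mul hl' hw₁0, Fermat.Agent.S24.helper204.ord_algebraMap_eq_zero, zero_add]
    rw [this]
    exact hw₁.2 v
  · intro w' hw'
    have h1 : qo (algebraMap Ω F (lc w₁)⁻¹ * w₁) = qo w₁ := by
      rw [hqo _ (mul_ne_zero hl' hw₁0), hqo _ hw₁0, v₀.ord_mul hl' hw₁0,
        Fermat.Agent.S24.helper204.ord_algebraMap_eq_zero, zero_add]
    rw [h1, hm]
    exact hmax _ ⟨w', hw', rfl⟩
  · rw [hlc_mul, hlc_const, inv_mul_cancel₀ hl]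

/-! ### Uniqueness -/

/-- **Uniqueness of the canonical representative.** -/
theorem IsCanon.unique {n : ℕ} (hn : n ≠ 0) {x : F} {qo : F → ℤ} {lc : F → Ω}
    (v₀ : Place Ω F) (e : ℤ) (hqo : ∀ f : F, f ≠ 0 → qo f = e * v₀.ord f)
    (hlc_mul : ∀ f g : F, lc (f * g) = lc f * lc g)
    (hlc_const : ∀ c : Ω, lc (algebraMap Ω F c) = c)
    (hlc_ne : ∀ f : F, f ≠ 0 → lc f ≠ 0)
    (hql : ∀ f g : F, f ≠ 0 → g ≠ 0 → qo f = qo g →
      f - algebraMap Ω F (lc f / lc g) * g ≠ 0 →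
        qo f < qo (f - algebraMap Ω F (lc f / lc g) * g))
    {u w₁ w₂ : F} (hu : u ≠ 0) (h₁ : IsCanon Ω n x qo lc u w₁)
    (h₂ : IsCanon Ω n x qo lc u w₂) : w₁ = w₂ := by
  obtain ⟨d₁, hR₁, hmin₁, hmax₁, hl₁⟩ := h₁
  obtain ⟨d₂, hR₂, hmin₂, hmax₂, hl₂⟩ := h₂
  have hd : d₁ = d₂ := le_antisymm (hmin₁ d₂ w₂ hR₂) (hmin₂ d₁ w₁ hR₁)
  subst hd
  have hq : qo w₁ = qo w₂ := le_antisymm (hmax₂ w₁ hR₁) (hmax₁ w₂ hR₂)
  obtain ⟨c₁, t₁, hc₁, ht₁, hw₁⟩ := hR₁.1
  obtain ⟨c₂, t₂, hc₂, ht₂, hw₂⟩ := hR₂.1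
  have hqf : ∀ (c : Ω) (t : F), c ≠ 0 → t ≠ 0 →
      qo (algebraMap Ω F c * u * t ^ n) = qo u + n * qo t := by
    intro c t hc ht
    have hc' : algebraMap Ω F c ≠ 0 := by simpa using hc
    rw [hqo _ (mul_ne_zero (mul_ne_zero hc' hu) (pow_ne_zero n ht)), hqo u hu, hqo t ht,
      ord_const_mul_mul_pow v₀ hc hu ht]
    ring
  have hn' : (0 : ℤ) < n := by exact_mod_cast Nat.pos_of_ne_zero hn
  have hqt : qo t₁ = qo t₂ := by
    have h := hq
    rw [hw₁, hw₂, hqf c₁ t₁ hc₁ ht₁, hqf c₂ t₂ hc₂ ht₂] at h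
    have : (n : ℤ) * qo t₁ = n * qo t₂ := by linarith
    exact mul_left_cancel₀ hn'.ne' this
  have ha0 : lc t₁ / lc t₂ ≠ 0 := div_ne_zero (hlc_ne t₁ ht₁) (hlc_ne t₂ ht₂)
  by_cases h3 : t₁ - algebraMap Ω F (lc t₁ / lc t₂) * t₂ = 0
  · have ht : t₁ = algebraMap Ω F (lc t₁ / lc t₂) * t₂ := sub_eq_zero.mp h3
    have hc₂' : algebraMap Ω F c₂ ≠ 0 := by simpa using hc₂
    have hw : w₁ = algebraMap Ω F (c₁ * (lc t₁ / lc t₂) ^ n / c₂) * w₂ := by
      rw [hw₁, hw₂]
      conv_lhs => rw [ht]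
      generalize lc t₁ / lc t₂ = a
      rw [map_div₀, map_mul, map_pow, mul_pow]
      field_simp
    have h5 : c₁ * (lc t₁ / lc t₂) ^ n / c₂ = 1 := by
      have := congrArg lc hw
      rw [hlc_mul, hlc_const, hl₁, hl₂, mul_one] at this
      exact this.symm
    rw [hw, h5, map_one, one_mul]
  · exfalso
    have hqt₃ := hql t₁ t₂ ht₁ ht₂ hqt h3
    have hR₃ : InR Ω n x d₁ u
        (algebraMap Ω F c₁ * u * (t₁ - algebraMap Ω F (lc t₁ / lc t₂) * t₂) ^ n) := by
      refine ⟨⟨c₁, _, hc₁, h3, rfl⟩, fun v => ?_⟩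
      rw [ord_const_mul_mul_pow v hc₁ hu h3]
      have hmin : min (v.ord t₁) (v.ord t₂)
          ≤ v.ord (t₁ - algebraMap Ω F (lc t₁ / lc t₂) * t₂) := by
        have hat₂ : v.ord (-(algebraMap Ω F (lc t₁ / lc t₂) * t₂)) = v.ord t₂ := by
          rw [neg_mul_eq_neg_mul, ← map_neg,
            v.ord_mul (by simpa using ha0) ht₂,
            Fermat.Agent.S24.helper204.ord_algebraMap_eq_zero, zero_add]
        have := min_ord_le_ord_add v (f := t₁) (g := -(algebraMap Ω F (lc t₁ / lc t₂) * t₂))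
          (by rwa [← sub_eq_add_neg])
        rwa [hat₂, ← sub_eq_add_neg] at this
      have e₁ := hR₁.2 v
      have e₂ := hR₂.2 v
      rw [hw₁, ord_const_mul_mul_pow v hc₁ hu ht₁] at e₁
      rw [hw₂, ord_const_mul_mul_pow v hc₂ hu ht₂] at e₂
      have key : min (v.ord u + n * v.ord t₁) (v.ord u + n * v.ord t₂)
          ≤ v.ord u + n * v.ord (t₁ - algebraMap Ω F (lc t₁ / lc t₂) * t₂) := by
        rcases le_total (v.ord t₁) (v.ord t₂) with h | h
        · rw [min_eq_left h] at hmin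
          have := mul_le_mul_of_nonneg_left hmin hn'.le
          exact (min_le_left _ _).trans (by linarith)
        · rw [min_eq_right h] at hmin
          have := mul_le_mul_of_nonneg_left hmin hn'.le
          exact (min_le_right _ _).trans (by linarith)
      exact ⟨(le_min e₁.1 e₂.1).trans key, fun hx0 => (le_min (e₁.2 hx0) (e₂.2 hx0)).trans key⟩
    have h6 := hmax₁ _ hR₃
    rw [hqf c₁ _ hc₁ h3, hw₁, hqf c₁ t₁ hc₁ ht₁] at h6
    have := mul_lt_mul_of_pos_left hqt₃ hn'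
    linarith

end Abstract

/-! ## Laurent layer -/

section Laurent

open ModularCurve

/-- Coefficientwise maps along a field homomorphism preserve the order. -/
theorem order_coeffMap {R S : Type*} [Field R] [Field S] (φ : R →+* S) (f : LaurentSeries R) :
    (coeffMap φ f).order = f.order := by
  rcases eq_or_ne f 0 with rfl | hf
  · simp
  have hne : coeffMap φ f ≠ 0 := by
    intro h0
    have h1 : (coeffMap φ f).coeff f.order = 0 := by rw [h0, HahnSeries.coeff_zero]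
    rw [coeffMap_coeff, map_eq_zero, HahnSeries.coeff_order_eq_zero] at h1
    exact hf h1
  apply le_antisymm
  · apply HahnSeries.order_le_of_coeff_ne_zero
    rw [coeffMap_coeff, Ne, map_eq_zero, HahnSeries.coeff_order_eq_zero]
    exact hf
  · apply HahnSeries.order_le_of_coeff_ne_zero
    have h1 : (coeffMap φ f).coeff (coeffMap φ f).order ≠ 0 := by
      rw [Ne, HahnSeries.coeff_order_eq_zero]
      exact hne
    rw [coeffMap_coeff] at h1
    intro h0
    exact h1 (by rw [h0, map_zero])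

theorem leadingCoeff_coeffMap {R S : Type*} [Field R] [Field S] (φ : R →+* S)
    (f : LaurentSeries R) : (coeffMap φ f).leadingCoeff = φ f.leadingCoeff := by
  rw [HahnSeries.leadingCoeff_eq, HahnSeries.leadingCoeff_eq, order_coeffMap, coeffMap_coeff]

variable {K Ω : Type*} [Field K] [Field Ω] [Algebra K Ω]
variable (F : IntermediateField Ω (LaurentSeries Ω))

/-- The `q`-order on a field of Laurent series. -/
noncomputable def qo (f : F) : ℤ := (f : LaurentSeries Ω).order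

/-- The leading `q`-coefficient on a field of Laurent series. -/
noncomputable def lc (f : F) : Ω := (f : LaurentSeries Ω).leadingCoeff

theorem coe_algebraMap_eq_single (a : Ω) :
    ((algebraMap Ω F a : F) : LaurentSeries Ω) = HahnSeries.single 0 a := by
  rw [← ModularCurve.algebraMap_laurentSeries_eq_single]
  rfl

theorem coe_ne_zero {f : F} (hf : f ≠ 0) : (f : LaurentSeries Ω) ≠ 0 :=
  fun h => hf (Subtype.ext h)

theorem isIntOrder_qo : Fermat.Agent.S29.helper265.IsIntOrder Ω (qo F) := by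
  refine ⟨fun f g hf hg => ?_, fun f g hf hg hfg => ?_, fun a ha => ?_⟩
  · exact HahnSeries.order_mul (coe_ne_zero F hf) (coe_ne_zero F hg)
  · exact HahnSeries.min_order_le_order_add (coe_ne_zero F hfg)
  · show ((algebraMap Ω F a : F) : LaurentSeries Ω).order = 0
    rw [coe_algebraMap_eq_single, HahnSeries.order_single ha]

theorem lc_mul (f g : F) : lc F (f * g) = lc F f * lc F g :=
  HahnSeries.leadingCoeff_mul _ _

theorem lc_const (c : Ω) : lc F (algebraMap Ω F c) = c := by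
  show ((algebraMap Ω F c : F) : LaurentSeries Ω).leadingCoeff = c
  rw [coe_algebraMap_eq_single, HahnSeries.leadingCoeff_of_single]

theorem lc_ne_zero {f : F} (hf : f ≠ 0) : lc F f ≠ 0 :=
  HahnSeries.leadingCoeff_ne_zero.mpr (coe_ne_zero F hf)

/-- Cancelling the leading terms raises the order. -/
theorem qo_lt_of_cancel (f g : F) (_hf : f ≠ 0) (hg : g ≠ 0) (h : qo F f = qo F g)
    (hne : f - algebraMap Ω F (lc F f / lc F g) * g ≠ 0) :
    qo F f < qo F (f - algebraMap Ω F (lc F f / lc F g) * g) := by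
  have hne' := coe_ne_zero F hne
  have hcoe : ((f - algebraMap Ω F (lc F f / lc F g) * g : F) : LaurentSeries Ω)
      = (f : LaurentSeries Ω) - HahnSeries.single 0 (lc F f / lc F g) * (g : LaurentSeries Ω) := by
    rw [← coe_algebraMap_eq_single F]
    rfl
  have hgl : lc F g ≠ 0 := lc_ne_zero F hg
  show (f : LaurentSeries Ω).order < _
  rw [Int.lt_iff_add_one_le]
  show _ ≤ ((f - algebraMap Ω F (lc F f / lc F g) * g : F) : LaurentSeries Ω).order
  rw [HahnSeries.le_order_iff_forall hne']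
  intro j hj
  rw [hcoe, HahnSeries.coeff_sub, HahnSeries.coeff_single_zero_mul]
  rcases (Int.lt_add_one_iff.mp hj).lt_or_eq with hlt | rfl
  · rw [HahnSeries.coeff_eq_zero_of_lt_order hlt]
    have hlt' : j < (g : LaurentSeries Ω).order := by
      have : (f : LaurentSeries Ω).order = (g : LaurentSeries Ω).order := h
      rwa [← this]
    rw [HahnSeries.coeff_eq_zero_of_lt_order hlt', mul_zero, sub_zero]
  · have h1 : (f : LaurentSeries Ω).coeff (f : LaurentSeries Ω).order = lc F f :=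
      HahnSeries.leadingCoeff_eq.symm
    have h2 : (g : LaurentSeries Ω).coeff (f : LaurentSeries Ω).order = lc F g := by
      have : (f : LaurentSeries Ω).order = (g : LaurentSeries Ω).order := h
      rw [this]
      exact HahnSeries.leadingCoeff_eq.symm
    rw [h1, h2, div_mul_cancel₀ _ hgl, sub_self]

/-! ### The coefficientwise Galois action -/

variable {F}

/-- The coefficientwise action of `σ` restricted to a stable field of Laurent series. -/
noncomputable def coeffRes (hF : ∀ (σ : Ω ≃ₐ[K] Ω) (f : LaurentSeries Ω), f ∈ F → coeffMap (σ : Ω →+* Ω) f ∈ F)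
    (σ : Ω ≃ₐ[K] Ω) : F →+* F :=
  ((coeffMap (σ : Ω →+* Ω)).comp (algebraMap F (LaurentSeries Ω))).codRestrict F
    (fun f => hF σ f f.2)

theorem coe_coeffRes
    (hF : ∀ (σ : Ω ≃ₐ[K] Ω) (f : LaurentSeries Ω), f ∈ F → coeffMap (σ : Ω →+* Ω) f ∈ F)
    (σ : Ω ≃ₐ[K] Ω) (f : F) :
    ((coeffRes hF σ f : F) : LaurentSeries Ω) = coeffMap (σ : Ω →+* Ω) f := rfl

/-- The semilinear automorphism of `F` induced by the coefficientwise action of `σ`. -/
noncomputable def galAut (hF : ∀ (σ : Ω ≃ₐ[K] Ω) (f : LaurentSeries Ω), f ∈ F → coeffMap (σ : Ω →+* Ω) f ∈ F)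
    (σ : Ω ≃ₐ[K] Ω) : SemilinearAut Ω F :=
  ⟨(RingEquiv.ofRingHom (coeffRes hF σ) (coeffRes hF σ.symm)
      (by
        ext f k
        simp [coe_coeffRes])
      (by
        ext f k
        simp [coe_coeffRes]), σ.toRingEquiv),
    fun a => by
      apply Subtype.ext
      show coeffMap (σ : Ω →+* Ω) (algebraMap Ω (LaurentSeries Ω) a) = _
      rw [ModularCurve.coeffMap_algebraMap]
      rfl⟩

theorem coe_galAut_smul
    (hF : ∀ (σ : Ω ≃ₐ[K] Ω) (f : LaurentSeries Ω), f ∈ F → coeffMap (σ : Ω →+* Ω) f ∈ F)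
    (σ : Ω ≃ₐ[K] Ω) (f : F) :
    ((galAut hF σ • f : F) : LaurentSeries Ω) = coeffMap (σ : Ω →+* Ω) f := rfl

theorem baseAut_galAut
    (hF : ∀ (σ : Ω ≃ₐ[K] Ω) (f : LaurentSeries Ω), f ∈ F → coeffMap (σ : Ω →+* Ω) f ∈ F)
    (σ : Ω ≃ₐ[K] Ω) (a : Ω) : SemilinearAut.baseAut (galAut hF σ) a = σ a := rfl

variable (F)

/-- **Canonical representatives have finitely many conjugates.**  If the conjugates of `u`
under the coefficientwise action of `Aut(Ω/K)` meet only finitely many classes modulo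
`Ωˣ · (Fˣ)ⁿ`, then the class of `u` contains an element with finitely many coefficientwise
conjugates. -/
theorem exists_sameClass_finite_conjugates [IsAlgClosed Ω] [CharZero Ω]
    (hF : ∀ (σ : Ω ≃ₐ[K] Ω) (f : LaurentSeries Ω), f ∈ F → coeffMap (σ : Ω →+* Ω) f ∈ F)
    (x : F) (hx : Transcendental Ω x) [FiniteDimensional Ω⟮x⟯ F]
    (hxfix : ∀ σ : Ω ≃ₐ[K] Ω, coeffMap (σ : Ω →+* Ω) (x : LaurentSeries Ω) = x)
    (hnt : ∃ f : F, f ≠ 0 ∧ (f : LaurentSeries Ω).order ≠ 0)
    (n : ℕ) (hn : n ≠ 0) (T : Set F) (hT : T.Finite) (u : F) (hu : u ≠ 0)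
    (hcls : ∀ (σ : Ω ≃ₐ[K] Ω) (u' : F),
      (u' : LaurentSeries Ω) = coeffMap (σ : Ω →+* Ω) (u : LaurentSeries Ω) →
        ∃ s ∈ T, SameClass Ω n s u') :
    ∃ w : F, SameClass Ω n u w ∧
      (Set.range fun σ : Ω ≃ₐ[K] Ω => coeffMap (σ : Ω →+* Ω) (w : LaurentSeries Ω)).Finite := by
  classical
  obtain ⟨v₀, e, he, hqo⟩ := (isIntOrder_qo F).exists_place hnt
  have he' : (0 : ℤ) < e := by exact_mod_cast he
  have hcan : ∀ s : F, s ≠ 0 → ∃ w, IsCanon Ω n x (qo F) (lc F) s w := fun s hs =>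
    exists_isCanon x hx n hn (qo F) (lc F) v₀ e he' hqo (lc_mul F) (lc_const F)
      (fun f hf => lc_ne_zero F hf) hs
  have huniq : ∀ s w₁ w₂ : F, s ≠ 0 → IsCanon Ω n x (qo F) (lc F) s w₁ →
      IsCanon Ω n x (qo F) (lc F) s w₂ → w₁ = w₂ := fun s w₁ w₂ hs h₁ h₂ =>
    IsCanon.unique hn v₀ e hqo (lc_mul F) (lc_const F) (fun f hf => lc_ne_zero F hf)
      (qo_lt_of_cancel F) hs h₁ h₂
  obtain ⟨w, hw⟩ := hcan u hu
  refine ⟨w, hw.sameClass, ?_⟩
  have hS : (⋃ s ∈ T, {z : LaurentSeries Ω | ∃ w' : F, s ≠ 0 ∧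
      IsCanon Ω n x (qo F) (lc F) s w' ∧ (w' : LaurentSeries Ω) = z}).Finite := by
    refine hT.biUnion fun s _ => Set.Subsingleton.finite ?_
    rintro z₁ ⟨w₁, hs, h₁, rfl⟩ z₂ ⟨w₂, -, h₂, rfl⟩
    rw [huniq s w₁ w₂ hs h₁ h₂]
  refine hS.subset ?_
  rintro _ ⟨σ, rfl⟩
  have hgx : galAut hF σ • x = x := Subtype.ext (hxfix σ)
  have h1 : IsCanon Ω n x (qo F) (lc F) (galAut hF σ • u) (galAut hF σ • w) :=
    hw.smul (galAut hF σ) hgx (fun f => order_coeffMap _ _) (fun f => leadingCoeff_coeffMap _ _)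
  obtain ⟨s, hsT, hs⟩ := hcls σ (galAut hF σ • u) rfl
  have hgu : galAut hF σ • u ≠ 0 := by
    rw [SemilinearAut.smul_def]
    exact (RingEquiv.map_ne_zero_iff _).mpr hu
  have hs0 : s ≠ 0 := hs.ne_zero' hgu
  exact Set.mem_biUnion hsT ⟨galAut hF σ • w, hs0, h1.of_sameClass hs.symm, rfl⟩

/-- Kummer form: if there are finitely many classes of functions whose divisor is divisible
by `n`, then every such class contains an element with finitely many conjugates. -/
theorem exists_sameClass_finite_conjugates_of_kummer [IsAlgClosed Ω] [CharZero Ω]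
    (hF : ∀ (σ : Ω ≃ₐ[K] Ω) (f : LaurentSeries Ω), f ∈ F → coeffMap (σ : Ω →+* Ω) f ∈ F)
    (x : F) (hx : Transcendental Ω x) [FiniteDimensional Ω⟮x⟯ F]
    (hxfix : ∀ σ : Ω ≃ₐ[K] Ω, coeffMap (σ : Ω →+* Ω) (x : LaurentSeries Ω) = x)
    (hnt : ∃ f : F, f ≠ 0 ∧ (f : LaurentSeries Ω).order ≠ 0)
    (n : ℕ) (hn : n ≠ 0)
    (hfin : ∃ T : Set F, T.Finite ∧ ∀ u' : F, u' ≠ 0 →
      (∀ v : Place Ω F, (n : ℤ) ∣ v.ord u') → ∃ s ∈ T, SameClass Ω n s u')
    (u : F) (hu : u ≠ 0) (hk : ∀ v : Place Ω F, (n : ℤ) ∣ v.ord u) :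
    ∃ w : F, SameClass Ω n u w ∧
      (Set.range fun σ : Ω ≃ₐ[K] Ω => coeffMap (σ : Ω →+* Ω) (w : LaurentSeries Ω)).Finite := by
  obtain ⟨T, hT, hcl⟩ := hfin
  refine exists_sameClass_finite_conjugates F hF x hx hxfix hnt n hn T hT u hu ?_
  intro σ u' hu'
  have hu'' : u' = galAut hF σ • u := Subtype.ext hu'
  subst hu''
  refine hcl _ ?_ fun v => ?_
  · rw [SemilinearAut.smul_def]
    exact (RingEquiv.map_ne_zero_iff _).mpr hu
  · rw [ord_smul_eq]
    exact hk _

end Laurent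

/-! ## Base-change layer: descent `Ω → K` for `laurentBaseChange` -/

section BaseChange

open ModularCurve

variable {K Ω : Type*} [Field K] [Field Ω] [Algebra K Ω] [Algebra ℚ K] [Algebra ℚ Ω]
  [IsAlgClosed K] [IsAlgClosed Ω] [CharZero Ω]

/-- **Descent `Ω → K` of a class modulo constants and `n`-th powers** (sharp form).
`F₀ ⊆ ℚ((q))` a function field, `x` a transcendental element of its base change to `Ω` with
`K`-rational coefficients and nonzero `q`-order, the base change finite over `Ω(x)`.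
If the coefficientwise conjugates of `u` under `Aut(Ω/K)` meet only finitely many classes
modulo `Ωˣ · (Fˣ)ⁿ`, then the class of `u` contains the image of an element of the base change
of `F₀` to `K`. -/
theorem exists_descent (F₀ : IntermediateField ℚ (LaurentSeries ℚ))
    (x : laurentBaseChange Ω F₀) (hx : Transcendental Ω x)
    [FiniteDimensional Ω⟮x⟯ (laurentBaseChange Ω F₀)]
    (hxfix : ∀ σ : Ω ≃ₐ[K] Ω, coeffMap (σ : Ω →+* Ω) (x : LaurentSeries Ω) = x)
    (hxord : (x : LaurentSeries Ω).order ≠ 0)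
    (n : ℕ) (hn : n ≠ 0) (T : Set (laurentBaseChange Ω F₀)) (hT : T.Finite)
    (u : laurentBaseChange Ω F₀) (hu : u ≠ 0)
    (hcls : ∀ (σ : Ω ≃ₐ[K] Ω) (u' : laurentBaseChange Ω F₀),
      (u' : LaurentSeries Ω) = coeffMap (σ : Ω →+* Ω) (u : LaurentSeries Ω) →
        ∃ s ∈ T, SameClass Ω n s u') :
    ∃ (u₀ : LaurentSeries K) (w : laurentBaseChange Ω F₀),
      u₀ ∈ laurentBaseChange K F₀ ∧ u₀ ≠ 0 ∧
      coeffMap (algebraMap K Ω) u₀ = (w : LaurentSeries Ω) ∧ SameClass Ω n u w := by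
  have hF : ∀ (σ : Ω ≃ₐ[K] Ω) (f : LaurentSeries Ω), f ∈ laurentBaseChange Ω F₀ →
      coeffMap (σ : Ω →+* Ω) f ∈ laurentBaseChange Ω F₀ := fun σ f hf =>
    Fermat.Agent.S29.helper6961.coeffMap_mem_laurentBaseChange_of_mem F₀ (σ : Ω →+* Ω) hf
  have hx0 : x ≠ 0 := by
    rintro rfl
    exact hxord (by simp)
  obtain ⟨w, hw, hfin⟩ := exists_sameClass_finite_conjugates (K := K) (laurentBaseChange Ω F₀) hF
    x hx hxfix ⟨x, hx0, hxord⟩ n hn T hT u hu hcls
  obtain ⟨u₀, hu₀, hu₀w⟩ :=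
    Fermat.Agent.S29.helper6961.exists_descent_of_finite_conjugates (K := K) F₀ hfin w.2
  refine ⟨u₀, w, hu₀, ?_, hu₀w, hw⟩
  rintro rfl
  have hw0 : w ≠ 0 := hw.ne_zero hu
  apply hw0
  apply Subtype.ext
  rw [← hu₀w, map_zero]
  rfl

/-- **Descent `Ω → K`, Kummer form**: if the functions whose divisor is divisible by `n`
fall into finitely many classes modulo `Ωˣ · (Fˣ)ⁿ`, every such function is, up to a constant
and an `n`-th power, defined over `K`. -/
theorem exists_descent_of_finite_kummer (F₀ : IntermediateField ℚ (LaurentSeries ℚ))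
    (x : laurentBaseChange Ω F₀) (hx : Transcendental Ω x)
    [FiniteDimensional Ω⟮x⟯ (laurentBaseChange Ω F₀)]
    (hxfix : ∀ σ : Ω ≃ₐ[K] Ω, coeffMap (σ : Ω →+* Ω) (x : LaurentSeries Ω) = x)
    (hxord : (x : LaurentSeries Ω).order ≠ 0)
    (n : ℕ) (hn : n ≠ 0)
    (hfin : ∃ T : Set (laurentBaseChange Ω F₀), T.Finite ∧ ∀ u' : laurentBaseChange Ω F₀,
      u' ≠ 0 → (∀ v : Place Ω (laurentBaseChange Ω F₀), (n : ℤ) ∣ v.ord u') →
        ∃ s ∈ T, SameClass Ω n s u')
    (u : laurentBaseChange Ω F₀) (hu : u ≠ 0)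
    (hk : ∀ v : Place Ω (laurentBaseChange Ω F₀), (n : ℤ) ∣ v.ord u) :
    ∃ (u₀ : LaurentSeries K) (w : laurentBaseChange Ω F₀),
      u₀ ∈ laurentBaseChange K F₀ ∧ u₀ ≠ 0 ∧
      coeffMap (algebraMap K Ω) u₀ = (w : LaurentSeries Ω) ∧ SameClass Ω n u w := by
  have hF : ∀ (σ : Ω ≃ₐ[K] Ω) (f : LaurentSeries Ω), f ∈ laurentBaseChange Ω F₀ →
      coeffMap (σ : Ω →+* Ω) f ∈ laurentBaseChange Ω F₀ := fun σ f hf =>
    Fermat.Agent.S29.helper6961.coeffMap_mem_laurentBaseChange_of_mem F₀ (σ : Ω →+* Ω) hf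
  obtain ⟨T, hT, hcl⟩ := hfin
  refine exists_descent F₀ x hx hxfix hxord n hn T hT u hu ?_
  intro σ u' hu'
  have hu'' : u' = galAut hF σ • u := Subtype.ext hu'
  subst hu''
  refine hcl _ ?_ fun v => ?_
  · rw [SemilinearAut.smul_def]
    exact (RingEquiv.map_ne_zero_iff _).mpr hu
  · rw [ord_smul_eq]
    exact hk _

omit [CharZero Ω] in
/-- **Descent of roots** (bonus, no function-field hypothesis): an `n`-th root in the base
change to `Ω` of (the image of) a series with coefficients in `K` is itself defined over `K`. -/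
theorem exists_descent_of_pow_eq (F₀ : IntermediateField ℚ (LaurentSeries ℚ)) {n : ℕ}
    (hn : n ≠ 0) (a : LaurentSeries K) {w : LaurentSeries Ω} (hw : w ∈ laurentBaseChange Ω F₀)
    (h : w ^ n = coeffMap (algebraMap K Ω) a) :
    ∃ w₀ ∈ laurentBaseChange K F₀, coeffMap (algebraMap K Ω) w₀ = w := by
  classical
  refine Fermat.Agent.S29.helper6961.exists_descent_of_finite_conjugates (K := K) F₀ ?_ hw
  refine ((Polynomial.nthRoots n (coeffMap (algebraMap K Ω) a)).toFinset.finite_toSet).subset ?_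
  rintro _ ⟨σ, rfl⟩
  rw [Finset.mem_coe, Multiset.mem_toFinset, Polynomial.mem_nthRoots (Nat.pos_of_ne_zero hn),
    ← map_pow, h, coeffMap_coeffMap]
  exact coeffMap_congr (RingHom.ext fun c => σ.commutes c) a

end BaseChange

end Fermat.Agent.S29.helper6855
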