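import Mathlib

/-!
# The dimension-2 lemma (helper7164, S29-DIM2)

Let `K` be an algebraically closed field (any characteristic, including `2`), `G` a group acting
on a nonzero finite-dimensional `K`-vector space `W` through `ρ : G →* Module.End K W`, and let
`eps : G →* Kˣ` be a character.  Assume that every `g : G` satisfies a quadratic relation
`ρ g ^ 2 - t • ρ g + eps g = 0` for some scalar `t` (depending on `g`).

Then there is a two-dimensional representation `M : G →* Matrix (Fin 2) (Fin 2) K` such that for
every `g` and *every* `t` for which the relation holds, `trace (M g) = t` and `det (M g) = eps g`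
(so the characteristic polynomial of `M g` is `X ^ 2 - t X + eps g`), and `M g = 1` whenever
`ρ g = 1` and `eps g = 1`.

Proof: pass to a minimal nonzero invariant subspace (irreducible).  The relation gives
`g h + h g = t(g) h + t(h) g + (t(hg) - t(g) t(h))`.  If some `ρ g` is not a scalar, an eigenvector
`v` of `ρ g` (eigenvalue `λ`) shows that `ρ g - (t(g) - λ)` has image in `K v`; doing this for two
independent eigenvectors bounds the dimension by `2`, and in dimension `2` Cayley–Hamilton
identifies trace and determinant.  If all `ρ g` are scalars `χ(g)`, take `χ ⊕ eps / χ`.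

This is the form of the "Boston–Lenstra–Ribet"-type step used to cut a two-dimensional residual
representation out of the Hecke eigenspace of the `p`-torsion of a Jacobian, given the
Eichler–Shimura relation at Frobenius elements and Chebotarev.
-/

set_option autoImplicit false

open Polynomial Module

namespace Fermat.Agent.S29.helper7164

section Core

variable {K : Type*} [Field K] {W : Type*} [AddCommGroup W] [Module K W]

/-- The quadratic relation `a ^ 2 - t a + e = 0` for an endomorphism `a`. -/
def QuadRel (a : Module.End K W) (t e : K) : Prop :=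
  a * a - t • a + e • (1 : Module.End K W) = 0

theorem QuadRel.sq_eq {a : Module.End K W} {t e : K} (h : QuadRel a t e) :
    a * a = t • a - e • (1 : Module.End K W) := by
  unfold QuadRel at h
  rw [← sub_eq_zero, ← h]
  abel

theorem quadRel_iff_sq_eq {a : Module.End K W} {t e : K} :
    QuadRel a t e ↔ a * a = t • a - e • (1 : Module.End K W) := by
  refine ⟨QuadRel.sq_eq, fun h => ?_⟩
  unfold QuadRel
  rw [h]
  abel

theorem smul_one_injective [Nontrivial W] :
    Function.Injective (fun c : K => c • (1 : Module.End K W)) := by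
  intro c d h
  obtain ⟨v, hv⟩ := exists_ne (0 : W)
  have h2 := congrArg (fun f : Module.End K W => f v) h
  simp only [LinearMap.smul_apply, Module.End.one_apply] at h2
  exact smul_left_injective K hv h2

theorem smul_one_eq_zero_iff [Nontrivial W] {c : K} :
    c • (1 : Module.End K W) = 0 ↔ c = 0 := by
  constructor
  · intro h
    have : c • (1 : Module.End K W) = (0 : K) • (1 : Module.End K W) := by rw [h, zero_smul]
    exact smul_one_injective this
  · rintro rfl
    rw [zero_smul]

/-- A non-scalar endomorphism is linearly independent from `1`. -/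
theorem eq_zero_of_smul_add_smul_one [Nontrivial W] {a : Module.End K W}
    (ha : ∀ c : K, a ≠ c • (1 : Module.End K W)) {α β : K}
    (h : α • a + β • (1 : Module.End K W) = 0) : α = 0 ∧ β = 0 := by
  have hα : α = 0 := by
    by_contra hα
    refine ha (-(α⁻¹ * β)) ?_
    have h2 : α • a = -(β • (1 : Module.End K W)) := eq_neg_of_add_eq_zero_left h
    have h3 : a = α⁻¹ • (α • a) := by rw [smul_smul, inv_mul_cancel₀ hα, one_smul]
    rw [h3, h2, smul_neg, smul_smul, neg_smul]
  refine ⟨hα, ?_⟩
  rw [hα, zero_smul, zero_add] at h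
  exact smul_one_eq_zero_iff.mp h

/-- The anticommutator identity: if `a`, `b`, `b * a` satisfy quadratic relations with
multiplicative constant terms, then `a b + b a = s b + t a + (u - s t)`. -/
theorem anticomm_of_quadRel {a b : Module.End K W} {s t u e f : K} (he : e ≠ 0) (hf : f ≠ 0)
    (ha : QuadRel a s e) (hb : QuadRel b t f) (hc : QuadRel (b * a) u (f * e)) :
    a * b + b * a = s • b + t • a + (u - s * t) • (1 : Module.End K W) := by
  have ha2 := ha.sq_eq
  have hb2 := hb.sq_eq
  have hc2 := hc.sq_eq
  -- `a * (s - a) = e`, `b * (t - b) = f`, `(u - b a) * (b a) = f e`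
  have h1 : a * (s • (1 : Module.End K W) - a) = e • (1 : Module.End K W) := by
    rw [mul_sub, mul_smul_comm, mul_one, ha2]
    abel
  have h2 : b * (t • (1 : Module.End K W) - b) = f • (1 : Module.End K W) := by
    rw [mul_sub, mul_smul_comm, mul_one, hb2]
    abel
  have h3 : (u • (1 : Module.End K W) - b * a) * (b * a) = (f * e) • (1 : Module.End K W) := by
    rw [sub_mul, smul_mul_assoc, one_mul, hc2]
    abel
  have h4 : (b * a) * ((s • (1 : Module.End K W) - a) * (t • (1 : Module.End K W) - b))
      = (f * e) • (1 : Module.End K W) := by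
    rw [mul_assoc, ← mul_assoc a, h1, smul_mul_assoc, one_mul, mul_smul_comm, h2, smul_smul,
      mul_comm e f]
  have h5 : (f * e) • ((s • (1 : Module.End K W) - a) * (t • (1 : Module.End K W) - b))
      = (f * e) • (u • (1 : Module.End K W) - b * a) := by
    calc (f * e) • ((s • (1 : Module.End K W) - a) * (t • (1 : Module.End K W) - b))
        = ((f * e) • (1 : Module.End K W)) *
            ((s • (1 : Module.End K W) - a) * (t • (1 : Module.End K W) - b)) := by
          rw [smul_mul_assoc, one_mul]
      _ = (u • (1 : Module.End K W) - b * a) *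
            ((b * a) * ((s • (1 : Module.End K W) - a) * (t • (1 : Module.End K W) - b))) := by
          rw [← h3, mul_assoc]
      _ = (f * e) • (u • (1 : Module.End K W) - b * a) := by
          rw [h4, mul_smul_comm, mul_one]
  have h6 : (s • (1 : Module.End K W) - a) * (t • (1 : Module.End K W) - b)
      = u • (1 : Module.End K W) - b * a :=
    smul_right_injective _ (mul_ne_zero hf he) h5
  have h7 : (s • (1 : Module.End K W) - a) * (t • (1 : Module.End K W) - b)
      = (s * t) • (1 : Module.End K W) - s • b - t • a + a * b := by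
    rw [sub_mul, mul_sub, mul_sub, smul_mul_assoc, one_mul, smul_mul_assoc, one_mul,
      mul_smul_comm, mul_one, smul_smul]
    abel
  rw [h7] at h6
  have h8 : a * b + b * a - (s • b + t • a + (u • (1 : Module.End K W)
      - (s * t) • (1 : Module.End K W))) = 0 := by
    rw [← sub_eq_zero] at h6
    rw [← h6]
    abel
  rw [sub_smul]
  exact sub_eq_zero.mp h8

end Core

section Rep

variable {K : Type*} [Field K] {W : Type*} [AddCommGroup W] [Module K W]
variable {G : Type*} [Group G]

/-- Irreducibility in the form used by `ResidualGaloisRep.IsIrreducible`. -/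
def IsIrr (ρ : G →* Module.End K W) : Prop :=
  ∀ U : Submodule K W, (∀ g, ∀ x ∈ U, ρ g x ∈ U) → U = ⊥ ∨ U = ⊤

theorem span_orbit_eq_top {ρ : G →* Module.End K W} (hirr : IsIrr ρ) {v : W} (hv : v ≠ 0) :
    Submodule.span K (Set.range fun h : G => ρ h v) = ⊤ := by
  have hinv : ∀ g, ∀ x ∈ Submodule.span K (Set.range fun h : G => ρ h v),
      ρ g x ∈ Submodule.span K (Set.range fun h : G => ρ h v) := by
    intro g x hx
    induction hx using Submodule.span_induction with
    | mem y hy =>
      obtain ⟨h, rfl⟩ := hy
      refine Submodule.subset_span ⟨g * h, ?_⟩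
      simp [map_mul]
    | zero => simp
    | add y z _ _ hy hz => rw [map_add]; exact Submodule.add_mem _ hy hz
    | smul c y _ hy => rw [map_smul]; exact Submodule.smul_mem _ c hy
  rcases hirr _ hinv with h | h
  · exfalso
    have hmem : v ∈ Submodule.span K (Set.range fun h : G => ρ h v) :=
      Submodule.subset_span ⟨1, by simp⟩
    rw [h, Submodule.mem_bot] at hmem
    exact hv hmem
  · exact h

/-- If `v` is an eigenvector of `ρ g` with eigenvalue `lam`, then `ρ g - (s - lam)` has image in
the line `K v`. -/
theorem apply_sub_smul_mem_span {ρ : G →* Module.End K W} (hirr : IsIrr ρ) (eps : G →* Kˣ)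
    (hquad : ∀ g, ∃ t : K, QuadRel (ρ g) t (eps g))
    {g : G} {s : K} (hs : QuadRel (ρ g) s (eps g)) {v : W} (hv : v ≠ 0) {lam : K}
    (hlam : ρ g v = lam • v) (w : W) :
    ρ g w - (s - lam) • w ∈ Submodule.span K {v} := by
  have hw : w ∈ Submodule.span K (Set.range fun h : G => ρ h v) := by
    rw [span_orbit_eq_top hirr hv]; trivial
  induction hw using Submodule.span_induction with
  | mem y hy =>
    obtain ⟨h, rfl⟩ := hy
    obtain ⟨t, ht⟩ := hquad h
    obtain ⟨u, hu⟩ := hquad (h * g)
    rw [map_mul, map_mul, Units.val_mul] at hu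
    have key := anticomm_of_quadRel (eps g).ne_zero (eps h).ne_zero hs ht hu
    have key2 := congrArg (fun F : Module.End K W => F v) key
    simp only [LinearMap.add_apply, Module.End.mul_apply, LinearMap.smul_apply,
      Module.End.one_apply, hlam, map_smul] at key2
    -- key2 : ρ g (ρ h v) + lam • ρ h v = s • ρ h v + t • lam • v + (u - s * t) • v
    have : ρ g (ρ h v) - (s - lam) • ρ h v = (t * lam + (u - s * t)) • v := by
      have h3 : ρ g (ρ h v) = s • ρ h v + t • lam • v + (u - s * t) • v - lam • ρ h v :=
        eq_sub_of_add_eq key2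
      rw [h3]
      module
    rw [this]
    exact Submodule.smul_mem _ _ (Submodule.mem_span_singleton_self v)
  | zero => simp
  | add y z _ _ hy hz =>
    have : ρ g (y + z) - (s - lam) • (y + z)
        = (ρ g y - (s - lam) • y) + (ρ g z - (s - lam) • z) := by
      rw [map_add, smul_add]; abel
    rw [this]
    exact Submodule.add_mem _ hy hz
  | smul c y _ hy =>
    have : ρ g (c • y) - (s - lam) • (c • y) = c • (ρ g y - (s - lam) • y) := by
      rw [map_smul, smul_sub, smul_comm]
    rw [this]
    exact Submodule.smul_mem _ c hy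

/-- **Dimension bound**: if some `ρ g` is not a scalar then `dim W ≤ 2`. -/
theorem finrank_le_two [IsAlgClosed K] [FiniteDimensional K W] [Nontrivial W]
    {ρ : G →* Module.End K W} (hirr : IsIrr ρ) (eps : G →* Kˣ)
    (hquad : ∀ g, ∃ t : K, QuadRel (ρ g) t (eps g))
    (g : G) (hg : ∀ c : K, ρ g ≠ c • (1 : Module.End K W)) :
    Module.finrank K W ≤ 2 := by
  by_contra hcon
  have h3 : 3 ≤ Module.finrank K W := by omega
  obtain ⟨s, hs⟩ := hquad g
  obtain ⟨lam, hlam⟩ := Module.End.exists_eigenvalue (ρ g)
  obtain ⟨v, hv⟩ := hlam.exists_hasEigenvector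
  have hv0 : v ≠ 0 := hv.2
  have hvlam : ρ g v = lam • v := hv.apply_eq_smul
  set mu : K := s - lam with hmu
  -- the endomorphism `N = ρ g - mu`
  set N : Module.End K W := ρ g - mu • (1 : Module.End K W) with hN
  have hNapp : ∀ w, N w = ρ g w - mu • w := by
    intro w; simp [hN]
  have hrange : LinearMap.range N ≤ Submodule.span K {v} := by
    rintro _ ⟨w, rfl⟩
    rw [hNapp]
    exact apply_sub_smul_mem_span hirr eps hquad hs hv0 hvlam w
  have hr1 : Module.finrank K (LinearMap.range N) ≤ 1 := by
    calc Module.finrank K (LinearMap.range N) ≤ Module.finrank K (Submodule.span K {v}) :=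
          Submodule.finrank_mono hrange
      _ = 1 := finrank_span_singleton hv0
  have hrk := LinearMap.finrank_range_add_finrank_ker N
  -- a second eigenvector, for the eigenvalue `mu`, outside the line `K v`
  obtain ⟨v', hv'ker, hv'not⟩ : ∃ v' ∈ LinearMap.ker N, v' ∉ Submodule.span K {v} := by
    by_contra hno
    have hle : LinearMap.ker N ≤ Submodule.span K {v} := by
      intro x hx
      by_contra hx'
      exact hno ⟨x, hx, hx'⟩
    have : Module.finrank K (LinearMap.ker N) ≤ 1 := by
      calc Module.finrank K (LinearMap.ker N) ≤ Module.finrank K (Submodule.span K {v}) :=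
            Submodule.finrank_mono hle
        _ = 1 := finrank_span_singleton hv0
    omega
  have hv'0 : v' ≠ 0 := by
    rintro rfl
    exact hv'not (Submodule.zero_mem _)
  have hv'mu : ρ g v' = mu • v' := by
    have := LinearMap.mem_ker.mp hv'ker
    rw [hNapp] at this
    exact sub_eq_zero.mp this
  have hsmu : s - mu = lam := by rw [hmu]; ring
  -- for every `w`: `ρ g w - mu w ∈ K v` and `ρ g w - lam w ∈ K v'`
  have hA : ∀ w, ρ g w - mu • w ∈ Submodule.span K {v} := fun w =>
    apply_sub_smul_mem_span hirr eps hquad hs hv0 hvlam w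
  have hB : ∀ w, ρ g w - lam • w ∈ Submodule.span K {v'} := fun w => by
    have := apply_sub_smul_mem_span hirr eps hquad hs hv'0 hv'mu w
    rwa [hsmu] at this
  by_cases hlm : lam = mu
  · -- then `ρ g - mu` has image in `K v ⊓ K v' = 0`, so `ρ g` is a scalar
    refine hg mu ?_
    ext w
    have h1 := hA w
    have h2 := hB w
    rw [hlm] at h2
    obtain ⟨c, hc⟩ := Submodule.mem_span_singleton.mp h1
    obtain ⟨d, hd⟩ := Submodule.mem_span_singleton.mp h2
    have hd0 : d = 0 := by
      by_contra hd0
      refine hv'not (Submodule.mem_span_singleton.mpr ⟨d⁻¹ * c, ?_⟩)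
      rw [mul_smul, hc, ← hd, smul_smul, inv_mul_cancel₀ hd0, one_smul]
    rw [hd0, zero_smul] at hd
    simp only [LinearMap.smul_apply, Module.End.one_apply]
    exact sub_eq_zero.mp hd.symm
  · -- then every `w` lies in the span of `v` and `v'`
    have htop : (⊤ : Submodule K W) ≤ Submodule.span K {v, v'} := by
      intro w _
      have h1 := hA w
      have h2 := hB w
      have hsub : (lam - mu) • w = (ρ g w - mu • w) - (ρ g w - lam • w) := by
        rw [sub_smul]; abel
      have hmem : (lam - mu) • w ∈ Submodule.span K {v, v'} := by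
        rw [hsub]
        refine Submodule.sub_mem _ ?_ ?_
        · exact Submodule.span_mono (by simp) h1
        · exact Submodule.span_mono (by simp) h2
      have hne : lam - mu ≠ 0 := sub_ne_zero.mpr hlm
      have : w = (lam - mu)⁻¹ • ((lam - mu) • w) := by
        rw [smul_smul, inv_mul_cancel₀ hne, one_smul]
      rw [this]
      exact Submodule.smul_mem _ _ hmem
    have hfin : Module.finrank K W ≤ 2 := by
      classical
      have h1 : Module.finrank K (⊤ : Submodule K W) ≤
          Module.finrank K (Submodule.span K ({v, v'} : Set W)) := Submodule.finrank_mono htop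
      rw [finrank_top] at h1
      have h2 : Module.finrank K (Submodule.span K ((({v, v'} : Finset W) : Set W)))
          ≤ ({v, v'} : Finset W).card := finrank_span_finset_le_card _
      have h3 : ({v, v'} : Finset W).card ≤ 2 := Finset.card_le_two
      have h4 : ((({v, v'} : Finset W) : Set W)) = ({v, v'} : Set W) := by simp
      rw [h4] at h2
      omega
    omega

end Rep

section Matrix2

variable {K : Type*} [Field K]

/-- Cayley–Hamilton for `2 × 2` matrices. -/
theorem matrix_two_cayley_hamilton (M : Matrix (Fin 2) (Fin 2) K) :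
    M * M - M.trace • M + M.det • (1 : Matrix (Fin 2) (Fin 2) K) = 0 := by
  ext i j
  fin_cases i <;> fin_cases j <;>
    simp [Matrix.mul_apply, Fin.sum_univ_two, Matrix.trace_fin_two, Matrix.det_fin_two] <;> ring

/-- A non-scalar `2 × 2` matrix with `M² - t M + e = 0` has trace `t` and determinant `e`. -/
theorem trace_det_of_quadratic_of_not_scalar {M : Matrix (Fin 2) (Fin 2) K} {t e : K}
    (h : M * M - t • M + e • (1 : Matrix (Fin 2) (Fin 2) K) = 0)
    (hM : ∀ c : K, M ≠ c • (1 : Matrix (Fin 2) (Fin 2) K)) :
    M.trace = t ∧ M.det = e := by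
  have hch := matrix_two_cayley_hamilton M
  have hdiff : (M.trace - t) • M = (M.det - e) • (1 : Matrix (Fin 2) (Fin 2) K) := by
    have : (M.trace - t) • M - (M.det - e) • (1 : Matrix (Fin 2) (Fin 2) K)
        = (M * M - t • M + e • (1 : Matrix (Fin 2) (Fin 2) K))
          - (M * M - M.trace • M + M.det • (1 : Matrix (Fin 2) (Fin 2) K)) := by
      rw [sub_smul, sub_smul]; abel
    rw [h, hch, sub_zero] at this
    exact sub_eq_zero.mp this
  have ht : M.trace = t := by
    by_contra hne
    have hne' : M.trace - t ≠ 0 := sub_ne_zero.mpr hne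
    refine hM ((M.trace - t)⁻¹ * (M.det - e)) ?_
    calc M = (M.trace - t)⁻¹ • ((M.trace - t) • M) := by
          rw [smul_smul, inv_mul_cancel₀ hne', one_smul]
      _ = (M.trace - t)⁻¹ • ((M.det - e) • (1 : Matrix (Fin 2) (Fin 2) K)) := by rw [hdiff]
      _ = ((M.trace - t)⁻¹ * (M.det - e)) • (1 : Matrix (Fin 2) (Fin 2) K) := by
          rw [smul_smul]
  refine ⟨ht, ?_⟩
  rw [ht, sub_self, zero_smul] at hdiff
  have h00 := congrFun (congrFun hdiff 0) 0
  simp at h00
  exact (sub_eq_zero.mp h00.symm)

end Matrix2

section Main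

variable {K : Type*} [Field K] {W : Type*} [AddCommGroup W] [Module K W]
variable {G : Type*} [Group G]

/-- Every endomorphism of a space of dimension `≤ 1` is a scalar. -/
theorem exists_eq_smul_one_of_finrank_le_one [FiniteDimensional K W] [Nontrivial W]
    (h : Module.finrank K W ≤ 1) (f : Module.End K W) :
    ∃ c : K, f = c • (1 : Module.End K W) := by
  have hpos : 0 < Module.finrank K W := Module.finrank_pos
  have h1 : Module.finrank K W = 1 := by omega
  obtain ⟨v, hv⟩ := exists_ne (0 : W)
  obtain ⟨c, hc⟩ := exists_smul_eq_of_finrank_eq_one h1 hv (f v)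
  refine ⟨c, ?_⟩
  ext w
  obtain ⟨d, rfl⟩ := exists_smul_eq_of_finrank_eq_one h1 hv w
  simp only [map_smul, LinearMap.smul_apply, Module.End.one_apply]
  rw [← hc, smul_comm]

/-- The scalar case: a relation for `c • 1`. -/
theorem quadRel_smul_one_iff [Nontrivial W] {c t e : K} :
    QuadRel (c • (1 : Module.End K W)) t e ↔ c * c - t * c + e = 0 := by
  have : (c • (1 : Module.End K W)) * (c • (1 : Module.End K W)) - t • (c • (1 : Module.End K W))
      + e • (1 : Module.End K W) = (c * c - t * c + e) • (1 : Module.End K W) := by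
    rw [smul_mul_assoc, one_mul, smul_smul, smul_smul, add_smul, sub_smul]
  unfold QuadRel
  rw [this, smul_one_eq_zero_iff]

/-- **The dimension-2 lemma, irreducible case.** -/
theorem exists_matrixRep_of_irr [IsAlgClosed K] [FiniteDimensional K W] [Nontrivial W]
    (ρ : G →* Module.End K W) (hirr : IsIrr ρ) (eps : G →* Kˣ)
    (hquad : ∀ g, ∃ t : K, QuadRel (ρ g) t (eps g)) :
    ∃ M : G →* Matrix (Fin 2) (Fin 2) K,
      (∀ g (t : K), QuadRel (ρ g) t (eps g) → (M g).trace = t ∧ (M g).det = eps g) ∧
      (∀ g, ρ g = 1 → eps g = 1 → M g = 1) := by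
  by_cases hsc : ∀ g, ∃ c : K, ρ g = c • (1 : Module.End K W)
  · -- all `ρ g` are scalars `χ g`: take `χ ⊕ eps / χ`
    choose χ hχ using hsc
    have hχ1 : χ 1 = 1 := by
      apply smul_one_injective (K := K) (W := W)
      show χ 1 • (1 : Module.End K W) = (1 : K) • (1 : Module.End K W)
      rw [← hχ, map_one, one_smul]
    have hχmul : ∀ g h, χ (g * h) = χ g * χ h := by
      intro g h
      apply smul_one_injective (K := K) (W := W)
      show χ (g * h) • (1 : Module.End K W) = (χ g * χ h) • (1 : Module.End K W)
      rw [← hχ, map_mul, hχ g, hχ h, smul_mul_assoc, one_mul, smul_smul]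
    have hχne : ∀ g, χ g ≠ 0 := by
      intro g hg
      have := hχmul g g⁻¹
      rw [mul_inv_cancel, hχ1, hg, zero_mul] at this
      exact one_ne_zero this
    let M : G →* Matrix (Fin 2) (Fin 2) K :=
      { toFun := fun g => !![χ g, 0; 0, (eps g : K) / χ g]
        map_one' := by
          rw [hχ1, map_one, Units.val_one, div_one, Matrix.one_fin_two]
        map_mul' := fun g h => by
          rw [Matrix.mul_fin_two, hχmul, map_mul, Units.val_mul]
          have h1 := hχne g
          have h2 := hχne h
          congr 1
          simp only [mul_zero, zero_mul, add_zero, zero_add]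
          congr 2
          field_simp }
    have hM : ∀ g, M g = !![χ g, 0; 0, (eps g : K) / χ g] := fun g => rfl
    refine ⟨M, ?_, ?_⟩
    · intro g t ht
      rw [hχ g, quadRel_smul_one_iff] at ht
      have h1 := hχne g
      rw [hM]
      constructor
      · rw [Matrix.trace_fin_two_of]
        field_simp
        linear_combination ht
      · rw [Matrix.det_fin_two_of]
        field_simp
        ring
    · intro g hg he
      have h1 : χ g = 1 := by
        apply smul_one_injective (K := K) (W := W)
        show χ g • (1 : Module.End K W) = (1 : K) • (1 : Module.End K W)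
        rw [← hχ, hg, one_smul]
      rw [hM, h1, he, Units.val_one, div_one, Matrix.one_fin_two]
  · -- some `ρ g₀` is not a scalar: then `dim W = 2`
    have hsc' : ∃ g₀, ∀ c : K, ρ g₀ ≠ c • (1 : Module.End K W) := by
      by_contra hno
      refine hsc fun g => ?_
      by_contra hg
      exact hno ⟨g, fun c hc => hg ⟨c, hc⟩⟩
    obtain ⟨g₀, hg₀⟩ := hsc'
    have h2 : Module.finrank K W = 2 := by
      have hle := finrank_le_two hirr eps hquad g₀ hg₀
      have hge : 2 ≤ Module.finrank K W := by
        by_contra hlt
        obtain ⟨c, hc⟩ := exists_eq_smul_one_of_finrank_le_one (by omega) (ρ g₀)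
        exact hg₀ c hc
      omega
    let b : Basis (Fin 2) K W := Module.finBasisOfFinrankEq K W h2
    let Φ : Module.End K W ≃ₐ[K] Matrix (Fin 2) (Fin 2) K := LinearMap.toMatrixAlgEquiv b
    let M : G →* Matrix (Fin 2) (Fin 2) K :=
      { toFun := fun g => Φ (ρ g)
        map_one' := by rw [map_one, map_one]
        map_mul' := fun g h => by rw [map_mul, map_mul] }
    have hM : ∀ g, M g = Φ (ρ g) := fun g => rfl
    have hΦsc : ∀ c : K, Φ (c • (1 : Module.End K W)) = c • (1 : Matrix (Fin 2) (Fin 2) K) := by
      intro c; rw [map_smul, map_one]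
    have hrel : ∀ g (t e : K), QuadRel (ρ g) t e →
        M g * M g - t • M g + e • (1 : Matrix (Fin 2) (Fin 2) K) = 0 := by
      intro g t e ht
      have := congrArg Φ ht
      show Φ (ρ g) * Φ (ρ g) - t • Φ (ρ g) + e • (1 : Matrix (Fin 2) (Fin 2) K) = 0
      simpa only [map_sub, map_add, map_mul, map_smul, map_one, map_zero] using this
    refine ⟨M, ?_, ?_⟩
    · intro g t ht
      by_cases hg : ∃ c : K, ρ g = c • (1 : Module.End K W)
      · obtain ⟨c, hc⟩ := hg
        -- scalar element inside a two-dimensional irreducible representation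
        obtain ⟨s₀, hs₀⟩ := hquad g₀
        obtain ⟨u, hu⟩ := hquad (g * g₀)
        rw [map_mul, map_mul, Units.val_mul, hc, smul_mul_assoc, one_mul] at hu
        have hu2 := hu
        unfold QuadRel at hu2
        rw [smul_mul_smul_comm, hs₀.sq_eq] at hu2
        have hlin : (c * c * s₀ - u * c) • ρ g₀
            + (((eps g : K) - c * c) * (eps g₀ : K)) • (1 : Module.End K W) = 0 := by
          rw [← hu2]
          module
        have hβ := (eq_zero_of_smul_add_smul_one hg₀ hlin).2
        have hcc : (eps g : K) = c * c := by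
          rcases mul_eq_zero.mp hβ with h | h
          · exact sub_eq_zero.mp h
          · exact absurd h (eps g₀).ne_zero
        have hc0 : c ≠ 0 := by
          rintro rfl
          rw [mul_zero] at hcc
          exact (eps g).ne_zero hcc
        rw [hc, quadRel_smul_one_iff, hcc] at ht
        have htc : t = c + c := by
          have : c * (c + c - t) = 0 := by linear_combination ht
          rcases mul_eq_zero.mp this with h | h
          · exact absurd h hc0
          · linear_combination -h
        rw [hM, hc, hΦsc]
        constructor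
        · rw [Matrix.trace_fin_two, htc]
          simp
        · rw [Matrix.det_fin_two, hcc]
          simp
      · have hg' : ∀ c : K, M g ≠ c • (1 : Matrix (Fin 2) (Fin 2) K) := by
          intro c hc
          refine hg ⟨c, ?_⟩
          apply Φ.injective
          rw [hΦsc, ← hM, hc]
        exact trace_det_of_quadratic_of_not_scalar (hrel g t _ ht) hg'
    · intro g hg _
      rw [hM, hg, map_one]

/-- The restriction of a representation to an invariant subspace. -/
def restrictRep (ρ : G →* Module.End K W) (U : Submodule K W)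
    (hU : ∀ g, ∀ x ∈ U, ρ g x ∈ U) : G →* Module.End K U where
  toFun g := (ρ g).restrict (hU g)
  map_one' := by
    ext x
    simp
  map_mul' g h := by
    ext x
    simp

theorem restrictRep_apply (ρ : G →* Module.End K W) (U : Submodule K W)
    (hU : ∀ g, ∀ x ∈ U, ρ g x ∈ U) (g : G) (x : U) :
    ((restrictRep ρ U hU g) x : W) = ρ g x := rfl

theorem QuadRel.restrictRep {ρ : G →* Module.End K W} {U : Submodule K W}
    (hU : ∀ g, ∀ x ∈ U, ρ g x ∈ U) {g : G} {t e : K} (h : QuadRel (ρ g) t e) :
    QuadRel (restrictRep ρ U hU g) t e := by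
  unfold QuadRel at h ⊢
  ext x
  have := congrArg (fun F : Module.End K W => F (x : W)) h
  simpa [restrictRep_apply] using this

/-- **The dimension-2 lemma** (no irreducibility hypothesis): a nonzero finite-dimensional
representation over an algebraically closed field all of whose elements satisfy a quadratic
relation `g² - t g + eps g = 0`, `eps` a character, gives a two-dimensional representation with
`trace = t`, `det = eps`. -/
theorem exists_matrixRep_of_quadratic [IsAlgClosed K] [FiniteDimensional K W] [Nontrivial W]
    (ρ : G →* Module.End K W) (eps : G →* Kˣ)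
    (hquad : ∀ g, ∃ t : K, QuadRel (ρ g) t (eps g)) :
    ∃ M : G →* Matrix (Fin 2) (Fin 2) K,
      (∀ g (t : K), QuadRel (ρ g) t (eps g) → (M g).trace = t ∧ (M g).det = eps g) ∧
      (∀ g, ρ g = 1 → eps g = 1 → M g = 1) := by
  -- a minimal nonzero invariant subspace
  let S : Set (Submodule K W) := {U | U ≠ ⊥ ∧ ∀ g, ∀ x ∈ U, ρ g x ∈ U}
  have hS : S.Nonempty := ⟨⊤, top_ne_bot, fun _ _ _ => Submodule.mem_top⟩
  obtain ⟨U, ⟨hU0, hUinv⟩, hmin⟩ := (wellFounded_lt (α := Submodule K W)).has_min S hS
  have : Nontrivial U := Submodule.nontrivial_iff_ne_bot.mpr hU0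
  have hirr : IsIrr (restrictRep ρ U hUinv) := by
    intro U₁ hU₁
    by_cases h0 : U₁ = ⊥
    · exact Or.inl h0
    · right
      have hmem : U₁.map U.subtype ∈ S := by
        refine ⟨?_, ?_⟩
        · intro hbot
          apply h0
          rw [eq_bot_iff]
          intro x hx
          have hx' : (x : W) ∈ U₁.map U.subtype := ⟨x, hx, rfl⟩
          rw [hbot, Submodule.mem_bot] at hx'
          rw [Submodule.mem_bot]
          exact Subtype.ext hx'
        · rintro g _ ⟨y, hy, rfl⟩
          exact ⟨restrictRep ρ U hUinv g y, hU₁ g y hy, rfl⟩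
      have hle : U₁.map U.subtype ≤ U := Submodule.map_subtype_le U U₁
      have heq : U₁.map U.subtype = U := by
        by_contra hne
        exact hmin _ hmem (lt_of_le_of_ne hle hne)
      rw [eq_top_iff]
      intro x _
      have hx : (x : W) ∈ U₁.map U.subtype := by rw [heq]; exact x.2
      obtain ⟨y, hy, hyx⟩ := hx
      have : y = x := Subtype.ext hyx
      rwa [this] at hy
  obtain ⟨M, hM1, hM2⟩ := exists_matrixRep_of_irr (restrictRep ρ U hUinv) hirr eps
    (fun g => (hquad g).imp fun t ht => ht.restrictRep hUinv)
  refine ⟨M, fun g t ht => hM1 g t (ht.restrictRep hUinv), fun g hg he => hM2 g ?_ he⟩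
  ext x
  simp [restrictRep_apply, hg]

/-- **The dimension-2 lemma, `Module.End`/`charpoly` form with an extension of scalars**:
for a ring homomorphism `ι : K →+* k` into another field, there is a representation on
`Fin 2 → k` whose characteristic polynomials are `X² - ι t X + ι (eps g)`. -/
theorem exists_rep_charpoly_of_quadratic [IsAlgClosed K] [FiniteDimensional K W] [Nontrivial W]
    {k : Type*} [Field k] (ι : K →+* k)
    (ρ : G →* Module.End K W) (eps : G →* Kˣ)
    (hquad : ∀ g, ∃ t : K, QuadRel (ρ g) t (eps g)) :
    ∃ ρ2 : G →* Module.End k (Fin 2 → k),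
      (∀ g (t : K), QuadRel (ρ g) t (eps g) →
        LinearMap.charpoly (ρ2 g) = X ^ 2 - C (ι t) * X + C (ι (eps g : K))) ∧
      (∀ g, ρ g = 1 → eps g = 1 → ρ2 g = 1) := by
  obtain ⟨M, hM1, hM2⟩ := exists_matrixRep_of_quadratic ρ eps hquad
  let Ψ : Matrix (Fin 2) (Fin 2) k ≃ₐ[k] Module.End k (Fin 2 → k) := Matrix.toLinAlgEquiv'
  let ρ2 : G →* Module.End k (Fin 2 → k) :=
    { toFun := fun g => Ψ (ι.mapMatrix (M g))
      map_one' := by rw [map_one, map_one, map_one]
      map_mul' := fun g h => by rw [map_mul, map_mul, map_mul] }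
  have hρ2 : ∀ g, ρ2 g = Matrix.toLin' (ι.mapMatrix (M g)) := fun g => rfl
  refine ⟨ρ2, ?_, ?_⟩
  · intro g t ht
    obtain ⟨h1, h2⟩ := hM1 g t ht
    have ht' : (ι.mapMatrix (M g)).trace = ι t := by
      rw [← h1]
      exact (AddMonoidHom.map_trace ι (M g)).symm
    have hd' : (ι.mapMatrix (M g)).det = ι (eps g : K) := by
      rw [← h2]
      exact (RingHom.map_det ι (M g)).symm
    rw [hρ2, Matrix.charpoly_toLin', Matrix.charpoly_fin_two, ht', hd']
  · intro g hg he
    show Ψ (ι.mapMatrix (M g)) = 1
    rw [hM2 g hg he, map_one, map_one]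

end Main

end Fermat.Agent.S29.helper7164
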