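import Mathlib
import Fermat.Prelude.Def_AlgebraicCurve_BaseChangeGalois
import Fermat.Agent.S24.helper1370_PlaceBasics

/-!
# S29-DESC (helper7274): canonical representative of a class modulo constants and `n`-th powers

Generic layer (no modular objects).  `K` is the constant field, `F` a function field with
degree-zero principal divisors, `t : F` a function such that every place is a pole of `t` or a
zero of some `t - c`, `v₀` a place with a "leading coefficient" function `lc`.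

For `u ≠ 0` the class `u * K^× * (F^×)^n` contains a canonical element `y` (`IsCan u y`):
`y = u * f ^ n` (normalised by `lc`) where `f` has maximal order at `v₀` in
`L u d = {f ≠ 0 | ord_v (u f^n) ≥ n d min(0, ord_v t) for all v}`, `d` minimal with `L u d ≠ ∅`.

* `IsCan.exists_of_ne_zero`, `IsCan.unique`, `IsCan.rel`
* `IsCan.of_class` : the canonical element depends only on the class
* `IsCan.smul` : equivariance under semilinear automorphisms compatible with the data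
* `finite_orbit_isCan` : if the translates of `u` meet finitely many classes, the canonical
  element has finitely many translates.
-/

set_option autoImplicit false

open AlgebraicCurve

namespace Fermat.Agent.S29.helper7274

open Fermat.Agent.S24.helper1370

section Generic

variable {K F : Type*} [Field K] [Field F] [Algebra K F]

/-- nonzero `f` with `ord_v (u f^n) ≥ n d min(0, ord_v t)` at every place `v`. -/
def LSet (K : Type*) {F : Type*} [Field K] [Field F] [Algebra K F] (n : ℕ) (t u : F) (d : ℕ) :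
    Set F :=
  {f | f ≠ 0 ∧ ∀ v : Place K F, (n : ℤ) * d * min 0 (v.ord t) ≤ v.ord u + n * v.ord f}

theorem mem_LSet_iff {n : ℕ} {t u : F} {d : ℕ} {f : F} :
    f ∈ LSet K n t u d ↔
      f ≠ 0 ∧ ∀ v : Place K F, (n : ℤ) * d * min 0 (v.ord t) ≤ v.ord u + n * v.ord f :=
  Iff.rfl

/-- `LSet` is stable under `f₁ - c f₂` (when nonzero). -/
theorem LSet_sub_smul {n : ℕ} {t u : F} {d : ℕ} {f₁ f₂ : F} (h₁ : f₁ ∈ LSet K n t u d)
    (h₂ : f₂ ∈ LSet K n t u d) (c : K) (hne : f₁ - algebraMap K F c * f₂ ≠ 0) :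
    f₁ - algebraMap K F c * f₂ ∈ LSet K n t u d := by
  refine ⟨hne, fun v => ?_⟩
  rcases eq_or_ne c 0 with rfl | hc
  · simpa using h₁.2 v
  have h := ord_sub_ge v hne
  rw [ord_algebraMap_mul v hc] at h
  have hn : (0 : ℤ) ≤ n := Int.natCast_nonneg n
  rcases min_le_iff.mp h with h3 | h3
  · exact (h₁.2 v).trans (by nlinarith [mul_le_mul_of_nonneg_left h3 hn])
  · exact (h₂.2 v).trans (by nlinarith [mul_le_mul_of_nonneg_left h3 hn])

/-- Changing `u` inside its class shifts `LSet` by multiplication. -/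
theorem mem_LSet_class_iff {n : ℕ} {t u : F} {d : ℕ} {c : K} {w : F} (hc : c ≠ 0) (hw : w ≠ 0)
    (hu : u ≠ 0) (f : F) :
    f ∈ LSet K n t (algebraMap K F c * u * w ^ n) d ↔ f * w ∈ LSet K n t u d := by
  have key : ∀ v : Place K F, v.ord (algebraMap K F c * u * w ^ n) = v.ord u + n * v.ord w := by
    intro v
    rw [mul_assoc, ord_algebraMap_mul v hc, v.ord_mul hu (pow_ne_zero n hw), ord_pow]
  constructor
  · rintro ⟨hf, h⟩
    refine ⟨mul_ne_zero hf hw, fun v => ?_⟩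
    have := h v
    rw [key v] at this
    rw [v.ord_mul hf hw]
    linarith
  · rintro ⟨hfw, h⟩
    have hf : f ≠ 0 := left_ne_zero_of_mul hfw
    refine ⟨hf, fun v => ?_⟩
    have := h v
    rw [v.ord_mul hf hw] at this
    rw [key v]
    linarith

theorem ord_smul_eq (g : SemilinearAut K F) (v : Place K F) (x : F) :
    v.ord (g • x) = (g⁻¹ • v).ord x := by
  have h := SemilinearAut.ord_smul g (g⁻¹ • v) x
  rwa [smul_inv_smul] at h

/-- Equivariance of `LSet` under a semilinear automorphism fixing `t`. -/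
theorem smul_mem_LSet (g : SemilinearAut K F) {n : ℕ} {t u : F} {d : ℕ} {f : F}
    (ht : g • t = t) (hf : f ∈ LSet K n t u d) : g • f ∈ LSet K n t (g • u) d := by
  refine ⟨?_, fun v => ?_⟩
  · intro h0
    apply hf.1
    have h1 : g⁻¹ • (g • f) = g⁻¹ • (0 : F) := congrArg (g⁻¹ • ·) h0
    rwa [inv_smul_smul, smul_zero] at h1
  · have h1 := hf.2 (g⁻¹ • v)
    rw [ord_smul_eq g v u, ord_smul_eq g v f]
    have h2 : v.ord t = (g⁻¹ • v).ord t := by
      conv_lhs => rw [← ht]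
      exact ord_smul_eq g v t
    rw [h2]
    exact h1

/-- `LSet K n t u d` is nonempty for some `d`. -/
theorem exists_LSet_nonempty [HasPrincipalDivisors K F] {n : ℕ} (hn : n ≠ 0) {t u : F}
    (hu : u ≠ 0)
    (hcen : ∀ v : Place K F, v.ord t < 0 ∨ ∃ c : K, 0 < v.ord (t - algebraMap K F c)) :
    ∃ d : ℕ, (LSet K n t u d).Nonempty := by
  classical
  obtain ⟨D, hD, -⟩ := HasPrincipalDivisors.exists_divisor (K := K) u hu
  have hc : ∀ v : Place K F, ∃ c : K, 0 ≤ v.ord t → 0 < v.ord (t - algebraMap K F c) := by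
    intro v
    rcases hcen v with h | ⟨c, hc⟩
    · exact ⟨0, fun h' => absurd h (not_lt.mpr h')⟩
    · exact ⟨c, fun _ => hc⟩
  choose c hc using hc
  obtain ⟨S, hS⟩ : ∃ S : Finset (Place K F), S = D.support.filter (fun v => 0 ≤ v.ord t) :=
    ⟨_, rfl⟩
  have hmemS : ∀ v : Place K F, v ∈ S ↔ v ∈ D.support ∧ 0 ≤ v.ord t := by
    intro v
    rw [hS, Finset.mem_filter]
  obtain ⟨m, hm⟩ : ∃ m : Place K F → ℕ, ∀ v, m v = (v.ord u).natAbs := ⟨_, fun _ => rfl⟩
  have hm1 : ∀ v : Place K F, -(v.ord u) ≤ (m v : ℤ) := by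
    intro v
    rw [hm v, Int.natCast_natAbs]
    exact neg_le_abs _
  obtain ⟨f, hf⟩ : ∃ f : F, f = ∏ w ∈ S, (t - algebraMap K F (c w)) ^ (m w) := ⟨_, rfl⟩
  obtain ⟨M, hM⟩ : ∃ M : ℕ, M = ∑ w ∈ S, m w := ⟨_, rfl⟩
  obtain ⟨B, hB⟩ : ∃ B : ℕ, B = ∑ w ∈ D.support, m w := ⟨_, rfl⟩
  have hfac : ∀ w ∈ S, (t - algebraMap K F (c w)) ^ (m w) ≠ 0 := by
    intro w hw
    have hw' : 0 ≤ w.ord t := ((hmemS w).mp hw).2
    have h1 := hc w hw'
    refine pow_ne_zero _ ?_
    intro h0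
    rw [h0, Place.ord_zero] at h1
    exact lt_irrefl _ h1
  have hf0 : f ≠ 0 := by
    rw [hf]
    exact Finset.prod_ne_zero_iff.mpr hfac
  have hordf : ∀ v : Place K F,
      v.ord f = ∑ w ∈ S, (m w : ℤ) * v.ord (t - algebraMap K F (c w)) := by
    intro v
    rw [hf, ord_prod v S _ hfac]
    exact Finset.sum_congr rfl fun w _ => ord_pow v _ _
  have hn1 : (1 : ℤ) ≤ n := by exact_mod_cast Nat.one_le_iff_ne_zero.mpr hn
  have hmB : ∀ v : Place K F, v ∈ D.support → (m v : ℤ) ≤ B := by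
    intro v hv
    have h1 : m v ≤ ∑ w ∈ D.support, m w :=
      Finset.single_le_sum (f := m) (fun i _ => Nat.zero_le _) hv
    rw [← hB] at h1
    exact_mod_cast h1
  have hB0 : (0 : ℤ) ≤ B := Int.natCast_nonneg B
  refine ⟨M + B, f, hf0, fun v => ?_⟩
  rcases lt_or_ge (v.ord t) 0 with hneg | hnn
  · -- a pole of `t`
    have h1 : v.ord f = (M : ℤ) * v.ord t := by
      rw [hordf v, hM, Nat.cast_sum, Finset.sum_mul]
      exact Finset.sum_congr rfl fun w _ => by rw [ord_sub_algebraMap_of_ord_neg v hneg]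
    have h2 : -(v.ord u) ≤ B := by
      by_cases hv : v ∈ D.support
      · exact (hm1 v).trans (hmB v hv)
      · have h0 : D v = 0 := by simpa using hv
        rw [← hD v, h0]
        simp
    rw [min_eq_right hneg.le, h1]
    have h4 : (B : ℤ) ≤ n * B := le_mul_of_one_le_left hB0 hn1
    have h6 : (0 : ℤ) ≤ n * B := mul_nonneg (by linarith) hB0
    have h5 : (n : ℤ) * B ≤ n * B * (-(v.ord t)) :=
      le_mul_of_one_le_right h6 (by linarith)
    have h7 : (n : ℤ) * ((M + B : ℕ) : ℤ) * v.ord t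
        = n * (M * v.ord t) - n * B * (-(v.ord t)) := by
      push_cast
      ring
    rw [h7]
    linarith
  · -- `t` is regular at `v`
    rw [min_eq_left hnn, mul_zero]
    have hterm : ∀ w ∈ S, (0 : ℤ) ≤ (m w : ℤ) * v.ord (t - algebraMap K F (c w)) := by
      intro w _
      exact mul_nonneg (Int.natCast_nonneg _) (ord_sub_algebraMap_nonneg v hnn _)
    have hfnn : 0 ≤ v.ord f := by
      rw [hordf v]
      exact Finset.sum_nonneg hterm
    have hnf : v.ord f ≤ n * v.ord f := le_mul_of_one_le_left hfnn hn1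
    by_cases hv : v ∈ D.support
    · have hvS : v ∈ S := (hmemS v).mpr ⟨hv, hnn⟩
      have h1 := Finset.single_le_sum hterm hvS
      rw [← hordf v] at h1
      have h2 : (1 : ℤ) ≤ v.ord (t - algebraMap K F (c v)) := hc v hnn
      have h3 : (m v : ℤ) ≤ (m v : ℤ) * v.ord (t - algebraMap K F (c v)) :=
        le_mul_of_one_le_right (Int.natCast_nonneg _) h2
      have h4 := hm1 v
      linarith
    · have h0 : D v = 0 := by simpa using hv
      rw [← hD v, h0, zero_add]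
      linarith

/-- The orders at a fixed place `v₀` of the elements of `LSet K n t u d` are bounded above. -/
theorem exists_bound_LSet [HasPrincipalDivisors K F] (hdeg : ∀ v : Place K F, v.deg = 1)
    {n : ℕ} (hn : n ≠ 0) {t u : F} (ht : t ≠ 0) (hu : u ≠ 0) (d : ℕ) (v₀ : Place K F) :
    ∃ B : ℤ, ∀ f ∈ LSet K n t u d, v₀.ord f ≤ B := by
  classical
  obtain ⟨Dt, hDt, -⟩ := HasPrincipalDivisors.exists_divisor (K := K) t ht
  set P : ℤ := ∑ v ∈ Dt.support, max 0 (-(Dt v)) with hP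
  refine ⟨|(n : ℤ) * d * P - v₀.ord u|, fun f hf => ?_⟩
  obtain ⟨hf0, hf⟩ := hf
  set w := u * f ^ n with hw
  have hw0 : w ≠ 0 := mul_ne_zero hu (pow_ne_zero n hf0)
  have hordw : ∀ v : Place K F, v.ord w = v.ord u + n * v.ord f := by
    intro v
    rw [hw, v.ord_mul hu (pow_ne_zero n hf0), ord_pow]
  obtain ⟨Dw, hDw, hdegw⟩ := HasPrincipalDivisors.exists_divisor (K := K) w hw0
  have hsum : ∑ v ∈ Dw.support, Dw v = 0 := by
    have h1 : Divisor.degree Dw = ∑ v ∈ Dw.support, Dw v * (v.deg : ℤ) := by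
      simp [Divisor.degree, Finsupp.sum]
    rw [h1] at hdegw
    simpa [hdeg] using hdegw
  set s : Finset (Place K F) := Dw.support ∪ Dt.support ∪ {v₀} with hs
  have hsum' : ∑ v ∈ s, Dw v = 0 := by
    rw [← hsum]
    symm
    apply Finset.sum_subset
    · intro v hv
      simp [hs, hv]
    · intro v _ hv
      simpa using hv
  have hP' : ∑ v ∈ s, max 0 (-(Dt v)) = P := by
    symm
    apply Finset.sum_subset
    · intro v hv
      simp [hs, hv]
    · intro v _ hv
      have h0 : Dt v = 0 := by simpa using hv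
      simp [h0]
  have hterm : ∀ v ∈ s, 0 ≤ Dw v + (n : ℤ) * d * max 0 (-(Dt v)) := by
    intro v _
    have h1 := hf v
    rw [hDw v, hDt v, hordw v]
    have h3 : min 0 (v.ord t) = -max 0 (-(v.ord t)) := by
      rcases le_total 0 (v.ord t) with h | h
      · rw [min_eq_left h, max_eq_left (by linarith)]
        simp
      · rw [min_eq_right h, max_eq_right (by linarith)]
        simp
    rw [h3] at h1
    linarith
  have hle := Finset.single_le_sum hterm (show v₀ ∈ s by simp [hs])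
  rw [Finset.sum_add_distrib, hsum', ← Finset.mul_sum, hP', zero_add, hDw v₀, hordw v₀] at hle
  have h5 : (0 : ℤ) ≤ (n : ℤ) * d * max 0 (-(Dt v₀)) := by positivity
  have h6 : (n : ℤ) * v₀.ord f ≤ n * d * P - v₀.ord u := by linarith
  rcases le_or_gt (v₀.ord f) 0 with h | h
  · exact h.trans (abs_nonneg _)
  · have hn1 : (1 : ℤ) ≤ n := by exact_mod_cast Nat.one_le_iff_ne_zero.mpr hn
    calc v₀.ord f ≤ n * v₀.ord f := by nlinarith
      _ ≤ n * d * P - v₀.ord u := h6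
      _ ≤ |(n : ℤ) * d * P - v₀.ord u| := le_abs_self _

/-- The data defining the canonical representative. -/
structure CanonData (K F : Type*) [Field K] [Field F] [Algebra K F] where
  /-- the modulus -/
  n : ℕ
  n_ne_zero : n ≠ 0
  /-- the coordinate function -/
  t : F
  /-- the base place -/
  v₀ : Place K F
  /-- leading coefficient at the base place -/
  lc : F → K
  lc_ne_zero : ∀ f : F, f ≠ 0 → lc f ≠ 0
  lc_smul : ∀ (c : K) (f : F), lc (algebraMap K F c * f) = c * lc f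
  lc_sub : ∀ f₁ f₂ : F, f₁ ≠ 0 → f₂ ≠ 0 → v₀.ord f₁ = v₀.ord f₂ → lc f₁ = lc f₂ → f₁ ≠ f₂ →
    v₀.ord f₁ < v₀.ord (f₁ - f₂)
  center : ∀ v : Place K F, v.ord t < 0 ∨ ∃ c : K, 0 < v.ord (t - algebraMap K F c)
  deg_one : ∀ v : Place K F, v.deg = 1

namespace CanonData

variable (𝒟 : CanonData K F)

theorem t_ne_zero : 𝒟.t ≠ 0 := by
  intro h0
  rcases 𝒟.center 𝒟.v₀ with h | ⟨c, hc⟩
  · rw [h0, Place.ord_zero] at h
    exact lt_irrefl _ h
  · rw [h0, zero_sub, ord_neg, ord_algebraMap] at hc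
    exact lt_irrefl _ hc

/-- normalisation to leading coefficient one -/
def normalise (x : F) : F := algebraMap K F (𝒟.lc x)⁻¹ * x

theorem normalise_smul {c : K} (hc : c ≠ 0) (x : F) :
    𝒟.normalise (algebraMap K F c * x) = 𝒟.normalise x := by
  unfold normalise
  rw [𝒟.lc_smul, mul_inv, map_mul, mul_mul_mul_comm, ← map_mul, inv_mul_cancel₀ hc, map_one]
  ring

/-- `y` is the canonical representative of the class of `u`. -/
def IsCan (u y : F) : Prop :=
  ∃ (d : ℕ) (f : F), f ∈ LSet K 𝒟.n 𝒟.t u d ∧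
    (∀ d' < d, ∀ f' : F, f' ∉ LSet K 𝒟.n 𝒟.t u d') ∧
    (∀ f' ∈ LSet K 𝒟.n 𝒟.t u d, 𝒟.v₀.ord f' ≤ 𝒟.v₀.ord f) ∧
    y = 𝒟.normalise (u * f ^ 𝒟.n)

theorem exists_isCan [HasPrincipalDivisors K F] {u : F} (hu : u ≠ 0) : ∃ y, 𝒟.IsCan u y := by
  classical
  have hne := exists_LSet_nonempty 𝒟.n_ne_zero hu 𝒟.center
  obtain ⟨f₀, hf₀⟩ := Nat.find_spec hne
  obtain ⟨B, hB⟩ := exists_bound_LSet 𝒟.deg_one 𝒟.n_ne_zero 𝒟.t_ne_zero hu (Nat.find hne) 𝒟.v₀
  obtain ⟨z, ⟨f, hf, rfl⟩, hz⟩ := Int.exists_greatest_of_bdd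
    (P := fun z => ∃ f ∈ LSet K 𝒟.n 𝒟.t u (Nat.find hne), 𝒟.v₀.ord f = z)
    ⟨B, by rintro z ⟨f, hf, rfl⟩; exact hB f hf⟩ ⟨_, f₀, hf₀, rfl⟩
  exact ⟨_, Nat.find hne, f, hf, fun d' hd' f' hf' => Nat.find_min hne hd' ⟨f', hf'⟩,
    fun f' hf' => hz _ ⟨f', hf', rfl⟩, rfl⟩

theorem IsCan.unique {u y y' : F} (h : 𝒟.IsCan u y) (h' : 𝒟.IsCan u y') : y = y' := by
  obtain ⟨d, f, hf, hmin, hmax, rfl⟩ := h
  obtain ⟨d', f', hf', hmin', hmax', rfl⟩ := h'
  have hdd : d = d' := by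
    rcases lt_trichotomy d d' with h | h | h
    · exact absurd hf (hmin' d h f)
    · exact h
    · exact absurd hf' (hmin d' h f')
  subst hdd
  have hord : 𝒟.v₀.ord f = 𝒟.v₀.ord f' := le_antisymm (hmax' f hf) (hmax f' hf')
  set c := 𝒟.lc f / 𝒟.lc f' with hc
  have hc0 : c ≠ 0 := div_ne_zero (𝒟.lc_ne_zero f hf.1) (𝒟.lc_ne_zero f' hf'.1)
  have hff : f = algebraMap K F c * f' := by
    by_contra hne
    have h1 := 𝒟.lc_sub f (algebraMap K F c * f') hf.1
      (mul_ne_zero ((map_ne_zero _).mpr hc0) hf'.1)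
      (by rw [ord_algebraMap_mul _ hc0, hord])
      (by rw [𝒟.lc_smul, hc, div_mul_cancel₀ _ (𝒟.lc_ne_zero f' hf'.1)]) hne
    have h2 := hmax _ (LSet_sub_smul hf hf' c (sub_ne_zero.mpr hne))
    exact absurd h1 (not_lt.mpr h2)
  have h3 : u * f ^ 𝒟.n = algebraMap K F (c ^ 𝒟.n) * (u * f' ^ 𝒟.n) := by
    rw [hff, mul_pow, map_pow]
    ring
  rw [h3, 𝒟.normalise_smul (pow_ne_zero _ hc0)]

theorem IsCan.rel {u y : F} (h : 𝒟.IsCan u y) (hu : u ≠ 0) :
    ∃ (c : K) (f : F), c ≠ 0 ∧ f ≠ 0 ∧ y = algebraMap K F c * u * f ^ 𝒟.n := by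
  obtain ⟨d, f, hf, -, -, rfl⟩ := h
  refine ⟨(𝒟.lc (u * f ^ 𝒟.n))⁻¹, f,
    inv_ne_zero (𝒟.lc_ne_zero _ (mul_ne_zero hu (pow_ne_zero _ hf.1))), hf.1, ?_⟩
  unfold normalise
  ring

/-- The canonical representative only depends on the class modulo constants and `n`-th
powers. -/
theorem IsCan.of_class {u y : F} {c : K} {w : F} (hc : c ≠ 0) (hw : w ≠ 0) (hu : u ≠ 0)
    (h : 𝒟.IsCan (algebraMap K F c * u * w ^ 𝒟.n) y) : 𝒟.IsCan u y := by
  obtain ⟨d, f, hf, hmin, hmax, rfl⟩ := h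
  have hcancel : ∀ f' : F, f' * w⁻¹ * w = f' := fun f' => by
    rw [mul_assoc, inv_mul_cancel₀ hw, mul_one]
  refine ⟨d, f * w, (mem_LSet_class_iff hc hw hu f).mp hf, fun d' hd' f' hf' => ?_,
    fun f' hf' => ?_, ?_⟩
  · exact hmin d' hd' (f' * w⁻¹) ((mem_LSet_class_iff hc hw hu _).mpr (by rwa [hcancel]))
  · have h2 := hmax (f' * w⁻¹) ((mem_LSet_class_iff hc hw hu _).mpr (by rwa [hcancel]))
    rw [𝒟.v₀.ord_mul hf'.1 (inv_ne_zero hw), 𝒟.v₀.ord_inv] at h2
    rw [𝒟.v₀.ord_mul hf.1 hw]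
    linarith
  · have h3 : algebraMap K F c * u * w ^ 𝒟.n * f ^ 𝒟.n
        = algebraMap K F c * (u * (f * w) ^ 𝒟.n) := by ring
    rw [h3, 𝒟.normalise_smul hc]

/-- A semilinear automorphism compatible with the data: it fixes `t`, preserves the order at
`v₀` and is compatible with leading coefficients. -/
structure Compat (g : SemilinearAut K F) : Prop where
  smul_t : g • 𝒟.t = 𝒟.t
  ord_smul : ∀ f : F, 𝒟.v₀.ord (g • f) = 𝒟.v₀.ord f
  lc_smul : ∀ f : F, 𝒟.lc (g • f) = SemilinearAut.baseAut g (𝒟.lc f)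

/-- Equivariance of the canonical representative. -/
theorem IsCan.smul {g : SemilinearAut K F} (hg : 𝒟.Compat g) {u y : F} (h : 𝒟.IsCan u y) :
    𝒟.IsCan (g • u) (g • y) := by
  obtain ⟨d, f, hf, hmin, hmax, rfl⟩ := h
  have hg' : g⁻¹ • 𝒟.t = 𝒟.t := by
    conv_lhs => rw [← hg.smul_t]
    rw [inv_smul_smul]
  have hord' : ∀ x : F, 𝒟.v₀.ord (g⁻¹ • x) = 𝒟.v₀.ord x := fun x => by
    have h1 := hg.ord_smul (g⁻¹ • x)
    rw [smul_inv_smul] at h1
    exact h1.symm
  have back : ∀ (d' : ℕ) (f' : F), f' ∈ LSet K 𝒟.n 𝒟.t (g • u) d' →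
      g⁻¹ • f' ∈ LSet K 𝒟.n 𝒟.t u d' := by
    intro d' f' hf'
    have h1 := smul_mem_LSet g⁻¹ hg' hf'
    rwa [inv_smul_smul] at h1
  refine ⟨d, g • f, smul_mem_LSet g hg.smul_t hf,
    fun d' hd' f' hf' => hmin d' hd' _ (back d' f' hf'), fun f' hf' => ?_, ?_⟩
  · have h1 := hmax _ (back d f' hf')
    rw [hord'] at h1
    rw [hg.ord_smul]
    exact h1
  · unfold normalise
    rw [smul_mul', SemilinearAut.smul_algebraMap, map_inv₀, ← hg.lc_smul, smul_mul', smul_pow']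

end CanonData

/-- **Finite orbit of the canonical representative.**  If the translates `g • u` (`g ∈ G`) of
`u` fall into finitely many classes modulo constants and `n`-th powers, then the canonical
representative `y` of `u` has finitely many translates. -/
theorem finite_orbit_isCan [HasPrincipalDivisors K F] (𝒟 : CanonData K F)
    (G : Set (SemilinearAut K F)) (hG : ∀ g ∈ G, 𝒟.Compat g) {u : F} (hu : u ≠ 0)
    (hfin : ∃ T : Finset F, ∀ g ∈ G, ∃ s ∈ T, ∃ (c : K) (w : F), c ≠ 0 ∧ w ≠ 0 ∧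
      g • u = algebraMap K F c * s * w ^ 𝒟.n)
    {y : F} (hy : 𝒟.IsCan u y) : {z : F | ∃ g ∈ G, z = g • y}.Finite := by
  classical
  obtain ⟨T, hT⟩ := hfin
  let can : F → F := fun s => if h : ∃ z, 𝒟.IsCan s z then h.choose else 0
  refine (T.image can).finite_toSet.subset ?_
  rintro z ⟨g, hg, rfl⟩
  obtain ⟨s, hsT, c, w, hc, hw, hgu⟩ := hT g hg
  have hgu0 : g • u ≠ 0 := by
    intro h0
    apply hu
    have h1 : g⁻¹ • (g • u) = g⁻¹ • (0 : F) := congrArg (g⁻¹ • ·) h0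
    rwa [inv_smul_smul, smul_zero] at h1
  have hs0 : s ≠ 0 := by
    rintro rfl
    apply hgu0
    rw [hgu]
    ring
  have h1 : 𝒟.IsCan (g • u) (g • y) := hy.smul 𝒟 (hG g hg)
  rw [hgu] at h1
  have h2 : 𝒟.IsCan s (g • y) := h1.of_class 𝒟 hc hw hs0
  have hex : ∃ z, 𝒟.IsCan s z := ⟨_, h2⟩
  have h3 : can s = g • y := by
    show (if h : ∃ z, 𝒟.IsCan s z then h.choose else 0) = g • y
    rw [dif_pos hex]
    exact hex.choose_spec.unique 𝒟 h2
  rw [Finset.coe_image, Set.mem_image]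
  exact ⟨s, hsT, h3⟩

end Generic

end Fermat.Agent.S29.helper7274
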