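import Fermat.Agent.S29.helper7274_Descent
import Fermat.Agent.S29.helper36_FunctionFieldL
import Fermat.Agent.S29.helper6961_CoeffDescent
import Fermat.Prelude.Def_ModularCurve_ArithmeticGalois

/-!
# S29-DESC (helper7274): descent `Ω → K` of classes modulo constants and `n`-th powers
for the function field of `X₀(N)`

`FΩ := laurentBaseChange Ω (modularFunctionFieldFull N)`, `Ω` algebraically closed of
characteristic zero (e.g. `ℂ`), `K ⊆ Ω` algebraically closed (e.g. `ℚ̄`).

Main result `exists_descent` (and the `RingHom` form `exists_descent_ringHom`):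
if the coefficientwise conjugates of `u ∈ FΩ^×` fall into finitely many classes modulo
`Ω^× · (FΩ^×)^n`, then `u = c * ι(u₀) * w ^ n` with `u₀` in the `K`-function field.
No divisibility hypothesis on the divisor of `u` is needed.
-/

set_option autoImplicit false

open AlgebraicCurve ModularCurve

namespace Fermat.Agent.S29.helper7274

section Laurent

variable {L : Type*} [Field L]

/-- leading coefficient of a Laurent series (coefficient at the order). -/
noncomputable def lcq (x : LaurentSeries L) : L := x.coeff x.order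

theorem lcq_ne_zero {x : LaurentSeries L} (hx : x ≠ 0) : lcq x ≠ 0 := fun h =>
  hx (HahnSeries.coeff_order_eq_zero.mp h)

theorem order_algebraMap_mul {c : L} (hc : c ≠ 0) (x : LaurentSeries L) :
    (algebraMap L (LaurentSeries L) c * x).order = x.order := by
  rcases eq_or_ne x 0 with rfl | hx
  · simp
  rw [algebraMap_laurentSeries_eq_single,
    HahnSeries.order_mul (HahnSeries.single_ne_zero hc) hx, HahnSeries.order_single hc, zero_add]

theorem lcq_algebraMap_mul (c : L) (x : LaurentSeries L) :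
    lcq (algebraMap L (LaurentSeries L) c * x) = c * lcq x := by
  rcases eq_or_ne c 0 with rfl | hc
  · simp [lcq]
  unfold lcq
  rw [order_algebraMap_mul hc, algebraMap_laurentSeries_eq_single,
    HahnSeries.coeff_single_zero_mul]

theorem order_lt_order_sub {x y : LaurentSeries L} (ho : x.order = y.order)
    (hl : lcq x = lcq y) (hne : x ≠ y) : x.order < (x - y).order := by
  have hxy : x - y ≠ 0 := sub_ne_zero.mpr hne
  by_contra hlt
  have hle : (x - y).order ≤ x.order := not_lt.mp hlt
  have h1 : (x - y).coeff (x - y).order ≠ 0 := fun h =>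
    hxy (HahnSeries.coeff_order_eq_zero.mp h)
  apply h1
  rw [HahnSeries.coeff_sub]
  rcases lt_or_eq_of_le hle with h | h
  · rw [HahnSeries.coeff_eq_zero_of_lt_order h,
      HahnSeries.coeff_eq_zero_of_lt_order (ho ▸ h), sub_zero]
  · rw [h]
    have h2 : y.coeff x.order = lcq y := by
      unfold lcq
      rw [ho]
    rw [h2, ← hl]
    exact sub_self _

theorem order_coeffMap {L' : Type*} [Field L'] (σ : L →+* L') (x : LaurentSeries L) :
    (coeffMap σ x).order = x.order := by
  rcases eq_or_ne x 0 with rfl | hx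
  · simp
  have h1 : (coeffMap σ x).coeff x.order ≠ 0 := by
    rw [coeffMap_coeff]
    exact (map_ne_zero σ).mpr (lcq_ne_zero hx)
  have hx' : coeffMap σ x ≠ 0 := HahnSeries.ne_zero_of_coeff_ne_zero h1
  refine le_antisymm (HahnSeries.order_le_of_coeff_ne_zero h1)
    (HahnSeries.order_le_of_coeff_ne_zero ?_)
  intro h0
  have h2 := lcq_ne_zero hx'
  unfold lcq at h2
  rw [coeffMap_coeff, h0, map_zero] at h2
  exact h2 rfl

theorem lcq_coeffMap {L' : Type*} [Field L'] (σ : L →+* L') (x : LaurentSeries L) :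
    lcq (coeffMap σ x) = σ (lcq x) := by
  unfold lcq
  rw [order_coeffMap, coeffMap_coeff]

end Laurent

section Modular

variable (Ω : Type) [Field Ω] [Algebra ℚ Ω] [CharZero Ω] [IsAlgClosed Ω] (N : ℕ) [NeZero N]

/-- The canonical-representative data of the function field of `X₀(N)` over `Ω`: coordinate
`j`, base place the cusp `∞` (the `q`-adic place), leading coefficient of the `q`-expansion. -/
noncomputable def modCanonData (n : ℕ) (hn : n ≠ 0) :
    CanonData Ω (laurentBaseChange Ω (modularFunctionFieldFull N)) where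
  n := n
  n_ne_zero := hn
  t := helper36.jL Ω N
  v₀ := helper36.qPlaceL Ω N
  lc f := lcq (f : LaurentSeries Ω)
  lc_ne_zero f hf := lcq_ne_zero fun h => hf (Subtype.ext h)
  lc_smul c f := lcq_algebraMap_mul c (f : LaurentSeries Ω)
  lc_sub f₁ f₂ hf₁ hf₂ ho hl hne := by
    rw [helper36.qPlaceL_ord Ω N hf₁, helper36.qPlaceL_ord Ω N hf₂] at ho
    rw [helper36.qPlaceL_ord Ω N hf₁, helper36.qPlaceL_ord Ω N (sub_ne_zero.mpr hne)]
    exact order_lt_order_sub ho hl fun h => hne (Subtype.ext h)
  center v := (helper36.place_center_L Ω N v).imp id fun h => h.exists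
  deg_one := helper36.place_deg_eq_one_L Ω N

@[simp]
theorem modCanonData_n (n : ℕ) (hn : n ≠ 0) : (modCanonData Ω N n hn).n = n := rfl

theorem modCanonData_compat (n : ℕ) (hn : n ≠ 0) (σ : Ω ≃ₐ[ℚ] Ω) :
    (modCanonData Ω N n hn).Compat (arithmeticGalois (modularFunctionFieldFull N) σ) where
  smul_t := by
    apply Subtype.ext
    rw [coe_arithmeticGalois_smul]
    exact coeffMap_jqModC _
  ord_smul f := by
    rcases eq_or_ne f 0 with rfl | hf
    · rw [smul_zero]
    have hgf : arithmeticGalois (modularFunctionFieldFull N) σ • f ≠ 0 := by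
      intro h0
      apply hf
      have h1 := congrArg ((arithmeticGalois (modularFunctionFieldFull N) σ)⁻¹ • ·) h0
      simpa using h1
    show (helper36.qPlaceL Ω N).ord _ = (helper36.qPlaceL Ω N).ord f
    rw [helper36.qPlaceL_ord Ω N hgf, helper36.qPlaceL_ord Ω N hf, coe_arithmeticGalois_smul,
      order_coeffMap]
  lc_smul f := by
    show lcq ((arithmeticGalois (modularFunctionFieldFull N) σ • f :
        laurentBaseChange Ω (modularFunctionFieldFull N)) : LaurentSeries Ω)
      = σ (lcq (f : LaurentSeries Ω))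
    rw [coe_arithmeticGalois_smul, lcq_coeffMap]
    rfl

end Modular

section Main

/-- the `ℚ`-algebra automorphism underlying a `K`-algebra automorphism. -/
noncomputable def ratAlgEquiv {K Ω : Type*} [Field K] [Field Ω] [Algebra K Ω] [Algebra ℚ Ω]
    (σ : Ω ≃ₐ[K] Ω) : Ω ≃ₐ[ℚ] Ω :=
  AlgEquiv.ofRingEquiv (f := σ.toRingEquiv) fun q => by simp

@[simp]
theorem ratAlgEquiv_apply {K Ω : Type*} [Field K] [Field Ω] [Algebra K Ω] [Algebra ℚ Ω]
    (σ : Ω ≃ₐ[K] Ω) (x : Ω) : ratAlgEquiv σ x = σ x := rfl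

variable {K Ω : Type} [Field K] [Field Ω] [Algebra K Ω] [Algebra ℚ K] [Algebra ℚ Ω]
  [IsAlgClosed K] [IsAlgClosed Ω] [CharZero Ω]

/-- **Descent `Ω → K` (e.g. `ℂ → ℚ̄`) of classes modulo constants and `n`-th powers.**
If the coefficientwise conjugates of `u ≠ 0` fall into finitely many classes modulo
`Ω^× · (FΩ^×)^n`, then `u = c * ι(u₀) * w ^ n` with `u₀` in the `K`-function field. -/
theorem exists_descent (N : ℕ) [NeZero N] (n : ℕ) (hn : n ≠ 0)
    (u : laurentBaseChange Ω (modularFunctionFieldFull N)) (hu : u ≠ 0)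
    (hfin : ∃ T : Finset (laurentBaseChange Ω (modularFunctionFieldFull N)),
      ∀ σ : Ω ≃ₐ[ℚ] Ω, ∃ s ∈ T,
        ∃ (c : Ω) (w : laurentBaseChange Ω (modularFunctionFieldFull N)), c ≠ 0 ∧ w ≠ 0 ∧
          arithmeticGalois (modularFunctionFieldFull N) σ • u
            = algebraMap Ω (laurentBaseChange Ω (modularFunctionFieldFull N)) c * s * w ^ n) :
    ∃ (u₀ : laurentBaseChange K (modularFunctionFieldFull N)) (c : Ω)
      (w : laurentBaseChange Ω (modularFunctionFieldFull N)),
      u₀ ≠ 0 ∧ c ≠ 0 ∧ w ≠ 0 ∧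
      (u : LaurentSeries Ω) = algebraMap Ω (LaurentSeries Ω) c
        * coeffMap (algebraMap K Ω) (u₀ : LaurentSeries K) * (w : LaurentSeries Ω) ^ n := by
  obtain ⟨y, hy⟩ := (modCanonData Ω N n hn).exists_isCan hu
  have hfinorb := finite_orbit_isCan (modCanonData Ω N n hn)
    (Set.range (arithmeticGalois (L := Ω) (modularFunctionFieldFull N)))
    (by rintro _ ⟨σ, rfl⟩; exact modCanonData_compat Ω N n hn σ) hu
    (by
      obtain ⟨T, hT⟩ := hfin
      exact ⟨T, by rintro _ ⟨σ, rfl⟩; exact hT σ⟩) hy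
  have hconj : (Set.range fun σ : Ω ≃ₐ[K] Ω =>
      coeffMap (σ : Ω →+* Ω) (y : LaurentSeries Ω)).Finite := by
    refine (hfinorb.image
      (fun z : laurentBaseChange Ω (modularFunctionFieldFull N) => (z : LaurentSeries Ω))).subset ?_
    rintro _ ⟨σ, rfl⟩
    exact ⟨arithmeticGalois (modularFunctionFieldFull N) (ratAlgEquiv σ) • y,
      ⟨_, ⟨ratAlgEquiv σ, rfl⟩, rfl⟩, rfl⟩
  obtain ⟨y₀, hy₀, hy₀y⟩ := Fermat.Agent.S29.helper6961.exists_descent_of_finite_conjugates
    (K := K) (modularFunctionFieldFull N) hconj y.2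
  obtain ⟨c, f, hc, hf, hyrel⟩ := hy.rel _ hu
  rw [modCanonData_n] at hyrel
  have hy0 : y ≠ 0 := by
    rw [hyrel]
    exact mul_ne_zero (mul_ne_zero ((map_ne_zero _).mpr hc) hu) (pow_ne_zero n hf)
  refine ⟨⟨y₀, hy₀⟩, c⁻¹, f⁻¹, ?_, inv_ne_zero hc, inv_ne_zero hf, ?_⟩
  · intro h0
    apply hy0
    apply Subtype.ext
    have h1 : y₀ = 0 := congrArg Subtype.val h0
    rw [← hy₀y, h1, map_zero]
    rfl
  · have h2 : u = algebraMap Ω (laurentBaseChange Ω (modularFunctionFieldFull N)) c⁻¹ * y
        * f⁻¹ ^ n := by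
      rw [hyrel, map_inv₀, inv_pow]
      have hc' : algebraMap Ω (laurentBaseChange Ω (modularFunctionFieldFull N)) c ≠ 0 :=
        (map_ne_zero _).mpr hc
      have hf' : f ^ n ≠ 0 := pow_ne_zero n hf
      field_simp
    have h3 := congrArg (Subtype.val) h2
    rw [h3, hy₀y]
    rfl

/-- `RingHom` form of `exists_descent`: `K`, `Ω` algebraically closed fields of characteristic
zero and `ι : K →+* Ω` any embedding (e.g. `ℚ̄ → ℂ`). -/
theorem exists_descent_ringHom {K Ω : Type} [Field K] [Field Ω] [Algebra ℚ K] [Algebra ℚ Ω]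
    [IsAlgClosed K] [IsAlgClosed Ω] [CharZero Ω] (ι : K →+* Ω)
    (N : ℕ) [NeZero N] (n : ℕ) (hn : n ≠ 0)
    (u : laurentBaseChange Ω (modularFunctionFieldFull N)) (hu : u ≠ 0)
    (hfin : ∃ T : Finset (laurentBaseChange Ω (modularFunctionFieldFull N)),
      ∀ σ : Ω ≃ₐ[ℚ] Ω, ∃ s ∈ T,
        ∃ (c : Ω) (w : laurentBaseChange Ω (modularFunctionFieldFull N)), c ≠ 0 ∧ w ≠ 0 ∧
          arithmeticGalois (modularFunctionFieldFull N) σ • u
            = algebraMap Ω (laurentBaseChange Ω (modularFunctionFieldFull N)) c * s * w ^ n) :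
    ∃ (u₀ : laurentBaseChange K (modularFunctionFieldFull N)) (c : Ω)
      (w : laurentBaseChange Ω (modularFunctionFieldFull N)),
      u₀ ≠ 0 ∧ c ≠ 0 ∧ w ≠ 0 ∧
      (u : LaurentSeries Ω) = algebraMap Ω (LaurentSeries Ω) c
        * coeffMap ι (u₀ : LaurentSeries K) * (w : LaurentSeries Ω) ^ n := by
  let _ : Algebra K Ω := ι.toAlgebra
  exact exists_descent (K := K) N n hn u hu hfin

end Main

end Fermat.Agent.S29.helper7274
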