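import Mathlib

/-!
# S29-DIM2 (helper7361): quadratic relations force dimension `≤ 2`

Setting: `K` an algebraically closed field (any characteristic), `G` a group,
`ρ : G →* Module.End K W` a finite-dimensional representation, `ε : G →* Kˣ` a character and the
hypothesis

  `(Q)` : for every `g` there is `c : K` with `ρ g * ρ g - c • ρ g + (ε g : K) • 1 = 0`.

* `quad_pow` : a quadratic relation for `τ` gives one for every power `τ ^ b`, with constant term
  `e ^ b` (Lucas sequence).  Hence `(Q)` only has to be known at one generator of each cyclic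
  subgroup (`quad_of_generator`).
* `finrank_le_two` : if `ρ` is irreducible then `finrank K W ≤ 2`.
* `exists_rep_two` : for any nonzero `W` with `(Q)` there is a representation on `Fin 2 → K` whose
  characteristic polynomials are `X ^ 2 - c X + ε g` for every `c` as in `(Q)`.
-/

set_option autoImplicit false

namespace Fermat.Agent.S29.helper7361

open Polynomial Module

section Lucas

/-- In a commutative ring, a root of `X² - cX + e` has its `b`-th power a root of
`X² - L_b X + e^b`, where `L` is the Lucas sequence of `(c, e)`. -/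
theorem comm_quad_pow {R : Type*} [CommRing R] (x c e : R) (h : x * x - c * x + e = 0)
    (L : ℕ → R) (h0 : L 0 = 2) (h1 : L 1 = c) (hrec : ∀ n, L (n + 2) = c * L (n + 1) - e * L n)
    (b : ℕ) : x ^ b * x ^ b - L b * x ^ b + e ^ b = 0 := by
  set y : R := c - x with hy
  have hxy : x * y = e := by rw [hy]; linear_combination -h
  have hsum : x + y = c := by rw [hy]; ring
  have key : ∀ n, x ^ n + y ^ n = L n ∧ x ^ (n + 1) + y ^ (n + 1) = L (n + 1) := by
    intro n
    induction n with
    | zero => exact ⟨by rw [h0]; ring, by rw [h1, ← hsum]; ring⟩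
    | succ n ih =>
      refine ⟨ih.2, ?_⟩
      rw [hrec, ← ih.1, ← ih.2, ← hsum, ← hxy]
      ring
  rw [← (key b).1, ← hxy]
  ring_nf

/-- The Lucas sequence `V_n(c, e)`: `V_0 = 2`, `V_1 = c`, `V_{n+2} = c V_{n+1} - e V_n`. -/
def lucasV {K : Type*} [CommRing K] (c e : K) : ℕ → K
  | 0 => 2
  | 1 => c
  | (n + 2) => c * lucasV c e (n + 1) - e * lucasV c e n

theorem lucasV_zero {K : Type*} [CommRing K] (c e : K) : lucasV c e 0 = 2 := rfl

theorem lucasV_one {K : Type*} [CommRing K] (c e : K) : lucasV c e 1 = c := rfl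

theorem lucasV_add_two {K : Type*} [CommRing K] (c e : K) (n : ℕ) :
    lucasV c e (n + 2) = c * lucasV c e (n + 1) - e * lucasV c e n := rfl

end Lucas


section QuadPow

variable {K : Type*} [Field K]

/-- **Powers.** If `τ` (in any `K`-algebra) satisfies `τ² - c τ + e = 0`, then `τ ^ b` satisfies
`X² - V_b(c, e) X + e ^ b`. -/
theorem quad_pow {A : Type*} [Ring A] [Algebra K A] (τ : A) (c e : K)
    (h : τ * τ - c • τ + e • (1 : A) = 0) (b : ℕ) :
    τ ^ b * τ ^ b - lucasV c e b • τ ^ b + e ^ b • (1 : A) = 0 := by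
  set q : K[X] := X ^ 2 - C c * X + C e with hq
  have hqτ : aeval τ q = 0 := by
    rw [hq]
    simp only [map_add, map_sub, map_mul, map_pow, aeval_X, aeval_C, ← Algebra.smul_def]
    rw [pow_two, Algebra.algebraMap_eq_smul_one]
    exact h
  have hdvd : q ∣ X ^ b * X ^ b - C (lucasV c e b) * X ^ b + C (e ^ b) := by
    rw [← AdjoinRoot.mk_eq_zero]
    simp only [map_sub, map_add, map_mul, map_pow, AdjoinRoot.mk_X, AdjoinRoot.mk_C]
    refine comm_quad_pow (AdjoinRoot.root q) (AdjoinRoot.of q c) (AdjoinRoot.of q e) ?_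
      (fun n => AdjoinRoot.of q (lucasV c e n)) ?_ ?_ ?_ b
    · have h0 : AdjoinRoot.mk q q = 0 := AdjoinRoot.mk_self
      rw [hq] at h0
      simp only [map_sub, map_add, map_mul, map_pow, AdjoinRoot.mk_X, AdjoinRoot.mk_C] at h0
      rw [← hq] at h0
      rw [← h0]
      ring
    · simp only [lucasV_zero]; exact map_ofNat (AdjoinRoot.of q) 2
    · simp [lucasV_one]
    · intro n
      simp [lucasV_add_two]
  obtain ⟨r, hr⟩ := hdvd
  have h2 := congrArg (aeval τ) hr
  rw [map_mul, hqτ, zero_mul] at h2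
  simp only [map_add, map_sub, map_mul, aeval_C, ← Algebra.smul_def, aeval_X_pow] at h2
  rw [Algebra.algebraMap_eq_smul_one] at h2
  exact h2

end QuadPow


section Main

variable {K : Type*} [Field K] {G : Type*} [Group G]
  {W : Type*} [AddCommGroup W] [Module K W]

/-- The quadratic relation `ρ g ² - c ρ g + ε g = 0`. -/
def QuadRel (ρ : G →* Module.End K W) (ε : G →* Kˣ) (g : G) (c : K) : Prop :=
  ρ g * ρ g - c • ρ g + ((ε g : Kˣ) : K) • (1 : Module.End K W) = 0

/-- The quadratic relation at `τ` gives one at every power of `τ`. -/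
theorem QuadRel.pow {ρ : G →* Module.End K W} {ε : G →* Kˣ} {τ : G} {c : K}
    (h : QuadRel ρ ε τ c) (b : ℕ) : QuadRel ρ ε (τ ^ b) (lucasV c ((ε τ : Kˣ) : K) b) := by
  unfold QuadRel at h ⊢
  rw [map_pow, map_pow, Units.val_pow_eq_pow_val]
  exact quad_pow (ρ τ) c _ h b

/-- Hypothesis `(Q)` follows from the relation at one generator of each cyclic subgroup. -/
theorem quad_of_generator (ρ : G →* Module.End K W) (ε : G →* Kˣ)
    (hgen : ∀ g : G, ∃ (τ : G) (b : ℕ) (c : K), g = τ ^ b ∧ QuadRel ρ ε τ c) :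
    ∀ g, ∃ c, QuadRel ρ ε g c := by
  intro g
  obtain ⟨τ, b, c, rfl, h⟩ := hgen g
  exact ⟨_, h.pow b⟩

theorem inv_formula (ρ : G →* Module.End K W) (ε : G →* Kˣ) {g : G} {c : K}
    (h : QuadRel ρ ε g c) :
    ((ε g : Kˣ) : K) • ρ g⁻¹ = c • (1 : Module.End K W) - ρ g := by
  have h1 : ρ g⁻¹ * ρ g = 1 := by rw [← map_mul, inv_mul_cancel, map_one]
  have h2 := congrArg (fun x => ρ g⁻¹ * x) h
  simp only [mul_add, mul_sub, mul_zero, ← mul_assoc, h1, one_mul, mul_smul_comm, mul_one] at h2
  linear_combination (norm := module) h2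

/-- The polarised identity. -/
theorem polar (ρ : G →* Module.End K W) (ε : G →* Kˣ) {g h : G} {cg ch cgh : K}
    (hg : QuadRel ρ ε g cg) (hh : QuadRel ρ ε h ch) (hgh : QuadRel ρ ε (g * h) cgh) :
    ρ g * ρ h + ρ h * ρ g
      = cg • ρ h + ch • ρ g + (cgh - cg * ch) • (1 : Module.End K W) := by
  have e1 := inv_formula ρ ε hg
  have e2 := inv_formula ρ ε hh
  have e3 := inv_formula ρ ε hgh
  rw [mul_inv_rev, map_mul, map_mul, map_mul, Units.val_mul] at e3
  have e4 : (((ε g : Kˣ) : K) * ((ε h : Kˣ) : K)) • (ρ h⁻¹ * ρ g⁻¹)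
      = (ch • (1 : Module.End K W) - ρ h) * (cg • (1 : Module.End K W) - ρ g) := by
    rw [← e1, ← e2, smul_mul_smul_comm, mul_comm]
  rw [e4] at e3
  simp only [sub_mul, mul_sub, smul_mul_assoc, mul_smul_comm, one_mul, mul_one, smul_sub,
    smul_smul] at e3
  linear_combination (norm := module) e3

/-- Irreducibility of a representation (no proper nonzero invariant submodule). -/
def IsIrr (ρ : G →* Module.End K W) : Prop :=
  ∀ U : Submodule K W, (∀ g, ∀ x ∈ U, ρ g x ∈ U) → U = ⊥ ∨ U = ⊤

/-- Key step: if `v` is an eigenvector of `ρ g` with eigenvalue `l`, then `ρ g` acts on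
`W ⧸ ⟨v⟩` as the scalar `c - l`. -/
theorem range_le_span {ρ : G →* Module.End K W} {ε : G →* Kˣ}
    (hQ : ∀ g, ∃ c, QuadRel ρ ε g c) (hirr : IsIrr ρ)
    {g : G} {c : K} (hg : QuadRel ρ ε g c) {l : K} {v : W} (hv : v ≠ 0) (hgv : ρ g v = l • v) :
    LinearMap.range (ρ g - (c - l) • (1 : Module.End K W)) ≤ Submodule.span K {v} := by
  set S : Submodule K W := Submodule.span K (Set.range fun h : G => ρ h v) with hSdef
  have hS : S = ⊤ := by
    have hinv : ∀ a, ∀ x ∈ S, ρ a x ∈ S := by
      intro a x hx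
      induction hx using Submodule.span_induction with
      | mem x hx =>
        obtain ⟨h, rfl⟩ := hx
        exact Submodule.subset_span ⟨a * h, by simp [map_mul]⟩
      | zero => simp
      | add x y _ _ hx hy => rw [map_add]; exact add_mem hx hy
      | smul t x _ hx => rw [map_smul]; exact Submodule.smul_mem _ _ hx
    rcases hirr S hinv with h0 | h1
    · exfalso
      apply hv
      have hvS : v ∈ S := Submodule.subset_span ⟨1, by simp⟩
      rw [h0] at hvS
      simpa using hvS
    · exact h1
  rintro _ ⟨w, rfl⟩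
  have hw : w ∈ S := by rw [hS]; trivial
  induction hw using Submodule.span_induction with
  | mem x hx =>
    obtain ⟨h, rfl⟩ := hx
    obtain ⟨ch, hh⟩ := hQ h
    obtain ⟨cgh, hgh⟩ := hQ (g * h)
    have hp := polar ρ ε hg hh hgh
    have hp' := congrArg (fun f : Module.End K W => f v) hp
    simp only [LinearMap.add_apply, Module.End.mul_apply, LinearMap.smul_apply, hgv, map_smul,
      Module.End.one_apply] at hp'
    rw [Submodule.mem_span_singleton]
    refine ⟨ch * l + (cgh - c * ch), ?_⟩
    simp only [LinearMap.sub_apply, LinearMap.smul_apply, Module.End.one_apply]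
    linear_combination (norm := module) -hp'
  | zero => simp
  | add x y _ _ hx hy => rw [map_add]; exact add_mem hx hy
  | smul t x _ hx => rw [map_smul]; exact Submodule.smul_mem _ _ hx

/-- If `3 ≤ dim W` then every `ρ g` is a scalar. -/
theorem scalar_of_three_le [IsAlgClosed K] [FiniteDimensional K W]
    {ρ : G →* Module.End K W} {ε : G →* Kˣ}
    (hQ : ∀ g, ∃ c, QuadRel ρ ε g c) (hirr : IsIrr ρ) (h3 : 3 ≤ finrank K W) (g : G) :
    ∃ l : K, ρ g = l • (1 : Module.End K W) := by
  have : Nontrivial W := Module.nontrivial_of_finrank_pos (R := K) (by omega)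
  obtain ⟨c, hg⟩ := hQ g
  obtain ⟨l, hl⟩ := Module.End.exists_eigenvalue (ρ g)
  obtain ⟨v, hv⟩ := hl.exists_hasEigenvector
  have hgv : ρ g v = l • v := hv.apply_eq_smul
  have hv0 : v ≠ 0 := hv.2
  refine ⟨l, ?_⟩
  set N : Module.End K W := ρ g - (c - l) • (1 : Module.End K W) with hN
  have hrange : LinearMap.range N ≤ Submodule.span K {v} := range_le_span hQ hirr hg hv0 hgv
  have hr1 : finrank K (LinearMap.range N) ≤ 1 :=
    (Submodule.finrank_mono hrange).trans (finrank_span_singleton hv0).le
  have hker : 2 ≤ finrank K (LinearMap.ker N) := by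
    have := LinearMap.finrank_range_add_finrank_ker N
    omega
  by_contra hne
  have hex : ∃ w, ρ g w - l • w ≠ 0 := by
    by_contra hall
    simp only [not_exists, not_not] at hall
    apply hne
    ext w
    have := hall w
    simpa [sub_eq_zero] using this
  obtain ⟨w, hw⟩ := hex
  have hle : LinearMap.ker N ≤ Submodule.span K {ρ g w - l • w} := by
    intro v' hv'
    by_cases hv'0 : v' = 0
    · rw [hv'0]; exact zero_mem _
    have hgv' : ρ g v' = (c - l) • v' := by
      have h0 : N v' = 0 := hv'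
      rw [hN] at h0
      simp only [LinearMap.sub_apply, LinearMap.smul_apply, Module.End.one_apply] at h0
      exact sub_eq_zero.mp h0
    have hr' := range_le_span hQ hirr hg hv'0 hgv'
    have hmem : ρ g w - l • w ∈ Submodule.span K {v'} := by
      apply hr'
      refine ⟨w, ?_⟩
      simp only [LinearMap.sub_apply, LinearMap.smul_apply, Module.End.one_apply]
      congr 2
      ring
    obtain ⟨t, ht⟩ := Submodule.mem_span_singleton.mp hmem
    have ht0 : t ≠ 0 := by
      rintro rfl
      rw [zero_smul] at ht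
      exact hw ht.symm
    rw [Submodule.mem_span_singleton]
    exact ⟨t⁻¹, by rw [← ht, smul_smul, inv_mul_cancel₀ ht0, one_smul]⟩
  have : finrank K (LinearMap.ker N) ≤ 1 :=
    (Submodule.finrank_mono hle).trans (finrank_span_singleton hw).le
  omega

/-- **Dimension bound.** An irreducible finite-dimensional representation over an algebraically
closed field in which every element satisfies a quadratic relation with multiplicative constant
term has dimension at most `2`. -/
theorem finrank_le_two [IsAlgClosed K] [FiniteDimensional K W]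
    {ρ : G →* Module.End K W} {ε : G →* Kˣ}
    (hQ : ∀ g, ∃ c, QuadRel ρ ε g c) (hirr : IsIrr ρ) : finrank K W ≤ 2 := by
  by_contra hcon
  have h3 : 3 ≤ finrank K W := by omega
  have : Nontrivial W := Module.nontrivial_of_finrank_pos (R := K) (by omega)
  obtain ⟨v, hv⟩ := exists_ne (0 : W)
  have hinv : ∀ g, ∀ x ∈ Submodule.span K {v}, ρ g x ∈ Submodule.span K {v} := by
    intro g x hx
    obtain ⟨l, hl⟩ := scalar_of_three_le hQ hirr h3 g
    rw [hl]
    simpa using Submodule.smul_mem _ l hx
  rcases hirr _ hinv with h0 | h1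
  · apply hv
    have hvs : v ∈ Submodule.span K {v} := Submodule.mem_span_singleton_self v
    rw [h0] at hvs
    simpa using hvs
  · have h1' : finrank K W = 1 := by
      rw [← finrank_top K W, ← h1, finrank_span_singleton hv]
    omega

/-- Restriction of a representation to an invariant submodule. -/
def restrictRep (ρ : G →* Module.End K W) (U : Submodule K W)
    (hU : ∀ g, ∀ x ∈ U, ρ g x ∈ U) : G →* Module.End K U where
  toFun g := (ρ g).restrict (hU g)
  map_one' := by
    ext x
    simp
  map_mul' g h := by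
    ext x
    simp [map_mul]

@[simp] theorem restrictRep_apply_coe (ρ : G →* Module.End K W) (U : Submodule K W)
    (hU : ∀ g, ∀ x ∈ U, ρ g x ∈ U) (g : G) (x : U) :
    ((restrictRep ρ U hU g x : U) : W) = ρ g x := rfl

theorem QuadRel.restrict {ρ : G →* Module.End K W} {ε : G →* Kˣ} {g : G} {c : K}
    (h : QuadRel ρ ε g c) (U : Submodule K W) (hU : ∀ g, ∀ x ∈ U, ρ g x ∈ U) :
    QuadRel (restrictRep ρ U hU) ε g c := by
  unfold QuadRel at h ⊢
  ext x
  have h2 := congrArg (fun f : Module.End K W => f (x : W)) h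
  simpa using h2

/-- A nonzero finite-dimensional representation has an irreducible subrepresentation. -/
theorem exists_irr_sub [FiniteDimensional K W] [Nontrivial W] (ρ : G →* Module.End K W) :
    ∃ (U : Submodule K W) (hU : ∀ g, ∀ x ∈ U, ρ g x ∈ U), U ≠ ⊥ ∧ IsIrr (restrictRep ρ U hU) := by
  let P : Set (Submodule K W) := {U | U ≠ ⊥ ∧ ∀ g, ∀ x ∈ U, ρ g x ∈ U}
  have hP : P.Nonempty := ⟨⊤, top_ne_bot, fun _ _ _ => trivial⟩
  obtain ⟨U, hUP, hmin⟩ := (wellFounded_lt (α := Submodule K W)).has_min P hP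
  refine ⟨U, hUP.2, hUP.1, ?_⟩
  intro U' hU'
  by_cases h0 : U' = ⊥
  · exact Or.inl h0
  right
  have hmem : U'.map U.subtype ∈ P := by
    refine ⟨?_, ?_⟩
    · intro h
      apply h0
      rw [Submodule.eq_bot_iff]
      intro x hx
      have hx' : U.subtype x ∈ U'.map U.subtype := Submodule.mem_map_of_mem hx
      rw [h, Submodule.mem_bot] at hx'
      exact Subtype.ext hx'
    · rintro g _ ⟨x, hx, rfl⟩
      exact ⟨restrictRep ρ U hUP.2 g x, hU' g x hx, rfl⟩
  have hle : U'.map U.subtype ≤ U := Submodule.map_subtype_le U U'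
  have heq : U'.map U.subtype = U := by
    by_contra hne
    exact hmin _ hmem (lt_of_le_of_ne hle hne)
  have : U'.map U.subtype = (⊤ : Submodule K U).map U.subtype := by
    rw [heq, Submodule.map_subtype_top]
  exact Submodule.map_injective_of_injective U.subtype_injective this

theorem smul_one_inj {V : Type*} [AddCommGroup V] [Module K V] [Nontrivial V] {a b : K}
    (h : a • (1 : Module.End K V) = b • (1 : Module.End K V)) : a = b := by
  obtain ⟨v, hv⟩ := exists_ne (0 : V)
  have h2 := congrArg (fun f : Module.End K V => f v) h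
  simp only [LinearMap.smul_apply, Module.End.one_apply] at h2
  have h3 : (a - b) • v = 0 := by rw [sub_smul, h2, sub_self]
  rcases smul_eq_zero.mp h3 with h4 | h4
  · exact sub_eq_zero.mp h4
  · exact absurd h4 hv

theorem exists_smul_one_of_finrank_eq_one {V : Type*} [AddCommGroup V] [Module K V]
    (h1 : finrank K V = 1) (f : Module.End K V) : ∃ l : K, f = l • (1 : Module.End K V) := by
  obtain ⟨v, _, hv⟩ := finrank_eq_one_iff'.mp h1
  obtain ⟨l, hl⟩ := hv (f v)
  refine ⟨l, ?_⟩
  ext w
  obtain ⟨d, rfl⟩ := hv w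
  simp only [map_smul, LinearMap.smul_apply, Module.End.one_apply]
  rw [← hl, smul_comm]

/-- On a `2`-dimensional space a non-scalar endomorphism killed by a monic quadratic has that
quadratic as characteristic polynomial. -/
theorem charpoly_eq_of_not_scalar {V : Type*} [AddCommGroup V] [Module K V]
    [FiniteDimensional K V] (hV : finrank K V = 2) (f : Module.End K V) (c e : K)
    (h : f * f - c • f + e • (1 : Module.End K V) = 0)
    (hns : ¬ ∃ l : K, f = l • (1 : Module.End K V)) :
    f.charpoly = X ^ 2 - C c * X + C e := by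
  set P : K[X] := X ^ 2 - C c * X + C e with hP
  have hPm : P.Monic := by
    rw [hP]
    monicity!
  have hPd : P.natDegree = 2 := by
    rw [hP]
    compute_degree!
  have hPf : aeval f P = 0 := by
    rw [hP]
    simp only [map_add, map_sub, map_mul, map_pow, aeval_X, aeval_C, ← Algebra.smul_def]
    rw [pow_two, Algebra.algebraMap_eq_smul_one]
    exact h
  have hmin_dvd : minpoly K f ∣ P := minpoly.dvd K f hPf
  have hint : IsIntegral K f := Algebra.IsIntegral.isIntegral f
  have hmm : (minpoly K f).Monic := minpoly.monic hint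
  have hdeg : 2 ≤ (minpoly K f).natDegree := by
    by_contra hlt
    apply hns
    have hle : (minpoly K f).natDegree = 0 ∨ (minpoly K f).natDegree = 1 := by omega
    have haev := minpoly.aeval K f
    rcases hle with h0 | h1
    · rw [Polynomial.eq_one_of_monic_natDegree_zero hmm h0] at haev
      simp only [map_one] at haev
      refine ⟨0, ?_⟩
      rw [zero_smul, ← mul_one f, haev, mul_zero]
    · rw [hmm.eq_X_add_C h1] at haev
      simp only [map_add, aeval_X, aeval_C] at haev
      refine ⟨-(minpoly K f).coeff 0, ?_⟩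
      rw [neg_smul, ← Algebra.algebraMap_eq_smul_one]
      exact eq_neg_of_add_eq_zero_left haev
  have hP_eq : P = minpoly K f :=
    Polynomial.eq_of_monic_of_dvd_of_natDegree_le hmm hPm hmin_dvd (by omega)
  have hc_eq : f.charpoly = minpoly K f :=
    Polynomial.eq_of_monic_of_dvd_of_natDegree_le hmm f.charpoly_monic
      (LinearMap.minpoly_dvd_charpoly f) (by rw [LinearMap.charpoly_natDegree, hV]; exact hdeg)
  rw [hc_eq, ← hP_eq]

theorem charpoly_toLin'_fin_two (M : Matrix (Fin 2) (Fin 2) K) :
    (Matrix.toLin' M).charpoly = X ^ 2 - C M.trace * X + C M.det := by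
  rw [← LinearMap.charpoly_toMatrix (Matrix.toLin' M) (Pi.basisFun K (Fin 2)),
    LinearMap.toMatrix_eq_toMatrix', LinearMap.toMatrix'_toLin', Matrix.charpoly_fin_two]

theorem charpoly_smul_one_fin_two (l : K) :
    (l • (1 : Module.End K (Fin 2 → K))).charpoly = X ^ 2 - C (2 * l) * X + C (l ^ 2) := by
  have h : l • (1 : Module.End K (Fin 2 → K))
      = Matrix.toLin' (l • (1 : Matrix (Fin 2) (Fin 2) K)) := by
    rw [map_smul, Matrix.toLin'_one]
    rfl
  rw [h, charpoly_toLin'_fin_two]
  congr 3
  · simp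
    ring
  · simp

/-- The scalar case: all `ρ g` act by scalars `χ g` on a nonzero space. -/
theorem exists_rep_two_of_scalar {U : Type*} [AddCommGroup U] [Module K U] [Nontrivial U]
    (ρ0 : G →* Module.End K U) (ε : G →* Kˣ)
    (hsc : ∀ g, ∃ l : K, ρ0 g = l • (1 : Module.End K U)) :
    ∃ ρ₂ : G →* Module.End K (Fin 2 → K),
      (∀ g c, QuadRel ρ0 ε g c →
        LinearMap.charpoly (ρ₂ g) = X ^ 2 - C c * X + C ((ε g : Kˣ) : K)) ∧
      (∀ g, ρ0 g = 1 → ε g = 1 → ρ₂ g = 1) := by
  choose χ hχ using hsc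
  have hχ1 : χ 1 = 1 := by
    apply smul_one_inj (V := U)
    rw [← hχ, map_one, one_smul]
  have hχmul : ∀ g h, χ (g * h) = χ g * χ h := by
    intro g h
    apply smul_one_inj (V := U)
    rw [← hχ, map_mul, hχ g, hχ h, smul_mul_smul_comm, mul_one]
  have hχ0 : ∀ g, χ g ≠ 0 := by
    intro g h0
    have := hχmul g g⁻¹
    rw [mul_inv_cancel, hχ1, h0, zero_mul] at this
    exact one_ne_zero this
  let D : G → Matrix (Fin 2) (Fin 2) K := fun g =>
    Matrix.diagonal ![χ g, ((ε g : Kˣ) : K) * (χ g)⁻¹]
  have hD1 : D 1 = 1 := by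
    show Matrix.diagonal ![χ 1, ((ε 1 : Kˣ) : K) * (χ 1)⁻¹] = 1
    rw [← Matrix.diagonal_one]
    congr 1
    ext i
    fin_cases i <;> simp [hχ1]
  have hDmul : ∀ g h, D (g * h) = D g * D h := by
    intro g h
    show Matrix.diagonal ![χ (g * h), ((ε (g * h) : Kˣ) : K) * (χ (g * h))⁻¹]
      = Matrix.diagonal ![χ g, ((ε g : Kˣ) : K) * (χ g)⁻¹]
        * Matrix.diagonal ![χ h, ((ε h : Kˣ) : K) * (χ h)⁻¹]
    rw [Matrix.diagonal_mul_diagonal]
    congr 1
    ext i
    fin_cases i
    · simp [hχmul]
    · simp only [hχmul, map_mul, Units.val_mul, mul_inv]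
      simp
      ring
  let ρ₂ : G →* Module.End K (Fin 2 → K) :=
    { toFun := fun g => Matrix.toLin' (D g)
      map_one' := by rw [hD1, Matrix.toLin'_one]; rfl
      map_mul' := fun g h => by rw [hDmul, Matrix.toLin'_mul]; rfl }
  refine ⟨ρ₂, ?_, ?_⟩
  · intro g c hg
    have hrel : χ g * χ g - c * χ g + ((ε g : Kˣ) : K) = 0 := by
      unfold QuadRel at hg
      rw [hχ g, smul_mul_smul_comm, mul_one, smul_smul, ← sub_smul, ← add_smul] at hg
      have h0 : (χ g * χ g - c * χ g + ((ε g : Kˣ) : K)) • (1 : Module.End K U)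
          = (0 : K) • (1 : Module.End K U) := by rw [hg, zero_smul]
      exact smul_one_inj h0
    show (Matrix.toLin' (D g)).charpoly = _
    rw [charpoly_toLin'_fin_two]
    have htr : (D g).trace = c := by
      show (Matrix.diagonal ![χ g, ((ε g : Kˣ) : K) * (χ g)⁻¹]).trace = c
      rw [Matrix.trace_fin_two]
      simp only [Matrix.diagonal_apply_eq, Matrix.cons_val_zero, Matrix.cons_val_one]
      have := hχ0 g
      field_simp
      linear_combination hrel
    have hdet : (D g).det = ((ε g : Kˣ) : K) := by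
      show (Matrix.diagonal ![χ g, ((ε g : Kˣ) : K) * (χ g)⁻¹]).det = _
      rw [Matrix.det_diagonal, Fin.prod_univ_two]
      simp only [Matrix.cons_val_zero, Matrix.cons_val_one]
      have := hχ0 g
      field_simp
    rw [htr, hdet]
  · intro g hg hε
    have h1 : χ g = 1 := by
      apply smul_one_inj (V := U)
      rw [← hχ, hg, one_smul]
    show Matrix.toLin' (D g) = 1
    have : D g = 1 := by
      show Matrix.diagonal ![χ g, ((ε g : Kˣ) : K) * (χ g)⁻¹] = 1
      rw [← Matrix.diagonal_one]
      congr 1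
      ext i
      fin_cases i <;> simp [h1, hε]
    rw [this, Matrix.toLin'_one]
    rfl

/-- The irreducible non-scalar case: the space is `2`-dimensional and the representation itself
(transported to `Fin 2 → K`) has the right characteristic polynomials. -/
theorem exists_rep_two_of_not_scalar [IsAlgClosed K] {U : Type*} [AddCommGroup U] [Module K U]
    [FiniteDimensional K U] [Nontrivial U]
    (ρ0 : G →* Module.End K U) (ε : G →* Kˣ) (hQ : ∀ g, ∃ c, QuadRel ρ0 ε g c)
    (hirr : IsIrr ρ0) (h : G) (hh : ¬ ∃ l : K, ρ0 h = l • (1 : Module.End K U)) :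
    ∃ ρ₂ : G →* Module.End K (Fin 2 → K),
      (∀ g c, QuadRel ρ0 ε g c →
        LinearMap.charpoly (ρ₂ g) = X ^ 2 - C c * X + C ((ε g : Kˣ) : K)) ∧
      (∀ g, ρ0 g = 1 → ρ₂ g = 1) := by
  have hle : finrank K U ≤ 2 := finrank_le_two hQ hirr
  have hpos : 0 < finrank K U := Module.finrank_pos
  have h2 : finrank K U = 2 := by
    by_contra hne
    have h1 : finrank K U = 1 := by omega
    exact hh (exists_smul_one_of_finrank_eq_one h1 (ρ0 h))
  let b : Module.Basis (Fin 2) K U := Module.finBasisOfFinrankEq K U h2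
  let Φ : Module.End K U ≃ₐ[K] Module.End K (Fin 2 → K) :=
    (LinearMap.toMatrixAlgEquiv b).trans Matrix.toLinAlgEquiv'
  let ρ₂ : G →* Module.End K (Fin 2 → K) := (MonoidHomClass.toMonoidHom Φ).comp ρ0
  have hρ₂ : ∀ g, ρ₂ g = Φ (ρ0 g) := fun g => rfl
  have hV : finrank K (Fin 2 → K) = 2 := by simp
  -- transfer of relations
  have hrel : ∀ g c, QuadRel ρ0 ε g c →
      ρ₂ g * ρ₂ g - c • ρ₂ g + ((ε g : Kˣ) : K) • (1 : Module.End K (Fin 2 → K)) = 0 := by
    intro g c hg
    unfold QuadRel at hg
    have := congrArg Φ hg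
    simpa only [map_add, map_sub, map_mul, map_smul, map_one, map_zero, hρ₂] using this
  have hns : ∀ g, (∃ l : K, ρ₂ g = l • (1 : Module.End K (Fin 2 → K))) →
      ∃ l : K, ρ0 g = l • (1 : Module.End K U) := by
    rintro g ⟨l, hl⟩
    refine ⟨l, Φ.injective ?_⟩
    rw [map_smul, map_one, ← hρ₂, hl]
  refine ⟨ρ₂, ?_, ?_⟩
  · intro g c hg
    by_cases hsc : ∃ l : K, ρ₂ g = l • (1 : Module.End K (Fin 2 → K))
    · obtain ⟨l, hl⟩ := hsc
      -- `l ≠ 0`
      have hl0 : l ≠ 0 := by
        rintro rfl
        have h1 : ρ₂ g * ρ₂ g⁻¹ = 1 := by rw [← map_mul, mul_inv_cancel, map_one]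
        rw [hl, zero_smul, zero_mul] at h1
        exact zero_ne_one h1
      -- the non-scalar element `f = ρ₂ h`
      obtain ⟨ch, hch⟩ := hQ h
      obtain ⟨cgh, hcgh⟩ := hQ (g * h)
      have hf := hrel h ch hch
      have hlf := hrel (g * h) cgh hcgh
      rw [map_mul, hl, smul_mul_assoc, one_mul, smul_mul_smul_comm, map_mul, Units.val_mul] at hlf
      have hcomb : (l * l * ch - cgh * l) • ρ₂ h
          + (((ε g : Kˣ) : K) * ((ε h : Kˣ) : K) - l * l * ((ε h : Kˣ) : K))
            • (1 : Module.End K (Fin 2 → K)) = 0 := by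
        linear_combination (norm := module) hlf - (l * l) • hf
      have ha : l * l * ch - cgh * l = 0 := by
        by_contra ha
        apply hh
        apply hns h
        refine ⟨-((((ε g : Kˣ) : K) * ((ε h : Kˣ) : K) - l * l * ((ε h : Kˣ) : K))
          / (l * l * ch - cgh * l)), ?_⟩
        have h3 : (l * l * ch - cgh * l) • ρ₂ h
            = (l * l * ch - cgh * l) • (-((((ε g : Kˣ) : K) * ((ε h : Kˣ) : K)
              - l * l * ((ε h : Kˣ) : K)) / (l * l * ch - cgh * l))
                • (1 : Module.End K (Fin 2 → K))) := by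
          rw [smul_smul, mul_neg, mul_div_cancel₀ _ ha, neg_smul]
          exact eq_neg_of_add_eq_zero_left hcomb
        exact smul_right_injective _ ha h3
      rw [ha, zero_smul, zero_add] at hcomb
      have hb : ((ε g : Kˣ) : K) * ((ε h : Kˣ) : K) - l * l * ((ε h : Kˣ) : K) = 0 := by
        apply smul_one_inj (V := Fin 2 → K)
        rw [hcomb, zero_smul]
      have heg : ((ε g : Kˣ) : K) = l * l := by
        have hne : ((ε h : Kˣ) : K) ≠ 0 := (ε h).ne_zero
        have : (((ε g : Kˣ) : K) - l * l) * ((ε h : Kˣ) : K) = 0 := by linear_combination hb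
        rcases mul_eq_zero.mp this with h4 | h4
        · exact sub_eq_zero.mp h4
        · exact absurd h4 hne
      have hg2 := hrel g c hg
      rw [hl, smul_mul_smul_comm, mul_one, smul_smul] at hg2
      have hc : l * l - c * l + ((ε g : Kˣ) : K) = 0 := by
        apply smul_one_inj (V := Fin 2 → K)
        rw [add_smul, sub_smul, hg2, zero_smul]
      have hc2 : c = 2 * l := by
        rw [heg] at hc
        have : l * (2 * l - c) = 0 := by linear_combination hc
        rcases mul_eq_zero.mp this with h4 | h4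
        · exact absurd h4 hl0
        · exact (sub_eq_zero.mp h4).symm
      rw [hl, charpoly_smul_one_fin_two, heg, hc2, sq l]
    · exact charpoly_eq_of_not_scalar hV (ρ₂ g) c _ (hrel g c hg) hsc
  · intro g hg
    rw [hρ₂, hg, map_one]

/-- **Packaged form.** Any nonzero finite-dimensional representation `ρ` over an algebraically
closed field satisfying `(Q)` yields a representation `ρ₂` on `Fin 2 → K` such that
(a) whenever `ρ g` satisfies `X² - c X + ε g`, this is the characteristic polynomial of `ρ₂ g`;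
(b) `ρ₂ g = 1` whenever `ρ g = 1` and `ε g = 1`. -/
theorem exists_rep_two [IsAlgClosed K] [FiniteDimensional K W] [Nontrivial W]
    (ρ : G →* Module.End K W) (ε : G →* Kˣ) (hQ : ∀ g, ∃ c, QuadRel ρ ε g c) :
    ∃ ρ₂ : G →* Module.End K (Fin 2 → K),
      (∀ g c, QuadRel ρ ε g c →
        LinearMap.charpoly (ρ₂ g) = X ^ 2 - C c * X + C ((ε g : Kˣ) : K)) ∧
      (∀ g, ρ g = 1 → ε g = 1 → ρ₂ g = 1) := by
  obtain ⟨U, hU, hU0, hirr⟩ := exists_irr_sub ρ
  have hQ0 : ∀ g, ∃ c, QuadRel (restrictRep ρ U hU) ε g c :=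
    fun g => (hQ g).imp fun c h => h.restrict U hU
  have hUnt : Nontrivial U := Submodule.nontrivial_iff_ne_bot.mpr hU0
  have hone : ∀ g, ρ g = 1 → restrictRep ρ U hU g = 1 := by
    intro g hg
    ext x
    simp [hg]
  by_cases hsc : ∀ g, ∃ l : K, restrictRep ρ U hU g = l • (1 : Module.End K U)
  · obtain ⟨ρ₂, h1, h2⟩ := exists_rep_two_of_scalar (restrictRep ρ U hU) ε hsc
    exact ⟨ρ₂, fun g c hg => h1 g c (hg.restrict U hU), fun g hg hε => h2 g (hone g hg) hε⟩
  · simp only [not_forall] at hsc
    obtain ⟨h, hh⟩ := hsc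
    obtain ⟨ρ₂, h1, h2⟩ := exists_rep_two_of_not_scalar (restrictRep ρ U hU) ε hQ0 hirr h hh
    exact ⟨ρ₂, fun g c hg => h1 g c (hg.restrict U hU), fun g hg _ => h2 g (hone g hg)⟩

end Main

end Fermat.Agent.S29.helper7361
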