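/-
S29 leaf M5AN (board #848): Hecke-equivariance of the multiplier map (analytic half of M5).

For a prime `p ∤ N` and `γ ∈ Γ₀(N)` the Prelude coset system `heckeRep p x`
(`x : OnePoint (ZMod p)`) satisfies `heckeRep p x * γ = g'_x(γ) * heckeRep p (γ̄ • x)` with
`g'_x(γ) ∈ Γ₀(N)`.  This file packages `g'_x(γ)` as `cosetElt`, proves its cocycle property, and
defines the transfer-type Hecke operator on characters `Γ₀(N) →* A`
(`heckeTransfer`, multiplicative; `heckeTransferAdd`, additive), together with the equivariance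
statements for products / sums of translates of functions on the upper half plane.
-/
import Mathlib
import Fermat.Prelude.Sol.S_ModularForm_heckeT_slash_eq_self_of_mem_Gamma0
import Fermat.Prelude.Def_ModularCurve_PeriodMap

set_option autoImplicit false

namespace Fermat.Agent.S29.helper7638

open UpperHalfPlane CongruenceSubgroup Matrix.SpecialLinearGroup
open scoped MatrixGroups OnePoint
open P2MW.S_ModularForm_heckeT_slash_eq_self_of_mem_Gamma0.ModularForm.HeckeSlashInvariance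

noncomputable section

variable {p : ℕ} [Fact p.Prime] {N : ℕ}

/-! ### The reduction matrix is an anti-homomorphism -/

theorem redMatrix_mul (g₁ g₂ : SL(2, ℤ)) :
    redMatrix p (g₁ * g₂) = redMatrix p g₂ * redMatrix p g₁ := by
  apply Units.ext
  ext i j
  fin_cases i <;> fin_cases j <;>
    simp [redMatrix, Matrix.mul_apply, Fin.sum_univ_two] <;> ring

theorem redMatrix_one : redMatrix p (1 : SL(2, ℤ)) = 1 := by
  apply Units.ext
  ext i j
  fin_cases i <;> fin_cases j <;> simp [redMatrix]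

theorem redMatrix_mul_smul (g₁ g₂ : SL(2, ℤ)) (x : OnePoint (ZMod p)) :
    redMatrix p (g₁ * g₂) • x = redMatrix p g₂ • (redMatrix p g₁ • x) := by
  rw [redMatrix_mul, mul_smul]

theorem redMatrix_one_smul (x : OnePoint (ZMod p)) : redMatrix p (1 : SL(2, ℤ)) • x = x := by
  rw [redMatrix_one, one_smul]

/-- The permutation of the coset index set `ℙ¹(𝔽_p)` induced by `γ`. -/
def cosetPerm (p : ℕ) [Fact p.Prime] (g : SL(2, ℤ)) : Equiv.Perm (OnePoint (ZMod p)) :=
  MulAction.toPerm (redMatrix p g)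

@[simp] theorem cosetPerm_apply (g : SL(2, ℤ)) (x : OnePoint (ZMod p)) :
    cosetPerm p g x = redMatrix p g • x := rfl

/-! ### The coset element `g'_x(γ)` -/

theorem dvd_of_mem_Gamma0 (γ : Gamma0 N) : (N : ℤ) ∣ (γ : SL(2, ℤ)) 1 0 :=
  (ZMod.intCast_zmod_eq_zero_iff_dvd _ _).mp (Gamma0_mem.mp γ.2)

/-- The element `g'_x(γ) ∈ Γ₀(N)` with `heckeRep p x * γ = g'_x(γ) * heckeRep p (γ̄ • x)`. -/
def cosetElt (hpN : ¬ p ∣ N) (γ : Gamma0 N) (x : OnePoint (ZMod p)) : Gamma0 N :=
  ⟨Classical.choose (heckeRep_mul hpN (γ : SL(2, ℤ)) (dvd_of_mem_Gamma0 γ) x),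
    Gamma0_mem.mpr ((ZMod.intCast_zmod_eq_zero_iff_dvd _ _).mpr
      (Classical.choose_spec (heckeRep_mul hpN (γ : SL(2, ℤ)) (dvd_of_mem_Gamma0 γ) x)).1)⟩

theorem cosetElt_spec (hpN : ¬ p ∣ N) (γ : Gamma0 N) (x : OnePoint (ZMod p)) :
    heckeRep p x * mapGL ℝ (γ : SL(2, ℤ)) =
      mapGL ℝ ((cosetElt hpN γ x : Gamma0 N) : SL(2, ℤ)) *
        heckeRep p (redMatrix p (γ : SL(2, ℤ)) • x) :=
  (Classical.choose_spec (heckeRep_mul hpN (γ : SL(2, ℤ)) (dvd_of_mem_Gamma0 γ) x)).2

/-- Uniqueness of the coset element. -/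
theorem cosetElt_unique (hpN : ¬ p ∣ N) (γ : Gamma0 N) (x : OnePoint (ZMod p)) (g' : SL(2, ℤ))
    (h : heckeRep p x * mapGL ℝ (γ : SL(2, ℤ)) =
      mapGL ℝ g' * heckeRep p (redMatrix p (γ : SL(2, ℤ)) • x)) :
    ((cosetElt hpN γ x : Gamma0 N) : SL(2, ℤ)) = g' := by
  have h1 := cosetElt_spec hpN γ x
  rw [h] at h1
  exact (mapGL_injective (mul_right_cancel h1)).symm

theorem cosetElt_mul (hpN : ¬ p ∣ N) (γ₁ γ₂ : Gamma0 N) (x : OnePoint (ZMod p)) :
    cosetElt hpN (γ₁ * γ₂) x =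
      cosetElt hpN γ₁ x * cosetElt hpN γ₂ (redMatrix p (γ₁ : SL(2, ℤ)) • x) := by
  apply Subtype.ext
  refine cosetElt_unique hpN (γ₁ * γ₂) x _ ?_
  have h1 := cosetElt_spec hpN γ₁ x
  have h2 := cosetElt_spec hpN γ₂ (redMatrix p (γ₁ : SL(2, ℤ)) • x)
  rw [Subgroup.coe_mul, Subgroup.coe_mul, map_mul, map_mul, ← mul_assoc, h1, mul_assoc, h2,
    ← mul_assoc, redMatrix_mul_smul]

theorem cosetElt_one (hpN : ¬ p ∣ N) (x : OnePoint (ZMod p)) :
    cosetElt hpN (1 : Gamma0 N) x = 1 := by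
  apply Subtype.ext
  refine cosetElt_unique hpN 1 x _ ?_
  simp [redMatrix_one]

/-! ### The multiplicative transfer operator on characters -/

section Transfer

variable {A : Type*} [CommMonoid A]

/-- The transfer-type Hecke operator on one character: `(T χ)(γ) = ∏ₓ χ(g'_x(γ))`. -/
def heckeTransferFun (hpN : ¬ p ∣ N) (χ : Gamma0 N →* A) : Gamma0 N →* A where
  toFun γ := ∏ x : OnePoint (ZMod p), χ (cosetElt hpN γ x)
  map_one' := by simp [cosetElt_one]
  map_mul' γ₁ γ₂ := by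
    simp only [cosetElt_mul, map_mul, Finset.prod_mul_distrib]
    congr 1
    exact Equiv.prod_comp (cosetPerm p (γ₁ : SL(2, ℤ))) (fun x => χ (cosetElt hpN γ₂ x))

/-- The transfer-type Hecke operator `T_p` on characters of `Γ₀(N)` (`p ∤ N`), as a monoid
homomorphism in the character. -/
def heckeTransfer (hpN : ¬ p ∣ N) : (Gamma0 N →* A) →* (Gamma0 N →* A) where
  toFun χ := heckeTransferFun hpN χ
  map_one' := by
    ext γ
    simp [heckeTransferFun]
  map_mul' χ₁ χ₂ := by
    ext γ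
    simp [heckeTransferFun, Finset.prod_mul_distrib]

theorem heckeTransfer_apply (hpN : ¬ p ∣ N) (χ : Gamma0 N →* A) (γ : Gamma0 N) :
    heckeTransfer hpN χ γ = ∏ x : OnePoint (ZMod p), χ (cosetElt hpN γ x) := rfl

/-- Naturality of the transfer in the coefficient monoid. -/
theorem heckeTransfer_comp {A' : Type*} [CommMonoid A'] (hpN : ¬ p ∣ N) (f : A →* A')
    (χ : Gamma0 N →* A) :
    heckeTransfer hpN (f.comp χ) = f.comp (heckeTransfer hpN χ) := by
  ext γ
  simp [heckeTransfer_apply, map_prod]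

/-- **Equivariance of products of translates (T2).**  If `h` transforms under `Γ₀(N)` by the
character `χ`, then `z ↦ ∏ₓ h(α_x z)` transforms by `T_p χ`. -/
theorem heckeProd_smul {M : Type*} [CommMonoid M] (hpN : ¬ p ∣ N) (χ : Gamma0 N →* M)
    (h : ℍ → M) (hh : ∀ (γ : Gamma0 N) (z : ℍ), h ((γ : SL(2, ℤ)) • z) = χ γ * h z)
    (γ : Gamma0 N) (z : ℍ) :
    ∏ x : OnePoint (ZMod p), h (heckeRep p x • ((γ : SL(2, ℤ)) • z)) =
      heckeTransfer hpN χ γ * ∏ x : OnePoint (ZMod p), h (heckeRep p x • z) := by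
  have key : ∀ x : OnePoint (ZMod p), h (heckeRep p x • ((γ : SL(2, ℤ)) • z)) =
      χ (cosetElt hpN γ x) * h (heckeRep p (redMatrix p (γ : SL(2, ℤ)) • x) • z) := by
    intro x
    have e : heckeRep p x • ((γ : SL(2, ℤ)) • z) =
        ((cosetElt hpN γ x : Gamma0 N) : SL(2, ℤ)) •
          (heckeRep p (redMatrix p (γ : SL(2, ℤ)) • x) • z) := by
      show heckeRep p x • (mapGL ℝ (γ : SL(2, ℤ)) • z) =
        mapGL ℝ ((cosetElt hpN γ x : Gamma0 N) : SL(2, ℤ)) •
          (heckeRep p (redMatrix p (γ : SL(2, ℤ)) • x) • z)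
      rw [← mul_smul, ← mul_smul, cosetElt_spec]
    rw [e, hh]
  rw [heckeTransfer_apply, Finset.prod_congr rfl (fun x _ => key x), Finset.prod_mul_distrib]
  congr 1
  exact Equiv.prod_comp (cosetPerm p (γ : SL(2, ℤ))) (fun x => h (heckeRep p x • z))

end Transfer

/-- The multiplicative Hecke operator on functions: `(T^× h)(z) = ∏ₓ h(α_x z)`. -/
def heckeProd (p : ℕ) [Fact p.Prime] {M : Type*} [CommMonoid M] (h : ℍ → M) : ℍ → M :=
  fun z => ∏ x : OnePoint (ZMod p), h (heckeRep p x • z)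

theorem heckeProd_apply {M : Type*} [CommMonoid M] (h : ℍ → M) (z : ℍ) :
    heckeProd p h z = ∏ x : OnePoint (ZMod p), h (heckeRep p x • z) := rfl

theorem heckeProd_mul {M : Type*} [CommMonoid M] (h₁ h₂ : ℍ → M) :
    heckeProd p (h₁ * h₂) = heckeProd p h₁ * heckeProd p h₂ := by
  funext z
  simp [heckeProd_apply, Finset.prod_mul_distrib]

theorem heckeProd_pow {M : Type*} [CommMonoid M] (h : ℍ → M) (n : ℕ) :
    heckeProd p (h ^ n) = heckeProd p h ^ n := by
  funext z
  simp [heckeProd_apply, Finset.prod_pow]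

theorem heckeProd_one {M : Type*} [CommMonoid M] : heckeProd p (1 : ℍ → M) = 1 := by
  funext z
  simp [heckeProd_apply]

/-- (T2), function form. -/
theorem heckeProd_equivariant {M : Type*} [CommMonoid M] (hpN : ¬ p ∣ N) (χ : Gamma0 N →* M)
    (h : ℍ → M) (hh : ∀ (γ : Gamma0 N) (z : ℍ), h ((γ : SL(2, ℤ)) • z) = χ γ * h z)
    (γ : Gamma0 N) (z : ℍ) :
    heckeProd p h ((γ : SL(2, ℤ)) • z) = heckeTransfer hpN χ γ * heckeProd p h z :=
  heckeProd_smul hpN χ h hh γ z

/-- Invariant functions go to invariant functions. -/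
theorem heckeProd_invariant {M : Type*} [CommMonoid M] (hpN : ¬ p ∣ N)
    (u : ℍ → M) (hu : ∀ (γ : Gamma0 N) (z : ℍ), u ((γ : SL(2, ℤ)) • z) = u z)
    (γ : Gamma0 N) (z : ℍ) :
    heckeProd p u ((γ : SL(2, ℤ)) • z) = heckeProd p u z := by
  have := heckeProd_equivariant hpN (1 : Gamma0 N →* M) u (by simpa using hu) γ z
  simpa using this

/-- **(T3): the multiplier of a root of `T^× u`.**  If `u = h ^ n` and `h` has multiplier `χ`,
then `T^× u = (T^× h) ^ n`, `T^× u` is invariant when `u` is, and `T^× h` has multiplier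
`T_p χ`. -/
theorem heckeProd_root {M : Type*} [CommMonoid M] (hpN : ¬ p ∣ N) (n : ℕ) (χ : Gamma0 N →* M)
    (u h : ℍ → M) (hroot : h ^ n = u)
    (hh : ∀ (γ : Gamma0 N) (z : ℍ), h ((γ : SL(2, ℤ)) • z) = χ γ * h z) :
    heckeProd p h ^ n = heckeProd p u ∧
      ∀ (γ : Gamma0 N) (z : ℍ),
        heckeProd p h ((γ : SL(2, ℤ)) • z) = heckeTransfer hpN χ γ * heckeProd p h z :=
  ⟨by rw [← heckeProd_pow, hroot], heckeProd_equivariant hpN χ h hh⟩

/-! ### The additive transfer operator on homomorphisms `Γ₀(N) → B` -/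

section TransferAdd

variable {B : Type*} [AddCommMonoid B]

/-- Additive transfer on one homomorphism: `(T ψ)(γ) = ∑ₓ ψ(g'_x(γ))`. -/
def heckeTransferAddFun (hpN : ¬ p ∣ N) (ψ : Additive (Gamma0 N) →+ B) :
    Additive (Gamma0 N) →+ B where
  toFun γ := ∑ x : OnePoint (ZMod p), ψ (Additive.ofMul (cosetElt hpN (Additive.toMul γ) x))
  map_zero' := by simp [cosetElt_one]
  map_add' γ₁ γ₂ := by
    simp only [toMul_add, cosetElt_mul, ofMul_mul, map_add, Finset.sum_add_distrib]
    congr 1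
    exact Equiv.sum_comp (cosetPerm p ((Additive.toMul γ₁ : Gamma0 N) : SL(2, ℤ)))
      (fun x => ψ (Additive.ofMul (cosetElt hpN (Additive.toMul γ₂) x)))

/-- The additive transfer-type Hecke operator `T_p` on `Hom(Γ₀(N), B)` (`p ∤ N`). -/
def heckeTransferAdd (hpN : ¬ p ∣ N) :
    (Additive (Gamma0 N) →+ B) →+ (Additive (Gamma0 N) →+ B) where
  toFun ψ := heckeTransferAddFun hpN ψ
  map_zero' := by
    ext γ
    simp [heckeTransferAddFun]
  map_add' ψ₁ ψ₂ := by
    ext γ
    simp [heckeTransferAddFun, Finset.sum_add_distrib]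

theorem heckeTransferAdd_apply (hpN : ¬ p ∣ N) (ψ : Additive (Gamma0 N) →+ B) (γ : Gamma0 N) :
    heckeTransferAdd hpN ψ (Additive.ofMul γ) =
      ∑ x : OnePoint (ZMod p), ψ (Additive.ofMul (cosetElt hpN γ x)) := rfl

/-- Naturality of the additive transfer in the coefficient group. -/
theorem heckeTransferAdd_comp {B' : Type*} [AddCommMonoid B'] (hpN : ¬ p ∣ N) (f : B →+ B')
    (ψ : Additive (Gamma0 N) →+ B) :
    heckeTransferAdd hpN (f.comp ψ) = f.comp (heckeTransferAdd hpN ψ) := by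
  ext γ
  show heckeTransferAdd hpN (f.comp ψ) (Additive.ofMul (Additive.toMul γ)) =
    f (heckeTransferAdd hpN ψ (Additive.ofMul (Additive.toMul γ)))
  simp only [heckeTransferAdd_apply, map_sum, AddMonoidHom.comp_apply]

/-- Linearity of the additive transfer over any semiring acting on the coefficients. -/
theorem heckeTransferAdd_smul {R : Type*} [Monoid R] [DistribMulAction R B] (hpN : ¬ p ∣ N)
    (c : R) (ψ : Additive (Gamma0 N) →+ B) :
    heckeTransferAdd hpN (c • ψ) = c • heckeTransferAdd hpN ψ := by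
  ext γ
  show heckeTransferAdd hpN (c • ψ) (Additive.ofMul (Additive.toMul γ)) =
    c • (heckeTransferAdd hpN ψ (Additive.ofMul (Additive.toMul γ)))
  simp only [heckeTransferAdd_apply, Finset.smul_sum, AddMonoidHom.smul_apply]

/-- The additive transfer corresponds to the multiplicative one under
`Hom(Γ, B) ≃ Hom(Γ, Multiplicative B)`. -/
theorem heckeTransfer_ofAdd (hpN : ¬ p ∣ N) (ψ : Additive (Gamma0 N) →+ B) (γ : Gamma0 N) :
    heckeTransfer hpN (AddMonoidHom.toMultiplicativeRight ψ) γ =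
      Multiplicative.ofAdd (heckeTransferAdd hpN ψ (Additive.ofMul γ)) := by
  rw [heckeTransfer_apply, heckeTransferAdd_apply, ofAdd_sum]
  rfl

end TransferAdd

theorem prod_zpow_eq_zpow_sum {A : Type*} [CommGroup A] {ι : Type*} (s : Finset ι) (ζ : A)
    (n : ι → ℤ) : ∏ i ∈ s, ζ ^ n i = ζ ^ ∑ i ∈ s, n i := by
  classical
  induction s using Finset.induction_on with
  | empty => simp
  | insert a s ha ih => rw [Finset.prod_insert ha, Finset.sum_insert ha, zpow_add, ih]

/-- **Exponential compatibility.**  For `ζ` in a commutative group `A` and an integer-valued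
homomorphism `ψ`, the character `γ ↦ ζ ^ ψ(γ)` is sent by `T_p` to `γ ↦ ζ ^ (T_p ψ)(γ)`. -/
theorem heckeTransfer_zpow {A : Type*} [CommGroup A] (hpN : ¬ p ∣ N) (ζ : A)
    (ψ : Additive (Gamma0 N) →+ ℤ) (χ : Gamma0 N →* A)
    (hχ : ∀ γ : Gamma0 N, χ γ = ζ ^ ψ (Additive.ofMul γ)) (γ : Gamma0 N) :
    heckeTransfer hpN χ γ = ζ ^ heckeTransferAdd hpN ψ (Additive.ofMul γ) := by
  rw [heckeTransfer_apply, heckeTransferAdd_apply, ← prod_zpow_eq_zpow_sum]
  exact Finset.prod_congr rfl fun x _ => hχ _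

/-- **Equivariance of sums of translates (additive T2).**  If `F(γ z) = F(z) + ψ(γ)` on `Γ₀(N)`,
then `z ↦ ∑ₓ F(α_x z)` has period homomorphism `T_p ψ`. -/
theorem heckeSum_smul {B : Type*} [AddCommMonoid B] (hpN : ¬ p ∣ N)
    (ψ : Additive (Gamma0 N) →+ B) (F : ℍ → B)
    (hF : ∀ (γ : Gamma0 N) (z : ℍ), F ((γ : SL(2, ℤ)) • z) = F z + ψ (Additive.ofMul γ))
    (γ : Gamma0 N) (z : ℍ) :
    ∑ x : OnePoint (ZMod p), F (heckeRep p x • ((γ : SL(2, ℤ)) • z)) =
      ∑ x : OnePoint (ZMod p), F (heckeRep p x • z) +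
        heckeTransferAdd hpN ψ (Additive.ofMul γ) := by
  have h := heckeProd_smul (M := Multiplicative B) hpN (AddMonoidHom.toMultiplicativeRight ψ)
    (fun z => Multiplicative.ofAdd (F z))
    (fun γ z => by
      show Multiplicative.ofAdd (F ((γ : SL(2, ℤ)) • z)) =
        Multiplicative.ofAdd (ψ (Additive.ofMul γ)) * Multiplicative.ofAdd (F z)
      rw [hF, ← ofAdd_add, add_comm]) γ z
  rw [heckeTransfer_ofAdd, ← ofAdd_sum, ← ofAdd_sum, ← ofAdd_add] at h
  rw [add_comm]
  exact Multiplicative.ofAdd.injective h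

open ModularCurve.Period in
/-- **Period homomorphisms and Hecke (weight 2 form).**  If `F` is an equivariant primitive for
`Γ₀(N)` (in the Prelude sense), so is `z ↦ ∑ₓ F(α_x z)`, and its period homomorphism is the
additive transfer of the period homomorphism of `F`. -/
theorem isEquivariantPrimitive_heckeSum (hpN : ¬ p ∣ N) {F : ℍ → ℂ}
    (hF : IsEquivariantPrimitive (Gamma0 N) F) :
    ∃ hF' : IsEquivariantPrimitive (Gamma0 N)
        (fun z => ∑ x : OnePoint (ZMod p), F (heckeRep p x • z)),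
      hF'.periodHom = heckeTransferAdd hpN hF.periodHom := by
  have key : ∀ (γ : Gamma0 N) (z : ℍ),
      ∑ x : OnePoint (ZMod p), F (heckeRep p x • ((γ : SL(2, ℤ)) • z)) =
        ∑ x : OnePoint (ZMod p), F (heckeRep p x • z) +
          heckeTransferAdd hpN hF.periodHom (Additive.ofMul γ) :=
    heckeSum_smul hpN hF.periodHom F
      (fun γ z => by
        rw [IsEquivariantPrimitive.periodHom_apply, ← hF.sub_eq_period γ z]; ring)
  have hF' : IsEquivariantPrimitive (Gamma0 N)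
      (fun z => ∑ x : OnePoint (ZMod p), F (heckeRep p x • z)) :=
    fun γ => ⟨heckeTransferAdd hpN hF.periodHom (Additive.ofMul γ), fun z => by
      show ∑ x : OnePoint (ZMod p), F (heckeRep p x • ((γ : SL(2, ℤ)) • z)) -
        ∑ x : OnePoint (ZMod p), F (heckeRep p x • z) = _
      rw [key γ z]; ring⟩
  refine ⟨hF', ?_⟩
  ext γ
  show hF'.periodHom (Additive.ofMul (Additive.toMul γ)) =
    heckeTransferAdd hpN hF.periodHom (Additive.ofMul (Additive.toMul γ))
  rw [IsEquivariantPrimitive.periodHom_apply, ← hF'.sub_eq_period _ UpperHalfPlane.I,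
    key _ UpperHalfPlane.I]
  ring

/-! ### Parabolic classes are preserved -/

section Parabolic

/-- A product over a finite type vanishes as soon as it vanishes along every cycle of a
permutation. -/
theorem prod_eq_one_of_cycle_prod {X : Type*} [Fintype X] {M : Type*} [CommMonoid M]
    (σ : Equiv.Perm X) (Φ : X → M)
    (h : ∀ x : X, ∏ i ∈ Finset.range (Function.minimalPeriod σ x), Φ (σ^[i] x) = 1) :
    ∏ x : X, Φ x = 1 := by
  classical
  refine Finset.prod_cancels_of_partition_cancels (Equiv.Perm.SameCycle.setoid σ) ?_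
  intro x _
  have hper : x ∈ Function.periodicPts σ := σ.injective.mem_periodicPts x
  have hpos : 0 < Function.minimalPeriod σ x := Function.minimalPeriod_pos_of_mem_periodicPts hper
  have hset : (Finset.univ.filter fun a => (Equiv.Perm.SameCycle.setoid σ) a x) =
      (Finset.range (Function.minimalPeriod σ x)).image (fun i => σ^[i] x) := by
    ext a
    simp only [Finset.mem_filter, Finset.mem_univ, true_and, Finset.mem_image, Finset.mem_range]
    constructor
    · intro ha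
      have ha' : Equiv.Perm.SameCycle σ x a := Equiv.Perm.SameCycle.symm ha
      obtain ⟨i, hi⟩ := ha'.exists_nat_pow_eq
      refine ⟨i % Function.minimalPeriod σ x, Nat.mod_lt _ hpos, ?_⟩
      rw [Function.iterate_mod_minimalPeriod_eq, ← hi, Equiv.Perm.iterate_eq_pow]
    · rintro ⟨i, _, rfl⟩
      show Equiv.Perm.SameCycle σ (σ^[i] x) x
      rw [Equiv.Perm.iterate_eq_pow, Equiv.Perm.sameCycle_pow_left]
  rw [hset, Finset.prod_image]
  · exact h x
  · intro i hi j hj hij
    exact Function.iterate_injOn_Iio_minimalPeriod (Finset.mem_range.mp hi)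
      (Finset.mem_range.mp hj) hij

theorem redMatrix_pow_smul (g : SL(2, ℤ)) (n : ℕ) (x : OnePoint (ZMod p)) :
    redMatrix p (g ^ n) • x = (cosetPerm p g)^[n] x := by
  induction n generalizing x with
  | zero => simp [redMatrix_one]
  | succ n ih =>
    rw [pow_succ, redMatrix_mul_smul, ih, Function.iterate_succ_apply']
    rfl

variable {A : Type*} [CommMonoid A]

/-- The value of a character on `g'_x(γ^n)` is the product of its values along the `γ̄`-orbit
segment of `x` of length `n`. -/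
theorem map_cosetElt_pow (hpN : ¬ p ∣ N) (χ : Gamma0 N →* A) (γ : Gamma0 N) (n : ℕ)
    (x : OnePoint (ZMod p)) :
    χ (cosetElt hpN (γ ^ n) x) =
      ∏ i ∈ Finset.range n, χ (cosetElt hpN γ ((cosetPerm p (γ : SL(2, ℤ)))^[i] x)) := by
  induction n with
  | zero => simp [cosetElt_one]
  | succ n ih =>
    rw [pow_succ, cosetElt_mul, map_mul, ih, Finset.prod_range_succ, Subgroup.coe_pow,
      redMatrix_pow_smul]

/-- Cayley–Hamilton for `2 × 2` integer matrices of determinant one. -/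
theorem mat_sq_eq (M : Matrix (Fin 2) (Fin 2) ℤ) (hdet : M.det = 1) :
    M * M = M.trace • M - 1 := by
  rw [Matrix.det_fin_two] at hdet
  ext i j
  fin_cases i <;> fin_cases j <;>
    simp [Matrix.mul_apply, Fin.sum_univ_two, Matrix.trace_fin_two,
      Matrix.smul_apply, Matrix.sub_apply, -zsmul_eq_mul] <;>
    first | linear_combination hdet | linear_combination -hdet | ring

theorem trace_pow_sq_eq_four (M : Matrix (Fin 2) (Fin 2) ℤ) (hdet : M.det = 1)
    (htr : M.trace ^ 2 = 4) (n : ℕ) : (M ^ n).trace ^ 2 = 4 := by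
  -- `trace (M^n) = 2 ε^n` with `ε = trace M / 2 = ± 1`
  obtain ⟨ε, hε, hε2⟩ : ∃ ε : ℤ, M.trace = 2 * ε ∧ ε ^ 2 = 1 := by
    have h : (M.trace - 2) * (M.trace + 2) = 0 := by linear_combination htr
    rcases mul_eq_zero.mp h with h | h
    · exact ⟨1, by linarith, by norm_num⟩
    · exact ⟨-1, by linarith, by norm_num⟩
  have key : ∀ n : ℕ, (M ^ n).trace = 2 * ε ^ n ∧ (M ^ (n + 1)).trace = 2 * ε ^ (n + 1) := by
    intro n
    induction n with
    | zero => simp [hε]
    | succ n ih =>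
      refine ⟨ih.2, ?_⟩
      have h2 : M ^ (n + 1 + 1) = M.trace • M ^ (n + 1) - M ^ n := by
        rw [pow_succ, pow_succ, mul_assoc, mat_sq_eq M hdet, mul_sub, mul_one,
          Matrix.mul_smul, ← pow_succ]
      rw [h2, Matrix.trace_sub, Matrix.trace_smul, ih.1, ih.2, hε, smul_eq_mul]
      linear_combination (2 * ε ^ n) * hε2
  rw [(key n).1]
  have : (2 * ε ^ n) ^ 2 = 4 * (ε ^ 2) ^ n := by ring
  rw [this, hε2, one_pow, mul_one]

/-- If `γ̄ ^ n` fixes `x`, then `g'_x(γ^n)` is `GL₂(ℝ)`-conjugate to `γ^n`; in particular it has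
the same trace. -/
theorem trace_cosetElt_pow (hpN : ¬ p ∣ N) (γ : Gamma0 N) (n : ℕ) (x : OnePoint (ZMod p))
    (hx : (cosetPerm p (γ : SL(2, ℤ)))^[n] x = x) :
    (((cosetElt hpN (γ ^ n) x : Gamma0 N) : SL(2, ℤ)) : Matrix (Fin 2) (Fin 2) ℤ).trace =
      ((((γ : SL(2, ℤ)) : Matrix (Fin 2) (Fin 2) ℤ)) ^ n).trace := by
  have hspec := cosetElt_spec hpN (γ ^ n) x
  rw [Subgroup.coe_pow, redMatrix_pow_smul, hx] at hspec
  -- `mapGL g' = α * mapGL (γ^n) * α⁻¹`
  have hconj : mapGL ℝ ((cosetElt hpN (γ ^ n) x : Gamma0 N) : SL(2, ℤ)) =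
      heckeRep p x * mapGL ℝ ((γ : SL(2, ℤ)) ^ n) * (heckeRep p x)⁻¹ := by
    rw [hspec, mul_inv_cancel_right]
  have htrace : ((mapGL ℝ ((cosetElt hpN (γ ^ n) x : Gamma0 N) : SL(2, ℤ)) : GL (Fin 2) ℝ) :
      Matrix (Fin 2) (Fin 2) ℝ).trace =
      ((mapGL ℝ ((γ : SL(2, ℤ)) ^ n) : GL (Fin 2) ℝ) : Matrix (Fin 2) (Fin 2) ℝ).trace := by
    rw [hconj, Units.val_mul, Units.val_mul, Matrix.trace_mul_comm, ← mul_assoc,
      ← Units.val_mul, inv_mul_cancel, Units.val_one, one_mul]
  have hreal : ∀ g : SL(2, ℤ), ((mapGL ℝ g : GL (Fin 2) ℝ) : Matrix (Fin 2) (Fin 2) ℝ).trace =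
      (((g : Matrix (Fin 2) (Fin 2) ℤ).trace : ℤ) : ℝ) := by
    intro g
    rw [Matrix.trace_fin_two, Matrix.trace_fin_two]
    simp
  rw [hreal, hreal] at htrace
  have := Int.cast_injective htrace
  rw [this, Matrix.SpecialLinearGroup.coe_pow]

/-- **Parabolic characters are preserved (multiplicative form).**  If `χ` is trivial on every
element of `Γ₀(N)` of trace `± 2`, so is `T_p χ`. -/
theorem heckeTransfer_parabolic (hpN : ¬ p ∣ N) (χ : Gamma0 N →* A)
    (hχ : ∀ γ : Gamma0 N,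
      ((γ : SL(2, ℤ)) : Matrix (Fin 2) (Fin 2) ℤ).trace ^ 2 = 4 → χ γ = 1)
    (γ : Gamma0 N) (hγ : ((γ : SL(2, ℤ)) : Matrix (Fin 2) (Fin 2) ℤ).trace ^ 2 = 4) :
    heckeTransfer hpN χ γ = 1 := by
  rw [heckeTransfer_apply]
  refine prod_eq_one_of_cycle_prod (cosetPerm p (γ : SL(2, ℤ)))
    (fun x => χ (cosetElt hpN γ x)) fun x => ?_
  rw [← map_cosetElt_pow]
  apply hχ
  rw [trace_cosetElt_pow hpN γ _ x Function.iterate_minimalPeriod]
  exact trace_pow_sq_eq_four _ (γ : SL(2, ℤ)).2 hγ _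

open ModularCurve.Period in
/-- **Parabolic homomorphisms are preserved (additive form, Prelude vocabulary).** -/
theorem heckeTransferAdd_isParabolicHom {B : Type*} [AddCommGroup B] (hpN : ¬ p ∣ N)
    (ψ : Additive (Gamma0 N) →+ B) (hψ : IsParabolicHom (Gamma0 N) ψ) :
    IsParabolicHom (Gamma0 N) (heckeTransferAdd hpN ψ) := by
  intro γ hγ
  have h := heckeTransfer_parabolic (A := Multiplicative B) hpN
    (AddMonoidHom.toMultiplicativeRight ψ)
    (fun γ hγ => by
      show Multiplicative.ofAdd (ψ (Additive.ofMul γ)) = 1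
      rw [hψ γ hγ]; rfl) γ hγ
  rw [heckeTransfer_ofAdd] at h
  exact Multiplicative.ofAdd.injective h

open ModularCurve.Period in
/-- The additive transfer as an endomorphism of the Prelude's `parabolicHoms`. -/
def heckeTransferPar (R : Type*) [Semiring R] {B : Type*} [AddCommGroup B] [Module R B]
    (hpN : ¬ p ∣ N) :
    parabolicHoms R (Gamma0 N) B →ₗ[R] parabolicHoms R (Gamma0 N) B where
  toFun ψ := ⟨heckeTransferAdd hpN ψ.1, heckeTransferAdd_isParabolicHom hpN ψ.1 ψ.2⟩
  map_add' ψ₁ ψ₂ := Subtype.ext (map_add (heckeTransferAdd hpN) ψ₁.1 ψ₂.1)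
  map_smul' c ψ := Subtype.ext (heckeTransferAdd_smul hpN c ψ.1)

end Parabolic

end

end Fermat.Agent.S29.helper7638
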