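/-
S29-ESQ, second file (helper7964): naturality and reduction of the formal multiplicative Hecke
operator `heckeMul` of `helper7964_FormalES`, and its integral form over a valuation subring.

* `coeffMap_tw`, `coeffMap_uOp`, `coeffMap_heckeMul`: `heckeMul` commutes with coefficientwise
  ring homomorphisms;
* `heckeMul_eq_of_qExpand_eq`: a series `g` with `g(q ^ ℓ) = ∏_b u(ζ^b q)` gives
  `u(q ^ ℓ) * g = heckeMul ℓ ζ u`;
* `heckeMul_one_eq`: in a ring `k` with `ℓ = 0` and a ring hom `Φ` with `Φ x = x ^ ℓ`,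
  `heckeMul ℓ 1 u = u(q ^ ℓ) * Φ u`;
* `coeffMap_heckeMul_of_map_eq_one`: the reduction of `heckeMul ℓ ζ u` along `π : R →+* k` with
  `π ζ = 1`;
* `exists_integral_heckeMul`: for a valuation subring `A` over `ℓ`, an `ℓ`-th root of unity `ζ`
  and a series `y` with coefficients in `A`, the series `heckeMul ℓ ζ y` has coefficients in `A`
  and its reduction is `ȳ(q ^ ℓ) * Φ ȳ`.
-/
import Mathlib
import Fermat.Prelude.Def_FLTPrelim_Ramification
import Fermat.Prelude.Thm_ModularCurve_coeffMap_qExpand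
import Fermat.Agent.S29.helper7964_FormalES

set_option autoImplicit false

noncomputable section

namespace Fermat.Agent.S29.helper7964

open ModularCurve HahnSeries

section Naturality

variable {R S : Type*} [CommRing R] [CommRing S]

/-- Coefficientwise ring homomorphisms commute with twists. -/
theorem coeffMap_tw (f : R →+* S) (c : Rˣ) (u : LaurentSeries R) :
    coeffMap f (tw c u) = tw (Units.map (f : R →* S) c) (coeffMap f u) := by
  ext n
  rw [coeffMap_coeff, tw_coeff, tw_coeff, coeffMap_coeff, map_mul, ← map_zpow, Units.coe_map]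
  rfl

/-- Coefficientwise ring homomorphisms commute with `U_ℓ`. -/
theorem coeffMap_uOp (f : R →+* S) (ℓ : ℕ) [NeZero ℓ] (u : LaurentSeries R) :
    coeffMap f (uOp ℓ u) = uOp ℓ (coeffMap f u) := by
  ext n
  rw [coeffMap_coeff, uOp_coeff, uOp_coeff, coeffMap_coeff]

/-- Coefficientwise ring homomorphisms commute with the formal Hecke operator. -/
theorem coeffMap_heckeMul (f : R →+* S) (ℓ : ℕ) [NeZero ℓ] (ζ : Rˣ) (u : LaurentSeries R) :
    coeffMap f (heckeMul ℓ ζ u)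
      = heckeMul ℓ (Units.map (f : R →* S) ζ) (coeffMap f u) := by
  rw [heckeMul, heckeMul, map_mul, coeffMap_qExpand, coeffMap_uOp, map_prod]
  congr 2
  refine Finset.prod_congr rfl fun b _ => ?_
  rw [coeffMap_tw, map_pow]

/-- If `g(q ^ ℓ) = ∏_b u(ζ^b q)` then `u(q ^ ℓ) * g` is the formal Hecke operator applied to
`u`. -/
theorem heckeMul_eq_of_qExpand_eq (ℓ : ℕ) [NeZero ℓ] (ζ : Rˣ) (u g : LaurentSeries R)
    (hg : qExpand R ℓ g = ∏ b ∈ Finset.range ℓ, tw (ζ ^ b) u) :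
    qExpand R ℓ u * g = heckeMul ℓ ζ u := by
  rw [heckeMul, ← hg, uOp_qExpand]

theorem heckeMul_one (ℓ : ℕ) [NeZero ℓ] (u : LaurentSeries R) :
    heckeMul ℓ 1 u = qExpand R ℓ u * uOp ℓ (u ^ ℓ) := by
  rw [heckeMul]
  congr 2
  have h : ∀ b ∈ Finset.range ℓ, tw ((1 : Rˣ) ^ b) u = u := fun b _ => by
    rw [one_pow, tw_one]
  rw [Finset.prod_congr rfl h, Finset.prod_const, Finset.card_range]

end Naturality

section CharL

variable {k : Type*} [CommRing k]

/-- In a ring where `ℓ = 0`, with `Φ` the `ℓ`-th power endomorphism: `u ^ ℓ = (Φ u)(q ^ ℓ)`. -/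
theorem pow_eq_qExpand_coeffMap (ℓ : ℕ) [Fact ℓ.Prime] (hℓ : (ℓ : k) = 0) (Φ : k →+* k)
    (hΦ : ∀ x : k, Φ x = x ^ ℓ) (u : LaurentSeries k) :
    u ^ ℓ = qExpand k ℓ (coeffMap Φ u) := by
  have h := pow_prime_congr (ℓ := ℓ) (I := (⊥ : Ideal k)) (σ := Φ)
    (by rw [hℓ]; exact Ideal.zero_mem _) (fun a => by rw [hΦ a, sub_self]; exact Ideal.zero_mem _) u
  rw [mem_coeffIdeal] at h
  ext n
  have hn := h n
  rw [Ideal.mem_bot, HahnSeries.coeff_sub, sub_eq_zero] at hn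
  exact hn

/-- In characteristic `ℓ` the formal Hecke operator at `ζ = 1` is `u ↦ u(q ^ ℓ) * Φ u`. -/
theorem heckeMul_one_eq (ℓ : ℕ) [Fact ℓ.Prime] (hℓ : (ℓ : k) = 0) (Φ : k →+* k)
    (hΦ : ∀ x : k, Φ x = x ^ ℓ) (u : LaurentSeries k) :
    heckeMul ℓ 1 u = qExpand k ℓ u * coeffMap Φ u := by
  rw [heckeMul_one, pow_eq_qExpand_coeffMap ℓ hℓ Φ hΦ, uOp_qExpand]

/-- Reduction of the formal Hecke operator along a ring hom `π` into a ring of characteristic
`ℓ` with `π ζ = 1`. -/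
theorem coeffMap_heckeMul_of_map_eq_one {R : Type*} [CommRing R] (ℓ : ℕ) [Fact ℓ.Prime]
    (π : R →+* k) (hℓ : (ℓ : k) = 0) (Φ : k →+* k) (hΦ : ∀ x : k, Φ x = x ^ ℓ) (ζ : Rˣ)
    (hζ : π (ζ : R) = 1) (u : LaurentSeries R) :
    coeffMap π (heckeMul ℓ ζ u)
      = qExpand k ℓ (coeffMap π u) * coeffMap Φ (coeffMap π u) := by
  rw [coeffMap_heckeMul]
  have h1 : Units.map (π : R →* k) ζ = 1 := by
    ext
    rw [Units.coe_map, Units.val_one]
    exact hζ
  rw [h1, heckeMul_one_eq ℓ hℓ Φ hΦ]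

/-- The two sides of the Eichler–Shimura ratio have the same reduction: for series `a`, `b`
over a ring of characteristic `ℓ` with `ℓ`-th power endomorphism `Φ`, writing
`T x = x(q ^ ℓ) * Φ x` for the reduced Hecke operator,
`Φ²a * a ^ ℓ * T (Φ b) = Φ²b * b ^ ℓ * T (Φ a)`. -/
theorem es_red_eq (ℓ : ℕ) [Fact ℓ.Prime] (hℓ : (ℓ : k) = 0) (Φ : k →+* k)
    (hΦ : ∀ x : k, Φ x = x ^ ℓ) (a b : LaurentSeries k) :
    coeffMap Φ (coeffMap Φ a) * a ^ ℓ
        * (qExpand k ℓ (coeffMap Φ b) * coeffMap Φ (coeffMap Φ b))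
      = coeffMap Φ (coeffMap Φ b) * b ^ ℓ
        * (qExpand k ℓ (coeffMap Φ a) * coeffMap Φ (coeffMap Φ a)) := by
  rw [pow_eq_qExpand_coeffMap ℓ hℓ Φ hΦ a, pow_eq_qExpand_coeffMap ℓ hℓ Φ hΦ b]
  ring

end CharL

section Field

variable {k : Type*} [Field k]

theorem qExpand_ne_zero (ℓ : ℕ) [NeZero ℓ] {u : LaurentSeries k} (hu : u ≠ 0) :
    qExpand k ℓ u ≠ 0 := by
  intro h
  apply hu
  rw [← uOp_qExpand ℓ u, h]
  ext n
  rw [uOp_coeff]
  rfl

theorem coeffMap_ne_zero (Φ : k →+* k) {u : LaurentSeries k} (hu : u ≠ 0) :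
    coeffMap Φ u ≠ 0 := by
  intro h
  apply hu
  ext n
  have hn : (coeffMap Φ u).coeff n = 0 := by rw [h]; rfl
  rw [coeffMap_coeff] at hn
  rw [HahnSeries.coeff_zero]
  exact (map_eq_zero Φ).mp hn

/-- The reduction of the formal Hecke operator does not vanish. -/
theorem qExpand_mul_coeffMap_ne_zero (ℓ : ℕ) [NeZero ℓ] (Φ : k →+* k) {u : LaurentSeries k}
    (hu : u ≠ 0) : qExpand k ℓ u * coeffMap Φ u ≠ 0 :=
  mul_ne_zero (qExpand_ne_zero ℓ hu) (coeffMap_ne_zero Φ hu)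

end Field

section Val

variable {L : Type*} [Field L]

open IsLocalRing

/-- An `ℓ`-th root of unity lies in every valuation subring, as a unit. -/
theorem exists_unit_of_pow_eq_one (A : ValuationSubring L) {ℓ : ℕ} (hℓ0 : ℓ ≠ 0) (ζ : Lˣ)
    (hζ : ζ ^ ℓ = 1) : ∃ ζA : Aˣ, Units.map (A.subtype : A →* L) ζA = ζ ∧ ζA ^ ℓ = 1 := by
  have hmem : ∀ x : L, x ^ ℓ = 1 → x ∈ A := by
    intro x hx
    rcases A.mem_or_inv_mem x with h | h
    · exact h
    · -- `x = (x⁻¹) ^ (ℓ - 1)`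
      have hx0 : x ≠ 0 := by
        rintro rfl
        rw [zero_pow hℓ0] at hx
        exact zero_ne_one hx
      have e : x = x⁻¹ ^ (ℓ - 1) := by
        have h1 : x ^ ℓ = x ^ (ℓ - 1) * x := by
          rw [← pow_succ, Nat.sub_add_cancel (Nat.one_le_iff_ne_zero.mpr hℓ0)]
        rw [inv_pow]
        rw [h1] at hx
        exact eq_inv_of_mul_eq_one_right hx
      rw [e]
      exact A.pow_mem h _
  have h1 : ((ζ : L)) ^ ℓ = 1 := by
    rw [← Units.val_pow_eq_pow_val, hζ, Units.val_one]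
  have h2 : ((ζ⁻¹ : Lˣ) : L) ^ ℓ = 1 := by
    rw [← Units.val_pow_eq_pow_val, inv_pow, hζ, inv_one, Units.val_one]
  refine ⟨⟨⟨ζ, hmem _ h1⟩, ⟨(ζ⁻¹ : Lˣ), hmem _ h2⟩, ?_, ?_⟩, ?_, ?_⟩
  · apply Subtype.ext
    show (ζ : L) * ((ζ⁻¹ : Lˣ) : L) = 1
    rw [← Units.val_mul, mul_inv_cancel, Units.val_one]
  · apply Subtype.ext
    show ((ζ⁻¹ : Lˣ) : L) * (ζ : L) = 1
    rw [← Units.val_mul, inv_mul_cancel, Units.val_one]
  · ext
    rfl
  · ext
    show ((ζ : L)) ^ ℓ = 1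
    exact h1

theorem natCast_residueField_eq_zero (A : ValuationSubring L) {ℓ : ℕ}
    (hA : A.LiesOverPrime ℓ) : (ℓ : ResidueField A) = 0 := by
  rw [← map_natCast (residue A)]
  refine (residue_eq_zero_iff _).mpr ?_
  have h1 : (((ℓ : A)) : L) = (ℓ : L) := by simp
  rw [← ValuationSubring.coe_mem_nonunits_iff, h1]
  exact hA

/-- In the residue field of a valuation subring over `ℓ`, an `ℓ`-th root of unity is `1`. -/
theorem residue_eq_one_of_pow_eq_one (A : ValuationSubring L) {ℓ : ℕ} [Fact ℓ.Prime]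
    (hA : A.LiesOverPrime ℓ) (ζA : Aˣ) (hζ : ζA ^ ℓ = 1) : residue A (ζA : A) = 1 := by
  have : CharP (ResidueField A) ℓ :=
    (CharP.charP_iff_prime_eq_zero Fact.out).mpr (natCast_residueField_eq_zero A hA)
  have h1 : (residue A (ζA : A)) ^ ℓ = 1 := by
    rw [← map_pow, ← Units.val_pow_eq_pow_val, hζ, Units.val_one, map_one]
  have h2 : (residue A (ζA : A) - 1) ^ ℓ = 0 := by
    rw [sub_pow_char, h1, one_pow, sub_self]
  exact sub_eq_zero.mp (pow_eq_zero_iff (Fact.out : ℓ.Prime).ne_zero |>.mp h2)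

/-- **Integral form of the formal Hecke operator.** For a valuation subring `A` over `ℓ`, an
`ℓ`-th root of unity `ζ` and a Laurent series `y` with coefficients in `A`, the series
`heckeMul ℓ ζ y` has coefficients in `A`, and its reduction is `ȳ(q ^ ℓ) * Φ ȳ`, where `Φ` is
the `ℓ`-th power endomorphism of the residue field. -/
theorem exists_integral_heckeMul (A : ValuationSubring L) {ℓ : ℕ} [Fact ℓ.Prime]
    (hA : A.LiesOverPrime ℓ) (ζ : Lˣ) (hζ : ζ ^ ℓ = 1)
    (Φ : ResidueField A →+* ResidueField A) (hΦ : ∀ x, Φ x = x ^ ℓ) (y : LaurentSeries A) :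
    ∃ t : LaurentSeries A,
      coeffMap A.subtype t = heckeMul ℓ ζ (coeffMap A.subtype y) ∧
      coeffMap (residue A) t
        = qExpand (ResidueField A) ℓ (coeffMap (residue A) y)
          * coeffMap Φ (coeffMap (residue A) y) := by
  obtain ⟨ζA, hζA, hζAℓ⟩ := exists_unit_of_pow_eq_one A (Fact.out : ℓ.Prime).ne_zero ζ hζ
  refine ⟨heckeMul ℓ ζA y, ?_, ?_⟩
  · rw [coeffMap_heckeMul]
    congr 1
  · exact coeffMap_heckeMul_of_map_eq_one ℓ (residue A) (natCast_residueField_eq_zero A hA) Φ hΦ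
      ζA (residue_eq_one_of_pow_eq_one A hA ζA hζAℓ) y

end Val

end Fermat.Agent.S29.helper7964
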