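import Mathlib
import Fermat.Prelude.Def_ModularCurve_ReductionModL
import Fermat.Agent.Lib.helper3858_ResidueQbar
import Fermat.Agent.S18.helper3054_Top

/-!
# The decomposition group acts on integral functions (S29, (U)/(ES) seam, providers (GalI)/(GalF))

(helper8057.)  `IntegralFn A N` (`S18/helper3054_Top`) is the type of `q`-expansions with
coefficients in the valuation ring `A ⊂ ℚ̄` which lie in the function field of `X₀(N)` over `ℚ̄`
and whose coefficientwise reduction is a nonzero element of the characteristic-`ℓ` function field.

* `coeffMap_mem_fullC` : `modularFunctionFieldFullC k N` is stable under `coeffMap φ` for EVERY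
  ring endomorphism `φ` of `k` (no hypothesis on `N` or the characteristic);
* `conj`, `conj_gen`, `coe_conj_red` : an element `σ` of the decomposition group of `A` acting on
  the residue field through `φ` sends `a : IntegralFn A N` to an integral function with
  `gen = arithmeticGalois σ • a.gen` and `red = coeffMap φ a.red`;
* `exists_conj_of_mem_decomposition` (G1), `galI` (inertia: same reduction), `galF` (Frobenius:
  reduction = coefficientwise Frobenius), in the existential shapes of the S29 captain's ruling.
-/

set_option autoImplicit false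
set_option synthInstance.maxHeartbeats 400000

noncomputable section

namespace Fermat.Agent.S29.helper8057

open ModularCurve AlgebraicCurve HahnSeries IsLocalRing
open Fermat.Agent.S18.helper3054 (IntegralFn)

/-- `ℚ̄`. -/
abbrev Qb : Type := AlgebraicClosure ℚ

/-- `Gal(ℚ̄/ℚ)`. -/
abbrev GQ : Type := Qb ≃ₐ[ℚ] Qb

/-! ### Coefficientwise ring homomorphisms preserve the characteristic-`ℓ` function field -/

theorem coeffMap_mem_fullC {k : Type*} [Field k] (N : ℕ) (φ : k →+* k) {x : LaurentSeries k}
    (hx : x ∈ modularFunctionFieldFullC k N) :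
    coeffMap φ x ∈ modularFunctionFieldFullC k N := by
  unfold modularFunctionFieldFullC at hx
  induction hx using IntermediateField.adjoin_induction with
  | mem y hy =>
      obtain ⟨d, hne, hd, rfl⟩ := hy
      have := hne
      rw [coeffMap_qExpand, coeffMap_jqModC]
      exact jqModCd_mem_full k N hd
  | algebraMap a =>
      rw [coeffMap_algebraMap]
      exact (modularFunctionFieldFullC k N).algebraMap_mem _
  | add _ _ _ _ hx hy => rw [map_add]; exact add_mem hx hy
  | inv x _ hx => rw [map_inv₀]; exact inv_mem hx
  | mul _ _ _ _ hx hy => rw [map_mul]; exact mul_mem hx hy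

theorem coeffMap_injective_of_injective {R S : Type*} [CommRing R] [CommRing S] (f : R →+* S)
    (hf : Function.Injective f) : Function.Injective (coeffMap f) := by
  intro x y hxy
  ext m
  have h := congrArg (fun s => HahnSeries.coeff s m) hxy
  exact hf (by simpa using h)

/-! ### The decomposition group acts on integral functions -/

section GaloisAction

variable {A : ValuationSubring Qb} {N : ℕ}

/-- The restriction of an element of the decomposition group to the valuation ring. -/
def decompHom {σ : GQ} (hσ : σ ∈ A.decompositionSubgroup ℚ) : A →+* A where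
  toFun a := ⟨σ a, Fermat.Agent.Lib.helper3858.apply_mem_of_mem_decompositionSubgroup hσ a.2⟩
  map_one' := Subtype.ext (map_one σ)
  map_mul' _ _ := Subtype.ext (map_mul σ _ _)
  map_zero' := Subtype.ext (map_zero σ)
  map_add' _ _ := Subtype.ext (map_add σ _ _)

@[simp]
theorem coe_decompHom {σ : GQ} (hσ : σ ∈ A.decompositionSubgroup ℚ) (a : A) :
    (decompHom hσ a : Qb) = σ a := rfl

theorem subtype_comp_decompHom {σ : GQ} (hσ : σ ∈ A.decompositionSubgroup ℚ) :
    A.subtype.comp (decompHom hσ) = ((σ : Qb ≃ₐ[ℚ] Qb) : Qb →+* Qb).comp A.subtype :=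
  RingHom.ext fun _ => rfl

/-- The conjugate of an integral function by an element `σ` of the decomposition group which
acts on the residue field through the ring endomorphism `φ`. -/
def conj (a : IntegralFn A N) {σ : GQ} (hσ : σ ∈ A.decompositionSubgroup ℚ)
    (φ : ResidueField A →+* ResidueField A)
    (hφ : ∀ x : A, residue A (decompHom hσ x) = φ (residue A x)) : IntegralFn A N where
  y := coeffMap (decompHom hσ) a.y
  mem := by
    rw [coeffMap_coeffMap, subtype_comp_decompHom, ← coeffMap_coeffMap]
    exact coeffMap_mem_laurentBaseChange σ a.mem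
  memk := by
    rw [coeffMap_coeffMap, show (residue A).comp (decompHom hσ) = φ.comp (residue A) from
      RingHom.ext hφ, ← coeffMap_coeffMap]
    exact coeffMap_mem_fullC N φ a.memk
  ne := by
    rw [coeffMap_coeffMap, show (residue A).comp (decompHom hσ) = φ.comp (residue A) from
      RingHom.ext hφ, ← coeffMap_coeffMap]
    intro h
    apply a.ne
    apply coeffMap_injective_of_injective φ φ.injective
    rw [h, map_zero]

theorem conj_gen (a : IntegralFn A N) {σ : GQ} (hσ : σ ∈ A.decompositionSubgroup ℚ)
    (φ : ResidueField A →+* ResidueField A)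
    (hφ : ∀ x : A, residue A (decompHom hσ x) = φ (residue A x)) :
    (conj a hσ φ hφ).gen = arithmeticGalois (modularFunctionFieldFull N) σ • a.gen := by
  apply Subtype.ext
  rw [coe_arithmeticGalois_smul]
  show coeffMap A.subtype (coeffMap (decompHom hσ) a.y) = coeffMap _ (coeffMap A.subtype a.y)
  rw [coeffMap_coeffMap, subtype_comp_decompHom, ← coeffMap_coeffMap]

theorem coe_conj_red (a : IntegralFn A N) {σ : GQ} (hσ : σ ∈ A.decompositionSubgroup ℚ)
    (φ : ResidueField A →+* ResidueField A)
    (hφ : ∀ x : A, residue A (decompHom hσ x) = φ (residue A x)) :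
    ((conj a hσ φ hφ).red : LaurentSeries (ResidueField A)) =
      coeffMap φ (a.red : LaurentSeries (ResidueField A)) := by
  show coeffMap (residue A) (coeffMap (decompHom hσ) a.y) = coeffMap φ (coeffMap (residue A) a.y)
  rw [coeffMap_coeffMap, show (residue A).comp (decompHom hσ) = φ.comp (residue A) from
      RingHom.ext hφ, ← coeffMap_coeffMap]

/-- inertia elements act trivially on residues (ring-hom form). -/
theorem residue_decompHom_of_inertia {τ : GQ} (hτ : τ ∈ A.inertiaSubgroupIn ℚ)
    (hτd : τ ∈ A.decompositionSubgroup ℚ) (x : A) :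
    residue A (decompHom hτd x) = RingHom.id _ (residue A x) :=
  Fermat.Agent.Lib.helper3858.residue_apply_of_mem_inertiaSubgroupIn hτ x.2 _

/-- a Frobenius element acts as the `ℓ`-th power on residues (ring-hom form). -/
theorem residue_decompHom_of_frobenius {σ : GQ} {ℓ : ℕ} (hσ : A.IsFrobeniusAt σ ℓ)
    (φ : ResidueField A →+* ResidueField A) (hφ : ∀ x, φ x = x ^ ℓ) (x : A) :
    residue A (decompHom hσ.mem_decompositionSubgroup x) = φ (residue A x) := by
  rw [hφ]
  exact Fermat.Agent.Lib.helper3858.residue_apply_of_isFrobeniusAt hσ x.2 _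

/-- **(G1)** every element of the decomposition group of `A` maps integral functions to integral
functions. -/
theorem exists_conj_of_mem_decomposition {σ : GQ} (hσ : σ ∈ A.decompositionSubgroup ℚ)
    (a : IntegralFn A N) :
    ∃ a' : IntegralFn A N,
      a'.gen = arithmeticGalois (modularFunctionFieldFull N) σ • a.gen := by
  let φ : ResidueField A →+* ResidueField A :=
    MulSemiringAction.toRingHom (A.decompositionSubgroup ℚ) (ResidueField A) ⟨σ, hσ⟩
  have hφ : ∀ x : A, residue A (decompHom hσ x) = φ (residue A x) := fun x =>
    (Fermat.Agent.Lib.helper3858.smul_residue_eq hσ x.2).symm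
  exact ⟨conj a hσ φ hφ, conj_gen a hσ φ hφ⟩

/-- **(GalI)** inertia elements map integral functions to integral functions with the SAME
reduction. -/
theorem galI (τ : GQ) (hτ : τ ∈ A.inertiaSubgroupIn ℚ) (a : IntegralFn A N) :
    ∃ a' : IntegralFn A N,
      a'.gen = arithmeticGalois (modularFunctionFieldFull N) τ • a.gen ∧ a'.red = a.red := by
  have hτd : τ ∈ A.decompositionSubgroup ℚ :=
    Fermat.Agent.Lib.helper954.mem_decomposition_of_mem_inertia hτ
  refine ⟨conj a hτd (RingHom.id _) (residue_decompHom_of_inertia hτ hτd),
    conj_gen a hτd _ _, Subtype.ext ?_⟩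
  rw [coe_conj_red, coeffMap_id]

/-- **(GalF)** a Frobenius element at `A` maps integral functions to integral functions, and
acts on reductions by the coefficientwise Frobenius `Φ` (any ring endomorphism of the residue
field with `Φ x = x ^ ℓ`). -/
theorem galF {ℓ : ℕ} (Φ : ResidueField A →+* ResidueField A) (hΦ : ∀ x, Φ x = x ^ ℓ)
    (σ : GQ) (hσ : A.IsFrobeniusAt σ ℓ) (a : IntegralFn A N) :
    ∃ a' : IntegralFn A N,
      a'.gen = arithmeticGalois (modularFunctionFieldFull N) σ • a.gen ∧
      (a'.red : LaurentSeries (ResidueField A)) =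
        coeffMap Φ (a.red : LaurentSeries (ResidueField A)) :=
  ⟨conj a hσ.mem_decompositionSubgroup Φ (residue_decompHom_of_frobenius hσ Φ hΦ),
    conj_gen a _ _ _, coe_conj_red a _ _ _⟩

end GaloisAction

end Fermat.Agent.S29.helper8057
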