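import Mathlib
import Fermat.Agent.S23.helper23_Final
import Fermat.Agent.S29.helper8319_PthRoot

/-!
# S29-FDESC (F4): well-definedness of the transported character (helper850)

Step (2) of the route `FDESC` (descent `ℂ → ℚ̄` of the twisted Eisenstein class through cusp
forms).  Let `H₁, H₂` be holomorphic on `ℍ` with the same multiplier `χ` (`χ ^ m = 1`), so that
`G₁ = H₁ ^ m`, `G₂ = H₂ ^ m` and `P = H₁ * H₂ ^ (m - 1)` are cusp forms on `Γ₀(N)` of weight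
`w = m * k` with `P ^ m = G₁ * G₂ ^ (m - 1)`.  Let `Γ₁, Γ₂` be the coefficientwise
`σ`-conjugates of `G₁, G₂` and `R₁, R₂` holomorphic `m`-th roots of `Γ₁, Γ₂`, with multiplier
characters `c₁, c₂`.  Then `c₁ = c₂` (`char_eq_of_conj`).

Also: the round trip `σ` then `σ⁻¹` of coefficientwise conjugation is the identity
(`conj_conj_eq`), conjugation preserves nonvanishing, the `q`-order and a leading coefficient `1`.
-/

set_option autoImplicit false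

open UpperHalfPlane Function
open scoped MatrixGroups Manifold ModularForm

namespace Fermat.Agent.S29.helper850

open Fermat.Agent.S23.helper1255 (Nice nice_G0)

/-- Coefficientwise conjugation, as an identity of power series. -/
theorem qExpansion_eq_map_of_qCoeff {f g : ℍ → ℂ} (σ : ℂ →+* ℂ)
    (h : ∀ n, ModularFormClass.qCoeff g n = σ (ModularFormClass.qCoeff f n)) :
    qExpansion 1 g = (qExpansion 1 f).map σ := by
  ext n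
  rw [PowerSeries.coeff_map]
  exact h n

/-- A cusp form on `Γ₀(N)` is determined by its `q`-expansion. -/
theorem cuspForm_eq_of_qExpansion_eq {N : ℕ} {w : ℤ}
    (f g : CuspForm (CongruenceSubgroup.Gamma0 N) w)
    (h : qExpansion 1 (f : ℍ → ℂ) = qExpansion 1 (g : ℍ → ℂ)) : f = g := by
  have nf : Nice (f : ℍ → ℂ) := nice_G0 N f
  have ng : Nice (g : ℍ → ℂ) := nice_G0 N g
  have h0 : ((f : ℍ → ℂ) - g) = 0 := by
    apply (nf.sub ng).eq_zero_of_qExp_eq_zero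
    rw [UpperHalfPlane.qExpansion_sub nf.analyticAt ng.analyticAt, h, sub_self]
  exact DFunLike.ext _ _ fun z => sub_eq_zero.mp (congrFun h0 z)

/-- **Round trip.** Conjugating by `σ` and then by `σ⁻¹` returns the same cusp form. -/
theorem conj_conj_eq {N : ℕ} {w : ℤ} (σ : ℂ ≃+* ℂ)
    (f g h : CuspForm (CongruenceSubgroup.Gamma0 N) w)
    (hg : ∀ n, ModularFormClass.qCoeff g n = σ (ModularFormClass.qCoeff f n))
    (hh : ∀ n, ModularFormClass.qCoeff h n = σ.symm (ModularFormClass.qCoeff g n)) : h = f := by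
  apply cuspForm_eq_of_qExpansion_eq
  ext n
  have := hh n
  rw [hg n, RingEquiv.symm_apply_apply] at this
  exact this

/-- A nonzero cusp form on `Γ₀(N)` has a nonzero `q`-expansion. -/
theorem qExpansion_ne_zero_of_ne_zero {N : ℕ} {w : ℤ}
    (f : CuspForm (CongruenceSubgroup.Gamma0 N) w) (hf : f ≠ 0) :
    qExpansion 1 (f : ℍ → ℂ) ≠ 0 := by
  intro h0
  apply hf
  have nf : Nice (f : ℍ → ℂ) := nice_G0 N f
  have := nf.eq_zero_of_qExp_eq_zero h0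
  exact DFunLike.ext _ _ fun z => congrFun this z

/-- The conjugate of a nonzero cusp form is nonzero. -/
theorem conj_ne_zero {N : ℕ} {w : ℤ} (σ : ℂ ≃+* ℂ)
    (f g : CuspForm (CongruenceSubgroup.Gamma0 N) w)
    (hg : ∀ n, ModularFormClass.qCoeff g n = σ (ModularFormClass.qCoeff f n)) (hf : f ≠ 0) :
    g ≠ 0 := by
  intro hg0
  apply qExpansion_ne_zero_of_ne_zero f hf
  have h1 : qExpansion 1 (g : ℍ → ℂ) = 0 := by
    rw [hg0, FunLike.coe_zero, UpperHalfPlane.qExpansion_zero]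
  rw [qExpansion_eq_map_of_qCoeff (σ : ℂ →+* ℂ) hg] at h1
  exact PowerSeries.map_injective (σ : ℂ →+* ℂ) σ.injective (by rw [h1, map_zero])

/-- Conjugation preserves the `q`-order. -/
theorem order_conj {f g : ℍ → ℂ} (σ : ℂ ≃+* ℂ)
    (hg : ∀ n, ModularFormClass.qCoeff g n = σ (ModularFormClass.qCoeff f n)) :
    (qExpansion 1 g).order = (qExpansion 1 f).order := by
  rw [qExpansion_eq_map_of_qCoeff (σ : ℂ →+* ℂ) hg]
  apply le_antisymm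
  · have h : ((qExpansion 1 f).map (σ : ℂ →+* ℂ)).order ≤
        (((qExpansion 1 f).map (σ : ℂ →+* ℂ)).map (σ.symm : ℂ →+* ℂ)).order :=
      PowerSeries.le_order_map (σ.symm : ℂ →+* ℂ)
    have h2 : ((qExpansion 1 f).map (σ : ℂ →+* ℂ)).map (σ.symm : ℂ →+* ℂ) = qExpansion 1 f := by
      ext n
      simp
    rwa [h2] at h
  · exact PowerSeries.le_order_map (σ : ℂ →+* ℂ)

/-- **(F4) Well-definedness of the transported character.** -/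
theorem char_eq_of_conj {N : ℕ} [NeZero N] {m : ℕ} (hm : m ≠ 0) (k : ℤ) {w : ℤ}
    (hw : w = (m : ℤ) * k) (σ : ℂ ≃+* ℂ)
    (G1 G2 P Γ1 Γ2 : CuspForm (CongruenceSubgroup.Gamma0 N) w)
    (hP : ∀ z, P z ^ m = G1 z * G2 z ^ (m - 1))
    (hΓ1 : ∀ n, ModularFormClass.qCoeff Γ1 n = σ (ModularFormClass.qCoeff G1 n))
    (hΓ2 : ∀ n, ModularFormClass.qCoeff Γ2 n = σ (ModularFormClass.qCoeff G2 n))
    (hΓ1ne : Γ1 ≠ 0) (hΓ2ne : Γ2 ≠ 0)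
    {R1 R2 : ℍ → ℂ} (hR1 : MDiff R1) (hR2 : MDiff R2)
    (hR1m : ∀ z, R1 z ^ m = Γ1 z) (hR2m : ∀ z, R2 z ^ m = Γ2 z)
    (c1 c2 : ↥(CongruenceSubgroup.Gamma0 N) →* ℂˣ) (hc2 : ∀ γ, c2 γ ^ m = 1)
    (hR1c : ∀ (γ : ↥(CongruenceSubgroup.Gamma0 N)) (z : ℍ),
      (R1 ∣[k] (γ : SL(2, ℤ))) z = (c1 γ : ℂ) * R1 z)
    (hR2c : ∀ (γ : ↥(CongruenceSubgroup.Gamma0 N)) (z : ℍ),
      (R2 ∣[k] (γ : SL(2, ℤ))) z = (c2 γ : ℂ) * R2 z) :
    c1 = c2 := by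
  classical
  obtain ⟨Pσ, hPσ⟩ := Fermat.Agent.S23.helper23.stmt_conj N w P σ
  have nP : Nice (P : ℍ → ℂ) := nice_G0 N P
  have nG1 : Nice (G1 : ℍ → ℂ) := nice_G0 N G1
  have nG2 : Nice (G2 : ℍ → ℂ) := nice_G0 N G2
  have nΓ1 : Nice (Γ1 : ℍ → ℂ) := nice_G0 N Γ1
  have nΓ2 : Nice (Γ2 : ℍ → ℂ) := nice_G0 N Γ2
  have nPσ : Nice (Pσ : ℍ → ℂ) := nice_G0 N Pσ
  -- the `q`-expansion identity for `P`
  have e1 : qExpansion 1 (P : ℍ → ℂ) ^ m =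
      qExpansion 1 (G1 : ℍ → ℂ) * qExpansion 1 (G2 : ℍ → ℂ) ^ (m - 1) := by
    rw [← nP.qExp_pow, ← nG2.qExp_pow, ← nG1.qExp_mul (nG2.pow _)]
    congr 1
    funext z
    simpa using hP z
  -- ... and for the conjugates
  have e2 : qExpansion 1 (Pσ : ℍ → ℂ) ^ m =
      qExpansion 1 (Γ1 : ℍ → ℂ) * qExpansion 1 (Γ2 : ℍ → ℂ) ^ (m - 1) := by
    rw [qExpansion_eq_map_of_qCoeff (σ : ℂ →+* ℂ) hPσ,
      qExpansion_eq_map_of_qCoeff (σ : ℂ →+* ℂ) hΓ1,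
      qExpansion_eq_map_of_qCoeff (σ : ℂ →+* ℂ) hΓ2, ← map_pow, ← map_pow, ← map_mul, e1]
  -- hence an identity of functions
  have e3 : ((Pσ : ℍ → ℂ) ^ m) = (Γ1 : ℍ → ℂ) * (Γ2 : ℍ → ℂ) ^ (m - 1) := by
    have hn : Nice (((Pσ : ℍ → ℂ) ^ m) - (Γ1 : ℍ → ℂ) * (Γ2 : ℍ → ℂ) ^ (m - 1)) :=
      (nPσ.pow m).sub (nΓ1.mul (nΓ2.pow _))
    have h0 := hn.eq_zero_of_qExp_eq_zero (by
      rw [UpperHalfPlane.qExpansion_sub (nPσ.pow m).analyticAt (nΓ1.mul (nΓ2.pow _)).analyticAt,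
        nPσ.qExp_pow, nΓ1.qExp_mul (nΓ2.pow _), nΓ2.qExp_pow, e2, sub_self])
    exact sub_eq_zero.mp h0
  -- a point where `Γ1 * Γ2 ^ (m - 1)` does not vanish
  have hq1 : qExpansion 1 (Γ1 : ℍ → ℂ) ≠ 0 := qExpansion_ne_zero_of_ne_zero Γ1 hΓ1ne
  have hq2 : qExpansion 1 (Γ2 : ℍ → ℂ) ≠ 0 := qExpansion_ne_zero_of_ne_zero Γ2 hΓ2ne
  have hprod : qExpansion 1 ((Γ1 : ℍ → ℂ) * (Γ2 : ℍ → ℂ) ^ (m - 1)) ≠ 0 := by
    rw [nΓ1.qExp_mul (nΓ2.pow _), nΓ2.qExp_pow]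
    exact mul_ne_zero hq1 (pow_ne_zero _ hq2)
  have hz0 : ∃ z : ℍ, Γ1 z * Γ2 z ^ (m - 1) ≠ 0 := by
    by_contra hcon
    apply hprod
    have : (Γ1 : ℍ → ℂ) * (Γ2 : ℍ → ℂ) ^ (m - 1) = 0 := funext fun z => by
      by_contra hz
      exact hcon ⟨z, by simpa using hz⟩
    rw [this]
    exact UpperHalfPlane.qExpansion_zero 1
  obtain ⟨z0, hz0⟩ := hz0
  -- the root `Y = R1 * R2 ^ (m - 1)` of `Γ1 * Γ2 ^ (m - 1)`
  set Y : ℍ → ℂ := fun z => R1 z * R2 z ^ (m - 1) with hY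
  have hYhol : MDiff Y := hR1.mul (hR2.pow _)
  have hYm : ∀ z, Y z ^ m = Γ1 z * Γ2 z ^ (m - 1) := by
    intro z
    simp only [hY]
    rw [mul_pow, ← pow_mul, mul_comm (m - 1) m, pow_mul, hR1m, hR2m]
  have hY0 : Y z0 ≠ 0 := by
    intro h0
    apply hz0
    rw [← hYm z0, h0, zero_pow hm]
  obtain ⟨ζ, hζ, hPY⟩ := Fermat.Agent.S29.helper8319.eq_const_mul_of_pow_eq_UHP hm nPσ.2.1 hYhol
    ⟨z0, hY0⟩ (fun z => by rw [hYm z]; exact congrFun e3 z)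
  have hζ0 : ζ ≠ 0 := by
    rintro rfl
    rw [zero_pow hm] at hζ
    exact zero_ne_one hζ
  -- slash invariance of `Pσ`
  refine MonoidHom.ext fun γ => ?_
  have hinv : ((Pσ : ℍ → ℂ) ∣[w] (γ : SL(2, ℤ))) = Pσ :=
    SlashInvariantFormClass.slash_action_eq Pσ
      (Matrix.SpecialLinearGroup.mapGL ℝ (γ : SL(2, ℤ))) ⟨γ, γ.2, rfl⟩
  have h1 := congrFun hinv z0
  rw [ModularForm.SL_slash_apply, hPY, hPY] at h1
  have hR1' := hR1c γ z0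
  have hR2' := hR2c γ z0
  rw [ModularForm.SL_slash_apply] at hR1' hR2'
  have hm1 : ((m - 1 : ℕ) : ℤ) = (m : ℤ) - 1 := by
    rw [Nat.cast_sub (Nat.one_le_iff_ne_zero.mpr hm)]
    simp
  have hd : denom (γ : SL(2, ℤ)) z0 ^ (-w) =
      denom (γ : SL(2, ℤ)) z0 ^ (-k) * (denom (γ : SL(2, ℤ)) z0 ^ (-k)) ^ (m - 1) := by
    rw [← zpow_natCast, ← zpow_mul, ← zpow_add₀ (denom_ne_zero _ _), hw]
    congr 1
    rw [hm1]
    ring
  have key : Y ((γ : SL(2, ℤ)) • z0) * denom (γ : SL(2, ℤ)) z0 ^ (-w) =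
      (c1 γ : ℂ) * (c2 γ : ℂ) ^ (m - 1) * Y z0 := by
    simp only [hY]
    rw [hd]
    calc R1 ((γ : SL(2, ℤ)) • z0) * R2 ((γ : SL(2, ℤ)) • z0) ^ (m - 1) *
          (denom (γ : SL(2, ℤ)) z0 ^ (-k) * (denom (γ : SL(2, ℤ)) z0 ^ (-k)) ^ (m - 1))
        = (R1 ((γ : SL(2, ℤ)) • z0) * denom (γ : SL(2, ℤ)) z0 ^ (-k)) *
          (R2 ((γ : SL(2, ℤ)) • z0) * denom (γ : SL(2, ℤ)) z0 ^ (-k)) ^ (m - 1) := by
          rw [mul_pow]; ring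
      _ = (c1 γ : ℂ) * (c2 γ : ℂ) ^ (m - 1) * (R1 z0 * R2 z0 ^ (m - 1)) := by
          rw [hR1', hR2', mul_pow]; ring
  have h2 : ζ * ((c1 γ : ℂ) * (c2 γ : ℂ) ^ (m - 1) * Y z0) = ζ * Y z0 := by
    rw [← key, ← mul_assoc]
    exact h1
  have h3 : (c1 γ : ℂ) * (c2 γ : ℂ) ^ (m - 1) = 1 := by
    have h4 := mul_left_cancel₀ hζ0 h2
    exact mul_right_cancel₀ hY0 (by rw [one_mul]; exact h4)
  apply Units.ext
  have hc2' : (c2 γ : ℂ) ^ m = 1 := by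
    have := congrArg Units.val (hc2 γ)
    simpa using this
  have h5 : (c2 γ : ℂ) ^ (m - 1) * (c2 γ : ℂ) = 1 := by
    rw [← pow_succ, Nat.sub_add_cancel (Nat.one_le_iff_ne_zero.mpr hm)]
    exact hc2'
  calc (c1 γ : ℂ) = (c1 γ : ℂ) * ((c2 γ : ℂ) ^ (m - 1) * (c2 γ : ℂ)) := by rw [h5, mul_one]
    _ = ((c1 γ : ℂ) * (c2 γ : ℂ) ^ (m - 1)) * (c2 γ : ℂ) := by ring
    _ = (c2 γ : ℂ) := by rw [h3, one_mul]


/-! ## Function-level form (no bundled cusp forms in the statement) -/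

/-- A holomorphic function on `ℍ` which is slash-invariant of weight `w` under `Γ₀(N)` and all
of whose `SL(2, ℤ)`-slashes vanish at `i∞` is a cusp form on `Γ₀(N)`. -/
def cuspOfFun (N : ℕ) [NeZero N] (w : ℤ) (F : ℍ → ℂ) (hol : MDiff F)
    (hinv : ∀ γ : ↥(CongruenceSubgroup.Gamma0 N), F ∣[w] (γ : SL(2, ℤ)) = F)
    (hz : ∀ A : SL(2, ℤ), IsZeroAtImInfty (F ∣[w] A)) :
    CuspForm (CongruenceSubgroup.Gamma0 N) w where
  toFun := F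
  slash_action_eq' := by
    rintro γ ⟨γ₀, hγ₀, rfl⟩
    exact hinv ⟨γ₀, hγ₀⟩
  holo' := hol
  zero_at_cusps' := by
    intro c hc
    rw [Subgroup.IsArithmetic.isCusp_iff_isCusp_SL2Z] at hc
    rw [OnePoint.isZeroAt_iff_forall_SL2Z hc]
    intro g _
    exact hz g

@[simp] theorem cuspOfFun_apply (N : ℕ) [NeZero N] (w : ℤ) (F : ℍ → ℂ) (hol : MDiff F)
    (hinv : ∀ γ : ↥(CongruenceSubgroup.Gamma0 N), F ∣[w] (γ : SL(2, ℤ)) = F)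
    (hz : ∀ A : SL(2, ℤ), IsZeroAtImInfty (F ∣[w] A)) (z : ℍ) :
    cuspOfFun N w F hol hinv hz z = F z := rfl

theorem coe_cuspOfFun (N : ℕ) [NeZero N] (w : ℤ) (F : ℍ → ℂ) (hol : MDiff F)
    (hinv : ∀ γ : ↥(CongruenceSubgroup.Gamma0 N), F ∣[w] (γ : SL(2, ℤ)) = F)
    (hz : ∀ A : SL(2, ℤ), IsZeroAtImInfty (F ∣[w] A)) :
    (cuspOfFun N w F hol hinv hz : ℍ → ℂ) = F := rfl

/-- Slash of a product of powers, pointwise: weights add up. -/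
theorem slash_mul_pow_apply (H1 H2 : ℍ → ℂ) (k : ℤ) (a b : ℕ) {w : ℤ}
    (hw : w = ((a + b : ℕ) : ℤ) * k) (g : SL(2, ℤ)) (z : ℍ) :
    ((fun z => H1 z ^ a * H2 z ^ b) ∣[w] g) z = (H1 ∣[k] g) z ^ a * (H2 ∣[k] g) z ^ b := by
  rw [ModularForm.SL_slash_apply, ModularForm.SL_slash_apply, ModularForm.SL_slash_apply]
  have hd : denom g z ^ (-w) = (denom g z ^ (-k)) ^ a * (denom g z ^ (-k)) ^ b := by
    rw [← zpow_natCast (denom g z ^ (-k)) a, ← zpow_natCast (denom g z ^ (-k)) b, ← zpow_mul,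
      ← zpow_mul, ← zpow_add₀ (denom_ne_zero g z), hw]
    congr 1
    push_cast
    ring
  rw [hd, mul_pow, mul_pow]
  ring

/-- The product `H1 ^ a * H2 ^ b` of two forms with the same multiplier `χ` of exponent
`a + b` is slash-invariant of weight `(a + b) * k`. -/
theorem slash_mul_pow_eq_self {N : ℕ} (χ : ↥(CongruenceSubgroup.Gamma0 N) →* ℂˣ) {H1 H2 : ℍ → ℂ}
    (k : ℤ) (a b : ℕ) {w : ℤ} (hw : w = ((a + b : ℕ) : ℤ) * k) (hχ : ∀ γ, χ γ ^ (a + b) = 1)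
    (h1 : ∀ γ : ↥(CongruenceSubgroup.Gamma0 N), H1 ∣[k] (γ : SL(2, ℤ)) = (χ γ : ℂ) • H1)
    (h2 : ∀ γ : ↥(CongruenceSubgroup.Gamma0 N), H2 ∣[k] (γ : SL(2, ℤ)) = (χ γ : ℂ) • H2)
    (γ : ↥(CongruenceSubgroup.Gamma0 N)) :
    (fun z => H1 z ^ a * H2 z ^ b) ∣[w] (γ : SL(2, ℤ)) = fun z => H1 z ^ a * H2 z ^ b := by
  funext z
  rw [slash_mul_pow_apply H1 H2 k a b hw, h1 γ, h2 γ]
  simp only [Pi.smul_apply, smul_eq_mul, mul_pow]
  have hχ' : (χ γ : ℂ) ^ a * (χ γ : ℂ) ^ b = 1 := by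
    rw [← pow_add]
    have := congrArg Units.val (hχ γ)
    simpa using this
  calc (χ γ : ℂ) ^ a * H1 z ^ a * ((χ γ : ℂ) ^ b * H2 z ^ b)
      = ((χ γ : ℂ) ^ a * (χ γ : ℂ) ^ b) * (H1 z ^ a * H2 z ^ b) := by ring
    _ = H1 z ^ a * H2 z ^ b := by rw [hχ', one_mul]

/-- Vanishing at `i∞` of the slashes of a product of powers (`a + b ≥ 1`). -/
theorem isZeroAtImInfty_slash_mul_pow_add {H1 H2 : ℍ → ℂ} (k : ℤ) (a b : ℕ) (hab : a + b ≠ 0) {w : ℤ}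
    (hw : w = ((a + b : ℕ) : ℤ) * k)
    (h1 : ∀ A : SL(2, ℤ), IsZeroAtImInfty (H1 ∣[k] A))
    (h2 : ∀ A : SL(2, ℤ), IsZeroAtImInfty (H2 ∣[k] A)) (A : SL(2, ℤ)) :
    IsZeroAtImInfty ((fun z => H1 z ^ a * H2 z ^ b) ∣[w] A) := by
  have hfun : ((fun z => H1 z ^ a * H2 z ^ b) ∣[w] A) =
      fun z => (H1 ∣[k] A) z ^ a * (H2 ∣[k] A) z ^ b :=
    funext fun z => slash_mul_pow_apply H1 H2 k a b hw A z
  rw [hfun]
  have t1 : Filter.Tendsto (H1 ∣[k] A) atImInfty (nhds 0) := h1 A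
  have t2 : Filter.Tendsto (H2 ∣[k] A) atImInfty (nhds 0) := h2 A
  have t3 : Filter.Tendsto (fun z => (H1 ∣[k] A) z ^ a * (H2 ∣[k] A) z ^ b) atImInfty
      (nhds ((0 : ℂ) ^ a * (0 : ℂ) ^ b)) := (t1.pow a).mul (t2.pow b)
  rw [← pow_add, zero_pow hab] at t3
  exact t3

/-- Vanishing at `i∞` of the slashes of a product of powers (`a ≥ 1`). -/
theorem isZeroAtImInfty_slash_mul_pow {H1 H2 : ℍ → ℂ} (k : ℤ) (a b : ℕ) (ha : a ≠ 0) {w : ℤ}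
    (hw : w = ((a + b : ℕ) : ℤ) * k)
    (h1 : ∀ A : SL(2, ℤ), IsZeroAtImInfty (H1 ∣[k] A))
    (h2 : ∀ A : SL(2, ℤ), IsZeroAtImInfty (H2 ∣[k] A)) (A : SL(2, ℤ)) :
    IsZeroAtImInfty ((fun z => H1 z ^ a * H2 z ^ b) ∣[w] A) :=
  isZeroAtImInfty_slash_mul_pow_add k a b (by omega) hw h1 h2 A

/-- **(F4), function level.**  `H1, H2` holomorphic of weight `k` with the same multiplier `χ`
(`χ ^ m = 1`), cuspidal at all cusps; `R1, R2` nonzero, holomorphic of weight `k` with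
multipliers `c1, c2` (`c_i ^ m = 1`), cuspidal at all cusps, such that the `q`-expansion of
`R_i ^ m` is the `σ`-conjugate of the `q`-expansion of `H_i ^ m`.  Then `c1 = c2`. -/
theorem char_eq_of_conj_fun {N : ℕ} [NeZero N] {m : ℕ} (hm : m ≠ 0) (k : ℤ) (σ : ℂ ≃+* ℂ)
    (χ c1 c2 : ↥(CongruenceSubgroup.Gamma0 N) →* ℂˣ)
    (hχ : ∀ γ, χ γ ^ m = 1) (hc1 : ∀ γ, c1 γ ^ m = 1) (hc2 : ∀ γ, c2 γ ^ m = 1)
    {H1 H2 R1 R2 : ℍ → ℂ}
    (hH1 : MDiff H1 ∧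
      (∀ γ : ↥(CongruenceSubgroup.Gamma0 N), H1 ∣[k] (γ : SL(2, ℤ)) = (χ γ : ℂ) • H1) ∧
      ∀ A : SL(2, ℤ), IsZeroAtImInfty (H1 ∣[k] A))
    (hH2 : MDiff H2 ∧
      (∀ γ : ↥(CongruenceSubgroup.Gamma0 N), H2 ∣[k] (γ : SL(2, ℤ)) = (χ γ : ℂ) • H2) ∧
      ∀ A : SL(2, ℤ), IsZeroAtImInfty (H2 ∣[k] A))
    (hR1 : MDiff R1 ∧
      (∀ γ : ↥(CongruenceSubgroup.Gamma0 N), R1 ∣[k] (γ : SL(2, ℤ)) = (c1 γ : ℂ) • R1) ∧
      ∀ A : SL(2, ℤ), IsZeroAtImInfty (R1 ∣[k] A))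
    (hR2 : MDiff R2 ∧
      (∀ γ : ↥(CongruenceSubgroup.Gamma0 N), R2 ∣[k] (γ : SL(2, ℤ)) = (c2 γ : ℂ) • R2) ∧
      ∀ A : SL(2, ℤ), IsZeroAtImInfty (R2 ∣[k] A))
    (hR1ne : R1 ≠ 0) (hR2ne : R2 ≠ 0)
    (hconj1 : ∀ n, ModularFormClass.qCoeff (fun z => R1 z ^ m) n =
      σ (ModularFormClass.qCoeff (fun z => H1 z ^ m) n))
    (hconj2 : ∀ n, ModularFormClass.qCoeff (fun z => R2 z ^ m) n =
      σ (ModularFormClass.qCoeff (fun z => H2 z ^ m) n)) :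
    c1 = c2 := by
  have hm1 : m - 1 + 1 = m := Nat.sub_add_cancel (Nat.one_le_iff_ne_zero.mpr hm)
  have hw0 : ((m : ℤ) * k) = ((m + 0 : ℕ) : ℤ) * k := by simp
  have hw1 : ((m : ℤ) * k) = ((1 + (m - 1) : ℕ) : ℤ) * k := by
    rw [add_comm, hm1]
  have e0 : ∀ H : ℍ → ℂ, (fun z => H z ^ m * H z ^ 0) = fun z => H z ^ m := fun H =>
    funext fun z => by rw [pow_zero, mul_one]
  -- the five cusp forms
  have powInv : ∀ (c : ↥(CongruenceSubgroup.Gamma0 N) →* ℂˣ) (H : ℍ → ℂ),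
      (∀ γ, c γ ^ m = 1) →
      (∀ γ : ↥(CongruenceSubgroup.Gamma0 N), H ∣[k] (γ : SL(2, ℤ)) = (c γ : ℂ) • H) →
      ∀ γ : ↥(CongruenceSubgroup.Gamma0 N),
        (fun z => H z ^ m) ∣[(m : ℤ) * k] (γ : SL(2, ℤ)) = fun z => H z ^ m := by
    intro c H hc h γ
    have := slash_mul_pow_eq_self c k m 0 hw0 (by simpa using hc) h h γ
    rwa [e0 H] at this
  have powZero : ∀ H : ℍ → ℂ, (∀ A : SL(2, ℤ), IsZeroAtImInfty (H ∣[k] A)) →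
      ∀ A : SL(2, ℤ), IsZeroAtImInfty ((fun z => H z ^ m) ∣[(m : ℤ) * k] A) := by
    intro H h A
    have := isZeroAtImInfty_slash_mul_pow_add k m 0 (by simpa using hm) hw0 h h A
    rwa [e0 H] at this
  let G1 := cuspOfFun N ((m : ℤ) * k) (fun z => H1 z ^ m) (hH1.1.pow m)
    (powInv χ H1 hχ hH1.2.1) (powZero H1 hH1.2.2)
  let G2 := cuspOfFun N ((m : ℤ) * k) (fun z => H2 z ^ m) (hH2.1.pow m)
    (powInv χ H2 hχ hH2.2.1) (powZero H2 hH2.2.2)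
  let Γ1 := cuspOfFun N ((m : ℤ) * k) (fun z => R1 z ^ m) (hR1.1.pow m)
    (powInv c1 R1 hc1 hR1.2.1) (powZero R1 hR1.2.2)
  let Γ2 := cuspOfFun N ((m : ℤ) * k) (fun z => R2 z ^ m) (hR2.1.pow m)
    (powInv c2 R2 hc2 hR2.2.1) (powZero R2 hR2.2.2)
  let P := cuspOfFun N ((m : ℤ) * k) (fun z => H1 z ^ 1 * H2 z ^ (m - 1))
    ((hH1.1.pow 1).mul (hH2.1.pow (m - 1)))
    (slash_mul_pow_eq_self χ k 1 (m - 1) hw1 (by rw [add_comm, hm1]; exact hχ) hH1.2.1 hH2.2.1)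
    (isZeroAtImInfty_slash_mul_pow_add k 1 (m - 1) (by omega) hw1 hH1.2.2 hH2.2.2)
  have hP : ∀ z, P z ^ m = G1 z * G2 z ^ (m - 1) := by
    intro z
    show (H1 z ^ 1 * H2 z ^ (m - 1)) ^ m = H1 z ^ m * (H2 z ^ m) ^ (m - 1)
    rw [pow_one, mul_pow, ← pow_mul, ← pow_mul, mul_comm (m - 1) m]
  have hΓ1ne : Γ1 ≠ 0 := by
    intro h0
    apply hR1ne
    funext z
    have := congrArg (fun f : CuspForm (CongruenceSubgroup.Gamma0 N) ((m : ℤ) * k) => f z) h0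
    have h2 : R1 z ^ m = 0 := this
    simpa using (pow_eq_zero_iff hm).mp h2
  have hΓ2ne : Γ2 ≠ 0 := by
    intro h0
    apply hR2ne
    funext z
    have := congrArg (fun f : CuspForm (CongruenceSubgroup.Gamma0 N) ((m : ℤ) * k) => f z) h0
    have h2 : R2 z ^ m = 0 := this
    simpa using (pow_eq_zero_iff hm).mp h2
  exact char_eq_of_conj hm k rfl σ G1 G2 P Γ1 Γ2 hP hconj1 hconj2 hΓ1ne hΓ2ne hR1.1 hR2.1
    (fun z => rfl) (fun z => rfl) c1 c2 hc2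
    (fun γ z => by rw [hR1.2.1 γ]; rfl) (fun γ z => by rw [hR2.2.1 γ]; rfl)

end Fermat.Agent.S29.helper850
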