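import Mathlib
import Fermat.Prelude.Thm_ModularForm_sturm_bound_Gamma0
import Fermat.Agent.S29.helper850_RootCharWD
import Fermat.Agent.S29.helper4084_MaxOrder
import Fermat.Agent.S29.helper6961_OrbitDescent
import Fermat.Agent.S29.helper587_FinC

/-!
# S29-FDESC: the orbit step (helper850)

Steps (3)+(4) of the route `FDESC` (findings #2710): from the `σ`-transport of ONE form at a time
(hypothesis `(T)`), the space of cuspidal weight `k` forms with multiplier `χ` (`χ ^ m = 1`)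
contains a nonzero `H` such that all `q`-coefficients of the cusp form `H ^ m` are algebraic.

Ingredients: the Sturm bound (Prelude) bounds the `q`-order of `H ^ m`; the element of maximal
order is unique up to a scalar (formal lemma F5 of helper4084); the transported character is
well defined (F4, `char_eq_of_conj_fun`); there are finitely many characters (helper587); a
complex number with finitely many conjugates is algebraic (helper6961).
-/

set_option autoImplicit false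

open UpperHalfPlane Function
open scoped MatrixGroups Manifold ModularForm

namespace Fermat.Agent.S29.helper850

open Fermat.Agent.S23.helper1255 (Nice nice_G0)

/-- Holomorphic functions on `ℍ` of weight `k` with multiplier `c` on `Γ₀(N)`, vanishing at all
cusps (the unfolded shape used by `helper3718.exists_twisted_cusp`). -/
def ChiCusp (N : ℕ) (k : ℤ) (c : ↥(CongruenceSubgroup.Gamma0 N) →* ℂˣ) (H : ℍ → ℂ) : Prop :=
  MDiff H ∧
    (∀ γ : ↥(CongruenceSubgroup.Gamma0 N), H ∣[k] (γ : SL(2, ℤ)) = (c γ : ℂ) • H) ∧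
    ∀ A : SL(2, ℤ), IsZeroAtImInfty (H ∣[k] A)

theorem chiCusp_iff {N : ℕ} {k : ℤ} {c : ↥(CongruenceSubgroup.Gamma0 N) →* ℂˣ} {H : ℍ → ℂ} :
    ChiCusp N k c H ↔ (MDiff H ∧
      (∀ γ : ↥(CongruenceSubgroup.Gamma0 N), H ∣[k] (γ : SL(2, ℤ)) = (c γ : ℂ) • H) ∧
      ∀ A : SL(2, ℤ), IsZeroAtImInfty (H ∣[k] A)) := Iff.rfl

section Basic

variable {N : ℕ} {k : ℤ} {c : ↥(CongruenceSubgroup.Gamma0 N) →* ℂˣ} {H H1 H2 : ℍ → ℂ}

theorem ChiCusp.smul (h : ChiCusp N k c H) (a : ℂ) : ChiCusp N k c (a • H) := by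
  refine ⟨h.1.const_smul a, fun γ => ?_, fun A => ?_⟩
  · rw [ModularForm.SL_smul_slash, h.2.1 γ, smul_comm]
  · rw [ModularForm.SL_smul_slash]
    have t : Filter.Tendsto (H ∣[k] A) atImInfty (nhds 0) := h.2.2 A
    have t2 : Filter.Tendsto (a • (H ∣[k] A)) atImInfty (nhds (a • (0 : ℂ))) := t.const_smul a
    rw [smul_zero] at t2
    exact t2

theorem ChiCusp.sub (h1 : ChiCusp N k c H1) (h2 : ChiCusp N k c H2) :
    ChiCusp N k c (H1 - H2) := by
  have hs : ∀ A : SL(2, ℤ), (H1 - H2) ∣[k] A = H1 ∣[k] A - H2 ∣[k] A := by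
    intro A
    funext z
    simp only [ModularForm.SL_slash_apply, Pi.sub_apply]
    ring
  refine ⟨h1.1.sub h2.1, fun γ => ?_, fun A => ?_⟩
  · rw [hs, h1.2.1 γ, h2.2.1 γ, smul_sub]
  · rw [hs]
    have t1 : Filter.Tendsto (H1 ∣[k] A) atImInfty (nhds 0) := h1.2.2 A
    have t2 : Filter.Tendsto (H2 ∣[k] A) atImInfty (nhds 0) := h2.2.2 A
    have t3 := t1.sub t2
    rw [sub_zero] at t3
    exact t3

end Basic

section Forms

variable {N : ℕ} [NeZero N] {m : ℕ} {k : ℤ} {c : ↥(CongruenceSubgroup.Gamma0 N) →* ℂˣ}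
  {H H1 H2 : ℍ → ℂ}

/-- `H1 ^ a * H2 ^ b` as a cusp form of weight `m * k` on `Γ₀(N)` when `a + b = m ≠ 0`. -/
def mulPowCusp (hm : m ≠ 0) (hc : ∀ γ, c γ ^ m = 1) (h1 : ChiCusp N k c H1)
    (h2 : ChiCusp N k c H2) (a b : ℕ) (hab : a + b = m) :
    CuspForm (CongruenceSubgroup.Gamma0 N) ((m : ℤ) * k) :=
  cuspOfFun N ((m : ℤ) * k) (fun z => H1 z ^ a * H2 z ^ b) ((h1.1.pow a).mul (h2.1.pow b))
    (slash_mul_pow_eq_self c k a b (by rw [hab]) (by rw [hab]; exact hc) h1.2.1 h2.2.1)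
    (isZeroAtImInfty_slash_mul_pow_add k a b (by rw [hab]; exact hm) (by rw [hab]) h1.2.2 h2.2.2)

theorem coe_mulPowCusp (hm : m ≠ 0) (hc : ∀ γ, c γ ^ m = 1) (h1 : ChiCusp N k c H1)
    (h2 : ChiCusp N k c H2) (a b : ℕ) (hab : a + b = m) :
    (mulPowCusp hm hc h1 h2 a b hab : ℍ → ℂ) = fun z => H1 z ^ a * H2 z ^ b := rfl

/-- Products `H1 ^ a * H2 ^ b` with `a + b = m` are nice (periodic, holomorphic, bounded). -/
theorem nice_mul_pow (hm : m ≠ 0) (hc : ∀ γ, c γ ^ m = 1) (h1 : ChiCusp N k c H1)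
    (h2 : ChiCusp N k c H2) (a b : ℕ) (hab : a + b = m) :
    Nice (fun z => H1 z ^ a * H2 z ^ b) := by
  have := nice_G0 N (mulPowCusp hm hc h1 h2 a b hab)
  rwa [coe_mulPowCusp] at this

/-- `H ^ m` is nice. -/
theorem nice_pow (hm : m ≠ 0) (hc : ∀ γ, c γ ^ m = 1) (h : ChiCusp N k c H) :
    Nice (fun z => H z ^ m) := by
  have := nice_mul_pow hm hc h h m 0 (add_zero m)
  have e : (fun z => H z ^ m * H z ^ 0) = fun z => H z ^ m :=
    funext fun z => by rw [pow_zero, mul_one]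
  rwa [e] at this

/-- The `q`-expansion of `H ^ m`. -/
noncomputable def powQ (m : ℕ) (H : ℍ → ℂ) : PowerSeries ℂ := qExpansion 1 (fun z => H z ^ m)

theorem powQ_coeff (H : ℍ → ℂ) (n : ℕ) :
    (powQ m H).coeff n = ModularFormClass.qCoeff (fun z => H z ^ m) n := rfl

theorem powQ_ne_zero (hm : m ≠ 0) (hc : ∀ γ, c γ ^ m = 1) (h : ChiCusp N k c H) (h0 : H ≠ 0) :
    powQ m H ≠ 0 := by
  intro hq
  apply h0
  have := (nice_pow hm hc h).eq_zero_of_qExp_eq_zero hq
  funext z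
  have hz : H z ^ m = 0 := congrFun this z
  simpa using (pow_eq_zero_iff hm).mp hz

/-- The Sturm bound for weight `m * k` on `Γ₀(N)`. -/
noncomputable def sturmB (N : ℕ) (m : ℕ) (k : ℤ) : ℕ :=
  (((m : ℤ) * k) * (CongruenceSubgroup.Gamma0 N).index).toNat / 12

/-- **Sturm**: the `q`-order of `H ^ m` is bounded. -/
theorem order_powQ_le (hm : m ≠ 0) (hc : ∀ γ, c γ ^ m = 1) (h : ChiCusp N k c H) (h0 : H ≠ 0) :
    (powQ m H).order ≤ (sturmB N m k : ℕ∞) := by
  by_contra hlt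
  rw [not_le] at hlt
  apply h0
  let F := mulPowCusp hm hc h h m 0 (add_zero m)
  have hF : (F : ℍ → ℂ) = fun z => H z ^ m := by
    rw [coe_mulPowCusp]
    exact funext fun z => by rw [pow_zero, mul_one]
  have hF0 : ModularFormClass.modularForm F = 0 := by
    apply ModularForm.sturm_bound_Gamma0 N
    intro n hn
    have hcoe : ((ModularFormClass.modularForm F : ModularForm _ _) : ℍ → ℂ) = F := rfl
    rw [hcoe, hF]
    apply PowerSeries.coeff_of_lt_order
    refine lt_of_le_of_lt ?_ hlt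
    exact_mod_cast hn
  funext z
  have hz : (ModularFormClass.modularForm F : ModularForm _ _) z = 0 := by rw [hF0]; rfl
  have hz2 : H z ^ m = 0 := by
    have : F z = H z ^ m := congrFun hF z
    rw [← this]
    exact hz
  simpa using (pow_eq_zero_iff hm).mp hz2


/-- Scaling: `powQ m (a • H) = C (a ^ m) * powQ m H`. -/
theorem powQ_smul (hm : m ≠ 0) (hc : ∀ γ, c γ ^ m = 1) (h : ChiCusp N k c H) (a : ℂ) :
    powQ m (a • H) = PowerSeries.C (a ^ m) * powQ m H := by
  have e : (fun z => (a • H) z ^ m) = (a ^ m) • (fun z => H z ^ m) := by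
    funext z
    simp only [Pi.smul_apply, smul_eq_mul, mul_pow]
  unfold powQ
  rw [e, UpperHalfPlane.qExpansion_smul (nice_pow hm hc h).analyticAt, PowerSeries.smul_eq_C_mul]

theorem order_powQ_smul (hm : m ≠ 0) (hc : ∀ γ, c γ ^ m = 1) (h : ChiCusp N k c H) {a : ℂ}
    (ha : a ≠ 0) : (powQ m (a • H)).order = (powQ m H).order := by
  rw [powQ_smul hm hc h, PowerSeries.order_mul]
  have hu : IsUnit (PowerSeries.C (a ^ m) : PowerSeries ℂ) :=
    (isUnit_iff_ne_zero.mpr (pow_ne_zero m ha)).map PowerSeries.C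
  rw [PowerSeries.order_zero_of_unit hu, zero_add]

/-- **Existence of an element of maximal `q`-order.** -/
theorem exists_max (hm : m ≠ 0) (hc : ∀ γ, c γ ^ m = 1) (h : ChiCusp N k c H) (h0 : H ≠ 0) :
    ∃ H0, ChiCusp N k c H0 ∧ H0 ≠ 0 ∧
      ∀ H', ChiCusp N k c H' → H' ≠ 0 → (powQ m H').order ≤ (powQ m H0).order := by
  classical
  let P : ℕ → Prop := fun n => ∃ H', ChiCusp N k c H' ∧ H' ≠ 0 ∧ (powQ m H').order = (n : ℕ∞)
  have key : ∀ H', ChiCusp N k c H' → H' ≠ 0 →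
      ∃ n : ℕ, n ≤ sturmB N m k ∧ (powQ m H').order = (n : ℕ∞) := by
    intro H' h' h0'
    have hne := powQ_ne_zero hm hc h' h0'
    have hle := order_powQ_le hm hc h' h0'
    refine ⟨(powQ m H').order.toNat, ?_, (PowerSeries.coe_toNat_order hne).symm⟩
    rw [← PowerSeries.coe_toNat_order hne] at hle
    exact_mod_cast hle
  obtain ⟨n1, hn1, hord1⟩ := key H h h0
  have hP : P (Nat.findGreatest P (sturmB N m k)) :=
    Nat.findGreatest_spec hn1 ⟨H, h, h0, hord1⟩
  obtain ⟨H0, hH0, hH00, hord0⟩ := hP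
  refine ⟨H0, hH0, hH00, fun H' h' h0' => ?_⟩
  obtain ⟨n', hn', hord'⟩ := key H' h' h0'
  rw [hord', hord0]
  have hPn' : P n' := ⟨H', h', h0', hord'⟩
  exact_mod_cast Nat.le_findGreatest hn' hPn'

/-- **Normalisation**: a nonzero element can be scaled so that the leading coefficient of the
`q`-expansion of its `m`-th power is `1`. -/
theorem exists_normalized (hm : m ≠ 0) (hc : ∀ γ, c γ ^ m = 1) (h : ChiCusp N k c H)
    (h0 : H ≠ 0) :
    ∃ a : ℂ, a ≠ 0 ∧ ∃ n0 : ℕ, (powQ m (a • H)).order = (n0 : ℕ∞) ∧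
      (powQ m (a • H)).coeff n0 = 1 := by
  have hne := powQ_ne_zero hm hc h h0
  set n0 := (powQ m H).order.toNat with hn0
  have hl : (powQ m H).coeff n0 ≠ 0 := PowerSeries.coeff_order hne
  obtain ⟨a, ha⟩ := IsAlgClosed.exists_pow_nat_eq ((powQ m H).coeff n0)⁻¹ (Nat.pos_of_ne_zero hm)
  have ha0 : a ≠ 0 := by
    rintro rfl
    rw [zero_pow hm] at ha
    exact (inv_ne_zero hl) ha.symm
  refine ⟨a, ha0, n0, ?_, ?_⟩
  · rw [order_powQ_smul hm hc h ha0, hn0, PowerSeries.coe_toNat_order hne]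
  · rw [powQ_smul hm hc h, PowerSeries.coeff_C_mul, ha, inv_mul_cancel₀ hl]

/-- **Max-order uniqueness** (via the formal lemma F5 of helper4084). -/
theorem eq_smul_of_max (hm : m ≠ 0) (hc : ∀ γ, c γ ^ m = 1) (h1 : ChiCusp N k c H1)
    (h2 : ChiCusp N k c H2) (h20 : H2 ≠ 0)
    (hord : (powQ m H2).order ≤ (powQ m H1).order)
    (hmax : ∀ H, ChiCusp N k c H → H ≠ 0 → (powQ m H).order ≤ (powQ m H2).order) :
    ∃ a : ℂ, H1 = a • H2 := by
  classical
  let p : ℕ → PowerSeries ℂ := fun a => qExpansion 1 (fun z => H1 z ^ a * H2 z ^ (m - a))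
  have hp0' : p 0 = powQ m H2 := by
    show qExpansion 1 (fun z => H1 z ^ 0 * H2 z ^ (m - 0)) = qExpansion 1 (fun z => H2 z ^ m)
    congr 1
    funext z
    rw [pow_zero, one_mul, Nat.sub_zero]
  have hpm' : p m = powQ m H1 := by
    show qExpansion 1 (fun z => H1 z ^ m * H2 z ^ (m - m)) = qExpansion 1 (fun z => H1 z ^ m)
    congr 1
    funext z
    rw [Nat.sub_self, pow_zero, mul_one]
  have hp0 : p 0 ≠ 0 := by
    rw [hp0']
    exact powQ_ne_zero hm hc h2 h20
  have nice : ∀ a, a ≤ m → Nice (fun z => H1 z ^ a * H2 z ^ (m - a)) := fun a ha =>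
    nice_mul_pow hm hc h1 h2 a (m - a) (by omega)
  have hrel : ∀ b, b < m → p 1 * p b = p (b + 1) * p 0 := by
    intro b hb
    show qExpansion 1 (fun z => H1 z ^ 1 * H2 z ^ (m - 1)) *
        qExpansion 1 (fun z => H1 z ^ b * H2 z ^ (m - b)) =
      qExpansion 1 (fun z => H1 z ^ (b + 1) * H2 z ^ (m - (b + 1))) *
        qExpansion 1 (fun z => H1 z ^ 0 * H2 z ^ (m - 0))
    rw [← (nice 1 (by omega)).qExp_mul (nice b hb.le),
      ← (nice (b + 1) (by omega)).qExp_mul (nice 0 (Nat.zero_le m))]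
    congr 1
    funext z
    simp only [Pi.mul_apply]
    have e1 : m - 1 + (m - b) = m - (b + 1) + (m - 0) := by omega
    calc H1 z ^ 1 * H2 z ^ (m - 1) * (H1 z ^ b * H2 z ^ (m - b))
        = H1 z ^ (b + 1) * H2 z ^ (m - 1 + (m - b)) := by rw [pow_add, pow_add]; ring
      _ = H1 z ^ (b + 1) * H2 z ^ (m - (b + 1)) * (H1 z ^ 0 * H2 z ^ (m - 0)) := by
          rw [e1, pow_add]; ring
  have hord' : (p 0).order ≤ (p m).order := by rw [hp0', hpm']; exact hord
  obtain ⟨c0, hc0⟩ := Fermat.Agent.S29.helper4084.exists_const_order_lt m (Nat.pos_of_ne_zero hm)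
    p hp0 hrel hord'
  refine ⟨c0, ?_⟩
  have hD : ChiCusp N k c (H1 - c0 • H2) := h1.sub (h2.smul c0)
  by_contra hne
  have hD0 : H1 - c0 • H2 ≠ 0 := fun h => hne (sub_eq_zero.mp h)
  have hle := hmax _ hD hD0
  have hq : powQ m (H1 - c0 • H2) =
      ∑ a ∈ Finset.range (m + 1),
        (m.choose a : PowerSeries ℂ) * PowerSeries.C (-c0) ^ (m - a) * p a := by
    have hfun : (fun z => (H1 - c0 • H2) z ^ m) =
        ∑ a ∈ Finset.range (m + 1),
          (fun _ : ℍ => ((m.choose a : ℂ) * (-c0) ^ (m - a))) *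
            (fun z => H1 z ^ a * H2 z ^ (m - a)) := by
      funext z
      simp only [Pi.sub_apply, Pi.smul_apply, smul_eq_mul, Finset.sum_apply, Pi.mul_apply]
      exact Fermat.Agent.S29.helper4084.sub_mul_pow_eq_sum (H1 z) (H2 z) c0 m
    have hnice : ∀ a ∈ Finset.range (m + 1),
        Nice ((fun _ : ℍ => ((m.choose a : ℂ) * (-c0) ^ (m - a))) *
          (fun z => H1 z ^ a * H2 z ^ (m - a))) := fun a ha =>
      (Nice.const _).mul (nice a (by have := Finset.mem_range.mp ha; omega))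
    unfold powQ
    rw [hfun, Nice.qExp_sum _ hnice]
    refine Finset.sum_congr rfl fun a ha => ?_
    have hconst : qExpansion 1 (fun _ : ℍ => ((m.choose a : ℂ) * (-c0) ^ (m - a))) =
        (m.choose a : PowerSeries ℂ) * PowerSeries.C (-c0) ^ (m - a) := by
      have e : (fun _ : ℍ => ((m.choose a : ℂ) * (-c0) ^ (m - a))) =
          ((m.choose a : ℂ) * (-c0) ^ (m - a)) • (1 : ℍ → ℂ) := by
        funext z
        simp
      rw [e, UpperHalfPlane.qExpansion_smul Nice.one.analyticAt, UpperHalfPlane.qExpansion_one,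
        PowerSeries.smul_eq_C_mul, mul_one, map_mul, map_pow, map_natCast]
    rw [(Nice.const _).qExp_mul (nice a (by have := Finset.mem_range.mp ha; omega)), hconst]
  rw [hq, ← hp0'] at hle
  exact absurd hle (not_le.mpr hc0)

end Forms


section Orbit

variable {N : ℕ} [NeZero N] {m : ℕ}

/-- Finitely many characters of `Γ₀(N)` of exponent `m`. -/
theorem finite_char (hm : m ≠ 0) :
    Finite {c : ↥(CongruenceSubgroup.Gamma0 N) →* ℂˣ // ∀ γ, c γ ^ m = 1} := by
  haveI : NeZero m := ⟨hm⟩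
  let f : {c : ↥(CongruenceSubgroup.Gamma0 N) →* ℂˣ // ∀ γ, c γ ^ m = 1} →
      (↥(CongruenceSubgroup.Gamma0 N) →* ↥(rootsOfUnity m ℂ)) := fun c =>
    { toFun := fun γ => ⟨c.1 γ, (mem_rootsOfUnity m _).mpr (c.2 γ)⟩
      map_one' := Subtype.ext (map_one c.1)
      map_mul' := fun a b => Subtype.ext (map_mul c.1 a b) }
  apply Finite.of_injective f
  intro c1 c2 h
  apply Subtype.ext
  refine MonoidHom.ext fun γ => ?_
  have := congrArg
    (fun g : ↥(CongruenceSubgroup.Gamma0 N) →* ↥(rootsOfUnity m ℂ) => ((g γ : ℂˣ))) h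
  exact this

/-- **The orbit step of FDESC.**  Assume `(T)`: for every character `c` of exponent `m`, every
nonzero cuspidal weight `k` form `H` with multiplier `c` and every ring automorphism `σ` of `ℂ`,
the `σ`-conjugate of the cusp form `H ^ m` is the `m`-th power of a nonzero cuspidal weight `k`
form with some multiplier `c'` of exponent `m`.  Then every nonzero space of cuspidal weight `k`
forms with multiplier `χ` contains a nonzero `H'` such that all `q`-coefficients of `H' ^ m` are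
algebraic. -/
theorem exists_algebraic_pow (hm : m ≠ 0) (k : ℤ)
    (hT : ∀ (c : ↥(CongruenceSubgroup.Gamma0 N) →* ℂˣ), (∀ γ, c γ ^ m = 1) → ∀ H : ℍ → ℂ,
      ChiCusp N k c H → H ≠ 0 → ∀ σ : ℂ ≃+* ℂ,
      ∃ (c' : ↥(CongruenceSubgroup.Gamma0 N) →* ℂˣ) (R : ℍ → ℂ), (∀ γ, c' γ ^ m = 1) ∧
        ChiCusp N k c' R ∧ R ≠ 0 ∧
        ∀ n, ModularFormClass.qCoeff (fun z => R z ^ m) n =
          σ (ModularFormClass.qCoeff (fun z => H z ^ m) n))
    (χ : ↥(CongruenceSubgroup.Gamma0 N) →* ℂˣ) (hχ : ∀ γ, χ γ ^ m = 1)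
    {H : ℍ → ℂ} (hH : ChiCusp N k χ H) (hH0 : H ≠ 0) :
    ∃ H' : ℍ → ℂ, ChiCusp N k χ H' ∧ H' ≠ 0 ∧
      ∀ n, IsAlgebraic ℚ (ModularFormClass.qCoeff (fun z => H' z ^ m) n) := by
  classical
  -- a maximal, normalised element
  obtain ⟨Hmax, hHmax, hHmax0, hmax⟩ := exists_max hm hχ hH hH0
  obtain ⟨a, ha0, n0, hord0, hlead0⟩ := exists_normalized hm hχ hHmax hHmax0
  have hC0 : ChiCusp N k χ (a • Hmax) := hHmax.smul a
  have hH00 : a • Hmax ≠ 0 := by
    intro h
    apply hHmax0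
    funext z
    have := congrFun h z
    simp only [Pi.smul_apply, smul_eq_mul, Pi.zero_apply, mul_eq_zero] at this
    exact this.resolve_left ha0
  have hmax0 : ∀ H', ChiCusp N k χ H' → H' ≠ 0 →
      (powQ m H').order ≤ (powQ m (a • Hmax)).order := by
    intro H' h' h0'
    rw [order_powQ_smul hm hχ hHmax ha0]
    exact hmax H' h' h0'
  generalize a • Hmax = H0 at hC0 hH00 hmax0 hord0 hlead0
  -- the transported forms
  choose cσ Rσ hcσ hRσ hRσ0 hconj using fun σ : ℂ ≃+* ℂ => hT χ hχ H0 hC0 hH00 σ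
  have hordσ : ∀ σ, (powQ m (Rσ σ)).order = (powQ m H0).order := fun σ =>
    order_conj σ (hconj σ)
  have hz0 : ∃ z, H0 z ≠ 0 := by
    by_contra hcon
    exact hH00 (funext fun z => by
      by_contra hz
      exact hcon ⟨z, hz⟩)
  -- Claim A: `Rσ σ` has maximal order among the forms with multiplier `cσ σ`
  have claimA : ∀ σ, ∀ H', ChiCusp N k (cσ σ) H' → H' ≠ 0 →
      (powQ m H').order ≤ (powQ m (Rσ σ)).order := by
    intro σ H' h' h0'
    obtain ⟨c2, R2, hc2, hR2, hR20, hq2⟩ := hT (cσ σ) (hcσ σ) H' h' h0' σ.symm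
    obtain ⟨c3, R3, hc3, hR3, hR30, hq3⟩ := hT (cσ σ) (hcσ σ) (Rσ σ) (hRσ σ) (hRσ0 σ) σ.symm
    have e23 : c2 = c3 := char_eq_of_conj_fun hm k σ.symm (cσ σ) c2 c3 (hcσ σ) hc2 hc3 h'
      (hRσ σ) hR2 hR3 hR20 hR30 hq2 hq3
    have hq30 : powQ m R3 = powQ m H0 := by
      ext n
      rw [powQ_coeff, powQ_coeff, hq3 n, hconj σ n, RingEquiv.symm_apply_apply]
    have hfun : (fun z => R3 z ^ m) = fun z => H0 z ^ m := by
      have n3 := nice_pow hm hc3 hR3
      have nn0 := nice_pow hm hχ hC0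
      have hz : (fun z => R3 z ^ m) - (fun z => H0 z ^ m) = 0 := by
        apply (n3.sub nn0).eq_zero_of_qExp_eq_zero
        rw [UpperHalfPlane.qExpansion_sub n3.analyticAt nn0.analyticAt]
        exact sub_eq_zero.mpr hq30
      exact sub_eq_zero.mp hz
    obtain ⟨ζ, hζ, hR3ζ⟩ := Fermat.Agent.S29.helper8319.eq_const_mul_of_pow_eq_UHP hm hR3.1
      hC0.1 hz0 (fun z => congrFun hfun z)
    have e3 : c3 = χ := by
      refine MonoidHom.ext fun γ => Units.ext ?_
      obtain ⟨z0, hz0'⟩ := hz0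
      have hζ0 : ζ ≠ 0 := by
        rintro rfl
        rw [zero_pow hm] at hζ
        exact zero_ne_one hζ
      have h1 := congrFun (hR3.2.1 γ) z0
      have h2 := congrFun (hC0.2.1 γ) z0
      rw [ModularForm.SL_slash_apply] at h1 h2
      simp only [Pi.smul_apply, smul_eq_mul] at h1 h2
      rw [hR3ζ, hR3ζ z0] at h1
      have h3 : ζ * ((χ γ : ℂ) * H0 z0) = (c3 γ : ℂ) * (ζ * H0 z0) := by
        rw [← h2, ← mul_assoc]
        exact h1
      have h4 : ((χ γ : ℂ) - (c3 γ : ℂ)) * (ζ * H0 z0) = 0 := by linear_combination h3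
      rcases mul_eq_zero.mp h4 with h5 | h5
      · exact (sub_eq_zero.mp h5).symm
      · exact absurd h5 (mul_ne_zero hζ0 hz0')
    have hR2χ : ChiCusp N k χ R2 := by
      rw [← e3, ← e23]
      exact hR2
    have hle := hmax0 R2 hR2χ hR20
    have ho2 : (powQ m R2).order = (powQ m H').order := order_conj σ.symm hq2
    rw [hordσ σ, ← ho2]
    exact hle
  -- Claim B: the conjugate `q`-expansion only depends on the transported character
  have claimB : ∀ σ τ, cσ σ = cσ τ →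
      ∀ n, σ ((powQ m H0).coeff n) = τ ((powQ m H0).coeff n) := by
    intro σ τ hστ n
    have hRτ' : ChiCusp N k (cσ σ) (Rσ τ) := by
      rw [hστ]
      exact hRσ τ
    have hmaxτ : ∀ H', ChiCusp N k (cσ σ) H' → H' ≠ 0 →
        (powQ m H').order ≤ (powQ m (Rσ τ)).order := by
      intro H' h' h0'
      rw [hστ] at h'
      exact claimA τ H' h' h0'
    obtain ⟨b, hb⟩ := eq_smul_of_max hm (hcσ σ) (hRσ σ) hRτ' (hRσ0 τ)
      (by rw [hordσ σ, hordσ τ]) hmaxτ
    have hpq : powQ m (Rσ σ) = PowerSeries.C (b ^ m) * powQ m (Rσ τ) := by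
      rw [hb]
      exact powQ_smul hm (hcσ σ) hRτ' b
    have hcoef : ∀ n, σ ((powQ m H0).coeff n) = b ^ m * τ ((powQ m H0).coeff n) := by
      intro n
      have := congrArg (PowerSeries.coeff n) hpq
      rw [PowerSeries.coeff_C_mul, powQ_coeff, powQ_coeff, hconj σ n, hconj τ n] at this
      exact this
    have hbm : b ^ m = 1 := by
      have := hcoef n0
      rw [hlead0, map_one, map_one, mul_one] at this
      exact this.symm
    rw [hcoef n, hbm, one_mul]
  -- conclusion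
  refine ⟨H0, hC0, hH00, fun n => ?_⟩
  haveI : Finite {c : ↥(CongruenceSubgroup.Gamma0 N) →* ℂˣ // ∀ γ, c γ ^ m = 1} :=
    finite_char hm
  let f : {c : ↥(CongruenceSubgroup.Gamma0 N) →* ℂˣ // ∀ γ, c γ ^ m = 1} → ℂ := fun c =>
    if h : ∃ σ : ℂ ≃+* ℂ, cσ σ = c.1 then (Classical.choose h) ((powQ m H0).coeff n) else 0
  have hx : ∀ σ : ℂ ≃ₐ[ℚ] ℂ, σ ((powQ m H0).coeff n) ∈ Set.range f := by
    intro σ
    refine ⟨⟨cσ σ.toRingEquiv, hcσ σ.toRingEquiv⟩, ?_⟩
    have hex : ∃ τ : ℂ ≃+* ℂ, cσ τ = cσ σ.toRingEquiv := ⟨σ.toRingEquiv, rfl⟩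
    show (if h : ∃ τ : ℂ ≃+* ℂ, cσ τ = cσ σ.toRingEquiv then
      (Classical.choose h) ((powQ m H0).coeff n) else 0) = σ ((powQ m H0).coeff n)
    rw [dif_pos hex]
    exact claimB (Classical.choose hex) σ.toRingEquiv (Classical.choose_spec hex) n
  exact Fermat.Agent.S29.helper6961.isAlgebraic_of_finite_image (K := ℚ)
    ((powQ m H0).coeff n) (Set.range f) (Set.finite_range f) hx

end Orbit

end Fermat.Agent.S29.helper850
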