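import Mathlib
import Fermat.Agent.S24.helper182_HolMer
import Fermat.Agent.S29.helper850_FormOrbit
import Fermat.Agent.S29.helper3670_FormDescent
import Fermat.Agent.S29.helper4352_RootMultiplier

/-!
# S29-FDESC: the descent `ℂ → ℚ̄` of a twisted cusp form, unconditional (helper850)

Final assembly of the route `FDESC` (findings #2710):

* `sigma_transport` : the `σ`-transport of ONE form.  If `H` is a nonzero cuspidal function of
  weight `k` with multiplier `c` (`c ^ m = 1`) and `σ` is a field automorphism of `ℂ`, there are a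
  character `c'` of exponent `m` and a nonzero cuspidal `R` of weight `k` with multiplier `c'` whose
  `m`-th power has the `σ`-conjugate `q`-coefficients of `H ^ m`.  (Conjugation of the cusp form
  `H ^ m` is the landed S23 theorem; the zero orders of the conjugate are divisible by `m` by
  helper3670's Serre-chain theorem (F1); the root exists by helper8319 (F2) and has a multiplier
  and is cuspidal by helper4352 (F3).)
* `exists_algebraic_pow_uncond` / `exists_algebraic_power` : a space of cuspidal `χ`-forms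
  (`χ ^ m = 1`) that is nonzero contains a nonzero `H` such that `H ^ m` has algebraic
  `q`-coefficients.
-/

set_option autoImplicit false

open UpperHalfPlane Function
open scoped MatrixGroups Manifold ModularForm

namespace Fermat.Agent.S29.helper850

open Fermat.Agent.S23.helper1255 (Nice nice_G0)
open Fermat.Agent.S29

theorem chiCusp_iff_isChiCusp {N : ℕ} {k : ℤ} {c : ↥(CongruenceSubgroup.Gamma0 N) →* ℂˣ}
    {H : ℍ → ℂ} : ChiCusp N k c H ↔ helper3670.IsChiCusp N c k H :=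
  ⟨fun h => ⟨h.1, h.2.1, h.2.2⟩, fun h => ⟨h.mdiff, h.slash, h.zero⟩⟩

/-- **(T), the `σ`-transport of one form.** -/
theorem sigma_transport {N : ℕ} [NeZero N] {m : ℕ} (hm : m ≠ 0) (k : ℤ)
    (c : ↥(CongruenceSubgroup.Gamma0 N) →* ℂˣ) (hc : ∀ γ, c γ ^ m = 1) (H : ℍ → ℂ)
    (hH : ChiCusp N k c H) (hH0 : H ≠ 0) (σ : ℂ ≃+* ℂ) :
    ∃ (c' : ↥(CongruenceSubgroup.Gamma0 N) →* ℂˣ) (R : ℍ → ℂ), (∀ γ, c' γ ^ m = 1) ∧
      ChiCusp N k c' R ∧ R ≠ 0 ∧
      ∀ n, ModularFormClass.qCoeff (fun z => R z ^ m) n =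
        σ (ModularFormClass.qCoeff (fun z => H z ^ m) n) := by
  have hH' : helper3670.IsChiCusp N c k H := chiCusp_iff_isChiCusp.mp hH
  have hG : helper3670.IsCF N ((m : ℤ) * k) (H ^ m) := hH'.pow_isCF hm hc
  obtain ⟨G, hGe⟩ := hG
  have hG0 : G ≠ 0 := by
    rintro rfl
    apply hH0
    funext z
    have := congrFun hGe z
    simp only [CuspForm.coe_zero, Pi.zero_apply, Pi.pow_apply] at this
    exact pow_eq_zero_iff hm |>.mp this.symm
  obtain ⟨Γ, hΓ, hΓq⟩ := helper3670.IsCF.conj (⟨G, hGe⟩ : helper3670.IsCF N ((m : ℤ) * k) (H ^ m)) σ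
  obtain ⟨g, rfl⟩ := hΓ
  have hqG : qExpansion 1 (H ^ m) ≠ 0 := by
    rw [← hGe]
    exact qExpansion_ne_zero_of_ne_zero G hG0
  have hg0 : g ≠ 0 := by
    rintro rfl
    apply hqG
    have h0 : qExpansion 1 ((0 : CuspForm (CongruenceSubgroup.Gamma0 N) ((m : ℤ) * k)) : ℍ → ℂ)
        = 0 := by
      have : ((0 : CuspForm (CongruenceSubgroup.Gamma0 N) ((m : ℤ) * k)) : ℍ → ℂ) = 0 := rfl
      rw [this]
      exact qExpansion_zero 1
    rw [h0] at hΓq
    ext n
    have := congrArg (PowerSeries.coeff n) hΓq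
    rw [PowerSeries.coeff_map, map_zero] at this
    rw [map_zero]
    exact (map_eq_zero_iff (σ : ℂ →+* ℂ) σ.injective).mp this.symm
  have hgfun0 : (g : ℍ → ℂ) ≠ 0 := fun h => hg0 (DFunLike.ext _ _ fun z => congrFun h z)
  have hord : ∀ z : ℍ, ∃ j : ℕ,
      analyticOrderAt ((g : ℍ → ℂ) ∘ ofComplex) (z : ℂ) = ((m * j : ℕ) : ℕ∞) := by
    intro z
    have hfin := Fermat.Agent.S24.helper182.analyticOrderAt_ne_top_of_ne_zero
      (CuspFormClass.holo g) hgfun0 z
    obtain ⟨n, hn⟩ := ENat.ne_top_iff_exists.mp hfin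
    obtain ⟨j, rfl⟩ := helper3670.dvd_order_conj hm hc hH' σ
      (⟨g, rfl⟩ : helper3670.IsCF N ((m : ℤ) * k) g) hΓq z n hn.symm
    exact ⟨j, hn.symm⟩
  obtain ⟨R, hR, hRpow⟩ := helper8319.exists_root_UHP (CuspFormClass.holo g) hm hord
  obtain ⟨c', hc', hR0, hRchi⟩ := helper4352.exists_character_of_cuspForm_root N
    (Nat.pos_of_ne_zero hm) k rfl g hg0 hR hRpow
  refine ⟨c', R, hc', hRchi, hR0, fun n => ?_⟩
  have e1 : (fun z => R z ^ m) = (g : ℍ → ℂ) := funext hRpow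
  have e2 : (fun z => H z ^ m) = H ^ m := rfl
  rw [e1, e2]
  have := congrArg (PowerSeries.coeff n) hΓq
  rw [PowerSeries.coeff_map] at this
  exact this

/-- **FDESC, unconditional.**  A nonzero space of cuspidal `χ`-forms (`χ ^ m = 1`) contains a
nonzero `H'` such that the cusp form `H' ^ m` has algebraic `q`-coefficients. -/
theorem exists_algebraic_pow_uncond {N : ℕ} [NeZero N] {m : ℕ} (hm : m ≠ 0) (k : ℤ)
    (χ : ↥(CongruenceSubgroup.Gamma0 N) →* ℂˣ) (hχ : ∀ γ, χ γ ^ m = 1) {H : ℍ → ℂ}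
    (hH : ChiCusp N k χ H) (hH0 : H ≠ 0) :
    ∃ H' : ℍ → ℂ, ChiCusp N k χ H' ∧ H' ≠ 0 ∧
      ∀ n, IsAlgebraic ℚ (ModularFormClass.qCoeff (fun z => H' z ^ m) n) :=
  exists_algebraic_pow hm k (fun c hc H hH hH0 σ => sigma_transport hm k c hc H hH hH0 σ)
    χ hχ hH hH0

/-- The same statement in the vocabulary of `helper3670_FormDescent` (`IsChiCusp`, `qExpansion`). -/
theorem exists_algebraic_power (N : ℕ) [NeZero N] (m : ℕ) (hm : m ≠ 0) (k : ℤ)
    (χ : ↥(CongruenceSubgroup.Gamma0 N) →* ℂˣ) (hχ : ∀ γ, χ γ ^ m = 1)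
    (hne : ∃ H : ℍ → ℂ, helper3670.IsChiCusp N χ k H ∧ H ≠ 0) :
    ∃ H : ℍ → ℂ, helper3670.IsChiCusp N χ k H ∧ H ≠ 0 ∧
      ∀ n, IsAlgebraic ℚ ((qExpansion 1 (H ^ m)).coeff n) := by
  obtain ⟨H, hH, hH0⟩ := hne
  obtain ⟨H', hH', hH'0, halg⟩ :=
    exists_algebraic_pow_uncond hm k χ hχ (chiCusp_iff_isChiCusp.mpr hH) hH0
  exact ⟨H', chiCusp_iff_isChiCusp.mp hH', hH'0, fun n => halg n⟩

end Fermat.Agent.S29.helper850
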