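import Fermat.Agent.S24.helper167_SymmetricJ

/-!
# S29 / INVROOT (helper8778), part A: Lagrange interpolation over `ℂ[J]`

Mathlib + the landed S24 level-one brick `helper167_SymmetricJ` only.

Let `φ x, ψ x : ℍ → ℂ` (`x` in a finite type `X`) be holomorphic functions of at most exponential
growth which are permuted *simultaneously* by `SL(2, ℤ)`.  Then there is a polynomial
`Q ∈ ℂ[J][Y]` with
`Q(J τ, φ x τ) = ψ x τ * ∏ y ≠ x, (φ x τ - φ y τ)` for all `x`, `τ`:
the coefficients of the Lagrange numerator `∑ x, ψ x · ∏ y ≠ x, (Y - φ y)` are holomorphic,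
`SL(2, ℤ)`-invariant and of exponential growth, hence polynomials in `J`.
-/

set_option autoImplicit false

open UpperHalfPlane ModularForm MatrixGroups EisensteinSeries
open scoped Manifold

namespace Fermat.Agent.S29.helper8778

open Fermat.Agent.S24.helper167

local notation "Δ" => ModularForm.discriminant

/-- The coefficients of `∏ x ∈ s, (Y - φ x τ)` have exponential growth in `τ`. -/
theorem hasExpGrowth_coeff_prod_X_sub_C {X : Type*} (φ : X → ℍ → ℂ)
    (hg : ∀ x, HasExpGrowth (φ x)) (s : Finset X) : ∀ k : ℕ,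
      HasExpGrowth ((fun τ => (∏ x ∈ s, (Polynomial.X - Polynomial.C (φ x τ))).coeff k) :
        ℍ → ℂ) := by
  classical
  induction s using Finset.induction_on with
  | empty =>
    intro k
    simp only [Finset.prod_empty, Polynomial.coeff_one]
    exact hasExpGrowth_const _
  | insert a s ha ih =>
    intro k
    simp only [Finset.prod_insert ha]
    cases k with
    | zero =>
      have h : ∀ τ : ℍ, ((Polynomial.X - Polynomial.C (φ a τ)) *
          ∏ x ∈ s, (Polynomial.X - Polynomial.C (φ x τ))).coeff 0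
          = -(φ a τ * (∏ x ∈ s, (Polynomial.X - Polynomial.C (φ x τ))).coeff 0) := by
        intro τ
        rw [Polynomial.mul_coeff_zero]
        simp
      simp only [h]
      exact ((hg a).mul (ih 0)).neg
    | succ k =>
      have h : ∀ τ : ℍ, ((Polynomial.X - Polynomial.C (φ a τ)) *
          ∏ x ∈ s, (Polynomial.X - Polynomial.C (φ x τ))).coeff (k + 1)
          = (∏ x ∈ s, (Polynomial.X - Polynomial.C (φ x τ))).coeff k
            - φ a τ * (∏ x ∈ s, (Polynomial.X - Polynomial.C (φ x τ))).coeff (k + 1) := by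
        intro τ
        rw [sub_mul, Polynomial.coeff_sub, Polynomial.coeff_X_mul, Polynomial.coeff_C_mul]
      simp only [h]
      exact (ih k).sub ((hg a).mul (ih (k + 1)))

/-- The Lagrange numerator `∑ x, ψ x · ∏ y ≠ x, (Y - φ y)`. -/
noncomputable def lagrangeNum {X : Type*} [Fintype X] [DecidableEq X] (a b : X → ℂ) :
    Polynomial ℂ :=
  ∑ x, Polynomial.C (b x) * ∏ y ∈ Finset.univ.erase x, (Polynomial.X - Polynomial.C (a y))

theorem lagrangeNum_eval {X : Type*} [Fintype X] [DecidableEq X] (a b : X → ℂ) (x : X) :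
    (lagrangeNum a b).eval (a x) = b x * ∏ y ∈ Finset.univ.erase x, (a x - a y) := by
  unfold lagrangeNum
  rw [Polynomial.eval_finsetSum, Finset.sum_eq_single x]
  · simp [Polynomial.eval_prod]
  · intro x' _ hx'
    rw [Polynomial.eval_mul, Polynomial.eval_prod]
    have hmem : x ∈ Finset.univ.erase x' := Finset.mem_erase.mpr ⟨Ne.symm hx', Finset.mem_univ x⟩
    rw [Finset.prod_eq_zero hmem (by simp), mul_zero]
  · intro h
    exact absurd (Finset.mem_univ x) h

theorem lagrangeNum_comp_perm {X : Type*} [Fintype X] [DecidableEq X] (a b : X → ℂ)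
    (s : Equiv.Perm X) : lagrangeNum (fun x => a (s x)) (fun x => b (s x)) = lagrangeNum a b := by
  unfold lagrangeNum
  rw [← Equiv.sum_comp s (fun x => Polynomial.C (b x) *
    ∏ y ∈ Finset.univ.erase x, (Polynomial.X - Polynomial.C (a y)))]
  refine Finset.sum_congr rfl fun x _ => ?_
  congr 1
  exact Finset.prod_equiv s (by simp) (fun i _ => rfl)

theorem lagrangeNum_natDegree_lt {X : Type*} [Fintype X] [DecidableEq X] [Nonempty X]
    (a b : X → ℂ) : (lagrangeNum a b).natDegree < Fintype.card X := by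
  unfold lagrangeNum
  have hpos : 0 < Fintype.card X := Fintype.card_pos
  have h : ∀ x ∈ (Finset.univ : Finset X), (Polynomial.C (b x) *
      ∏ y ∈ Finset.univ.erase x, (Polynomial.X - Polynomial.C (a y))).natDegree
      ≤ Fintype.card X - 1 := by
    intro x _
    refine (Polynomial.natDegree_C_mul_le _ _).trans ?_
    rw [Polynomial.natDegree_finsetProd_X_sub_C_eq_card, Finset.card_erase_of_mem
      (Finset.mem_univ x), Finset.card_univ]
  have := Polynomial.natDegree_sum_le_of_forall_le Finset.univ _ h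
  omega

theorem lagrangeNum_coeff {X : Type*} [Fintype X] [DecidableEq X] (a b : X → ℂ) (k : ℕ) :
    (lagrangeNum a b).coeff k
      = ∑ x, b x * (∏ y ∈ Finset.univ.erase x, (Polynomial.X - Polynomial.C (a y))).coeff k := by
  unfold lagrangeNum
  rw [Polynomial.finsetSum_coeff]
  refine Finset.sum_congr rfl fun x _ => ?_
  rw [Polynomial.coeff_C_mul]

/-- **Lagrange interpolation over `ℂ[J]`.**  If `SL(2, ℤ)` permutes the holomorphic families
`φ`, `ψ` of exponential growth simultaneously, then `ψ x · ∏ y ≠ x, (φ x - φ y)` is a polynomial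
in `J` and `φ x`, with the same polynomial `Q ∈ ℂ[J][Y]` (of `Y`-degree `< card X`) for all
`x`. -/
theorem exists_lagrange_relation {X : Type*} [Fintype X] [DecidableEq X] (φ ψ : X → ℍ → ℂ)
    (holφ : ∀ x, MDiff (φ x)) (holψ : ∀ x, MDiff (ψ x))
    (hperm : ∀ g : SL(2, ℤ), ∃ s : Equiv.Perm X, ∀ (x : X) (τ : ℍ),
      φ x (g • τ) = φ (s x) τ ∧ ψ x (g • τ) = ψ (s x) τ)
    (hgφ : ∀ x, HasExpGrowth (φ x)) (hgψ : ∀ x, HasExpGrowth (ψ x)) :
    ∃ Q : Polynomial (Polynomial ℂ), Q.natDegree < Fintype.card X + 1 ∧ ∀ (x : X) (τ : ℍ),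
      (Q.map (Polynomial.evalRingHom (E₄ τ ^ 3 / Δ τ))).eval (φ x τ)
        = ψ x τ * ∏ y ∈ Finset.univ.erase x, (φ x τ - φ y τ) := by
  classical
  set n := Fintype.card X with hn
  let c : ℕ → ℍ → ℂ := fun k τ => (lagrangeNum (fun x => φ x τ) (fun x => ψ x τ)).coeff k
  have hc_eq : ∀ k τ, c k τ = ∑ x, ψ x τ *
      (∏ y ∈ Finset.univ.erase x, (Polynomial.X - Polynomial.C (φ y τ))).coeff k :=
    fun k τ => lagrangeNum_coeff _ _ k
  have hc_hol : ∀ k, MDiff (c k) := by
    intro k
    have : c k = fun τ => ∑ x, ψ x τ *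
        (∏ y ∈ Finset.univ.erase x, (Polynomial.X - Polynomial.C (φ y τ))).coeff k :=
      funext (hc_eq k)
    rw [this]
    exact mdiff_finset_sum _ _ fun x _ =>
      (holψ x).mul (mdiff_coeff_prod_X_sub_C φ holφ (Finset.univ.erase x) k)
  have hc_gr : ∀ k, HasExpGrowth (c k) := by
    intro k
    have : c k = fun τ => ∑ x, ψ x τ *
        (∏ y ∈ Finset.univ.erase x, (Polynomial.X - Polynomial.C (φ y τ))).coeff k :=
      funext (hc_eq k)
    rw [this]
    exact hasExpGrowth_finset_sum _ _ fun x _ =>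
      (hgψ x).mul (hasExpGrowth_coeff_prod_X_sub_C φ hgφ (Finset.univ.erase x) k)
  have hc_inv : ∀ k (γ : SL(2, ℤ)) (τ : ℍ), c k (γ • τ) = c k τ := by
    intro k γ τ
    obtain ⟨s, hs⟩ := hperm γ
    show (lagrangeNum (fun x => φ x (γ • τ)) (fun x => ψ x (γ • τ))).coeff k = _
    have h1 : (fun x => φ x (γ • τ)) = fun x => φ (s x) τ := funext fun x => (hs x τ).1
    have h2 : (fun x => ψ x (γ • τ)) = fun x => ψ (s x) τ := funext fun x => (hs x τ).2
    rw [h1, h2, lagrangeNum_comp_perm (fun x => φ x τ) (fun x => ψ x τ) s]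
  have hpoly : ∀ k, ∃ P : Polynomial ℂ, ∀ τ : ℍ, c k τ = P.eval (E₄ τ ^ 3 / Δ τ) := by
    intro k
    obtain ⟨m, C, hb⟩ := hc_gr k
    obtain ⟨P, -, hP⟩ := polyInJ_of_invariant (c k) (hc_hol k) (hc_inv k) m
      (isBoundedAtImInfty_disc_pow_mul hb)
    exact ⟨P, hP⟩
  choose p hp using hpoly
  refine ⟨∑ i ∈ Finset.range n, Polynomial.C (p i) * Polynomial.X ^ i, ?_, fun x τ => ?_⟩
  · have : (∑ i ∈ Finset.range n, Polynomial.C (p i) * Polynomial.X ^ i :
        Polynomial (Polynomial ℂ)).natDegree ≤ n := by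
      refine Polynomial.natDegree_sum_le_of_forall_le _ _ fun i hi => ?_
      exact (Polynomial.natDegree_C_mul_X_pow_le _ _).trans (Finset.mem_range.mp hi).le
    omega
  · have : Nonempty X := ⟨x⟩
    have hdeg := lagrangeNum_natDegree_lt (fun x => φ x τ) (fun x => ψ x τ)
    have hmap : (∑ i ∈ Finset.range n, Polynomial.C (p i) * Polynomial.X ^ i :
        Polynomial (Polynomial ℂ)).map (Polynomial.evalRingHom (E₄ τ ^ 3 / Δ τ))
        = lagrangeNum (fun x => φ x τ) (fun x => ψ x τ) := by
      conv_rhs => rw [Polynomial.as_sum_range' _ n hdeg]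
      simp only [Polynomial.map_sum, Polynomial.map_mul, Polynomial.map_C, Polynomial.map_pow,
        Polynomial.map_X, Polynomial.coe_evalRingHom]
      refine Finset.sum_congr rfl fun i _ => ?_
      rw [← hp i τ, ← Polynomial.C_mul_X_pow_eq_monomial]
    rw [hmap]
    exact lagrangeNum_eval (fun x => φ x τ) (fun x => ψ x τ) x

end Fermat.Agent.S29.helper8778
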