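import Fermat.Agent.S24.helper6180_Ev
import Fermat.Agent.S29.helper8778_Lagrange

/-!
# S29 / INVROOT (helper8778): an invariant analytic root lies in the function field

* `exists_lagrange_Gamma0` (I2, LAGRANGE): a holomorphic `Γ₀(N)`-invariant function `H` on `ℍ`
  all of whose `SL(2, ℤ)`-translates have exponential growth satisfies
  `H · B(J, J_N) = A(J, J_N)` with `A, B ∈ ℂ[X][Y]`, `B(J, J_N) ≢ 0`
  (`J_N τ = J(N τ)`).
* `mdiff_mul_eq_zero`, `mdiff_prod_ne_zero` : holomorphic functions on `ℍ` form a domain.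
The descent to `ℚ̄` (I3/I4) is in `helper8778_InvRootDescent`.
-/

set_option autoImplicit false

open UpperHalfPlane ModularForm MatrixGroups CongruenceSubgroup ModularCurve
open scoped Manifold

noncomputable section

namespace Fermat.Agent.S29.helper8778

open Fermat.Agent.S24 Fermat.Agent.S24.helper24 Fermat.Agent.S24.helper167

/-! ## Holomorphic functions on `ℍ` form a domain -/

theorem mdiff_comp_smul' {f : ℍ → ℂ} (hf : MDiff f) (g : SL(2, ℤ)) :
    MDiff (fun τ : ℍ => f (g • τ)) := by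
  have h := MDifferentiable.slash hf 0 (g : GL (Fin 2) ℝ)
  have h2 : (f ∣[(0 : ℤ)] (g : GL (Fin 2) ℝ)) = fun τ : ℍ => f (g • τ) := by
    funext τ
    rw [← SL_slash, SL_slash_apply]
    simp
  rwa [h2] at h

theorem mdiff_mul_eq_zero {f g : ℍ → ℂ} (hf : MDiff f) (hg : MDiff g)
    (h : ∀ τ : ℍ, f τ * g τ = 0) : (∀ τ : ℍ, f τ = 0) ∨ (∀ τ : ℍ, g τ = 0) := by
  have hU : IsPreconnected {z : ℂ | 0 < z.im} := (convex_halfSpace_im_gt 0).isPreconnected
  have hfa : AnalyticOnNhd ℂ (f ∘ ofComplex) {z : ℂ | 0 < z.im} :=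
    (UpperHalfPlane.mdifferentiable_iff.mp hf).analyticOnNhd isOpen_upperHalfPlaneSet
  have hga : AnalyticOnNhd ℂ (g ∘ ofComplex) {z : ℂ | 0 < z.im} :=
    (UpperHalfPlane.mdifferentiable_iff.mp hg).analyticOnNhd isOpen_upperHalfPlaneSet
  rcases hfa.eq_zero_or_eq_zero_of_mul_eq_zero hga (fun z _ => h (ofComplex z)) hU with h1 | h1
  · left
    intro τ
    have := h1 τ τ.im_pos
    simpa using this
  · right
    intro τ
    have := h1 τ τ.im_pos
    simpa using this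

theorem mdiff_finset_prod {ι : Type*} (s : Finset ι) (F : ι → ℍ → ℂ)
    (h : ∀ i ∈ s, MDiff (F i)) : MDiff (fun τ : ℍ => ∏ i ∈ s, F i τ) := by
  classical
  induction s using Finset.induction_on with
  | empty => simpa using (mdifferentiable_const : MDiff (fun _ : ℍ => (1 : ℂ)))
  | insert a s ha ih =>
    simp only [Finset.prod_insert ha]
    exact (h a (Finset.mem_insert_self a s)).mul
      (ih fun i hi => h i (Finset.mem_insert_of_mem hi))

theorem mdiff_prod_ne_zero {ι : Type*} (s : Finset ι) (F : ι → ℍ → ℂ)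
    (hF : ∀ i ∈ s, MDiff (F i)) (hne : ∀ i ∈ s, ∃ τ : ℍ, F i τ ≠ 0) :
    ∃ τ : ℍ, ∏ i ∈ s, F i τ ≠ 0 := by
  classical
  induction s using Finset.induction_on with
  | empty => exact ⟨UpperHalfPlane.I, by simp⟩
  | insert a s ha ih =>
    by_contra hcon
    push Not at hcon
    simp only [Finset.prod_insert ha] at hcon
    rcases mdiff_mul_eq_zero (hF a (Finset.mem_insert_self a s))
      (mdiff_finset_prod s F fun i hi => hF i (Finset.mem_insert_of_mem hi)) hcon with h1 | h1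
    · obtain ⟨τ, hτ⟩ := hne a (Finset.mem_insert_self a s)
      exact hτ (h1 τ)
    · obtain ⟨τ, hτ⟩ := ih (fun i hi => hF i (Finset.mem_insert_of_mem hi))
        (fun i hi => hne i (Finset.mem_insert_of_mem hi))
      exact hτ (h1 τ)

/-! ## Conjugates along `SL(2, ℤ) ⧸ Γ₀(N)` -/

variable (N : ℕ) [NeZero N]

omit [NeZero N] in
theorem conj_smul (F : ℍ → ℂ) (hF : ∀ γ ∈ Gamma0 N, ∀ τ : ℍ, F (γ • τ) = F τ)
    (g : SL(2, ℤ)) (x : XN N) (τ : ℍ) :
    F ((Quotient.out x)⁻¹ • g • τ) = F ((Quotient.out (g⁻¹ • x))⁻¹ • τ) := by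
  obtain ⟨h, hh, hout⟩ : ∃ h ∈ Gamma0 N,
      Quotient.out (g⁻¹ • x) = g⁻¹ * Quotient.out x * h := by
    have hx : g⁻¹ • x = ((g⁻¹ * Quotient.out x : SL(2, ℤ)) : XN N) := by
      conv_lhs => rw [← QuotientGroup.out_eq' x]
      rfl
    rw [hx]
    obtain ⟨h, hh⟩ := QuotientGroup.mk_out_eq_mul (Gamma0 N) (g⁻¹ * Quotient.out x)
    exact ⟨h, h.2, hh⟩
  rw [hout, mul_inv_rev, mul_inv_rev, inv_inv, mul_smul, mul_smul, hF h⁻¹ (inv_mem hh)]

omit [NeZero N] in
theorem conj_one (F : ℍ → ℂ) (hF : ∀ γ ∈ Gamma0 N, ∀ τ : ℍ, F (γ • τ) = F τ) (τ : ℍ) :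
    F ((Quotient.out ((1 : SL(2, ℤ)) : XN N))⁻¹ • τ) = F τ := by
  obtain ⟨h, hh⟩ := QuotientGroup.mk_out_eq_mul (Gamma0 N) (1 : SL(2, ℤ))
  rw [hh, one_mul]
  exact hF _ (inv_mem h.2) τ

/-- **(I2) LAGRANGE.**  A holomorphic `Γ₀(N)`-invariant function on `ℍ` all of whose
`SL(2, ℤ)`-translates have exponential growth is a quotient of two polynomials in
`J` and `J_N = J(N ·)`. -/
theorem exists_lagrange_Gamma0 (H : ℍ → ℂ) (hH : MDiff H)
    (hinv : ∀ γ ∈ Gamma0 N, ∀ τ : ℍ, H (γ • τ) = H τ)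
    (hgr : ∀ g : SL(2, ℤ), HasExpGrowth (fun τ : ℍ => H (g • τ))) :
    ∃ A B : Polynomial (Polynomial ℂ),
      (∃ τ : ℍ, (B.map (Polynomial.evalRingHom (helper288.jFn τ))).eval (helper6180.Jd N τ)
        ≠ 0) ∧
      ∀ τ : ℍ, H τ * (B.map (Polynomial.evalRingHom (helper288.jFn τ))).eval (helper6180.Jd N τ)
        = (A.map (Polynomial.evalRingHom (helper288.jFn τ))).eval (helper6180.Jd N τ) := by
  classical
  let _ : Fintype (XN N) := Fintype.ofFinite _
  have hJinv : ∀ γ ∈ Gamma0 N, ∀ τ : ℍ, helper6180.Jd N (γ • τ) = helper6180.Jd N τ :=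
    fun γ hγ τ => helper288.jFn_mul_smul_of_mem_Gamma0 N N (NeZero.pos N) dvd_rfl γ hγ τ
  let φ : XN N → ℍ → ℂ := fun x τ => helper6180.Jd N ((Quotient.out x)⁻¹ • τ)
  let Hc : XN N → ℍ → ℂ := fun x τ => H ((Quotient.out x)⁻¹ • τ)
  let D : XN N → ℍ → ℂ := fun x τ => ∏ y ∈ Finset.univ.erase x, (φ x τ - φ y τ)
  have hφhol : ∀ x, MDiff (φ x) := fun x =>
    helper288.mdiff_jFn_mul_smul _ N (NeZero.pos N)
  have hφgr : ∀ x, HasExpGrowth (φ x) := fun x =>
    helper288.hasExpGrowth_jFn_mul_smul _ N (NeZero.pos N)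
  have hHchol : ∀ x, MDiff (Hc x) := fun x => mdiff_comp_smul' hH _
  have hHcgr : ∀ x, HasExpGrowth (Hc x) := fun x => hgr _
  have hDhol : ∀ x, MDiff (D x) := fun x =>
    mdiff_finset_prod _ _ fun y _ => (hφhol x).sub (hφhol y)
  have hDgr : ∀ x, HasExpGrowth (D x) := fun x =>
    hasExpGrowth_finset_prod _ _ fun y _ => (hφgr x).sub (hφgr y)
  have hφperm : ∀ (g : SL(2, ℤ)) (x : XN N) (τ : ℍ),
      φ x (g • τ) = φ (MulAction.toPerm g⁻¹ x) τ :=
    fun g x τ => conj_smul N _ hJinv g x τ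
  have hHcperm : ∀ (g : SL(2, ℤ)) (x : XN N) (τ : ℍ),
      Hc x (g • τ) = Hc (MulAction.toPerm g⁻¹ x) τ :=
    fun g x τ => conj_smul N _ hinv g x τ
  have hDperm : ∀ (g : SL(2, ℤ)) (x : XN N) (τ : ℍ),
      D x (g • τ) = D (MulAction.toPerm g⁻¹ x) τ := by
    intro g x τ
    show ∏ y ∈ Finset.univ.erase x, (φ x (g • τ) - φ y (g • τ))
      = ∏ y ∈ Finset.univ.erase (MulAction.toPerm g⁻¹ x), (φ (MulAction.toPerm g⁻¹ x) τ - φ y τ)
    simp only [hφperm]
    exact Finset.prod_equiv (MulAction.toPerm g⁻¹) (by simp) (fun i _ => rfl)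
  obtain ⟨A, -, hA⟩ := exists_lagrange_relation φ (fun x τ => Hc x τ * D x τ) hφhol
    (fun x => (hHchol x).mul (hDhol x))
    (fun g => ⟨MulAction.toPerm g⁻¹, fun x τ => ⟨hφperm g x τ, by rw [hHcperm, hDperm]⟩⟩)
    hφgr (fun x => (hHcgr x).mul (hDgr x))
  obtain ⟨B, -, hB⟩ := exists_lagrange_relation φ D hφhol hDhol
    (fun g => ⟨MulAction.toPerm g⁻¹, fun x τ => ⟨hφperm g x τ, hDperm g x τ⟩⟩) hφgr hDgr
  set x0 : XN N := ((1 : SL(2, ℤ)) : XN N) with hx0
  have hφ0 : ∀ τ, φ x0 τ = helper6180.Jd N τ := fun τ => conj_one N _ hJinv τ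
  have hHc0 : ∀ τ, Hc x0 τ = H τ := fun τ => conj_one N _ hinv τ
  have hBval : ∀ τ : ℍ, (B.map (Polynomial.evalRingHom (helper288.jFn τ))).eval
      (helper6180.Jd N τ) = D x0 τ * D x0 τ := by
    intro τ
    rw [← hφ0 τ]
    exact hB x0 τ
  have hAval : ∀ τ : ℍ, (A.map (Polynomial.evalRingHom (helper288.jFn τ))).eval
      (helper6180.Jd N τ) = H τ * D x0 τ * D x0 τ := by
    intro τ
    rw [← hφ0 τ, ← hHc0 τ]
    exact hA x0 τ
  refine ⟨A, B, ?_, fun τ => ?_⟩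
  · obtain ⟨τ, hτ⟩ : ∃ τ, D x0 τ ≠ 0 := by
      apply mdiff_prod_ne_zero
      · intro y _
        exact (hφhol x0).sub (hφhol y)
      · intro y hy
        by_contra hcon
        push Not at hcon
        have hyne : y ≠ x0 := (Finset.mem_erase.mp hy).1
        apply hyne
        have hmem := helper288.mul_inv_mem_Gamma0_of_jFn_eq N (Quotient.out x0)⁻¹
          (Quotient.out y)⁻¹ (fun τ => sub_eq_zero.mp (hcon τ))
        rw [inv_inv] at hmem
        rw [← QuotientGroup.out_eq' y, ← QuotientGroup.out_eq' x0]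
        exact (QuotientGroup.eq.mpr hmem).symm
    exact ⟨τ, by rw [hBval]; exact mul_ne_zero hτ hτ⟩
  · rw [hBval, hAval]
    ring

end Fermat.Agent.S29.helper8778
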