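import Fermat.Agent.S29.helper6752_Endgame
import Fermat.Agent.S29.helper9550_DimTwoGen

/-!
# S29: discharge of `helper6752.Stmt_Dim2` (the DIM2 input of the landed endgame)

`stmt_Dim2 : Fermat.Agent.S29.helper6752.Stmt_Dim2`, from `exists_end_rep_gen`.
-/

set_option autoImplicit false

namespace Fermat.Agent.S29.helper9550

open Polynomial

/-- The dimension-two input of the endgame `helper6752.result_of`. -/
theorem stmt_Dim2 : Fermat.Agent.S29.helper6752.Stmt_Dim2 := by
  intro K _ _ G _ V _ _ _ _ ρ ε hgen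
  obtain ⟨ρ', h1, h2⟩ := exists_end_rep_gen (F := K) (M := V) ρ ε (fun g => by
    obtain ⟨h, n, c, e1, e2, e3⟩ := hgen g
    exact ⟨h, n, c, e1.symm, e2.symm, e3⟩)
  exact ⟨Fin 2 → K, inferInstance, inferInstance, inferInstance, ρ', finrank_fin_two_fun,
    h2, fun g c hc => h1 g c hc⟩

end Fermat.Agent.S29.helper9550
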