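import Mathlib

/-!
# S29, leaf M10b: the dimension-two lemma (all characteristics)

`F` algebraically closed, `G` a group, `ε : G →* Fˣ` a character, `ρM` a representation of `G`
on a nonzero finite-dimensional `F`-space `M` such that every `ρM g` satisfies SOME quadratic
relation `X² - t X + ε(g) = 0`.  Then there is a two-dimensional (matrix) representation `ρ`
with `charpoly (ρ g) = X² - t X + ε(g)` for EVERY `t` for which `ρM g` satisfies the relation,
and `ρ g = 1` whenever `ρM g = 1` and `ε g = 1`.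

No Burnside / Wedderburn: the bound `dim ≤ 2` for an irreducible constituent is proved by a direct
rank-one argument that also works in characteristic `2`.
-/

set_option autoImplicit false

namespace Fermat.Agent.S29.helper9550

open Polynomial

variable {F : Type*} [Field F] {G : Type*} [Group G]

section Rel

variable {W : Type*} [AddCommGroup W] [Module F W]

/-- The quadratic relation `X² - t X + e = 0` for an endomorphism. -/
def QuadRel (X : Module.End F W) (t e : F) : Prop :=
  X * X - t • X + e • (1 : Module.End F W) = 0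

theorem QuadRel.smul_inv (ρ : G →* Module.End F W) (g : G) {t e : F}
    (h : QuadRel (ρ g) t e) : e • ρ g⁻¹ = t • (1 : Module.End F W) - ρ g := by
  have h1 : ρ g⁻¹ * ρ g = 1 := by rw [← map_mul, inv_mul_cancel, map_one]
  have h2 : e • (1 : Module.End F W) = ρ g * (t • (1 : Module.End F W) - ρ g) := by
    unfold QuadRel at h
    rw [mul_sub, mul_smul_comm, mul_one]
    linear_combination (norm := module) h
  calc e • ρ g⁻¹ = ρ g⁻¹ * (e • (1 : Module.End F W)) := by rw [mul_smul_comm, mul_one]
    _ = ρ g⁻¹ * (ρ g * (t • (1 : Module.End F W) - ρ g)) := by rw [h2]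
    _ = t • (1 : Module.End F W) - ρ g := by rw [← mul_assoc, h1, one_mul]

theorem anticomm (ρ : G →* Module.End F W) (ε : G →* Fˣ) (g h : G) {tg th tgh : F}
    (hg : QuadRel (ρ g) tg (ε g)) (hh : QuadRel (ρ h) th (ε h))
    (hgh : QuadRel (ρ (g * h)) tgh (ε (g * h))) :
    ρ g * ρ h + ρ h * ρ g
      = tg • ρ h + th • ρ g + (tgh - tg * th) • (1 : Module.End F W) := by
  have e1 := QuadRel.smul_inv ρ g hg
  have e2 := QuadRel.smul_inv ρ h hh
  have e3 := QuadRel.smul_inv ρ (g * h) hgh
  have e4 : ((ε (g * h) : Fˣ) : F) • ρ (g * h)⁻¹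
      = (((ε h : Fˣ) : F) • ρ h⁻¹) * (((ε g : Fˣ) : F) • ρ g⁻¹) := by
    rw [mul_inv_rev, map_mul, map_mul, smul_mul_smul_comm, Units.val_mul, mul_comm]
  rw [e1, e2, e3, map_mul] at e4
  have e5 : (th • (1 : Module.End F W) - ρ h) * (tg • (1 : Module.End F W) - ρ g)
      = (th * tg) • (1 : Module.End F W) - th • ρ g - tg • ρ h + ρ h * ρ g := by
    simp only [sub_mul, mul_sub, smul_mul_assoc, mul_smul_comm, one_mul, mul_one]
    module
  rw [e5] at e4
  linear_combination (norm := module) (-1 : F) • e4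

/-- The span of the image of a representation is stable under left multiplication. -/
theorem mul_mem_span (ρ : G →* Module.End F W) (g : G) {Y : Module.End F W}
    (hY : Y ∈ Submodule.span F (Set.range ρ)) : ρ g * Y ∈ Submodule.span F (Set.range ρ) := by
  induction hY using Submodule.span_induction with
  | mem Y hY =>
    obtain ⟨h, rfl⟩ := hY
    exact Submodule.subset_span ⟨g * h, map_mul ρ g h⟩
  | zero => rw [mul_zero]; exact zero_mem _
  | add Y Z _ _ hY hZ => rw [mul_add]; exact add_mem hY hZ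
  | smul a Y _ hY => rw [mul_smul_comm]; exact Submodule.smul_mem _ a hY

theorem anticomm_span (ρ : G →* Module.End F W) (ε : G →* Fˣ)
    (hrel : ∀ g, ∃ t, QuadRel (ρ g) t (ε g)) (g : G) {tg : F} (hg : QuadRel (ρ g) tg (ε g))
    (Y : Module.End F W) (hY : Y ∈ Submodule.span F (Set.range ρ)) :
    ∃ b c : F, ρ g * Y + Y * ρ g = tg • Y + b • ρ g + c • (1 : Module.End F W) := by
  induction hY using Submodule.span_induction with
  | mem Y hY =>
    obtain ⟨h, rfl⟩ := hY
    obtain ⟨th, hh⟩ := hrel h
    obtain ⟨tgh, hgh⟩ := hrel (g * h)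
    exact ⟨th, tgh - tg * th, anticomm ρ ε g h hg hh hgh⟩
  | zero => exact ⟨0, 0, by simp⟩
  | add Y Z _ _ hY hZ =>
    obtain ⟨b, c, h1⟩ := hY
    obtain ⟨b', c', h2⟩ := hZ
    refine ⟨b + b', c + c', ?_⟩
    rw [mul_add, add_mul]
    linear_combination (norm := module) h1 + h2
  | smul a Y _ hY =>
    obtain ⟨b, c, h1⟩ := hY
    refine ⟨a * b, a * c, ?_⟩
    rw [mul_smul_comm, smul_mul_assoc]
    linear_combination (norm := module) a • h1

/-- Key computation: if `X Y + Y X ∈ τ Y + F X + F` for all `Y` in a family `𝒜` that moves an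
eigenvector `w` of `X` to every vector, then `X - (τ - λ)` has image in the line `F w`. -/
theorem key (𝒜 : Submodule F (Module.End F W)) (X : Module.End F W) (τ : F)
    (hX : ∀ Y ∈ 𝒜, ∃ b c : F, X * Y + Y * X = τ • Y + b • X + c • (1 : Module.End F W))
    (w : W) (lam : F) (hw : X w = lam • w) (hgen : ∀ v : W, ∃ Y ∈ 𝒜, Y w = v) (v : W) :
    ∃ a : F, X v = (τ - lam) • v + a • w := by
  obtain ⟨Y, hY, rfl⟩ := hgen v
  obtain ⟨b, c, h⟩ := hX Y hY
  have h' := congrArg (fun Z : Module.End F W => Z w) h
  simp only [LinearMap.add_apply, Module.End.mul_apply, LinearMap.smul_apply, hw, map_smul,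
    Module.End.one_apply] at h'
  refine ⟨b * lam + c, ?_⟩
  linear_combination (norm := module) h'

/-- Irreducibility of a representation, in elementary terms. -/
def IsIrred (ρ : G →* Module.End F W) : Prop :=
  ∀ U : Submodule F W, (∀ g, ∀ x ∈ U, ρ g x ∈ U) → U = ⊥ ∨ U = ⊤

theorem gen_of_irred (ρ : G →* Module.End F W) (hirr : IsIrred ρ) (w : W) (hw : w ≠ 0) (v : W) :
    ∃ Y ∈ Submodule.span F (Set.range ρ), Y w = v := by
  let ev : Module.End F W →ₗ[F] W := LinearMap.applyₗ w
  let U : Submodule F W := (Submodule.span F (Set.range ρ)).map ev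
  have hU : ∀ g, ∀ x ∈ U, ρ g x ∈ U := by
    intro g x hx
    obtain ⟨Y, hY, rfl⟩ := hx
    exact ⟨ρ g * Y, mul_mem_span ρ g hY, rfl⟩
  have hwU : w ∈ U := ⟨ρ 1, Submodule.subset_span ⟨1, rfl⟩, by simp [ev]⟩
  rcases hirr U hU with h | h
  · rw [h, Submodule.mem_bot] at hwU
    exact absurd hwU hw
  · have hv : v ∈ U := by rw [h]; exact Submodule.mem_top
    obtain ⟨Y, hY, hYv⟩ := hv
    exact ⟨Y, hY, hYv⟩

theorem finrank_le_one_of_scalar [FiniteDimensional F W] (ρ : G →* Module.End F W)
    (hirr : IsIrred ρ) (hsc : ∀ g, ∃ a : F, ρ g = a • (1 : Module.End F W)) :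
    Module.finrank F W ≤ 1 := by
  by_cases hW : ∀ w : W, w = 0
  · have : Subsingleton W := ⟨fun a b => by rw [hW a, hW b]⟩
    rw [Module.finrank_zero_of_subsingleton]
    exact Nat.zero_le _
  · push Not at hW
    obtain ⟨w, hw⟩ := hW
    have hU : ∀ g, ∀ x ∈ Submodule.span F {w}, ρ g x ∈ Submodule.span F {w} := by
      intro g x hx
      obtain ⟨a, ha⟩ := hsc g
      rw [ha]
      simpa using Submodule.smul_mem _ a hx
    rcases hirr _ hU with h | h
    · exact absurd (Submodule.span_singleton_eq_bot.mp h) hw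
    · have h1 := finrank_span_singleton (K := F) hw
      rw [h, finrank_top] at h1
      exact h1.le

theorem finrank_le_two [IsAlgClosed F] [FiniteDimensional F W] (ρ : G →* Module.End F W)
    (ε : G →* Fˣ) (hrel : ∀ g, ∃ t, QuadRel (ρ g) t (ε g)) (hirr : IsIrred ρ) :
    Module.finrank F W ≤ 2 := by
  by_contra hcon
  push Not at hcon
  by_cases hsc : ∀ g, ∃ a : F, ρ g = a • (1 : Module.End F W)
  · have := finrank_le_one_of_scalar ρ hirr hsc
    omega
  push Not at hsc
  obtain ⟨g, hg⟩ := hsc
  obtain ⟨tg, htg⟩ := hrel g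
  have hnt : Nontrivial W := Module.nontrivial_of_finrank_pos (R := F) (by omega)
  obtain ⟨lam, hlam⟩ := Module.End.exists_eigenvalue (ρ g)
  obtain ⟨w, hw⟩ := hlam.exists_hasEigenvector
  have hw0 : w ≠ 0 := hw.2
  have hXw : ρ g w = lam • w := hw.apply_eq_smul
  have hgen := gen_of_irred ρ hirr
  have h1 := key (Submodule.span F (Set.range ρ)) (ρ g) tg
    (fun Y hY => anticomm_span ρ ε hrel g htg Y hY) w lam hXw (hgen w hw0)
  obtain ⟨N, hNdef⟩ : ∃ N : Module.End F W, N = ρ g - (tg - lam) • (1 : Module.End F W) :=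
    ⟨_, rfl⟩
  have hN : ∀ v, ∃ a : F, N v = a • w := by
    intro v
    obtain ⟨a, ha⟩ := h1 v
    exact ⟨a, by rw [hNdef, LinearMap.sub_apply, ha]; simp⟩
  have hN0 : N ≠ 0 := by
    intro h0
    rw [hNdef] at h0
    exact hg (tg - lam) (sub_eq_zero.mp h0)
  have hNrel : ∀ Y ∈ Submodule.span F (Set.range ρ), ∃ b c : F,
      N * Y + Y * N = (tg - 2 * (tg - lam)) • Y + b • N + c • (1 : Module.End F W) := by
    intro Y hY
    obtain ⟨b, c, h⟩ := anticomm_span ρ ε hrel g htg Y hY
    refine ⟨b, b * (tg - lam) + c, ?_⟩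
    rw [hNdef]
    simp only [sub_mul, mul_sub, smul_mul_assoc, mul_smul_comm, one_mul, mul_one]
    linear_combination (norm := module) h
  have hrange : LinearMap.range N ≤ Submodule.span F {w} := by
    rintro _ ⟨v, rfl⟩
    obtain ⟨a, ha⟩ := hN v
    rw [ha]
    exact Submodule.smul_mem _ _ (Submodule.mem_span_singleton_self w)
  obtain ⟨v0, hv0⟩ : ∃ v0, N v0 ≠ 0 := by
    by_contra hh
    push Not at hh
    exact hN0 (LinearMap.ext hh)
  have hker : 2 ≤ Module.finrank F (LinearMap.ker N) := by
    have h2 := LinearMap.finrank_range_add_finrank_ker N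
    have h3 : Module.finrank F (LinearMap.range N) ≤ 1 :=
      calc Module.finrank F (LinearMap.range N)
          ≤ Module.finrank F (Submodule.span F {w}) := Submodule.finrank_mono hrange
        _ = 1 := finrank_span_singleton hw0
    omega
  have hkerle : LinearMap.ker N ≤ Submodule.span F {N v0} := by
    intro w' hw'
    by_cases hw'0 : w' = 0
    · rw [hw'0]; exact zero_mem _
    have hNw' : N w' = (0 : F) • w' := by rw [zero_smul]; exact hw'
    have h2 := key (Submodule.span F (Set.range ρ)) N (tg - 2 * (tg - lam)) hNrel w' 0 hNw'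
      (hgen w' hw'0)
    by_cases hτ : tg - 2 * (tg - lam) = 0
    · obtain ⟨a, ha⟩ := h2 v0
      rw [hτ, sub_zero, zero_smul, zero_add] at ha
      have ha0 : a ≠ 0 := by
        rintro rfl
        exact hv0 (by rw [ha, zero_smul])
      rw [Submodule.mem_span_singleton]
      exact ⟨a⁻¹, by rw [ha, smul_smul, inv_mul_cancel₀ ha0, one_smul]⟩
    · exfalso
      have htop : (⊤ : Submodule F W) ≤ Submodule.span F {w, w'} := by
        intro v _
        obtain ⟨a, ha⟩ := h2 v
        obtain ⟨a', ha'⟩ := hN v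
        have hv : v = (tg - 2 * (tg - lam))⁻¹ • (a' • w - a • w') := by
          rw [← ha', ha, sub_zero, add_sub_cancel_right, smul_smul, inv_mul_cancel₀ hτ, one_smul]
        rw [hv]
        exact Submodule.smul_mem _ _ (Submodule.sub_mem _
          (Submodule.smul_mem _ _ (Submodule.subset_span (by simp)))
          (Submodule.smul_mem _ _ (Submodule.subset_span (by simp))))
      have h3 := Submodule.finrank_mono htop
      rw [finrank_top] at h3
      have h4 : Module.finrank F (Submodule.span F {w, w'}) ≤ 2 := by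
        classical
        have h5 := finrank_span_finset_le_card (R := F) ({w, w'} : Finset W)
        have h6 : (({w, w'} : Finset W) : Set W) = {w, w'} := by simp
        rw [Set.finrank, h6] at h5
        exact h5.trans Finset.card_le_two
      omega
  have h7 := Submodule.finrank_mono hkerle
  have h8 : Module.finrank F (Submodule.span F {N v0}) = 1 := finrank_span_singleton hv0
  omega

end Rel

section Sub

variable {M : Type*} [AddCommGroup M] [Module F M]

/-- A minimal nonzero invariant subspace exists. -/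
theorem exists_minimal_invariant [FiniteDimensional F M] [Nontrivial M]
    (ρM : G →* Module.End F M) :
    ∃ W : Submodule F M, W ≠ ⊥ ∧ (∀ g, ∀ x ∈ W, ρM g x ∈ W) ∧
      ∀ U : Submodule F M, U ≤ W → (∀ g, ∀ x ∈ U, ρM g x ∈ U) → U = ⊥ ∨ U = W := by
  classical
  have hex : ∃ n : ℕ, ∃ W : Submodule F M, W ≠ ⊥ ∧ (∀ g, ∀ x ∈ W, ρM g x ∈ W) ∧
      Module.finrank F W = n :=
    ⟨_, ⊤, top_ne_bot, fun _ _ _ => Submodule.mem_top, rfl⟩
  obtain ⟨W, hW0, hWinv, hWn⟩ := Nat.find_spec hex
  refine ⟨W, hW0, hWinv, fun U hUW hUinv => ?_⟩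
  by_cases hU0 : U = ⊥
  · exact Or.inl hU0
  · right
    have hmin : Nat.find hex ≤ Module.finrank F U := Nat.find_min' hex ⟨U, hU0, hUinv, rfl⟩
    exact Submodule.eq_of_le_of_finrank_le hUW (hWn ▸ hmin)

/-- Restriction of a representation to an invariant subspace. -/
def restrictRep (ρM : G →* Module.End F M) (W : Submodule F M)
    (hW : ∀ g, ∀ x ∈ W, ρM g x ∈ W) : G →* Module.End F W where
  toFun g := (ρM g).restrict (hW g)
  map_one' := by
    ext x
    simp
  map_mul' g h := by
    ext x
    simp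

@[simp] theorem restrictRep_apply_coe (ρM : G →* Module.End F M) (W : Submodule F M)
    (hW : ∀ g, ∀ x ∈ W, ρM g x ∈ W) (g : G) (x : W) :
    ((restrictRep ρM W hW g x : W) : M) = ρM g x := rfl

theorem restrictRep_quadRel (ρM : G →* Module.End F M) (W : Submodule F M)
    (hW : ∀ g, ∀ x ∈ W, ρM g x ∈ W) (g : G) {t e : F} (h : QuadRel (ρM g) t e) :
    QuadRel (restrictRep ρM W hW g) t e := by
  unfold QuadRel at h ⊢
  ext x
  have h' := congrArg (fun Z : Module.End F M => Z (x : M)) h
  simpa using h'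

theorem restrictRep_isIrred (ρM : G →* Module.End F M) (W : Submodule F M)
    (hW : ∀ g, ∀ x ∈ W, ρM g x ∈ W)
    (hmin : ∀ U : Submodule F M, U ≤ W → (∀ g, ∀ x ∈ U, ρM g x ∈ U) → U = ⊥ ∨ U = W) :
    IsIrred (restrictRep ρM W hW) := by
  intro U' hU'
  have h1 : U'.map W.subtype ≤ W := Submodule.map_subtype_le W U'
  have h2 : ∀ g, ∀ x ∈ U'.map W.subtype, ρM g x ∈ U'.map W.subtype := by
    rintro g _ ⟨x, hx, rfl⟩
    exact ⟨restrictRep ρM W hW g x, hU' g x hx, rfl⟩
  rcases hmin _ h1 h2 with h | h
  · left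
    apply Submodule.map_injective_of_injective W.injective_subtype
    rw [h, Submodule.map_bot]
  · right
    apply Submodule.map_injective_of_injective W.injective_subtype
    rw [h, Submodule.map_subtype_top]

end Sub

section Matrix

/-- Matrix form of the quadratic relation. -/
theorem matrix_rel_of_quadRel {W : Type*} [AddCommGroup W] [Module F W] {n : Type*} [Fintype n]
    [DecidableEq n] (b : Module.Basis n F W) (X : Module.End F W) {t e : F}
    (h : QuadRel X t e) :
    LinearMap.toMatrixAlgEquiv b X * LinearMap.toMatrixAlgEquiv b X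
      - t • LinearMap.toMatrixAlgEquiv b X + e • (1 : Matrix n n F) = 0 := by
  unfold QuadRel at h
  have h' := congrArg (LinearMap.toMatrixAlgEquiv b) h
  simpa only [map_add, map_sub, map_mul, map_smul, map_one, map_zero] using h'

/-- Cayley–Hamilton for `2 × 2` matrices, by hand. -/
theorem cayley_two (A : Matrix (Fin 2) (Fin 2) F) :
    A * A - A.trace • A + A.det • (1 : Matrix (Fin 2) (Fin 2) F) = 0 := by
  ext i j
  fin_cases i <;> fin_cases j <;>
    simp [Matrix.mul_apply, Fin.sum_univ_two, Matrix.trace_fin_two, Matrix.det_fin_two] <;> ring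

/-- A non-scalar `2 × 2` matrix satisfying `A² - t A + e = 0` has trace `t` and determinant `e`. -/
theorem trace_det_of_rel (A : Matrix (Fin 2) (Fin 2) F) {t e : F}
    (h : A * A - t • A + e • (1 : Matrix (Fin 2) (Fin 2) F) = 0)
    (hA : ∀ a : F, A ≠ a • (1 : Matrix (Fin 2) (Fin 2) F)) : A.trace = t ∧ A.det = e := by
  have hc := cayley_two A
  have h1 : (A.trace - t) • A = (A.det - e) • (1 : Matrix (Fin 2) (Fin 2) F) := by
    linear_combination (norm := module) h - hc
  have ht : A.trace = t := by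
    by_contra hne
    have hne' : A.trace - t ≠ 0 := sub_ne_zero.mpr hne
    refine hA ((A.trace - t)⁻¹ * (A.det - e)) ?_
    rw [mul_smul, ← h1, smul_smul, inv_mul_cancel₀ hne', one_smul]
  refine ⟨ht, ?_⟩
  rw [ht, sub_self, zero_smul] at h1
  have h2 := congrFun (congrFun h1 0) 0
  simp only [Matrix.zero_apply, Matrix.smul_apply, Matrix.one_apply_eq, smul_eq_mul, mul_one]
    at h2
  exact (sub_eq_zero.mp h2.symm)

theorem charpoly_of_trace_det (A : Matrix (Fin 2) (Fin 2) F) {t e : F} (ht : A.trace = t)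
    (he : A.det = e) : A.charpoly = X ^ 2 - C t * X + C e := by
  rw [Matrix.charpoly_fin_two, ht, he]

end Matrix

section Main

variable {M : Type*} [AddCommGroup M] [Module F M]

/-- The matrix representation attached to a representation and a basis. -/
noncomputable def matRep {W : Type*} [AddCommGroup W] [Module F W] {n : Type*} [Fintype n]
    [DecidableEq n] (b : Module.Basis n F W) (ρ : G →* Module.End F W) :
    G →* Matrix n n F where
  toFun g := LinearMap.toMatrixAlgEquiv b (ρ g)
  map_one' := by rw [map_one, map_one]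
  map_mul' g h := by rw [map_mul, map_mul]

theorem matRep_apply {W : Type*} [AddCommGroup W] [Module F W] {n : Type*} [Fintype n]
    [DecidableEq n] (b : Module.Basis n F W) (ρ : G →* Module.End F W) (g : G) :
    matRep b ρ g = LinearMap.toMatrixAlgEquiv b (ρ g) := rfl

theorem matRep_rel {W : Type*} [AddCommGroup W] [Module F W] {n : Type*} [Fintype n]
    [DecidableEq n] (b : Module.Basis n F W) (ρ : G →* Module.End F W) (g : G) {t e : F}
    (h : QuadRel (ρ g) t e) :
    matRep b ρ g * matRep b ρ g - t • matRep b ρ g + e • (1 : Matrix n n F) = 0 :=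
  matrix_rel_of_quadRel b (ρ g) h

theorem matRep_scalar {W : Type*} [AddCommGroup W] [Module F W] {n : Type*} [Fintype n]
    [DecidableEq n] (b : Module.Basis n F W) (ρ : G →* Module.End F W) (g : G) {a : F}
    (h : matRep b ρ g = a • (1 : Matrix n n F)) : ρ g = a • (1 : Module.End F W) := by
  apply (LinearMap.toMatrixAlgEquiv b).injective
  rw [map_smul, map_one]
  exact h

/-- One-dimensional constituent: the representation `χ ⊕ ε χ⁻¹`. -/
theorem exists_matrix_rep_of_char (ε : G →* Fˣ) (χ : G →* F) :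
    ∃ ρ : G →* Matrix (Fin 2) (Fin 2) F,
      (∀ g t, χ g * χ g - t * χ g + ((ε g : Fˣ) : F) = 0 →
        (ρ g).charpoly = X ^ 2 - C t * X + C ((ε g : Fˣ) : F)) ∧
      (∀ g, χ g = 1 → ε g = 1 → ρ g = 1) := by
  have hχ0 : ∀ g, χ g ≠ 0 := by
    intro g h0
    have h1 : χ g * χ g⁻¹ = 1 := by rw [← map_mul, mul_inv_cancel, map_one]
    rw [h0, zero_mul] at h1
    exact zero_ne_one h1
  let d : G → Fin 2 → F := fun g => ![χ g, ((ε g : Fˣ) : F) * (χ g)⁻¹]
  have hd_one : d 1 = 1 := by
    funext i
    fin_cases i <;> simp [d]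
  have hd_mul : ∀ g h, d (g * h) = d g * d h := by
    intro g h
    funext i
    fin_cases i
    · simp [d]
    · simp [d]
      ring
  let ρ : G →* Matrix (Fin 2) (Fin 2) F :=
    { toFun := fun g => Matrix.diagonal (d g)
      map_one' := by rw [hd_one]; exact Matrix.diagonal_one
      map_mul' := fun g h => by
        rw [hd_mul, Matrix.diagonal_mul_diagonal]
        rfl }
  refine ⟨ρ, ?_, ?_⟩
  · intro g t ht
    have htr : (ρ g).trace = t := by
      change (Matrix.diagonal (d g)).trace = t
      rw [Matrix.trace_diagonal, Fin.sum_univ_two]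
      simp only [d, Matrix.cons_val_zero, Matrix.cons_val_one]
      have := hχ0 g
      field_simp
      linear_combination ht
    have hdet : (ρ g).det = ((ε g : Fˣ) : F) := by
      change (Matrix.diagonal (d g)).det = _
      rw [Matrix.det_diagonal, Fin.prod_univ_two]
      simp only [d, Matrix.cons_val_zero, Matrix.cons_val_one]
      have := hχ0 g
      field_simp
    exact charpoly_of_trace_det _ htr hdet
  · intro g hg hε
    change Matrix.diagonal (d g) = 1
    have : d g = 1 := by
      funext i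
      fin_cases i <;> simp [d, hg, hε]
    rw [this]; exact Matrix.diagonal_one

/-- Two-dimensional irreducible constituent. -/
theorem matrix_rep_two [IsAlgClosed F] {W : Type*} [AddCommGroup W] [Module F W]
    [FiniteDimensional F W] (ρW : G →* Module.End F W) (ε : G →* Fˣ)
    (hrel : ∀ g, ∃ t, QuadRel (ρW g) t (ε g)) (hirr : IsIrred ρW)
    (b : Module.Basis (Fin 2) F W) (g : G) (t : F) (ht : QuadRel (ρW g) t (ε g)) :
    (matRep b ρW g).charpoly = X ^ 2 - C t * X + C ((ε g : Fˣ) : F) := by
  have hfin : Module.finrank F W = 2 := by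
    rw [Module.finrank_eq_card_basis b, Fintype.card_fin]
  -- a non-scalar element
  obtain ⟨g₀, hg₀⟩ : ∃ g₀, ∀ a : F, matRep b ρW g₀ ≠ a • (1 : Matrix (Fin 2) (Fin 2) F) := by
    by_contra hcon
    push Not at hcon
    have := finrank_le_one_of_scalar ρW hirr
      (fun g => (hcon g).imp fun a ha => matRep_scalar b ρW g ha)
    omega
  have hdet_ns : ∀ g, (∀ a : F, matRep b ρW g ≠ a • (1 : Matrix (Fin 2) (Fin 2) F)) →
      (matRep b ρW g).det = ((ε g : Fˣ) : F) := by
    intro g hg
    obtain ⟨t', ht'⟩ := hrel g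
    exact (trace_det_of_rel _ (matRep_rel b ρW g ht') hg).2
  have hdet_ne : ∀ g, (matRep b ρW g).det ≠ 0 := by
    intro g h0
    have h1 : (matRep b ρW g).det * (matRep b ρW g⁻¹).det = 1 := by
      rw [← Matrix.det_mul, ← map_mul, mul_inv_cancel, map_one, Matrix.det_one]
    rw [h0, zero_mul] at h1
    exact zero_ne_one h1
  have hdet : ∀ g, (matRep b ρW g).det = ((ε g : Fˣ) : F) := by
    intro g
    by_cases hg : ∀ a : F, matRep b ρW g ≠ a • (1 : Matrix (Fin 2) (Fin 2) F)
    · exact hdet_ns g hg
    · push Not at hg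
      obtain ⟨a, ha⟩ := hg
      have ha0 : a ≠ 0 := by
        rintro rfl
        apply hdet_ne g
        rw [ha, zero_smul, Matrix.det_zero]
      have hgg₀ : ∀ c : F, matRep b ρW (g * g₀) ≠ c • (1 : Matrix (Fin 2) (Fin 2) F) := by
        intro c hc
        apply hg₀ (a⁻¹ * c)
        rw [map_mul, ha, smul_mul_assoc, one_mul] at hc
        rw [mul_smul, ← hc, smul_smul, inv_mul_cancel₀ ha0, one_smul]
      have h1 := hdet_ns (g * g₀) hgg₀
      have h2 := hdet_ns g₀ hg₀
      rw [map_mul, Matrix.det_mul, h2, map_mul, Units.val_mul] at h1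
      exact mul_right_cancel₀ (Units.ne_zero (ε g₀)) h1
  by_cases hg : ∀ a : F, matRep b ρW g ≠ a • (1 : Matrix (Fin 2) (Fin 2) F)
  · obtain ⟨h1, h2⟩ := trace_det_of_rel _ (matRep_rel b ρW g ht) hg
    exact charpoly_of_trace_det _ h1 h2
  · push Not at hg
    obtain ⟨a, ha⟩ := hg
    have hd := hdet g
    have hr := matRep_rel b ρW g ht
    rw [ha] at hd hr
    have hd' : a * a = ((ε g : Fˣ) : F) := by
      rw [← hd, Matrix.det_fin_two]
      simp
    have ha0 : a ≠ 0 := by
      rintro rfl
      rw [mul_zero] at hd'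
      exact Units.ne_zero (ε g) hd'.symm
    have hr' := congrFun (congrFun hr 0) 0
    simp only [Matrix.add_apply, Matrix.sub_apply, Matrix.mul_apply, Matrix.smul_apply,
      Matrix.one_apply, Fin.sum_univ_two, smul_eq_mul, Matrix.zero_apply] at hr'
    simp at hr'
    have htr : (matRep b ρW g).trace = t := by
      rw [ha, Matrix.trace_fin_two]
      simp only [Matrix.smul_apply, Matrix.one_apply_eq, smul_eq_mul, mul_one]
      have h3 : a * (a + a - t) = 0 := by linear_combination hr' + hd'
      rcases mul_eq_zero.mp h3 with h | h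
      · exact absurd h ha0
      · linear_combination h
    exact charpoly_of_trace_det _ htr (by rw [ha]; exact hd)

/-- **The dimension-two lemma.**  `F` algebraically closed of any characteristic. -/
theorem exists_matrix_rep [IsAlgClosed F] [FiniteDimensional F M] [Nontrivial M]
    (ρM : G →* Module.End F M) (ε : G →* Fˣ) (hrel : ∀ g, ∃ t, QuadRel (ρM g) t (ε g)) :
    ∃ ρ : G →* Matrix (Fin 2) (Fin 2) F,
      (∀ g t, QuadRel (ρM g) t (ε g) →
        (ρ g).charpoly = X ^ 2 - C t * X + C ((ε g : Fˣ) : F)) ∧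
      (∀ g, ρM g = 1 → ε g = 1 → ρ g = 1) := by
  obtain ⟨W, hW0, hWinv, hWmin⟩ := exists_minimal_invariant ρM
  obtain ⟨ρW, hρW⟩ : ∃ ρW : G →* Module.End F W, ρW = restrictRep ρM W hWinv := ⟨_, rfl⟩
  have hirr : IsIrred ρW := hρW ▸ restrictRep_isIrred ρM W hWinv hWmin
  have hrelW : ∀ g t, QuadRel (ρM g) t (ε g) → QuadRel (ρW g) t (ε g) :=
    fun g t h => hρW ▸ restrictRep_quadRel ρM W hWinv g h
  have hle : Module.finrank F W ≤ 2 :=
    finrank_le_two ρW ε (fun g => (hrel g).imp (hrelW g)) hirr
  have hpos : 0 < Module.finrank F W := by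
    have : Nontrivial W := Submodule.nontrivial_iff_ne_bot.mpr hW0
    exact Module.finrank_pos
  have hone : ∀ g, ρM g = 1 → ρW g = 1 := by
    intro g hg
    rw [hρW]
    ext x
    simp [hg]
  obtain h1 | h2 : Module.finrank F W = 1 ∨ Module.finrank F W = 2 := by omega
  · let b : Module.Basis (Fin 1) F W := Module.finBasisOfFinrankEq F W h1
    let χ : G →* F :=
      { toFun := fun g => matRep b ρW g 0 0
        map_one' := by rw [map_one, Matrix.one_apply_eq]
        map_mul' := fun g h => by
          rw [map_mul, Matrix.mul_apply, Fin.sum_univ_one] }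
    obtain ⟨ρ, hρ1, hρ2⟩ := exists_matrix_rep_of_char ε χ
    refine ⟨ρ, fun g t ht => hρ1 g t ?_, fun g hg hε => hρ2 g ?_ hε⟩
    · have hr := matRep_rel b ρW g (hrelW g t ht)
      have hr' := congrFun (congrFun hr 0) 0
      simp only [Matrix.add_apply, Matrix.sub_apply, Matrix.mul_apply, Matrix.smul_apply,
        Matrix.one_apply_eq, Fin.sum_univ_one, smul_eq_mul, Matrix.zero_apply, mul_one] at hr'
      exact hr'
    · change matRep b ρW g 0 0 = 1
      rw [matRep_apply, hone g hg, map_one, Matrix.one_apply_eq]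
  · let b : Module.Basis (Fin 2) F W := Module.finBasisOfFinrankEq F W h2
    refine ⟨matRep b ρW, fun g t ht => ?_, fun g hg _ => ?_⟩
    · exact matrix_rep_two ρW ε (fun g => (hrel g).imp (hrelW g)) hirr b g t (hrelW g t ht)
    · rw [matRep_apply, hone g hg, map_one]

end Main

end Fermat.Agent.S29.helper9550
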