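/-
helper9921 — S29, leaf S29-SURJCOUNT (board #1182): surjectivity of the multiplier map
`Theta : J0(N)[n] → Hom(Γ0(N), ℤ/n)` onto the homs killing parabolic and finite-order elements
BY COUNTING (hedge for (TH4) of the THETA hub; conditional on a torsion count such as S27).

Content (Mathlib + Prelude `Def_ModularCurve_PeriodMap` only, hypothesis-passing):

* `exists_eval_points` : a finite-dimensional space of functions is detected by
  `finrank` many points;
* `card_le_pow_of_lift` : abstract count.  If the integral homs in a subgroup `M` are detected by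
  `d` points and every element of a set `X` of homs to `ZMod n` lifts to `M`, then `X` is finite
  of cardinality at most `n ^ d`;
* `card_parabolicTors_le` : for `Γ ≤ SL(2, ℤ)` with finite-dimensional complex parabolic homs
  and the integral parabolic lift property, the homs `Γ → ZMod n` killing parabolic and
  finite-order elements number at most `n ^ finrank ℂ (parabolicHoms ℂ Γ ℂ)`;
* `surjective_of_injective_of_card` : an injective map from a set with at least that many elements
  into these homs hits every one of them.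
-/
import Mathlib
import Fermat.Prelude.Def_ModularCurve_PeriodMap

set_option autoImplicit false

open Module

open scoped MatrixGroups

namespace Fermat.Agent.S29.helper9921

/-! ### A. Finite-dimensional spaces of functions are detected by finitely many points -/

theorem exists_eval_points_aux {K α : Type*} [Field K] :
    ∀ (d : ℕ) (V : Submodule K (α → K)) [FiniteDimensional K V], finrank K V = d →
      ∃ x : Fin d → α, ∀ f ∈ V, (∀ i, f (x i) = 0) → f = 0 := by
  intro d
  induction d with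
  | zero =>
    intro V _ hV
    refine ⟨Fin.elim0, fun f hf _ => ?_⟩
    have hbot : V = ⊥ := Submodule.finrank_eq_zero.mp hV
    rw [hbot] at hf
    simpa using hf
  | succ k ih =>
    intro V _ hV
    have hne : V ≠ ⊥ := by
      intro h
      rw [h] at hV
      simp at hV
    obtain ⟨f0, hf0V, hf0⟩ := (Submodule.ne_bot_iff V).mp hne
    obtain ⟨a, ha⟩ : ∃ a, f0 a ≠ 0 := by
      by_contra hcon
      exact hf0 (funext fun a => by_contra fun h => hcon ⟨a, h⟩)
    let ev : V →ₗ[K] K := (LinearMap.proj a).comp V.subtype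
    have hev : ∀ f : V, ev f = (f : α → K) a := fun f => rfl
    have hsurj : LinearMap.range ev = ⊤ := by
      rw [LinearMap.range_eq_top]
      intro c
      refine ⟨(c / f0 a) • ⟨f0, hf0V⟩, ?_⟩
      rw [map_smul, hev]
      simp [ha]
    have hker : finrank K (LinearMap.ker ev) = k := by
      have h := LinearMap.finrank_range_add_finrank_ker ev
      rw [hsurj, finrank_top, finrank_self, hV] at h
      omega
    let V' : Submodule K (α → K) := (LinearMap.ker ev).map V.subtype
    have hV' : finrank K V' = k := by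
      rw [← hker]
      exact (Submodule.equivMapOfInjective V.subtype V.injective_subtype
        (LinearMap.ker ev)).symm.finrank_eq
    obtain ⟨x', hx'⟩ := ih V' hV'
    refine ⟨Fin.cons a x', fun f hf hzero => ?_⟩
    have hfa : f a = 0 := by simpa using hzero 0
    have hfV' : f ∈ V' := ⟨⟨f, hf⟩, by
      rw [SetLike.mem_coe, LinearMap.mem_ker, hev]; exact hfa, rfl⟩
    exact hx' f hfV' (fun i => by simpa using hzero i.succ)

/-- A finite-dimensional space of functions is detected by `finrank` many points. -/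
theorem exists_eval_points {K α : Type*} [Field K] (V : Submodule K (α → K))
    [FiniteDimensional K V] :
    ∃ x : Fin (finrank K V) → α, ∀ f ∈ V, (∀ i, f (x i) = 0) → f = 0 :=
  exists_eval_points_aux (finrank K V) V rfl

/-- The coercion of additive homs to functions, as a linear map. -/
def coeFnLin (K : Type*) [Field K] (H : Type*) [AddMonoid H] : (H →+ K) →ₗ[K] (H → K) where
  toFun φ := ⇑φ
  map_add' _ _ := rfl
  map_smul' _ _ := rfl

theorem coeFnLin_injective (K : Type*) [Field K] (H : Type*) [AddMonoid H] :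
    Function.Injective (coeFnLin K H) := fun _ _ h => DFunLike.coe_injective h

/-- A finite-dimensional space of additive homs is detected by `finrank` many points. -/
theorem exists_eval_points_hom {K : Type*} [Field K] {H : Type*} [AddMonoid H]
    (V : Submodule K (H →+ K)) [FiniteDimensional K V] :
    ∃ x : Fin (finrank K V) → H, ∀ φ ∈ V, (∀ i, φ (x i) = 0) → φ = 0 := by
  let W : Submodule K (H → K) := V.map (coeFnLin K H)
  let e : V ≃ₗ[K] W := Submodule.equivMapOfInjective (coeFnLin K H) (coeFnLin_injective K H) V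
  have : FiniteDimensional K W := Module.Finite.equiv e
  have hW : finrank K W = finrank K V := e.symm.finrank_eq
  obtain ⟨x, hx⟩ := exists_eval_points W
  refine ⟨fun i => x (Fin.cast hW.symm i), fun φ hφ hzero => ?_⟩
  have h0 : coeFnLin K H φ = 0 := by
    refine hx _ ⟨φ, hφ, rfl⟩ (fun i => ?_)
    have h1 : φ (x (Fin.cast hW.symm (Fin.cast hW i))) = 0 := hzero (Fin.cast hW i)
    have h2 : Fin.cast hW.symm (Fin.cast hW i) = i := Fin.ext rfl
    rw [h2] at h1
    exact h1
  exact coeFnLin_injective K H (by rw [h0, map_zero])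

/-! ### B. The abstract count -/

/-- **Abstract count.**  `M` a subgroup of integral homs detected by `d` points; if every element
of `X` (homs to `ZMod n`) is the reduction of an element of `M`, then `X` is finite with at most
`n ^ d` elements. -/
theorem card_le_pow_of_lift {H : Type*} [AddMonoid H] (n : ℕ) [NeZero n] (d : ℕ)
    (M : AddSubgroup (H →+ ℤ)) (x : Fin d → H)
    (hx : ∀ Φ ∈ M, (∀ i, Φ (x i) = 0) → Φ = 0)
    (X : Set (H →+ ZMod n))
    (hlift : ∀ φ ∈ X, ∃ Φ ∈ M, ∀ h : H, ((Φ h : ℤ) : ZMod n) = φ h) :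
    X.Finite ∧ Nat.card X ≤ n ^ d := by
  classical
  -- evaluation at the `d` points
  let E : (H →+ ℤ) →+ (Fin d → ℤ) :=
    { toFun := fun Φ i => Φ (x i)
      map_zero' := rfl
      map_add' := fun _ _ => rfl }
  have hE : ∀ Φ i, E Φ i = Φ (x i) := fun _ _ => rfl
  have hEinj : ∀ Φ ∈ M, ∀ Ψ ∈ M, E Φ = E Ψ → Φ = Ψ := by
    intro Φ hΦ Ψ hΨ h
    have h0 : Φ - Ψ = 0 := by
      refine hx _ (M.sub_mem hΦ hΨ) (fun i => ?_)
      have := congrFun h i
      rw [hE, hE] at this
      rw [AddMonoidHom.sub_apply, this, sub_self]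
    exact sub_eq_zero.mp h0
  let L : Submodule ℤ (Fin d → ℤ) := AddSubgroup.toIntSubmodule (M.map E)
  have hL : ∀ v, v ∈ L ↔ ∃ Φ ∈ M, E Φ = v := fun v => Iff.rfl
  let s := finrank ℤ L
  have hs : s ≤ d := by
    have h := Submodule.finrank_le L
    simpa using h
  let b : Basis (Fin s) ℤ L := Module.finBasis ℤ L
  have hb : ∀ i, ∃ Φ ∈ M, E Φ = (b i : Fin d → ℤ) := fun i => (hL _).mp (b i).2
  choose m hmM hm using hb
  -- every element of `M` is an integral combination of the `m i`
  have hgen : ∀ Φ ∈ M, ∃ a : Fin s → ℤ, Φ = ∑ i, a i • m i := by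
    intro Φ hΦ
    let v : L := ⟨E Φ, (hL _).mpr ⟨Φ, hΦ, rfl⟩⟩
    refine ⟨fun i => b.repr v i, ?_⟩
    refine hEinj Φ hΦ _ (M.sum_mem fun i _ => M.zsmul_mem (hmM i) _) ?_
    have hv : (v : Fin d → ℤ) = ∑ i, b.repr v i • (b i : Fin d → ℤ) := by
      have h := congrArg (fun w : L => (w : Fin d → ℤ)) (b.sum_repr v)
      simp only [Submodule.coe_sum, Submodule.coe_smul] at h
      exact h.symm
    rw [map_sum]
    show (v : Fin d → ℤ) = _
    rw [hv]
    refine Finset.sum_congr rfl fun i _ => ?_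
    rw [map_zsmul, hm]
  -- the candidate reductions
  let g : (Fin s → ZMod n) → (H →+ ZMod n) := fun c =>
    ∑ i, c i • (Int.castAddHom (ZMod n)).comp (m i)
  have hcover : ∀ φ ∈ X, ∃ c, g c = φ := by
    intro φ hφ
    obtain ⟨Φ, hΦM, hΦ⟩ := hlift φ hφ
    obtain ⟨a, ha⟩ := hgen Φ hΦM
    refine ⟨fun i => (a i : ZMod n), ?_⟩
    ext h
    rw [← hΦ h, ha]
    simp only [g, AddMonoidHom.finsetSum_apply, AddMonoidHom.smul_apply,
      AddMonoidHom.comp_apply, Int.coe_castAddHom, smul_eq_mul, Int.cast_sum, Int.cast_mul]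
  have hsub : X ⊆ Set.range g := fun φ hφ => hcover φ hφ
  have hfin : X.Finite := (Set.finite_range g).subset hsub
  refine ⟨hfin, ?_⟩
  have : Finite X := hfin
  choose c hc using hcover
  have hinj : Function.Injective (fun φ : X => c φ.1 φ.2) := by
    intro φ ψ h
    apply Subtype.ext
    have h' : g (c φ.1 φ.2) = g (c ψ.1 ψ.2) := congrArg g h
    rw [hc, hc] at h'
    exact h'
  calc Nat.card X ≤ Nat.card (Fin s → ZMod n) := Nat.card_le_card_of_injective _ hinj
    _ = n ^ s := by rw [Nat.card_fun, Nat.card_zmod, Nat.card_fin]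
    _ ≤ n ^ d := Nat.pow_le_pow_right (Nat.pos_of_ne_zero (NeZero.ne n)) hs

/-! ### C. Parabolic homs of subgroups of `SL(2, ℤ)` -/

open ModularCurve.Period

/-- The homs `Γ → A` killing the parabolic elements (trace `±2`) and the elements of finite
order. -/
def parTors (Γ : Subgroup SL(2, ℤ)) (A : Type*) [AddCommGroup A] : Set (Additive Γ →+ A) :=
  {φ | IsParabolicHom Γ φ ∧ ∀ γ : Γ, IsOfFinOrder γ → φ (Additive.ofMul γ) = 0}

/-- The integral parabolic lift property of `Γ` modulo `n` (proved for finite-index `Γ ∋ -1` by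
`Fermat.Agent.S16.helper690.exists_parabolic_lift`). -/
def LiftProp (Γ : Subgroup SL(2, ℤ)) (n : ℕ) : Prop :=
  ∀ φ : Additive Γ →+ ZMod n, IsParabolicHom Γ φ →
    (∀ γ : Γ, IsOfFinOrder γ → φ (Additive.ofMul γ) = 0) →
    ∃ Φ : Additive Γ →+ ℤ, IsParabolicHom Γ Φ ∧
      ∀ γ : Γ, ((Φ (Additive.ofMul γ) : ℤ) : ZMod n) = φ (Additive.ofMul γ)

/-- **Count of the mod-`n` homs killing parabolic and finite-order elements**: at most
`n ^ dim_ℂ (parabolic homs Γ → ℂ)`. -/
theorem card_parTors_le (Γ : Subgroup SL(2, ℤ)) (n : ℕ) [NeZero n]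
    [FiniteDimensional ℂ (parabolicHoms ℂ Γ ℂ)] (hlift : LiftProp Γ n) :
    (parTors Γ (ZMod n)).Finite ∧
      Nat.card (parTors Γ (ZMod n)) ≤ n ^ finrank ℂ (parabolicHoms ℂ Γ ℂ) := by
  obtain ⟨x, hx⟩ := exists_eval_points_hom (parabolicHoms ℂ Γ ℂ)
  refine card_le_pow_of_lift n _ (parabolicHoms ℤ Γ ℤ).toAddSubgroup x ?_ _ ?_
  · intro Φ hΦ hzero
    have hΦ' : IsParabolicHom Γ Φ := hΦ
    have hmem : (Int.castAddHom ℂ).comp Φ ∈ parabolicHoms ℂ Γ ℂ := by
      rw [mem_parabolicHoms_iff]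
      intro γ hγ
      show ((Φ (Additive.ofMul γ) : ℤ) : ℂ) = 0
      rw [hΦ' γ hγ, Int.cast_zero]
    have h0 := hx _ hmem (fun i => by
      show ((Φ (x i) : ℤ) : ℂ) = 0
      rw [hzero i, Int.cast_zero])
    refine AddMonoidHom.ext fun γ => ?_
    have h1 : ((Φ γ : ℤ) : ℂ) = 0 := DFunLike.congr_fun h0 γ
    exact_mod_cast h1
  · rintro φ ⟨hpar, htors⟩
    obtain ⟨Φ, hΦ, hred⟩ := hlift φ hpar htors
    exact ⟨Φ, hΦ, fun h => hred (Additive.toMul h)⟩

/-- **Surjectivity by counting.**  An injective map `θ` from a type `J` with at least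
`n ^ dim_ℂ (parabolic homs)` elements into the homs `Γ → ZMod n` killing parabolic and
finite-order elements hits every such hom. -/
theorem surjective_of_injective_of_card (Γ : Subgroup SL(2, ℤ)) (n : ℕ) [NeZero n]
    [FiniteDimensional ℂ (parabolicHoms ℂ Γ ℂ)] (hlift : LiftProp Γ n)
    {J : Type*} (θ : J → (Additive Γ →+ ZMod n)) (hθ : Function.Injective θ)
    (hmem : ∀ x, θ x ∈ parTors Γ (ZMod n))
    (hcard : n ^ finrank ℂ (parabolicHoms ℂ Γ ℂ) ≤ Nat.card J) :
    ∀ φ ∈ parTors Γ (ZMod n), ∃ x, θ x = φ := by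
  obtain ⟨hfin, hle⟩ := card_parTors_le Γ n hlift
  have : Finite (parTors Γ (ZMod n)) := hfin
  let θ' : J → parTors Γ (ZMod n) := fun x => ⟨θ x, hmem x⟩
  have hθ' : Function.Injective θ' := fun x y h => hθ (congrArg Subtype.val h)
  have hbij := hθ'.bijective_of_nat_card_le (hle.trans hcard)
  intro φ hφ
  obtain ⟨x, hx⟩ := hbij.2 ⟨φ, hφ⟩
  exact ⟨x, congrArg Subtype.val hx⟩

/-- Consumer form: every reduction of an integral parabolic hom is in the image of `θ`. -/
theorem exists_eq_reduction (Γ : Subgroup SL(2, ℤ)) (n : ℕ) [NeZero n]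
    [FiniteDimensional ℂ (parabolicHoms ℂ Γ ℂ)] (hlift : LiftProp Γ n)
    {J : Type*} (θ : J → (Additive Γ →+ ZMod n)) (hθ : Function.Injective θ)
    (hmem : ∀ x, θ x ∈ parTors Γ (ZMod n))
    (hcard : n ^ finrank ℂ (parabolicHoms ℂ Γ ℂ) ≤ Nat.card J)
    (lam : Additive Γ →+ ℤ) (hlam : lam ∈ parabolicHoms ℤ Γ ℤ) :
    ∃ x, θ x = (Int.castAddHom (ZMod n)).comp lam := by
  refine surjective_of_injective_of_card Γ n hlift θ hθ hmem hcard _ ⟨?_, ?_⟩
  · intro γ hγ
    show ((lam (Additive.ofMul γ) : ℤ) : ZMod n) = 0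
    rw [(mem_parabolicHoms_iff.mp hlam) γ hγ, Int.cast_zero]
  · intro γ hγ
    show ((lam (Additive.ofMul γ) : ℤ) : ZMod n) = 0
    obtain ⟨k, hk, hγk⟩ := hγ.exists_pow_eq_one
    have h1 : lam (Additive.ofMul (γ ^ k)) = k • lam (Additive.ofMul γ) := by
      rw [ofMul_pow, map_nsmul]
    rw [hγk, ofMul_one, map_zero] at h1
    have h2 : lam (Additive.ofMul γ) = 0 := by
      have h3 : (k : ℤ) * lam (Additive.ofMul γ) = 0 := by
        rw [← nsmul_eq_mul]; exact h1.symm
      rcases mul_eq_zero.mp h3 with h | h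
      · exact absurd (by exact_mod_cast h) hk.ne'
      · exact h
    rw [h2, Int.cast_zero]

/-! ### D. Multiplicative form: characters with values in the `n`-th roots of unity -/

section Mult

variable {G : Type*} [Group G] {n : ℕ} [NeZero n] {ζ : ℂˣ}

/-- The logarithm to base `ζ` of a character of exponent `n`. -/
noncomputable def logChar (hζ : IsPrimitiveRoot ζ n) (χ : G →* ℂˣ) (hχ : ∀ g, χ g ^ n = 1) :
    Additive G →+ ZMod n :=
  (hζ.zmodEquivZPowers.symm : Additive (Subgroup.zpowers ζ) →+ ZMod n).comp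
    (MonoidHom.toAdditive (χ.codRestrict (Subgroup.zpowers ζ) (fun g => by
      rw [hζ.zpowers_eq, mem_rootsOfUnity]; exact hχ g)))

theorem eq_zpow_of_logChar_eq (hζ : IsPrimitiveRoot ζ n) (χ : G →* ℂˣ) (hχ : ∀ g, χ g ^ n = 1)
    (g : G) (k : ℤ) (h : logChar hζ χ hχ (Additive.ofMul g) = (k : ZMod n)) : χ g = ζ ^ k := by
  have hmem : χ g ∈ Subgroup.zpowers ζ := by
    rw [hζ.zpowers_eq, mem_rootsOfUnity]; exact hχ g
  have h1 : hζ.zmodEquivZPowers.symm (Additive.ofMul (⟨χ g, hmem⟩ : Subgroup.zpowers ζ))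
      = (k : ZMod n) := h
  have h2 := congrArg hζ.zmodEquivZPowers h1
  rw [AddEquiv.apply_symm_apply, hζ.zmodEquivZPowers_apply_coe_int] at h2
  have h3 := congrArg (fun y : Additive (Subgroup.zpowers ζ) => ((Additive.toMul y : Subgroup.zpowers ζ) : ℂˣ)) h2
  exact h3

theorem logChar_eq_zero_iff (hζ : IsPrimitiveRoot ζ n) (χ : G →* ℂˣ) (hχ : ∀ g, χ g ^ n = 1)
    (g : G) : logChar hζ χ hχ (Additive.ofMul g) = 0 ↔ χ g = 1 := by
  constructor
  · intro h
    have := eq_zpow_of_logChar_eq hζ χ hχ g 0 (by rw [h, Int.cast_zero])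
    rw [this, zpow_zero]
  · intro h
    have hmem : χ g ∈ Subgroup.zpowers ζ := by
      rw [hζ.zpowers_eq, mem_rootsOfUnity]; exact hχ g
    have h0 : (⟨χ g, hmem⟩ : Subgroup.zpowers ζ) = 1 := Subtype.ext h
    show hζ.zmodEquivZPowers.symm (Additive.ofMul (⟨χ g, hmem⟩ : Subgroup.zpowers ζ)) = 0
    rw [h0, ofMul_one, map_zero]

theorem logChar_injective (hζ : IsPrimitiveRoot ζ n) (χ χ' : G →* ℂˣ) (hχ : ∀ g, χ g ^ n = 1)
    (hχ' : ∀ g, χ' g ^ n = 1) (h : logChar hζ χ hχ = logChar hζ χ' hχ') : χ = χ' := by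
  ext g
  obtain ⟨k, hk⟩ := ZMod.intCast_surjective (logChar hζ χ hχ (Additive.ofMul g))
  rw [eq_zpow_of_logChar_eq hζ χ hχ g k hk.symm,
    eq_zpow_of_logChar_eq hζ χ' hχ' g k (by rw [← h]; exact hk.symm)]

end Mult

/-- **Surjectivity by counting, multiplicative form** (the shape of (TH4) of the S29 THETA hub):
`Θ` an injective family of characters `Γ → μ_n` killing the parabolic and the finite-order
elements, indexed by a type with at least `n ^ dim_ℂ (parabolic homs)` elements.  Then for every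
integral parabolic hom `lam` the character `ζ ^ lam` is in the family. -/
theorem exists_char_eq_zeta_zpow (Γ : Subgroup SL(2, ℤ)) (n : ℕ) [NeZero n]
    [FiniteDimensional ℂ (parabolicHoms ℂ Γ ℂ)] (hlift : LiftProp Γ n)
    {ζ : ℂˣ} (hζ : IsPrimitiveRoot ζ n)
    {J : Type*} (Θ : J → (Γ →* ℂˣ)) (hΘ : Function.Injective Θ)
    (hn : ∀ x γ, Θ x γ ^ n = 1)
    (hpar : ∀ x (γ : Γ),
      ((γ : SL(2, ℤ)) : Matrix (Fin 2) (Fin 2) ℤ).trace ^ 2 = 4 → Θ x γ = 1)
    (htors : ∀ x (γ : Γ), IsOfFinOrder γ → Θ x γ = 1)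
    (hcard : n ^ finrank ℂ (parabolicHoms ℂ Γ ℂ) ≤ Nat.card J)
    (lam : Additive Γ →+ ℤ) (hlam : lam ∈ parabolicHoms ℤ Γ ℤ) :
    ∃ x, ∀ γ : Γ, Θ x γ = ζ ^ lam (Additive.ofMul γ) := by
  let θ : J → (Additive Γ →+ ZMod n) := fun x => logChar hζ (Θ x) (hn x)
  have hθ : Function.Injective θ := fun x y h =>
    hΘ (logChar_injective hζ (Θ x) (Θ y) (hn x) (hn y) h)
  have hmem : ∀ x, θ x ∈ parTors Γ (ZMod n) := fun x =>
    ⟨fun γ hγ => (logChar_eq_zero_iff hζ (Θ x) (hn x) γ).mpr (hpar x γ hγ),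
      fun γ hγ => (logChar_eq_zero_iff hζ (Θ x) (hn x) γ).mpr (htors x γ hγ)⟩
  obtain ⟨x, hx⟩ := exists_eq_reduction Γ n hlift θ hθ hmem hcard lam hlam
  refine ⟨x, fun γ => eq_zpow_of_logChar_eq hζ (Θ x) (hn x) γ _ ?_⟩
  exact DFunLike.congr_fun hx (Additive.ofMul γ)

end Fermat.Agent.S29.helper9921
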