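/-
helper9921 — S29, leaf S29-SURJCOUNT (board #1182), instance for `Γ₀(N)`.

Plugs the landed Eichler–Shimura theorem (`Fermat.Agent.S21.result`) into the abstract count of
`helper9921_SurjCount`:

* `finrank_parabolicHoms_Gamma0` : `dim_ℂ (parabolic homs Γ₀(N) → ℂ) = 2 * dim S₂(Γ₀(N))`;
* `card_parTors_Gamma0_le` : at most `n ^ (2 * dim S₂(Γ₀(N)))` homs `Γ₀(N) → ℤ/n` kill the
  parabolic and the finite-order elements (given the integral parabolic lift property);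
* `exists_char_eq_zeta_zpow_Gamma0` : surjectivity of an injective multiplier map by counting;
* `exists_char_eq_zeta_zpow_of_torsion_count` : the same with the count in the shape of the frozen
  S27 statement (`Nat.card (Pic0.torsion K F (ℓ ^ k)) = ℓ ^ (2 * genusFF K F * k)`) plus
  `genusFF = dim S₂`.
-/
import Mathlib
import Fermat.Agent.S21
import Fermat.Agent.S29.helper9921_SurjCount

set_option autoImplicit false

open Module CongruenceSubgroup ModularCurve ModularCurve.Period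

open scoped MatrixGroups

namespace Fermat.Agent.S29.helper9921

theorem finite_parabolicHoms_Gamma0 (N : ℕ) [NeZero N] :
    FiniteDimensional ℂ (parabolicHoms ℂ (Gamma0 N) ℂ) := by
  obtain ⟨_, hrange⟩ := Fermat.Agent.S21.result N
  have : Module.Finite ℂ (CuspForm (Gamma0 N) 2) := Fermat.Agent.S21.helper21.finite_cuspForm N
  rw [← hrange]
  infer_instance

/-- Eichler–Shimura dimension count: `dim_ℂ Hom_par(Γ₀(N), ℂ) = 2 * dim S₂(Γ₀(N))`. -/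
theorem finrank_parabolicHoms_Gamma0 (N : ℕ) [NeZero N] :
    finrank ℂ (parabolicHoms ℂ (Gamma0 N) ℂ) = 2 * finrank ℂ (CuspForm (Gamma0 N) 2) := by
  obtain ⟨hinj, hrange⟩ := Fermat.Agent.S21.result N
  have : Module.Finite ℂ (CuspForm (Gamma0 N) 2) := Fermat.Agent.S21.helper21.finite_cuspForm N
  rw [← hrange, LinearMap.finrank_range_of_inj hinj, Module.finrank_prod]
  ring

/-- At most `n ^ (2 * dim S₂(Γ₀(N)))` homs `Γ₀(N) → ℤ/n` kill the parabolic and the finite-order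
elements. -/
theorem card_parTors_Gamma0_le (N : ℕ) [NeZero N] (n : ℕ) [NeZero n]
    (hlift : LiftProp (Gamma0 N) n) :
    (parTors (Gamma0 N) (ZMod n)).Finite ∧
      Nat.card (parTors (Gamma0 N) (ZMod n))
        ≤ n ^ (2 * finrank ℂ (CuspForm (Gamma0 N) 2)) := by
  have := finite_parabolicHoms_Gamma0 N
  rw [← finrank_parabolicHoms_Gamma0 N]
  exact card_parTors_le (Gamma0 N) n hlift

/-- **Surjectivity of the multiplier map by counting** at level `Γ₀(N)`. -/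
theorem exists_char_eq_zeta_zpow_Gamma0 (N : ℕ) [NeZero N] (n : ℕ) [NeZero n]
    (hlift : LiftProp (Gamma0 N) n) {ζ : ℂˣ} (hζ : IsPrimitiveRoot ζ n)
    {J : Type*} (Θ : J → (Gamma0 N →* ℂˣ)) (hΘ : Function.Injective Θ)
    (hn : ∀ x γ, Θ x γ ^ n = 1)
    (hpar : ∀ x (γ : Gamma0 N),
      ((γ : SL(2, ℤ)) : Matrix (Fin 2) (Fin 2) ℤ).trace ^ 2 = 4 → Θ x γ = 1)
    (htors : ∀ x (γ : Gamma0 N), IsOfFinOrder γ → Θ x γ = 1)
    (hcard : n ^ (2 * finrank ℂ (CuspForm (Gamma0 N) 2)) ≤ Nat.card J)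
    (lam : Additive (Gamma0 N) →+ ℤ) (hlam : lam ∈ parabolicHoms ℤ (Gamma0 N) ℤ) :
    ∃ x, ∀ γ : Gamma0 N, Θ x γ = ζ ^ lam (Additive.ofMul γ) := by
  have := finite_parabolicHoms_Gamma0 N
  refine exists_char_eq_zeta_zpow (Gamma0 N) n hlift hζ Θ hΘ hn hpar htors ?_ lam hlam
  rw [finrank_parabolicHoms_Gamma0 N]
  exact hcard

/-- The same with the torsion count in the shape of the frozen S27 statement: `J` has
`ℓ ^ (2 * g * k)` elements with `g = dim S₂(Γ₀(N))`, and `n = ℓ ^ k`. -/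
theorem exists_char_eq_zeta_zpow_of_torsion_count (N : ℕ) [NeZero N] (ℓ : ℕ) [Fact ℓ.Prime]
    (k : ℕ) (hlift : LiftProp (Gamma0 N) (ℓ ^ k)) {ζ : ℂˣ} (hζ : IsPrimitiveRoot ζ (ℓ ^ k))
    {J : Type*} (g : ℕ) (hg : g = finrank ℂ (CuspForm (Gamma0 N) 2))
    (hJ : Nat.card J = ℓ ^ (2 * g * k))
    (Θ : J → (Gamma0 N →* ℂˣ)) (hΘ : Function.Injective Θ)
    (hn : ∀ x γ, Θ x γ ^ (ℓ ^ k) = 1)
    (hpar : ∀ x (γ : Gamma0 N),
      ((γ : SL(2, ℤ)) : Matrix (Fin 2) (Fin 2) ℤ).trace ^ 2 = 4 → Θ x γ = 1)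
    (htors : ∀ x (γ : Gamma0 N), IsOfFinOrder γ → Θ x γ = 1)
    (lam : Additive (Gamma0 N) →+ ℤ) (hlam : lam ∈ parabolicHoms ℤ (Gamma0 N) ℤ) :
    ∃ x, ∀ γ : Gamma0 N, Θ x γ = ζ ^ lam (Additive.ofMul γ) := by
  have hℓ : ℓ ≠ 0 := (Fact.out : ℓ.Prime).ne_zero
  have : NeZero (ℓ ^ k) := ⟨pow_ne_zero k hℓ⟩
  refine exists_char_eq_zeta_zpow_Gamma0 N (ℓ ^ k) hlift hζ Θ hΘ hn hpar htors ?_ lam hlam
  rw [hJ, ← hg, ← pow_mul]
  exact le_of_eq (congrArg (ℓ ^ ·) (by ring))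

/-- Variant for a genus-type invariant `γ ≥ dim S₂(Γ₀(N))` (e.g. `γ = genusFF`, for which the
frozen S27 statement gives `Nat.card (Pic0.torsion K F (ℓ ^ k)) = ℓ ^ (2 * γ * k)`): only the
inequality `dim S₂ ≤ γ` is needed. -/
theorem exists_char_eq_zeta_zpow_of_le_genus (N : ℕ) [NeZero N] (ℓ : ℕ) [Fact ℓ.Prime]
    (k : ℕ) (hlift : LiftProp (Gamma0 N) (ℓ ^ k)) {ζ : ℂˣ} (hζ : IsPrimitiveRoot ζ (ℓ ^ k))
    {J : Type*} (γ : ℕ) (hγ : finrank ℂ (CuspForm (Gamma0 N) 2) ≤ γ)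
    (hJ : Nat.card J = ℓ ^ (2 * γ * k))
    (Θ : J → (Gamma0 N →* ℂˣ)) (hΘ : Function.Injective Θ)
    (hn : ∀ x g, Θ x g ^ (ℓ ^ k) = 1)
    (hpar : ∀ x (g : Gamma0 N),
      ((g : SL(2, ℤ)) : Matrix (Fin 2) (Fin 2) ℤ).trace ^ 2 = 4 → Θ x g = 1)
    (htors : ∀ x (g : Gamma0 N), IsOfFinOrder g → Θ x g = 1)
    (lam : Additive (Gamma0 N) →+ ℤ) (hlam : lam ∈ parabolicHoms ℤ (Gamma0 N) ℤ) :
    ∃ x, ∀ g : Gamma0 N, Θ x g = ζ ^ lam (Additive.ofMul g) := by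
  have hℓ : 0 < ℓ := (Fact.out : ℓ.Prime).pos
  have : NeZero (ℓ ^ k) := ⟨pow_ne_zero k hℓ.ne'⟩
  refine exists_char_eq_zeta_zpow_Gamma0 N (ℓ ^ k) hlift hζ Θ hΘ hn hpar htors ?_ lam hlam
  rw [hJ, ← pow_mul]
  refine Nat.pow_le_pow_right hℓ ?_
  calc k * (2 * finrank ℂ (CuspForm (Gamma0 N) 2))
      ≤ k * (2 * γ) := Nat.mul_le_mul_left k (Nat.mul_le_mul_left 2 hγ)
    _ = 2 * γ * k := by ring

end Fermat.Agent.S29.helper9921
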